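import Mathlib

/-!
# Cover data for the two auxiliary rational covers of the `j`-line (S18, work package W4)

`two = false` : the `λ`-cover `j = 256 (T²-T+1)³ / (T² (T-1)²)`, Galois group `S₃` (six Möbius maps);
`two = true`  : the `μ`-cover `j = 27 T³ (T³+8)³ / (T³-1)³`, Galois group `A₄` (twelve Möbius maps,
defined over any ring containing a root `ζ` of `X² + X + 1`).
-/

set_option autoImplicit false

open Polynomial

namespace Fermat.Agent.RedLib.CoverData

/-! ### Generic ring identities -/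

section Generic

variable {R : Type*} [CommRing R]

theorem zeta_cube (z : R) (hz : z ^ 2 + z + 1 = 0) : z ^ 3 = 1 := by
  linear_combination (z - 1) * hz

theorem norm3 (z a b c : R) (hz : z ^ 2 + z + 1 = 0) :
    (a + b + c) * (a + z * b + z ^ 2 * c) * (a + z ^ 2 * b + z * c)
      = a ^ 3 + b ^ 3 + c ^ 3 - 3 * a * b * c := by
  linear_combination (z ^ 2 * a * b * c + z ^ 2 * b ^ 2 * c + z ^ 2 * b * c ^ 2 + z * a * b ^ 2
    - z * a * b * c + z * a * c ^ 2 + z * b ^ 3 + z * c ^ 3
    + a ^ 2 * b + a ^ 2 * c + 3 * a * b * c - b ^ 3 - c ^ 3) * hz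

theorem norm3' (z x y : R) (hz : z ^ 2 + z + 1 = 0) :
    (x - y) * (x - z * y) * (x - z ^ 2 * y) = x ^ 3 - y ^ 3 := by
  have := norm3 z x (-y) 0 hz
  linear_combination this

theorem mu_stageB (z u t : R) (hz : z ^ 2 + z + 1 = 0) :
    ((t - 1) ^ 3 * u - (t + 2) ^ 3) * ((z * t - 1) ^ 3 * u - (z * t + 2) ^ 3)
        * ((z ^ 2 * t - 1) ^ 3 * u - (z ^ 2 * t + 2) ^ 3)
      = (t ^ 3 - 1) ^ 3 * u ^ 3 - (3 * t ^ 9 + 261 * t ^ 6 + 441 * t ^ 3 + 24) * u ^ 2
        + (3 * t ^ 9 - 441 * t ^ 6 + 2088 * t ^ 3 - 192) * u - (t ^ 3 + 8) ^ 3 := by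
  have h3 := zeta_cube z hz
  have h := norm3 z ((u - 1) * t ^ 3 - (u + 8)) ((3 * u - 12) * t) (-(3 * u + 6) * t ^ 2) hz
  have e1 : ((z * t - 1) ^ 3 * u - (z * t + 2) ^ 3)
      = ((u - 1) * t ^ 3 - (u + 8)) + z * ((3 * u - 12) * t) + z ^ 2 * (-(3 * u + 6) * t ^ 2) := by
    linear_combination ((u - 1) * t ^ 3) * h3
  have e2 : ((z ^ 2 * t - 1) ^ 3 * u - (z ^ 2 * t + 2) ^ 3)
      = ((u - 1) * t ^ 3 - (u + 8)) + z ^ 2 * ((3 * u - 12) * t) + z * (-(3 * u + 6) * t ^ 2) := by
    linear_combination ((u - 1) * t ^ 3 * (z ^ 3 + 1) - (3 * u + 6) * t ^ 2 * z) * h3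
  have e0 : ((t - 1) ^ 3 * u - (t + 2) ^ 3)
      = ((u - 1) * t ^ 3 - (u + 8)) + ((3 * u - 12) * t) + (-(3 * u + 6) * t ^ 2) := by
    ring
  rw [e0, e1, e2, h]
  ring

/-- The master identity for the `λ`-cover. -/
theorem lam_star_elt (s t : R) :
    256 * (s ^ 2 - s + 1) ^ 3 * (t ^ 2 * (t - 1) ^ 2) - s ^ 2 * (s - 1) ^ 2 * (256 * (t ^ 2 - t + 1) ^ 3)
      = 256 * ((s - t) * (s - (-t + 1)) * (t * s - 1) * ((t - 1) * s - t) * ((t - 1) * s + 1)
          * (t * s - (t - 1))) := by
  ring

/-- The master identity for the `μ`-cover. -/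
theorem mu_star_elt (z s t : R) (hz : z ^ 2 + z + 1 = 0) :
    27 * s ^ 3 * (s ^ 3 + 8) ^ 3 * (t ^ 3 - 1) ^ 3 - (s ^ 3 - 1) ^ 3 * (27 * t ^ 3 * (t ^ 3 + 8) ^ 3)
      = 27 * (((s - t) * (s - z * t) * (s - z ^ 2 * t))
          * (((t - 1) * s - (t + 2)) * ((t - 1) * s - z * (t + 2)) * ((t - 1) * s - z ^ 2 * (t + 2)))
          * (((z * t - 1) * s - (z * t + 2)) * ((z * t - 1) * s - z * (z * t + 2))
              * ((z * t - 1) * s - z ^ 2 * (z * t + 2)))
          * (((z ^ 2 * t - 1) * s - (z ^ 2 * t + 2)) * ((z ^ 2 * t - 1) * s - z * (z ^ 2 * t + 2))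
              * ((z ^ 2 * t - 1) * s - z ^ 2 * (z ^ 2 * t + 2)))) := by
  rw [norm3' z s t hz, norm3' z ((t - 1) * s) (t + 2) hz, norm3' z ((z * t - 1) * s) (z * t + 2) hz,
    norm3' z ((z ^ 2 * t - 1) * s) (z ^ 2 * t + 2) hz]
  have hC := mu_stageB z (s ^ 3) t hz
  linear_combination (-27 * (s ^ 3 - t ^ 3)) * hC

end Generic

/-! ### The data -/

section Data

/-- Numerator of the cover map `φ`. -/
noncomputable def num : Bool → (R : Type*) → [CommRing R] → R[X]
  | false, _, _ => 256 * (X ^ 2 - X + 1) ^ 3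
  | true, _, _ => 27 * X ^ 3 * (X ^ 3 + 8) ^ 3

/-- Denominator of the cover map `φ`. -/
noncomputable def den : Bool → (R : Type*) → [CommRing R] → R[X]
  | false, _, _ => X ^ 2 * (X - 1) ^ 2
  | true, _, _ => (X ^ 3 - 1) ^ 3

/-- The cusp polynomial `c` (`den` is a power of it). -/
noncomputable def cusp : Bool → (R : Type*) → [CommRing R] → R[X]
  | false, _, _ => X * (X - 1)
  | true, _, _ => X ^ 3 - 1

/-- `γ₀`: the points over `j = 0`. -/
noncomputable def g0 : Bool → (R : Type*) → [CommRing R] → R[X]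
  | false, _, _ => X ^ 2 - X + 1
  | true, _, _ => X * (X ^ 3 + 8)

/-- `γ₁₇₂₈`: the points over `j = 1728`. -/
noncomputable def g1 : Bool → (R : Type*) → [CommRing R] → R[X]
  | false, _, _ => (2 * X - 1) * (X - 2) * (X + 1)
  | true, _, _ => X ^ 6 - 20 * X ^ 3 - 8

/-- Leading coefficient of `num`. -/
def lead : Bool → ℕ
  | false => 256
  | true => 27

/-- The constant in `num - 1728 den = c1 * g1 ^ 2`. -/
def c1 : Bool → ℕ
  | false => 64
  | true => 27

/-- The constant in the Wronskian. -/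
def cw : Bool → ℕ
  | false => 256
  | true => 81

/-- `den = cusp ^ eD`. -/
def eD : Bool → ℕ
  | false => 2
  | true => 3

/-- Exponent of `cusp` in the Wronskian. -/
def eW : Bool → ℕ
  | false => 1
  | true => 2

/-- The order of the Galois group (`= deg φ`). -/
def nG : Bool → ℕ
  | false => 6
  | true => 12

/-- Möbius maps `T ↦ (Ma i T + Mb i) / (Mc i T + Md i)`: the entry `a`. -/
def Ma : (two : Bool) → {R : Type*} → [CommRing R] → R → Fin (nG two) → R
  | false, _, _, _ => (![1, -1, 0, 1, 0, 1] : Fin 6 → _)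
  | true, _, _, ζ =>
    (![1, ζ, ζ ^ 2, 1, ζ, ζ ^ 2, ζ, ζ ^ 2, ζ ^ 3, ζ ^ 2, ζ ^ 3, ζ ^ 4] : Fin 12 → _)

/-- Möbius maps: the entry `b`. -/
def Mb : (two : Bool) → {R : Type*} → [CommRing R] → R → Fin (nG two) → R
  | false, _, _, _ => (![0, 1, 1, 0, -1, -1] : Fin 6 → _)
  | true, _, _, ζ =>
    (![0, 0, 0, 2, 2 * ζ, 2 * ζ ^ 2, 2, 2 * ζ, 2 * ζ ^ 2, 2, 2 * ζ, 2 * ζ ^ 2] : Fin 12 → _)

/-- Möbius maps: the entry `c`. -/
def Mc : (two : Bool) → {R : Type*} → [CommRing R] → R → Fin (nG two) → R
  | false, _, _, _ => (![0, 0, 1, 1, 1, 1] : Fin 6 → _)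
  | true, _, _, ζ =>
    (![0, 0, 0, 1, 1, 1, ζ, ζ, ζ, ζ ^ 2, ζ ^ 2, ζ ^ 2] : Fin 12 → _)

/-- Möbius maps: the entry `d`. -/
def Md : (two : Bool) → {R : Type*} → [CommRing R] → R → Fin (nG two) → R
  | false, _, _, _ => (![1, 1, 0, -1, -1, 0] : Fin 6 → _)
  | true, _, _, _ =>
    (![1, 1, 1, -1, -1, -1, -1, -1, -1, -1, -1, -1] : Fin 12 → _)

variable (two : Bool) {R : Type*} [CommRing R] {S : Type*} [CommRing S]

theorem num_map (f : R →+* S) : (num two R).map f = num two S := by
  cases two <;> simp [num]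

theorem den_map (f : R →+* S) : (den two R).map f = den two S := by
  cases two <;> simp [den]

theorem cusp_map (f : R →+* S) : (cusp two R).map f = cusp two S := by
  cases two <;> simp [cusp]

theorem g0_map (f : R →+* S) : (g0 two R).map f = g0 two S := by
  cases two <;> simp [g0]

theorem g1_map (f : R →+* S) : (g1 two R).map f = g1 two S := by
  cases two <;> simp [g1]

theorem Ma_map (f : R →+* S) (ζ : R) (i : Fin (nG two)) : f (Ma two ζ i) = Ma two (f ζ) i := by
  cases two
  · revert i; change ∀ i : Fin 6, _; simp [Fin.forall_fin_succ, Ma, map_ofNat]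
  · revert i; change ∀ i : Fin 12, _; simp [Fin.forall_fin_succ, Ma, map_ofNat]

theorem Mb_map (f : R →+* S) (ζ : R) (i : Fin (nG two)) : f (Mb two ζ i) = Mb two (f ζ) i := by
  cases two
  · revert i; change ∀ i : Fin 6, _; simp [Fin.forall_fin_succ, Mb, map_ofNat]
  · revert i; change ∀ i : Fin 12, _; simp [Fin.forall_fin_succ, Mb, map_ofNat]

theorem Mc_map (f : R →+* S) (ζ : R) (i : Fin (nG two)) : f (Mc two ζ i) = Mc two (f ζ) i := by
  cases two
  · revert i; change ∀ i : Fin 6, _; simp [Fin.forall_fin_succ, Mc, map_ofNat]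
  · revert i; change ∀ i : Fin 12, _; simp [Fin.forall_fin_succ, Mc, map_ofNat]

theorem Md_map (f : R →+* S) (ζ : R) (i : Fin (nG two)) : f (Md two ζ i) = Md two (f ζ) i := by
  cases two
  · revert i; change ∀ i : Fin 6, _; simp [Fin.forall_fin_succ, Md, map_ofNat]
  · revert i; change ∀ i : Fin 12, _; simp [Fin.forall_fin_succ, Md, map_ofNat]

section aeval
variable {B : Type*} [CommRing B] [Algebra R B]

theorem aeval_num (x : B) : aeval x (num two R) = (num two B).eval x := by
  rw [← num_map two (algebraMap R B), eval_map, aeval_def]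

theorem aeval_den (x : B) : aeval x (den two R) = (den two B).eval x := by
  rw [← den_map two (algebraMap R B), eval_map, aeval_def]

theorem aeval_cusp (x : B) : aeval x (cusp two R) = (cusp two B).eval x := by
  rw [← cusp_map two (algebraMap R B), eval_map, aeval_def]

theorem aeval_g0 (x : B) : aeval x (g0 two R) = (g0 two B).eval x := by
  rw [← g0_map two (algebraMap R B), eval_map, aeval_def]

theorem aeval_g1 (x : B) : aeval x (g1 two R) = (g1 two B).eval x := by
  rw [← g1_map two (algebraMap R B), eval_map, aeval_def]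

end aeval

/-! ### Polynomial identities -/

variable (R)

theorem num_eq : num two R = (lead two : R[X]) * g0 two R ^ 3 := by
  cases two
  · simp [num, g0, lead]
  · simp only [num, g0, lead]; push_cast; ring

theorem den_eq : den two R = cusp two R ^ eD two := by
  cases two
  · simp only [den, cusp, eD]; ring
  · simp [den, cusp, eD]

theorem num_sub : num two R - 1728 * den two R = (c1 two : R[X]) * g1 two R ^ 2 := by
  cases two
  · simp only [num, den, g1, c1]; push_cast; ring
  · simp only [num, den, g1, c1]; push_cast; ring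

theorem wronskian :
    derivative (num two R) * den two R - num two R * derivative (den two R)
      = (cw two : R[X]) * g0 two R ^ 2 * cusp two R ^ eW two * g1 two R := by
  cases two
  · simp only [num, den, g0, g1, cusp, cw, eW, derivative_mul, derivative_pow, derivative_sub,
      derivative_add, derivative_X, derivative_one, derivative_ofNat, derivative_X_pow,
      Nat.cast_ofNat, map_ofNat]
    ring
  · simp only [num, den, g0, g1, cusp, cw, eW, derivative_mul, derivative_pow, derivative_sub,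
      derivative_add, derivative_X, derivative_one, derivative_ofNat, derivative_X_pow,
      Nat.cast_ofNat, map_ofNat]
    ring

theorem natDegree_num_le : (num two R).natDegree ≤ nG two := by
  cases two
  · simp only [num, nG]; compute_degree!
  · simp only [num, nG]; compute_degree!

theorem coeff_num : (num two R).coeff (nG two) = lead two := by
  cases two
  · simp only [num, nG, lead, Nat.cast_ofNat]; compute_degree!
  · simp only [num, nG, lead, Nat.cast_ofNat]; compute_degree!

theorem natDegree_den_lt : (den two R).natDegree < nG two := by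
  cases two
  · have : (den false R).natDegree ≤ 4 := by simp only [den]; compute_degree!
    exact lt_of_le_of_lt this (by decide)
  · have : (den true R).natDegree ≤ 9 := by simp only [den]; compute_degree!
    exact lt_of_le_of_lt this (by decide)

variable {R}

/-- **Master identity** `num(s) den(t) - den(s) num(t) = lead * ∏_g ((c_g t + d_g) s - (a_g t + b_g))`. -/
theorem star (ζ : R) (hζ : ζ ^ 2 + ζ + 1 = 0) (s t : R) :
    (num two R).eval s * (den two R).eval t - (den two R).eval s * (num two R).eval t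
      = lead two * ∏ i, ((Mc two ζ i * t + Md two ζ i) * s - (Ma two ζ i * t + Mb two ζ i)) := by
  cases two
  · have h := lam_star_elt s t
    change _ = _ * ∏ i : Fin 6, _
    simp only [num, den, lead, Ma, Mb, Mc, Md, Fin.prod_univ_succ, eval_mul, eval_pow, eval_sub,
      eval_add, eval_X, eval_one, eval_ofNat]
    simp
    linear_combination h
  · have h := mu_star_elt ζ s t hζ
    change _ = _ * ∏ i : Fin 12, _
    simp only [num, den, lead, Ma, Mb, Mc, Md, Fin.prod_univ_succ, eval_mul, eval_pow, eval_sub,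
      eval_add, eval_X, eval_one, eval_ofNat]
    simp
    linear_combination h

end Data

end Fermat.Agent.RedLib.CoverData
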