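import Mathlib
import Fermat.Agent.RedLib.CoverData

/-!
# RedLib/A0Facts: small facts about a valuation subring `B` of a field `K` of residue
characteristic `ℓ` (in the application `B = A ∩ K`), used by the wiring of the instance

* roots of unity of `K` lie in `B` (`mem_of_pow_eq_one`, `exists_isPrimitiveRoot`,
  `exists_cube_root`);
* natural numbers prime to `ℓ` are units of `B` (`exists_natCast_mul_eq_one`, `isUnit_natCast`,
  `isUnit_lead`, `isUnit_three`);
* `isAlgebraic_of_isIntegral`: integral over `B` implies algebraic over `K`.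
-/

set_option autoImplicit false

namespace Fermat.Agent.RedLib.A0Facts

section General

variable {K : Type*} [Field K] (B : ValuationSubring K)

/-- Roots of unity lie in every valuation subring. -/
theorem mem_of_pow_eq_one {ζ : K} {n : ℕ} (hn : n ≠ 0) (h : ζ ^ n = 1) : ζ ∈ B := by
  rw [← B.valuation_le_one_iff]
  by_contra hlt
  rw [not_le] at hlt
  have h1 : 1 < B.valuation ζ ^ n := one_lt_pow₀ hlt hn
  rw [← map_pow, h, map_one] at h1
  exact lt_irrefl _ h1

/-- A natural number prime to the residue characteristic is a unit of `B`. -/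
theorem inv_natCast_mem {ℓ : ℕ} (hℓ : (ℓ : K) ∈ B.nonunits) {n : ℕ} (hn : Nat.Coprime n ℓ) :
    ((n : K))⁻¹ ∈ B := by
  rw [← B.valuation_le_one_iff, map_inv₀]
  have hle : B.valuation (n : K) ≤ 1 := (B.valuation_le_one_iff _).mpr (_root_.natCast_mem B n)
  have h1 : B.valuation (n : K) = 1 := by
    by_contra hne
    have hlt : B.valuation (n : K) < 1 := lt_of_le_of_ne hle hne
    obtain ⟨a, b, hab⟩ := (Nat.isCoprime_iff_coprime.mpr hn)
    have hK : (a : K) * (n : K) + (b : K) * (ℓ : K) = 1 := by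
      have := congrArg (Int.cast : ℤ → K) hab
      push_cast at this
      exact this
    have ha : B.valuation (a : K) ≤ 1 := (B.valuation_le_one_iff _).mpr (intCast_mem B a)
    have hb : B.valuation (b : K) ≤ 1 := (B.valuation_le_one_iff _).mpr (intCast_mem B b)
    have h2 : B.valuation ((a : K) * (n : K) + (b : K) * (ℓ : K)) < 1 := by
      refine Valuation.map_add_lt _ ?_ ?_
      · rw [map_mul]
        exact mul_lt_one_of_nonneg_of_lt_one_right ha zero_le hlt
      · rw [map_mul]
        exact mul_lt_one_of_nonneg_of_lt_one_right hb zero_le hℓ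
    rw [hK, map_one] at h2
    exact lt_irrefl _ h2
  rw [h1, inv_one]

theorem exists_natCast_mul_eq_one {ℓ : ℕ} (hℓ : (ℓ : K) ∈ B.nonunits) {n : ℕ}
    (hn : Nat.Coprime n ℓ) : ∃ ninv : ↥B, (n : ↥B) * ninv = 1 := by
  have hn0 : (n : K) ≠ 0 := by
    intro h0
    have h1 := inv_natCast_mem B hℓ hn
    have hlt : B.valuation (ℓ : K) < 1 := hℓ
    obtain ⟨a, b, hab⟩ := (Nat.isCoprime_iff_coprime.mpr hn)
    have hK : (a : K) * (n : K) + (b : K) * (ℓ : K) = 1 := by
      have := congrArg (Int.cast : ℤ → K) hab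
      push_cast at this
      exact this
    rw [h0, mul_zero, zero_add] at hK
    have hb : B.valuation (b : K) ≤ 1 := (B.valuation_le_one_iff _).mpr (intCast_mem B b)
    have h2 : B.valuation ((b : K) * (ℓ : K)) < 1 := by
      rw [map_mul]
      exact mul_lt_one_of_nonneg_of_lt_one_right hb zero_le hlt
    rw [hK, map_one] at h2
    exact lt_irrefl _ h2
  refine ⟨⟨((n : K))⁻¹, inv_natCast_mem B hℓ hn⟩, Subtype.ext ?_⟩
  have h1 : (((n : ↥B) * ⟨((n : K))⁻¹, inv_natCast_mem B hℓ hn⟩ : ↥B) : K)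
      = (n : K) * ((n : K))⁻¹ := by
    rw [MulMemClass.coe_mul]
    rfl
  rw [h1, mul_inv_cancel₀ hn0]
  rfl

theorem isUnit_natCast {ℓ : ℕ} (hℓ : (ℓ : K) ∈ B.nonunits) {n : ℕ} (hn : Nat.Coprime n ℓ) :
    IsUnit ((n : ℕ) : ↥B) := by
  obtain ⟨ninv, h⟩ := exists_natCast_mul_eq_one B hℓ hn
  exact IsUnit.of_mul_eq_one ninv h

/-- A primitive root of unity of `K`, as an element of `B`. -/
theorem isPrimitiveRoot_mk {ζ : K} {n : ℕ} (hζ : IsPrimitiveRoot ζ n) (hmem : ζ ∈ B) :
    IsPrimitiveRoot (⟨ζ, hmem⟩ : ↥B) n :=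
  IsPrimitiveRoot.of_map_of_injective (f := B.subtype) hζ Subtype.val_injective

theorem exists_isPrimitiveRoot {n : ℕ} (hn : n ≠ 0) (h : ∃ ζ : K, IsPrimitiveRoot ζ n) :
    ∃ ζ : ↥B, IsPrimitiveRoot ζ n := by
  obtain ⟨ζ, hζ⟩ := h
  exact ⟨⟨ζ, mem_of_pow_eq_one B hn hζ.pow_eq_one⟩, isPrimitiveRoot_mk B hζ _⟩

end General

section Cube

variable {R : Type*} [CommRing R] [IsDomain R]

/-- A primitive cube root of unity satisfies `ζ² + ζ + 1 = 0`. -/
theorem cube_root_eq {ζ : R} (hζ : IsPrimitiveRoot ζ 3) : ζ ^ 2 + ζ + 1 = 0 := by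
  have h := hζ.geom_sum_eq_zero (by norm_num)
  rw [Finset.sum_range_succ, Finset.sum_range_succ, Finset.sum_range_one, pow_zero, pow_one] at h
  linear_combination h

end Cube

section Lead

variable {K : Type*} [Field K] (B : ValuationSubring K)

theorem exists_cube_root (h : ∃ ζ : K, IsPrimitiveRoot ζ 3) :
    ∃ ζ : ↥B, IsPrimitiveRoot ζ 3 ∧ ζ ^ 2 + ζ + 1 = 0 := by
  obtain ⟨ζ, hζ⟩ := exists_isPrimitiveRoot B (by norm_num) h
  exact ⟨ζ, hζ, cube_root_eq hζ⟩

/-- The leading constant of the cover (`256` for `ℓ` odd, `27` for `ℓ = 2`) is a unit. -/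
theorem isUnit_lead {ℓ : ℕ} (hℓp : ℓ.Prime) (hℓ : (ℓ : K) ∈ B.nonunits) :
    IsUnit (((CoverData.lead (decide (ℓ = 2)) : ℕ)) : ↥B) := by
  apply isUnit_natCast B hℓ
  by_cases h2 : ℓ = 2
  · subst h2
    decide
  · have hd : decide (ℓ = 2) = false := by simp [h2]
    rw [hd]
    show Nat.Coprime 256 ℓ
    have h3 : Nat.Coprime 2 ℓ := (Nat.coprime_primes Nat.prime_two hℓp).mpr (fun h => h2 h.symm)
    have : (256 : ℕ) = 2 ^ 8 := by norm_num
    rw [this]
    exact Nat.Coprime.pow_left 8 h3

/-- `3` is a unit of `B` in residue characteristic `2`. -/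
theorem isUnit_three {ℓ : ℕ} (hℓ : (ℓ : K) ∈ B.nonunits) (h2 : decide (ℓ = 2) = true) :
    IsUnit (3 : ↥B) := by
  have hl : ℓ = 2 := of_decide_eq_true h2
  subst hl
  have := isUnit_natCast B hℓ (n := 3) (by decide)
  simpa using this

end Lead

section Alg

/-- Integral over a subring with injective structure map into a field `K` implies algebraic over
`K`. -/
theorem isAlgebraic_of_isIntegral {A0 K F : Type*} [CommRing A0] [Field K] [Algebra A0 K]
    [Ring F] [Algebra A0 F] [Algebra K F] [IsScalarTower A0 K F]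
    (hinj : Function.Injective (algebraMap A0 K)) {y : F} (hy : IsIntegral A0 y) :
    IsAlgebraic K y := by
  have : Nontrivial A0 := (algebraMap A0 K).domain_nontrivial
  exact hy.isAlgebraic.extendScalars hinj

end Alg

section PowerBasis

open Polynomial

/-- The powers `1, T, …, T^(p-1)` of the root of an irreducible `X ^ p - u` are linearly
independent over the base field (`hind` of the e-family). -/
theorem linearIndependent_root_pow {F : Type*} [Field F] {p : ℕ} (u : F)
    (hirr : Irreducible (X ^ p - C u : F[X])) :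
    LinearIndependent F
      (fun a : Fin p => (AdjoinRoot.root (X ^ p - C u : F[X])) ^ (a : ℕ)) := by
  have hne : (X ^ p - C u : F[X]) ≠ 0 := hirr.ne_zero
  set pb := AdjoinRoot.powerBasis hne with hpb
  have hdim : p = pb.dim := by
    rw [hpb, AdjoinRoot.powerBasis_dim, natDegree_X_pow_sub_C]
  have h1 : LinearIndependent F (fun i : Fin pb.dim => pb.gen ^ (i : ℕ)) := by
    rw [← pb.coe_basis]
    exact pb.basis.linearIndependent
  have h2 := h1.comp (Fin.cast hdim) (Fin.cast_injective hdim)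
  exact h2

end PowerBasis

end Fermat.Agent.RedLib.A0Facts
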