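import Fermat.Agent.RedLib.CoverData

/-!
# Cover data, part 2: consequences over fields (S18, work package W4)

Roots of `Φ = num - j den` are the Möbius transforms of one root (`star_poly`, `splits`),
separability of `num - a den` for `a ≠ 0, 1728`, the local shape of `num - a den` at a point
(`simple_root`, `triple_root`, `double_root`), integrality of `t` and `1 / cusp(t)` over any
ring containing `j` in which the leading coefficient is invertible.
-/

set_option autoImplicit false

open Polynomial

namespace Fermat.Agent.RedLib.CoverFacts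

open Fermat.Agent.RedLib.CoverData

variable (two : Bool)

section Ring

variable {R : Type*} [CommRing R]

theorem lead_cast_ne_zero_iff {B : Type*} [Field B] :
    ((lead two : ℕ) : B) ≠ 0 ↔ ((if two then 3 else 2 : ℕ) : B) ≠ 0 := by
  cases two
  · simp only [lead, Bool.false_eq_true, if_false]
    have : ((256 : ℕ) : B) = ((2 : ℕ) : B) ^ 8 := by norm_num
    rw [this]; exact pow_ne_zero_iff (by norm_num)
  · simp only [lead, if_true]
    have : ((27 : ℕ) : B) = ((3 : ℕ) : B) ^ 3 := by norm_num
    rw [this]; exact pow_ne_zero_iff (by norm_num)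

theorem eval_num_eq (x : R) : (num two R).eval x = (lead two : R) * (g0 two R).eval x ^ 3 := by
  rw [num_eq]; simp

theorem eval_den_eq (x : R) : (den two R).eval x = (cusp two R).eval x ^ eD two := by
  rw [den_eq]; simp

theorem eval_num_sub (x : R) :
    (num two R).eval x - 1728 * (den two R).eval x = (c1 two : R) * (g1 two R).eval x ^ 2 := by
  have := congrArg (eval x) (num_sub two R)
  simpa using this

theorem eval_wronskian (x : R) :
    (derivative (num two R)).eval x * (den two R).eval x
        - (num two R).eval x * (derivative (den two R)).eval x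
      = (cw two : R) * (g0 two R).eval x ^ 2 * (cusp two R).eval x ^ eW two * (g1 two R).eval x := by
  have := congrArg (eval x) (wronskian two R)
  simpa using this

/-- Bézout relation between `g0` and `cusp`, evaluated. -/
theorem g0_cusp_bezout (x : R) :
    (if two then x ^ 2 else 1) * (g0 two R).eval x
        - (if two then x ^ 3 + 9 else 1) * (cusp two R).eval x
      = (if two then 9 else 1) := by
  cases two
  · simp [g0, cusp]; ring
  · simp [g0, cusp]; ring

/-- The polynomial form of the master identity: all roots of `Φ = num - j den` are the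
Möbius transforms of a given root `t`. -/
theorem star_poly (ζ : R) (hζ : ζ ^ 2 + ζ + 1 = 0) (t j : R)
    (ht : (num two R).eval t = j * (den two R).eval t) :
    C ((den two R).eval t) * (num two R - C j * den two R)
      = C (lead two : R)
        * ∏ i, (C (Mc two ζ i * t + Md two ζ i) * X - C (Ma two ζ i * t + Mb two ζ i)) := by
  have hζ' : (C ζ : R[X]) ^ 2 + C ζ + 1 = 0 := by
    rw [← C_pow, ← C_add, ← C_1, ← C_add, hζ, C_0]
  have h := star two (C ζ) hζ' (X : R[X]) (C t)
  have e1 : (num two R[X]).eval X = num two R := by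
    rw [← num_map two (C : R →+* R[X]), eval_map, eval₂_C_X]
  have e2 : (num two R[X]).eval (C t) = C ((num two R).eval t) := by
    rw [← num_map two (C : R →+* R[X]), eval_map, eval₂_at_apply]
  have e3 : (den two R[X]).eval X = den two R := by
    rw [← den_map two (C : R →+* R[X]), eval_map, eval₂_C_X]
  have e4 : (den two R[X]).eval (C t) = C ((den two R).eval t) := by
    rw [← den_map two (C : R →+* R[X]), eval_map, eval₂_at_apply]
  rw [e1, e2, e3, e4] at h
  simp only [C_add, C_mul, Ma_map, Mb_map, Mc_map, Md_map, map_natCast]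
  rw [← h, ht, C_mul]
  ring

end Ring

section Field

variable {B : Type*} [Field B]

theorem lead_ne_zero_of_charZero [CharZero B] : ((lead two : ℕ) : B) ≠ 0 := by
  cases two <;> simp [lead]

theorem c1_ne_zero (hlead : ((lead two : ℕ) : B) ≠ 0) : ((c1 two : ℕ) : B) ≠ 0 := by
  rw [lead_cast_ne_zero_iff] at hlead
  cases two
  · simp only [Bool.false_eq_true, if_false] at hlead
    have : ((c1 false : ℕ) : B) = ((2 : ℕ) : B) ^ 6 := by simp only [c1]; norm_num
    rw [this]; exact pow_ne_zero _ hlead
  · simp only [if_true] at hlead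
    have : ((c1 true : ℕ) : B) = ((3 : ℕ) : B) ^ 3 := by simp only [c1]; norm_num
    rw [this]; exact pow_ne_zero _ hlead

theorem cw_ne_zero (hlead : ((lead two : ℕ) : B) ≠ 0) : ((cw two : ℕ) : B) ≠ 0 := by
  rw [lead_cast_ne_zero_iff] at hlead
  cases two
  · simp only [Bool.false_eq_true, if_false] at hlead
    have : ((cw false : ℕ) : B) = ((2 : ℕ) : B) ^ 8 := by simp only [cw]; norm_num
    rw [this]; exact pow_ne_zero _ hlead
  · simp only [if_true] at hlead
    have : ((cw true : ℕ) : B) = ((3 : ℕ) : B) ^ 4 := by simp only [cw]; norm_num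
    rw [this]; exact pow_ne_zero _ hlead

/-- `g0` and `cusp` have no common zero. -/
theorem g0_cusp_ne (hlead : ((lead two : ℕ) : B) ≠ 0) (x : B)
    (h0 : (g0 two B).eval x = 0) (hc : (cusp two B).eval x = 0) : False := by
  have h := g0_cusp_bezout two x
  rw [h0, hc, mul_zero, mul_zero, sub_zero] at h
  rw [lead_cast_ne_zero_iff] at hlead
  cases two
  · simp at h
  · simp only [if_true] at h hlead
    apply hlead
    have h9 : (9 : B) = 3 * 3 := by norm_num
    have : (3 : B) * 3 = 0 := by rw [← h9]; exact h.symm
    rcases mul_self_eq_zero.mp this with h3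
    exact_mod_cast h3

/-- `num` and `den` have no common zero. -/
theorem num_den_ne (hlead : ((lead two : ℕ) : B) ≠ 0) (x : B)
    (hn : (num two B).eval x = 0) (hd : (den two B).eval x = 0) : False := by
  rw [eval_num_eq] at hn
  rw [eval_den_eq] at hd
  have h0 : (g0 two B).eval x = 0 := by
    rcases mul_eq_zero.mp hn with h | h
    · exact absurd h hlead
    · exact pow_eq_zero_iff (by norm_num) |>.mp h
  have hc : (cusp two B).eval x = 0 := pow_eq_zero_iff (by cases two <;> simp [eD]) |>.mp hd
  exact g0_cusp_ne two hlead x h0 hc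

/-- At a root `t` of `Φ = num - j den` the denominator does not vanish. -/
theorem den_ne_zero_of_root (hlead : ((lead two : ℕ) : B) ≠ 0) {t j : B}
    (ht : (num two B).eval t = j * (den two B).eval t) : (den two B).eval t ≠ 0 := by
  intro hd
  rw [hd, mul_zero] at ht
  exact num_den_ne two hlead t ht hd

theorem cusp_ne_zero_of_root (hlead : ((lead two : ℕ) : B) ≠ 0) {t j : B}
    (ht : (num two B).eval t = j * (den two B).eval t) : (cusp two B).eval t ≠ 0 := by
  intro hc
  apply den_ne_zero_of_root two hlead ht
  rw [eval_den_eq, hc]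
  cases two <;> simp [eD]

theorem den_ne_zero_of_cusp {t : B} (hc : (cusp two B).eval t ≠ 0) : (den two B).eval t ≠ 0 := by
  rw [eval_den_eq]; exact pow_ne_zero _ hc

/-- Every root of `Φ` is a Möbius transform of the root `t`. -/
theorem exists_moebius_of_root (ζ : B) (hζ : ζ ^ 2 + ζ + 1 = 0) (hlead : ((lead two : ℕ) : B) ≠ 0)
    {t j s : B} (ht : (num two B).eval t = j * (den two B).eval t)
    (hs : (num two B).eval s = j * (den two B).eval s) :
    ∃ i, (Mc two ζ i * t + Md two ζ i) * s = Ma two ζ i * t + Mb two ζ i := by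
  have h := star two ζ hζ s t
  rw [ht, hs] at h
  have h0 : ∏ i, ((Mc two ζ i * t + Md two ζ i) * s - (Ma two ζ i * t + Mb two ζ i)) = 0 := by
    have : ((lead two : ℕ) : B) * ∏ i, ((Mc two ζ i * t + Md two ζ i) * s
        - (Ma two ζ i * t + Mb two ζ i)) = 0 := by rw [← h]; ring
    exact (mul_eq_zero.mp this).resolve_left hlead
  obtain ⟨i, -, hi⟩ := Finset.prod_eq_zero_iff.mp h0
  exact ⟨i, sub_eq_zero.mp hi⟩

/-- Every Möbius transform of the root `t` is a root of `Φ`. -/
theorem root_of_moebius (ζ : B) (hζ : ζ ^ 2 + ζ + 1 = 0) (hlead : ((lead two : ℕ) : B) ≠ 0)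
    {t j s : B} (ht : (num two B).eval t = j * (den two B).eval t) (i : Fin (nG two))
    (hs : (Mc two ζ i * t + Md two ζ i) * s = Ma two ζ i * t + Mb two ζ i) :
    (num two B).eval s = j * (den two B).eval s := by
  have hd := den_ne_zero_of_root two hlead ht
  have h := star two ζ hζ s t
  have h0 : ∏ i, ((Mc two ζ i * t + Md two ζ i) * s - (Ma two ζ i * t + Mb two ζ i)) = 0 :=
    Finset.prod_eq_zero (Finset.mem_univ i) (sub_eq_zero.mpr hs)
  rw [h0, mul_zero, ht] at h
  have : ((num two B).eval s - j * (den two B).eval s) * (den two B).eval t = 0 := by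
    linear_combination h
  exact sub_eq_zero.mp ((mul_eq_zero.mp this).resolve_right hd)

/-- `Φ = num - j den` splits as soon as it has one root `t` (and a cube root of unity is
available). -/
theorem splits (ζ : B) (hζ : ζ ^ 2 + ζ + 1 = 0) (hlead : ((lead two : ℕ) : B) ≠ 0)
    {t j : B} (ht : (num two B).eval t = j * (den two B).eval t) :
    (num two B - C j * den two B).Splits := by
  have hd := den_ne_zero_of_root two hlead ht
  have h := star_poly two ζ hζ t j ht
  have e : num two B - C j * den two B = C ((den two B).eval t)⁻¹ * (C ((lead two : ℕ) : B)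
      * ∏ i, (C (Mc two ζ i * t + Md two ζ i) * X - C (Ma two ζ i * t + Mb two ζ i))) := by
    rw [← h, ← mul_assoc, ← C_mul, inv_mul_cancel₀ hd, C_1, one_mul]
  rw [e]
  refine Splits.C_mul (Splits.C_mul (Splits.prod fun i _ => ?_) _) _
  by_cases hα : Mc two ζ i * t + Md two ζ i = 0
  · rw [hα, C_0, zero_mul, zero_sub, ← C_neg]
    exact Splits.C _
  · have : C (Mc two ζ i * t + Md two ζ i) * X - C (Ma two ζ i * t + Mb two ζ i)
        = C (Mc two ζ i * t + Md two ζ i)
          * (X - C ((Ma two ζ i * t + Mb two ζ i) / (Mc two ζ i * t + Md two ζ i))) := by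
      rw [mul_sub, ← C_mul, mul_div_cancel₀ _ hα]
    rw [this]
    exact Splits.C_mul (Splits.X_sub_C _) _

theorem natDegree_phi (hlead : ((lead two : ℕ) : B) ≠ 0) (j : B) :
    (num two B - C j * den two B).natDegree = nG two := by
  have hd : (C j * den two B).natDegree < nG two :=
    lt_of_le_of_lt (natDegree_C_mul_le _ _) (natDegree_den_lt two B)
  have hn : (num two B).natDegree = nG two := by
    refine le_antisymm (natDegree_num_le two B) (le_natDegree_of_ne_zero ?_)
    rw [coeff_num]; exact hlead
  rw [natDegree_sub_eq_left_of_natDegree_lt (by rw [hn]; exact hd), hn]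

theorem phi_ne_zero (hlead : ((lead two : ℕ) : B) ≠ 0) (j : B) :
    num two B - C j * den two B ≠ 0 := by
  intro h
  have := natDegree_phi two hlead j
  rw [h, natDegree_zero] at this
  cases two <;> simp [nG] at this

/-- The shape requested by the instance builder: `Φ` over `ℤ`, mapped to a field. -/
theorem splits_int [CharZero B] (ζ : B) (hζ : ζ ^ 2 + ζ + 1 = 0) {t j : B}
    (ht : ((num two ℤ).map (Int.castRingHom B)).eval t
      - j * ((den two ℤ).map (Int.castRingHom B)).eval t = 0) :
    ((num two ℤ).map (Int.castRingHom B) - C j * (den two ℤ).map (Int.castRingHom B)).Splits := by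
  rw [num_map, den_map] at ht ⊢
  exact splits two ζ hζ (lead_ne_zero_of_charZero two) (sub_eq_zero.mp ht)

/-! ### Separability -/

/-- A double root of `num - a den` forces `a = 0` or `a = 1728`. -/
theorem double_root_cases (hlead : ((lead two : ℕ) : B) ≠ 0) {a x : B}
    (hP : (num two B).eval x = a * (den two B).eval x)
    (hP' : (derivative (num two B)).eval x = a * (derivative (den two B)).eval x) :
    a = 0 ∨ a = 1728 := by
  have hd := den_ne_zero_of_root two hlead hP
  have hw := eval_wronskian two x
  rw [hP, hP'] at hw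
  have hw0 : ((cw two : ℕ) : B) * (g0 two B).eval x ^ 2 * (cusp two B).eval x ^ eW two
      * (g1 two B).eval x = 0 := by rw [← hw]; ring
  have hc : (cusp two B).eval x ≠ 0 := cusp_ne_zero_of_root two hlead hP
  rcases mul_eq_zero.mp hw0 with h | h
  · rcases mul_eq_zero.mp h with h | h
    · rcases mul_eq_zero.mp h with h | h
      · exact absurd h (cw_ne_zero two hlead)
      · left
        have h0 : (g0 two B).eval x = 0 := pow_eq_zero_iff (by norm_num) |>.mp h
        have hn : (num two B).eval x = 0 := by rw [eval_num_eq, h0]; ring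
        rw [hn] at hP
        exact (mul_eq_zero.mp hP.symm).resolve_right hd
    · exact absurd (pow_eq_zero_iff (by cases two <;> simp [eW]) |>.mp h) hc
  · right
    have hs := eval_num_sub two x
    rw [h, hP] at hs
    have : (a - 1728) * (den two B).eval x = 0 := by rw [← sub_eq_zero]; linear_combination hs
    exact sub_eq_zero.mp ((mul_eq_zero.mp this).resolve_right hd)

/-- `num - a den` is separable for `a ≠ 0, 1728` over any field in which the leading
coefficient (`256` resp. `27`) is nonzero. -/
theorem sep_of_ne (hlead : ((lead two : ℕ) : B) ≠ 0) (a : B) (ha0 : a ≠ 0) (ha : a ≠ 1728) :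
    (num two B - C a * den two B).Separable := by
  rw [separable_def]
  refine (Polynomial.isCoprime_iff_aeval_ne_zero_of_isAlgClosed B (AlgebraicClosure B) _ _).mpr ?_
  intro x
  by_contra hcon
  push_neg at hcon
  obtain ⟨h1, h2⟩ := hcon
  set a' : AlgebraicClosure B := algebraMap B (AlgebraicClosure B) a with ha'
  have hlead' : ((lead two : ℕ) : AlgebraicClosure B) ≠ 0 := by
    intro h
    apply hlead
    have : algebraMap B (AlgebraicClosure B) ((lead two : ℕ) : B) = 0 := by rw [map_natCast]; exact h
    exact (map_eq_zero _).mp this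
  have hP : (num two (AlgebraicClosure B)).eval x = a' * (den two (AlgebraicClosure B)).eval x := by
    have : aeval x (num two B - C a * den two B) = 0 := h1
    rw [map_sub, map_mul, aeval_C, aeval_num, aeval_den] at this
    exact sub_eq_zero.mp this
  have hP' : (derivative (num two (AlgebraicClosure B))).eval x
      = a' * (derivative (den two (AlgebraicClosure B))).eval x := by
    have : aeval x (derivative (num two B - C a * den two B)) = 0 := h2
    rw [derivative_sub, derivative_C_mul, map_sub, map_mul, aeval_C] at this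
    rw [← num_map two (algebraMap B (AlgebraicClosure B)),
      ← den_map two (algebraMap B (AlgebraicClosure B)), derivative_map, derivative_map, eval_map,
      eval_map, ← aeval_def, ← aeval_def]
    exact sub_eq_zero.mp this
  rcases double_root_cases two hlead' hP hP' with h | h
  · apply ha0
    have : algebraMap B (AlgebraicClosure B) a = 0 := h
    exact (map_eq_zero _).mp this
  · apply ha
    have : algebraMap B (AlgebraicClosure B) a = algebraMap B (AlgebraicClosure B) 1728 := by
      rw [map_ofNat]; exact h
    exact (algebraMap B (AlgebraicClosure B)).injective this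

/-- Separability in characteristic zero. -/
theorem sep_generic [CharZero B] (a : B) (ha0 : a ≠ 0) (ha : a ≠ 1728) :
    (num two B - C a * den two B).Separable :=
  sep_of_ne two (lead_ne_zero_of_charZero two) a ha0 ha

/-- Separability of `Φ̄ = num - J den` over a field containing a transcendental `J`
(e.g. over `k₀(j̄)`). -/
theorem sep_transc {k : Type*} [Field k] [Algebra k B] (hlead : ((lead two : ℕ) : k) ≠ 0)
    (J : B) (hJ : Transcendental k J) : (num two B - C J * den two B).Separable := by
  have hlead' : ((lead two : ℕ) : B) ≠ 0 := by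
    intro h
    apply hlead
    have : algebraMap k B ((lead two : ℕ) : k) = 0 := by rw [map_natCast]; exact h
    exact (map_eq_zero _).mp this
  refine sep_of_ne two hlead' J ?_ ?_
  · rintro rfl
    exact hJ isAlgebraic_zero
  · rintro rfl
    have h : IsAlgebraic k (1728 : B) := by
      rw [← map_ofNat (algebraMap k B) 1728]; exact isAlgebraic_algebraMap _
    exact hJ h

/-! ### The local shape of `num - a den` at a point -/

theorem factor_of_root (g : B[X]) (t1 : B) (h0 : g.eval t1 = 0)
    (h1 : (derivative g).eval t1 ≠ 0) : ∃ h : B[X], g = (X - C t1) * h ∧ h.eval t1 ≠ 0 := by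
  obtain ⟨h, hh⟩ := dvd_iff_isRoot.mpr h0
  refine ⟨h, hh, ?_⟩
  intro h2
  apply h1
  rw [hh, derivative_mul]
  simp [h2]

/-- Generic point: `t1` is a simple root of `num - a den`, `a = φ(t1) ≠ 0, 1728`. -/
theorem simple_root (hlead : ((lead two : ℕ) : B) ≠ 0) {a t1 : B}
    (hP : (num two B).eval t1 = a * (den two B).eval t1) (ha0 : a ≠ 0) (ha : a ≠ 1728) :
    ∃ q : B[X], num two B - C a * den two B = (X - C t1) * q ∧ q.eval t1 ≠ 0 := by
  apply factor_of_root
  · simp [hP]
  · intro h
    rw [derivative_sub, derivative_C_mul, eval_sub, eval_mul, eval_C, sub_eq_zero] at h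
    rcases double_root_cases two hlead hP h with h | h
    exacts [ha0 h, ha h]

theorem g0_deriv_ne [CharZero B] {t1 : B} (h : (g0 two B).eval t1 = 0) :
    (derivative (g0 two B)).eval t1 ≠ 0 := by
  cases two
  · have e : (derivative (g0 false B)).eval t1 = 2 * t1 - 1 := by simp [g0]; norm_num
    have h' : t1 ^ 2 - t1 + 1 = 0 := by simpa [g0] using h
    rw [e]; intro h2
    have : (3 : B) = 0 := by linear_combination 4 * h' - (2 * t1 - 1) * h2
    norm_num at this
  · have e : (derivative (g0 true B)).eval t1 = 4 * t1 ^ 3 + 8 := by simp [g0]; ring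
    have h' : t1 * (t1 ^ 3 + 8) = 0 := by simpa [g0] using h
    rw [e]; intro h2
    rcases mul_eq_zero.mp h' with h3 | h3
    · rw [h3] at h2; norm_num at h2
    · have : (24 : B) = 0 := by linear_combination 4 * h3 - h2
      norm_num at this

theorem g1_deriv_ne [CharZero B] {t1 : B} (h : (g1 two B).eval t1 = 0) :
    (derivative (g1 two B)).eval t1 ≠ 0 := by
  cases two
  · have e : (derivative (g1 false B)).eval t1 = 6 * t1 ^ 2 - 6 * t1 - 3 := by
      simp [g1, derivative_mul]; ring
    have h' : (2 * t1 - 1) * (t1 - 2) * (t1 + 1) = 0 := by simpa [g1] using h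
    rw [e]; intro h2
    have h9 : (9 : B) ≠ 0 := by norm_num
    rcases mul_eq_zero.mp h' with h3 | h3
    · rcases mul_eq_zero.mp h3 with h3 | h3
      · apply h9; linear_combination (6 * t1 - 3) * h3 - 2 * h2
      · apply h9; linear_combination h2 - 6 * (t1 + 1) * h3
    · apply h9; linear_combination h2 - 6 * (t1 - 2) * h3
  · have e : (derivative (g1 true B)).eval t1 = 6 * t1 ^ 5 - 60 * t1 ^ 2 := by
      simp [g1]; ring
    have h' : t1 ^ 6 - 20 * t1 ^ 3 - 8 = 0 := by simpa [g1] using h
    rw [e]; intro h2
    have : (2592 : B) = 0 := by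
      linear_combination (30 * t1 ^ 3 - 324) * h' - (5 * t1 ^ 3 - 104) * t1 * h2
    norm_num at this

/-- Over `j = 0`: `num = (X - t1)^3 q` with `q(t1) ≠ 0`. -/
theorem triple_root [CharZero B] {t1 : B} (h : (num two B).eval t1 = 0) :
    ∃ q : B[X], num two B = (X - C t1) ^ 3 * q ∧ q.eval t1 ≠ 0 := by
  have hlead := lead_ne_zero_of_charZero (B := B) two
  have h0 : (g0 two B).eval t1 = 0 := by
    rw [eval_num_eq] at h
    exact pow_eq_zero_iff (by norm_num) |>.mp ((mul_eq_zero.mp h).resolve_left hlead)
  obtain ⟨q, hq, hq1⟩ := factor_of_root _ t1 h0 (g0_deriv_ne two h0)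
  refine ⟨(lead two : B[X]) * q ^ 3, ?_, ?_⟩
  · rw [num_eq, hq]; ring
  · rw [eval_mul, eval_natCast, eval_pow]
    exact mul_ne_zero hlead (pow_ne_zero _ hq1)

/-- Over `j = 1728`: `num - 1728 den = (X - t1)^2 q` with `q(t1) ≠ 0`. -/
theorem double_root [CharZero B] {t1 : B}
    (h : (num two B).eval t1 = 1728 * (den two B).eval t1) :
    ∃ q : B[X], num two B - C 1728 * den two B = (X - C t1) ^ 2 * q ∧ q.eval t1 ≠ 0 := by
  have hlead := lead_ne_zero_of_charZero (B := B) two
  have hc1 := c1_ne_zero two hlead
  have h0 : (g1 two B).eval t1 = 0 := by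
    have hs := eval_num_sub two t1
    rw [h, sub_self] at hs
    exact pow_eq_zero_iff (by norm_num) |>.mp ((mul_eq_zero.mp hs.symm).resolve_left hc1)
  obtain ⟨q, hq, hq1⟩ := factor_of_root _ t1 h0 (g1_deriv_ne two h0)
  refine ⟨(c1 two : B[X]) * q ^ 2, ?_, ?_⟩
  · rw [map_ofNat, num_sub, hq]; ring
  · rw [eval_mul, eval_natCast, eval_pow]
    exact mul_ne_zero hc1 (pow_ne_zero _ hq1)

end Field

/-! ### Integrality -/

section Integral

variable {S B : Type*} [CommRing S]

/-- A root `t` of `Φ = num - j den` is integral over any ring containing `j` in which the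
leading coefficient is a unit. -/
theorem isIntegral_t [CommRing B] [Algebra S B] (hu : IsUnit ((lead two : ℕ) : S)) (j : S) (t : B)
    (ht : (num two B).eval t = algebraMap S B j * (den two B).eval t) : IsIntegral S t := by
  obtain ⟨u, hu⟩ := hu
  refine ⟨C (↑u⁻¹ : S) * (num two S - C j * den two S), ?_, ?_⟩
  · apply monic_of_natDegree_le_of_coeff_eq_one (nG two)
    · refine (natDegree_C_mul_le _ _).trans ((natDegree_sub_le _ _).trans
        (max_le (natDegree_num_le two S) ?_))
      exact (natDegree_C_mul_le _ _).trans (natDegree_den_lt two S).le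
    · rw [coeff_C_mul, coeff_sub, coeff_C_mul, coeff_num,
        coeff_eq_zero_of_natDegree_lt (natDegree_den_lt two S), mul_zero, sub_zero, ← hu]
      exact u.inv_mul
  · rw [← aeval_def, map_mul, map_sub, map_mul, aeval_C, aeval_C, aeval_num, aeval_den, ht,
      sub_self, mul_zero]

variable [Field B] [Algebra S B]

theorem lead_ne_zero_of_isUnit (hu : IsUnit ((lead two : ℕ) : S)) : ((lead two : ℕ) : B) ≠ 0 := by
  have := hu.map (algebraMap S B)
  rw [map_natCast] at this
  exact this.ne_zero

/-- Every Möbius transform of a root is integral. -/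
theorem isIntegral_moebius (hu : IsUnit ((lead two : ℕ) : S)) (ζ : S) (hζ : ζ ^ 2 + ζ + 1 = 0)
    (j : S) (t : B) (ht : (num two B).eval t = algebraMap S B j * (den two B).eval t)
    (i : Fin (nG two)) (s : B)
    (hs : (Mc two (algebraMap S B ζ) i * t + Md two (algebraMap S B ζ) i) * s
      = Ma two (algebraMap S B ζ) i * t + Mb two (algebraMap S B ζ) i) : IsIntegral S s := by
  have hζ' : (algebraMap S B ζ) ^ 2 + algebraMap S B ζ + 1 = 0 := by
    rw [← map_pow, ← map_add, ← map_one (algebraMap S B), ← map_add, hζ, map_zero]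
  exact isIntegral_t two hu j s
    (root_of_moebius two _ hζ' (lead_ne_zero_of_isUnit two hu) ht i hs)

/-- `1 / cusp(t)` is integral. -/
theorem isIntegral_inv_cusp (hu : IsUnit ((lead two : ℕ) : S)) (ζ : S) (hζ : ζ ^ 2 + ζ + 1 = 0)
    (j : S) (t : B) (ht : (num two B).eval t = algebraMap S B j * (den two B).eval t) :
    IsIntegral S ((cusp two B).eval t)⁻¹ := by
  have hlead := lead_ne_zero_of_isUnit (B := B) two hu
  have hc := cusp_ne_zero_of_root two hlead ht
  have hζ' : (algebraMap S B ζ) ^ 2 + algebraMap S B ζ + 1 = 0 := by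
    rw [← map_pow, ← map_add, ← map_one (algebraMap S B), ← map_add, hζ, map_zero]
  cases two
  · have hc' : t * (t - 1) ≠ 0 := by simpa [cusp] using hc
    have ht0 : t ≠ 0 := left_ne_zero_of_mul hc'
    have ht1 : t - 1 ≠ 0 := right_ne_zero_of_mul hc'
    have k1 : ∀ s : B, t * s = 1 → IsIntegral S s := fun s hs =>
      isIntegral_moebius false hu ζ hζ j t ht (2 : Fin 6) s
        (by simp [Mc, Md, Ma, Mb]; linear_combination hs)
    have k2 : ∀ s : B, (t - 1) * s = -1 → IsIntegral S s := fun s hs =>
      isIntegral_moebius false hu ζ hζ j t ht (4 : Fin 6) s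
        (by simp [Mc, Md, Ma, Mb]; linear_combination hs)
    have h1 : IsIntegral S t⁻¹ := k1 _ (mul_inv_cancel₀ ht0)
    have h2 : IsIntegral S (-(t - 1)⁻¹) := k2 _ (by rw [mul_neg, mul_inv_cancel₀ ht1])
    have e : ((cusp false B).eval t)⁻¹ = -(t⁻¹ * -(t - 1)⁻¹) := by
      have : (cusp false B).eval t = t * (t - 1) := by simp [cusp]
      rw [this, mul_inv]; ring
    rw [e]
    exact (h1.mul h2).neg
  · set z : B := algebraMap S B ζ with hz
    have h3 : IsUnit (3 : S) := by
      have : ((lead true : ℕ) : S) = 3 * 9 := by simp only [lead]; norm_num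
      rw [this] at hu
      exact isUnit_of_mul_isUnit_left hu
    obtain ⟨u3, hu3⟩ := h3
    have hfac : (cusp true B).eval t = (1 * t - 1) * (z * t - 1) * (z ^ 2 * t - 1) := by
      simp only [cusp, eval_sub, eval_pow, eval_X, eval_one]
      linear_combination (-(t - 1) * ((z - 1) * t ^ 2 - t)) * hζ'
    rw [hfac] at hc
    have f2 : z ^ 2 * t - 1 ≠ 0 := right_ne_zero_of_mul hc
    have f1 : z * t - 1 ≠ 0 := right_ne_zero_of_mul (left_ne_zero_of_mul hc)
    have f0 : 1 * t - 1 ≠ 0 := left_ne_zero_of_mul (left_ne_zero_of_mul hc)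
    have hu3' : algebraMap S B (↑u3⁻¹ : S) * 3 = 1 := by
      have : algebraMap S B ((↑u3⁻¹ : S) * (u3 : S)) = 1 := by rw [Units.inv_mul, map_one]
      rw [map_mul, hu3, map_ofNat] at this
      exact this
    have key : ∀ (i : Fin 12) (w : B), Mc true z i = w → Ma true z i = w → Mb true z i = 2 →
        Md true z i = -1 → w * t - 1 ≠ 0 → IsIntegral S (w * t - 1)⁻¹ := by
      intro i w hc1 ha1 hb1 hd1 hw
      have hs : IsIntegral S ((w * t + 2) / (w * t - 1)) := by
        refine isIntegral_moebius true hu ζ hζ j t ht i _ ?_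
        rw [← hz, hc1, ha1, hb1, hd1]
        field_simp
        ring
      have e : (w * t - 1)⁻¹
          = algebraMap S B (↑u3⁻¹ : S) * ((w * t + 2) / (w * t - 1) - 1) := by
        have : (w * t + 2) / (w * t - 1) - 1 = 3 * (w * t - 1)⁻¹ := by
          field_simp; ring
        rw [this, ← mul_assoc, hu3', one_mul]
      rw [e]
      exact isIntegral_algebraMap.mul (hs.sub isIntegral_one)
    have i0 := key (3 : Fin 12) 1 (by simp [Mc]) (by simp [Ma]) (by simp [Mb]) (by simp [Md]) f0
    have i1 := key (6 : Fin 12) z (by simp [Mc]) (by simp [Ma]) (by simp [Mb]) (by simp [Md]) f1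
    have i2 := key (9 : Fin 12) (z ^ 2) (by simp [Mc]) (by simp [Ma]) (by simp [Mb])
      (by simp [Md]) f2
    rw [hfac, mul_inv, mul_inv]
    exact (i0.mul i1).mul i2

end Integral

end Fermat.Agent.RedLib.CoverFacts
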