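/-
S18 long shot, leaf W3 (helper4): LEMMA U' (unramifiedness criterion for an extension of DVRs).

`O ⊆ O'` discrete valuation rings with fraction fields `E ⊆ E'`, `O'` dominating `O`,
`E' = E(x)` with `x ∈ O'` whose residue class is the class of some `a ∈ O`, and `H ∈ O[X]` with
`H(x) = 0` and `H'(a)` a unit.  Then a uniformiser of `O` is a uniformiser of `O'` (`e = 1`).
-/
import Mathlib

set_option autoImplicit false

namespace Fermat.Agent.RedLib.LemmaU

open Polynomial

/-- Division of a polynomial by `X - a`. -/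
theorem exists_eq_mul_add {O : Type*} [CommRing O] (P : O[X]) (a : O) :
    ∃ Q : O[X], P = (X - C a) * Q + C (P.eval a) := by
  refine ⟨P /ₘ (X - C a), ?_⟩
  have := modByMonic_add_div P (X - C a)
  rw [modByMonic_X_sub_C_eq_C_eval] at this
  rw [add_comm]
  exact this.symm

/-- The quotient of `H` by `X - a` takes the value `H'(a)` at `a`. -/
theorem eval_quot_eq_derivative {O : Type*} [CommRing O] {H Q : O[X]} {a c : O}
    (h : H = (X - C a) * Q + C c) : Q.eval a = (derivative H).eval a := by
  rw [h]
  simp [derivative_mul]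

section

variable {O O' : Type*} [CommRing O] [IsDomain O] [IsDiscreteValuationRing O]
  [CommRing O'] [IsDomain O'] [IsDiscreteValuationRing O'] [Algebra O O']

/-- the key divisibility: the `ϖ'`-adic order of every nonzero `P(x)` is a multiple of the
order `e` of (the image of) `w`. -/
theorem dvd_order_aeval (hloc : IsLocalHom (algebraMap O O'))
    (x : O') (a : O) (hxa : x - algebraMap O O' a ∈ IsLocalRing.maximalIdeal O')
    (H : O[X]) (hH : aeval x H = 0) (hH' : IsUnit ((derivative H).eval a))
    {w : O} (hw : Irreducible w) {ϖ : O'} (hϖ : Irreducible ϖ) {e : ℕ} {uw : O'ˣ}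
    (he : algebraMap O O' w = uw * ϖ ^ e) :
    ∀ (m : ℕ) (P : O[X]) (u : O'ˣ), aeval x P = u * ϖ ^ m → e ∣ m := by
  have hϖ0 : ϖ ≠ 0 := hϖ.ne_zero
  -- decomposition of `H`
  obtain ⟨H₁, hH₁⟩ := exists_eq_mul_add H a
  have hH₁a : IsUnit (H₁.eval a) := by rw [eval_quot_eq_derivative hH₁]; exact hH'
  set δ : O' := x - algebraMap O O' a with hδ
  have haev : ∀ P : O[X], ∃ Q : O[X], aeval x P = δ * aeval x Q + algebraMap O O' (P.eval a) := by
    intro P
    obtain ⟨Q, hQ⟩ := exists_eq_mul_add P a
    refine ⟨Q, ?_⟩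
    conv_lhs => rw [hQ]
    simp [hδ]
  -- `aeval x H₁` is a unit
  have hcong : ∀ P : O[X], aeval x P - algebraMap O O' (P.eval a) ∈ IsLocalRing.maximalIdeal O' := by
    intro P
    obtain ⟨Q, hQ⟩ := haev P
    rw [hQ, add_sub_cancel_right]
    exact Ideal.mul_mem_right _ _ hxa
  have hh₁ : IsUnit (aeval x H₁) := by
    rw [← IsLocalRing.notMem_maximalIdeal]
    intro hmem
    have h2 : algebraMap O O' (H₁.eval a) ∈ IsLocalRing.maximalIdeal O' := by
      have := Ideal.sub_mem _ hmem (hcong H₁)
      simpa using this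
    exact (IsLocalRing.mem_maximalIdeal _).mp h2 (hH₁a.map _)
  obtain ⟨h₁, hh₁eq⟩ := hh₁
  -- `H(a) = w * h₀`
  have hHx : δ * aeval x H₁ + algebraMap O O' (H.eval a) = 0 := by
    have : aeval x H = δ * aeval x H₁ + algebraMap O O' (H.eval a) := by
      conv_lhs => rw [hH₁]
      simp [hδ]
    rw [← this, hH]
  have hHa : ¬ IsUnit (H.eval a) := by
    intro hu
    have h1 : algebraMap O O' (H.eval a) ∈ IsLocalRing.maximalIdeal O' := by
      have : algebraMap O O' (H.eval a) = -(δ * aeval x H₁) := eq_neg_of_add_eq_zero_right hHx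
      rw [this]
      exact Ideal.neg_mem_iff _ |>.mpr (Ideal.mul_mem_right _ _ hxa)
    exact (IsLocalRing.mem_maximalIdeal _).mp h1 (hu.map _)
  have hdvd : ∀ c : O, ¬ IsUnit c → w ∣ c := by
    intro c hc
    have : c ∈ IsLocalRing.maximalIdeal O := (IsLocalRing.mem_maximalIdeal _).mpr hc
    rw [hw.maximalIdeal_eq, Ideal.mem_span_singleton] at this
    exact this
  obtain ⟨h₀, hh₀⟩ := hdvd _ hHa
  -- `e ≥ 1`
  have he1 : 1 ≤ e := by
    by_contra hlt
    have he0 : e = 0 := by omega
    rw [he0, pow_zero, mul_one] at he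
    have : IsUnit (algebraMap O O' w) := he ▸ uw.isUnit
    exact hw.not_isUnit (hloc.map_nonunit _ this)
  intro m
  induction m using Nat.strong_induction_on with
  | _ m ih =>
    intro P u hP
    obtain ⟨Q, hQ⟩ := haev P
    by_cases hPa : IsUnit (P.eval a)
    · -- then `aeval x P` is a unit, so `m = 0`
      have hunit : IsUnit (aeval x P) := by
        rw [← IsLocalRing.notMem_maximalIdeal]
        intro hmem
        have h2 : algebraMap O O' (P.eval a) ∈ IsLocalRing.maximalIdeal O' := by
          have := Ideal.sub_mem _ hmem (hcong P)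
          simpa using this
        exact (IsLocalRing.mem_maximalIdeal _).mp h2 (hPa.map _)
      obtain ⟨u', hu'⟩ := hunit
      have : (u' : O') * ϖ ^ 0 = u * ϖ ^ m := by rw [pow_zero, mul_one, hu', hP]
      have hm := IsDiscreteValuationRing.unit_mul_pow_congr_pow hϖ hϖ u' u 0 m this
      rw [← hm]; exact dvd_zero e
    · obtain ⟨p₀, hp₀⟩ := hdvd _ hPa
      -- the new polynomial
      set P₁ : O[X] := C p₀ * H₁ - C h₀ * Q with hP₁
      have hkey : aeval x P * aeval x H₁ = algebraMap O O' w * aeval x P₁ := by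
        have e1 : δ * aeval x H₁ = - algebraMap O O' (H.eval a) := eq_neg_of_add_eq_zero_left hHx
        rw [hQ, hP₁, hp₀]
        simp only [map_sub, map_mul, aeval_C]
        rw [hh₀] at e1
        rw [map_mul] at e1
        linear_combination (aeval x Q) * e1
      have hPne : aeval x P ≠ 0 := by
        rw [hP]; exact mul_ne_zero u.ne_zero (pow_ne_zero _ hϖ0)
      have hP₁ne : aeval x P₁ ≠ 0 := by
        intro h0
        rw [h0, mul_zero] at hkey
        rcases mul_eq_zero.mp hkey with h | h
        · exact hPne h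
        · rw [← hh₁eq] at h; exact h₁.ne_zero h
      obtain ⟨m₁, u₁, hu₁⟩ := IsDiscreteValuationRing.eq_unit_mul_pow_irreducible hP₁ne hϖ
      have hmm : m = e + m₁ := by
        refine IsDiscreteValuationRing.unit_mul_pow_congr_pow hϖ hϖ (u * h₁) (uw * u₁) m (e + m₁) ?_
        have : ((u * h₁ : O'ˣ) : O') * ϖ ^ m = aeval x P * aeval x H₁ := by
          rw [hP, ← hh₁eq]; push_cast; ring
        rw [this, hkey, he, hu₁]; push_cast; ring
      have := ih m₁ (by omega) P₁ u₁ hu₁
      rw [hmm]; exact Dvd.dvd.add (dvd_refl e) this |>.trans (dvd_refl _) |> fun h => by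
        simpa using (Nat.dvd_add (dvd_refl e) this)

end

/-- **Lemma U'.** -/
theorem irreducible_algebraMap
    {O O' E E' : Type*} [CommRing O] [IsDomain O] [IsDiscreteValuationRing O]
    [CommRing O'] [IsDomain O'] [IsDiscreteValuationRing O']
    [Field E] [Field E'] [Algebra O E] [IsFractionRing O E] [Algebra O' E'] [IsFractionRing O' E']
    [Algebra O O'] [Algebra E E'] [Algebra O E'] [IsScalarTower O O' E'] [IsScalarTower O E E']
    (hloc : IsLocalHom (algebraMap O O'))
    (x : O') (hgen : IntermediateField.adjoin E {algebraMap O' E' x} = ⊤)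
    (a : O) (hxa : x - algebraMap O O' a ∈ IsLocalRing.maximalIdeal O')
    (H : Polynomial O) (hH : Polynomial.aeval x H = 0)
    (hH' : IsUnit (Polynomial.eval a (Polynomial.derivative H)))
    {w : O} (hw : Irreducible w) : Irreducible (algebraMap O O' w) := by
  obtain ⟨ϖ, hϖ⟩ := IsDiscreteValuationRing.exists_irreducible O'
  have hinjOE' : Function.Injective (algebraMap O E') := by
    rw [IsScalarTower.algebraMap_eq O E E']
    exact (algebraMap E E').injective.comp (IsFractionRing.injective O E)
  have hinjO'E' : Function.Injective (algebraMap O' E') := IsFractionRing.injective O' E'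
  have hinj : Function.Injective (algebraMap O O') := by
    intro p q hpq
    apply hinjOE'
    rw [IsScalarTower.algebraMap_apply O O' E', IsScalarTower.algebraMap_apply O O' E', hpq]
  have hw0 : algebraMap O O' w ≠ 0 := fun h => hw.ne_zero (hinj (h.trans (map_zero _).symm))
  obtain ⟨e, uw, he⟩ := IsDiscreteValuationRing.eq_unit_mul_pow_irreducible hw0 hϖ
  have hmain := dvd_order_aeval hloc x a hxa H hH hH' hw hϖ he
  -- `H ≠ 0`
  have hH0 : H ≠ 0 := by
    rintro rfl
    simp at hH'
  -- `x'` is algebraic over `E`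
  set x' : E' := algebraMap O' E' x with hx'
  have halg : IsAlgebraic E x' := by
    refine ⟨H.map (algebraMap O E), ?_, ?_⟩
    · exact (Polynomial.map_ne_zero_iff (IsFractionRing.injective O E)).mpr hH0
    · rw [aeval_map_algebraMap, hx', aeval_algebraMap_apply, hH, map_zero]
  have hadj : Algebra.adjoin E {x'} = ⊤ := by
    rw [← IntermediateField.adjoin_simple_toSubalgebra_of_isAlgebraic halg, hgen]
    rfl
  -- write `ϖ` as a polynomial in `x'`
  have hmem : algebraMap O' E' ϖ ∈ Algebra.adjoin E {x'} := by rw [hadj]; trivial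
  rw [Algebra.adjoin_singleton_eq_range_aeval] at hmem
  obtain ⟨Q₀, hQ₀⟩ := hmem
  obtain ⟨s, hs, hsQ⟩ := IsLocalization.integerNormalization_spec (nonZeroDivisors O) Q₀
  set Q : O[X] := IsLocalization.integerNormalization (nonZeroDivisors O) Q₀ with hQ
  have hs0 : s ≠ 0 := nonZeroDivisors.ne_zero hs
  have hQx : aeval x Q = algebraMap O O' s * ϖ := by
    apply hinjO'E'
    rw [← aeval_algebraMap_apply, ← hx', ← aeval_map_algebraMap E, hsQ, map_mul,
      ← IsScalarTower.algebraMap_apply]
    have : (aeval x') (s • Q₀) = algebraMap O E' s * aeval x' Q₀ := by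
      rw [Algebra.smul_def, map_mul]
      congr 1
      rw [IsScalarTower.algebraMap_apply O E E[X], ← Polynomial.C_eq_algebraMap, aeval_C,
        ← IsScalarTower.algebraMap_apply]
    rw [this]
    congr 1
  -- valuation of `s`
  obtain ⟨k, us, hks⟩ := IsDiscreteValuationRing.eq_unit_mul_pow_irreducible hs0 hw
  have hsO' : algebraMap O O' s = ((Units.map (algebraMap O O').toMonoidHom us) * uw ^ k : O'ˣ) *
      ϖ ^ (e * k) := by
    rw [hks, map_mul, map_pow, he]
    push_cast
    rw [pow_mul]
    simp only [Units.coe_map, MonoidHom.coe_coe, RingHom.toMonoidHom_eq_coe]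
    ring
  have hdvd : e ∣ e * k + 1 := by
    refine hmain (e * k + 1) Q ((Units.map (algebraMap O O').toMonoidHom us) * uw ^ k) ?_
    rw [hQx, hsO']; ring
  have he1 : e = 1 := by
    have : e ∣ 1 := (Nat.dvd_add_right (dvd_mul_right e k)).mp hdvd
    exact Nat.dvd_one.mp this
  rw [he, he1, pow_one]
  exact (associated_unit_mul_left ϖ (uw : O') uw.isUnit).symm.irreducible hϖ |> fun h => by
    simpa using (irreducible_units_mul uw).mpr hϖ

end Fermat.Agent.RedLib.LemmaU
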