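import Mathlib
import Fermat.Agent.GenusLib.PlaceCoreDed

/-!
# S18 (reduction of `J₀(N)`): generic dictionary between places and Dedekind charts

`K`, `F` fields, `F / K` a function field in one variable.

* `ord_nonneg_of_isIntegral` : valuation rings of places are integrally closed (any base ring);
* `exists_restrict` : restriction of a place along an algebraic extension `E / F`
  (`ord_P = e • ord_Q` on `F`, `e > 0`);
* `finite_ord_ne_zero`, `exists_divisor` : a nonzero function has finitely many zeros and poles
  (`F` finite separable over `K(t)`, `t` transcendental), hence a divisor.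
-/

set_option autoImplicit false
set_option linter.unusedSectionVars false
set_option linter.style.haveILetI false

noncomputable section

namespace Fermat.Agent.RedLib.Chart

open AlgebraicCurve Polynomial IsDedekindDomain IntermediateField
open Fermat.Agent.GenusLib.PlaceCore

variable {K F : Type*} [Field K] [Field F] [Algebra K F]

/-- Valuation rings of places are integrally closed: an element integral over a ring mapping into
the valuation ring of `v` has non-negative order. -/
theorem ord_nonneg_of_isIntegral (v : Place K F) {R : Type*} [CommRing R] [Algebra R F]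
    (hR : ∀ r : R, 0 ≤ v.ord (algebraMap R F r)) {x : F} (hx : IsIntegral R x) :
    0 ≤ v.ord x := by
  let ι : R →+* v.toValuationSubring :=
    (algebraMap R F).codRestrict v.toValuationSubring.toSubring
      (fun r => (place_mem_iff v _).mpr (hR r))
  obtain ⟨P, hmonic, hP⟩ := hx
  have hint : IsIntegral v.toValuationSubring x := by
    refine ⟨P.map ι, hmonic.map ι, ?_⟩
    rw [Polynomial.eval₂_map]
    exact hP
  obtain ⟨y, hy⟩ := IsIntegrallyClosed.isIntegral_iff.mp hint
  rw [← place_mem_iff, ← hy]
  exact y.2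

/-! ### Restriction of places -/

section Restrict

variable {E : Type*} [Field E] [Algebra K E] [Algebra F E] [IsScalarTower K F E]

/-- The order function on `F` induced by a place of an extension `E`. -/
def restrictOrdFun (P : Place K E) : OrdFun K F where
  w := fun f => P.ord (algebraMap F E f)
  map_mul' := by
    intro f g hf hg
    rw [map_mul]
    exact P.ord_mul ((_root_.map_ne_zero _).mpr hf) ((_root_.map_ne_zero _).mpr hg)
  map_add' := by
    intro f g hf hg hfg
    rw [map_add]
    exact place_ord_add P _ _ ((_root_.map_ne_zero _).mpr hf) ((_root_.map_ne_zero _).mpr hg)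
      (by rw [← map_add]; exact (_root_.map_ne_zero _).mpr hfg)
  map_const' := by
    intro a ha
    rw [← IsScalarTower.algebraMap_apply K F E]
    exact place_ord_algebraMap P a ha

@[simp] theorem restrictOrdFun_w (P : Place K E) (f : F) :
    (restrictOrdFun (F := F) P).w f = P.ord (algebraMap F E f) := rfl

/-- A place of an algebraic extension is non-trivial on the base field. -/
theorem exists_ord_pos_of_isAlgebraic [Algebra.IsAlgebraic F E] (P : Place K E) :
    ∃ t : F, t ≠ 0 ∧ 0 < P.ord (algebraMap F E t) := by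
  by_contra hcon
  push Not at hcon
  have hzero : ∀ f : F, 0 ≤ P.ord (algebraMap F E f) := by
    intro f
    by_cases hf : f = 0
    · simp [hf]
    have h1 := hcon f⁻¹ (inv_ne_zero hf)
    rw [map_inv₀, P.ord_inv] at h1
    omega
  apply P.ne_top'
  refine SetLike.ext fun x => ⟨fun _ => ValuationSubring.mem_top x, fun _ => ?_⟩
  rw [place_mem_iff]
  exact ord_nonneg_of_isIntegral P hzero (Algebra.IsIntegral.isIntegral (R := F) x)

/-- **Restriction of a place** along an algebraic extension `E / F`: there are a place `Q` of `F`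
and a ramification index `e > 0` with `ord_P = e • ord_Q` on `F`. -/
theorem exists_restrict [Algebra.IsAlgebraic F E] (P : Place K E) :
    ∃ (Q : Place K F) (e : ℤ), 0 < e ∧ ∀ f : F, P.ord (algebraMap F E f) = e * Q.ord f := by
  obtain ⟨t, ht0, ht⟩ := exists_ord_pos_of_isAlgebraic (F := F) P
  obtain ⟨d, hd, h⟩ := OrdFun.toPlace_ord (restrictOrdFun (F := F) P) t ht0 ht
  refine ⟨(restrictOrdFun (F := F) P).toPlace t ht0 ht, d, hd, fun f => ?_⟩
  by_cases hf : f = 0
  · simp [hf]
  · exact h f hf

/-- The restricted place is characterised by its valuation ring. -/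
theorem restrict_mem_iff [Algebra.IsAlgebraic F E] (P : Place K E) (Q : Place K F) (e : ℤ)
    (he : 0 < e) (h : ∀ f : F, P.ord (algebraMap F E f) = e * Q.ord f) (f : F) :
    f ∈ Q.toValuationSubring ↔ algebraMap F E f ∈ P.toValuationSubring := by
  rw [place_mem_iff, place_mem_iff, h f]
  constructor
  · intro h1; positivity
  · intro h1
    by_contra h2
    push Not at h2
    nlinarith

end Restrict

/-! ### Finiteness of zeros and poles -/

section Dedekind

variable {B : Type*} [CommRing B] [IsDedekindDomain B] [Algebra B F] [IsFractionRing B F]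
  [Algebra K B] [IsScalarTower K B F]

/-- Only finitely many primes of a Dedekind chart see a given nonzero function. -/
theorem finite_hos_ord_ne_zero {f : F} (hf : f ≠ 0) :
    {w : HeightOneSpectrum B |
      (Place.ofHeightOneSpectrum (K := K) (F := F) w).ord f ≠ 0}.Finite := by
  obtain ⟨a, s, hs, rfl⟩ := IsFractionRing.div_surjective (A := B) f
  have hs0 : algebraMap B F s ≠ 0 := by
    intro h0; rw [h0, div_zero] at hf; exact hf rfl
  have ha0 : algebraMap B F a ≠ 0 := by
    intro h0; rw [h0, zero_div] at hf; exact hf rfl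
  have ha : a ≠ 0 := fun h => ha0 (by rw [h, map_zero])
  have hsB : s ≠ 0 := fun h => hs0 (by rw [h, map_zero])
  have hfa : (Ideal.span {a} : Ideal B) ≠ 0 := by
    rw [Ne, Ideal.zero_eq_bot, Ideal.span_singleton_eq_bot]; exact ha
  have hfs : (Ideal.span {s} : Ideal B) ≠ 0 := by
    rw [Ne, Ideal.zero_eq_bot, Ideal.span_singleton_eq_bot]; exact hsB
  refine ((Ideal.finite_factors hfa).union (Ideal.finite_factors hfs)).subset ?_
  intro w hw
  rw [Set.mem_ofPred_eq, div_eq_mul_inv, Place.ord_mul _ ha0 (inv_ne_zero hs0), Place.ord_inv] at hw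
  have h1 := ofHOS_ord_algebraMap_nonneg (K := K) (F := F) w a
  have h2 := ofHOS_ord_algebraMap_nonneg (K := K) (F := F) w s
  have h3 : 0 < (Place.ofHeightOneSpectrum (K := K) (F := F) w).ord (algebraMap B F a) ∨
      0 < (Place.ofHeightOneSpectrum (K := K) (F := F) w).ord (algebraMap B F s) := by
    by_contra hcon
    push Not at hcon
    omega
  rcases h3 with h3 | h3
  · left
    rw [Set.mem_ofPred_eq, Ideal.dvd_span_singleton]
    exact (ofHOS_ord_algebraMap_pos_iff (K := K) (F := F) w ha).mp h3
  · right
    rw [Set.mem_ofPred_eq, Ideal.dvd_span_singleton]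
    exact (ofHOS_ord_algebraMap_pos_iff (K := K) (F := F) w hsB).mp h3

/-- Finiteness of zeros and poles among the places whose valuation ring contains a Dedekind
chart. -/
theorem finite_ord_ne_zero_of_chart (S : Set (Place K F))
    (hS : ∀ v ∈ S, ∀ b : B, 0 ≤ v.ord (algebraMap B F b)) {f : F} (hf : f ≠ 0) :
    {v : Place K F | v ∈ S ∧ v.ord f ≠ 0}.Finite := by
  refine ((finite_hos_ord_ne_zero (K := K) (B := B) hf).image
    (Place.ofHeightOneSpectrum (K := K) (F := F))).subset ?_
  rintro v ⟨hvS, hv⟩
  obtain ⟨w, rfl⟩ := exists_hos_of_le v (hS v hvS)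
  exact ⟨w, hv, rfl⟩

end Dedekind

/-- Zeros and poles of `f` in the chart `{t regular}`. -/
theorem finite_ord_ne_zero_of_nonneg (t : F) (ht : Transcendental K t)
    [FiniteDimensional K⟮t⟯ F] [Algebra.IsSeparable K⟮t⟯ F] {f : F} (hf : f ≠ 0) :
    {v : Place K F | 0 ≤ v.ord t ∧ v.ord f ≠ 0}.Finite := by
  letI algF : Algebra K[X] F := (aeval t).toRingHom.toAlgebra
  letI algE : Algebra K[X] K⟮t⟯ := (aeval (AdjoinSimple.gen K t)).toRingHom.toAlgebra
  have hF : ∀ q : K[X], algebraMap K[X] F q = aeval t q := fun _ => rfl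
  have hE : ∀ q : K[X], algebraMap K[X] K⟮t⟯ q = aeval (AdjoinSimple.gen K t) q := fun _ => rfl
  haveI : IsScalarTower K[X] K⟮t⟯ F := IsScalarTower.of_algebraMap_eq (fun q => by
    rw [hF, hE]
    simp)
  haveI : IsScalarTower K K[X] F := IsScalarTower.of_algebraMap_eq (fun a => by
    rw [hF, Polynomial.algebraMap_eq, aeval_C])
  haveI : IsScalarTower K K[X] K⟮t⟯ := IsScalarTower.of_algebraMap_eq (fun a => by
    rw [hE, Polynomial.algebraMap_eq, aeval_C])
  haveI : IsFractionRing K[X] K⟮t⟯ := by
    let e : RatFunc K ≃ₐ[K[X]] K⟮t⟯ :=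
      AlgEquiv.ofRingEquiv (f := (RatFunc.algEquivOfTranscendental t ht).toRingEquiv)
        (fun g => by
          rw [hE]
          exact RatFunc.algEquivOfTranscendental_algebraMap t ht g)
    exact IsLocalization.isLocalization_of_algEquiv (nonZeroDivisors K[X]) e
  haveI : Module.IsTorsionFree K[X] F := .trans_faithfulSMul K[X] K⟮t⟯ F
  haveI : IsDedekindDomain (integralClosure K[X] F) := integralClosure.isDedekindDomain K[X] K⟮t⟯ F
  haveI : IsFractionRing (integralClosure K[X] F) F :=
    integralClosure.isFractionRing_of_finite_extension K⟮t⟯ F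
  haveI : IsScalarTower K (integralClosure K[X] F) F := IsScalarTower.of_algebraMap_eq (fun a => rfl)
  have hX : algebraMap K[X] F X = t := aeval_X t
  refine finite_ord_ne_zero_of_chart (B := integralClosure K[X] F) {v | 0 ≤ v.ord t} ?_ hf
  intro v hv b
  exact integral_ord_nonneg v (by rw [hX]; exact hv) b.2

theorem transcendental_inv {t : F} (ht : Transcendental K t) : Transcendental K t⁻¹ := by
  intro h
  exact ht (by simpa using h.inv)

theorem adjoin_inv (t : F) : K⟮t⁻¹⟯ = K⟮t⟯ := by
  apply le_antisymm
  · rw [adjoin_simple_le_iff]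
    exact inv_mem (mem_adjoin_simple_self K t)
  · rw [adjoin_simple_le_iff]
    have h : t⁻¹ ∈ K⟮t⁻¹⟯ := mem_adjoin_simple_self K t⁻¹
    simpa using inv_mem h

/-- **Finiteness of zeros and poles.**  `F` finite separable over `K(t)`, `t` transcendental. -/
theorem finite_ord_ne_zero (t : F) (ht : Transcendental K t)
    [FiniteDimensional K⟮t⟯ F] [Algebra.IsSeparable K⟮t⟯ F] {f : F} (hf : f ≠ 0) :
    {v : Place K F | v.ord f ≠ 0}.Finite := by
  have h1 := finite_ord_ne_zero_of_nonneg t ht hf
  have h2 : {v : Place K F | 0 ≤ v.ord t⁻¹ ∧ v.ord f ≠ 0}.Finite := by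
    haveI : FiniteDimensional K⟮t⁻¹⟯ F := by rw [adjoin_inv]; infer_instance
    haveI : Algebra.IsSeparable K⟮t⁻¹⟯ F := by rw [adjoin_inv]; infer_instance
    exact finite_ord_ne_zero_of_nonneg t⁻¹ (transcendental_inv ht) hf
  refine (h1.union h2).subset ?_
  intro v hv
  by_cases h : 0 ≤ v.ord t
  · exact Or.inl ⟨h, hv⟩
  · refine Or.inr ⟨?_, hv⟩
    rw [Place.ord_inv]; omega

/-- **Every nonzero function has a divisor.** -/
theorem exists_divisor (t : F) (ht : Transcendental K t)
    [FiniteDimensional K⟮t⟯ F] [Algebra.IsSeparable K⟮t⟯ F] {f : F} (hf : f ≠ 0) :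
    ∃ D : Divisor K F, ∀ v : Place K F, D v = v.ord f :=
  ⟨Finsupp.ofSupportFinite (fun v => v.ord f) (finite_ord_ne_zero t ht hf), fun _ => rfl⟩

end Fermat.Agent.RedLib.Chart
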