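import Mathlib
import Fermat.Agent.RedLib.Chart
import Fermat.Agent.GenusLib.PlaceCore

/-!
# S18 (reduction of `J₀(N)`): places versus discrete valuation subrings

Dictionary between the `Place`s of the Prelude and valuation subrings which are discrete valuation
rings, in the "generator of the maximal ideal" language:

* `IsUnif O x` : `x` generates the maximal ideal of the valuation subring `O`;
* `ofDVR` : a discrete valuation subring containing the constants is a place;
* `isUnif_iff` : `IsUnif v.toValuationSubring x ↔ v.ord x = 1`;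
* `isDVR_comap`, `exists_restrict_comap`, `ord_eq_of_isUnif` : restriction along algebraic
  extensions and the criterion `e = 1`;
* `exists_const` : the residue field of a place of a function field over an algebraically closed
  field of characteristic `0` is the constant field.
-/

set_option autoImplicit false
set_option linter.unusedSectionVars false
set_option linter.style.haveILetI false

noncomputable section

namespace Fermat.Agent.RedLib.PlaceVS

open AlgebraicCurve Polynomial IntermediateField
open Fermat.Agent.GenusLib.PlaceCore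

variable {K F : Type*} [Field K] [Field F] [Algebra K F]

/-- `x` generates the maximal ideal of the valuation subring `O`. -/
def IsUnif (O : ValuationSubring F) (x : F) : Prop :=
  x ∈ O.nonunits ∧ ∀ z ∈ O.nonunits, ∃ y ∈ O, z = x * y

theorem isUnif_def (O : ValuationSubring F) (x : F) :
    IsUnif O x ↔ x ∈ O.nonunits ∧ ∀ z ∈ O.nonunits, ∃ y ∈ O, z = x * y := Iff.rfl

theorem IsUnif.mem {O : ValuationSubring F} {x : F} (h : IsUnif O x) : x ∈ O :=
  O.nonunits_subset h.1

/-- In a discrete valuation subring the generators of the maximal ideal are the irreducible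
elements. -/
theorem isUnif_iff_irreducible (O : ValuationSubring F) [IsDiscreteValuationRing O] (x : O) :
    IsUnif O (x : F) ↔ Irreducible x := by
  constructor
  · rintro ⟨hx, hgen⟩
    obtain ⟨π, hπ⟩ := IsDiscreteValuationRing.exists_irreducible O
    have hπmem : (π : F) ∈ O.nonunits := by
      rw [ValuationSubring.coe_mem_nonunits_iff, IsLocalRing.mem_maximalIdeal, mem_nonunits_iff]
      exact hπ.not_isUnit
    obtain ⟨y, hy, hπy⟩ := hgen _ hπmem
    have hxmax : x ∈ IsLocalRing.maximalIdeal O := ValuationSubring.coe_mem_nonunits_iff.mp hx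
    have hπeq : π = x * ⟨y, hy⟩ := Subtype.ext hπy
    have hxnu : ¬ IsUnit x := by
      rwa [IsLocalRing.mem_maximalIdeal, mem_nonunits_iff] at hxmax
    rcases hπ.isUnit_or_isUnit hπeq with h | h
    · exact absurd h hxnu
    · have hassoc : Associated π x := by
        obtain ⟨u, hu⟩ := h
        exact ⟨u⁻¹, by rw [hπeq, ← hu, mul_assoc, Units.mul_inv, mul_one]⟩
      exact hassoc.irreducible hπ
  · intro hx
    have hmax := hx.maximalIdeal_eq
    refine ⟨?_, fun z hz => ?_⟩
    · rw [ValuationSubring.coe_mem_nonunits_iff, hmax]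
      exact Ideal.mem_span_singleton_self x
    · obtain ⟨hzO, hzm⟩ := ValuationSubring.mem_nonunits_iff_exists_mem_maximalIdeal.mp hz
      rw [hmax, Ideal.mem_span_singleton] at hzm
      obtain ⟨y, hy⟩ := hzm
      exact ⟨y, y.2, congrArg Subtype.val hy⟩

theorem ne_top_of_isDVR (O : ValuationSubring F) [IsDiscreteValuationRing O] : O ≠ ⊤ := by
  intro h
  have hall : ∀ y : F, y ∈ O := fun y => by
    have h1 : y ∈ (⊤ : ValuationSubring F) := ValuationSubring.mem_top y
    rwa [← h] at h1
  obtain ⟨π, hπ⟩ := IsDiscreteValuationRing.exists_irreducible O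
  have hπ0 : (π : F) ≠ 0 := fun h0 => hπ.ne_zero (Subtype.ext h0)
  have hinv : (π : F)⁻¹ ∈ O := hall _
  apply hπ.not_isUnit
  exact IsUnit.of_mul_eq_one ⟨(π : F)⁻¹, hinv⟩ (Subtype.ext (by simp [hπ0]))

/-- A discrete valuation subring of `F` containing the constants is a place. -/
def ofDVR (O : ValuationSubring F) [IsDiscreteValuationRing O]
    (hK : ∀ a : K, algebraMap K F a ∈ O) : Place K F where
  toValuationSubring := O
  algebraMap_mem' := hK
  ne_top' := ne_top_of_isDVR O
  isPrincipalIdealRing' := inferInstance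

@[simp] theorem ofDVR_toValuationSubring (O : ValuationSubring F) [IsDiscreteValuationRing O]
    (hK : ∀ a : K, algebraMap K F a ∈ O) : (ofDVR O hK).toValuationSubring = O := rfl

theorem mem_nonunits_iff' (v : Place K F) (x : F) :
    x ∈ v.toValuationSubring.nonunits ↔ x = 0 ∨ 0 < v.ord x := by
  rw [ValuationSubring.mem_nonunits_iff_exists_mem_maximalIdeal]
  constructor
  · rintro ⟨hx, h⟩
    exact (place_mem_maximalIdeal_iff v ⟨x, hx⟩).mp h
  · intro h
    have hx : x ∈ v.toValuationSubring := by
      rw [place_mem_iff]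
      rcases h with rfl | h
      · simp
      · exact h.le
    exact ⟨hx, (place_mem_maximalIdeal_iff v ⟨x, hx⟩).mpr h⟩

theorem ord_eq_zero_iff (v : Place K F) (x : F) :
    v.ord x = 0 ↔ x ∈ v.toValuationSubring ∧ x⁻¹ ∈ v.toValuationSubring := by
  rw [place_mem_iff, place_mem_iff, v.ord_inv]; omega

theorem exists_ord_eq_one (v : Place K F) : ∃ ϖ : F, v.ord ϖ = 1 := by
  obtain ⟨π, hπ⟩ := IsDiscreteValuationRing.exists_irreducible v.toValuationSubring
  exact ⟨π, v.ord_coe_irreducible hπ⟩

theorem ne_zero_of_ord_ne_zero (v : Place K F) {x : F} (h : v.ord x ≠ 0) : x ≠ 0 := by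
  rintro rfl
  simp at h

/-- The generators of the maximal ideal of a place are the elements of order one. -/
theorem isUnif_iff (v : Place K F) (x : F) : IsUnif v.toValuationSubring x ↔ v.ord x = 1 := by
  constructor
  · rintro ⟨hx, hgen⟩
    obtain ⟨ϖ, hϖ⟩ := exists_ord_eq_one v
    have hϖ0 : ϖ ≠ 0 := ne_zero_of_ord_ne_zero v (by omega)
    obtain ⟨y, hy, hϖy⟩ := hgen ϖ ((mem_nonunits_iff' v ϖ).mpr (Or.inr (by omega)))
    have hx0 : x ≠ 0 := by
      rintro rfl
      rw [zero_mul] at hϖy
      exact hϖ0 hϖy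
    have hy0 : y ≠ 0 := by
      rintro rfl
      rw [mul_zero] at hϖy
      exact hϖ0 hϖy
    have h1 : 0 < v.ord x := ((mem_nonunits_iff' v x).mp hx).resolve_left hx0
    have h2 : 0 ≤ v.ord y := (place_mem_iff v y).mp hy
    rw [hϖy, v.ord_mul hx0 hy0] at hϖ
    omega
  · intro hx
    have hx0 : x ≠ 0 := ne_zero_of_ord_ne_zero v (by omega)
    refine ⟨(mem_nonunits_iff' v x).mpr (Or.inr (by omega)), fun z hz => ?_⟩
    by_cases hz0 : z = 0
    · exact ⟨0, v.toValuationSubring.zero_mem, by rw [hz0, mul_zero]⟩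
    have h1 : 0 < v.ord z := ((mem_nonunits_iff' v z).mp hz).resolve_left hz0
    refine ⟨z / x, ?_, by field_simp⟩
    rw [place_mem_iff, div_eq_mul_inv, v.ord_mul hz0 (inv_ne_zero hx0), v.ord_inv]
    omega

/-- Every nonzero element is a unit times a power of a uniformiser. -/
theorem exists_eq_mul_zpow (v : Place K F) {ϖ : F} (hϖ : v.ord ϖ = 1) {x : F} (hx : x ≠ 0) :
    ∃ ε : F, ε ≠ 0 ∧ v.ord ε = 0 ∧ x = ε * ϖ ^ (v.ord x) := by
  have hϖ0 : ϖ ≠ 0 := ne_zero_of_ord_ne_zero v (by omega)
  have hz : ϖ ^ (v.ord x) ≠ 0 := zpow_ne_zero _ hϖ0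
  refine ⟨x / ϖ ^ (v.ord x), div_ne_zero hx hz, ?_, by field_simp⟩
  rw [div_eq_mul_inv, v.ord_mul hx (inv_ne_zero hz), v.ord_inv, v.ord_zpow, hϖ]
  ring

/-! ### Restriction -/

section Restrict

variable {E : Type*} [Field E] [Algebra K E] [Algebra F E] [IsScalarTower K F E]

theorem restrictOrdFun_vs (P : Place K E) :
    (Chart.restrictOrdFun (F := F) P).vs = P.toValuationSubring.comap (algebraMap F E) := by
  ext f
  rw [OrdFun.mem_vs, ValuationSubring.mem_comap, place_mem_iff, Chart.restrictOrdFun_w]
  constructor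
  · rintro (rfl | h)
    · simp
    · exact h
  · intro h; exact Or.inr h

/-- If `Q` is the restriction of `P` (valuation rings), the orders are proportional. -/
theorem exists_ramification (P : Place K E) (Q : Place K F)
    (hQ : Q.toValuationSubring = P.toValuationSubring.comap (algebraMap F E)) :
    ∃ e : ℤ, 0 < e ∧ ∀ f : F, P.ord (algebraMap F E f) = e * Q.ord f := by
  obtain ⟨d, hd, h⟩ := place_ord_unique Q (Chart.restrictOrdFun (F := F) P)
    ((restrictOrdFun_vs P).trans hQ.symm)
  refine ⟨d, hd, fun f => ?_⟩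
  by_cases hf : f = 0
  · simp [hf]
  · exact h f hf

/-- Restriction of a place along an algebraic extension, with its valuation ring. -/
theorem exists_restrict_comap [Algebra.IsAlgebraic F E] (P : Place K E) :
    ∃ (Q : Place K F) (e : ℤ), 0 < e ∧
      Q.toValuationSubring = P.toValuationSubring.comap (algebraMap F E) ∧
      ∀ f : F, P.ord (algebraMap F E f) = e * Q.ord f := by
  obtain ⟨Q, e, he, h⟩ := Chart.exists_restrict (F := F) P
  refine ⟨Q, e, he, ?_, h⟩
  ext f
  rw [ValuationSubring.mem_comap]
  exact Chart.restrict_mem_iff P Q e he h f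

/-- The trace of a discrete valuation subring on a subfield over which the big field is algebraic
is a discrete valuation subring. -/
theorem isDVR_comap [Algebra.IsAlgebraic F E] (O : ValuationSubring E)
    [IsDiscreteValuationRing O] (hK : ∀ a : K, algebraMap K E a ∈ O) :
    IsDiscreteValuationRing (O.comap (algebraMap F E)) := by
  obtain ⟨Q, e, he, hQ, -⟩ := exists_restrict_comap (F := F) (ofDVR O hK)
  rw [ofDVR_toValuationSubring] at hQ
  rw [← hQ]
  infer_instance

/-- **`e = 1` criterion**: if one uniformiser stays a uniformiser, the orders agree. -/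
theorem ord_eq_of_isUnif (P : Place K E) (Q : Place K F)
    (hQ : Q.toValuationSubring = P.toValuationSubring.comap (algebraMap F E))
    {ϖ : F} (hϖ : Q.ord ϖ = 1) (hϖ' : P.ord (algebraMap F E ϖ) = 1) (f : F) :
    P.ord (algebraMap F E f) = Q.ord f := by
  obtain ⟨e, he, h⟩ := exists_ramification P Q hQ
  have h1 := h ϖ
  rw [hϖ, hϖ', mul_one] at h1
  rw [h f, ← h1, one_mul]

end Restrict

/-! ### The residue field is the constant field -/

theorem ord_multiset_prod_eq_zero (v : Place K F) (m : Multiset F)
    (h : ∀ x ∈ m, x ≠ 0 ∧ v.ord x = 0) : m.prod ≠ 0 ∧ v.ord m.prod = 0 := by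
  induction m using Multiset.induction_on with
  | empty => simp
  | cons a m ih =>
    have ha := h a (Multiset.mem_cons_self a m)
    have hm := ih (fun x hx => h x (Multiset.mem_cons_of_mem hx))
    rw [Multiset.prod_cons]
    refine ⟨mul_ne_zero ha.1 hm.1, ?_⟩
    rw [v.ord_mul ha.1 hm.1, ha.2, hm.2]
    rfl

/-- A coordinate which is regular at `v` takes a value in `K` there (`K` algebraically
closed). -/
theorem exists_sub_const_ord_pos [IsAlgClosed K] (s : F) (hs : Transcendental K s)
    [FiniteDimensional K⟮s⟯ F] (v : Place K F) (hv : 0 ≤ v.ord s) :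
    ∃ c : K, 0 < v.ord (s - algebraMap K F c) := by
  by_contra hcon
  push Not at hcon
  have hne : ∀ c : K, s - algebraMap K F c ≠ 0 := by
    intro c h
    apply hs
    rw [sub_eq_zero.mp h]
    exact isAlgebraic_algebraMap c
  have hzero : ∀ c : K, v.ord (s - algebraMap K F c) = 0 := by
    intro c
    have h1 : s - algebraMap K F c ∈ v.toValuationSubring :=
      sub_mem ((place_mem_iff v s).mpr hv) (v.algebraMap_mem' c)
    have h2 := (place_mem_iff v _).mp h1
    have h3 := hcon c
    omega
  have hpoly : ∀ q : K[X], q ≠ 0 → aeval s q ≠ 0 ∧ v.ord (aeval s q) = 0 := by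
    intro q hq
    have hsplit := (IsAlgClosed.splits q).eq_prod_roots
    have hlead : q.leadingCoeff ≠ 0 := leadingCoeff_ne_zero.mpr hq
    have h1 : aeval s q = algebraMap K F q.leadingCoeff *
        (q.roots.map (fun c => s - algebraMap K F c)).prod := by
      conv_lhs => rw [hsplit]
      rw [map_mul, aeval_C, map_multiset_prod, Multiset.map_map]
      congr 2
      refine Multiset.map_congr rfl fun c _ => ?_
      simp
    have h2 := ord_multiset_prod_eq_zero v (q.roots.map (fun c => s - algebraMap K F c)) (by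
      intro x hx
      obtain ⟨c, -, rfl⟩ := Multiset.mem_map.mp hx
      exact ⟨hne c, hzero c⟩)
    have h3 : algebraMap K F q.leadingCoeff ≠ 0 := (_root_.map_ne_zero _).mpr hlead
    rw [h1]
    refine ⟨mul_ne_zero h3 h2.1, ?_⟩
    rw [v.ord_mul h3 h2.1, place_ord_algebraMap v _ hlead, h2.2]
    rfl
  have hfield : ∀ r : K⟮s⟯, 0 ≤ v.ord (algebraMap K⟮s⟯ F r) := by
    intro r
    obtain ⟨a, b, hab⟩ := (mem_adjoin_simple_iff K (r : F)).mp r.2
    show 0 ≤ v.ord (r : F)
    rw [hab]
    by_cases ha : a = 0
    · simp [ha]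
    by_cases hb : b = 0
    · simp [hb]
    rw [div_eq_mul_inv, v.ord_mul (hpoly a ha).1 (inv_ne_zero (hpoly b hb).1), v.ord_inv,
      (hpoly a ha).2, (hpoly b hb).2]
    simp
  apply v.ne_top'
  refine SetLike.ext fun x => ⟨fun _ => ValuationSubring.mem_top x, fun _ => ?_⟩
  rw [place_mem_iff]
  exact Chart.ord_nonneg_of_isIntegral v hfield (Algebra.IsIntegral.isIntegral (R := K⟮s⟯) x)

/-- **The residue field of a place is the constant field** (`K` algebraically closed of
characteristic `0`, `F` finite over `K(t)`). -/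
theorem exists_const [IsAlgClosed K] [CharZero K] (t : F) (ht : Transcendental K t)
    [FiniteDimensional K⟮t⟯ F] (v : Place K F) {x : F} (hx : 0 ≤ v.ord x) :
    ∃ a : K, x = algebraMap K F a ∨ 0 < v.ord (x - algebraMap K F a) := by
  obtain ⟨s, hs, hKs, hvs⟩ : ∃ s : F, Transcendental K s ∧ K⟮s⟯ = K⟮t⟯ ∧ 0 ≤ v.ord s := by
    by_cases h : 0 ≤ v.ord t
    · exact ⟨t, ht, rfl, h⟩
    · exact ⟨t⁻¹, Chart.transcendental_inv ht, Chart.adjoin_inv t, by rw [Place.ord_inv]; omega⟩
  haveI : FiniteDimensional K⟮s⟯ F := by rw [hKs]; infer_instance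
  obtain ⟨c, hc⟩ := exists_sub_const_ord_pos s hs v hvs
  have hs' : Transcendental K (s - algebraMap K F c) := transcendental_sub_algebraMap hs c
  haveI : FiniteDimensional K⟮s - algebraMap K F c⟯ F := by
    rw [adjoin_sub_algebraMap s c]; infer_instance
  obtain ⟨S, h1, -, -, h4, -⟩ := places_over (s - algebraMap K F c) hs'
  exact h4 v ((h1 v).mpr hc) x hx

/-- The same in valuation subring language. -/
theorem exists_const_sub_mem_nonunits [IsAlgClosed K] [CharZero K] (t : F)
    (ht : Transcendental K t) [FiniteDimensional K⟮t⟯ F] (O : ValuationSubring F)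
    [IsDiscreteValuationRing O] (hK : ∀ a : K, algebraMap K F a ∈ O) {x : F} (hx : x ∈ O) :
    ∃ a : K, x - algebraMap K F a ∈ O.nonunits := by
  have hx' : 0 ≤ (ofDVR O hK).ord x := (place_mem_iff (ofDVR O hK) x).mp hx
  obtain ⟨a, ha⟩ := exists_const t ht (ofDVR O hK) hx'
  refine ⟨a, (mem_nonunits_iff' (ofDVR O hK) _).mpr ?_⟩
  rcases ha with ha | ha
  · left; rw [ha, sub_self]
  · right; exact ha

end Fermat.Agent.RedLib.PlaceVS
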