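import Mathlib
import Fermat.Agent.RedLib.LemmaU
import Fermat.Agent.RedLib.PlaceVS

/-!
# S18 (reduction of `J₀(N)`): Lemma U' for valuation subrings

`E / F` a field extension, `O'` a discrete valuation subring of `E` whose trace
`O = O' ∩ F` on `F` is a discrete valuation ring.  If `E = F(x)` with `x ∈ O'`, the residue class
of `x` is that of some `a ∈ O`, and `H ∈ O[X]` satisfies `H(x) = 0`, `H'(a) ∈ Oˣ`, then every
uniformiser of `O` is a uniformiser of `O'` (`e = 1`).
-/

set_option autoImplicit false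
set_option linter.unusedSectionVars false
set_option linter.style.haveILetI false

noncomputable section

namespace Fermat.Agent.RedLib.UVS

open Polynomial IntermediateField
open Fermat.Agent.RedLib.PlaceVS

variable {F E : Type*} [Field F] [Field E] [Algebra F E]

/-- The inclusion `O' ∩ F → O'`. -/
def comapHom (O' : ValuationSubring E) : ↥(O'.comap (algebraMap F E)) →+* ↥O' where
  toFun := fun f => ⟨algebraMap F E (f : F), f.2⟩
  map_one' := Subtype.ext (map_one _)
  map_mul' := fun _ _ => Subtype.ext (map_mul _ _ _)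
  map_zero' := Subtype.ext (map_zero _)
  map_add' := fun _ _ => Subtype.ext (map_add _ _ _)

@[simp] theorem coe_comapHom (O' : ValuationSubring E) (f : ↥(O'.comap (algebraMap F E))) :
    ((comapHom O' f : ↥O') : E) = algebraMap F E (f : F) := rfl

theorem isUnit_comap_iff (O' : ValuationSubring E) (f : ↥(O'.comap (algebraMap F E))) :
    IsUnit f ↔ IsUnit (comapHom O' f) := by
  constructor
  · intro h; exact h.map _
  · intro h
    obtain ⟨u, hu⟩ := h
    have hf0 : (f : F) ≠ 0 := by
      intro h0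
      have h1 : (comapHom O' f : ↥O') = 0 := Subtype.ext (by simp [h0])
      rw [← hu] at h1
      exact u.ne_zero h1
    have h2 : algebraMap F E (f : F)⁻¹ ∈ O' := by
      have h3 : (((u⁻¹ : (↥O')ˣ) : ↥O') : E) = (algebraMap F E (f : F))⁻¹ := by
        have h4 : ((u : ↥O') : E) * (((u⁻¹ : (↥O')ˣ) : ↥O') : E) = 1 := by
          have := congrArg Subtype.val (Units.mul_inv u)
          exact this
        rw [hu, coe_comapHom] at h4
        exact eq_inv_of_mul_eq_one_right h4
      rw [map_inv₀, ← h3]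
      exact SetLike.coe_mem _
    exact IsUnit.of_mul_eq_one ⟨(f : F)⁻¹, h2⟩ (Subtype.ext (by simp [hf0]))

/-- **Lemma U' for valuation subrings.** -/
theorem isUnif_algebraMap (O' : ValuationSubring E) [IsDiscreteValuationRing O']
    [IsDiscreteValuationRing (O'.comap (algebraMap F E))]
    (x : E) (hx : x ∈ O') (hgen : F⟮x⟯ = ⊤)
    (a : F) (ha : algebraMap F E a ∈ O') (hxa : x - algebraMap F E a ∈ O'.nonunits)
    (H : F[X]) (hHc : ∀ n, algebraMap F E (H.coeff n) ∈ O') (hH : aeval x H = 0)
    (hH' : algebraMap F E ((derivative H).eval a) ∉ O'.nonunits)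
    {w : F} (hw : IsUnif (O'.comap (algebraMap F E)) w) :
    IsUnif O' (algebraMap F E w) := by
  letI algOO' : Algebra ↥(O'.comap (algebraMap F E)) ↥O' := (comapHom O').toAlgebra
  letI algOE : Algebra ↥(O'.comap (algebraMap F E)) E :=
    ((algebraMap F E).comp (algebraMap ↥(O'.comap (algebraMap F E)) F)).toAlgebra
  haveI : IsScalarTower ↥(O'.comap (algebraMap F E)) ↥O' E :=
    IsScalarTower.of_algebraMap_eq (fun _ => rfl)
  haveI : IsScalarTower ↥(O'.comap (algebraMap F E)) F E :=
    IsScalarTower.of_algebraMap_eq (fun _ => rfl)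
  have hloc : IsLocalHom (algebraMap ↥(O'.comap (algebraMap F E)) ↥O') :=
    ⟨fun f hf => (isUnit_comap_iff O' f).mpr hf⟩
  -- lift `H`
  have hlift : H ∈ Polynomial.lifts (algebraMap ↥(O'.comap (algebraMap F E)) F) := by
    rw [Polynomial.lifts_iff_coeff_lifts]
    intro n
    exact ⟨⟨H.coeff n, hHc n⟩, rfl⟩
  obtain ⟨H₀, hH₀⟩ := Polynomial.mem_lifts _ |>.mp hlift
  have hH₀x : aeval (⟨x, hx⟩ : ↥O') H₀ = 0 := by
    apply Subtype.ext
    have h1 : ((aeval (⟨x, hx⟩ : ↥O') H₀ : ↥O') : E) = aeval x H₀ := by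
      have := aeval_algebraMap_apply (A := ↥O') E (⟨x, hx⟩ : ↥O') H₀
      exact this.symm
    rw [h1, ← aeval_map_algebraMap F, hH₀, hH]
    rfl
  have hder : (((derivative H₀).eval (⟨a, ha⟩ : ↥(O'.comap (algebraMap F E))) :
      ↥(O'.comap (algebraMap F E))) : F) = (derivative H).eval a := by
    rw [← hH₀, derivative_map]
    exact (Polynomial.eval_map_apply (algebraMap ↥(O'.comap (algebraMap F E)) F) _).symm
  have hunit : IsUnit ((derivative H₀).eval (⟨a, ha⟩ : ↥(O'.comap (algebraMap F E)))) := by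
    rw [isUnit_comap_iff O']
    rw [← IsLocalRing.notMem_maximalIdeal, ← ValuationSubring.coe_mem_nonunits_iff, coe_comapHom,
      hder]
    exact hH'
  have hw' : Irreducible (⟨w, hw.mem⟩ : ↥(O'.comap (algebraMap F E))) :=
    (isUnif_iff_irreducible _ ⟨w, hw.mem⟩).mp hw
  have key := LemmaU.irreducible_algebraMap (O := ↥(O'.comap (algebraMap F E))) (O' := ↥O')
    (E := F) (E' := E) hloc ⟨x, hx⟩ hgen ⟨a, ha⟩
    (ValuationSubring.coe_mem_nonunits_iff.mp hxa) H₀ hH₀x hunit hw'
  exact (isUnif_iff_irreducible O' _).mpr key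

end Fermat.Agent.RedLib.UVS
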