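import Mathlib
import Fermat.Agent.RedLib.UVS

/-!
# S18 (reduction of `J₀(N)`): Kummer extensions are unramified where `p ∣ ord u`

`K` algebraically closed of characteristic `0`, `F / K` a function field, `E = F(T)` with
`T ^ p = u`, `u ∈ F` with `p ∣ ord_Q u` at every place `Q` of `F`.  Then for every discrete
valuation subring `O` of `E` containing `K`, every uniformiser of `O ∩ F` is a uniformiser of `O`.
-/

set_option autoImplicit false
set_option linter.unusedSectionVars false
set_option linter.style.haveILetI false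

noncomputable section

namespace Fermat.Agent.RedLib.Kummer

open AlgebraicCurve Polynomial IntermediateField
open Fermat.Agent.GenusLib.PlaceCore
open Fermat.Agent.RedLib.PlaceVS

variable {K F E : Type*} [Field K] [Field F] [Field E] [Algebra K F] [Algebra K E] [Algebra F E]
  [IsScalarTower K F E]

/-- `E = F(T)` with `T` a `p`-th root is algebraic over `F`. -/
theorem isAlgebraic_of_adjoin_root {p : ℕ} (hp : p ≠ 0) {u : F} {T : E}
    (hT : T ^ p = algebraMap F E u) (hgen : F⟮T⟯ = ⊤) : Algebra.IsAlgebraic F E := by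
  have hint : IsIntegral F T := by
    refine ⟨X ^ p - C u, monic_X_pow_sub_C u hp, ?_⟩
    simp [hT]
  haveI := IntermediateField.isAlgebraic_adjoin_simple hint
  refine ⟨fun x => ?_⟩
  have hx : x ∈ F⟮T⟯ := by rw [hgen]; exact IntermediateField.mem_top
  have h1 : IsAlgebraic F (⟨x, hx⟩ : F⟮T⟯) := Algebra.IsAlgebraic.isAlgebraic _
  exact IntermediateField.isAlgebraic_iff.mp h1

theorem mem_nonunits_comap_iff (O : ValuationSubring E) (f : F) :
    f ∈ (O.comap (algebraMap F E)).nonunits ↔ algebraMap F E f ∈ O.nonunits := by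
  rw [ValuationSubring.mem_nonunits_iff_or, ValuationSubring.mem_nonunits_iff_or,
    ValuationSubring.mem_comap, map_inv₀, map_eq_zero]

/-- A product of elements of order `≥ 0` which is a non-unit has a non-unit factor. -/
theorem exists_mem_nonunits_of_prod (v : Place K E) (m : Multiset E)
    (hm : ∀ y ∈ m, y ∈ v.toValuationSubring) (h : m.prod ∈ v.toValuationSubring.nonunits) :
    ∃ y ∈ m, y ∈ v.toValuationSubring.nonunits := by
  by_contra hcon
  push Not at hcon
  have h1 := ord_multiset_prod_eq_zero v m (fun y hy => by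
    have h2 := hcon y hy
    rw [mem_nonunits_iff', not_or] at h2
    have h3 := (place_mem_iff v y).mp (hm y hy)
    exact ⟨h2.1, by omega⟩)
  rw [mem_nonunits_iff'] at h
  rcases h with h | h
  · exact h1.1 h
  · omega

/-- **(KUM)** in the language of discrete valuation subrings. -/
theorem isUnif_algebraMap [IsAlgClosed K] [CharZero K] (t : F) (ht : Transcendental K t)
    [FiniteDimensional K⟮t⟯ F] {p : ℕ} (hp : p ≠ 0) {u : F} (hu : u ≠ 0)
    (hdiv : ∀ Q : Place K F, (p : ℤ) ∣ Q.ord u) {T : E} (hT : T ^ p = algebraMap F E u)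
    (hgen : F⟮T⟯ = ⊤) (O : ValuationSubring E) [IsDiscreteValuationRing O]
    (hK : ∀ a : K, algebraMap K E a ∈ O) {w : F} (hw : IsUnif (O.comap (algebraMap F E)) w) :
    IsUnif O (algebraMap F E w) := by
  haveI : Algebra.IsAlgebraic F E := isAlgebraic_of_adjoin_root hp hT hgen
  haveI : IsDiscreteValuationRing (O.comap (algebraMap F E)) := isDVR_comap O hK
  have hKF : ∀ a : K, algebraMap K F a ∈ O.comap (algebraMap F E) := by
    intro a
    rw [ValuationSubring.mem_comap, ← IsScalarTower.algebraMap_apply]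
    exact hK a
  set Q : Place K F := ofDVR (O.comap (algebraMap F E)) hKF with hQdef
  set P : Place K E := ofDVR O hK with hPdef
  have hwQ : Q.ord w = 1 := (isUnif_iff Q w).mp hw
  have hw0 : w ≠ 0 := ne_zero_of_ord_ne_zero Q (by omega)
  obtain ⟨k, hk⟩ := hdiv Q
  obtain ⟨ε, hε0, hεord, hεu⟩ := exists_eq_mul_zpow Q hwQ hu
  rw [hk] at hεu
  obtain ⟨e, he, hram⟩ := exists_ramification P Q rfl
  set W : E := algebraMap F E w with hWdef
  have hW0 : W ≠ 0 := (_root_.map_ne_zero _).mpr hw0
  set x : E := T / W ^ k with hxdef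
  have hxp : x ^ p = algebraMap F E ε := by
    rw [hxdef, div_pow, hT, hεu, map_mul, map_zpow₀, ← zpow_natCast (W ^ k) p, ← zpow_mul,
      mul_comm k (p : ℤ), mul_div_assoc, div_self (zpow_ne_zero _ hW0), mul_one]
  have hεE0 : algebraMap F E ε ≠ 0 := (_root_.map_ne_zero _).mpr hε0
  have hx0 : x ≠ 0 := by
    intro h0
    rw [h0, zero_pow hp] at hxp
    exact hεE0 hxp.symm
  have hxord : P.ord x = 0 := by
    have h1 : P.ord (x ^ p) = (p : ℤ) * P.ord x := by
      rw [← zpow_natCast, P.ord_zpow]
    rw [hxp, hram ε, hεord, mul_zero] at h1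
    have hp' : (p : ℤ) ≠ 0 := by exact_mod_cast hp
    rcases mul_eq_zero.mp h1.symm with h2 | h2
    · exact absurd h2 hp'
    · exact h2
  have hx : x ∈ O := ((ord_eq_zero_iff P x).mp hxord).1
  -- the residue class of `ε`
  have hεmem : ε ∈ O.comap (algebraMap F E) := ((ord_eq_zero_iff Q ε).mp hεord).1
  obtain ⟨ε₀, hε₀⟩ := exists_const_sub_mem_nonunits t ht (O.comap (algebraMap F E)) hKF hεmem
  have hε₀0 : ε₀ ≠ 0 := by
    rintro rfl
    rw [map_zero, sub_zero] at hε₀
    have h1 := (mem_nonunits_iff' Q ε).mp hε₀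
    rcases h1 with h1 | h1
    · exact hε0 h1
    · omega
  -- the residue class of `x`
  have hprod : x ^ p - algebraMap K E ε₀ ∈ O.nonunits := by
    have h1 := (mem_nonunits_comap_iff O _).mp hε₀
    rwa [map_sub, ← IsScalarTower.algebraMap_apply, ← hxp] at h1
  have hsplit := (IsAlgClosed.splits (X ^ p - C ε₀ : K[X])).eq_prod_roots_of_monic
    (monic_X_pow_sub_C ε₀ hp)
  have hprod' : x ^ p - algebraMap K E ε₀ =
      ((X ^ p - C ε₀ : K[X]).roots.map (fun a => x - algebraMap K E a)).prod := by
    have h1 : x ^ p - algebraMap K E ε₀ = aeval x (X ^ p - C ε₀ : K[X]) := by simp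
    rw [h1]
    conv_lhs => rw [hsplit]
    rw [map_multiset_prod, Multiset.map_map]
    congr 1
    refine Multiset.map_congr rfl fun a _ => ?_
    simp
  rw [hprod'] at hprod
  obtain ⟨y, hy, hynu⟩ := exists_mem_nonunits_of_prod P _ (by
    intro y hy
    obtain ⟨a, -, rfl⟩ := Multiset.mem_map.mp hy
    exact sub_mem hx (hK a)) hprod
  obtain ⟨a, haroot, rfl⟩ := Multiset.mem_map.mp hy
  have hap : a ^ p = ε₀ := by
    have h1 := (mem_roots'.mp haroot).2
    simpa [sub_eq_zero] using h1
  have ha0 : a ≠ 0 := by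
    rintro rfl
    rw [zero_pow hp] at hap
    exact hε₀0 hap.symm
  -- apply Lemma U'
  have hgen' : F⟮x⟯ = ⊤ := by
    rw [eq_top_iff, ← hgen, adjoin_simple_le_iff]
    have h1 : T = x * W ^ k := by
      rw [hxdef, div_mul_cancel₀ _ (zpow_ne_zero _ hW0)]
    rw [h1]
    exact mul_mem (mem_adjoin_simple_self F x)
      (zpow_mem (IntermediateField.algebraMap_mem _ w) k)
  refine UVS.isUnif_algebraMap O x hx hgen' (algebraMap K F a) ?_ ?_ (X ^ p - C ε) ?_ ?_ ?_ hw
  · rw [← IsScalarTower.algebraMap_apply]; exact hK a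
  · rw [← IsScalarTower.algebraMap_apply]; exact hynu
  · intro n
    rw [coeff_sub, coeff_X_pow, coeff_C, map_sub]
    refine sub_mem ?_ ?_
    · split_ifs
      · rw [map_one]; exact O.one_mem
      · rw [map_zero]; exact O.zero_mem
    · split_ifs
      · exact hεmem
      · rw [map_zero]; exact O.zero_mem
  · simp [hxp]
  · have h1 : (derivative (X ^ p - C ε : F[X])).eval (algebraMap K F a)
        = algebraMap K F ((p : K) * a ^ (p - 1)) := by
      rw [derivative_sub, derivative_C, sub_zero, derivative_X_pow, eval_mul, eval_pow, eval_X,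
        eval_C, map_mul, map_pow, map_natCast]
    rw [h1, ← IsScalarTower.algebraMap_apply]
    have hc0 : (p : K) * a ^ (p - 1) ≠ 0 :=
      mul_ne_zero (by exact_mod_cast hp) (pow_ne_zero _ ha0)
    intro hmem
    have h2 := (mem_nonunits_iff' P _).mp hmem
    have h3 := place_ord_algebraMap P _ hc0
    rcases h2 with h2 | h2
    · exact (_root_.map_ne_zero (algebraMap K E)).mpr hc0 h2
    · omega

end Fermat.Agent.RedLib.Kummer
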