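/-
S18 long shot (helper1): LEMMA U'' — an Eisenstein-type twin of Lemma U' (`LemmaU`).

`O ⊆ O'` discrete valuation rings with fraction fields `E ⊆ E'`, `O'` dominating `O`,
`E' = E(y)` with `y` in the maximal ideal of `O'`, and `H ∈ O[X]` with `H(y) = 0` and `H(0)` a
uniformiser of `O`.  Then `y` is a uniformiser of `O'`.
-/
import Mathlib

set_option autoImplicit false

namespace Fermat.Agent.RedLib.LemmaE

open Polynomial

section

variable {O O' : Type*} [CommRing O] [IsDomain O] [IsDiscreteValuationRing O]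
  [CommRing O'] [IsDomain O'] [IsDiscreteValuationRing O'] [Algebra O O']

/-- Evaluation at `y` of `P = divX P * X + C (P.coeff 0)`. -/
theorem aeval_eq_divX (y : O') (P : O[X]) :
    aeval y P = y * aeval y P.divX + algebraMap O O' (P.coeff 0) := by
  have h := congrArg (aeval y) (divX_mul_X_add P)
  rw [map_add, map_mul, aeval_X, aeval_C] at h
  rw [← h]; ring

/-- the key divisibility: the `ϖ'`-adic order of every nonzero `P(y)` is a multiple of the
order `f` of `y`. -/
theorem dvd_order_aeval (hloc : IsLocalHom (algebraMap O O'))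
    (y : O') (H : O[X]) (hH : aeval y H = 0) (hH0 : Irreducible (H.coeff 0))
    {ϖ : O'} (hϖ : Irreducible ϖ) {f : ℕ} (hf : 1 ≤ f) {uy : O'ˣ} (hy : y = uy * ϖ ^ f) :
    ∀ (m : ℕ) (P : O[X]) (u : O'ˣ), aeval y P = u * ϖ ^ m → f ∣ m := by
  have hϖ0 : ϖ ≠ 0 := hϖ.ne_zero
  have hymem : y ∈ IsLocalRing.maximalIdeal O' := by
    rw [hy, IsLocalRing.mem_maximalIdeal]
    intro hu
    have h1 : IsUnit (ϖ ^ f) := (Units.isUnit_units_mul uy (ϖ ^ f)).mp hu
    have h2 : IsUnit ϖ := (isUnit_pow_iff (by omega)).mp h1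
    exact hϖ.not_isUnit h2
  have hy0 : y ≠ 0 := by
    rw [hy]; exact mul_ne_zero uy.ne_zero (pow_ne_zero _ hϖ0)
  set w : O := H.coeff 0 with hw
  -- `w = - y * H₁(y)`
  have hwy : algebraMap O O' w = -(y * aeval y H.divX) := by
    have := aeval_eq_divX y H
    rw [hH] at this
    exact eq_neg_of_add_eq_zero_right this.symm
  have hdvd : ∀ c : O, ¬ IsUnit c → w ∣ c := by
    intro c hc
    have : c ∈ IsLocalRing.maximalIdeal O := (IsLocalRing.mem_maximalIdeal _).mpr hc
    rw [hH0.maximalIdeal_eq, Ideal.mem_span_singleton] at this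
    exact this
  intro m
  induction m using Nat.strong_induction_on with
  | _ m ih =>
    intro P u hP
    have hdec := aeval_eq_divX y P
    by_cases hPa : IsUnit (P.coeff 0)
    · -- then `aeval y P` is a unit, so `m = 0`
      have hunit : IsUnit (aeval y P) := by
        rw [← IsLocalRing.notMem_maximalIdeal]
        intro hmem
        have h2 : algebraMap O O' (P.coeff 0) ∈ IsLocalRing.maximalIdeal O' := by
          have h3 : algebraMap O O' (P.coeff 0) = aeval y P - y * aeval y P.divX := by
            rw [hdec]; ring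
          rw [h3]
          exact Ideal.sub_mem _ hmem (Ideal.mul_mem_right _ _ hymem)
        exact (IsLocalRing.mem_maximalIdeal _).mp h2 (hPa.map _)
      obtain ⟨u', hu'⟩ := hunit
      have : (u' : O') * ϖ ^ 0 = u * ϖ ^ m := by rw [pow_zero, mul_one, hu', hP]
      have hm := IsDiscreteValuationRing.unit_mul_pow_congr_pow hϖ hϖ u' u 0 m this
      rw [← hm]; exact dvd_zero f
    · obtain ⟨p₀, hp₀⟩ := hdvd _ hPa
      set P₁ : O[X] := P.divX - C p₀ * H.divX with hP₁
      have hkey : aeval y P = y * aeval y P₁ := by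
        rw [hdec, hp₀, map_mul, hwy, hP₁]
        simp only [map_sub, map_mul, aeval_C]
        ring
      have hPne : aeval y P ≠ 0 := by
        rw [hP]; exact mul_ne_zero u.ne_zero (pow_ne_zero _ hϖ0)
      have hP₁ne : aeval y P₁ ≠ 0 := by
        intro h0
        rw [h0, mul_zero] at hkey
        exact hPne hkey
      obtain ⟨m₁, u₁, hu₁⟩ := IsDiscreteValuationRing.eq_unit_mul_pow_irreducible hP₁ne hϖ
      have hmm : m = f + m₁ := by
        refine IsDiscreteValuationRing.unit_mul_pow_congr_pow hϖ hϖ u (uy * u₁) m (f + m₁) ?_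
        have e1 : (u : O') * ϖ ^ m = y * (u₁ * ϖ ^ m₁) := by rw [← hP, hkey, hu₁]
        rw [e1]
        conv_lhs => rw [hy]
        push_cast; ring
      have := ih m₁ (by omega) P₁ u₁ hu₁
      rw [hmm]
      exact Nat.dvd_add (dvd_refl f) this

end

/-- **Lemma U''** (Eisenstein-type criterion): if `H(y) = 0` with `H ∈ O[X]`, `H(0)` a uniformiser
of `O`, `y` in the maximal ideal of `O'` and `E' = E(y)`, then `y` is a uniformiser of `O'`. -/
theorem irreducible_of_root
    {O O' E E' : Type*} [CommRing O] [IsDomain O] [IsDiscreteValuationRing O]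
    [CommRing O'] [IsDomain O'] [IsDiscreteValuationRing O']
    [Field E] [Field E'] [Algebra O E] [IsFractionRing O E] [Algebra O' E'] [IsFractionRing O' E']
    [Algebra O O'] [Algebra E E'] [Algebra O E'] [IsScalarTower O O' E'] [IsScalarTower O E E']
    (hloc : IsLocalHom (algebraMap O O'))
    (y : O') (hgen : IntermediateField.adjoin E {algebraMap O' E' y} = ⊤)
    (hy : y ∈ IsLocalRing.maximalIdeal O')
    (H : Polynomial O) (hH : Polynomial.aeval y H = 0)
    (hH0 : Irreducible (Polynomial.eval 0 H)) : Irreducible y := by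
  rw [← coeff_zero_eq_eval_zero] at hH0
  obtain ⟨ϖ, hϖ⟩ := IsDiscreteValuationRing.exists_irreducible O'
  have hinjOE' : Function.Injective (algebraMap O E') := by
    rw [IsScalarTower.algebraMap_eq O E E']
    exact (algebraMap E E').injective.comp (IsFractionRing.injective O E)
  have hinjO'E' : Function.Injective (algebraMap O' E') := IsFractionRing.injective O' E'
  have hinj : Function.Injective (algebraMap O O') := by
    intro p q hpq
    apply hinjOE'
    rw [IsScalarTower.algebraMap_apply O O' E', IsScalarTower.algebraMap_apply O O' E', hpq]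
  set w : O := H.coeff 0 with hw
  have hw0 : algebraMap O O' w ≠ 0 := fun h => hH0.ne_zero (hinj (h.trans (map_zero _).symm))
  -- `y ≠ 0`
  have hy0 : y ≠ 0 := by
    rintro rfl
    have := aeval_eq_divX (0 : O') H
    rw [hH, zero_mul, zero_add] at this
    exact hw0 this.symm
  obtain ⟨f, uy, hf⟩ := IsDiscreteValuationRing.eq_unit_mul_pow_irreducible hy0 hϖ
  have hf1 : 1 ≤ f := by
    by_contra hlt
    have hf0 : f = 0 := by omega
    rw [hf0, pow_zero, mul_one] at hf
    exact (IsLocalRing.mem_maximalIdeal _).mp hy (hf ▸ uy.isUnit)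
  obtain ⟨e, uw, he⟩ := IsDiscreteValuationRing.eq_unit_mul_pow_irreducible hw0 hϖ
  have hmain := dvd_order_aeval hloc y H hH hH0 hϖ hf1 hf
  -- `f ∣ e`
  have hfe : f ∣ e := hmain e (C w) uw (by rw [aeval_C, he])
  -- `H ≠ 0`
  have hH0' : H ≠ 0 := by
    rintro rfl
    exact hH0.ne_zero (by simp [hw])
  -- `y'` is algebraic over `E`
  set y' : E' := algebraMap O' E' y with hy'
  have halg : IsAlgebraic E y' := by
    refine ⟨H.map (algebraMap O E), ?_, ?_⟩
    · exact (Polynomial.map_ne_zero_iff (IsFractionRing.injective O E)).mpr hH0'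
    · rw [aeval_map_algebraMap, hy', aeval_algebraMap_apply, hH, map_zero]
  have hadj : Algebra.adjoin E {y'} = ⊤ := by
    rw [← IntermediateField.adjoin_simple_toSubalgebra_of_isAlgebraic halg, hgen]
    rfl
  -- write `ϖ` as a polynomial in `y'`
  have hmem : algebraMap O' E' ϖ ∈ Algebra.adjoin E {y'} := by rw [hadj]; trivial
  rw [Algebra.adjoin_singleton_eq_range_aeval] at hmem
  obtain ⟨Q₀, hQ₀⟩ := hmem
  obtain ⟨s, hs, hsQ⟩ := IsLocalization.integerNormalization_spec (nonZeroDivisors O) Q₀
  set Q : O[X] := IsLocalization.integerNormalization (nonZeroDivisors O) Q₀ with hQ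
  have hs0 : s ≠ 0 := nonZeroDivisors.ne_zero hs
  have hQx : aeval y Q = algebraMap O O' s * ϖ := by
    apply hinjO'E'
    rw [← aeval_algebraMap_apply, ← hy', ← aeval_map_algebraMap E, hsQ, map_mul,
      ← IsScalarTower.algebraMap_apply]
    have : (aeval y') (s • Q₀) = algebraMap O E' s * aeval y' Q₀ := by
      rw [Algebra.smul_def, map_mul]
      congr 1
      rw [IsScalarTower.algebraMap_apply O E E[X], ← Polynomial.C_eq_algebraMap, aeval_C,
        ← IsScalarTower.algebraMap_apply]
    rw [this]
    congr 1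
  -- valuation of `s`
  obtain ⟨k, us, hks⟩ := IsDiscreteValuationRing.eq_unit_mul_pow_irreducible hs0 hH0
  have hsO' : algebraMap O O' s = ((Units.map (algebraMap O O').toMonoidHom us) * uw ^ k : O'ˣ) *
      ϖ ^ (e * k) := by
    rw [hks, map_mul, map_pow, he]
    push_cast
    rw [pow_mul]
    simp only [Units.coe_map, MonoidHom.coe_coe, RingHom.toMonoidHom_eq_coe]
    ring
  have hdvd : f ∣ e * k + 1 := by
    refine hmain (e * k + 1) Q ((Units.map (algebraMap O O').toMonoidHom us) * uw ^ k) ?_
    rw [hQx, hsO']; ring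
  have hf1' : f = 1 := by
    have : f ∣ 1 := (Nat.dvd_add_right (Dvd.dvd.mul_right hfe k)).mp hdvd
    exact Nat.dvd_one.mp this
  rw [hf, hf1', pow_one]
  exact (irreducible_units_mul uy).mpr hϖ

end Fermat.Agent.RedLib.LemmaE
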