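/-
S18 long shot (helper1): (ABH) — the auxiliary cover `E' = E(t)`, `num(t) = j den(t)`, is
"unramified over the `t`-line away from the cusps", in the language of discrete valuation
subrings (`PlaceVS.IsUnif`).

Abstract tower `L ⊆ E ⊆ E'`; hypotheses: (D1) for `E` (ramification of `E` over the `j`-line is
`1` generically, `1` or `3` over `j = 0`, `1` or `2` over `j = 1728`) and residue fields of `E'`
equal to `L`.  Conclusions:
* `R1`  : `t - t1` is a uniformiser of every DVR of `E'` in which `t ≡ t1` and `cusp(t)` is a unit;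
* `R1'` : `j - a` is a uniformiser of every DVR of `E'` in which `j ≡ a`, `a ≠ 0, 1728`.
-/
import Fermat.Agent.RedLib.CoverFacts
import Fermat.Agent.RedLib.LemmaE
import Fermat.Agent.RedLib.UVS
import Fermat.Agent.RedLib.Kummer

set_option autoImplicit false
set_option linter.unusedSectionVars false

namespace Fermat.Agent.RedLib.ABH

open Polynomial IntermediateField
open Fermat.Agent.RedLib.PlaceVS Fermat.Agent.RedLib.CoverData Fermat.Agent.RedLib.CoverFacts

/-! ### Valuation subring helpers -/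

section VS

variable {F : Type*} [Field F] (O : ValuationSubring F)

theorem nu_mul {x y : F} (hx : x ∈ O.nonunits) (hy : y ∈ O) : x * y ∈ O.nonunits := by
  obtain ⟨hxO, hxm⟩ := ValuationSubring.mem_nonunits_iff_exists_mem_maximalIdeal.mp hx
  have h := Ideal.mul_mem_right (⟨y, hy⟩ : O) _ hxm
  exact ValuationSubring.coe_mem_nonunits_iff.mpr h

theorem not_nu_of_inv {x : F} (hx0 : x ≠ 0) (hxi : x⁻¹ ∈ O) : x ∉ O.nonunits := by
  rw [ValuationSubring.mem_nonunits_iff_or]
  push Not
  exact ⟨hx0, hxi⟩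

theorem inv_mem_of_not_nu {x : F} (hx : x ∉ O.nonunits) : x⁻¹ ∈ O := by
  rw [ValuationSubring.mem_nonunits_iff_or] at hx
  push Not at hx
  exact hx.2

theorem nu_pow {x : F} (hx : x ∈ O.nonunits) {n : ℕ} (hn : n ≠ 0) : x ^ n ∈ O.nonunits := by
  obtain ⟨m, rfl⟩ := Nat.exists_eq_succ_of_ne_zero hn
  rw [pow_succ']
  exact nu_mul O hx (pow_mem (O.nonunits_subset hx) m)

/-- A unit multiple of a uniformiser is a uniformiser. -/
theorem isUnif_mul_unit {x u : F} (hx : IsUnif O x) (hu0 : u ≠ 0) (hu : u ∈ O) (hui : u⁻¹ ∈ O) :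
    IsUnif O (x * u) := by
  refine ⟨nu_mul O hx.1 hu, fun z hz => ?_⟩
  obtain ⟨y, hy, rfl⟩ := hx.2 z hz
  refine ⟨u⁻¹ * y, O.mul_mem _ _ hui hy, ?_⟩
  field_simp

/-- If `x ^ n` is a unit (`n ≠ 0`) then `x` is a unit. -/
theorem unit_of_pow_unit {x : F} {n : ℕ} (hn : n ≠ 0) (h1 : x ^ n ∈ O) (h2 : (x ^ n)⁻¹ ∈ O)
    (h0 : x ≠ 0) : x ∈ O ∧ x⁻¹ ∈ O := by
  have hnu : x ^ n ∉ O.nonunits := not_nu_of_inv O (pow_ne_zero n h0) h2
  have hnu' : (x⁻¹) ^ n ∉ O.nonunits := by
    rw [inv_pow]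
    exact not_nu_of_inv O (inv_ne_zero (pow_ne_zero n h0)) (by rwa [inv_inv])
  rcases O.mem_or_inv_mem x with h | h
  · refine ⟨h, inv_mem_of_not_nu O fun hx => hnu (nu_pow O hx hn)⟩
  · refine ⟨?_, h⟩
    have := inv_mem_of_not_nu O fun hx => hnu' (nu_pow O hx hn)
    rwa [inv_inv] at this

end VS

/-! ### Lemma U'' for valuation subrings -/

section EVS

variable {F E : Type*} [Field F] [Field E] [Algebra F E]

/-- **Lemma U'' for valuation subrings** (Eisenstein-type criterion). -/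
theorem isUnif_of_root (O' : ValuationSubring E) [IsDiscreteValuationRing O']
    [IsDiscreteValuationRing (O'.comap (algebraMap F E))]
    (y : E) (hy : y ∈ O'.nonunits) (hgen : F⟮y⟯ = ⊤)
    (H : F[X]) (hHc : ∀ n, algebraMap F E (H.coeff n) ∈ O') (hH : aeval y H = 0)
    (hH0 : IsUnif (O'.comap (algebraMap F E)) (H.eval 0)) : IsUnif O' y := by
  letI algOO' : Algebra ↥(O'.comap (algebraMap F E)) ↥O' := (UVS.comapHom O').toAlgebra
  letI algOE : Algebra ↥(O'.comap (algebraMap F E)) E :=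
    ((algebraMap F E).comp (algebraMap ↥(O'.comap (algebraMap F E)) F)).toAlgebra
  haveI : IsScalarTower ↥(O'.comap (algebraMap F E)) ↥O' E :=
    IsScalarTower.of_algebraMap_eq (fun _ => rfl)
  haveI : IsScalarTower ↥(O'.comap (algebraMap F E)) F E :=
    IsScalarTower.of_algebraMap_eq (fun _ => rfl)
  have hloc : IsLocalHom (algebraMap ↥(O'.comap (algebraMap F E)) ↥O') :=
    ⟨fun f hf => (UVS.isUnit_comap_iff O' f).mpr hf⟩
  have hlift : H ∈ Polynomial.lifts (algebraMap ↥(O'.comap (algebraMap F E)) F) := by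
    rw [Polynomial.lifts_iff_coeff_lifts]
    intro n
    exact ⟨⟨H.coeff n, hHc n⟩, rfl⟩
  obtain ⟨H₀, hH₀⟩ := Polynomial.mem_lifts _ |>.mp hlift
  have hyO : y ∈ O' := O'.nonunits_subset hy
  have hH₀y : aeval (⟨y, hyO⟩ : ↥O') H₀ = 0 := by
    apply Subtype.ext
    have h1 : ((aeval (⟨y, hyO⟩ : ↥O') H₀ : ↥O') : E) = aeval y H₀ := by
      have := aeval_algebraMap_apply (A := ↥O') E (⟨y, hyO⟩ : ↥O') H₀
      exact this.symm
    rw [h1, ← aeval_map_algebraMap F, hH₀, hH]
    rfl
  have h0 : ((H₀.eval 0 : ↥(O'.comap (algebraMap F E))) : F) = H.eval 0 := by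
    rw [← hH₀, eval_zero_map]
    rfl
  have hirr : Irreducible (H₀.eval 0) :=
    (isUnif_iff_irreducible _ (H₀.eval 0)).mp (by rw [h0]; exact hH0)
  have key := LemmaE.irreducible_of_root (O := ↥(O'.comap (algebraMap F E))) (O' := ↥O')
    (E := F) (E' := E) hloc ⟨y, hyO⟩ hgen (ValuationSubring.coe_mem_nonunits_iff.mp hy) H₀ hH₀y hirr
  exact (isUnif_iff_irreducible O' _).mpr key

end EVS

/-! ### Polynomial expressions in an element of a valuation subring containing the constants -/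

section Consts

variable {L E' : Type*} [Field L] [Field E'] [Algebra L E'] (O' : ValuationSubring E')

theorem aeval_mem (hL : ∀ a : L, algebraMap L E' a ∈ O') {t : E'} (ht : t ∈ O') (P : L[X]) :
    aeval t P ∈ O' := by
  induction P using Polynomial.induction_on' with
  | add p q hp hq => rw [map_add]; exact O'.add_mem _ _ hp hq
  | monomial n a => rw [aeval_monomial]; exact O'.mul_mem _ _ (hL a) (pow_mem ht n)

theorem aeval_sub_mem_nu (hL : ∀ a : L, algebraMap L E' a ∈ O') {t : E'} (ht : t ∈ O') {t1 : L}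
    (ht1 : t - algebraMap L E' t1 ∈ O'.nonunits) (P : L[X]) :
    aeval t P - algebraMap L E' (P.eval t1) ∈ O'.nonunits := by
  have hroot : (P - C (P.eval t1)).IsRoot t1 := by simp
  obtain ⟨Q, hQ⟩ := dvd_iff_isRoot.mpr hroot
  have : aeval t P - algebraMap L E' (P.eval t1) = (t - algebraMap L E' t1) * aeval t Q := by
    have := congrArg (aeval t) hQ
    simpa using this
  rw [this]
  exact nu_mul O' ht1 (aeval_mem O' hL ht Q)

theorem const_not_nu (hL : ∀ a : L, algebraMap L E' a ∈ O') {a : L} (ha : a ≠ 0) :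
    algebraMap L E' a ∉ O'.nonunits :=
  not_nu_of_inv O' ((_root_.map_ne_zero _).mpr ha) (by rw [← map_inv₀]; exact hL _)

/-- An element congruent to a nonzero constant is a unit. -/
theorem unit_of_sub_const (hL : ∀ a : L, algebraMap L E' a ∈ O') {x : E'} {a : L} (ha : a ≠ 0)
    (hx : x - algebraMap L E' a ∈ O'.nonunits) : x ∈ O' ∧ x⁻¹ ∈ O' ∧ x ≠ 0 := by
  have hxO : x ∈ O' := by
    have := O'.add_mem _ _ (O'.nonunits_subset hx) (hL a)
    simpa using this
  have hnu : x ∉ O'.nonunits := by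
    intro h
    apply const_not_nu O' hL ha
    have := O'.nonunits.sub_mem h hx
    simpa using this
  refine ⟨hxO, inv_mem_of_not_nu O' hnu, ?_⟩
  rintro rfl
  exact hnu (O'.nonunits.zero_mem)

theorem aeval_unit (hL : ∀ a : L, algebraMap L E' a ∈ O') {t : E'} (ht : t ∈ O') {t1 : L}
    (ht1 : t - algebraMap L E' t1 ∈ O'.nonunits) (P : L[X]) (hP : P.eval t1 ≠ 0) :
    aeval t P ∈ O' ∧ (aeval t P)⁻¹ ∈ O' ∧ aeval t P ≠ 0 :=
  unit_of_sub_const O' hL hP (aeval_sub_mem_nu O' hL ht ht1 P)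

end Consts

/-- The value at `a` of the derivative of `X ^ n q(τ + ϖ X) - ε d(τ + ϖ X)` is
`n a ^ (n - 1) q(τ)` modulo `ϖ`. -/
theorem deriv_eval_key {R : Type*} [CommRing R] (n : ℕ) (q d : R[X]) (τ ϖ ε a : R) :
    ∃ r : R, (derivative (X ^ n * q.comp (C τ + C ϖ * X) - C ε * d.comp (C τ + C ϖ * X))).eval a
      = n * a ^ (n - 1) * q.eval τ + ϖ * r := by
  obtain ⟨s, hs⟩ := Polynomial.sub_dvd_eval_sub (τ + ϖ * a) τ q
  refine ⟨n * a ^ (n - 1) * a * s + a ^ n * (derivative q).eval (τ + ϖ * a)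
    - ε * (derivative d).eval (τ + ϖ * a), ?_⟩
  simp only [derivative_sub, derivative_mul, derivative_X_pow, derivative_comp, derivative_add,
    derivative_C, derivative_X, eval_sub, eval_mul, eval_add, eval_pow, eval_X, eval_C,
    eval_comp, zero_add, zero_mul, mul_one]
  linear_combination (n * a ^ (n - 1)) * hs

/-! ### The cover -/

section Cover

variable (two : Bool) {L E E' : Type*} [Field L] [Field E] [Field E'] [Algebra L E] [Algebra L E']
  [Algebra E E'] [IsScalarTower L E E'] [CharZero L]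

theorem coeff_map_mem (O' : ValuationSubring E') (H₀ : (↥(O'.comap (algebraMap E E')))[X]) (n : ℕ) :
    algebraMap E E' ((H₀.map (O'.comap (algebraMap E E')).subtype).coeff n) ∈ O' := by
  rw [coeff_map]; exact (H₀.coeff n).2

theorem const_mem_comap (O' : ValuationSubring E') (hL : ∀ a : L, algebraMap L E' a ∈ O') (a : L) :
    algebraMap L E a ∈ O'.comap (algebraMap E E') := by
  rw [ValuationSubring.mem_comap, ← IsScalarTower.algebraMap_apply]
  exact hL a

theorem lead_ne_zero_E' (L : Type*) {E' : Type*} [Field L] [Field E'] [Algebra L E'] [CharZero L] :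
    ((lead two : ℕ) : E') ≠ 0 := by
  have h := lead_ne_zero_of_charZero (B := L) two
  have : algebraMap L E' ((lead two : ℕ) : L) ≠ 0 := (_root_.map_ne_zero _).mpr h
  rwa [map_natCast] at this

variable {two}

/-- At a point `t ≡ t1` where `cusp(t)` is a unit, `den(t1) ≠ 0`. -/
theorem den_t1_ne {j : E} {t : E'}
    (ht : (num two E').eval t = algebraMap E E' j * (den two E').eval t)
    (O' : ValuationSubring E') (hL : ∀ a : L, algebraMap L E' a ∈ O') (htO : t ∈ O')
    (hc : ((cusp two E').eval t)⁻¹ ∈ O') {t1 : L} (ht1 : t - algebraMap L E' t1 ∈ O'.nonunits) :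
    (den two L).eval t1 ≠ 0 := by
  intro hd
  have hc1 : (cusp two L).eval t1 = 0 := by
    rw [eval_den_eq] at hd
    exact pow_eq_zero_iff (by cases two <;> simp [eD]) |>.mp hd
  have h := aeval_sub_mem_nu O' hL htO ht1 (cusp two L)
  rw [hc1, map_zero, sub_zero, aeval_cusp] at h
  exact not_nu_of_inv O' (cusp_ne_zero_of_root two (lead_ne_zero_E' two L) ht) hc h

/-- `den(t)` is a unit when `t ≡ t1` and `den(t1) ≠ 0`. -/
theorem den_unit {t : E'} (O' : ValuationSubring E') (hL : ∀ a : L, algebraMap L E' a ∈ O')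
    (htO : t ∈ O') {t1 : L} (ht1 : t - algebraMap L E' t1 ∈ O'.nonunits)
    (hd : (den two L).eval t1 ≠ 0) :
    (den two E').eval t ∈ O' ∧ ((den two E').eval t)⁻¹ ∈ O' ∧ (den two E').eval t ≠ 0 := by
  have := aeval_unit O' hL htO ht1 (den two L) hd
  rwa [aeval_den] at this

/-- `j ≡ a = φ(t1)` when `t ≡ t1`. -/
theorem j_sub_mem_nu {j : E} {t : E'}
    (ht : (num two E').eval t = algebraMap E E' j * (den two E').eval t)
    (O' : ValuationSubring E') (hL : ∀ a : L, algebraMap L E' a ∈ O') (htO : t ∈ O')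
    {t1 a : L} (ht1 : t - algebraMap L E' t1 ∈ O'.nonunits)
    (hd : (den two L).eval t1 ≠ 0) (ha : (num two L).eval t1 = a * (den two L).eval t1) :
    algebraMap E E' j - algebraMap L E' a ∈ O'.nonunits := by
  obtain ⟨hdO, hdi, hd0⟩ := den_unit O' hL htO ht1 hd
  have h := aeval_sub_mem_nu O' hL htO ht1 (num two L - C a * den two L)
  have e0 : (num two L - C a * den two L).eval t1 = 0 := by simp [ha]
  rw [e0, map_zero, sub_zero, map_sub, map_mul, aeval_C, aeval_num, aeval_den, ht] at h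
  have e1 : algebraMap E E' j - algebraMap L E' a
      = (algebraMap E E' j * (den two E').eval t - algebraMap L E' a * (den two E').eval t)
        * ((den two E').eval t)⁻¹ := by
    field_simp
  rw [e1]
  exact nu_mul O' h hdi

/-- **Eisenstein case**: if `j - a` (`a = φ(t1)`) is a uniformiser downstairs, then `t - t1` is a
uniformiser upstairs. -/
theorem isUnif_sub_of_isUnif {j : E} {t : E'}
    (ht : (num two E').eval t = algebraMap E E' j * (den two E').eval t) (hgen : E⟮t⟯ = ⊤)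
    (O' : ValuationSubring E') [IsDiscreteValuationRing O']
    [IsDiscreteValuationRing (O'.comap (algebraMap E E'))]
    (hL : ∀ a : L, algebraMap L E' a ∈ O') {t1 a : L}
    (ht1 : t - algebraMap L E' t1 ∈ O'.nonunits)
    (hd : (den two L).eval t1 ≠ 0) (ha : (num two L).eval t1 = a * (den two L).eval t1)
    (hj : IsUnif (O'.comap (algebraMap E E')) (j - algebraMap L E a)) :
    IsUnif O' (t - algebraMap L E' t1) := by
  set Oc : ValuationSubring E := O'.comap (algebraMap E E') with hOc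
  have hLc : ∀ a : L, algebraMap L E a ∈ Oc := const_mem_comap O' hL
  have hjO : j ∈ Oc := by
    have := Oc.add_mem _ _ hj.mem (hLc a)
    simpa using this
  set τ : E := algebraMap L E t1 with hτ
  set τ₀ : ↥Oc := ⟨τ, hLc t1⟩ with hτ₀
  set j₀ : ↥Oc := ⟨j, hjO⟩ with hj₀
  set H₀ : (↥Oc)[X] := (num two ↥Oc).comp (X + C τ₀) - C j₀ * (den two ↥Oc).comp (X + C τ₀)
    with hH₀
  have hH : H₀.map Oc.subtype = (num two E).comp (X + C τ) - C j * (den two E).comp (X + C τ) := by
    rw [hH₀, Polynomial.map_sub, Polynomial.map_mul, Polynomial.map_comp, Polynomial.map_comp,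
      num_map, den_map, Polynomial.map_add, Polynomial.map_X, Polynomial.map_C, Polynomial.map_C]
    rfl
  have hτ' : algebraMap E E' τ = algebraMap L E' t1 := by
    rw [hτ, ← IsScalarTower.algebraMap_apply]
  refine isUnif_of_root (F := E) O' _ ht1 ?_ (H₀.map Oc.subtype) (coeff_map_mem O' H₀) ?_ ?_
  · -- generation
    have h1 : t ∈ E⟮t - algebraMap L E' t1⟯ := by
      have h2 : t - algebraMap L E' t1 ∈ E⟮t - algebraMap L E' t1⟯ := mem_adjoin_simple_self E _
      have h3 : algebraMap L E' t1 ∈ E⟮t - algebraMap L E' t1⟯ := by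
        rw [← hτ']; exact IntermediateField.algebraMap_mem _ τ
      have := add_mem h2 h3
      simpa using this
    have h4 : E⟮t⟯ ≤ E⟮t - algebraMap L E' t1⟯ := by
      rw [adjoin_simple_le_iff]; exact h1
    rw [hgen] at h4
    exact top_le_iff.mp h4
  · -- root
    rw [hH, map_sub, map_mul, aeval_C, aeval_comp, aeval_comp]
    simp only [map_add, aeval_X, aeval_C, hτ', sub_add_cancel, aeval_num, aeval_den]
    rw [ht, sub_self]
  · -- constant term
    rw [hH]
    simp only [eval_sub, eval_mul, eval_C, eval_comp, eval_add, eval_X, zero_add]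
    have e1 : (num two E).eval τ = algebraMap L E ((num two L).eval t1) := by
      rw [← num_map two (algebraMap L E), eval_map, hτ, eval₂_at_apply]
    have e2 : (den two E).eval τ = algebraMap L E ((den two L).eval t1) := by
      rw [← den_map two (algebraMap L E), eval_map, hτ, eval₂_at_apply]
    rw [e1, e2, ha, map_mul]
    have e3 : algebraMap L E a * algebraMap L E ((den two L).eval t1)
        - j * algebraMap L E ((den two L).eval t1)
        = (j - algebraMap L E a) * algebraMap L E (-(den two L).eval t1) := by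
      rw [map_neg]; ring
    rw [e3]
    refine isUnif_mul_unit Oc hj ((_root_.map_ne_zero _).mpr (neg_ne_zero.mpr hd)) (hLc _) ?_
    rw [← map_inv₀]; exact hLc _

/-- **Kummer case**: if `j - a = ε ϖ ^ n` downstairs and `num - a den = (X - t1) ^ n q` with
`q(t1) ≠ 0`, then `t - t1` is a uniformiser upstairs (and `ϖ` stays a uniformiser). -/
theorem isUnif_sub_of_pow {j : E} {t : E'}
    (ht : (num two E').eval t = algebraMap E E' j * (den two E').eval t) (hgen : E⟮t⟯ = ⊤)
    (O' : ValuationSubring E') [IsDiscreteValuationRing O']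
    [IsDiscreteValuationRing (O'.comap (algebraMap E E'))]
    (hL : ∀ a : L, algebraMap L E' a ∈ O')
    (hres : ∀ x ∈ O', ∃ a : L, x - algebraMap L E' a ∈ O'.nonunits)
    (htO : t ∈ O') {t1 a : L} (ht1 : t - algebraMap L E' t1 ∈ O'.nonunits)
    (hd : (den two L).eval t1 ≠ 0)
    {n : ℕ} (hn : n ≠ 0) {q : L[X]} (hq : num two L - C a * den two L = (X - C t1) ^ n * q)
    (hq1 : q.eval t1 ≠ 0)
    {ϖ ε : E} (hϖ : IsUnif (O'.comap (algebraMap E E')) ϖ) (hε0 : ε ≠ 0)
    (hε : ε ∈ O'.comap (algebraMap E E')) (hε' : ε⁻¹ ∈ O'.comap (algebraMap E E'))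
    (hj : j - algebraMap L E a = ε * ϖ ^ n) :
    IsUnif O' (t - algebraMap L E' t1) := by
  set Oc : ValuationSubring E := O'.comap (algebraMap E E') with hOc
  have hLc : ∀ a : L, algebraMap L E a ∈ Oc := const_mem_comap O' hL
  set y : E' := t - algebraMap L E' t1 with hy
  set ϖ' : E' := algebraMap E E' ϖ with hϖ'
  set ε' : E' := algebraMap E E' ε with hε'def
  have hϖ0 : ϖ ≠ 0 := by
    have hirr := (isUnif_iff_irreducible Oc ⟨ϖ, hϖ.mem⟩).mp hϖ
    intro h0
    exact hirr.ne_zero (Subtype.ext h0)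
  have hϖ'0 : ϖ' ≠ 0 := (_root_.map_ne_zero _).mpr hϖ0
  obtain ⟨hqO, hqi, hq0⟩ := aeval_unit O' hL htO ht1 q hq1
  obtain ⟨hdO, hdi, hd0⟩ := den_unit O' hL htO ht1 hd
  have hε'O : ε' ∈ O' := hε
  have hε'i : ε'⁻¹ ∈ O' := by rw [hε'def, ← map_inv₀]; exact hε'
  have hε'0 : ε' ≠ 0 := (_root_.map_ne_zero _).mpr hε0
  -- the key identity
  have hkey : y ^ n * aeval t q = ε' * ϖ' ^ n * (den two E').eval t := by
    have h1 := congrArg (aeval t) hq
    rw [map_sub, map_mul, aeval_C, aeval_num, aeval_den, map_mul, map_pow, map_sub, aeval_X,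
      aeval_C, ht] at h1
    have h2 := congrArg (algebraMap E E') hj
    rw [map_sub, ← IsScalarTower.algebraMap_apply, map_mul, map_pow] at h2
    rw [← h1, ← sub_mul, h2]
  set x : E' := y / ϖ' with hx
  have hyx : y = ϖ' * x := by rw [hx]; field_simp
  have hxq : x ^ n * aeval t q = ε' * (den two E').eval t := by
    have : ϖ' ^ n * (x ^ n * aeval t q) = ϖ' ^ n * (ε' * (den two E').eval t) := by
      rw [← mul_assoc, ← mul_pow, ← hyx, hkey]; ring
    exact mul_left_cancel₀ (pow_ne_zero n hϖ'0) this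
  have hxn : x ^ n = ε' * (den two E').eval t * (aeval t q)⁻¹ := by
    rw [← hxq, mul_assoc, mul_inv_cancel₀ hq0, mul_one]
  have hx0 : x ≠ 0 := by
    intro h0
    rw [h0, zero_pow hn] at hxn
    exact mul_ne_zero (mul_ne_zero hε'0 hd0) (inv_ne_zero hq0) hxn.symm
  have hxu : x ∈ O' ∧ x⁻¹ ∈ O' := by
    refine unit_of_pow_unit O' hn ?_ ?_ hx0
    · rw [hxn]; exact O'.mul_mem _ _ (O'.mul_mem _ _ hε'O hdO) hqi
    · rw [hxn, mul_inv, mul_inv, inv_inv]; exact O'.mul_mem _ _ (O'.mul_mem _ _ hε'i hdi) hqO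
  obtain ⟨x0, hx0'⟩ := hres x hxu.1
  have hx00 : x0 ≠ 0 := by
    rintro rfl
    rw [map_zero, sub_zero] at hx0'
    exact not_nu_of_inv O' hx0 hxu.2 hx0'
  -- the polynomial
  let ιL : L →+* ↥Oc := (algebraMap L E).codRestrict Oc hLc
  set τ₀ : ↥Oc := ιL t1 with hτ₀
  set ϖ₀ : ↥Oc := ⟨ϖ, hϖ.mem⟩ with hϖ₀
  set ε₀ : ↥Oc := ⟨ε, hε⟩ with hε₀
  set a₀ : ↥Oc := ιL x0 with ha₀
  set H₀ : (↥Oc)[X] := X ^ n * (q.map ιL).comp (C τ₀ + C ϖ₀ * X)
    - C ε₀ * (den two ↥Oc).comp (C τ₀ + C ϖ₀ * X) with hH₀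
  have hιL : Oc.subtype.comp ιL = algebraMap L E := RingHom.ext fun _ => rfl
  have hH : H₀.map Oc.subtype = X ^ n * (q.map (algebraMap L E)).comp (C (algebraMap L E t1) + C ϖ * X)
      - C ε * (den two E).comp (C (algebraMap L E t1) + C ϖ * X) := by
    rw [hH₀, Polynomial.map_sub, Polynomial.map_mul, Polynomial.map_mul, Polynomial.map_comp,
      Polynomial.map_comp, Polynomial.map_map, hιL, den_map, Polynomial.map_pow, Polynomial.map_X,
      Polynomial.map_add, Polynomial.map_mul, Polynomial.map_C, Polynomial.map_C, Polynomial.map_C,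
      Polynomial.map_X]
    rfl
  have hτ' : algebraMap E E' (algebraMap L E t1) = algebraMap L E' t1 :=
    (IsScalarTower.algebraMap_apply L E E' t1).symm
  have hgt : algebraMap L E' t1 + ϖ' * x = t := by rw [← hyx, hy]; ring
  have hϖ'nu : ϖ' ∈ O'.nonunits := (Kummer.mem_nonunits_comap_iff O' ϖ).mp hϖ.1
  have hU : IsUnif O' (algebraMap E E' ϖ) := by
    refine UVS.isUnif_algebraMap (F := E) O' x hxu.1 ?_ (algebraMap L E x0) ?_ ?_
      (H₀.map Oc.subtype) (coeff_map_mem O' H₀) ?_ ?_ hϖ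
    · -- generation
      have h1 : t ∈ E⟮x⟯ := by
        rw [← hgt, ← hτ']
        exact add_mem (IntermediateField.algebraMap_mem _ _)
          (mul_mem (IntermediateField.algebraMap_mem _ _) (mem_adjoin_simple_self E x))
      have h4 : E⟮t⟯ ≤ E⟮x⟯ := by rw [adjoin_simple_le_iff]; exact h1
      rw [hgen] at h4
      exact top_le_iff.mp h4
    · rw [← IsScalarTower.algebraMap_apply]; exact hL x0
    · rw [← IsScalarTower.algebraMap_apply]; exact hx0'
    · -- root
      rw [hH, map_sub, map_mul, map_mul, aeval_C, aeval_comp, aeval_comp, map_pow, aeval_X]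
      simp only [map_add, map_mul, aeval_X, aeval_C, hτ']
      rw [hgt, aeval_map_algebraMap, aeval_den, hxq, sub_self]
    · -- derivative
      obtain ⟨r, hr⟩ := deriv_eval_key n (q.map ιL) (den two ↥Oc) τ₀ ϖ₀ ε₀ a₀
      have hval : (derivative (H₀.map Oc.subtype)).eval (algebraMap L E x0)
          = algebraMap L E ((n : L) * x0 ^ (n - 1) * q.eval t1) + ϖ * (r : E) := by
        have e1 : (derivative (H₀.map Oc.subtype)).eval (algebraMap L E x0)
            = Oc.subtype ((derivative H₀).eval a₀) := by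
          rw [derivative_map, eval_map]
          exact eval₂_at_apply Oc.subtype a₀
        rw [e1, hr, eval_map, hτ₀, eval₂_at_apply]
        simp only [map_add, map_mul, map_pow, map_natCast]
        rfl
      have hval' : algebraMap E E' ((derivative (H₀.map Oc.subtype)).eval (algebraMap L E x0))
          = algebraMap L E' ((n : L) * x0 ^ (n - 1) * q.eval t1)
            + algebraMap E E' ϖ * algebraMap E E' (r : E) := by
        rw [hval, map_add, (algebraMap E E').map_mul, ← IsScalarTower.algebraMap_apply]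
      rw [hval']
      intro hmem
      have hc : (n : L) * x0 ^ (n - 1) * q.eval t1 ≠ 0 :=
        mul_ne_zero (mul_ne_zero (Nat.cast_ne_zero.mpr hn) (pow_ne_zero _ hx00)) hq1
      apply const_not_nu O' hL hc
      have h2 : algebraMap E E' ϖ * algebraMap E E' (r : E) ∈ O'.nonunits :=
        nu_mul O' hϖ'nu r.2
      have := O'.nonunits.sub_mem hmem h2
      rwa [add_sub_cancel_right] at this
  rw [hyx]
  exact isUnif_mul_unit O' hU hx0 hxu.1 hxu.2

/-- **(R1)**: away from the cusps, `t - t1` is a uniformiser. -/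
theorem R1 (two : Bool) {j : E} {t : E'} [Algebra.IsAlgebraic E E']
    (ht : (num two E').eval t = algebraMap E E' j * (den two E').eval t) (hgen : E⟮t⟯ = ⊤)
    (hjc : ∀ a : L, j ≠ algebraMap L E a)
    (hD1 : ∀ (O : ValuationSubring E) [IsDiscreteValuationRing O], (∀ a : L, algebraMap L E a ∈ O) →
      ∀ c : L, c ≠ 0 → c ≠ 1728 → j - algebraMap L E c ∈ O.nonunits →
        IsUnif O (j - algebraMap L E c))
    (hD0 : ∀ (O : ValuationSubring E) [IsDiscreteValuationRing O], (∀ a : L, algebraMap L E a ∈ O) →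
      j ∈ O.nonunits → ∃ ϖ ε : E, IsUnif O ϖ ∧ ε ∈ O ∧ ε⁻¹ ∈ O ∧ (j = ε * ϖ ∨ j = ε * ϖ ^ 3))
    (hD1728 : ∀ (O : ValuationSubring E) [IsDiscreteValuationRing O],
      (∀ a : L, algebraMap L E a ∈ O) → j - algebraMap L E 1728 ∈ O.nonunits →
        ∃ ϖ ε : E, IsUnif O ϖ ∧ ε ∈ O ∧ ε⁻¹ ∈ O ∧
          (j - algebraMap L E 1728 = ε * ϖ ∨ j - algebraMap L E 1728 = ε * ϖ ^ 2))
    (O' : ValuationSubring E') [IsDiscreteValuationRing O'] (hL : ∀ a : L, algebraMap L E' a ∈ O')
    (hres : ∀ x ∈ O', ∃ a : L, x - algebraMap L E' a ∈ O'.nonunits)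
    (htO : t ∈ O') (hc : ((cusp two E').eval t)⁻¹ ∈ O') (t1 : L)
    (ht1 : t - algebraMap L E' t1 ∈ O'.nonunits) :
    IsUnif O' (t - algebraMap L E' t1) := by
  have : IsDiscreteValuationRing (O'.comap (algebraMap E E')) := PlaceVS.isDVR_comap (K := L) O' hL
  set Oc : ValuationSubring E := O'.comap (algebraMap E E') with hOc
  have hLc : ∀ a : L, algebraMap L E a ∈ Oc := const_mem_comap O' hL
  have hd := den_t1_ne ht O' hL htO hc ht1
  set a : L := (num two L).eval t1 / (den two L).eval t1 with ha_def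
  have ha : (num two L).eval t1 = a * (den two L).eval t1 := by
    rw [ha_def]; field_simp
  have hja := j_sub_mem_nu ht O' hL htO ht1 hd ha
  have hjc' : j - algebraMap L E a ∈ Oc.nonunits := by
    rw [Kummer.mem_nonunits_comap_iff, map_sub, ← IsScalarTower.algebraMap_apply]; exact hja
  by_cases ha0 : a = 0
  · have hj0 : j ∈ Oc.nonunits := by simpa [ha0] using hjc'
    obtain ⟨ϖ, ε, hϖ, hε, hε', h⟩ := hD0 Oc hLc hj0
    have hε0 : ε ≠ 0 := by
      rintro rfl
      rcases h with h | h <;> exact hjc 0 (by simpa using h)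
    have hnum : (num two L).eval t1 = 0 := by rw [ha, ha0, zero_mul]
    rcases h with h | h
    · refine isUnif_sub_of_isUnif ht hgen O' hL ht1 hd ha ?_
      rw [ha0, map_zero, sub_zero, h, mul_comm]
      exact isUnif_mul_unit Oc hϖ hε0 hε hε'
    · obtain ⟨q, hq, hq1⟩ := triple_root two hnum
      refine isUnif_sub_of_pow ht hgen O' hL hres htO (a := a) ht1 hd (n := 3) (by norm_num)
        (q := q) ?_ hq1 hϖ hε0 hε hε' ?_
      · rw [ha0, C_0, zero_mul, sub_zero]; exact hq
      · rw [ha0, map_zero, sub_zero]; exact h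
  · by_cases ha1 : a = 1728
    · have hj1 : j - algebraMap L E 1728 ∈ Oc.nonunits := by rw [← ha1]; exact hjc'
      obtain ⟨ϖ, ε, hϖ, hε, hε', h⟩ := hD1728 Oc hLc hj1
      have hε0 : ε ≠ 0 := by
        rintro rfl
        rcases h with h | h <;>
          exact hjc 1728 (by rw [zero_mul] at h; exact sub_eq_zero.mp h)
      have hnum : (num two L).eval t1 = 1728 * (den two L).eval t1 := by rw [ha, ha1]
      rcases h with h | h
      · refine isUnif_sub_of_isUnif ht hgen O' hL ht1 hd ha ?_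
        rw [ha1, h, mul_comm]
        exact isUnif_mul_unit Oc hϖ hε0 hε hε'
      · obtain ⟨q, hq, hq1⟩ := double_root two hnum
        refine isUnif_sub_of_pow ht hgen O' hL hres htO (a := a) ht1 hd (n := 2) (by norm_num)
          (q := q) ?_ hq1 hϖ hε0 hε hε' ?_
        · rw [ha1]; exact hq
        · rw [ha1]; exact h
    · exact isUnif_sub_of_isUnif ht hgen O' hL ht1 hd ha (hD1 Oc hLc a ha0 ha1 hjc')

/-- **(R1')**: over a generic point `j = a`, `a ≠ 0, 1728`, `j - a` is a uniformiser. -/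
theorem R1' (two : Bool) {j : E} {t : E'} [Algebra.IsAlgebraic E E'] (ζ : L)
    (hζ : ζ ^ 2 + ζ + 1 = 0)
    (ht : (num two E').eval t = algebraMap E E' j * (den two E').eval t) (hgen : E⟮t⟯ = ⊤)
    (hjc : ∀ a : L, j ≠ algebraMap L E a)
    (hD1 : ∀ (O : ValuationSubring E) [IsDiscreteValuationRing O], (∀ a : L, algebraMap L E a ∈ O) →
      ∀ c : L, c ≠ 0 → c ≠ 1728 → j - algebraMap L E c ∈ O.nonunits →
        IsUnif O (j - algebraMap L E c))
    (hD0 : ∀ (O : ValuationSubring E) [IsDiscreteValuationRing O], (∀ a : L, algebraMap L E a ∈ O) →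
      j ∈ O.nonunits → ∃ ϖ ε : E, IsUnif O ϖ ∧ ε ∈ O ∧ ε⁻¹ ∈ O ∧ (j = ε * ϖ ∨ j = ε * ϖ ^ 3))
    (hD1728 : ∀ (O : ValuationSubring E) [IsDiscreteValuationRing O],
      (∀ a : L, algebraMap L E a ∈ O) → j - algebraMap L E 1728 ∈ O.nonunits →
        ∃ ϖ ε : E, IsUnif O ϖ ∧ ε ∈ O ∧ ε⁻¹ ∈ O ∧
          (j - algebraMap L E 1728 = ε * ϖ ∨ j - algebraMap L E 1728 = ε * ϖ ^ 2))
    (O' : ValuationSubring E') [IsDiscreteValuationRing O'] (hL : ∀ a : L, algebraMap L E' a ∈ O')
    (hres : ∀ x ∈ O', ∃ a : L, x - algebraMap L E' a ∈ O'.nonunits)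
    (hjO : algebraMap E E' j ∈ O') (a : L) (ha0 : a ≠ 0) (ha1 : a ≠ 1728)
    (hja : algebraMap E E' j - algebraMap L E' a ∈ O'.nonunits) :
    IsUnif O' (algebraMap E E' j - algebraMap L E' a) := by
  have hleadL := lead_ne_zero_of_charZero (B := L) two
  have hu : IsUnit (((lead two : ℕ) : ↥O')) := by
    refine IsUnit.of_mul_eq_one ⟨algebraMap L E' (((lead two : ℕ) : L)⁻¹), hL _⟩ (Subtype.ext ?_)
    push_cast
    exact mul_inv_cancel₀ (lead_ne_zero_E' two L)
  have htint : IsIntegral ↥O' t := isIntegral_t two hu ⟨algebraMap E E' j, hjO⟩ t ht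
  have htO : t ∈ O' := by
    obtain ⟨y, hy⟩ := IsIntegrallyClosed.isIntegral_iff.mp htint
    rw [← hy]; exact y.2
  have hζ' : (⟨algebraMap L E' ζ, hL ζ⟩ : ↥O') ^ 2 + ⟨algebraMap L E' ζ, hL ζ⟩ + 1 = 0 := by
    apply Subtype.ext
    push_cast
    rw [← map_pow, ← map_add, ← map_one (algebraMap L E'), ← map_add, hζ, map_zero]
  have hcint : IsIntegral ↥O' ((cusp two E').eval t)⁻¹ :=
    isIntegral_inv_cusp two hu ⟨algebraMap L E' ζ, hL ζ⟩ hζ' ⟨algebraMap E E' j, hjO⟩ t ht
  have hcO : ((cusp two E').eval t)⁻¹ ∈ O' := by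
    obtain ⟨y, hy⟩ := IsIntegrallyClosed.isIntegral_iff.mp hcint
    rw [← hy]; exact y.2
  obtain ⟨t1, ht1⟩ := hres t htO
  have hR1 := R1 two ht hgen hjc hD1 hD0 hD1728 O' hL hres htO hcO t1 ht1
  have hd := den_t1_ne ht O' hL htO hcO ht1
  set a1 : L := (num two L).eval t1 / (den two L).eval t1 with ha1_def
  have ha1' : (num two L).eval t1 = a1 * (den two L).eval t1 := by
    rw [ha1_def]; field_simp
  have hja1 := j_sub_mem_nu ht O' hL htO ht1 hd ha1'
  have haa : a1 = a := by
    by_contra hne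
    have h1 : algebraMap L E' (a1 - a) ∈ O'.nonunits := by
      rw [map_sub]
      have := O'.nonunits.sub_mem hja hja1
      simpa using this
    exact const_not_nu O' hL (sub_ne_zero.mpr hne) h1
  rw [haa] at ha1'
  obtain ⟨q, hq, hq1⟩ := simple_root two hleadL ha1' ha0 ha1
  have h1 := congrArg (aeval t) hq
  rw [map_sub, map_mul, aeval_C, aeval_num, aeval_den, map_mul, map_sub, aeval_X, aeval_C, ht,
    ← sub_mul] at h1
  obtain ⟨hqO, hqi, hq0⟩ := aeval_unit O' hL htO ht1 q hq1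
  obtain ⟨hdO, hdi, hd0⟩ := den_unit O' hL htO ht1 hd
  have e : algebraMap E E' j - algebraMap L E' a
      = (t - algebraMap L E' t1) * (aeval t q * ((den two E').eval t)⁻¹) := by
    rw [← mul_assoc, ← h1, mul_assoc, mul_inv_cancel₀ hd0, mul_one]
  rw [e]
  refine isUnif_mul_unit O' hR1 (mul_ne_zero hq0 (inv_ne_zero hd0)) (O'.mul_mem _ _ hqO hdi) ?_
  rw [mul_inv, inv_inv]; exact O'.mul_mem _ _ hqi hdO

end Cover

end Fermat.Agent.RedLib.ABH
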