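import Mathlib
import Fermat.Agent.GenusLib.FFFinal

/-!
# S18 (reduction of `J₀(N)`): ramification of `j` in characteristic `0`

`F = modularFunctionFieldBar N` over `L = AlgebraicClosure ℚ`.  For a place `v` of `F / L` at which
`j - c` vanishes:

* `ord_j_sub_eq_one` : `c ≠ 0`, `c ≠ 1728` ⟹ `ord_v (j - c) = 1`;
* `ord_j_dvd_three` : `ord_v j ∣ 3`;
* `ord_j_sub_dvd_two` : `ord_v (j - 1728) ∣ 2`.

(Everything is read off from the order functions of the genus computation in `GenusLib`.)
-/

set_option autoImplicit false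
set_option linter.style.haveILetI false
set_option linter.unusedSectionVars false

noncomputable section

namespace Fermat.Agent.RedLib.Ram0

open UpperHalfPlane hiding I
open scoped MatrixGroups ModularForm
open AlgebraicCurve Polynomial IntermediateField EisensteinSeries ModularForm IsDedekindDomain
open Fermat.Agent.GenusLib Fermat.Agent.GenusLib.FF Fermat.Agent.GenusLib.PlaceCore
  Fermat.Agent.GenusLib.LS Fermat.Agent.GenusLib.Defs

variable {N : ℕ} [NeZero N]

/-- A place over `j = c` is one of the points of the genus computation: its order at `j - c` is an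
orbit size `sP ω`. -/
theorem exists_orbit (v : Place Qb (FN N)) (c : Qb)
    (hv : 0 < v.ord (jF N - algebraMap Qb (FN N) c)) :
    ∃ (B : BridgeData N) (ω : OrbP N (tauOf B c)),
      v.ord (jF N - algebraMap Qb (FN N) c) = (sP ω : ℤ) := by
  have B : BridgeData N := bridgeData N embQb
  haveI : FiniteDimensional Qb⟮jF N⟯ (FN N) := finiteDimensional_FN B
  have hj : Transcendental Qb (jF N) := transcendental_jF B
  obtain ⟨Φ, -, hΦ, hsurj, -⟩ := local_bijection' (jF N) (jF N - algebraMap Qb (FN N) c)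
    (transcendental_sub_algebraMap hj c) (adjoin_sub_algebraMap (jF N) c) (W B c)
    (hpos B c) (by rw [hsum B c, finrank_FN B]) (FFInt.hint B c)
  obtain ⟨ω, rfl⟩ := hsurj v hv
  exact ⟨B, ω, by rw [hΦ ω _ (jF_sub_ne_zero B c), W_j_sub]⟩

/-- Away from `0` and `1728` the function `j` is unramified. -/
theorem ord_j_sub_eq_one (v : Place Qb (FN N)) (c : Qb) (h0 : c ≠ 0) (h1728 : c ≠ 1728)
    (hv : 0 < v.ord (jF N - algebraMap Qb (FN N) c)) :
    v.ord (jF N - algebraMap Qb (FN N) c) = 1 := by
  have B : BridgeData N := bridgeData N embQb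
  haveI : FiniteDimensional Qb⟮jF N⟯ (FN N) := finiteDimensional_FN B
  have hj : Transcendental Qb (jF N) := transcendental_jF B
  obtain ⟨Φ, -, hΦ, hsurj, -⟩ := local_bijection' (jF N) (jF N - algebraMap Qb (FN N) c)
    (transcendental_sub_algebraMap hj c) (adjoin_sub_algebraMap (jF N) c) (W B c)
    (hpos B c) (by rw [hsum B c, finrank_FN B]) (FFInt.hint B c)
  obtain ⟨ω, rfl⟩ := hsurj v hv
  rw [hΦ ω _ (jF_sub_ne_zero B c)]
  exact hS B c (by rw [mem_SQ]; tauto) ω

/-- Over `j = 0` the ramification indices divide `3`. -/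
theorem ord_j_dvd_three (v : Place Qb (FN N)) (hv : 0 < v.ord (jF N)) :
    v.ord (jF N) ∣ 3 := by
  have hv' : 0 < v.ord (jF N - algebraMap Qb (FN N) 0) := by simpa using hv
  obtain ⟨B, ω, h⟩ := exists_orbit v 0 hv'
  have h4 : E₄ (tauOf B 0) = 0 := by
    rw [JOrd.E₄_eq_zero_iff, jFun_tauOf, map_zero]
  have hcard : Nat.card (StabG (tauOf B 0)) = 6 := JOrd.card_stabilizer_of_E₄ h4
  have h1 := sP_mul_eP ω
  rw [hcard] at h1
  have h2 : sP ω ∣ 3 := ⟨eP ω, by omega⟩
  have h3 : v.ord (jF N) = (sP ω : ℤ) := by simpa using h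
  rw [h3]
  exact_mod_cast h2

/-- Over `j = 1728` the ramification indices divide `2`. -/
theorem ord_j_sub_dvd_two (v : Place Qb (FN N))
    (hv : 0 < v.ord (jF N - algebraMap Qb (FN N) 1728)) :
    v.ord (jF N - algebraMap Qb (FN N) 1728) ∣ 2 := by
  obtain ⟨B, ω, h⟩ := exists_orbit v 1728 hv
  have h6 : E₆ (tauOf B 1728) = 0 := by
    rw [JOrd.E₆_eq_zero_iff, jFun_tauOf]
    exact map_ofNat B.ι 1728
  have hcard : Nat.card (StabG (tauOf B 1728)) = 4 := JOrd.card_stabilizer_of_E₆ h6
  have h1 := sP_mul_eP ω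
  rw [hcard] at h1
  have h2 : sP ω ∣ 2 := ⟨eP ω, by omega⟩
  rw [h]
  exact_mod_cast h2

/-! ### Dedekind language -/

section Abstract

variable {K F : Type*} [Field K] [Field F] [Algebra K F]
variable {B : Type*} [CommRing B] [IsDedekindDomain B] [Algebra B F] [IsFractionRing B F]
  [Algebra K B] [IsScalarTower K B F]

/-- The order of an element of a Dedekind domain `B` at the place of a height one prime is the
multiplicity of the prime in the principal ideal. -/
theorem ofHOS_ord_algebraMap (w : HeightOneSpectrum B) {b : B} (hb : b ≠ 0) :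
    (Place.ofHeightOneSpectrum (K := K) (F := F) w).ord (algebraMap B F b)
      = (multiplicity w.asIdeal (Ideal.span {b}) : ℤ) := by
  have hbF : algebraMap B F b ≠ 0 :=
    (map_ne_zero_iff _ (IsFractionRing.injective B F)).mpr hb
  rw [ofHOS_ord w hbF, HeightOneSpectrum.valuation_of_algebraMap,
    HeightOneSpectrum.intValuation_eq_exp_neg_multiplicity w hb, WithZero.log_exp]
  ring

variable [Algebra K[X] B] [Algebra K[X] F] [IsScalarTower K[X] B F]

theorem liesOver_span_of_mem {p : K[X]} (hp : Irreducible p) (q : Ideal B) [hq' : q.IsPrime]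
    (hq : algebraMap K[X] B p ∈ q) : q.LiesOver (Ideal.span {p}) := by
  constructor
  have hmax : (Ideal.span {p}).IsMaximal := PrincipalIdealRing.isMaximal_of_irreducible hp
  apply hmax.eq_of_le
  · exact (Ideal.IsPrime.under K[X] q).ne_top
  · rw [Ideal.span_le, Set.singleton_subset_iff]; exact hq

/-- The order of an irreducible polynomial `p` (in the coordinate of `K[X] → B`) at the place of a
height one prime containing it is the ramification index. -/
theorem ofHOS_ord_irreducible {p : K[X]} (hp : Irreducible p) (hp0 : algebraMap K[X] F p ≠ 0)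
    (w : HeightOneSpectrum B) (hw : algebraMap K[X] B p ∈ w.asIdeal) :
    (Place.ofHeightOneSpectrum (K := K) (F := F) w).ord (algebraMap K[X] F p)
      = (w.asIdeal.ramificationIdx K[X] : ℤ) := by
  haveI := liesOver_span_of_mem hp w.asIdeal hw
  have hpB : algebraMap K[X] B p ≠ 0 := by
    intro h; apply hp0; rw [IsScalarTower.algebraMap_apply K[X] B F, h, map_zero]
  have hmap : (Ideal.span {p}).map (algebraMap K[X] B) = Ideal.span {algebraMap K[X] B p} := by
    rw [Ideal.map_span, Set.image_singleton]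
  have hne : (Ideal.span {p}).map (algebraMap K[X] B) ≠ ⊥ := by
    rw [hmap, Ne, Ideal.span_singleton_eq_bot]; exact hpB
  rw [Ideal.IsDedekindDomain.ramificationIdx_eq_multiplicity (Ideal.span {p}) w.asIdeal hne, hmap,
    IsScalarTower.algebraMap_apply K[X] B F, ofHOS_ord_algebraMap w hpB]

end Abstract

section Dedekind

variable {B : Type*} [CommRing B] [IsDedekindDomain B] [Algebra B (FN N)]
  [IsFractionRing B (FN N)] [Algebra Qb B] [IsScalarTower Qb B (FN N)]

theorem sub_ne_zero_of_eq_jF {jB : B} (hj : algebraMap B (FN N) jB = jF N) (c : Qb) :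
    jB - algebraMap Qb B c ≠ 0 := by
  have B' : BridgeData N := bridgeData N embQb
  intro h
  apply jF_sub_ne_zero B' c
  rw [← hj, IsScalarTower.algebraMap_apply Qb B (FN N), ← map_sub, h, map_zero]

theorem ord_eq_multiplicity {jB : B} (hj : algebraMap B (FN N) jB = jF N) (c : Qb)
    (w : HeightOneSpectrum B) :
    (Place.ofHeightOneSpectrum (K := Qb) (F := FN N) w).ord (jF N - algebraMap Qb (FN N) c)
      = (multiplicity w.asIdeal (Ideal.span {jB - algebraMap Qb B c}) : ℤ) := by
  rw [← ofHOS_ord_algebraMap (K := Qb) (F := FN N) w (sub_ne_zero_of_eq_jF hj c), map_sub, hj,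
    ← IsScalarTower.algebraMap_apply Qb B (FN N)]

theorem ord_pos_of_mem {jB : B} (hj : algebraMap B (FN N) jB = jF N) (c : Qb)
    (w : HeightOneSpectrum B) (hw : jB - algebraMap Qb B c ∈ w.asIdeal) :
    0 < (Place.ofHeightOneSpectrum (K := Qb) (F := FN N) w).ord
      (jF N - algebraMap Qb (FN N) c) := by
  have h := (ofHOS_ord_algebraMap_pos_iff (K := Qb) (F := FN N) w
    (sub_ne_zero_of_eq_jF hj c)).mpr hw
  rwa [map_sub, hj, ← IsScalarTower.algebraMap_apply Qb B (FN N)] at h

/-- **(D1), multiplicity form, generic point.**  If `c ≠ 0, 1728`, a prime of `B` containing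
`j - c` contains it with multiplicity exactly one. -/
theorem multiplicity_eq_one {jB : B} (hj : algebraMap B (FN N) jB = jF N) (c : Qb) (h0 : c ≠ 0)
    (h1728 : c ≠ 1728) (w : HeightOneSpectrum B) (hw : jB - algebraMap Qb B c ∈ w.asIdeal) :
    multiplicity w.asIdeal (Ideal.span {jB - algebraMap Qb B c}) = 1 := by
  have h := ord_j_sub_eq_one _ c h0 h1728 (ord_pos_of_mem hj c w hw)
  rw [ord_eq_multiplicity hj c w] at h
  exact_mod_cast h

/-- **(D1), multiplicity form, `j = 0`.** -/
theorem multiplicity_dvd_three {jB : B} (hj : algebraMap B (FN N) jB = jF N)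
    (w : HeightOneSpectrum B) (hw : jB ∈ w.asIdeal) :
    multiplicity w.asIdeal (Ideal.span {jB}) ∣ 3 := by
  have hw' : jB - algebraMap Qb B 0 ∈ w.asIdeal := by simpa using hw
  have hpos := ord_pos_of_mem hj 0 w hw'
  have e := ord_eq_multiplicity hj 0 w
  simp only [map_zero, sub_zero] at hpos e
  have h := ord_j_dvd_three _ hpos
  rw [e] at h
  exact_mod_cast h

/-- **(D1), multiplicity form, `j = 1728`.** -/
theorem multiplicity_dvd_two {jB : B} (hj : algebraMap B (FN N) jB = jF N)
    (w : HeightOneSpectrum B) (hw : jB - algebraMap Qb B 1728 ∈ w.asIdeal) :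
    multiplicity w.asIdeal (Ideal.span {jB - algebraMap Qb B 1728}) ∣ 2 := by
  have h := ord_j_sub_dvd_two _ (ord_pos_of_mem hj 1728 w hw)
  rw [ord_eq_multiplicity hj 1728 w] at h
  exact_mod_cast h

variable [Algebra Qb[X] B] [Algebra Qb[X] (FN N)] [IsScalarTower Qb[X] B (FN N)]
  [IsScalarTower Qb Qb[X] (FN N)]

theorem algebraMap_X_sub_C (hX : algebraMap Qb[X] (FN N) Polynomial.X = jF N) (c : Qb) :
    algebraMap Qb[X] (FN N) (Polynomial.X - C c) = jF N - algebraMap Qb (FN N) c := by
  rw [map_sub, hX, ← Polynomial.algebraMap_eq, ← IsScalarTower.algebraMap_apply Qb Qb[X] (FN N)]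

theorem ord_eq_ramificationIdx (hX : algebraMap Qb[X] (FN N) Polynomial.X = jF N) (c : Qb)
    (w : HeightOneSpectrum B) (hw : algebraMap Qb[X] B (Polynomial.X - C c) ∈ w.asIdeal) :
    (Place.ofHeightOneSpectrum (K := Qb) (F := FN N) w).ord (jF N - algebraMap Qb (FN N) c)
      = (w.asIdeal.ramificationIdx Qb[X] : ℤ) ∧
    0 < (Place.ofHeightOneSpectrum (K := Qb) (F := FN N) w).ord
      (jF N - algebraMap Qb (FN N) c) := by
  have B' : BridgeData N := bridgeData N embQb
  have hne : algebraMap Qb[X] (FN N) (Polynomial.X - C c) ≠ 0 := by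
    rw [algebraMap_X_sub_C hX]; exact jF_sub_ne_zero B' c
  have hneB : algebraMap Qb[X] B (Polynomial.X - C c) ≠ 0 := by
    intro h; apply hne; rw [IsScalarTower.algebraMap_apply Qb[X] B (FN N), h, map_zero]
  have h := ofHOS_ord_irreducible (K := Qb) (F := FN N) (irreducible_X_sub_C c) hne w hw
  rw [algebraMap_X_sub_C hX] at h
  refine ⟨h, ?_⟩
  have h2 := (ofHOS_ord_algebraMap_pos_iff (K := Qb) (F := FN N) w hneB).mpr hw
  rwa [← IsScalarTower.algebraMap_apply Qb[X] B (FN N), algebraMap_X_sub_C hX] at h2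

/-- **(D1), generic point.**  A prime of `B` over `(j - c)`, `c ≠ 0, 1728`, is unramified. -/
theorem ramificationIdx_eq_one (hX : algebraMap Qb[X] (FN N) Polynomial.X = jF N) (c : Qb) (h0 : c ≠ 0)
    (h1728 : c ≠ 1728) (w : HeightOneSpectrum B)
    (hw : algebraMap Qb[X] B (Polynomial.X - C c) ∈ w.asIdeal) :
    w.asIdeal.ramificationIdx Qb[X] = 1 := by
  obtain ⟨e, hpos⟩ := ord_eq_ramificationIdx hX c w hw
  have h := ord_j_sub_eq_one _ c h0 h1728 hpos
  rw [e] at h
  exact_mod_cast h

/-- **(D1), `j = 0`.**  A prime of `B` over `(j)` has ramification index dividing `3`. -/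
theorem ramificationIdx_dvd_three (hX : algebraMap Qb[X] (FN N) Polynomial.X = jF N)
    (w : HeightOneSpectrum B) (hw : algebraMap Qb[X] B Polynomial.X ∈ w.asIdeal) :
    w.asIdeal.ramificationIdx Qb[X] ∣ 3 := by
  have hw' : algebraMap Qb[X] B (Polynomial.X - C 0) ∈ w.asIdeal := by simpa using hw
  obtain ⟨e, hpos⟩ := ord_eq_ramificationIdx hX 0 w hw'
  simp only [map_zero, sub_zero] at hpos e
  have h := ord_j_dvd_three _ hpos
  rw [e] at h
  exact_mod_cast h

/-- **(D1), `j = 1728`.**  A prime of `B` over `(j - 1728)` has ramification index dividing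
`2`. -/
theorem ramificationIdx_dvd_two (hX : algebraMap Qb[X] (FN N) Polynomial.X = jF N)
    (w : HeightOneSpectrum B) (hw : algebraMap Qb[X] B (Polynomial.X - C 1728) ∈ w.asIdeal) :
    w.asIdeal.ramificationIdx Qb[X] ∣ 2 := by
  obtain ⟨e, hpos⟩ := ord_eq_ramificationIdx hX 1728 w hw
  have h := ord_j_sub_dvd_two _ hpos
  rw [e] at h
  exact_mod_cast h

end Dedekind

end Fermat.Agent.RedLib.Ram0
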