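import Mathlib
import Fermat.Agent.RedLib.PlaceVS
import Fermat.Agent.RedLib.Ram0

/-!
# S18 (reduction of `J₀(N)`): (D1) in the language of discrete valuation subrings

`F = modularFunctionFieldBar N` over `L = AlgebraicClosure ℚ`; `O` a discrete valuation subring of
`F` containing `L`:

* `isUnif_j_sub` : if `c ≠ 0, 1728` and `j - c` is a non-unit of `O`, it generates the maximal
  ideal;
* `exists_unif_j` : if `j` is a non-unit, then `j = ε ϖ` or `j = ε ϖ ^ 3` (`ϖ` a uniformiser, `ε` a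
  unit);
* `exists_unif_j_sub_1728` : if `j - 1728` is a non-unit, then `j - 1728 = ε ϖ` or `ε ϖ ^ 2`.
-/

set_option autoImplicit false
set_option linter.unusedSectionVars false
set_option linter.style.haveILetI false

noncomputable section

namespace Fermat.Agent.RedLib.Ram0VS

open AlgebraicCurve IntermediateField
open Fermat.Agent.GenusLib Fermat.Agent.GenusLib.FF Fermat.Agent.GenusLib.PlaceCore
open Fermat.Agent.RedLib.PlaceVS

variable {N : ℕ} [NeZero N]

theorem int_dvd_three {d : ℤ} (hd : 0 < d) (h : d ∣ 3) : d = 1 ∨ d = 3 := by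
  have h1 : d ≤ 3 := Int.le_of_dvd (by norm_num) h
  obtain ⟨k, hk⟩ := h
  have h2 : d = 1 ∨ d = 2 ∨ d = 3 := by omega
  rcases h2 with rfl | rfl | rfl
  · exact Or.inl rfl
  · omega
  · exact Or.inr rfl

theorem int_dvd_two {d : ℤ} (hd : 0 < d) (h : d ∣ 2) : d = 1 ∨ d = 2 := by
  have h1 : d ≤ 2 := Int.le_of_dvd (by norm_num) h
  omega

/-- Place language: the order of `j` at one of its zeros is `1` or `3`. -/
theorem ord_j_eq (v : Place Qb (FN N)) (hv : 0 < v.ord (jF N)) :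
    v.ord (jF N) = 1 ∨ v.ord (jF N) = 3 :=
  int_dvd_three hv (Ram0.ord_j_dvd_three v hv)

/-- Place language: the order of `j - 1728` at one of its zeros is `1` or `2`. -/
theorem ord_j_sub_1728_eq (v : Place Qb (FN N))
    (hv : 0 < v.ord (jF N - algebraMap Qb (FN N) 1728)) :
    v.ord (jF N - algebraMap Qb (FN N) 1728) = 1 ∨
      v.ord (jF N - algebraMap Qb (FN N) 1728) = 2 :=
  int_dvd_two hv (Ram0.ord_j_sub_dvd_two v hv)

/-- **(D1), generic point**, DVR language. -/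
theorem isUnif_j_sub (O : ValuationSubring (FN N)) [IsDiscreteValuationRing O]
    (hK : ∀ a : Qb, algebraMap Qb (FN N) a ∈ O) (c : Qb) (h0 : c ≠ 0) (h1728 : c ≠ 1728)
    (hc : jF N - algebraMap Qb (FN N) c ∈ O.nonunits) :
    IsUnif O (jF N - algebraMap Qb (FN N) c) := by
  have B : BridgeData N := bridgeData N embQb
  have hpos : 0 < (ofDVR O hK).ord (jF N - algebraMap Qb (FN N) c) :=
    ((mem_nonunits_iff' (ofDVR O hK) _).mp hc).resolve_left (jF_sub_ne_zero B c)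
  exact (isUnif_iff (ofDVR O hK) _).mpr (Ram0.ord_j_sub_eq_one _ c h0 h1728 hpos)

/-- **(D1), `j = 0`**, DVR language. -/
theorem exists_unif_j (O : ValuationSubring (FN N)) [IsDiscreteValuationRing O]
    (hK : ∀ a : Qb, algebraMap Qb (FN N) a ∈ O) (hc : jF N ∈ O.nonunits) :
    ∃ ϖ ε : FN N, IsUnif O ϖ ∧ ε ∈ O ∧ ε⁻¹ ∈ O ∧ (jF N = ε * ϖ ∨ jF N = ε * ϖ ^ 3) := by
  have hj0 : jF N ≠ 0 := FFInt.jF_ne_zero N
  have hpos : 0 < (ofDVR O hK).ord (jF N) :=
    ((mem_nonunits_iff' (ofDVR O hK) _).mp hc).resolve_left hj0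
  obtain ⟨ϖ, hϖ⟩ := exists_ord_eq_one (ofDVR O hK)
  obtain ⟨ε, hε0, hε, hj⟩ := exists_eq_mul_zpow (ofDVR O hK) hϖ hj0
  have hεmem := (ord_eq_zero_iff (ofDVR O hK) ε).mp hε
  refine ⟨ϖ, ε, (isUnif_iff (ofDVR O hK) ϖ).mpr hϖ, hεmem.1, hεmem.2, ?_⟩
  rcases ord_j_eq (ofDVR O hK) hpos with h | h
  · left
    rw [h] at hj
    simpa using hj
  · right
    rw [h] at hj
    exact_mod_cast hj

/-- **(D1), `j = 1728`**, DVR language. -/
theorem exists_unif_j_sub_1728 (O : ValuationSubring (FN N)) [IsDiscreteValuationRing O]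
    (hK : ∀ a : Qb, algebraMap Qb (FN N) a ∈ O)
    (hc : jF N - algebraMap Qb (FN N) 1728 ∈ O.nonunits) :
    ∃ ϖ ε : FN N, IsUnif O ϖ ∧ ε ∈ O ∧ ε⁻¹ ∈ O ∧
      (jF N - algebraMap Qb (FN N) 1728 = ε * ϖ ∨
        jF N - algebraMap Qb (FN N) 1728 = ε * ϖ ^ 2) := by
  have B : BridgeData N := bridgeData N embQb
  have hj0 : jF N - algebraMap Qb (FN N) 1728 ≠ 0 := jF_sub_ne_zero B 1728
  have hpos : 0 < (ofDVR O hK).ord (jF N - algebraMap Qb (FN N) 1728) :=
    ((mem_nonunits_iff' (ofDVR O hK) _).mp hc).resolve_left hj0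
  obtain ⟨ϖ, hϖ⟩ := exists_ord_eq_one (ofDVR O hK)
  obtain ⟨ε, hε0, hε, hj⟩ := exists_eq_mul_zpow (ofDVR O hK) hϖ hj0
  have hεmem := (ord_eq_zero_iff (ofDVR O hK) ε).mp hε
  refine ⟨ϖ, ε, (isUnif_iff (ofDVR O hK) ϖ).mpr hϖ, hεmem.1, hεmem.2, ?_⟩
  rcases ord_j_sub_1728_eq (ofDVR O hK) hpos with h | h
  · left
    rw [h] at hj
    simpa using hj
  · right
    rw [h] at hj
    exact_mod_cast hj

/-- The residue field of every discrete valuation subring of `F` containing the constants is the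
constant field. -/
theorem exists_const_sub_mem_nonunits (O : ValuationSubring (FN N)) [IsDiscreteValuationRing O]
    (hK : ∀ a : Qb, algebraMap Qb (FN N) a ∈ O) {x : FN N} (hx : x ∈ O) :
    ∃ a : Qb, x - algebraMap Qb (FN N) a ∈ O.nonunits := by
  have B : BridgeData N := bridgeData N embQb
  haveI : FiniteDimensional Qb⟮jF N⟯ (FN N) := finiteDimensional_FN B
  exact PlaceVS.exists_const_sub_mem_nonunits (jF N) (transcendental_jF B) O hK hx

end Fermat.Agent.RedLib.Ram0VS
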