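import Mathlib
import Fermat.Agent.RedLib.Kummer
import Fermat.Agent.RedLib.Ram0VS

/-!
# S18 (reduction of `J₀(N)`): (D1) for the Kummer extension `E = F(T)`, `T ^ p = u`

`F = modularFunctionFieldBar N` over `L = AlgebraicClosure ℚ`, `u ∈ F` with `p ∣ ord_Q u` at all
places `Q`.  For every discrete valuation subring `O` of `E` containing `L` the statements of
`Ram0VS` hold verbatim for the image of `j` in `E`.  Also: residue fields of discrete valuation
subrings of finite extensions of `F` are `L`.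
-/

set_option autoImplicit false
set_option linter.unusedSectionVars false
set_option linter.style.haveILetI false

noncomputable section

namespace Fermat.Agent.RedLib.Ram0E

open AlgebraicCurve IntermediateField
open Fermat.Agent.GenusLib Fermat.Agent.GenusLib.FF Fermat.Agent.GenusLib.PlaceCore
open Fermat.Agent.RedLib.PlaceVS

section Generic

variable {K F E : Type*} [Field K] [Field F] [Field E] [Algebra K F] [Algebra K E] [Algebra F E]
  [IsScalarTower K F E]

/-- A finite extension of a field finite over `K(t)` is finite over `K(t)`. -/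
theorem finiteDimensional_adjoin_algebraMap (t : F) [FiniteDimensional K⟮t⟯ F]
    [FiniteDimensional F E] : FiniteDimensional K⟮algebraMap F E t⟯ E := by
  have hmem : ∀ r : K⟮t⟯, algebraMap F E (r : F) ∈ K⟮algebraMap F E t⟯ := by
    intro r
    have h1 : (K⟮t⟯).map (IsScalarTower.toAlgHom K F E) = K⟮algebraMap F E t⟯ := by
      rw [IntermediateField.adjoin_map, Set.image_singleton]
      rfl
    rw [← h1]
    exact ⟨r, r.2, rfl⟩
  let φ : K⟮t⟯ →+* K⟮algebraMap F E t⟯ :=
    { toFun := fun r => ⟨algebraMap F E (r : F), hmem r⟩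
      map_one' := Subtype.ext (map_one _)
      map_mul' := fun _ _ => Subtype.ext (map_mul _ _ _)
      map_zero' := Subtype.ext (map_zero _)
      map_add' := fun _ _ => Subtype.ext (map_add _ _ _) }
  letI : Algebra K⟮t⟯ K⟮algebraMap F E t⟯ := φ.toAlgebra
  haveI : IsScalarTower K⟮t⟯ K⟮algebraMap F E t⟯ E := IsScalarTower.of_algebraMap_eq (fun _ => rfl)
  haveI : Module.Finite K⟮t⟯ E := Module.Finite.trans F E
  exact Module.Finite.of_restrictScalars_finite K⟮t⟯ K⟮algebraMap F E t⟯ E

/-- Residue fields of discrete valuation subrings of a finite extension `E` of a function field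
`F / K` are `K` (`K` algebraically closed of characteristic `0`). -/
theorem exists_const_sub_mem_nonunits_of_finite [IsAlgClosed K] [CharZero K] (t : F)
    (ht : Transcendental K t) [FiniteDimensional K⟮t⟯ F] [FiniteDimensional F E]
    (O : ValuationSubring E) [IsDiscreteValuationRing O] (hK : ∀ a : K, algebraMap K E a ∈ O)
    {x : E} (hx : x ∈ O) : ∃ a : K, x - algebraMap K E a ∈ O.nonunits := by
  haveI := finiteDimensional_adjoin_algebraMap (K := K) (E := E) t
  have ht' : Transcendental K (algebraMap F E t) :=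
    (transcendental_algebraMap_iff (algebraMap F E).injective).mpr ht
  exact PlaceVS.exists_const_sub_mem_nonunits (algebraMap F E t) ht' O hK hx

end Generic

variable {N : ℕ} [NeZero N] {E : Type*} [Field E] [Algebra Qb E] [Algebra (FN N) E]
  [IsScalarTower Qb (FN N) E]

/-- **(H-RES)**: residue fields of discrete valuation subrings of finite extensions of the modular
function field are the constants. -/
theorem exists_const_sub_mem_nonunits [FiniteDimensional (FN N) E] (O : ValuationSubring E)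
    [IsDiscreteValuationRing O] (hK : ∀ a : Qb, algebraMap Qb E a ∈ O) {x : E} (hx : x ∈ O) :
    ∃ a : Qb, x - algebraMap Qb E a ∈ O.nonunits := by
  have B : BridgeData N := bridgeData N embQb
  haveI : FiniteDimensional Qb⟮jF N⟯ (FN N) := finiteDimensional_FN B
  exact exists_const_sub_mem_nonunits_of_finite (jF N) (transcendental_jF B) O hK hx

theorem algebraMap_mem_comap (O : ValuationSubring E) (hK : ∀ a : Qb, algebraMap Qb E a ∈ O)
    (a : Qb) : algebraMap Qb (FN N) a ∈ O.comap (algebraMap (FN N) E) := by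
  rw [ValuationSubring.mem_comap, ← IsScalarTower.algebraMap_apply]
  exact hK a

section Kummer

variable {p : ℕ} {u : FN N} {T : E}

/-- **(KUM)** for the modular function field. -/
theorem isUnif_algebraMap (hp : p ≠ 0) (hu : u ≠ 0)
    (hdiv : ∀ Q : Place Qb (FN N), (p : ℤ) ∣ Q.ord u) (hT : T ^ p = algebraMap (FN N) E u)
    (hgen : (FN N)⟮T⟯ = ⊤) (O : ValuationSubring E) [IsDiscreteValuationRing O]
    (hK : ∀ a : Qb, algebraMap Qb E a ∈ O) {w : FN N}
    (hw : IsUnif (O.comap (algebraMap (FN N) E)) w) : IsUnif O (algebraMap (FN N) E w) := by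
  have B : BridgeData N := bridgeData N embQb
  haveI : FiniteDimensional Qb⟮jF N⟯ (FN N) := finiteDimensional_FN B
  exact Kummer.isUnif_algebraMap (jF N) (transcendental_jF B) hp hu hdiv hT hgen O hK hw

/-- **(D1) for `E`, generic point.** -/
theorem isUnif_j_sub (hp : p ≠ 0) (hu : u ≠ 0)
    (hdiv : ∀ Q : Place Qb (FN N), (p : ℤ) ∣ Q.ord u) (hT : T ^ p = algebraMap (FN N) E u)
    (hgen : (FN N)⟮T⟯ = ⊤) (O : ValuationSubring E) [IsDiscreteValuationRing O]
    (hK : ∀ a : Qb, algebraMap Qb E a ∈ O) (c : Qb) (h0 : c ≠ 0) (h1728 : c ≠ 1728)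
    (hc : algebraMap (FN N) E (jF N) - algebraMap Qb E c ∈ O.nonunits) :
    IsUnif O (algebraMap (FN N) E (jF N) - algebraMap Qb E c) := by
  haveI : Algebra.IsAlgebraic (FN N) E := Kummer.isAlgebraic_of_adjoin_root hp hT hgen
  haveI : IsDiscreteValuationRing (O.comap (algebraMap (FN N) E)) := PlaceVS.isDVR_comap O hK
  have hc' : jF N - algebraMap Qb (FN N) c ∈ (O.comap (algebraMap (FN N) E)).nonunits := by
    rw [Kummer.mem_nonunits_comap_iff, map_sub, ← IsScalarTower.algebraMap_apply]
    exact hc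
  have h1 := Ram0VS.isUnif_j_sub (O.comap (algebraMap (FN N) E)) (algebraMap_mem_comap O hK) c h0
    h1728 hc'
  have h2 := isUnif_algebraMap hp hu hdiv hT hgen O hK h1
  rwa [map_sub, ← IsScalarTower.algebraMap_apply] at h2

/-- **(D1) for `E`, `j = 0`.** -/
theorem exists_unif_j (hp : p ≠ 0) (hu : u ≠ 0)
    (hdiv : ∀ Q : Place Qb (FN N), (p : ℤ) ∣ Q.ord u) (hT : T ^ p = algebraMap (FN N) E u)
    (hgen : (FN N)⟮T⟯ = ⊤) (O : ValuationSubring E) [IsDiscreteValuationRing O]
    (hK : ∀ a : Qb, algebraMap Qb E a ∈ O) (hc : algebraMap (FN N) E (jF N) ∈ O.nonunits) :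
    ∃ ϖ ε : E, IsUnif O ϖ ∧ ε ∈ O ∧ ε⁻¹ ∈ O ∧
      (algebraMap (FN N) E (jF N) = ε * ϖ ∨ algebraMap (FN N) E (jF N) = ε * ϖ ^ 3) := by
  haveI : Algebra.IsAlgebraic (FN N) E := Kummer.isAlgebraic_of_adjoin_root hp hT hgen
  haveI : IsDiscreteValuationRing (O.comap (algebraMap (FN N) E)) := PlaceVS.isDVR_comap O hK
  have hc' : jF N ∈ (O.comap (algebraMap (FN N) E)).nonunits := by
    rw [Kummer.mem_nonunits_comap_iff]
    exact hc
  obtain ⟨ϖ, ε, hϖ, hε, hε', h⟩ :=
    Ram0VS.exists_unif_j (O.comap (algebraMap (FN N) E)) (algebraMap_mem_comap O hK) hc'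
  refine ⟨algebraMap (FN N) E ϖ, algebraMap (FN N) E ε,
    isUnif_algebraMap hp hu hdiv hT hgen O hK hϖ, hε, ?_, ?_⟩
  · rw [← map_inv₀]; exact hε'
  · rcases h with h | h
    · left; rw [← map_mul, ← h]
    · right; rw [← map_pow, ← map_mul, ← h]

/-- **(D1) for `E`, `j = 1728`.** -/
theorem exists_unif_j_sub_1728 (hp : p ≠ 0) (hu : u ≠ 0)
    (hdiv : ∀ Q : Place Qb (FN N), (p : ℤ) ∣ Q.ord u) (hT : T ^ p = algebraMap (FN N) E u)
    (hgen : (FN N)⟮T⟯ = ⊤) (O : ValuationSubring E) [IsDiscreteValuationRing O]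
    (hK : ∀ a : Qb, algebraMap Qb E a ∈ O)
    (hc : algebraMap (FN N) E (jF N) - algebraMap Qb E 1728 ∈ O.nonunits) :
    ∃ ϖ ε : E, IsUnif O ϖ ∧ ε ∈ O ∧ ε⁻¹ ∈ O ∧
      (algebraMap (FN N) E (jF N) - algebraMap Qb E 1728 = ε * ϖ ∨
        algebraMap (FN N) E (jF N) - algebraMap Qb E 1728 = ε * ϖ ^ 2) := by
  haveI : Algebra.IsAlgebraic (FN N) E := Kummer.isAlgebraic_of_adjoin_root hp hT hgen
  haveI : IsDiscreteValuationRing (O.comap (algebraMap (FN N) E)) := PlaceVS.isDVR_comap O hK
  have hc' : jF N - algebraMap Qb (FN N) 1728 ∈ (O.comap (algebraMap (FN N) E)).nonunits := by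
    rw [Kummer.mem_nonunits_comap_iff, map_sub, ← IsScalarTower.algebraMap_apply]
    exact hc
  obtain ⟨ϖ, ε, hϖ, hε, hε', h⟩ :=
    Ram0VS.exists_unif_j_sub_1728 (O.comap (algebraMap (FN N) E)) (algebraMap_mem_comap O hK) hc'
  have e1 : algebraMap (FN N) E (jF N) - algebraMap Qb E 1728
      = algebraMap (FN N) E (jF N - algebraMap Qb (FN N) 1728) := by
    rw [map_sub, ← IsScalarTower.algebraMap_apply]
  refine ⟨algebraMap (FN N) E ϖ, algebraMap (FN N) E ε,
    isUnif_algebraMap hp hu hdiv hT hgen O hK hϖ, hε, ?_, ?_⟩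
  · rw [← map_inv₀]; exact hε'
  · rw [e1]
    rcases h with h | h
    · left; rw [← map_mul, ← h]
    · right; rw [← map_pow, ← map_mul, ← h]

end Kummer

end Fermat.Agent.RedLib.Ram0E
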