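/-
S18 long shot (helper1): (R1), (R1') for the concrete tower
`F_L = modularFunctionFieldBar N ⊆ E = F_L(T) ⊆ E' = F_L(T, t)`, `T ^ p = u`, `num(t) = j den(t)`,
in the language of discrete valuation subrings.  Inputs: `ABH` (abstract tower) and helper9's
`Ram0E` ((D1) for `E`, residue fields).
-/
import Fermat.Agent.RedLib.ABH
import Fermat.Agent.RedLib.Ram0E

set_option autoImplicit false
set_option linter.unusedSectionVars false

noncomputable section

namespace Fermat.Agent.RedLib.ABHFN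

open Polynomial IntermediateField AlgebraicCurve
open Fermat.Agent.GenusLib Fermat.Agent.GenusLib.FF
open Fermat.Agent.RedLib.PlaceVS Fermat.Agent.RedLib.CoverData Fermat.Agent.RedLib.CoverFacts

section Generic

variable {F E : Type*} [Field F] [Field E] [Algebra F E]

/-- The generator generates `F⟮α⟯` over `F` (as a field in itself). -/
theorem adjoin_gen_eq_top (α : E) :
    F⟮AdjoinSimple.gen F α⟯ = (⊤ : IntermediateField F F⟮α⟯) := by
  rw [eq_top_iff]
  rintro ⟨x, hx⟩ -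
  obtain ⟨r, s, rfl⟩ := (mem_adjoin_simple_iff F x).mp hx
  have e : (⟨aeval α r / aeval α s, hx⟩ : F⟮α⟯)
      = aeval (AdjoinSimple.gen F α) r / aeval (AdjoinSimple.gen F α) s := by
    apply Subtype.ext
    simp [AdjoinSimple.coe_aeval_gen_apply]
  rw [e]
  have hmem : ∀ f : F[X], aeval (AdjoinSimple.gen F α) f ∈ F⟮AdjoinSimple.gen F α⟯ := fun f =>
    algebra_adjoin_le_adjoin F _ (Polynomial.aeval_mem_adjoin_singleton F _)
  exact div_mem (hmem r) (hmem s)

end Generic

variable {N : ℕ} [NeZero N] {E' : Type*} [Field E'] [Algebra Qb E'] [Algebra (FN N) E']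
  [IsScalarTower Qb (FN N) E']

section Main

variable (two : Bool) {p : ℕ} {u : FN N} {T t : E'}

/-- `T` and `t` are integral over `F_L`. -/
theorem isIntegral_T (hp : p ≠ 0) (hT : T ^ p = algebraMap (FN N) E' u) : IsIntegral (FN N) T := by
  refine ⟨X ^ p - C u, monic_X_pow_sub_C u hp, ?_⟩
  simp [hT]

theorem isIntegral_tt
    (ht : (num two E').eval t = algebraMap (FN N) E' (jF N) * (den two E').eval t) :
    IsIntegral (FN N) t := by
  have hlead : ((lead two : ℕ) : FN N) ≠ 0 := lead_ne_zero_of_charZero two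
  exact isIntegral_t two (isUnit_iff_ne_zero.mpr hlead) (jF N) t ht

theorem finiteDimensional_top (hp : p ≠ 0) (hT : T ^ p = algebraMap (FN N) E' u)
    (ht : (num two E').eval t = algebraMap (FN N) E' (jF N) * (den two E').eval t)
    (hgen : IntermediateField.adjoin (FN N) {T, t} = ⊤) : FiniteDimensional (FN N) E' := by
  haveI : FiniteDimensional (FN N) (IntermediateField.adjoin (FN N) ({T, t} : Set E')) :=
    finiteDimensional_adjoin_pair (isIntegral_T hp hT) (isIntegral_tt two ht)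
  rw [hgen] at this
  exact Module.Finite.equiv (topEquiv (F := FN N) (E := E')).toLinearEquiv

end Main

/-! ### An abstract intermediate field `E = F_L(T)` -/

section Aux

variable (two : Bool) {p : ℕ} {u : FN N} {E : Type*} [Field E] [Algebra Qb E] [Algebra (FN N) E]
  [IsScalarTower Qb (FN N) E] [Algebra E E'] [IsScalarTower Qb E E'] [IsScalarTower (FN N) E E']

theorem j_ne_const (a : Qb) : algebraMap (FN N) E (jF N) ≠ algebraMap Qb E a := by
  intro h
  have B : BridgeData N := bridgeData N embQb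
  apply transcendental_jF B
  have h2 : jF N = algebraMap Qb (FN N) a := by
    apply (algebraMap (FN N) E).injective
    rw [h, ← IsScalarTower.algebraMap_apply]
  rw [h2]
  exact _root_.isAlgebraic_algebraMap a

theorem R1_aux (hp : p ≠ 0) (hu : u ≠ 0) (hdiv : ∀ Q : Place Qb (FN N), (p : ℤ) ∣ Q.ord u)
    {TE : E} (hTE : TE ^ p = algebraMap (FN N) E u) (hgenE : (FN N)⟮TE⟯ = ⊤) {t : E'}
    (ht : (num two E').eval t = algebraMap (FN N) E' (jF N) * (den two E').eval t)
    (hgen : E⟮t⟯ = ⊤) [Algebra.IsAlgebraic E E'] [FiniteDimensional (FN N) E']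
    (O' : ValuationSubring E') [IsDiscreteValuationRing O'] (hL : ∀ a : Qb, algebraMap Qb E' a ∈ O')
    (htO : t ∈ O') (hc : ((cusp two E').eval t)⁻¹ ∈ O') (t1 : Qb)
    (ht1 : t - algebraMap Qb E' t1 ∈ O'.nonunits) :
    IsUnif O' (t - algebraMap Qb E' t1) := by
  rw [IsScalarTower.algebraMap_apply (FN N) E E'] at ht
  exact ABH.R1 (L := Qb) (E := E) two (j := algebraMap (FN N) E (jF N)) ht hgen j_ne_const
    (fun O _ hK c h0 h1728 hc => Ram0E.isUnif_j_sub hp hu hdiv hTE hgenE O hK c h0 h1728 hc)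
    (fun O _ hK hc => Ram0E.exists_unif_j hp hu hdiv hTE hgenE O hK hc)
    (fun O _ hK hc => Ram0E.exists_unif_j_sub_1728 hp hu hdiv hTE hgenE O hK hc)
    O' hL (fun x hx => Ram0E.exists_const_sub_mem_nonunits (N := N) O' hL hx) htO hc t1 ht1

theorem R1'_aux (ζ : Qb) (hζ : ζ ^ 2 + ζ + 1 = 0) (hp : p ≠ 0) (hu : u ≠ 0)
    (hdiv : ∀ Q : Place Qb (FN N), (p : ℤ) ∣ Q.ord u)
    {TE : E} (hTE : TE ^ p = algebraMap (FN N) E u) (hgenE : (FN N)⟮TE⟯ = ⊤) {t : E'}
    (ht : (num two E').eval t = algebraMap (FN N) E' (jF N) * (den two E').eval t)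
    (hgen : E⟮t⟯ = ⊤) [Algebra.IsAlgebraic E E'] [FiniteDimensional (FN N) E']
    (O' : ValuationSubring E') [IsDiscreteValuationRing O'] (hL : ∀ a : Qb, algebraMap Qb E' a ∈ O')
    (hjO : algebraMap (FN N) E' (jF N) ∈ O') (a : Qb) (ha0 : a ≠ 0) (ha1 : a ≠ 1728)
    (hja : algebraMap (FN N) E' (jF N) - algebraMap Qb E' a ∈ O'.nonunits) :
    IsUnif O' (algebraMap (FN N) E' (jF N) - algebraMap Qb E' a) := by
  rw [IsScalarTower.algebraMap_apply (FN N) E E'] at ht hjO hja ⊢
  exact ABH.R1' (L := Qb) (E := E) two (j := algebraMap (FN N) E (jF N)) ζ hζ ht hgen j_ne_const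
    (fun O _ hK c h0 h1728 hc => Ram0E.isUnif_j_sub hp hu hdiv hTE hgenE O hK c h0 h1728 hc)
    (fun O _ hK hc => Ram0E.exists_unif_j hp hu hdiv hTE hgenE O hK hc)
    (fun O _ hK hc => Ram0E.exists_unif_j_sub_1728 hp hu hdiv hTE hgenE O hK hc)
    O' hL (fun x hx => Ram0E.exists_const_sub_mem_nonunits (N := N) O' hL hx) hjO a ha0 ha1 hja

end Aux

/-! ### The concrete statements for `E' = F_L(T, t)` -/

section Final

variable (two : Bool) {p : ℕ} {u : FN N} {T t : E'}

theorem adjoin_t_eq_top (hgen : IntermediateField.adjoin (FN N) {T, t} = ⊤) :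
    ((FN N)⟮T⟯)⟮t⟯ = ⊤ := by
  apply IntermediateField.restrictScalars_injective (FN N)
  rw [adjoin_simple_adjoin_simple, restrictScalars_top]
  exact hgen

theorem gen_pow (hT : T ^ p = algebraMap (FN N) E' u) :
    (AdjoinSimple.gen (FN N) T) ^ p = algebraMap (FN N) (FN N)⟮T⟯ u := by
  apply Subtype.ext
  simpa using hT

/-- **(R1)** for `E' = F_L(T, t)`: away from the cusps `t - t1` is a uniformiser. -/
theorem R1 (hp : p ≠ 0) (hu : u ≠ 0) (hdiv : ∀ Q : Place Qb (FN N), (p : ℤ) ∣ Q.ord u)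
    (hT : T ^ p = algebraMap (FN N) E' u)
    (ht : (num two E').eval t = algebraMap (FN N) E' (jF N) * (den two E').eval t)
    (hgen : IntermediateField.adjoin (FN N) {T, t} = ⊤)
    (O' : ValuationSubring E') [IsDiscreteValuationRing O'] (hL : ∀ a : Qb, algebraMap Qb E' a ∈ O')
    (htO : t ∈ O') (hc : ((cusp two E').eval t)⁻¹ ∈ O') (t1 : Qb)
    (ht1 : t - algebraMap Qb E' t1 ∈ O'.nonunits) :
    IsUnif O' (t - algebraMap Qb E' t1) := by
  haveI : FiniteDimensional (FN N) E' := finiteDimensional_top two hp hT ht hgen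
  haveI : Algebra.IsAlgebraic (FN N) E' := Algebra.IsAlgebraic.of_finite (FN N) E'
  haveI : Algebra.IsAlgebraic (FN N)⟮T⟯ E' := Algebra.IsAlgebraic.tower_top (K := FN N) (FN N)⟮T⟯
  haveI : IsScalarTower Qb (FN N)⟮T⟯ E' := IsScalarTower.of_algebraMap_eq (fun _ => rfl)
  exact R1_aux (E := (FN N)⟮T⟯) two hp hu hdiv (gen_pow hT) (adjoin_gen_eq_top T) ht
    (adjoin_t_eq_top hgen) O' hL htO hc t1 ht1

/-- **(R1')** for `E' = F_L(T, t)`: over `j = a`, `a ≠ 0, 1728`, `j - a` is a uniformiser. -/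
theorem R1' (ζ : Qb) (hζ : ζ ^ 2 + ζ + 1 = 0) (hp : p ≠ 0) (hu : u ≠ 0)
    (hdiv : ∀ Q : Place Qb (FN N), (p : ℤ) ∣ Q.ord u)
    (hT : T ^ p = algebraMap (FN N) E' u)
    (ht : (num two E').eval t = algebraMap (FN N) E' (jF N) * (den two E').eval t)
    (hgen : IntermediateField.adjoin (FN N) {T, t} = ⊤)
    (O' : ValuationSubring E') [IsDiscreteValuationRing O'] (hL : ∀ a : Qb, algebraMap Qb E' a ∈ O')
    (hjO : algebraMap (FN N) E' (jF N) ∈ O') (a : Qb) (ha0 : a ≠ 0) (ha1 : a ≠ 1728)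
    (hja : algebraMap (FN N) E' (jF N) - algebraMap Qb E' a ∈ O'.nonunits) :
    IsUnif O' (algebraMap (FN N) E' (jF N) - algebraMap Qb E' a) := by
  haveI : FiniteDimensional (FN N) E' := finiteDimensional_top two hp hT ht hgen
  haveI : Algebra.IsAlgebraic (FN N) E' := Algebra.IsAlgebraic.of_finite (FN N) E'
  haveI : Algebra.IsAlgebraic (FN N)⟮T⟯ E' := Algebra.IsAlgebraic.tower_top (K := FN N) (FN N)⟮T⟯
  haveI : IsScalarTower Qb (FN N)⟮T⟯ E' := IsScalarTower.of_algebraMap_eq (fun _ => rfl)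
  exact R1'_aux (E := (FN N)⟮T⟯) two ζ hζ hp hu hdiv (gen_pow hT) (adjoin_gen_eq_top T) ht
    (adjoin_t_eq_top hgen) O' hL hjO a ha0 ha1 hja

end Final

end Fermat.Agent.RedLib.ABHFN
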