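import Mathlib

/-!
# Definitions for the abstract geometric theorem (AG)

`chart A0 x` : the integral closure of `A0[x]` in the field `FF`, as an `A0`-subalgebra.
`IsGaussLattice A0 π x Lam` : `Lam` is the integral closure in `FF` of the Gauss local ring
  `A0[x]_(π)`.
`IsGaussEtale A0 π xK Lam` : some `K(x)`-basis of `FF` inside `Lam` has a discriminant which is a
  unit of the Gauss local ring.
-/

namespace Fermat.Agent.RedLib.AGDefs

open Polynomial

/-- The integral closure of `A0[x]` in `FF`, as an `A0`-subalgebra of `FF`. -/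
def chart (A0 : Type*) {FF : Type*} [CommRing A0] [Field FF] [Algebra A0 FF] (x : FF) :
    Subalgebra A0 FF :=
  (integralClosure (Algebra.adjoin A0 ({x} : Set FF)) FF).restrictScalars A0

theorem mem_chart {A0 FF : Type*} [CommRing A0] [Field FF] [Algebra A0 FF] {x y : FF} :
    y ∈ chart A0 x ↔ IsIntegral (Algebra.adjoin A0 ({x} : Set FF)) y := Iff.rfl

/-- `Lam` is the integral closure of the Gauss local ring `A0[x]_(π)` in `FF`. -/
def IsGaussLattice (A0 : Type*) {FF : Type*} [CommRing A0] [Field FF] [Algebra A0 FF]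
    (π : A0) (x : FF) (Lam : Subalgebra A0 FF) : Prop :=
  ∀ y : FF, y ∈ Lam ↔ ∃ g : A0[X], ¬ C π ∣ g ∧ aeval x g * y ∈ chart A0 x

/-- Some `Kt`-basis of `FF` contained in `Lam` has a discriminant which is a quotient of two
polynomials in `xK` over `A0`, none of them divisible by `π`. -/
def IsGaussEtale (A0 : Type*) {Kt FF : Type*} [CommRing A0] [Field Kt] [Algebra A0 Kt]
    [Field FF] [Algebra A0 FF] [Algebra Kt FF]
    (π : A0) (xK : Kt) (Lam : Subalgebra A0 FF) : Prop :=
  ∃ (n : ℕ) (b : Module.Basis (Fin n) Kt FF), (∀ i, b i ∈ Lam) ∧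
    ∃ u v : A0[X], ¬ C π ∣ u ∧ ¬ C π ∣ v ∧ aeval xK u * Algebra.discr Kt b = aeval xK v

/-- `q(x)` generates the maximal ideal of every discrete valuation subring `O` of `FF` containing
the constants `K` and `x` in which it is a non-unit. -/
def IsUnramAt (K : Type*) {FF : Type*} [Field K] [Field FF] [Algebra K FF] (x : FF) (q : K[X]) :
    Prop :=
  ∀ O : ValuationSubring FF, IsDiscreteValuationRing O → (∀ a : K, algebraMap K FF a ∈ O) →
    x ∈ O → aeval x q ∈ O.nonunits → ∀ z ∈ O.nonunits, ∃ y ∈ O, z = aeval x q * y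

end Fermat.Agent.RedLib.AGDefs
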