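import Mathlib

/-!
# RedLib/Formal: pure algebra for the two-chart "formal functions" argument

Everything here is generic commutative algebra over a noetherian ring `A` with a distinguished
element `π` (in the application: a discrete valuation ring and its uniformiser).

* `exists_bound_pow_torsion`, `exists_bound_pow_rel`: bounded `π`-power torsion.
* `exists_invariant_of_approx`: approximate invariants of a finite group acting on a finite
  module are congruent to true invariants.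
* `idem_newton`, `idem_unique` (+ subalgebra versions): lifting of idempotents modulo powers of
  `π` and its uniqueness, elementwise.
* `exists_fin_gen_cech`: for two charts `C1 ⊇ A[jj]`, `C2 ⊇ A[jj⁻¹]` with common localisation
  `C12`, the module `C12 / (C1 + C2)` is finitely generated over `A`.
* `exists_glue_of_idem`: the two-chart formal-function lemma: idempotents modulo `π` on the two
  charts that agree modulo `π` on the overlap come from a global section.
-/

set_option autoImplicit false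

namespace Fermat.Agent.RedLib.Formal

open Polynomial

section BoundedTorsion

variable {A : Type*} [CommRing A]

/-- In a noetherian module the `π`-power torsion has bounded exponent. -/
theorem exists_bound_pow_torsion {M : Type*} [AddCommGroup M] [Module A M] [IsNoetherian A M]
    (π : A) : ∃ t : ℕ, ∀ w : M, (∃ n : ℕ, π ^ n • w = 0) → π ^ t • w = 0 := by
  classical
  let T : Submodule A M :=
    { carrier := {w | ∃ n : ℕ, π ^ n • w = 0}
      add_mem' := by
        rintro a b ⟨n, hn⟩ ⟨m, hm⟩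
        refine ⟨n + m, ?_⟩
        have h1 : π ^ (n + m) • a = 0 := by
          rw [pow_add, mul_comm, mul_smul, hn, smul_zero]
        have h2 : π ^ (n + m) • b = 0 := by
          rw [pow_add, mul_smul, hm, smul_zero]
        rw [smul_add, h1, h2, add_zero]
      zero_mem' := ⟨0, by simp⟩
      smul_mem' := by
        rintro c a ⟨n, hn⟩
        exact ⟨n, by rw [smul_comm, hn, smul_zero]⟩ }
  obtain ⟨s, hs⟩ := IsNoetherian.noetherian T
  have hex : ∀ w ∈ s, ∃ n : ℕ, π ^ n • w = 0 := fun w hw => by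
    have hwT : w ∈ T := hs ▸ Submodule.subset_span hw
    exact hwT
  choose! f hf using hex
  refine ⟨s.sup f, fun w hw => ?_⟩
  have hwT : w ∈ Submodule.span A (s : Set M) := by
    rw [hs]; exact hw
  induction hwT using Submodule.span_induction with
  | mem x hx =>
    have hle : f x ≤ s.sup f := Finset.le_sup hx
    obtain ⟨k, hk⟩ := Nat.exists_eq_add_of_le hle
    rw [hk, pow_add, mul_comm, mul_smul, hf x hx, smul_zero]
  | zero => exact smul_zero _
  | add x y _ _ hx hy =>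
    have hxT : x ∈ T := by rw [← hs]; assumption
    have hyT : y ∈ T := by rw [← hs]; assumption
    rw [smul_add, hx hxT, hy hyT, add_zero]
  | smul a x _ hx =>
    have hxT : x ∈ T := by rw [← hs]; assumption
    rw [smul_comm, hx hxT, smul_zero]

/-- Relative version: if `S'` is generated over `S` by finitely many elements, then an element of
`S'` some `π`-power multiple of which lies in `S` already has its `π ^ t`-multiple in `S`, with `t`
independent of the element. -/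
theorem exists_bound_pow_rel [IsNoetherianRing A] {E : Type*} [AddCommGroup E] [Module A E]
    (π : A) (S S' : Submodule A E) (g : Finset E)
    (hg : S' ≤ S ⊔ Submodule.span A (g : Set E)) :
    ∃ t : ℕ, ∀ w ∈ S', ∀ n : ℕ, π ^ n • w ∈ S → π ^ t • w ∈ S := by
  classical
  set N : Submodule A (E ⧸ S) := Submodule.span A (S.mkQ '' (g : Set E)) with hN
  have : IsNoetherian A N :=
    isNoetherian_span_of_finite A ((Finset.finite_toSet g).image _)
  obtain ⟨t, ht⟩ := exists_bound_pow_torsion (A := A) (M := N) π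
  refine ⟨t, fun w hw n hn => ?_⟩
  have hwN : S.mkQ w ∈ N := by
    have h1 : S.mkQ w ∈ (S ⊔ Submodule.span A (g : Set E)).map S.mkQ :=
      Submodule.mem_map_of_mem (hg hw)
    rw [Submodule.map_sup, Submodule.map_span] at h1
    have h2 : S.map S.mkQ = ⊥ := Submodule.mkQ_map_self S
    rw [h2, bot_sup_eq] at h1
    exact h1
  have h0 : π ^ n • (⟨S.mkQ w, hwN⟩ : N) = 0 := by
    apply Subtype.ext
    show π ^ n • S.mkQ w = 0
    rw [← map_smul, Submodule.mkQ_apply, Submodule.Quotient.mk_eq_zero]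
    exact hn
  have h1 := ht ⟨S.mkQ w, hwN⟩ ⟨n, h0⟩
  have h2 : π ^ t • S.mkQ w = 0 := congrArg Subtype.val h1
  rw [← map_smul, Submodule.mkQ_apply, Submodule.Quotient.mk_eq_zero] at h2
  exact h2

end BoundedTorsion

section Invariants

variable {A : Type*} [CommRing A] [IsNoetherianRing A]

/-- Approximate invariants of finitely many linear maps on a finite module over a noetherian ring
are congruent modulo `π` to true invariants.  (`ρ` need not be a group action.) -/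
theorem exists_invariant_of_approx {M : Type*} [AddCommGroup M] [Module A M] [Module.Finite A M]
    {G : Type*} [Finite G] (ρ : G → M →ₗ[A] M) (π : A) (x : ℕ → M)
    (hx : ∀ n : ℕ, ∀ g : G, ∃ m : M, ρ g (x n) - x n = π ^ n • m)
    (hx1 : ∀ n : ℕ, 1 ≤ n → ∃ m : M, x n - x 1 = π • m) :
    ∃ y : M, (∀ g : G, ρ g y = y) ∧ ∃ m : M, y - x 1 = π • m := by
  classical
  let φ : M →ₗ[A] (G → M) := LinearMap.pi fun g => ρ g - LinearMap.id
  have : IsNoetherian A (G → M) := isNoetherian_of_isNoetherianRing_of_finite A (G → M)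
  obtain ⟨t, ht⟩ := exists_bound_pow_torsion (A := A) (M := (G → M) ⧸ LinearMap.range φ) π
  choose u hu using hx (t + 1)
  have hφ : φ (x (t + 1)) = π ^ (t + 1) • u := by
    funext g
    simp only [φ, LinearMap.pi_apply, LinearMap.sub_apply, LinearMap.id_apply, Pi.smul_apply]
    exact hu g
  have h0 : π ^ (t + 1) • (LinearMap.range φ).mkQ u = 0 := by
    rw [← map_smul, ← hφ, Submodule.mkQ_apply, Submodule.Quotient.mk_eq_zero]
    exact LinearMap.mem_range_self φ _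
  have h1 := ht _ ⟨t + 1, h0⟩
  rw [← map_smul, Submodule.mkQ_apply, Submodule.Quotient.mk_eq_zero] at h1
  obtain ⟨z, hz⟩ := h1
  obtain ⟨m, hm⟩ := hx1 (t + 1) (by omega)
  refine ⟨x (t + 1) - π • z, fun g => ?_, m - z, ?_⟩
  · have h2 : φ (x (t + 1) - π • z) = 0 := by
      rw [map_sub, map_smul, hz, hφ, pow_succ, mul_comm, mul_smul, sub_self]
    have h3 := congrFun h2 g
    simp only [φ, LinearMap.pi_apply, LinearMap.sub_apply, LinearMap.id_apply, Pi.zero_apply] at h3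
    exact sub_eq_zero.mp h3
  · rw [smul_sub, ← hm]; abel

end Invariants

section Idempotents

variable {B : Type*} [CommRing B]

/-- One Newton step `e ↦ 3e² - 2e³` for idempotents. -/
theorem idem_newton_step (e : B) :
    (3 * e ^ 2 - 2 * e ^ 3) * (3 * e ^ 2 - 2 * e ^ 3) - (3 * e ^ 2 - 2 * e ^ 3)
      = (e * e - e) ^ 2 * (4 * e ^ 2 - 4 * e - 3) ∧
    (3 * e ^ 2 - 2 * e ^ 3) - e = (e * e - e) * (1 - 2 * e) := by
  constructor <;> ring

/-- Idempotents modulo `π` lift to idempotents modulo `π ^ n`. -/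
theorem idem_newton (π e : B) (h : π ∣ e * e - e) (n : ℕ) :
    ∃ e' : B, π ^ n ∣ e' * e' - e' ∧ π ∣ e' - e := by
  induction n with
  | zero => exact ⟨e, by simp, by simp⟩
  | succ n ih =>
    obtain ⟨e', h1, h2⟩ := ih
    rcases Nat.eq_zero_or_pos n with hn | hn
    · subst hn
      exact ⟨e, by simpa using h, by simp⟩
    · refine ⟨3 * e' ^ 2 - 2 * e' ^ 3, ?_, ?_⟩
      · rw [(idem_newton_step e').1]
        have h3 : π ^ (n + 1) ∣ (π ^ n) ^ 2 := by
          rw [← pow_mul]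
          exact pow_dvd_pow π (by nlinarith)
        exact Dvd.dvd.mul_right (h3.trans (pow_dvd_pow_of_dvd h1 2)) _
      · have h4 : π ∣ e' * e' - e' := (dvd_pow_self π (by omega : n ≠ 0)).trans h1
        have h5 : 3 * e' ^ 2 - 2 * e' ^ 3 - e = (e' * e' - e') * (1 - 2 * e') + (e' - e) := by ring
        rw [h5]
        exact dvd_add (Dvd.dvd.mul_right h4 _) h2

/-- Idempotents modulo `π ^ n` that agree modulo `π` agree modulo `π ^ n`. -/
theorem idem_unique (π a b : B) (n : ℕ) (ha : π ^ n ∣ a * a - a) (hb : π ^ n ∣ b * b - b)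
    (hab : π ∣ a - b) : π ^ n ∣ a - b := by
  have h3 : π ^ n ∣ (a - b) * (1 - (a - b) ^ 2) := by
    have : (a - b) * (1 - (a - b) ^ 2)
        = -((a * a - a) * (1 + a - 3 * b) + (b * b - b) * (3 * a - 1 - b)) := by ring
    rw [this]
    exact (dvd_add (Dvd.dvd.mul_right ha _) (Dvd.dvd.mul_right hb _)).neg_right
  generalize a - b = d at hab h3 ⊢
  have h4 : π ^ n ∣ d * (1 - (d ^ 2) ^ n) := by
    have hgeom : (1 - (d ^ 2) ^ n) = (1 - d ^ 2) * ∑ i ∈ Finset.range n, (d ^ 2) ^ i := by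
      rw [mul_comm]; exact (geom_sum_mul_neg (d ^ 2) n).symm
    rw [hgeom, ← mul_assoc]
    exact Dvd.dvd.mul_right h3 _
  have h5 : π ^ n ∣ d * (d ^ 2) ^ n := by
    have h6 : π ^ n ∣ d ^ n := pow_dvd_pow_of_dvd hab n
    have h7 : d * (d ^ 2) ^ n = d ^ n * d ^ (n + 1) := by
      rw [← pow_mul, ← pow_succ', ← pow_add]; congr 1; omega
    rw [h7]
    exact Dvd.dvd.mul_right h6 _
  have h8 : d = d * (1 - (d ^ 2) ^ n) + d * (d ^ 2) ^ n := by ring
  rw [h8]
  exact dvd_add h4 h5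

end Idempotents

section Charts

variable {A E : Type*} [CommRing A] [CommRing E] [Algebra A E]

/-- Divisibility by a power of `π` inside a subalgebra, elementwise. -/
theorem dvd_sub_iff (C : Subalgebra A E) (π : A) (n : ℕ) (y : C) :
    (algebraMap A C π) ^ n ∣ y ↔ ∃ c ∈ C, (y : E) = π ^ n • c := by
  constructor
  · rintro ⟨c, rfl⟩
    refine ⟨c, c.2, ?_⟩
    rw [Algebra.smul_def, map_pow]
    rfl
  · rintro ⟨c, hc, h⟩
    refine ⟨⟨c, hc⟩, Subtype.ext ?_⟩
    rw [h, Algebra.smul_def, map_pow]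
    rfl

/-- Idempotents modulo `π` in a subalgebra lift to idempotents modulo `π ^ n`. -/
theorem idem_newton_sub (C : Subalgebra A E) (π : A) {e : E} (he : e ∈ C)
    (h : ∃ c ∈ C, e * e - e = π • c) (n : ℕ) :
    ∃ e' ∈ C, (∃ c ∈ C, e' * e' - e' = π ^ n • c) ∧ ∃ c ∈ C, e' - e = π • c := by
  have h1 : (algebraMap A C π) ^ 1 ∣ (⟨e, he⟩ : C) * ⟨e, he⟩ - ⟨e, he⟩ := by
    rw [dvd_sub_iff]
    obtain ⟨c, hc, hce⟩ := h
    exact ⟨c, hc, by rw [pow_one]; exact hce⟩
  rw [pow_one] at h1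
  obtain ⟨e', h2, h3⟩ := idem_newton (algebraMap A C π) ⟨e, he⟩ h1 n
  rw [dvd_sub_iff] at h2
  rw [← pow_one (algebraMap A C π), dvd_sub_iff, pow_one] at h3
  exact ⟨e', e'.2, h2, h3⟩

/-- Idempotents modulo `π ^ n` in a subalgebra that agree modulo `π` agree modulo `π ^ n`. -/
theorem idem_unique_sub (C : Subalgebra A E) (π : A) {a b : E} (ha : a ∈ C) (hb : b ∈ C) (n : ℕ)
    (ha' : ∃ c ∈ C, a * a - a = π ^ n • c) (hb' : ∃ c ∈ C, b * b - b = π ^ n • c)
    (hab : ∃ c ∈ C, a - b = π • c) : ∃ c ∈ C, a - b = π ^ n • c := by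
  have h1 : (algebraMap A C π) ^ n ∣ (⟨a, ha⟩ : C) * ⟨a, ha⟩ - ⟨a, ha⟩ := by
    rw [dvd_sub_iff]; exact ha'
  have h2 : (algebraMap A C π) ^ n ∣ (⟨b, hb⟩ : C) * ⟨b, hb⟩ - ⟨b, hb⟩ := by
    rw [dvd_sub_iff]; exact hb'
  have h3 : (algebraMap A C π) ∣ (⟨a, ha⟩ : C) - ⟨b, hb⟩ := by
    rw [← pow_one (algebraMap A C π), dvd_sub_iff, pow_one]; exact hab
  have h4 := idem_unique (algebraMap A C π) ⟨a, ha⟩ ⟨b, hb⟩ n h1 h2 h3
  rw [dvd_sub_iff] at h4
  exact h4

theorem pow_mul_pow_of_mul_eq_one {jj jj' : E} (hjj : jj * jj' = 1) (m : ℕ) :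
    jj' ^ m * jj ^ m = 1 := by
  rw [← mul_pow, mul_comm, hjj, one_pow]

/-- `jj' ^ m * jj ^ k` is a non-negative power of `jj` or of `jj'`. -/
theorem pow_mul_pow_cases {jj jj' : E} (hjj : jj * jj' = 1) (m k : ℕ) :
    (m ≤ k ∧ jj' ^ m * jj ^ k = jj ^ (k - m)) ∨ (k < m ∧ jj' ^ m * jj ^ k = jj' ^ (m - k)) := by
  rcases le_or_gt m k with h | h
  · left
    refine ⟨h, ?_⟩
    obtain ⟨d, rfl⟩ := Nat.exists_eq_add_of_le h
    rw [pow_add, ← mul_assoc, pow_mul_pow_of_mul_eq_one hjj, one_mul, Nat.add_sub_cancel_left]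
  · right
    refine ⟨h, ?_⟩
    obtain ⟨d, rfl⟩ := Nat.exists_eq_add_of_le h.le
    rw [pow_add, mul_comm (jj' ^ k), mul_assoc, pow_mul_pow_of_mul_eq_one hjj, mul_one,
      Nat.add_sub_cancel_left]

/-- **Finiteness of `H¹`** for a two-chart cover.  `C1` is a chart containing `jj`, generated as a
module over `A[jj]` by finitely many elements; `C2` is a chart containing `jj' = jj⁻¹`; `C12` is the
overlap, contained in `C2[jj]` and in `C1[jj']`.  Then `C12` is generated as an `A`-module by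
`C1 + C2` and finitely many elements. -/
theorem exists_fin_gen_cech (C1 C2 C12 : Subalgebra A E) {jj jj' : E} (hjj : jj * jj' = 1)
    (h1 : jj ∈ C1) (h2 : jj' ∈ C2) (h1le : C1 ≤ C12)
    (hloc1 : ∀ w ∈ C12, ∃ m : ℕ, jj ^ m * w ∈ C1)
    (hloc2 : ∀ w ∈ C12, ∃ m : ℕ, jj' ^ m * w ∈ C2)
    (hfin1 : ∃ c : Finset E, (∀ i ∈ c, i ∈ C1) ∧
      ∀ x ∈ C1, ∃ p : E → A[X], x = ∑ i ∈ c, aeval jj (p i) * i) :
    ∃ g : Finset E, Subalgebra.toSubmodule C12 ≤
      (Subalgebra.toSubmodule C1 ⊔ Subalgebra.toSubmodule C2) ⊔ Submodule.span A (g : Set E) := by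
  classical
  obtain ⟨c, hcC1, hgen⟩ := hfin1
  have hex : ∀ i ∈ c, ∃ m : ℕ, jj' ^ m * i ∈ C2 := fun i hi => hloc2 i (h1le (hcC1 i hi))
  choose! M hM using hex
  set Mx := c.sup M with hMx
  have hbig : ∀ i ∈ c, ∀ r : ℕ, Mx ≤ r → jj' ^ r * i ∈ C2 := by
    intro i hi r hr
    have hle : M i ≤ r := (Finset.le_sup hi).trans hr
    obtain ⟨d, rfl⟩ := Nat.exists_eq_add_of_le hle
    rw [pow_add, mul_comm (jj' ^ M i), mul_assoc]
    exact C2.mul_mem (C2.pow_mem h2 d) (hM i hi)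
  set g : Finset E := (Finset.range Mx ×ˢ c).image fun ri => jj' ^ ri.1 * ri.2 with hg
  refine ⟨g, fun w hw => ?_⟩
  set S : Submodule A E :=
    (Subalgebra.toSubmodule C1 ⊔ Subalgebra.toSubmodule C2) ⊔ Submodule.span A (g : Set E) with hS
  have hC1S : ∀ y ∈ C1, y ∈ S := fun y hy =>
    Submodule.mem_sup_left (Submodule.mem_sup_left hy)
  have hC2S : ∀ y ∈ C2, y ∈ S := fun y hy =>
    Submodule.mem_sup_left (Submodule.mem_sup_right hy)
  have hgS : ∀ y ∈ g, y ∈ S := fun y hy =>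
    Submodule.mem_sup_right (Submodule.subset_span hy)
  -- the basic terms
  have hterm : ∀ i ∈ c, ∀ m k : ℕ, jj' ^ m * (jj ^ k * i) ∈ S := by
    intro i hi m k
    rw [← mul_assoc]
    rcases pow_mul_pow_cases hjj m k with ⟨_, h⟩ | ⟨hlt, h⟩
    · rw [h]
      exact hC1S _ (C1.mul_mem (C1.pow_mem h1 _) (hcC1 i hi))
    · rw [h]
      rcases le_or_gt Mx (m - k) with hr | hr
      · exact hC2S _ (hbig i hi _ hr)
      · refine hgS _ ?_
        rw [hg, Finset.mem_image]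
        exact ⟨(m - k, i), Finset.mem_product.mpr ⟨Finset.mem_range.mpr hr, hi⟩, rfl⟩
  obtain ⟨m, hm⟩ := hloc1 w hw
  obtain ⟨p, hp⟩ := hgen _ hm
  have hw' : w = jj' ^ m * (jj ^ m * w) := by
    rw [← mul_assoc, pow_mul_pow_of_mul_eq_one hjj, one_mul]
  rw [hw', hp, Finset.mul_sum]
  refine Submodule.sum_mem _ fun i hi => ?_
  rw [aeval_eq_sum_range, Finset.sum_mul, Finset.mul_sum]
  refine Submodule.sum_mem _ fun k _ => ?_
  rw [smul_mul_assoc, mul_smul_comm]
  exact S.smul_mem _ (hterm i hi m k)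

/-- **Two-chart formal functions lemma**, strong form.  In the situation of `exists_fin_gen_cech`,
over a noetherian base ring: if `e1 ∈ C1` and `e2 ∈ C2` are idempotent modulo `π` and agree modulo
`π` on the overlap `C12`, then for every `n` there is a global section `x ∈ C1 ∩ C2`, idempotent
modulo `π ^ n C1`, congruent to `e1` modulo `π C1` and to `e2` modulo `π C2`. -/
theorem exists_glue_of_idem_pow [IsNoetherianRing A] (π : A) (C1 C2 C12 : Subalgebra A E)
    {jj jj' : E} (hjj : jj * jj' = 1)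
    (h1 : jj ∈ C1) (h2 : jj' ∈ C2) (h1le : C1 ≤ C12) (h2le : C2 ≤ C12)
    (hloc1 : ∀ w ∈ C12, ∃ m : ℕ, jj ^ m * w ∈ C1)
    (hloc2 : ∀ w ∈ C12, ∃ m : ℕ, jj' ^ m * w ∈ C2)
    (hfin1 : ∃ c : Finset E, (∀ i ∈ c, i ∈ C1) ∧
      ∀ x ∈ C1, ∃ p : E → A[X], x = ∑ i ∈ c, aeval jj (p i) * i)
    {e1 e2 : E} (he1 : e1 ∈ C1) (he2 : e2 ∈ C2)
    (hid1 : ∃ c ∈ C1, e1 * e1 - e1 = π • c) (hid2 : ∃ c ∈ C2, e2 * e2 - e2 = π • c)
    (h12 : ∃ w ∈ C12, e1 - e2 = π • w) (n : ℕ) :
    ∃ x : E, x ∈ C1 ∧ x ∈ C2 ∧ (∃ c ∈ C1, x * x - x = π ^ n • c) ∧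
      (∃ c ∈ C1, x - e1 = π • c) ∧ ∃ c ∈ C2, x - e2 = π • c := by
  -- it suffices to treat `n = k + 1`
  suffices hsucc : ∀ k : ℕ, ∃ x : E, x ∈ C1 ∧ x ∈ C2 ∧ (∃ c ∈ C1, x * x - x = π ^ (k + 1) • c) ∧
      (∃ c ∈ C1, x - e1 = π • c) ∧ ∃ c ∈ C2, x - e2 = π • c by
    rcases n with _ | k
    · obtain ⟨x, hx1, hx2, -, h3, h4⟩ := hsucc 0
      exact ⟨x, hx1, hx2, ⟨x * x - x, C1.sub_mem (C1.mul_mem hx1 hx1) hx1, by simp⟩, h3, h4⟩
    · exact hsucc k
  intro k
  obtain ⟨g, hg⟩ := exists_fin_gen_cech C1 C2 C12 hjj h1 h2 h1le hloc1 hloc2 hfin1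
  obtain ⟨t, ht⟩ := exists_bound_pow_rel π
    (Subalgebra.toSubmodule C1 ⊔ Subalgebra.toSubmodule C2) (Subalgebra.toSubmodule C12) g hg
  obtain ⟨a, haC, ⟨ca, hca, hca'⟩, ⟨da, hda, hda'⟩⟩ := idem_newton_sub C1 π he1 hid1 (k + 1 + t)
  obtain ⟨b, hbC, ⟨cb, hcb, hcb'⟩, ⟨db, hdb, hdb'⟩⟩ := idem_newton_sub C2 π he2 hid2 (k + 1 + t)
  obtain ⟨w, hw, hwe⟩ := h12
  have hab : ∃ c ∈ C12, a - b = π • c := by
    refine ⟨da + w - db, C12.sub_mem (C12.add_mem (h1le hda) hw) (h2le hdb), ?_⟩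
    rw [smul_sub, smul_add, ← hda', ← hwe, ← hdb']; ring
  obtain ⟨w', hw', hw'eq⟩ := idem_unique_sub C12 π (h1le haC) (h2le hbC) (k + 1 + t)
    ⟨ca, h1le hca, hca'⟩ ⟨cb, h2le hcb, hcb'⟩ hab
  have hmem : π ^ (k + 1 + t) • w' ∈
      Subalgebra.toSubmodule C1 ⊔ Subalgebra.toSubmodule C2 := by
    rw [← hw'eq]
    exact Submodule.sub_mem _ (Submodule.mem_sup_left haC) (Submodule.mem_sup_right hbC)
  have h3 := ht w' hw' (k + 1 + t) hmem
  obtain ⟨u, hu, v, hv, huv⟩ := Submodule.mem_sup.mp h3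
  have hu' : u ∈ C1 := hu
  have hv' : v ∈ C2 := hv
  have hxb : a - π ^ (k + 1) • u = b + π ^ (k + 1) • v := by
    have h4 : a = b + π ^ (k + 1 + t) • w' := by rw [← hw'eq]; ring
    have h5 : π ^ (k + 1 + t) • w' = π ^ (k + 1) • u + π ^ (k + 1) • v := by
      rw [pow_add, mul_smul, ← huv, smul_add]
    rw [h4, h5]; ring
  refine ⟨a - π ^ (k + 1) • u, C1.sub_mem haC (C1.smul_mem hu' _), ?_,
    ⟨π ^ t • ca - u * (2 * a - 1) + π ^ (k + 1) • (u * u), ?_, ?_⟩,
    ⟨da - π ^ k • u, C1.sub_mem hda (C1.smul_mem hu' _), ?_⟩,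
    ⟨db + π ^ k • v, C2.add_mem hdb (C2.smul_mem hv' _), ?_⟩⟩
  · rw [hxb]
    exact C2.add_mem hbC (C2.smul_mem hv' _)
  · refine C1.add_mem (C1.sub_mem (C1.smul_mem hca _) (C1.mul_mem hu' ?_))
      (C1.smul_mem (C1.mul_mem hu' hu') _)
    exact C1.sub_mem (C1.mul_mem (C1.natCast_mem 2) haC) C1.one_mem
  · simp only [Algebra.smul_def, map_pow] at hca' ⊢
    linear_combination hca'
  · rw [smul_sub, ← hda', smul_smul, ← pow_succ']; ring
  · rw [hxb, smul_add, ← hdb', smul_smul, ← pow_succ']; ring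

/-- **Two-chart formal functions lemma.**  If `e1 ∈ C1` and `e2 ∈ C2` are idempotent modulo `π` and
agree modulo `π` on the overlap `C12`, then there is a global section `x ∈ C1 ∩ C2` congruent to
`e1` modulo `π C1` and to `e2` modulo `π C2`. -/
theorem exists_glue_of_idem [IsNoetherianRing A] (π : A) (C1 C2 C12 : Subalgebra A E)
    {jj jj' : E} (hjj : jj * jj' = 1)
    (h1 : jj ∈ C1) (h2 : jj' ∈ C2) (h1le : C1 ≤ C12) (h2le : C2 ≤ C12)
    (hloc1 : ∀ w ∈ C12, ∃ m : ℕ, jj ^ m * w ∈ C1)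
    (hloc2 : ∀ w ∈ C12, ∃ m : ℕ, jj' ^ m * w ∈ C2)
    (hfin1 : ∃ c : Finset E, (∀ i ∈ c, i ∈ C1) ∧
      ∀ x ∈ C1, ∃ p : E → A[X], x = ∑ i ∈ c, aeval jj (p i) * i)
    {e1 e2 : E} (he1 : e1 ∈ C1) (he2 : e2 ∈ C2)
    (hid1 : ∃ c ∈ C1, e1 * e1 - e1 = π • c) (hid2 : ∃ c ∈ C2, e2 * e2 - e2 = π • c)
    (h12 : ∃ w ∈ C12, e1 - e2 = π • w) :
    ∃ x : E, x ∈ C1 ∧ x ∈ C2 ∧ (∃ c ∈ C1, x - e1 = π • c) ∧ ∃ c ∈ C2, x - e2 = π • c := by
  obtain ⟨x, hx1, hx2, -, h3, h4⟩ := exists_glue_of_idem_pow π C1 C2 C12 hjj h1 h2 h1le h2le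
    hloc1 hloc2 hfin1 he1 he2 hid1 hid2 h12 1
  exact ⟨x, hx1, hx2, h3, h4⟩

/-- Saturation with respect to powers of `π`. -/
theorem sat_pow (π : A) (C1 C2 : Subalgebra A E) (hsat : ∀ c ∈ C1, π • c ∈ C2 → c ∈ C2)
    (n : ℕ) : ∀ c ∈ C1, π ^ n • c ∈ C2 → c ∈ C2 := by
  induction n with
  | zero => intro c _ h; simpa using h
  | succ n ih =>
    intro c hc h
    refine ih c hc (hsat _ (C1.smul_mem hc _) ?_)
    rw [smul_smul, ← pow_succ']
    exact h

/-- **Formal functions + invariants, packaged.**  In the situation of `exists_glue_of_idem`, assume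
moreover that `R = C1 ∩ C2` is a finite `A`-module, that `C2` is `π`-saturated relative to `C1`
(`c ∈ C1`, `π c ∈ C2` imply `c ∈ C2`), and that finitely many `A`-algebra endomorphisms `σ g` of `E`
preserve `C1` and `C2` and fix `e1` modulo `π C1`.  Then there is a global section
`y ∈ C1 ∩ C2`, fixed by all `σ g`, congruent to `e1` modulo `π C1` and to `e2` modulo `π C2`. -/
theorem exists_invariant_glue [IsNoetherianRing A] (π : A) (C1 C2 C12 : Subalgebra A E)
    {jj jj' : E} (hjj : jj * jj' = 1)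
    (h1 : jj ∈ C1) (h2 : jj' ∈ C2) (h1le : C1 ≤ C12) (h2le : C2 ≤ C12)
    (hloc1 : ∀ w ∈ C12, ∃ m : ℕ, jj ^ m * w ∈ C1)
    (hloc2 : ∀ w ∈ C12, ∃ m : ℕ, jj' ^ m * w ∈ C2)
    (hfin1 : ∃ c : Finset E, (∀ i ∈ c, i ∈ C1) ∧
      ∀ x ∈ C1, ∃ p : E → A[X], x = ∑ i ∈ c, aeval jj (p i) * i)
    (hR : (Subalgebra.toSubmodule (C1 ⊓ C2)).FG)
    (hsat : ∀ c ∈ C1, π • c ∈ C2 → c ∈ C2)
    {G : Type*} [Finite G] (σ : G → E →ₐ[A] E)
    (hσ1 : ∀ g, ∀ x ∈ C1, σ g x ∈ C1) (hσ2 : ∀ g, ∀ x ∈ C2, σ g x ∈ C2)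
    {e1 e2 : E} (he1 : e1 ∈ C1) (he2 : e2 ∈ C2)
    (hid1 : ∃ c ∈ C1, e1 * e1 - e1 = π • c) (hid2 : ∃ c ∈ C2, e2 * e2 - e2 = π • c)
    (h12 : ∃ w ∈ C12, e1 - e2 = π • w)
    (hinv : ∀ g, ∃ c ∈ C1, σ g e1 - e1 = π • c) :
    ∃ y : E, y ∈ C1 ∧ y ∈ C2 ∧ (∀ g, σ g y = y) ∧ (∃ c ∈ C1, y - e1 = π • c) ∧
      ∃ c ∈ C2, y - e2 = π • c := by
  classical
  have hglue := exists_glue_of_idem_pow π C1 C2 C12 hjj h1 h2 h1le h2le hloc1 hloc2 hfin1
    he1 he2 hid1 hid2 h12
  choose x hx1 hx2 hxid hxe1 hxe2 using hglue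
  set R : Subalgebra A E := C1 ⊓ C2 with hRdef
  have hxR : ∀ n, x n ∈ R := fun n => ⟨hx1 n, hx2 n⟩
  have : Module.Finite A R := Module.Finite.of_fg hR
  have hσR : ∀ g, ∀ z ∈ R, σ g z ∈ R := fun g z hz => ⟨hσ1 g z hz.1, hσ2 g z hz.2⟩
  let ρ : G → R →ₗ[A] R := fun g =>
    ((σ g).toLinearMap.restrict (p := Subalgebra.toSubmodule R) (q := Subalgebra.toSubmodule R)
      (hσR g))
  have hρ : ∀ g (z : R), ((ρ g z : R) : E) = σ g (z : E) := fun g z => rfl
  let X : ℕ → R := fun n => ⟨x n, hxR n⟩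
  -- approximate invariance
  have hX : ∀ n : ℕ, ∀ g : G, ∃ m : R, ρ g (X n) - X n = π ^ n • m := by
    intro n g
    obtain ⟨cn, hcn, hcn'⟩ := hxid n
    obtain ⟨dn, hdn, hdn'⟩ := hxe1 n
    obtain ⟨ci, hci, hci'⟩ := hinv g
    have hgx : σ g (x n) ∈ C1 := hσ1 g _ (hx1 n)
    have h5 : ∃ c ∈ C1, σ g (x n) * σ g (x n) - σ g (x n) = π ^ n • c :=
      ⟨σ g cn, hσ1 g _ hcn, by rw [← map_mul, ← map_sub, hcn', map_smul]⟩
    have h6 : ∃ c ∈ C1, σ g (x n) - x n = π • c := by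
      refine ⟨σ g dn + ci - dn, C1.sub_mem (C1.add_mem (hσ1 g _ hdn) hci) hdn, ?_⟩
      have h7 : σ g (x n) - σ g e1 = π • σ g dn := by rw [← map_sub, hdn', map_smul]
      rw [smul_sub, smul_add, ← h7, ← hci', ← hdn']; ring
    obtain ⟨c, hc, hc'⟩ := idem_unique_sub C1 π hgx (hx1 n) n h5 (hxid n) h6
    have hc2 : c ∈ C2 := by
      refine sat_pow π C1 C2 hsat n c hc ?_
      rw [← hc']
      exact C2.sub_mem (hσ2 g _ (hx2 n)) (hx2 n)
    refine ⟨⟨c, hc, hc2⟩, Subtype.ext ?_⟩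
    show σ g (x n) - x n = π ^ n • c
    exact hc'
  have hX1 : ∀ n : ℕ, 1 ≤ n → ∃ m : R, X n - X 1 = π • m := by
    intro n _
    obtain ⟨dn, hdn, hdn'⟩ := hxe1 n
    obtain ⟨d1, hd1, hd1'⟩ := hxe1 1
    have h8 : x n - x 1 = π • (dn - d1) := by
      rw [smul_sub, ← hdn', ← hd1']; ring
    have hc2 : dn - d1 ∈ C2 := by
      refine hsat _ (C1.sub_mem hdn hd1) ?_
      rw [← h8]
      exact C2.sub_mem (hx2 n) (hx2 1)
    refine ⟨⟨dn - d1, C1.sub_mem hdn hd1, hc2⟩, Subtype.ext ?_⟩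
    show x n - x 1 = π • (dn - d1)
    exact h8
  obtain ⟨y, hy, m, hm⟩ := exists_invariant_of_approx ρ π X hX hX1
  have hm' : (y : E) - x 1 = π • (m : E) := congrArg Subtype.val hm
  obtain ⟨d1, hd1, hd1'⟩ := hxe1 1
  obtain ⟨f1, hf1, hf1'⟩ := hxe2 1
  refine ⟨y, y.2.1, y.2.2, fun g => ?_, ⟨(m : E) + d1, C1.add_mem m.2.1 hd1, ?_⟩,
    ⟨(m : E) + f1, C2.add_mem m.2.2 hf1, ?_⟩⟩
  · have := congrArg Subtype.val (hy g)
    rw [hρ] at this
    exact this
  · rw [smul_add, ← hm', ← hd1']; ring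
  · rw [smul_add, ← hm', ← hf1']; ring

end Charts

section Independence

variable {A : Type*} [CommRing A] [IsDomain A] [IsDiscreteValuationRing A]

/-- Key step: a linear relation between elements that are orthogonal idempotents modulo `π` and
nonzero modulo `π` has all its coefficients divisible by `π`. -/
theorem dvd_coeff_of_idem_mod {π : A} (hπ : Irreducible π) {E : Type*} [CommRing E] [Algebra A E]
    (Lam : Subalgebra A E) {ι : Type*} (y : ι → E)
    (horth : ∀ i j, i ≠ j → ∃ c ∈ Lam, y i * y j = π • c)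
    (hid : ∀ i, ∃ c ∈ Lam, y i * y i - y i = π • c)
    (hne : ∀ i, ¬ ∃ c ∈ Lam, y i = π • c)
    (s : Finset ι) (d : ι → A) (hsum : ∑ i ∈ s, d i • y i = 0) : ∀ j ∈ s, π ∣ d j := by
  classical
  intro j hj
  by_contra hnd
  have hunit : IsUnit (d j) := by
    rw [← IsLocalRing.notMem_maximalIdeal, hπ.maximalIdeal_eq, Ideal.mem_span_singleton]
    exact hnd
  obtain ⟨u, hu⟩ := hunit
  have hc : ∀ i, ∃ c ∈ Lam, i ≠ j → y i * y j = π • c := by
    intro i
    by_cases hij : i = j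
    · exact ⟨0, Lam.zero_mem, fun h => absurd hij h⟩
    · obtain ⟨c, hc, hc'⟩ := horth i j hij
      exact ⟨c, hc, fun _ => hc'⟩
  choose c hcL hc' using hc
  have h1 : ∑ i ∈ s, d i • (y i * y j) = 0 := by
    have := congrArg (· * y j) hsum
    simp only [Finset.sum_mul, zero_mul, smul_mul_assoc] at this
    exact this
  rw [← Finset.add_sum_erase s _ hj] at h1
  have h2 : ∑ i ∈ s.erase j, d i • (y i * y j) = π • ∑ i ∈ s.erase j, d i • c i := by
    rw [Finset.smul_sum]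
    refine Finset.sum_congr rfl fun i hi => ?_
    rw [hc' i (Finset.ne_of_mem_erase hi), smul_comm]
  rw [h2] at h1
  obtain ⟨cj, hcj, hcj'⟩ := hid j
  have hz : (∑ i ∈ s.erase j, d i • c i) ∈ Lam :=
    Lam.sum_mem fun i _ => Lam.smul_mem (hcL i) _
  have h3 : y j * y j = π • (((u⁻¹ : Aˣ) : A) • -(∑ i ∈ s.erase j, d i • c i)) := by
    have h4 : d j • (y j * y j) = π • -(∑ i ∈ s.erase j, d i • c i) := by
      rw [smul_neg]; exact eq_neg_of_add_eq_zero_left h1
    have h5 : y j * y j = ((u⁻¹ : Aˣ) : A) • (d j • (y j * y j)) := by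
      rw [smul_smul, ← hu, Units.inv_mul, one_smul]
    rw [h5, h4, smul_comm]
  refine hne j ⟨((u⁻¹ : Aˣ) : A) • -(∑ i ∈ s.erase j, d i • c i) - cj,
    Lam.sub_mem (Lam.smul_mem (Lam.neg_mem hz) _) hcj, ?_⟩
  rw [smul_sub, ← h3, ← hcj']; ring

/-- Elements of an `A`-torsion-free algebra that are orthogonal idempotents modulo `π` and nonzero
modulo `π` (with respect to a subalgebra `Lam`) are linearly independent over `A`. -/
theorem linearIndependent_of_idem_mod_base {π : A} (hπ : Irreducible π) {E : Type*} [CommRing E]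
    [Algebra A E] [IsDomain E] [FaithfulSMul A E]
    (Lam : Subalgebra A E) {ι : Type*} (y : ι → E)
    (horth : ∀ i j, i ≠ j → ∃ c ∈ Lam, y i * y j = π • c)
    (hid : ∀ i, ∃ c ∈ Lam, y i * y i - y i = π • c)
    (hne : ∀ i, ¬ ∃ c ∈ Lam, y i = π • c) : LinearIndependent A y := by
  classical
  rw [linearIndependent_iff']
  intro s c hsum
  have hpow : ∀ n : ℕ, ∀ i ∈ s, π ^ n ∣ c i := by
    intro n
    induction n with
    | zero => intro i _; simp
    | succ n ih =>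
      choose! d hd using ih
      have hsum' : ∑ i ∈ s, d i • y i = 0 := by
        have h1 : π ^ n • ∑ i ∈ s, d i • y i = 0 := by
          rw [Finset.smul_sum, ← hsum]
          refine Finset.sum_congr rfl fun i hi => ?_
          rw [smul_smul, ← hd i hi]
        rcases smul_eq_zero.mp h1 with h | h
        · exact absurd h (pow_ne_zero n hπ.ne_zero)
        · exact h
      intro i hi
      obtain ⟨b, hb⟩ := dvd_coeff_of_idem_mod hπ Lam y horth hid hne s d hsum' i hi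
      exact ⟨b, by rw [hd i hi, hb, pow_succ, mul_assoc]⟩
  intro i hi
  by_contra hci
  obtain ⟨n, u, hu⟩ := IsDiscreteValuationRing.eq_unit_mul_pow_irreducible hci hπ
  obtain ⟨b, hb⟩ := hpow (n + 1) i hi
  have h1 : π ^ n * ((u : A) - π * b) = 0 := by
    have : (u : A) * π ^ n = π ^ (n + 1) * b := by rw [← hu, hb]
    rw [mul_sub, pow_succ] at *
    linear_combination this
  rcases mul_eq_zero.mp h1 with h | h
  · exact pow_ne_zero n hπ.ne_zero h
  · have hdvd : π ∣ (u : A) := ⟨b, sub_eq_zero.mp h⟩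
    exact hπ.not_isUnit (isUnit_of_dvd_unit hdvd u.isUnit)

/-- Elements of a field extension `E` of `K = Frac A` that are orthogonal idempotents modulo `π` and
nonzero modulo `π` (with respect to a subalgebra `Lam`) are linearly independent over `K`. -/
theorem linearIndependent_of_idem_mod {π : A} (hπ : Irreducible π) {K : Type*} [Field K]
    [Algebra A K] [IsFractionRing A K] {E : Type*} [Field E] [Algebra A E] [Algebra K E]
    [IsScalarTower A K E] (Lam : Subalgebra A E) {ι : Type*} (y : ι → E)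
    (horth : ∀ i j, i ≠ j → ∃ c ∈ Lam, y i * y j = π • c)
    (hid : ∀ i, ∃ c ∈ Lam, y i * y i - y i = π • c)
    (hne : ∀ i, ¬ ∃ c ∈ Lam, y i = π • c) : LinearIndependent K y := by
  have : FaithfulSMul A E := by
    rw [faithfulSMul_iff_algebraMap_injective, IsScalarTower.algebraMap_eq A K E]
    exact (algebraMap K E).injective.comp (IsFractionRing.injective A K)
  rw [← LinearIndependent.iff_fractionRing A K]
  exact linearIndependent_of_idem_mod_base hπ Lam y horth hid hne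

end Independence

section Bridges

variable {A E : Type*} [CommRing A] [CommRing E] [Algebra A E]

/-- The finiteness hypothesis `hfin1` of the chart lemmas, from "`C1` is the span over `A[jj]` of a
finite set". -/
theorem hfin_of_span (C1 : Subalgebra A E) (jj : E) (s : Finset E)
    (hs : ∀ x, x ∈ C1 ↔ x ∈ Submodule.span (Algebra.adjoin A {jj}) (s : Set E)) :
    ∃ c : Finset E, (∀ i ∈ c, i ∈ C1) ∧
      ∀ x ∈ C1, ∃ p : E → A[X], x = ∑ i ∈ c, aeval jj (p i) * i := by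
  classical
  refine ⟨s, fun i hi => (hs i).mpr (Submodule.subset_span hi), fun x hx => ?_⟩
  obtain ⟨f, hf⟩ := (Submodule.mem_span_finset'.mp ((hs x).mp hx))
  have hq : ∀ a : Algebra.adjoin A {jj}, ∃ q : A[X], aeval jj q = (a : E) := by
    intro a
    have ha : (a : E) ∈ (Polynomial.aeval jj : A[X] →ₐ[A] E).range := by
      rw [← Algebra.adjoin_singleton_eq_range_aeval]
      exact a.2
    exact ha
  choose q hq' using hq
  refine ⟨fun i => if h : i ∈ s then q (f ⟨i, h⟩) else 0, ?_⟩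
  rw [← hf, ← Finset.sum_attach s (fun i => aeval jj (if h : i ∈ s then q (f ⟨i, h⟩) else 0) * i)]
  refine Finset.sum_congr rfl fun i _ => ?_
  rw [dif_pos i.2, hq']
  rfl

/-- Every element of `A[jj, jj']` (with `jj * jj' = 1`) is moved into `A[jj]` by a large power of
`jj`. -/
theorem exists_pow_mul_mem_adjoin {jj jj' : E} (hjj : jj * jj' = 1) (a : E)
    (ha : a ∈ Algebra.adjoin A ({jj, jj'} : Set E)) :
    ∃ m : ℕ, ∀ m' : ℕ, m ≤ m' → jj ^ m' * a ∈ Algebra.adjoin A ({jj} : Set E) := by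
  have hjjmem : jj ∈ Algebra.adjoin A ({jj} : Set E) := Algebra.subset_adjoin rfl
  induction ha using Algebra.adjoin_induction with
  | mem x hx =>
    rcases hx with hx | hx
    · rw [hx]
      exact ⟨0, fun m' _ => Subalgebra.mul_mem _ (Subalgebra.pow_mem _ hjjmem _) hjjmem⟩
    · have hx1 : x = jj' := hx
      rw [hx1]
      refine ⟨1, fun m' hm' => ?_⟩
      obtain ⟨k, rfl⟩ := Nat.exists_eq_add_of_le hm'
      rw [add_comm, pow_add, pow_one, mul_assoc, hjj, mul_one]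
      exact Subalgebra.pow_mem _ hjjmem _
  | algebraMap r =>
    exact ⟨0, fun m' _ => Subalgebra.mul_mem _ (Subalgebra.pow_mem _ hjjmem _)
      (Subalgebra.algebraMap_mem _ r)⟩
  | add x y _ _ hx hy =>
    obtain ⟨m1, h1⟩ := hx
    obtain ⟨m2, h2⟩ := hy
    refine ⟨max m1 m2, fun m' hm' => ?_⟩
    rw [mul_add]
    exact Subalgebra.add_mem _ (h1 m' ((le_max_left _ _).trans hm'))
      (h2 m' ((le_max_right _ _).trans hm'))
  | mul x y _ _ hx hy =>
    obtain ⟨m1, h1⟩ := hx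
    obtain ⟨m2, h2⟩ := hy
    refine ⟨m1 + m2, fun m' hm' => ?_⟩
    obtain ⟨k, rfl⟩ := Nat.exists_eq_add_of_le hm'
    have : jj ^ (m1 + m2 + k) * (x * y) = (jj ^ (m1 + k) * x) * (jj ^ m2 * y) := by
      rw [pow_add, pow_add, pow_add]; ring
    rw [this]
    exact Subalgebra.mul_mem _ (h1 _ (Nat.le_add_right _ _)) (h2 _ le_rfl)

/-- An element integral over `A[jj, jj']` (with `jj * jj' = 1`) becomes integral over `A[jj]` after
multiplication by a power of `jj`.  (This gives the hypotheses `hloc1`, `hloc2` of the chart lemmas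
when the charts are integral closures.) -/
theorem exists_pow_mul_isIntegral {jj jj' : E} (hjj : jj * jj' = 1) (w : E)
    (hw : IsIntegral (Algebra.adjoin A ({jj, jj'} : Set E)) w) :
    ∃ m : ℕ, IsIntegral (Algebra.adjoin A ({jj} : Set E)) (jj ^ m * w) := by
  classical
  have hle : Algebra.adjoin A ({jj} : Set E) ≤ Algebra.adjoin A ({jj, jj'} : Set E) :=
    Algebra.adjoin_mono (by intro x hx; exact Or.inl hx)
  obtain ⟨p, hpm, hp⟩ := hw
  have hex : ∀ i : ℕ, ∃ m : ℕ, ∀ m' : ℕ, m ≤ m' →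
      jj ^ m' * ((p.coeff i : Algebra.adjoin A ({jj, jj'} : Set E)) : E)
        ∈ Algebra.adjoin A ({jj} : Set E) :=
    fun i => exists_pow_mul_mem_adjoin hjj _ (p.coeff i).2
  choose M hM using hex
  set m := (Finset.range (p.natDegree + 1)).sup M with hm
  have hjj12 : jj ∈ Algebra.adjoin A ({jj, jj'} : Set E) := Algebra.subset_adjoin (Or.inl rfl)
  set sj : Algebra.adjoin A ({jj, jj'} : Set E) := ⟨jj ^ m, Subalgebra.pow_mem _ hjj12 m⟩ with hsj
  set φ : Algebra.adjoin A ({jj} : Set E) →+* Algebra.adjoin A ({jj, jj'} : Set E) :=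
    (Subalgebra.inclusion hle).toRingHom with hφ
  have hlift : p.scaleRoots sj ∈ Polynomial.lifts φ := by
    rw [Polynomial.lifts_iff_coeff_lifts]
    intro i
    have key : ((p.scaleRoots sj).coeff i : E) ∈ Algebra.adjoin A ({jj} : Set E) := by
      rw [Polynomial.coeff_scaleRoots]
      rcases lt_trichotomy i p.natDegree with hi | hi | hi
      · have h1 : ((p.coeff i * sj ^ (p.natDegree - i) :
            Algebra.adjoin A ({jj, jj'} : Set E)) : E)
            = jj ^ (m * (p.natDegree - i)) * ((p.coeff i : Algebra.adjoin A ({jj, jj'} : Set E)) : E) := by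
          rw [mul_comm, pow_mul]; rfl
        rw [h1]
        refine hM i _ ?_
        have h2 : M i ≤ m := Finset.le_sup (f := M) (Finset.mem_range.mpr (by omega))
        have h3 : 1 ≤ p.natDegree - i := by omega
        calc M i ≤ m := h2
          _ = m * 1 := (mul_one m).symm
          _ ≤ m * (p.natDegree - i) := Nat.mul_le_mul_left m h3
      · subst hi
        rw [Polynomial.Monic.coeff_natDegree hpm, Nat.sub_self, pow_zero, mul_one]
        exact Subalgebra.one_mem _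
      · rw [Polynomial.coeff_eq_zero_of_natDegree_lt hi, zero_mul]
        exact Subalgebra.zero_mem _
    exact ⟨⟨_, key⟩, Subtype.ext rfl⟩
  have hmon : (p.scaleRoots sj).Monic := (Polynomial.monic_scaleRoots_iff sj).mpr hpm
  obtain ⟨q, hq, -, hqm⟩ := Polynomial.lifts_and_natDegree_eq_and_monic hlift hmon
  refine ⟨m, q, hqm, ?_⟩
  have h4 : Polynomial.eval₂ (algebraMap (Algebra.adjoin A ({jj, jj'} : Set E)) E)
      (algebraMap (Algebra.adjoin A ({jj, jj'} : Set E)) E sj * w) (p.scaleRoots sj) = 0 :=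
    Polynomial.scaleRoots_eval₂_eq_zero _ hp
  rw [← hq, Polynomial.eval₂_map] at h4
  exact h4

end Bridges

end Fermat.Agent.RedLib.Formal
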