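import Mathlib
import Fermat.Agent.RedLib.AGDefs
import Fermat.Agent.RedLib.Formal

/-!
# RedLib/AGSymm: coordinate change `x ↔ x⁻¹` for the data of the abstract geometric theorem

* `isGaussLattice_inv` : the Gauss lattice for `x` is the Gauss lattice for `x⁻¹`.
* `isGaussEtale_inv` : a basis with Gauss-unit discriminant for `xK` is one for `xK⁻¹`.
* `isUnramAt_of_hunr`, `isUnramAt_inv` : the unramifiedness hypothesis of `AG_core`
  (valuation subring language) gives unramifiedness at the primes of the two charts.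
-/

set_option autoImplicit false

namespace Fermat.Agent.RedLib.AGSymm

open Polynomial Fermat.Agent.RedLib.AGDefs

section Basics

variable {A0 F : Type*} [CommRing A0] [Field F] [Algebra A0 F]

/-- Integrality over a subalgebra implies integrality over a bigger subalgebra. -/
theorem isIntegral_of_subalgebra_le {S S' : Subalgebra A0 F} (h : S ≤ S') {w : F}
    (hw : IsIntegral S w) : IsIntegral S' w := by
  obtain ⟨p, hp, hpw⟩ := hw
  refine ⟨p.map (Subalgebra.inclusion h).toRingHom, hp.map _, ?_⟩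
  rw [Polynomial.eval₂_map]
  exact hpw

/-- `(X ^ m * reverse g)(x⁻¹) = x⁻¹ ^ (m + deg g) * g(x)`. -/
theorem aeval_inv_X_pow_mul_reverse {x : F} (hx : x ≠ 0) (g : A0[X]) (m : ℕ) :
    aeval x⁻¹ (X ^ m * g.reverse) = x⁻¹ ^ (m + g.natDegree) * aeval x g := by
  let _ : Invertible x := invertibleOfNonzero hx
  have h := eval₂_reverse_mul_pow (algebraMap A0 F) x g
  rw [invOf_eq_inv] at h
  rw [map_mul, map_pow, aeval_X, aeval_def, aeval_def]
  rw [← h, pow_add]
  have hx' : x⁻¹ ^ g.natDegree * x ^ g.natDegree = 1 := by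
    rw [← mul_pow, inv_mul_cancel₀ hx, one_pow]
  calc x⁻¹ ^ m * eval₂ (algebraMap A0 F) x⁻¹ g.reverse
      = x⁻¹ ^ m * eval₂ (algebraMap A0 F) x⁻¹ g.reverse * (x⁻¹ ^ g.natDegree * x ^ g.natDegree) := by
        rw [hx', mul_one]
    _ = _ := by ring

theorem not_C_dvd_X_pow_mul_reverse {π : A0} (g : A0[X]) (m : ℕ) (hg : ¬ C π ∣ g) :
    ¬ C π ∣ X ^ m * g.reverse := by
  intro h
  apply hg
  rw [C_dvd_iff_dvd_coeff] at h ⊢
  intro i
  by_cases hi : i ≤ g.natDegree
  · have h1 := h ((g.natDegree - i) + m)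
    rw [coeff_X_pow_mul, coeff_reverse, revAt_le (Nat.sub_le _ _), Nat.sub_sub_self hi] at h1
    exact h1
  · rw [coeff_eq_zero_of_natDegree_lt (not_le.mp hi)]
    exact dvd_zero _

end Basics

section Lattice

variable {A0 FF : Type*} [CommRing A0] [Field FF] [Algebra A0 FF]

theorem exists_gauss_inv {π : A0} {x : FF} (hx : x ≠ 0) {y : FF} {g : A0[X]} (hg : ¬ C π ∣ g)
    (hy : aeval x g * y ∈ chart A0 x) :
    ∃ g' : A0[X], ¬ C π ∣ g' ∧ aeval x⁻¹ g' * y ∈ chart A0 x⁻¹ := by
  have hy' : IsIntegral (Algebra.adjoin A0 ({x} : Set FF)) (aeval x g * y) := hy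
  have hw : IsIntegral (Algebra.adjoin A0 ({x⁻¹, x} : Set FF)) (aeval x g * y) :=
    isIntegral_of_subalgebra_le (Algebra.adjoin_mono (by intro z hz; exact Or.inr hz)) hy'
  obtain ⟨m, hm⟩ := Formal.exists_pow_mul_isIntegral (A := A0) (jj := x⁻¹) (jj' := x)
    (inv_mul_cancel₀ hx) _ hw
  refine ⟨X ^ m * g.reverse, not_C_dvd_X_pow_mul_reverse g m hg, ?_⟩
  show IsIntegral (Algebra.adjoin A0 ({x⁻¹} : Set FF)) _
  rw [aeval_inv_X_pow_mul_reverse hx]
  have hd : IsIntegral (Algebra.adjoin A0 ({x⁻¹} : Set FF)) (x⁻¹ ^ g.natDegree) := by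
    have h0 : IsIntegral (Algebra.adjoin A0 ({x⁻¹} : Set FF)) (x⁻¹) := by
      have hmem : x⁻¹ ∈ Algebra.adjoin A0 ({x⁻¹} : Set FF) := Algebra.subset_adjoin rfl
      have he0 : (x⁻¹ : FF) = algebraMap (Algebra.adjoin A0 ({x⁻¹} : Set FF)) FF ⟨x⁻¹, hmem⟩ :=
        rfl
      rw [he0]
      exact isIntegral_algebraMap
    exact h0.pow _
  have he : x⁻¹ ^ (m + g.natDegree) * aeval x g * y
      = x⁻¹ ^ g.natDegree * (x⁻¹ ^ m * (aeval x g * y)) := by
    rw [pow_add]; ring
  rw [he]
  exact hd.mul hm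

/-- (a) The Gauss lattice for `x` is the Gauss lattice for `x⁻¹`. -/
theorem isGaussLattice_inv {π : A0} {x : FF} (hx : x ≠ 0) {Lam : Subalgebra A0 FF}
    (h : IsGaussLattice A0 π x Lam) : IsGaussLattice A0 π x⁻¹ Lam := by
  intro y
  rw [h y]
  constructor
  · rintro ⟨g, hg, hy⟩
    exact exists_gauss_inv hx hg hy
  · rintro ⟨g, hg, hy⟩
    have := exists_gauss_inv (inv_ne_zero hx) hg hy
    rw [inv_inv] at this
    exact this

/-- (b) A basis with Gauss-unit discriminant for `xK` is one for `xK⁻¹`. -/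
theorem isGaussEtale_inv {Kt : Type*} [Field Kt] [Algebra A0 Kt] [Algebra Kt FF] {π : A0}
    {xK : Kt} {Lam : Subalgebra A0 FF} (h : IsGaussEtale A0 π xK Lam) :
    IsGaussEtale A0 π xK⁻¹ Lam := by
  by_cases hx : xK = 0
  · rw [hx, inv_zero]
    rw [hx] at h
    exact h
  obtain ⟨n, b, hb, u, v, hu, hv, huv⟩ := h
  refine ⟨n, b, hb, X ^ v.natDegree * u.reverse, X ^ u.natDegree * v.reverse,
    not_C_dvd_X_pow_mul_reverse u _ hu, not_C_dvd_X_pow_mul_reverse v _ hv, ?_⟩
  rw [aeval_inv_X_pow_mul_reverse hx, aeval_inv_X_pow_mul_reverse hx, mul_assoc, huv,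
    add_comm]

end Lattice

section Valuation

variable {K FF : Type*} [Field K] [Field FF] [Algebra K FF]

/-- A constant which is a non-unit of a valuation subring containing the constants is zero. -/
theorem eq_zero_of_algebraMap_mem_nonunits (O : ValuationSubring FF)
    (hK : ∀ a : K, algebraMap K FF a ∈ O) {c : K} (hc : algebraMap K FF c ∈ O.nonunits) :
    c = 0 := by
  rcases (O.mem_nonunits_iff_or).mp hc with h | h
  · exact (map_eq_zero _).mp h
  · exfalso
    apply h
    rw [← map_inv₀]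
    exact hK _

theorem mul_mem_nonunits (O : ValuationSubring FF) {x r : FF} (hx : x ∈ O.nonunits)
    (hr : r ∈ O) : x * r ∈ O.nonunits := by
  rw [ValuationSubring.mem_nonunits_iff] at hx ⊢
  rw [map_mul]
  have h1 : O.valuation r ≤ 1 := (O.valuation_le_one_iff r).mpr hr
  calc O.valuation x * O.valuation r ≤ O.valuation x * 1 := by gcongr
    _ = O.valuation x := mul_one _
    _ < 1 := hx

theorem sub_mem_nonunits (O : ValuationSubring FF) {x y : FF} (hx : x ∈ O.nonunits)
    (hy : y ∈ O.nonunits) : x - y ∈ O.nonunits := by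
  rw [ValuationSubring.mem_nonunits_iff] at hx hy ⊢
  exact lt_of_le_of_lt (Valuation.map_sub _ _ _) (max_lt hx hy)

theorem mem_of_nonunits (O : ValuationSubring FF) {x : FF} (hx : x ∈ O.nonunits) : x ∈ O := by
  rw [ValuationSubring.mem_nonunits_iff] at hx
  exact (O.valuation_le_one_iff x).mp hx.le

theorem inv_mem_of_not_mem_nonunits (O : ValuationSubring FF) {x : FF}
    (hx : x ∉ O.nonunits) : x⁻¹ ∈ O := by
  by_contra h
  exact hx ((O.mem_nonunits_iff_or).mpr (Or.inr h))

theorem aeval_mem (O : ValuationSubring FF) (hK : ∀ a : K, algebraMap K FF a ∈ O) {x : FF}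
    (hx : x ∈ O) (p : K[X]) : aeval x p ∈ O := by
  induction p using Polynomial.induction_on with
  | C a => rw [aeval_C]; exact hK a
  | add p q hp hq => rw [map_add]; exact O.add_mem _ _ hp hq
  | monomial n a h =>
    rw [pow_succ, ← mul_assoc, map_mul, aeval_X]
    exact O.mul_mem _ _ h hx

/-- If `x ≡ c` and `p(x) ≡ 0` modulo the maximal ideal then `p(c) = 0`. -/
theorem eval_eq_zero_of_mem_nonunits (O : ValuationSubring FF)
    (hK : ∀ a : K, algebraMap K FF a ∈ O) {x : FF} (hx : x ∈ O) (c : K)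
    (hxc : x - algebraMap K FF c ∈ O.nonunits) (p : K[X]) (hp : aeval x p ∈ O.nonunits) :
    p.eval c = 0 := by
  apply eq_zero_of_algebraMap_mem_nonunits O hK
  have hdiv : p = (X - C c) * (p /ₘ (X - C c)) + C (p.eval c) := by
    conv_lhs => rw [← modByMonic_add_div p (X - C c), modByMonic_X_sub_C_eq_C_eval]
    ring
  have h1 : aeval x p = (x - algebraMap K FF c) * aeval x (p /ₘ (X - C c))
      + algebraMap K FF (p.eval c) := by
    conv_lhs => rw [hdiv]
    simp [map_add, map_mul, map_sub, aeval_X, aeval_C]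
  have h2 : algebraMap K FF (p.eval c)
      = aeval x p - (x - algebraMap K FF c) * aeval x (p /ₘ (X - C c)) := by
    rw [h1]; ring
  rw [h2]
  exact sub_mem_nonunits O hp (mul_mem_nonunits O hxc (aeval_mem O hK hx _))

/-- The reverse of an irreducible polynomial with nonzero constant term is irreducible. -/
theorem irreducible_reverse {p : K[X]} (hp : Irreducible p) (h0 : p.coeff 0 ≠ 0) :
    Irreducible p.reverse := by
  have hp0 : p ≠ 0 := hp.ne_zero
  have htr : p.natTrailingDegree = 0 := by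
    rw [natTrailingDegree_eq_zero]; exact Or.inr h0
  have hrr : p.reverse.reverse = p := by
    have hnd : p.reverse.natDegree = p.natDegree := by rw [reverse_natDegree, htr, Nat.sub_zero]
    ext n
    rw [coeff_reverse, coeff_reverse, hnd, revAt_invol]
  refine ⟨?_, ?_⟩
  · intro hu
    have hd : p.reverse.natDegree = 0 := natDegree_eq_zero_of_isUnit hu
    rw [reverse_natDegree, htr, Nat.sub_zero] at hd
    exact hp.not_isUnit (by
      rw [eq_C_of_natDegree_eq_zero hd]
      exact isUnit_C.mpr (isUnit_iff_ne_zero.mpr (by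
        intro h
        apply hp0
        rw [eq_C_of_natDegree_eq_zero hd, h, C_0])))
  · intro f g hfg
    have hfg' : p = f.reverse * g.reverse := by
      rw [← hrr, hfg, reverse_mul_of_domain]
    have hc0 : p.reverse.coeff 0 ≠ 0 := by
      rw [coeff_zero_reverse]; exact leadingCoeff_ne_zero.mpr hp0
    have hf0 : f.coeff 0 ≠ 0 := by
      intro h; apply hc0; rw [hfg, mul_coeff_zero, h, zero_mul]
    have hg0 : g.coeff 0 ≠ 0 := by
      intro h; apply hc0; rw [hfg, mul_coeff_zero, h, mul_zero]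
    have key : ∀ f : K[X], f.coeff 0 ≠ 0 → IsUnit f.reverse → IsUnit f := by
      intro f hf0 hu
      have hd : f.reverse.natDegree = 0 := natDegree_eq_zero_of_isUnit hu
      have htr : f.natTrailingDegree = 0 := by
        rw [natTrailingDegree_eq_zero]; exact Or.inr hf0
      rw [reverse_natDegree, htr, Nat.sub_zero] at hd
      rw [eq_C_of_natDegree_eq_zero hd]
      exact isUnit_C.mpr (isUnit_iff_ne_zero.mpr hf0)
    rcases hp.isUnit_or_isUnit hfg' with h | h
    · exact Or.inl (key f hf0 h)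
    · exact Or.inr (key g hg0 h)

end Valuation

section Unram

variable {A0 K FF : Type*} [CommRing A0] [IsDomain A0] [IsDiscreteValuationRing A0]
  [Field K] [Algebra A0 K] [IsFractionRing A0 K] [Field FF] [Algebra A0 FF] [Algebra K FF]
  [IsScalarTower A0 K FF]

/-- A prime of `A0[X]` not associated to `π` is non-constant. -/
theorem natDegree_ne_zero_of_prime {π : A0} (hπ : Irreducible π) {q : A0[X]} (hq : Prime q)
    (hqπ : ¬ Associated q (C π)) : q.natDegree ≠ 0 := by
  intro hd
  apply hqπ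
  have hqC : q = C (q.coeff 0) := eq_C_of_natDegree_eq_zero hd
  have hc : Prime (q.coeff 0) := by
    rw [hqC] at hq
    exact prime_C_iff.mp hq
  obtain ⟨u, hu⟩ := IsDiscreteValuationRing.associated_of_irreducible A0 hc.irreducible hπ
  rw [hqC]
  refine ⟨(Polynomial.isUnit_C.mpr u.isUnit).unit, ?_⟩
  rw [IsUnit.unit_spec, ← C_mul, hu]

/-- A prime of `A0[X]` not associated to `π` stays irreducible over the fraction field. -/
theorem irreducible_map_of_prime {π : A0} (hπ : Irreducible π) {q : A0[X]} (hq : Prime q)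
    (hqπ : ¬ Associated q (C π)) : Irreducible (q.map (algebraMap A0 K)) := by
  classical
  let _ : NormalizedGCDMonoid A0 := Classical.choice inferInstance
  have hprim : q.IsPrimitive := hq.irreducible.isPrimitive (natDegree_ne_zero_of_prime hπ hq hqπ)
  exact (hprim.irreducible_iff_irreducible_map_fraction_map (K := K)).mp hq.irreducible

/-- If the prime `q` of `A0[X]` has the root `a⁻¹` in `K`, `a ∈ A0`, then `q` is a unit modulo
`π` or `a` is a unit and `q` is associated to `X - a⁻¹`. -/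
theorem root_inv_cases {π : A0} (hπ : Irreducible π) {q : A0[X]} (hq : Prime q)
    (hqπ : ¬ Associated q (C π)) (a : A0) (ha : a ≠ 0)
    (hroot : (q.map (algebraMap A0 K)).eval (algebraMap A0 K a)⁻¹ = 0) :
    (∃ h : A0[X], C π ∣ q * h - 1) ∨ ∃ a' : A0, a * a' = 1 ∧ Associated q (X - C a') := by
  have hirr := irreducible_map_of_prime (K := K) hπ hq hqπ
  have hinj : Function.Injective (algebraMap A0 K) := IsFractionRing.injective A0 K
  have hdeg : (q.map (algebraMap A0 K)).degree = 1 :=
    degree_eq_one_of_irreducible_of_root hirr hroot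
  have hnd : q.natDegree = 1 := by
    have h1 : (q.map (algebraMap A0 K)).natDegree = 1 := natDegree_eq_of_degree_eq_some hdeg
    rwa [natDegree_map_eq_of_injective hinj] at h1
  have hq1 : q = C (q.coeff 1) * X + C (q.coeff 0) :=
    eq_X_add_C_of_natDegree_le_one hnd.le
  have haK : algebraMap A0 K a ≠ 0 := fun h => ha (hinj (by rw [h, map_zero]))
  -- the relation `q1 + q0 * a = 0`
  have hrel : q.coeff 1 + q.coeff 0 * a = 0 := by
    apply hinj
    rw [map_zero, map_add, map_mul]
    have h2 : algebraMap A0 K (q.coeff 1) * (algebraMap A0 K a)⁻¹ + algebraMap A0 K (q.coeff 0)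
        = 0 := by
      rw [hq1] at hroot
      simpa [eval_add, eval_mul, eval_C, eval_X] using hroot
    have h3 : algebraMap A0 K (q.coeff 1) + algebraMap A0 K (q.coeff 0) * algebraMap A0 K a
        = (algebraMap A0 K (q.coeff 1) * (algebraMap A0 K a)⁻¹ + algebraMap A0 K (q.coeff 0))
          * algebraMap A0 K a := by
      field_simp
    rw [h3, h2, zero_mul]
  have hq2 : q = C (q.coeff 0) * (1 - C a * X) := by
    have h1 : q.coeff 1 = -(q.coeff 0 * a) := eq_neg_of_add_eq_zero_left hrel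
    conv_lhs => rw [hq1, h1]
    simp only [C_neg, C_mul]
    ring
  -- `1 - a X` is not a unit, so `q0` is a unit
  have hnu : ¬ IsUnit (1 - C a * X : A0[X]) := by
    intro hu
    have h0 := natDegree_eq_zero_of_isUnit hu
    have h1 : (1 - C a * X : A0[X]).coeff 1 = -a := by
      simp [coeff_one]
    have h2 : (1 - C a * X : A0[X]).coeff 1 = 0 :=
      coeff_eq_zero_of_natDegree_lt (by rw [h0]; exact Nat.zero_lt_one)
    rw [h1, neg_eq_zero] at h2
    exact ha h2
  have hu0 : IsUnit (q.coeff 0) := by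
    rcases hq.irreducible.isUnit_or_isUnit hq2 with h | h
    · exact Polynomial.isUnit_C.mp h
    · exact absurd h hnu
  obtain ⟨u, hu⟩ := hu0
  by_cases hau : IsUnit a
  · right
    obtain ⟨v, hv⟩ := hau
    refine ⟨((v⁻¹ : A0ˣ) : A0), by rw [← hv]; exact v.mul_inv, ?_⟩
    have hunit : IsUnit (C (-(q.coeff 0 * a)) : A0[X]) := by
      rw [Polynomial.isUnit_C, ← hu, ← hv]
      exact ((u * v).isUnit).neg
    refine Associated.symm ⟨hunit.unit, ?_⟩
    rw [IsUnit.unit_spec]
    conv_rhs => rw [hq2]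
    have hva : a * ((v⁻¹ : A0ˣ) : A0) = 1 := by rw [← hv]; exact v.mul_inv
    have : C (q.coeff 0) * (1 - C a * X) = (X - C ((v⁻¹ : A0ˣ) : A0)) * C (-(q.coeff 0 * a)) := by
      have hC : (C a : A0[X]) * C ((v⁻¹ : A0ˣ) : A0) = 1 := by rw [← C_mul, hva, C_1]
      simp only [C_neg, C_mul]
      linear_combination (-(C (q.coeff 0))) * hC
    rw [this]
  · left
    have hmem : a ∈ IsLocalRing.maximalIdeal A0 := by
      rwa [IsLocalRing.mem_maximalIdeal, mem_nonunits_iff]
    rw [hπ.maximalIdeal_eq, Ideal.mem_span_singleton] at hmem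
    obtain ⟨a1, ha1⟩ := hmem
    refine ⟨C ((u⁻¹ : A0ˣ) : A0), ⟨-(C a1 * X), ?_⟩⟩
    conv_lhs => rw [hq2, ← hu]
    have hC : (C (u : A0) : A0[X]) * C ((u⁻¹ : A0ˣ) : A0) = 1 := by
      rw [← C_mul, Units.mul_inv, C_1]
    rw [ha1, C_mul]
    linear_combination (1 - C π * C a1 * X) * hC

variable (K) in
/-- Chart `tt`: from the unramifiedness hypothesis of `AG_core` to unramifiedness at a prime
`q` of `A0[X]` away from `π` and the cusps `S`. -/
theorem isUnramAt_of_hunr (π : A0) (hπ : Irreducible π) (tt : FF) (S : Finset A0)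
    (hunr : ∀ O : ValuationSubring FF, IsDiscreteValuationRing O →
      (∀ a : K, algebraMap K FF a ∈ O) → tt ∈ O → (∀ a ∈ S, (tt - algebraMap A0 FF a)⁻¹ ∈ O) →
      ∀ q : K[X], Irreducible q → aeval tt q ∈ O.nonunits →
        ∀ z ∈ O.nonunits, ∃ y ∈ O, z = aeval tt q * y)
    (q : A0[X]) (hq : Prime q) (hqπ : ¬ Associated q (C π))
    (hqS : ∀ a ∈ S, ¬ Associated q (X - C a)) :
    IsUnramAt K tt (q.map (algebraMap A0 K)) := by
  intro O hO hK htt hqO
  refine hunr O hO hK htt ?_ _ (irreducible_map_of_prime hπ hq hqπ) hqO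
  intro a ha
  apply inv_mem_of_not_mem_nonunits
  intro hmem
  rw [IsScalarTower.algebraMap_apply A0 K FF] at hmem
  have h0 := eval_eq_zero_of_mem_nonunits O hK htt _ hmem _ hqO
  rw [eval_map, eval₂_at_apply] at h0
  have h1 : q.eval a = 0 := IsFractionRing.injective A0 K (by rw [h0, map_zero])
  have hdvd : X - C a ∣ q := dvd_iff_isRoot.mpr h1
  exact hqS a ha ((irreducible_X_sub_C a).associated_of_dvd hq.irreducible hdvd).symm

variable (K) in
/-- (c) Chart `tt⁻¹`: from the unramifiedness hypothesis of `AG_core` to unramifiedness at a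
prime `q` of `A0[X]` for the coordinate `tt⁻¹`. -/
theorem isUnramAt_inv (π : A0) (hπ : Irreducible π) (tt : FF) (S : Finset A0)
    (hunr : ∀ O : ValuationSubring FF, IsDiscreteValuationRing O →
      (∀ a : K, algebraMap K FF a ∈ O) → tt ∈ O → (∀ a ∈ S, (tt - algebraMap A0 FF a)⁻¹ ∈ O) →
      ∀ q : K[X], Irreducible q → aeval tt q ∈ O.nonunits →
        ∀ z ∈ O.nonunits, ∃ y ∈ O, z = aeval tt q * y)
    (q : A0[X]) (hq : Prime q) (hqπ : ¬ Associated q (C π))
    (hqu : ¬ ∃ h : A0[X], C π ∣ q * h - 1) (hqX : ¬ Associated q X)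
    (hqS : ∀ a ∈ S, ∀ a' : A0, a * a' = 1 → ¬ Associated q (X - C a')) :
    IsUnramAt K tt⁻¹ (q.map (algebraMap A0 K)) := by
  intro O hO hK hx hqO
  have hinj : Function.Injective (algebraMap A0 K) := IsFractionRing.injective A0 K
  have hirr := irreducible_map_of_prime (K := K) hπ hq hqπ
  -- the constant coefficient of `q` is nonzero
  have hc0 : q.coeff 0 ≠ 0 := by
    intro h0
    have hdvd : X ∣ q := X_dvd_iff.mpr h0
    exact hqX (irreducible_X.associated_of_dvd hq.irreducible hdvd).symm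
  have hc0' : (q.map (algebraMap A0 K)).coeff 0 ≠ 0 := by
    rw [coeff_map]
    exact fun h => hc0 (hinj (by rw [h, map_zero]))
  -- `tt⁻¹` is a unit of `O`
  have hxu : tt⁻¹ ∉ O.nonunits := by
    intro hmem
    have h0 := eval_eq_zero_of_mem_nonunits O hK hx (0 : K) (by rwa [map_zero, sub_zero]) _ hqO
    rw [← coeff_zero_eq_eval_zero] at h0
    exact hc0' h0
  have htt : tt ∈ O := by
    have := inv_mem_of_not_mem_nonunits O hxu
    rwa [inv_inv] at this
  have htt0 : tt ≠ 0 := by
    intro h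
    apply hxu
    rw [h, inv_zero]
    exact O.nonunits.zero_mem
  have httu : tt ∉ O.nonunits := by
    intro hmem
    have := mul_mem_nonunits O hmem hx
    rw [mul_inv_cancel₀ htt0] at this
    rw [ValuationSubring.mem_nonunits_iff, map_one] at this
    exact lt_irrefl _ this
  -- the points of `S`
  have hS : ∀ a ∈ S, (tt - algebraMap A0 FF a)⁻¹ ∈ O := by
    intro a ha
    apply inv_mem_of_not_mem_nonunits
    intro hmem
    have ha0 : a ≠ 0 := by
      intro h
      rw [h, map_zero, sub_zero] at hmem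
      exact httu hmem
    have haK : algebraMap A0 K a ≠ 0 := fun h => ha0 (hinj (by rw [h, map_zero]))
    have haF : algebraMap K FF (algebraMap A0 K a) ≠ 0 := by
      rwa [Ne, map_eq_zero]
    rw [IsScalarTower.algebraMap_apply A0 K FF] at hmem
    -- `tt⁻¹ - a⁻¹` is a non-unit
    have hmem' : tt⁻¹ - algebraMap K FF (algebraMap A0 K a)⁻¹ ∈ O.nonunits := by
      have he : tt⁻¹ - algebraMap K FF (algebraMap A0 K a)⁻¹
          = (tt - algebraMap K FF (algebraMap A0 K a))
            * (-(tt⁻¹ * algebraMap K FF (algebraMap A0 K a)⁻¹)) := by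
        rw [map_inv₀]
        field_simp
        ring
      rw [he]
      exact mul_mem_nonunits O hmem (O.neg_mem _ (O.mul_mem _ _ hx (hK _)))
    have hroot := eval_eq_zero_of_mem_nonunits O hK hx _ hmem' _ hqO
    rcases root_inv_cases (K := K) hπ hq hqπ a ha0 hroot with h | ⟨a', ha', hass⟩
    · exact hqu h
    · exact hqS a ha a' ha' hass
  -- apply the hypothesis to the reverse polynomial
  have hrev : aeval tt (q.map (algebraMap A0 K)).reverse
      = tt ^ (q.map (algebraMap A0 K)).natDegree * aeval tt⁻¹ (q.map (algebraMap A0 K)) := by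
    have h := aeval_inv_X_pow_mul_reverse (inv_ne_zero htt0) (q.map (algebraMap A0 K)) 0
    rw [inv_inv, pow_zero, one_mul, zero_add] at h
    exact h
  have hc0r : (q.map (algebraMap A0 K)).coeff 0 ≠ 0 := hc0'
  have hrevO : aeval tt (q.map (algebraMap A0 K)).reverse ∈ O.nonunits := by
    rw [hrev, mul_comm]
    exact mul_mem_nonunits O hqO (O.pow_mem htt _)
  intro z hz
  obtain ⟨y, hy, hzy⟩ := hunr O hO hK htt hS _ (irreducible_reverse hirr hc0r) hrevO z hz
  refine ⟨tt ^ (q.map (algebraMap A0 K)).natDegree * y, O.mul_mem _ _ (O.pow_mem htt _) hy, ?_⟩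
  rw [hzy, hrev]
  ring

end Unram

end Fermat.Agent.RedLib.AGSymm
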