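/-
S18 long shot, leaf W3 (helper4): the "S2 lemma".

`R` an integrally closed domain, `π` a prime element, `g` not divisible by `π`, `z` an element of a
field `E ⊇ R` such that `g • z` and `π • z` are integral over `R`.  Then `z` is integral over `R`.
(The coefficients `a_i / π^i = b_i / g^i` of the minimal polynomial of `z` lie in `R`.)
-/
import Mathlib

set_option autoImplicit false

namespace Fermat.Agent.RedLib.S2Lemma

open Polynomial

/-- **S2 lemma.** -/
theorem isIntegral_of_smul {R E : Type*} [CommRing R] [IsDomain R] [IsIntegrallyClosed R] [Field E] [Algebra R E]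
    [FaithfulSMul R E] {π g : R} (hπ : Prime π) (hg : ¬ π ∣ g) {z : E}
    (h1 : IsIntegral R (g • z)) (h2 : IsIntegral R (π • z)) : IsIntegral R z := by
  have hπ0 : π ≠ 0 := hπ.ne_zero
  have hg0 : g ≠ 0 := fun h => hg (h ▸ dvd_zero π)
  set p1 := minpoly R (π • z) with hp1
  set p2 := minpoly R (g • z) with hp2
  have hEq : p1.scaleRoots g = p2.scaleRoots π := by
    rw [hp1, hp2, ← IsIntegrallyClosed.minpoly_smul hg0 h2, ← IsIntegrallyClosed.minpoly_smul hπ0 h1,
      smul_smul, smul_smul, mul_comm]
  have hdeg : p1.natDegree = p2.natDegree := by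
    have := congrArg natDegree hEq
    rwa [natDegree_scaleRoots, natDegree_scaleRoots] at this
  -- coefficientwise: p1.coeff i * g^(n-i) = p2.coeff i * π^(n-i)
  have hco : ∀ i, π ^ (p1.natDegree - i) ∣ p1.coeff i := by
    intro i
    have := congrArg (fun q => q.coeff i) hEq
    simp only [coeff_scaleRoots] at this
    rw [← hdeg] at this
    refine hπ.pow_dvd_of_dvd_mul_right (b := g ^ (p1.natDegree - i)) _
      (fun h => hg (hπ.dvd_of_dvd_pow h)) ?_
    exact ⟨p2.coeff i, by rw [this]; ring⟩
  choose c hc using hco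
  -- the polynomial Q = ∑ c i X^i
  let Q : R[X] := ∑ i ∈ Finset.range (p1.natDegree + 1), C (c i) * X ^ i
  have hQco : ∀ i, i ≤ p1.natDegree → Q.coeff i = c i := by
    intro i hi
    simp only [Q, finsetSum_coeff, coeff_C_mul, coeff_X_pow]
    rw [Finset.sum_eq_single i]
    · simp
    · intro j _ hji; simp [hji.symm]
    · intro hi'; exact absurd (Finset.mem_range.mpr (Nat.lt_succ_of_le hi)) hi'
  have hp1m : p1.Monic := minpoly.monic h2
  have hcn : c p1.natDegree = 1 := by
    have := hc p1.natDegree
    rw [Nat.sub_self, pow_zero, one_mul] at this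
    rw [← this]; exact hp1m
  have hQdeg : Q.natDegree = p1.natDegree := by
    apply le_antisymm
    · apply natDegree_sum_le_of_forall_le
      intro i hi
      refine (natDegree_C_mul_X_pow_le _ _).trans ?_
      exact Nat.lt_succ_iff.mp (Finset.mem_range.mp hi)
    · apply le_natDegree_of_ne_zero
      rw [hQco _ le_rfl, hcn]; exact one_ne_zero
  have hQm : Q.Monic := by
    rw [Monic, leadingCoeff, hQdeg, hQco _ le_rfl, hcn]
  have hQs : Q.scaleRoots π = p1 := by
    ext i
    rw [coeff_scaleRoots, hQdeg]
    by_cases hi : i ≤ p1.natDegree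
    · rw [hQco i hi, hc i]; ring
    · push Not at hi
      rw [coeff_eq_zero_of_natDegree_lt (hQdeg ▸ hi), coeff_eq_zero_of_natDegree_lt hi, zero_mul]
  refine ⟨Q, hQm, ?_⟩
  have h3 : eval₂ (algebraMap R E) (algebraMap R E π * z) (Q.scaleRoots π) = 0 := by
    rw [hQs, ← Algebra.smul_def]
    exact minpoly.aeval R (π • z)
  rw [scaleRoots_eval₂_mul] at h3
  rcases mul_eq_zero.mp h3 with h | h
  · exfalso
    have h' := eq_zero_of_pow_eq_zero h
    exact hπ0 ((FaithfulSMul.algebraMap_injective R E) (h'.trans (map_zero _).symm))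
  · exact h

/-- Variant with an explicit injectivity hypothesis. -/
theorem isIntegral_of_smul_of_injective {R E : Type*} [CommRing R] [IsDomain R]
    [IsIntegrallyClosed R] [Field E] [Algebra R E] (hinj : Function.Injective (algebraMap R E))
    {π g : R} (hπ : Prime π) (hg : ¬ π ∣ g) {z : E}
    (h1 : IsIntegral R (g • z)) (h2 : IsIntegral R (π • z)) : IsIntegral R z :=
  haveI : FaithfulSMul R E := (faithfulSMul_iff_algebraMap_injective R E).mpr hinj
  isIntegral_of_smul hπ hg h1 h2

/-- Membership form. -/
theorem mem_integralClosure_of_smul {R E : Type*} [CommRing R] [IsDomain R]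
    [IsIntegrallyClosed R] [Field E] [Algebra R E] [FaithfulSMul R E]
    {π g : R} (hπ : Prime π) (hg : ¬ π ∣ g) {z : E}
    (h1 : g • z ∈ integralClosure R E) (h2 : π • z ∈ integralClosure R E) :
    z ∈ integralClosure R E :=
  isIntegral_of_smul hπ hg h1 h2

end Fermat.Agent.RedLib.S2Lemma
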