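/-
S18 long shot, (AG-F) (helper8): the final step of the abstract geometric theorem.

From the chart statements (AG-D), (AG-E) (idempotents of `Lam/π` lift to the finite chart `C1`, and
from `C1` to the chart at infinity `C2`), formal glueing + invariants (`Formal`), finiteness of
global sections (`GlobalSec`) and the S2 lemma, we get `ι` elements of `Fu`, integral over `A0` and
linearly independent over `K`.
-/
import Fermat.Agent.RedLib.Formal
import Fermat.Agent.RedLib.GlobalSec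
import Fermat.Agent.RedLib.S2Lemma

set_option autoImplicit false

namespace Fermat.Agent.RedLib.AGF

open Polynomial

section Helpers

variable {A E : Type*} [CommRing A] [CommRing E] [Algebra A E]

/-- Integrality over a subalgebra is monotone in the subalgebra. -/
theorem isIntegral_mono {S T : Subalgebra A E} (h : S ≤ T) {x : E} (hx : IsIntegral S x) :
    IsIntegral T x := by
  obtain ⟨p, hm, hp⟩ := hx
  refine ⟨p.map (Subalgebra.inclusion h).toRingHom, hm.map _, ?_⟩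
  rw [Polynomial.eval₂_map]
  exact hp

/-- An algebra endomorphism fixing a subalgebra pointwise preserves integrality over it. -/
theorem isIntegral_map_of_fix (S : Subalgebra A E) (f : E →+* E) (hf : ∀ s ∈ S, f s = s) {x : E}
    (hx : IsIntegral S x) : IsIntegral S (f x) := by
  obtain ⟨p, hm, hp⟩ := hx
  refine ⟨p, hm, ?_⟩
  have h1 : f.comp (algebraMap S E) = algebraMap S E := by
    ext s
    exact hf s s.2
  have h2 := Polynomial.hom_eval₂ p (algebraMap S E) f x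
  rw [hp, map_zero, h1] at h2
  exact h2.symm

/-- An element of a subalgebra is integral over it. -/
theorem isIntegral_of_mem (S : Subalgebra A E) {x : E} (hx : x ∈ S) : IsIntegral S x :=
  isIntegral_algebraMap (R := S) (A := E) (x := ⟨x, hx⟩)

/-- A ring endomorphism fixing the scalars and `x` fixes `A[x]` pointwise. -/
theorem fix_adjoin (f : E →+* E) (hA : ∀ a : A, f (algebraMap A E a) = algebraMap A E a)
    (s : Set E) (hs : ∀ x ∈ s, f x = x) : ∀ z ∈ Algebra.adjoin A s, f z = z := by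
  intro z hz
  induction hz using Algebra.adjoin_induction with
  | mem x hx => exact hs x hx
  | algebraMap r => exact hA r
  | add x y _ _ hx hy => rw [map_add, hx, hy]
  | mul x y _ _ hx hy => rw [map_mul, hx, hy]

/-- The ideal `π Lam` of a subalgebra. -/
def piIdeal (π : A) (Lam : Subalgebra A E) : Ideal Lam := Ideal.span {algebraMap A Lam π}

theorem mk_eq_zero_iff (π : A) (Lam : Subalgebra A E) (x : Lam) :
    Ideal.Quotient.mk (piIdeal π Lam) x = 0 ↔ ∃ l ∈ Lam, (x : E) = π • l := by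
  rw [Ideal.Quotient.eq_zero_iff_mem, piIdeal, Ideal.mem_span_singleton]
  constructor
  · rintro ⟨l, hl⟩
    refine ⟨l, l.2, ?_⟩
    rw [hl, Algebra.smul_def]
    rfl
  · rintro ⟨l, hl, h⟩
    refine ⟨⟨l, hl⟩, Subtype.ext ?_⟩
    rw [h, Algebra.smul_def]
    rfl

theorem mk_eq_mk_iff (π : A) (Lam : Subalgebra A E) (x y : Lam) :
    Ideal.Quotient.mk (piIdeal π Lam) x = Ideal.Quotient.mk (piIdeal π Lam) y ↔
      ∃ l ∈ Lam, (x : E) - y = π • l := by
  rw [← sub_eq_zero, ← map_sub, mk_eq_zero_iff]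
  rfl

end Helpers

section Sat

variable {A0 FF : Type*} [CommRing A0] [IsDomain A0] [IsIntegrallyClosed A0] [Field FF]
  [Algebra A0 FF]

/-- **S2 for a chart.**  If `Q(J) l` is integral over `A0[J]` for some `Q ∈ A0[X]` not divisible
by the prime `π`, and `π l` is integral over `A0[J]`, then `l` is integral over `A0[J]`. -/
theorem isIntegral_of_clear {π : A0} (hπ : Prime π) (J : FF) (hJ : Transcendental A0 J) {l : FF}
    (hQ : ∃ Q : A0[X], ¬ C π ∣ Q ∧ IsIntegral (Algebra.adjoin A0 {J}) (aeval J Q * l))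
    (hl : IsIntegral (Algebra.adjoin A0 {J}) (π • l)) : IsIntegral (Algebra.adjoin A0 {J}) l := by
  obtain ⟨Q, hQ, hQl⟩ := hQ
  set e := Polynomial.algEquivOfTranscendental A0 J hJ with he
  have : IsIntegrallyClosed (Algebra.adjoin A0 {J}) := IsIntegrallyClosed.of_equiv e.toRingEquiv
  have hprime : Prime (e (C π)) := (MulEquiv.prime_iff e).mpr (Polynomial.prime_C_iff.mpr hπ)
  have hndvd : ¬ e (C π) ∣ e Q := fun h => hQ ((map_dvd_iff e).mp h)
  have hcoe : ∀ P : A0[X], ((e P : Algebra.adjoin A0 {J}) : FF) = aeval J P := by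
    intro P
    rw [he, Polynomial.algEquivOfTranscendental_apply]
    exact (Polynomial.aeval_algebraMap_apply FF
      (⟨J, Algebra.self_mem_adjoin_singleton A0 J⟩ : Algebra.adjoin A0 {J}) P).symm
  have h1 : IsIntegral (Algebra.adjoin A0 {J}) (e Q • l) := by
    have : e Q • l = aeval J Q * l := by
      rw [Algebra.smul_def]
      congr 1
      exact hcoe Q
    rw [this]
    exact hQl
  have h2 : IsIntegral (Algebra.adjoin A0 {J}) (e (C π) • l) := by
    have : e (C π) • l = π • l := by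
      rw [Algebra.smul_def, Algebra.smul_def]
      congr 1
      have := hcoe (C π)
      rw [aeval_C] at this
      exact this
    rw [this]
    exact hl
  exact S2Lemma.isIntegral_of_smul_of_injective Subtype.val_injective hprime hndvd h1 h2

end Sat

section Fin

variable {A0 K FF : Type*} [CommRing A0] [IsDomain A0] [IsIntegrallyClosed A0]
  [IsNoetherianRing A0] [Field K] [Algebra A0 K] [IsFractionRing A0 K] [CharZero K]
  [Field FF] [Algebra A0 FF] [Algebra K FF] [IsScalarTower A0 K FF]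

omit [IsDomain A0] [IsIntegrallyClosed A0] [IsNoetherianRing A0] [CharZero K] in
/-- Transcendence over `K = Frac A0` implies transcendence over `A0`. -/
theorem transcendental_base (J : FF) (hJ : Transcendental K J) : Transcendental A0 J :=
  hJ.restrictScalars (IsFractionRing.injective A0 K)

omit [IsDomain A0] [IsIntegrallyClosed A0] [IsNoetherianRing A0] in
/-- Integrality over `A0[X]` acting through `aeval J` is integrality over `A0[J]`. -/
theorem isIntegralElem_iff (J : FF) (x : FF) :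
    (aeval J : A0[X] →ₐ[A0] FF).toRingHom.IsIntegralElem x ↔
      IsIntegral (Algebra.adjoin A0 {J}) x := by
  constructor
  · rintro ⟨p, hm, hp⟩
    let φ : A0[X] →+* Algebra.adjoin A0 {J} :=
      (aeval (⟨J, Algebra.self_mem_adjoin_singleton A0 J⟩ : Algebra.adjoin A0 {J})).toRingHom
    have hφ : (algebraMap (Algebra.adjoin A0 {J}) FF).comp φ =
        (aeval J : A0[X] →ₐ[A0] FF).toRingHom := by
      ext P
      · simp [φ]
      · simp [φ]
    refine ⟨p.map φ, hm.map _, ?_⟩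
    rw [Polynomial.eval₂_map, hφ]
    exact hp
  · rintro ⟨p, hm, hp⟩
    have hsurj : ∀ a : Algebra.adjoin A0 {J}, ∃ P : A0[X], aeval J P = (a : FF) := by
      intro a
      have ha : (a : FF) ∈ (Polynomial.aeval J : A0[X] →ₐ[A0] FF).range := by
        rw [← Algebra.adjoin_singleton_eq_range_aeval]
        exact a.2
      exact ha
    have hlift : p.map (algebraMap (Algebra.adjoin A0 {J}) FF) ∈
        Polynomial.lifts (aeval J : A0[X] →ₐ[A0] FF).toRingHom := by
      rw [Polynomial.lifts_iff_coeff_lifts]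
      intro n
      rw [Polynomial.coeff_map]
      obtain ⟨P, hP⟩ := hsurj (p.coeff n)
      exact ⟨P, hP⟩
    obtain ⟨q, hq, -, hqm⟩ := Polynomial.lifts_and_natDegree_eq_and_monic hlift (hm.map _)
    refine ⟨q, hqm, ?_⟩
    rw [← Polynomial.eval_map, hq, Polynomial.eval_map]
    exact hp

/-- The integral closure of `A0[J]` in `FF` is a finite `A0[J]`-module, in the form needed by
the chart lemmas. -/
theorem exists_finset_chart (J : FF) (hJ : Transcendental K J)
    [FiniteDimensional (IntermediateField.adjoin K {J}) FF] :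
    ∃ c : Finset FF, (∀ i ∈ c, IsIntegral (Algebra.adjoin A0 {J}) i) ∧
      ∀ x, IsIntegral (Algebra.adjoin A0 {J}) x →
        ∃ p : FF → A0[X], x = ∑ i ∈ c, aeval J (p i) * i := by
  classical
  have hJ0 : Transcendental A0 J := transcendental_base J hJ
  let alg : Algebra A0[X] FF := (aeval J : A0[X] →ₐ[A0] FF).toRingHom.toAlgebra
  have halg : ∀ p : A0[X], algebraMap A0[X] FF p = aeval J p := fun p => rfl
  have hinj : Function.Injective (algebraMap A0[X] FF) := transcendental_iff_injective.mp hJ0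
  have : FaithfulSMul A0[X] FF := (faithfulSMul_iff_algebraMap_injective _ _).mpr hinj
  let : Algebra (FractionRing A0[X]) FF := FractionRing.liftAlgebra A0[X] FF
  have : IsScalarTower A0[X] (FractionRing A0[X]) FF :=
    FractionRing.isScalarTower_liftAlgebra A0[X] FF
  have : CharZero FF := charZero_of_injective_algebraMap (algebraMap K FF).injective
  have : CharZero (FractionRing A0[X]) := (algebraMap (FractionRing A0[X]) FF).charZero
  -- finiteness of `FF` over the fraction field of `A0[X]`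
  have : FiniteDimensional (FractionRing A0[X]) FF := by
    set S : Subfield FF := (algebraMap (FractionRing A0[X]) FF).fieldRange with hS
    have hK : ∀ x : K, algebraMap K FF x ∈ S := by
      intro x
      obtain ⟨a, b, -, rfl⟩ := IsFractionRing.div_surjective (A := A0) x
      refine ⟨algebraMap A0[X] (FractionRing A0[X]) (C a) /
        algebraMap A0[X] (FractionRing A0[X]) (C b), ?_⟩
      rw [map_div₀, ← IsScalarTower.algebraMap_apply A0[X] (FractionRing A0[X]) FF,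
        ← IsScalarTower.algebraMap_apply A0[X] (FractionRing A0[X]) FF, halg, halg, aeval_C,
        aeval_C, map_div₀, ← IsScalarTower.algebraMap_apply A0 K FF,
        ← IsScalarTower.algebraMap_apply A0 K FF]
    have hJS : J ∈ S := ⟨algebraMap A0[X] (FractionRing A0[X]) X, by
      rw [← IsScalarTower.algebraMap_apply A0[X] (FractionRing A0[X]) FF, halg, aeval_X]⟩
    have hle : IntermediateField.adjoin K {J} ≤ S.toIntermediateField hK := by
      rw [IntermediateField.adjoin_simple_le_iff]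
      exact hJS
    obtain ⟨s, hs⟩ := (Module.finite_def (R := IntermediateField.adjoin K {J}) (M := FF)).mp
      inferInstance
    refine Module.finite_def.mpr ⟨s, ?_⟩
    rw [eq_top_iff]
    rintro x -
    have hx : x ∈ Submodule.span (IntermediateField.adjoin K {J}) (s : Set FF) := by
      rw [hs]; trivial
    induction hx using Submodule.span_induction with
    | mem y hy => exact Submodule.subset_span hy
    | zero => exact Submodule.zero_mem _
    | add y z _ _ hy hz => exact Submodule.add_mem _ hy hz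
    | smul c y _ hy =>
      obtain ⟨c', hc'⟩ : (c : FF) ∈ S := hle c.2
      have : c • y = c' • y := by
        rw [Algebra.smul_def c' y, hc']
        rfl
      rw [this]
      exact Submodule.smul_mem _ _ hy
  have hfin : Module.Finite A0[X] (integralClosure A0[X] FF) :=
    IsIntegralClosure.finite A0[X] (FractionRing A0[X]) FF _
  have hfg : (Subalgebra.toSubmodule (integralClosure A0[X] FF)).FG :=
    (Module.Finite.iff_fg).mp hfin
  obtain ⟨c, hc⟩ := hfg
  have hmem : ∀ x : FF, x ∈ integralClosure A0[X] FF ↔ IsIntegral (Algebra.adjoin A0 {J}) x :=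
    fun x => isIntegralElem_iff J x
  refine ⟨c, fun i hi => (hmem i).mp ?_, fun x hx => ?_⟩
  · have : i ∈ Submodule.span A0[X] (c : Set FF) := Submodule.subset_span hi
    rw [hc] at this
    exact this
  · have hx' : x ∈ Submodule.span A0[X] (c : Set FF) := by
      rw [hc]
      exact (hmem x).mpr hx
    obtain ⟨f, hf⟩ := Submodule.mem_span_finset'.mp hx'
    refine ⟨fun i => if h : i ∈ c then f ⟨i, h⟩ else 0, ?_⟩
    rw [← hf, ← Finset.sum_attach c (fun i => aeval J (if h : i ∈ c then f ⟨i, h⟩ else 0) * i)]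
    refine Finset.sum_congr rfl fun i _ => ?_
    rw [dif_pos i.2, Algebra.smul_def, halg]

end Fin

section Core

variable {A0 K Fu FF : Type*} [CommRing A0] [IsDomain A0] [IsDiscreteValuationRing A0]
  [Field K] [Algebra A0 K] [IsFractionRing A0 K]
  [Field Fu] [Field FF] [Algebra K Fu] [Algebra K FF] [Algebra Fu FF] [IsScalarTower K Fu FF]
  [Algebra A0 FF] [IsScalarTower A0 K FF] [FiniteDimensional Fu FF] [IsGalois Fu FF]

/-- A Galois automorphism of `FF/Fu` as an `A0`-algebra endomorphism. -/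
noncomputable def sigmaA (g : FF ≃ₐ[Fu] FF) : FF →ₐ[A0] FF :=
  { (g : FF →+* FF) with
    commutes' := fun a => by
      have h : algebraMap A0 FF a = algebraMap Fu FF (algebraMap K Fu (algebraMap A0 K a)) := by
        rw [← IsScalarTower.algebraMap_apply K Fu FF, ← IsScalarTower.algebraMap_apply A0 K FF]
      show g (algebraMap A0 FF a) = algebraMap A0 FF a
      rw [h]
      exact g.commutes _ }

omit [IsDomain A0] [IsDiscreteValuationRing A0] [IsFractionRing A0 K] [FiniteDimensional Fu FF]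
  [IsGalois Fu FF] in
@[simp] theorem sigmaA_apply (g : FF ≃ₐ[Fu] FF) (x : FF) : sigmaA (A0 := A0) (K := K) g x = g x :=
  rfl

/-- (AG-F), core: all ring-theoretic inputs as hypotheses. -/
theorem agf_core {π : A0} (hπ : Irreducible π) (J : FF) (hJ0 : J ≠ 0)
    (Lam C1 C2 C12 : Subalgebra A0 FF)
    (hJ1 : J ∈ C1) (hJ2 : J⁻¹ ∈ C2) (h1le : C1 ≤ C12) (h2le : C2 ≤ C12)
    (hloc1 : ∀ w ∈ C12, ∃ m : ℕ, J ^ m * w ∈ C1)
    (hloc2 : ∀ w ∈ C12, ∃ m : ℕ, J⁻¹ ^ m * w ∈ C2)
    (hfin1 : ∃ c : Finset FF, (∀ i ∈ c, i ∈ C1) ∧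
      ∀ x ∈ C1, ∃ p : FF → A0[X], x = ∑ i ∈ c, aeval J (p i) * i)
    (hR : (Subalgebra.toSubmodule (C1 ⊓ C2)).FG)
    (hRint : ∀ x ∈ C1 ⊓ C2, IsIntegral A0 x)
    (hσ1 : ∀ σ : FF ≃ₐ[Fu] FF, ∀ x ∈ C1, σ x ∈ C1)
    (hσ2 : ∀ σ : FF ≃ₐ[Fu] FF, ∀ x ∈ C2, σ x ∈ C2)
    (hC1Lam : C1 ≤ Lam)
    (hsat1 : ∀ l ∈ Lam, π • l ∈ C1 → l ∈ C1)
    (hsat2 : ∀ l ∈ Lam, π • l ∈ C2 → l ∈ C2)
    (hsat12 : ∀ l ∈ Lam, π • l ∈ C12 → l ∈ C12)
    (hLamσ : ∀ σ : FF ≃ₐ[Fu] FF, ∀ l ∈ Lam, σ l ∈ Lam)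
    (hD : ∀ e ∈ Lam, (∃ l ∈ Lam, e * e - e = π • l) → ∃ c ∈ C1, ∃ l ∈ Lam, c - e = π • l)
    (hE : ∀ c1 ∈ C1, (∃ l ∈ Lam, c1 * c1 - c1 = π • l) → ∃ c2 ∈ C2, ∃ l ∈ Lam, c2 - c1 = π • l)
    {ι : Type*} (E : ι → Fu)
    (hEmem : ∀ i, algebraMap Fu FF (E i) ∈ Lam)
    (hEid : ∀ i, ∃ l ∈ Lam,
      algebraMap Fu FF (E i) * algebraMap Fu FF (E i) - algebraMap Fu FF (E i) = π • l)
    (hEorth : ∀ i j, i ≠ j → ∃ l ∈ Lam, algebraMap Fu FF (E i) * algebraMap Fu FF (E j) = π • l)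
    (hEne : ∀ i, ¬ ∃ l ∈ Lam, algebraMap Fu FF (E i) = π • l) :
    ∃ y : ι → Fu, LinearIndependent K y ∧ (∀ i, IsIntegral A0 (algebraMap Fu FF (y i))) ∧
      ∀ i, IsAlgebraic K (y i) := by
  classical
  -- notation for the quotient `Lam / π Lam`
  set q := Ideal.Quotient.mk (piIdeal π Lam) with hq
  -- step 1: for each `i` a global invariant section congruent to `E i`
  have step : ∀ i, ∃ y : Fu, algebraMap Fu FF y ∈ C1 ∧ algebraMap Fu FF y ∈ C2 ∧
      ∃ l ∈ Lam, algebraMap Fu FF y - algebraMap Fu FF (E i) = π • l := by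
    intro i
    set e := algebraMap Fu FF (E i) with he
    obtain ⟨c1, hc1, l, hl, hcl⟩ := hD e (hEmem i) (hEid i)
    have hc1L : c1 ∈ Lam := hC1Lam hc1
    -- `c1` is idempotent modulo `π Lam`
    have hqc1 : q ⟨c1, hc1L⟩ = q ⟨e, hEmem i⟩ := (mk_eq_mk_iff π Lam _ _).mpr ⟨l, hl, hcl⟩
    have hqe : q ⟨e, hEmem i⟩ * q ⟨e, hEmem i⟩ = q ⟨e, hEmem i⟩ := by
      rw [← map_mul, ← sub_eq_zero, ← map_sub, hq, mk_eq_zero_iff]
      exact hEid i
    have hc1id : ∃ m ∈ Lam, c1 * c1 - c1 = π • m := by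
      have : q (⟨c1, hc1L⟩ * ⟨c1, hc1L⟩ - ⟨c1, hc1L⟩) = 0 := by
        rw [map_sub, map_mul, hqc1, hqe, sub_self]
      exact (mk_eq_zero_iff π Lam _).mp this
    obtain ⟨c2, hc2, l', hl', hcl'⟩ := hE c1 hc1 hc1id
    have hc2L : c2 ∈ Lam := by
      have : c2 = c1 + π • l' := by rw [← hcl']; ring
      rw [this]
      exact Lam.add_mem hc1L (Lam.smul_mem hl' π)
    have hqc2 : q ⟨c2, hc2L⟩ = q ⟨c1, hc1L⟩ := (mk_eq_mk_iff π Lam _ _).mpr ⟨l', hl', hcl'⟩
    have hc2id : ∃ m ∈ Lam, c2 * c2 - c2 = π • m := by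
      have : q (⟨c2, hc2L⟩ * ⟨c2, hc2L⟩ - ⟨c2, hc2L⟩) = 0 := by
        rw [map_sub, map_mul, hqc2, hqc1, hqe, sub_self]
      exact (mk_eq_zero_iff π Lam _).mp this
    have hid1 : ∃ c ∈ C1, c1 * c1 - c1 = π • c := by
      obtain ⟨m, hm, hme⟩ := hc1id
      exact ⟨m, hsat1 m hm (hme ▸ C1.sub_mem (C1.mul_mem hc1 hc1) hc1), hme⟩
    have hid2 : ∃ c ∈ C2, c2 * c2 - c2 = π • c := by
      obtain ⟨m, hm, hme⟩ := hc2id
      exact ⟨m, hsat2 m hm (hme ▸ C2.sub_mem (C2.mul_mem hc2 hc2) hc2), hme⟩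
    have h12 : ∃ w ∈ C12, c1 - c2 = π • w := by
      have h : c1 - c2 = π • (-l') := by rw [smul_neg, ← hcl', neg_sub]
      exact ⟨-l', hsat12 _ (Lam.neg_mem hl') (h ▸ C12.sub_mem (h1le hc1) (h2le hc2)), h⟩
    have hinv : ∀ g : FF ≃ₐ[Fu] FF, ∃ c ∈ C1, sigmaA (A0 := A0) (K := K) g c1 - c1 = π • c := by
      intro g
      have hc1e : c1 = e + π • l := by rw [← hcl]; ring
      have h : sigmaA (A0 := A0) (K := K) g c1 - c1 = π • (g l - l) := by
        have hge : g e = e := g.commutes _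
        have h1 : sigmaA (A0 := A0) (K := K) g c1 = e + π • g l := by
          rw [hc1e, map_add, map_smul, sigmaA_apply, sigmaA_apply, hge]
        rw [h1, hc1e, smul_sub]
        ring
      refine ⟨g l - l, hsat1 _ (Lam.sub_mem (hLamσ g l hl) hl) ?_, h⟩
      rw [← h, sigmaA_apply]
      exact C1.sub_mem (hσ1 g c1 hc1) hc1
    have hsat : ∀ c ∈ C1, π • c ∈ C2 → c ∈ C2 := fun c hc h => hsat2 c (hC1Lam hc) h
    obtain ⟨y, hy1, hy2, hfix, ⟨c, hc, hyc⟩, -⟩ :=
      Formal.exists_invariant_glue (A := A0) (E := FF) π C1 C2 C12 (mul_inv_cancel₀ hJ0) hJ1 hJ2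
        h1le h2le hloc1 hloc2 hfin1 hR hsat (sigmaA (A0 := A0) (K := K))
        (fun g x hx => hσ1 g x hx) (fun g x hx => hσ2 g x hx) hc1 hc2 hid1 hid2 h12 hinv
    have hyrange : y ∈ Set.range (algebraMap Fu FF) :=
      (IsGalois.mem_range_algebraMap_iff_fixed y).mpr fun g => hfix g
    obtain ⟨y', rfl⟩ := hyrange
    refine ⟨y', hy1, hy2, c + l, Lam.add_mem (hC1Lam hc) hl, ?_⟩
    rw [smul_add, ← hyc, ← hcl]
    ring
  choose Y hY1 hY2 hYc using step
  have hYL : ∀ i, algebraMap Fu FF (Y i) ∈ Lam := fun i => hC1Lam (hY1 i)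
  have hqY : ∀ i, q ⟨algebraMap Fu FF (Y i), hYL i⟩ = q ⟨algebraMap Fu FF (E i), hEmem i⟩ :=
    fun i => (mk_eq_mk_iff π Lam _ _).mpr (hYc i)
  have hint : ∀ i, IsIntegral A0 (algebraMap Fu FF (Y i)) := fun i =>
    hRint _ ⟨hY1 i, hY2 i⟩
  refine ⟨Y, ?_, hint, fun i => ?_⟩
  · have hli : LinearIndependent K (fun i => algebraMap Fu FF (Y i)) := by
      refine Formal.linearIndependent_of_idem_mod hπ Lam _ ?_ ?_ ?_
      · intro i j hij
        have : q (⟨algebraMap Fu FF (Y i), hYL i⟩ * ⟨algebraMap Fu FF (Y j), hYL j⟩) = 0 := by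
          rw [map_mul, hqY, hqY, ← map_mul, hq, mk_eq_zero_iff]
          exact hEorth i j hij
        exact (mk_eq_zero_iff π Lam _).mp this
      · intro i
        have : q (⟨algebraMap Fu FF (Y i), hYL i⟩ * ⟨algebraMap Fu FF (Y i), hYL i⟩ -
            ⟨algebraMap Fu FF (Y i), hYL i⟩) = 0 := by
          rw [map_sub, map_mul, hqY, ← map_mul, ← map_sub, hq, mk_eq_zero_iff]
          exact hEid i
        exact (mk_eq_zero_iff π Lam _).mp this
      · intro i h
        apply hEne i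
        have : q ⟨algebraMap Fu FF (Y i), hYL i⟩ = 0 := (mk_eq_zero_iff π Lam _).mpr h
        rw [hqY] at this
        exact (mk_eq_zero_iff π Lam _).mp this
    exact LinearIndependent.of_comp (IsScalarTower.toAlgHom K Fu FF).toLinearMap hli
  · have h1 : IsIntegral K (algebraMap Fu FF (Y i)) := (hint i).tower_top
    exact (isAlgebraic_algebraMap_iff (algebraMap Fu FF).injective).mp h1.isAlgebraic

end Core

section Main

variable {A0 K Fu FF : Type*} [CommRing A0] [IsDomain A0] [IsDiscreteValuationRing A0]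
  [Field K] [Algebra A0 K] [IsFractionRing A0 K] [CharZero K]
  [Field Fu] [Field FF] [Algebra K Fu] [Algebra K FF] [Algebra Fu FF] [IsScalarTower K Fu FF]
  [Algebra A0 FF] [IsScalarTower A0 K FF] [FiniteDimensional Fu FF] [IsGalois Fu FF]

/-- **(AG-F), abstract family version.**  `C1`, `C2`, `C12` are the integral closures of
`A0[J]`, `A0[J⁻¹]`, `A0[J, J⁻¹]` in `FF` (`J` the image of `jj : Fu`), `Lam` is a Galois-stable
subalgebra containing `C1` all of whose elements become integral over `A0[J]` (resp. `A0[J⁻¹]`)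
after multiplication by some `Q(J)` (resp. `Q(J⁻¹)`) with `Q ∈ A0[X]` not divisible by `π`
(the Gauss ring).  Given the chart statements `hD`, `hE` and a family `E i ∈ Fu` of orthogonal
idempotents modulo `π Lam`, nonzero modulo `π Lam`, there are `y i ∈ Fu`, integral over `A0` and
linearly independent over `K`. -/
theorem agf {π : A0} (hπ : Irreducible π) (jj : Fu)
    (hjj : Transcendental K (algebraMap Fu FF jj))
    [FiniteDimensional (IntermediateField.adjoin K {algebraMap Fu FF jj}) FF]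
    (Lam C1 C2 C12 : Subalgebra A0 FF)
    (hC1 : ∀ x, x ∈ C1 ↔ IsIntegral (Algebra.adjoin A0 {algebraMap Fu FF jj}) x)
    (hC2 : ∀ x, x ∈ C2 ↔ IsIntegral (Algebra.adjoin A0 {(algebraMap Fu FF jj)⁻¹}) x)
    (hC12 : ∀ x, x ∈ C12 ↔
      IsIntegral (Algebra.adjoin A0 {algebraMap Fu FF jj, (algebraMap Fu FF jj)⁻¹}) x)
    (hLamInt : ∀ x, IsIntegral (Algebra.adjoin A0 {algebraMap Fu FF jj}) x → x ∈ Lam)
    (hLam1 : ∀ l ∈ Lam, ∃ Q : A0[X], ¬ C π ∣ Q ∧
      IsIntegral (Algebra.adjoin A0 {algebraMap Fu FF jj}) (aeval (algebraMap Fu FF jj) Q * l))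
    (hLam2 : ∀ l ∈ Lam, ∃ Q : A0[X], ¬ C π ∣ Q ∧
      IsIntegral (Algebra.adjoin A0 {(algebraMap Fu FF jj)⁻¹})
        (aeval (algebraMap Fu FF jj)⁻¹ Q * l))
    (hLamσ : ∀ σ : FF ≃ₐ[Fu] FF, ∀ l ∈ Lam, σ l ∈ Lam)
    (hD : ∀ e ∈ Lam, (∃ l ∈ Lam, e * e - e = π • l) → ∃ c ∈ C1, ∃ l ∈ Lam, c - e = π • l)
    (hE : ∀ c1 ∈ C1, (∃ l ∈ Lam, c1 * c1 - c1 = π • l) → ∃ c2 ∈ C2, ∃ l ∈ Lam, c2 - c1 = π • l)
    {ι : Type*} (E : ι → Fu)
    (hEmem : ∀ i, algebraMap Fu FF (E i) ∈ Lam)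
    (hEid : ∀ i, ∃ l ∈ Lam,
      algebraMap Fu FF (E i) * algebraMap Fu FF (E i) - algebraMap Fu FF (E i) = π • l)
    (hEorth : ∀ i j, i ≠ j → ∃ l ∈ Lam, algebraMap Fu FF (E i) * algebraMap Fu FF (E j) = π • l)
    (hEne : ∀ i, ¬ ∃ l ∈ Lam, algebraMap Fu FF (E i) = π • l) :
    ∃ y : ι → Fu, LinearIndependent K y ∧ (∀ i, IsIntegral A0 (algebraMap Fu FF (y i))) ∧
      ∀ i, IsAlgebraic K (y i) := by
  set J := algebraMap Fu FF jj with hJdef
  have hJ0 : J ≠ 0 := by
    rintro h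
    exact hjj (h ▸ isAlgebraic_zero)
  have hJA : Transcendental A0 J := transcendental_base J hjj
  have hJinvK : Transcendental K J⁻¹ := fun h => hjj (by simpa using h.inv)
  have hJinvA : Transcendental A0 J⁻¹ := transcendental_base _ hJinvK
  have hπp : Prime π := hπ.prime
  have hJ1 : J ∈ C1 := (hC1 J).mpr (isIntegral_of_mem _ (Algebra.self_mem_adjoin_singleton A0 J))
  have hJ2 : J⁻¹ ∈ C2 :=
    (hC2 _).mpr (isIntegral_of_mem _ (Algebra.self_mem_adjoin_singleton A0 J⁻¹))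
  have hle1 : Algebra.adjoin A0 {J} ≤ Algebra.adjoin A0 {J, J⁻¹} :=
    Algebra.adjoin_mono (by intro x hx; exact Or.inl hx)
  have hle2 : Algebra.adjoin A0 {J⁻¹} ≤ Algebra.adjoin A0 {J, J⁻¹} :=
    Algebra.adjoin_mono (by intro x hx; exact Or.inr hx)
  have h1le : C1 ≤ C12 := fun x hx => (hC12 x).mpr (isIntegral_mono hle1 ((hC1 x).mp hx))
  have h2le : C2 ≤ C12 := fun x hx => (hC12 x).mpr (isIntegral_mono hle2 ((hC2 x).mp hx))
  have hloc1 : ∀ w ∈ C12, ∃ m : ℕ, J ^ m * w ∈ C1 := by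
    intro w hw
    obtain ⟨m, hm⟩ := Formal.exists_pow_mul_isIntegral (A := A0) (mul_inv_cancel₀ hJ0) w
      ((hC12 w).mp hw)
    exact ⟨m, (hC1 _).mpr hm⟩
  have hloc2 : ∀ w ∈ C12, ∃ m : ℕ, J⁻¹ ^ m * w ∈ C2 := by
    intro w hw
    have hw' : IsIntegral (Algebra.adjoin A0 ({J⁻¹, J} : Set FF)) w := by
      rw [Set.pair_comm]
      exact (hC12 w).mp hw
    obtain ⟨m, hm⟩ := Formal.exists_pow_mul_isIntegral (A := A0) (inv_mul_cancel₀ hJ0) w hw'
    exact ⟨m, (hC2 _).mpr hm⟩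
  have hfin1 : ∃ c : Finset FF, (∀ i ∈ c, i ∈ C1) ∧
      ∀ x ∈ C1, ∃ p : FF → A0[X], x = ∑ i ∈ c, aeval J (p i) * i := by
    obtain ⟨c, hc, hx⟩ := exists_finset_chart (A0 := A0) (K := K) J hjj
    exact ⟨c, fun i hi => (hC1 i).mpr (hc i hi), fun x hx' => hx x ((hC1 x).mp hx')⟩
  have hR : (Subalgebra.toSubmodule (C1 ⊓ C2)).FG :=
    GlobalSec.fg_inf_charts (A0 := A0) (K := K) J hjj C1 C2 (fun x hx => (hC1 x).mp hx)
      (fun x hx => (hC2 x).mp hx)
  have hRint : ∀ x ∈ C1 ⊓ C2, IsIntegral A0 x := fun x hx =>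
    GlobalSec.isIntegral_of_two_charts J x ((hC1 x).mp hx.1) ((hC2 x).mp hx.2)
  have hσfix : ∀ (σ : FF ≃ₐ[Fu] FF) (s : Set FF), (∀ x ∈ s, σ x = x) →
      ∀ z ∈ Algebra.adjoin A0 s, (σ : FF →+* FF) z = z := fun σ s hs =>
    fix_adjoin (σ : FF →+* FF) (fun a => (sigmaA (A0 := A0) (K := K) σ).commutes a) s hs
  have hσJ : ∀ σ : FF ≃ₐ[Fu] FF, σ J = J := fun σ => σ.commutes jj
  have hσJinv : ∀ σ : FF ≃ₐ[Fu] FF, σ J⁻¹ = J⁻¹ := by
    intro σ
    rw [map_inv₀, hσJ]
  have hσ1 : ∀ σ : FF ≃ₐ[Fu] FF, ∀ x ∈ C1, σ x ∈ C1 := fun σ x hx =>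
    (hC1 _).mpr (isIntegral_map_of_fix _ (σ : FF →+* FF)
      (hσfix σ {J} (by rintro x rfl; exact hσJ σ)) ((hC1 x).mp hx))
  have hσ2 : ∀ σ : FF ≃ₐ[Fu] FF, ∀ x ∈ C2, σ x ∈ C2 := fun σ x hx =>
    (hC2 _).mpr (isIntegral_map_of_fix _ (σ : FF →+* FF)
      (hσfix σ {J⁻¹} (by rintro x rfl; exact hσJinv σ)) ((hC2 x).mp hx))
  have hC1Lam : C1 ≤ Lam := fun x hx => hLamInt x ((hC1 x).mp hx)
  have hsat1 : ∀ l ∈ Lam, π • l ∈ C1 → l ∈ C1 := fun l hl h =>
    (hC1 l).mpr (isIntegral_of_clear hπp J hJA (hLam1 l hl) ((hC1 _).mp h))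
  have hsat2 : ∀ l ∈ Lam, π • l ∈ C2 → l ∈ C2 := fun l hl h =>
    (hC2 l).mpr (isIntegral_of_clear hπp J⁻¹ hJinvA (hLam2 l hl) ((hC2 _).mp h))
  have hsat12 : ∀ l ∈ Lam, π • l ∈ C12 → l ∈ C12 := by
    intro l hl h
    obtain ⟨m, hm⟩ := hloc1 _ h
    have hJL : J ∈ Lam := hC1Lam hJ1
    have h1 : J ^ m * l ∈ C1 :=
      hsat1 _ (Lam.mul_mem (Lam.pow_mem hJL m) hl) (by rw [← mul_smul_comm]; exact hm)
    have h2 : l = J⁻¹ ^ m * (J ^ m * l) := by
      rw [← mul_assoc, ← mul_pow, inv_mul_cancel₀ hJ0, one_pow, one_mul]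
    rw [h2]
    exact C12.mul_mem (C12.pow_mem (h2le hJ2) m) (h1le h1)
  exact agf_core hπ J hJ0 Lam C1 C2 C12 hJ1 hJ2 h1le h2le hloc1 hloc2 hfin1 hR hRint hσ1 hσ2
    hC1Lam hsat1 hsat2 hsat12 hLamσ hD hE E hEmem hEid hEorth hEne

end Main

end Fermat.Agent.RedLib.AGF
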