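/-
S18 long shot, FSTEP (helper8) = piece (1) of the AG interface (helper6): from lifts of the
idempotents `e i` of `Lam/π` to the two charts of the `tt`-line (integral closures of `A0[tt]`,
`A0[tt⁻¹]`), produce elements of `Fu`, integral over `A0` and linearly independent over `K`.

Two applications of `Formal.exists_invariant_glue`: first on the two charts without group action
(global section `y0 ∈ R := C1 ⊓ C2`), then inside `R` with the Galois group of `FF/Fu`.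
-/
import Fermat.Agent.RedLib.AGF
import Fermat.Agent.RedLib.AGDefs

set_option autoImplicit false

namespace Fermat.Agent.RedLib.FStep

open Polynomial Fermat.Agent.RedLib.AGF Fermat.Agent.RedLib.AGDefs

section Core

variable {A0 K Fu FF : Type*} [CommRing A0] [IsDomain A0] [IsDiscreteValuationRing A0]
  [Field K] [Algebra A0 K] [IsFractionRing A0 K]
  [Field Fu] [Field FF] [Algebra K Fu] [Algebra K FF] [Algebra Fu FF] [IsScalarTower K Fu FF]
  [Algebra A0 FF] [IsScalarTower A0 K FF] [FiniteDimensional Fu FF] [IsGalois Fu FF]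

/-- **FSTEP, core.**  Two charts `C1`, `C2` (not necessarily Galois stable) with
`C1 ⊓ C2` = the integral closure of `A0`, a Galois-stable lattice `Lam ⊇ C1` in which the charts
are `π`-saturated, and a family of orthogonal idempotents mod `π Lam` coming from `Fu` which
lifts to both charts: then there are global Galois-invariant lifts. -/
theorem fstep_core {π : A0} (hπ : Irreducible π) (J : FF) (hJ0 : J ≠ 0)
    (Lam C1 C2 C12 : Subalgebra A0 FF)
    (hJ1 : J ∈ C1) (hJ2 : J⁻¹ ∈ C2) (h1le : C1 ≤ C12) (h2le : C2 ≤ C12)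
    (hloc1 : ∀ w ∈ C12, ∃ m : ℕ, J ^ m * w ∈ C1)
    (hloc2 : ∀ w ∈ C12, ∃ m : ℕ, J⁻¹ ^ m * w ∈ C2)
    (hfin1 : ∃ c : Finset FF, (∀ i ∈ c, i ∈ C1) ∧
      ∀ x ∈ C1, ∃ p : FF → A0[X], x = ∑ i ∈ c, aeval J (p i) * i)
    (hR : (Subalgebra.toSubmodule (C1 ⊓ C2)).FG)
    (hRint : ∀ x ∈ C1 ⊓ C2, IsIntegral A0 x)
    (hint1 : ∀ x, IsIntegral A0 x → x ∈ C1) (hint2 : ∀ x, IsIntegral A0 x → x ∈ C2)
    (hC1Lam : C1 ≤ Lam)
    (hsat1 : ∀ l ∈ Lam, π • l ∈ C1 → l ∈ C1)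
    (hsat2 : ∀ l ∈ Lam, π • l ∈ C2 → l ∈ C2)
    (hsat12 : ∀ l ∈ Lam, π • l ∈ C12 → l ∈ C12)
    (hLamσ : ∀ σ : FF ≃ₐ[Fu] FF, ∀ l ∈ Lam, σ l ∈ Lam)
    {ι : Type*} (E : ι → Fu)
    (hEmem : ∀ i, algebraMap Fu FF (E i) ∈ Lam)
    (hEid : ∀ i, ∃ l ∈ Lam,
      algebraMap Fu FF (E i) * algebraMap Fu FF (E i) - algebraMap Fu FF (E i) = π • l)
    (hEorth : ∀ i j, i ≠ j → ∃ l ∈ Lam, algebraMap Fu FF (E i) * algebraMap Fu FF (E j) = π • l)
    (hEne : ∀ i, ¬ ∃ l ∈ Lam, algebraMap Fu FF (E i) = π • l)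
    (h1 : ∀ i, ∃ c ∈ C1, ∃ z ∈ Lam, c - algebraMap Fu FF (E i) = π • z)
    (h2 : ∀ i, ∃ c ∈ C2, ∃ z ∈ Lam, c - algebraMap Fu FF (E i) = π • z) :
    ∃ y : ι → Fu, LinearIndependent K y ∧ (∀ i, IsIntegral A0 (algebraMap Fu FF (y i))) ∧
      ∀ i, IsAlgebraic K (y i) := by
  classical
  set q := Ideal.Quotient.mk (piIdeal π Lam) with hq
  set R : Subalgebra A0 FF := C1 ⊓ C2 with hRdef
  have hRLam : R ≤ Lam := fun x hx => hC1Lam hx.1
  have hsatR : ∀ l ∈ Lam, π • l ∈ R → l ∈ R := fun l hl h => ⟨hsat1 l hl h.1, hsat2 l hl h.2⟩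
  have hσR : ∀ σ : FF ≃ₐ[Fu] FF, ∀ x ∈ R, sigmaA (A0 := A0) (K := K) σ x ∈ R := by
    intro σ x hx
    have hx' : IsIntegral A0 (sigmaA (A0 := A0) (K := K) σ x) := (hRint x hx).map _
    exact ⟨hint1 _ hx', hint2 _ hx'⟩
  have hfinR : ∃ c : Finset FF, (∀ i ∈ c, i ∈ R) ∧
      ∀ x ∈ R, ∃ p : FF → A0[X], x = ∑ i ∈ c, aeval (1 : FF) (p i) * i := by
    obtain ⟨s, hs⟩ := hR
    refine ⟨s, fun i hi => ?_, fun x hx => ?_⟩
    · have : i ∈ Submodule.span A0 (s : Set FF) := Submodule.subset_span hi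
      rw [hs] at this
      exact this
    · have hx' : x ∈ Submodule.span A0 (s : Set FF) := by
        rw [hs]
        exact hx
      obtain ⟨f, hf⟩ := Submodule.mem_span_finset'.mp hx'
      refine ⟨fun i => if h : i ∈ s then C (f ⟨i, h⟩) else 0, ?_⟩
      rw [← hf, ← Finset.sum_attach s
        (fun i => aeval (1 : FF) (if h : i ∈ s then C (f ⟨i, h⟩) else 0) * i)]
      refine Finset.sum_congr rfl fun i _ => ?_
      rw [dif_pos i.2, aeval_C, Algebra.smul_def]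
  have step : ∀ i, ∃ y : Fu, algebraMap Fu FF y ∈ R ∧
      ∃ l ∈ Lam, algebraMap Fu FF y - algebraMap Fu FF (E i) = π • l := by
    intro i
    set e := algebraMap Fu FF (E i) with he
    obtain ⟨c1, hc1, l1, hl1, hcl1⟩ := h1 i
    obtain ⟨c2, hc2, l2, hl2, hcl2⟩ := h2 i
    have hqe : q ⟨e, hEmem i⟩ * q ⟨e, hEmem i⟩ = q ⟨e, hEmem i⟩ := by
      rw [← map_mul, ← sub_eq_zero, ← map_sub, hq, mk_eq_zero_iff]
      exact hEid i
    -- a general principle: elements congruent to `e` are idempotent modulo `π Lam`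
    have hidem : ∀ c : FF, (∃ l ∈ Lam, c - e = π • l) → ∃ m ∈ Lam, c * c - c = π • m := by
      rintro c ⟨l, hl, hcl⟩
      have hcL : c ∈ Lam := by
        have : c = e + π • l := by rw [← hcl]; ring
        rw [this]
        exact Lam.add_mem (hEmem i) (Lam.smul_mem hl π)
      have hqc : q ⟨c, hcL⟩ = q ⟨e, hEmem i⟩ := (mk_eq_mk_iff π Lam _ _).mpr ⟨l, hl, hcl⟩
      have : q (⟨c, hcL⟩ * ⟨c, hcL⟩ - ⟨c, hcL⟩) = 0 := by
        rw [map_sub, map_mul, hqc, hqe, sub_self]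
      exact (mk_eq_zero_iff π Lam _).mp this
    have hid1 : ∃ c ∈ C1, c1 * c1 - c1 = π • c := by
      obtain ⟨m, hm, hme⟩ := hidem c1 ⟨l1, hl1, hcl1⟩
      exact ⟨m, hsat1 m hm (hme ▸ C1.sub_mem (C1.mul_mem hc1 hc1) hc1), hme⟩
    have hid2 : ∃ c ∈ C2, c2 * c2 - c2 = π • c := by
      obtain ⟨m, hm, hme⟩ := hidem c2 ⟨l2, hl2, hcl2⟩
      exact ⟨m, hsat2 m hm (hme ▸ C2.sub_mem (C2.mul_mem hc2 hc2) hc2), hme⟩
    have h12 : ∃ w ∈ C12, c1 - c2 = π • w := by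
      have h : c1 - c2 = π • (l1 - l2) := by
        rw [smul_sub, ← hcl1, ← hcl2]
        ring
      exact ⟨l1 - l2, hsat12 _ (Lam.sub_mem hl1 hl2) (h ▸ C12.sub_mem (h1le hc1) (h2le hc2)), h⟩
    have hsat : ∀ c ∈ C1, π • c ∈ C2 → c ∈ C2 := fun c hc h => hsat2 c (hC1Lam hc) h
    -- first glueing: no group action
    obtain ⟨y0, hy01, hy02, -, ⟨c, hc, hyc⟩, -⟩ :=
      Formal.exists_invariant_glue (A := A0) (E := FF) π C1 C2 C12 (mul_inv_cancel₀ hJ0) hJ1 hJ2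
        h1le h2le hloc1 hloc2 hfin1 hR hsat (G := Unit) (fun _ => AlgHom.id A0 FF)
        (fun _ x hx => hx) (fun _ x hx => hx) hc1 hc2 hid1 hid2 h12
        (fun _ => ⟨0, C1.zero_mem, by simp⟩)
    have hy0R : y0 ∈ R := ⟨hy01, hy02⟩
    have hy0e : ∃ l ∈ Lam, y0 - e = π • l := by
      refine ⟨c + l1, Lam.add_mem (hC1Lam hc) hl1, ?_⟩
      rw [smul_add, ← hyc, ← hcl1]
      ring
    -- second step: invariants inside `R`
    have hidR : ∃ c ∈ R, y0 * y0 - y0 = π • c := by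
      obtain ⟨m, hm, hme⟩ := hidem y0 hy0e
      exact ⟨m, hsatR m hm (hme ▸ R.sub_mem (R.mul_mem hy0R hy0R) hy0R), hme⟩
    have hinvR : ∀ g : FF ≃ₐ[Fu] FF, ∃ c ∈ R, sigmaA (A0 := A0) (K := K) g y0 - y0 = π • c := by
      intro g
      obtain ⟨l, hl, hyl⟩ := hy0e
      have hy0 : y0 = e + π • l := by rw [← hyl]; ring
      have h : sigmaA (A0 := A0) (K := K) g y0 - y0 = π • (g l - l) := by
        have hge : g e = e := g.commutes _
        have h1 : sigmaA (A0 := A0) (K := K) g y0 = e + π • g l := by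
          rw [hy0, map_add, map_smul, sigmaA_apply, sigmaA_apply, hge]
        rw [h1, hy0, smul_sub]
        ring
      refine ⟨g l - l, hsatR _ (Lam.sub_mem (hLamσ g l hl) hl) ?_, h⟩
      rw [← h]
      exact R.sub_mem (hσR g y0 hy0R) hy0R
    obtain ⟨y, hyR, -, hfix, ⟨c', hc', hyc'⟩, -⟩ :=
      Formal.exists_invariant_glue (A := A0) (E := FF) π R R R (one_mul (1 : FF)) R.one_mem
        R.one_mem le_rfl le_rfl (fun w hw => ⟨0, by simpa using hw⟩)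
        (fun w hw => ⟨0, by simpa using hw⟩) hfinR (by rw [inf_idem]; exact hR)
        (fun c hc _ => hc) (sigmaA (A0 := A0) (K := K))
        (fun g x hx => hσR g x hx) (fun g x hx => hσR g x hx) hy0R hy0R hidR hidR
        ⟨0, R.zero_mem, by simp⟩ hinvR
    have hyrange : y ∈ Set.range (algebraMap Fu FF) :=
      (IsGalois.mem_range_algebraMap_iff_fixed y).mpr fun g => hfix g
    obtain ⟨y', rfl⟩ := hyrange
    obtain ⟨l, hl, hyl⟩ := hy0e
    refine ⟨y', hyR, c' + l, Lam.add_mem (hRLam hc') hl, ?_⟩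
    rw [smul_add, ← hyc', ← hyl]
    ring
  choose Y hYR hYc using step
  have hYL : ∀ i, algebraMap Fu FF (Y i) ∈ Lam := fun i => hRLam (hYR i)
  have hqY : ∀ i, q ⟨algebraMap Fu FF (Y i), hYL i⟩ = q ⟨algebraMap Fu FF (E i), hEmem i⟩ :=
    fun i => (mk_eq_mk_iff π Lam _ _).mpr (hYc i)
  have hint : ∀ i, IsIntegral A0 (algebraMap Fu FF (Y i)) := fun i => hRint _ (hYR i)
  refine ⟨Y, ?_, hint, fun i => ?_⟩
  · have hli : LinearIndependent K (fun i => algebraMap Fu FF (Y i)) := by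
      refine Formal.linearIndependent_of_idem_mod hπ Lam _ ?_ ?_ ?_
      · intro i j hij
        have : q (⟨algebraMap Fu FF (Y i), hYL i⟩ * ⟨algebraMap Fu FF (Y j), hYL j⟩) = 0 := by
          rw [map_mul, hqY, hqY, ← map_mul, hq, mk_eq_zero_iff]
          exact hEorth i j hij
        exact (mk_eq_zero_iff π Lam _).mp this
      · intro i
        have : q (⟨algebraMap Fu FF (Y i), hYL i⟩ * ⟨algebraMap Fu FF (Y i), hYL i⟩ -
            ⟨algebraMap Fu FF (Y i), hYL i⟩) = 0 := by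
          rw [map_sub, map_mul, hqY, ← map_mul, ← map_sub, hq, mk_eq_zero_iff]
          exact hEid i
        exact (mk_eq_zero_iff π Lam _).mp this
      · intro i h
        apply hEne i
        have : q ⟨algebraMap Fu FF (Y i), hYL i⟩ = 0 := (mk_eq_zero_iff π Lam _).mpr h
        rw [hqY] at this
        exact (mk_eq_zero_iff π Lam _).mp this
    exact LinearIndependent.of_comp (IsScalarTower.toAlgHom K Fu FF).toLinearMap hli
  · have h1 : IsIntegral K (algebraMap Fu FF (Y i)) := (hint i).tower_top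
    exact (isAlgebraic_algebraMap_iff (algebraMap Fu FF).injective).mp h1.isAlgebraic

end Core

section Main

variable {A0 K Fu FF : Type*} [CommRing A0] [IsDomain A0] [IsDiscreteValuationRing A0]
  [Field K] [CharZero K] [Algebra A0 K] [IsFractionRing A0 K]
  [Field Fu] [Field FF] [Algebra K Fu] [Algebra K FF] [Algebra Fu FF] [IsScalarTower K Fu FF]
  [Algebra A0 FF] [IsScalarTower A0 K FF] [FiniteDimensional Fu FF] [IsGalois Fu FF]

/-- **FSTEP** (general index type, no finiteness hypothesis, no `Algebra A0 Fu`): charts on the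
`tt`-line, `tt : FF` any transcendental element (not necessarily in `Fu`). -/
theorem fstep' (π : A0) (hπ : Irreducible π) (tt : FF) (htt : Transcendental K tt)
    [FiniteDimensional (IntermediateField.adjoin K {tt}) FF] (Lam : Subalgebra A0 FF)
    (hLam : IsGaussLattice A0 π tt Lam) (hLam' : IsGaussLattice A0 π tt⁻¹ Lam)
    (hLamσ : ∀ σ : FF ≃ₐ[Fu] FF, ∀ y ∈ Lam, σ y ∈ Lam)
    {ι : Type*} (e : ι → Fu) (heLam : ∀ i, algebraMap Fu FF (e i) ∈ Lam)
    (hidem : ∀ i, ∃ z ∈ Lam, algebraMap Fu FF (e i * e i - e i) = π • z)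
    (horth : ∀ i j, i ≠ j → ∃ z ∈ Lam, algebraMap Fu FF (e i * e j) = π • z)
    (hne : ∀ i, ¬ ∃ z ∈ Lam, algebraMap Fu FF (e i) = π • z)
    (h1 : ∀ i, ∃ c ∈ chart A0 tt, ∃ z ∈ Lam, c - algebraMap Fu FF (e i) = π • z)
    (h2 : ∀ i, ∃ c ∈ chart A0 tt⁻¹, ∃ z ∈ Lam, c - algebraMap Fu FF (e i) = π • z) :
    ∃ y : ι → Fu, LinearIndependent K y ∧ (∀ i, IsIntegral A0 (algebraMap Fu FF (y i))) ∧
      ∀ i, IsAlgebraic K (y i) := by
  set C1 : Subalgebra A0 FF := chart A0 tt with hC1def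
  set C2 : Subalgebra A0 FF := chart A0 tt⁻¹ with hC2def
  set C12 : Subalgebra A0 FF :=
    (integralClosure (Algebra.adjoin A0 ({tt, tt⁻¹} : Set FF)) FF).restrictScalars A0 with hC12def
  have hC1 : ∀ x, x ∈ C1 ↔ IsIntegral (Algebra.adjoin A0 {tt}) x := fun x => Iff.rfl
  have hC2 : ∀ x, x ∈ C2 ↔ IsIntegral (Algebra.adjoin A0 {tt⁻¹}) x := fun x => Iff.rfl
  have hC12 : ∀ x, x ∈ C12 ↔ IsIntegral (Algebra.adjoin A0 {tt, tt⁻¹}) x := fun x => Iff.rfl
  have hJ0 : tt ≠ 0 := by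
    rintro h
    exact htt (h ▸ isAlgebraic_zero)
  have hJA : Transcendental A0 tt := transcendental_base tt htt
  have hJinvK : Transcendental K tt⁻¹ := fun h => htt (by simpa using h.inv)
  have hJinvA : Transcendental A0 tt⁻¹ := transcendental_base _ hJinvK
  have hπp : Prime π := hπ.prime
  have h1not : ¬ C π ∣ (1 : A0[X]) := fun h =>
    hπ.not_isUnit (Polynomial.isUnit_C.mp (isUnit_of_dvd_one h))
  have hJ1 : tt ∈ C1 :=
    (hC1 tt).mpr (isIntegral_of_mem _ (Algebra.self_mem_adjoin_singleton A0 tt))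
  have hJ2 : tt⁻¹ ∈ C2 :=
    (hC2 _).mpr (isIntegral_of_mem _ (Algebra.self_mem_adjoin_singleton A0 tt⁻¹))
  have hle1 : Algebra.adjoin A0 {tt} ≤ Algebra.adjoin A0 {tt, tt⁻¹} :=
    Algebra.adjoin_mono (by intro x hx; exact Or.inl hx)
  have hle2 : Algebra.adjoin A0 {tt⁻¹} ≤ Algebra.adjoin A0 {tt, tt⁻¹} :=
    Algebra.adjoin_mono (by intro x hx; exact Or.inr hx)
  have h1le : C1 ≤ C12 := fun x hx => (hC12 x).mpr (isIntegral_mono hle1 ((hC1 x).mp hx))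
  have h2le : C2 ≤ C12 := fun x hx => (hC12 x).mpr (isIntegral_mono hle2 ((hC2 x).mp hx))
  have hloc1 : ∀ w ∈ C12, ∃ m : ℕ, tt ^ m * w ∈ C1 := by
    intro w hw
    obtain ⟨m, hm⟩ := Formal.exists_pow_mul_isIntegral (A := A0) (mul_inv_cancel₀ hJ0) w
      ((hC12 w).mp hw)
    exact ⟨m, (hC1 _).mpr hm⟩
  have hloc2 : ∀ w ∈ C12, ∃ m : ℕ, tt⁻¹ ^ m * w ∈ C2 := by
    intro w hw
    have hw' : IsIntegral (Algebra.adjoin A0 ({tt⁻¹, tt} : Set FF)) w := by
      rw [Set.pair_comm]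
      exact (hC12 w).mp hw
    obtain ⟨m, hm⟩ := Formal.exists_pow_mul_isIntegral (A := A0) (inv_mul_cancel₀ hJ0) w hw'
    exact ⟨m, (hC2 _).mpr hm⟩
  have hfin1 : ∃ c : Finset FF, (∀ i ∈ c, i ∈ C1) ∧
      ∀ x ∈ C1, ∃ p : FF → A0[X], x = ∑ i ∈ c, aeval tt (p i) * i := by
    obtain ⟨c, hc, hx⟩ := exists_finset_chart (A0 := A0) (K := K) tt htt
    exact ⟨c, fun i hi => (hC1 i).mpr (hc i hi), fun x hx' => hx x ((hC1 x).mp hx')⟩
  have hR : (Subalgebra.toSubmodule (C1 ⊓ C2)).FG :=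
    GlobalSec.fg_inf_charts (A0 := A0) (K := K) tt htt C1 C2 (fun x hx => (hC1 x).mp hx)
      (fun x hx => (hC2 x).mp hx)
  have hRint : ∀ x ∈ C1 ⊓ C2, IsIntegral A0 x := fun x hx =>
    GlobalSec.isIntegral_of_two_charts tt x ((hC1 x).mp hx.1) ((hC2 x).mp hx.2)
  have hint1 : ∀ x, IsIntegral A0 x → x ∈ C1 := fun x hx => (hC1 x).mpr hx.tower_top
  have hint2 : ∀ x, IsIntegral A0 x → x ∈ C2 := fun x hx => (hC2 x).mpr hx.tower_top
  have hC1Lam : C1 ≤ Lam := fun x hx => (hLam x).mpr ⟨1, h1not, by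
    rw [map_one, one_mul]
    exact hx⟩
  have hsat1 : ∀ l ∈ Lam, π • l ∈ C1 → l ∈ C1 := fun l hl h =>
    (hC1 l).mpr (isIntegral_of_clear hπp tt hJA ((hLam l).mp hl) ((hC1 _).mp h))
  have hsat2 : ∀ l ∈ Lam, π • l ∈ C2 → l ∈ C2 := fun l hl h =>
    (hC2 l).mpr (isIntegral_of_clear hπp tt⁻¹ hJinvA ((hLam' l).mp hl) ((hC2 _).mp h))
  have hsat12 : ∀ l ∈ Lam, π • l ∈ C12 → l ∈ C12 := by
    intro l hl h
    obtain ⟨m, hm⟩ := hloc1 _ h
    have hJL : tt ∈ Lam := hC1Lam hJ1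
    have h1 : tt ^ m * l ∈ C1 :=
      hsat1 _ (Lam.mul_mem (Lam.pow_mem hJL m) hl) (by rw [← mul_smul_comm]; exact hm)
    have h2 : l = tt⁻¹ ^ m * (tt ^ m * l) := by
      rw [← mul_assoc, ← mul_pow, inv_mul_cancel₀ hJ0, one_pow, one_mul]
    rw [h2]
    exact C12.mul_mem (C12.pow_mem (h2le hJ2) m) (h1le h1)
  refine fstep_core hπ tt hJ0 Lam C1 C2 C12 hJ1 hJ2 h1le h2le hloc1 hloc2 hfin1 hR hRint hint1
    hint2 hC1Lam hsat1 hsat2 hsat12 hLamσ e heLam (fun i => ?_) (fun i j hij => ?_) hne h1 h2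
  · obtain ⟨z, hz, h⟩ := hidem i
    exact ⟨z, hz, by rw [← h, map_sub, map_mul]⟩
  · obtain ⟨z, hz, h⟩ := horth i j hij
    exact ⟨z, hz, by rw [← h, map_mul]⟩

/-- **FSTEP**, in the exact shape of the AG interface (helper6, piece (1)). The finiteness
hypothesis `hfin1` is not needed (it is `AGF.exists_finset_chart`). -/
theorem fstep [Algebra A0 Fu] [IsScalarTower A0 K Fu] [IsScalarTower A0 Fu FF]
    (π : A0) (hπ : Irreducible π) (tt : FF) (htt : Transcendental K tt)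
    [FiniteDimensional (IntermediateField.adjoin K {tt}) FF] (Lam : Subalgebra A0 FF)
    (hLam : IsGaussLattice A0 π tt Lam) (hLam' : IsGaussLattice A0 π tt⁻¹ Lam)
    (hLamσ : ∀ σ : FF ≃ₐ[Fu] FF, ∀ y ∈ Lam, σ y ∈ Lam)
    (_hfin1 : ∃ c : Finset FF, (∀ i ∈ c, i ∈ chart A0 tt) ∧
      ∀ x ∈ chart A0 tt, ∃ P : FF → A0[X], x = ∑ i ∈ c, aeval tt (P i) * i)
    {p : ℕ} (e : Fin p → Fu) (heLam : ∀ i, algebraMap Fu FF (e i) ∈ Lam)
    (hidem : ∀ i, ∃ z ∈ Lam, algebraMap Fu FF (e i * e i - e i) = π • z)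
    (horth : ∀ i j, i ≠ j → ∃ z ∈ Lam, algebraMap Fu FF (e i * e j) = π • z)
    (hne : ∀ i, ¬ ∃ z ∈ Lam, algebraMap Fu FF (e i) = π • z)
    (h1 : ∀ i, ∃ c ∈ chart A0 tt, ∃ z ∈ Lam, c - algebraMap Fu FF (e i) = π • z)
    (h2 : ∀ i, ∃ c ∈ chart A0 tt⁻¹, ∃ z ∈ Lam, c - algebraMap Fu FF (e i) = π • z) :
    ∃ y : Fin p → Fu, LinearIndependent K y ∧ ∀ i, IsIntegral A0 (y i) := by
  obtain ⟨y, hy, hint, -⟩ :=
    fstep' π hπ tt htt Lam hLam hLam' hLamσ e heLam hidem horth hne h1 h2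
  exact ⟨y, hy, fun i => (isIntegral_algebraMap_iff (algebraMap Fu FF).injective).mp (hint i)⟩

end Main

end Fermat.Agent.RedLib.FStep
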