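/-
Final assembly of the abstract geometric theorem AG from the chart statement:
`AG_core_of_chartSurj` = FSTEP ∘ (chart for `tt`, cusps `S`) ∘ (chart for `tt⁻¹`, cusps
`{0} ∪ {a⁻¹ : a ∈ S a unit}`).  Pure wiring on top of `FStep` and `AGSymm`.
-/
import Fermat.Agent.RedLib.FStep
import Fermat.Agent.RedLib.AGSymm

set_option autoImplicit false

namespace Fermat.Agent.RedLib.AGAsm

open Polynomial Fermat.Agent.RedLib.AGDefs

/-- The chart statement for the tower `A0 → K → Kt → FF`: every element of the Gauss lattice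
which is idempotent modulo `π` is congruent modulo `π` to an element of the chart. -/
def ChartSurj (A0 K Kt FF : Type*) [CommRing A0] [Field K] [Algebra A0 K] [Field Kt]
    [Algebra A0 Kt] [Algebra K Kt] [Field FF] [Algebra A0 FF] [Algebra K FF] [Algebra Kt FF] :
    Prop :=
  ∀ (π : A0) (_ : Irreducible π) (xK : Kt) (_ : Transcendental K xK)
    (_ : ∀ z : Kt, ∃ f g : K[X], g ≠ 0 ∧ z * aeval xK g = aeval xK f)
    (S : Finset A0) (_ : ∀ a ∈ S, ∀ b ∈ S, a ≠ b → IsUnit (a - b))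
    (Lam : Subalgebra A0 FF) (_ : IsGaussLattice A0 π (algebraMap Kt FF xK) Lam)
    (_ : IsGaussEtale A0 π xK Lam)
    (_ : ∀ q : A0[X], Prime q → ¬ Associated q (C π) → (¬ ∃ h : A0[X], C π ∣ q * h - 1) →
      (∀ a ∈ S, ¬ Associated q (X - C a)) →
        IsUnramAt K (algebraMap Kt FF xK) (q.map (algebraMap A0 K)))
    (y : FF) (_ : y ∈ Lam) (_ : ∃ z ∈ Lam, y * y - y = π • z),
    ∃ c ∈ chart A0 (algebraMap Kt FF xK), ∃ z ∈ Lam, c - y = π • z

/-- the scalar tower `A0 → K⟮tt⟯ → FF` (not found by instance search) -/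
theorem isScalarTower_adjoin {A0 K FF : Type*} [CommRing A0] [Field K] [Algebra A0 K] [Field FF]
    [Algebra K FF] [Algebra A0 FF] [IsScalarTower A0 K FF] (tt : FF) :
    IsScalarTower A0 ↥(IntermediateField.adjoin K {tt}) FF :=
  IsScalarTower.of_algebraMap_eq (fun _ => rfl)

/-- elements of `K⟮tt⟯` are rational functions of the generator -/
theorem exists_rat_gen {K FF : Type*} [Field K] [Field FF] [Algebra K FF] (tt : FF)
    (z : ↥(IntermediateField.adjoin K {tt})) :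
    ∃ f g : K[X], g ≠ 0 ∧ z * aeval (IntermediateField.AdjoinSimple.gen K tt) g =
      aeval (IntermediateField.AdjoinSimple.gen K tt) f := by
  have hco : ∀ h : K[X], algebraMap ↥(IntermediateField.adjoin K {tt}) FF
      (aeval (IntermediateField.AdjoinSimple.gen K tt) h) = aeval tt h := fun h => by
    rw [← aeval_algebraMap_apply, IntermediateField.AdjoinSimple.algebraMap_gen]
  obtain ⟨r, s, hrs⟩ := (IntermediateField.mem_adjoin_simple_iff K (z : FF)).mp z.2
  by_cases hs : aeval tt s = 0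
  · refine ⟨0, 1, one_ne_zero, ?_⟩
    apply (algebraMap ↥(IntermediateField.adjoin K {tt}) FF).injective
    rw [map_mul, hco, hco]
    have hz : algebraMap ↥(IntermediateField.adjoin K {tt}) FF z = 0 := by
      show (z : FF) = 0
      rw [hrs, hs, div_zero]
    rw [hz, zero_mul, map_zero]
  · refine ⟨r, s, fun h0 => hs (by rw [h0, map_zero]), ?_⟩
    apply (algebraMap ↥(IntermediateField.adjoin K {tt}) FF).injective
    rw [map_mul, hco, hco]
    show (z : FF) * _ = _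
    rw [hrs, div_mul_cancel₀ _ hs]

/-- rational functions of `x` are rational functions of `x⁻¹` -/
theorem exists_rat_inv {K Kt : Type*} [Field K] [Field Kt] [Algebra K Kt] {x : Kt} (hx : x ≠ 0)
    (h : ∀ z : Kt, ∃ f g : K[X], g ≠ 0 ∧ z * aeval x g = aeval x f) (z : Kt) :
    ∃ f g : K[X], g ≠ 0 ∧ z * aeval x⁻¹ g = aeval x⁻¹ f := by
  obtain ⟨f, g, hg, hfg⟩ := h z
  refine ⟨X ^ g.natDegree * f.reverse, X ^ f.natDegree * g.reverse, ?_, ?_⟩
  · exact mul_ne_zero (pow_ne_zero _ X_ne_zero) (fun h0 => hg (reverse_eq_zero.mp h0))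
  · rw [AGSymm.aeval_inv_X_pow_mul_reverse hx, AGSymm.aeval_inv_X_pow_mul_reverse hx, ← hfg,
      add_comm]
    ring

/-- the cusps of the chart at infinity -/
theorem exists_inv_set {A0 : Type*} [CommRing A0] (S : Finset A0)
    (hS : ∀ a ∈ S, ∀ b ∈ S, a ≠ b → IsUnit (a - b)) :
    ∃ S' : Finset A0, (0 : A0) ∈ S' ∧ (∀ a ∈ S, ∀ a' : A0, a * a' = 1 → a' ∈ S') ∧
      ∀ a ∈ S', ∀ b ∈ S', a ≠ b → IsUnit (a - b) := by
  classical
  refine ⟨insert 0 (S.image Ring.inverse), Finset.mem_insert_self _ _, ?_, ?_⟩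
  · intro a ha a' haa'
    refine Finset.mem_insert_of_mem (Finset.mem_image.mpr ⟨a, ha, ?_⟩)
    have hu : IsUnit a := IsUnit.of_mul_eq_one a' haa'
    obtain ⟨u, rfl⟩ := hu
    rw [Ring.inverse_unit]
    exact (Units.eq_inv_of_mul_eq_one_right (by rw [mul_comm]; exact haa')).symm
  · have hmem : ∀ x ∈ insert (0 : A0) (S.image Ring.inverse),
        x = 0 ∨ ∃ u : A0ˣ, (u : A0) ∈ S ∧ x = ↑u⁻¹ := by
      intro x hx
      rcases Finset.mem_insert.mp hx with h0 | h1
      · exact Or.inl h0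
      · obtain ⟨a, ha, rfl⟩ := Finset.mem_image.mp h1
        by_cases hu : IsUnit a
        · obtain ⟨u, rfl⟩ := hu
          exact Or.inr ⟨u, ha, Ring.inverse_unit u⟩
        · exact Or.inl (Ring.inverse_non_unit a hu)
    intro x hx y hy hxy
    rcases hmem x hx with rfl | ⟨u, hu, rfl⟩ <;> rcases hmem y hy with rfl | ⟨v, hv, rfl⟩
    · exact absurd rfl hxy
    · rw [zero_sub]; exact (v⁻¹).isUnit.neg
    · rw [sub_zero]; exact (u⁻¹).isUnit
    · have huv : (u : A0) ≠ v := fun h => hxy (by rw [Units.ext h])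
      have h1 : IsUnit ((v : A0) - u) := hS _ hv _ hu (Ne.symm huv)
      have h2 : ((u⁻¹ : A0ˣ) : A0) - ↑v⁻¹ = ((v : A0) - u) * (↑u⁻¹ * ↑v⁻¹) := by
        have e1 : (u : A0) * ↑u⁻¹ = 1 := Units.mul_inv u
        have e2 : (v : A0) * ↑v⁻¹ = 1 := Units.mul_inv v
        calc ((u⁻¹ : A0ˣ) : A0) - ↑v⁻¹
            = ((v : A0) * ↑v⁻¹) * ↑u⁻¹ - ((u : A0) * ↑u⁻¹) * ↑v⁻¹ := by rw [e1, e2, one_mul, one_mul]
          _ = ((v : A0) - u) * (↑u⁻¹ * ↑v⁻¹) := by ring
      rw [h2]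
      exact h1.mul ((u⁻¹).isUnit.mul (v⁻¹).isUnit)

/-- **AG from the chart statement.** -/
theorem AG_core_of_chartSurj
    {A0 K Fu FF : Type*} [CommRing A0] [IsDomain A0] [IsDiscreteValuationRing A0] [Field K]
    [CharZero K] [Algebra A0 K] [IsFractionRing A0 K]
    [Field Fu] [Field FF] [Algebra K Fu] [Algebra K FF] [Algebra Fu FF] [IsScalarTower K Fu FF]
    [Algebra A0 Fu] [Algebra A0 FF] [IsScalarTower A0 K Fu] [IsScalarTower A0 K FF]
    [IsScalarTower A0 Fu FF] [FiniteDimensional Fu FF] [IsGalois Fu FF]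
    (π : A0) (hπ : Irreducible π) (tt : FF) (htt : Transcendental K tt)
    (hCS : ChartSurj A0 K ↥(IntermediateField.adjoin K {tt}) FF)
    (S : Finset A0) (hS : ∀ a ∈ S, ∀ b ∈ S, a ≠ b → IsUnit (a - b))
    (Lam : Subalgebra A0 FF) (hLam : IsGaussLattice A0 π tt Lam)
    (hLamσ : ∀ σ : FF ≃ₐ[Fu] FF, ∀ y ∈ Lam, σ y ∈ Lam)
    (hgen : IsGaussEtale A0 π (IntermediateField.AdjoinSimple.gen K tt) Lam)
    (hunr : ∀ O : ValuationSubring FF, IsDiscreteValuationRing O →
      (∀ a : K, algebraMap K FF a ∈ O) → tt ∈ O → (∀ a ∈ S, (tt - algebraMap A0 FF a)⁻¹ ∈ O) →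
        ∀ q : K[X], Irreducible q → aeval tt q ∈ O.nonunits →
          ∀ z ∈ O.nonunits, ∃ y ∈ O, z = aeval tt q * y)
    {p : ℕ} (e : Fin p → Fu) (heLam : ∀ i, algebraMap Fu FF (e i) ∈ Lam)
    (hidem : ∀ i, ∃ z ∈ Lam, algebraMap Fu FF (e i * e i - e i) = π • z)
    (horth : ∀ i j, i ≠ j → ∃ z ∈ Lam, algebraMap Fu FF (e i * e j) = π • z)
    (hne : ∀ i, ¬ ∃ z ∈ Lam, algebraMap Fu FF (e i) = π • z) :
    ∃ y : Fin p → Fu, LinearIndependent K y ∧ ∀ i, IsIntegral A0 (y i) := by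
  classical
  have htt0 : tt ≠ 0 := fun h => htt (h ▸ isAlgebraic_zero)
  obtain ⟨g, hg⟩ : ∃ g : ↥(IntermediateField.adjoin K {tt}),
      g = IntermediateField.AdjoinSimple.gen K tt := ⟨_, rfl⟩
  have hgmap : algebraMap ↥(IntermediateField.adjoin K {tt}) FF g = tt := by
    rw [hg]; exact IntermediateField.AdjoinSimple.algebraMap_gen K tt
  have hginv : algebraMap ↥(IntermediateField.adjoin K {tt}) FF g⁻¹ = tt⁻¹ := by
    rw [map_inv₀, hgmap]
  have hg0 : g ≠ 0 := fun h0 => htt0 (by rw [← hgmap, h0, map_zero])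
  have hgtr : Transcendental K g := fun h => htt (by rw [← hgmap]; exact h.algebraMap)
  have hginvtr : Transcendental K g⁻¹ := fun h => hgtr (by simpa using h.inv)
  have hfd : FiniteDimensional ↥(IntermediateField.adjoin K {tt}) FF := by
    obtain ⟨n, b, -⟩ := hgen
    exact Module.Finite.of_basis b
  have hLam' : IsGaussLattice A0 π tt⁻¹ Lam := AGSymm.isGaussLattice_inv htt0 hLam
  rw [← hg] at hgen
  have hrat : ∀ z : ↥(IntermediateField.adjoin K {tt}),
      ∃ f h : K[X], h ≠ 0 ∧ z * aeval g h = aeval g f := by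
    rw [hg]; exact exists_rat_gen tt
  -- the chart for `tt`
  have h1 : ∀ y ∈ Lam, (∃ z ∈ Lam, y * y - y = π • z) →
      ∃ c ∈ chart A0 tt, ∃ z ∈ Lam, c - y = π • z := by
    intro y hy hyid
    have h := hCS π hπ g hgtr hrat S hS Lam (by rw [hgmap]; exact hLam) hgen
      (fun q hq hqπ _ hqS => by
        rw [hgmap]; exact AGSymm.isUnramAt_of_hunr K π hπ tt S hunr q hq hqπ hqS) y hy hyid
    rwa [hgmap] at h
  -- the chart for `tt⁻¹`
  obtain ⟨S', h0S', hinvS', hS'⟩ := exists_inv_set S hS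
  have h2 : ∀ y ∈ Lam, (∃ z ∈ Lam, y * y - y = π • z) →
      ∃ c ∈ chart A0 tt⁻¹, ∃ z ∈ Lam, c - y = π • z := by
    intro y hy hyid
    have h := hCS π hπ g⁻¹ hginvtr (exists_rat_inv hg0 hrat) S' hS' Lam
      (by rw [hginv]; exact hLam') (AGSymm.isGaussEtale_inv hgen)
      (fun q hq hqπ hqu hqS => by
        rw [hginv]
        refine AGSymm.isUnramAt_inv K π hπ tt S hunr q hq hqπ hqu ?_ ?_
        · have h3 := hqS 0 h0S'
          rwa [C_0, sub_zero] at h3
        · intro a ha a' haa'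
          exact hqS a' (hinvS' a ha a' haa')) y hy hyid
    rwa [hginv] at h
  obtain ⟨y, hli, hint, -⟩ := FStep.fstep' π hπ tt htt Lam hLam hLam' hLamσ e heLam hidem horth
    hne
    (fun i => h1 _ (heLam i) (by
      obtain ⟨z, hz, h⟩ := hidem i
      exact ⟨z, hz, by rw [← h, map_sub, map_mul]⟩))
    (fun i => h2 _ (heLam i) (by
      obtain ⟨z, hz, h⟩ := hidem i
      exact ⟨z, hz, by rw [← h, map_sub, map_mul]⟩))
  exact ⟨y, hli, fun i => (isIntegral_algebraMap_iff (algebraMap Fu FF).injective).mp (hint i)⟩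

end Fermat.Agent.RedLib.AGAsm
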