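/-
S18 long shot, leaf W3 (helper4): the FINITE CHART lemma (blueprint (D)), abstract form.

`R` a noetherian integrally closed domain, `π` a prime element with `R/π` a PID, `E` a finite
separable extension of `K = Frac R`, `C` the integral closure of `R` in `E`, `Lam` the integral
closure of `R_(π)` in `E`.  Under a generic (`hgen`) and a characteristic-zero (`hunr`)
discriminant hypothesis, every element of `Lam/π` which is integral over `R/π` comes from `C`.
-/
import Mathlib
import Fermat.Agent.RedLib.S2Lemma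

set_option autoImplicit false
set_option linter.unusedSectionVars false

namespace Fermat.Agent.RedLib.FiniteChart

open Polynomial Matrix

section Basic

variable {R : Type*} [CommRing R] {E : Type*} [Field E] [Algebra R E]

/-- The integral closure of `R_(π)` in `E`: elements with a multiple, by something prime to
`π`, integral over `R`. -/
def Lam (R : Type*) [CommRing R] (E : Type*) [Field E] [Algebra R E] {π : R} (hπ : Prime π) :
    Subalgebra R E where
  carrier := {z | ∃ g : R, ¬ π ∣ g ∧ g • z ∈ integralClosure R E}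
  mul_mem' := by
    rintro x y ⟨g, hg, hx⟩ ⟨g', hg', hy⟩
    refine ⟨g * g', fun h => (hπ.dvd_or_dvd h).elim hg hg', ?_⟩
    have : (g * g') • (x * y) = (g • x) * (g' • y) := by
      rw [smul_mul_smul_comm]
    rw [this]
    exact Subalgebra.mul_mem _ hx hy
  add_mem' := by
    rintro x y ⟨g, hg, hx⟩ ⟨g', hg', hy⟩
    refine ⟨g * g', fun h => (hπ.dvd_or_dvd h).elim hg hg', ?_⟩
    have : (g * g') • (x + y) = g' • (g • x) + g • (g' • y) := by
      rw [smul_add, smul_smul, smul_smul, mul_comm g' g]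
    rw [this]
    exact Subalgebra.add_mem _ (Subalgebra.smul_mem _ hx _) (Subalgebra.smul_mem _ hy _)
  algebraMap_mem' := by
    intro r
    refine ⟨1, fun h => hπ.not_isUnit (isUnit_of_dvd_one h), ?_⟩
    rw [one_smul]
    exact Subalgebra.algebraMap_mem _ r

variable {π : R} (hπ : Prime π)

theorem mem_Lam {z : E} : z ∈ Lam R E hπ ↔ ∃ g : R, ¬ π ∣ g ∧ g • z ∈ integralClosure R E :=
  Iff.rfl

theorem integralClosure_le_Lam : integralClosure R E ≤ Lam R E hπ := by
  intro z hz
  exact ⟨1, fun h => hπ.not_isUnit (isUnit_of_dvd_one h), by rwa [one_smul]⟩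

end Basic

section Inj

variable {R : Type*} [CommRing R] [IsDomain R] [IsIntegrallyClosed R]
  {E : Type*} [Field E] [Algebra R E] [FaithfulSMul R E] {π : R} (hπ : Prime π)

/-- `C ∩ π Lam = π C` (the S2 property). -/
theorem mem_integralClosure_of_smul_mem {z : E} (hz : z ∈ Lam R E hπ)
    (h : π • z ∈ integralClosure R E) : z ∈ integralClosure R E := by
  obtain ⟨g, hg, hgz⟩ := hz
  exact S2Lemma.mem_integralClosure_of_smul hπ hg hgz h

theorem finiteChart_inj : ∀ y ∈ integralClosure R E, (∃ z ∈ Lam R E hπ, y = π • z) →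
    ∃ c ∈ integralClosure R E, y = π • c := by
  rintro y hy ⟨z, hz, rfl⟩
  exact ⟨z, mem_integralClosure_of_smul_mem hπ hz hy, rfl⟩

end Inj

section ExBasis

variable {R : Type*} [CommRing R] [IsDomain R] [IsNoetherianRing R] [IsIntegrallyClosed R]
  (K : Type*) [Field K] [Algebra R K] [IsFractionRing R K]
  {E : Type*} [Field E] [Algebra K E] [Algebra R E] [IsScalarTower R K E]
  [FiniteDimensional K E] [Algebra.IsSeparable K E]

omit [IsDomain R] [IsNoetherianRing R] [IsIntegrallyClosed R] [FiniteDimensional K E]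
  [Algebra.IsSeparable K E] in
include K in
theorem algebraMap_RE_injective : Function.Injective (algebraMap R E) := by
  rw [IsScalarTower.algebraMap_eq R K E]
  exact (algebraMap K E).injective.comp (IsFractionRing.injective R K)

omit [IsNoetherianRing R] [FiniteDimensional K E] [Algebra.IsSeparable K E] in
include K in
/-- the quotient `C/πC` is torsion-free over `R/π`. -/
theorem quot_torsionFree {π : R} (hπ : Prime π) :
    ∀ (a : R) (c : ↥(integralClosure R E)),
      a • c ∈ (Ideal.span {π} • ⊤ : Submodule R ↥(integralClosure R E)) →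
      π ∣ a ∨ c ∈ (Ideal.span {π} • ⊤ : Submodule R ↥(integralClosure R E)) := by
  intro a c hac
  by_cases ha : π ∣ a
  · exact Or.inl ha
  right
  have hinj : Function.Injective (algebraMap R E) := algebraMap_RE_injective K
  have : FaithfulSMul R E := (faithfulSMul_iff_algebraMap_injective R E).mpr hinj
  rw [Submodule.ideal_span_singleton_smul, Submodule.mem_smul_pointwise_iff_exists] at hac ⊢
  obtain ⟨c', -, hc'⟩ := hac
  have hπE : algebraMap R E π ≠ 0 := fun h =>
    hπ.ne_zero (hinj (by rw [h, map_zero]))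
  have hE : π • (c' : E) = a • (c : E) := by
    have := congrArg (Subtype.val) hc'
    simpa using this
  set z : E := (algebraMap R E π)⁻¹ * (c : E) with hz
  have h2 : π • z = (c : E) := by
    rw [hz, Algebra.smul_def, ← mul_assoc, mul_inv_cancel₀ hπE, one_mul]
  have h1 : a • z = (c' : E) := by
    have : algebraMap R E π * (a • z) = algebraMap R E π * (c' : E) := by
      rw [← Algebra.smul_def π (c' : E), hE, mul_smul_comm, ← Algebra.smul_def, h2]
    exact mul_left_cancel₀ hπE this
  have hzint : IsIntegral R z := by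
    refine S2Lemma.isIntegral_of_smul hπ ha ?_ ?_
    · rw [h1]; exact c'.2
    · rw [h2]; exact c.2
  exact ⟨⟨z, hzint⟩, Submodule.mem_top, Subtype.ext (by simpa using h2)⟩

include K in
theorem exists_lift {π : R} (hπ : Prime π) [IsPrincipalIdealRing (R ⧸ Ideal.span {π})] :
    ∃ (k : ℕ) (m : Fin k → ↥(integralClosure R E)) (r : R), π ∣ r - 1 ∧
      LinearIndependent R m ∧
      ∀ c : ↥(integralClosure R E), r • c ∈ Submodule.span R (Set.range m) := by
  classical
  have hinj : Function.Injective (algebraMap R E) := algebraMap_RE_injective K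
  have hIprime : (Ideal.span {π}).IsPrime := (Ideal.span_singleton_prime hπ.ne_zero).mpr hπ
  have hfin : Module.Finite R ↥(integralClosure R E) :=
    IsIntegralClosure.finite R K E ↥(integralClosure R E)
  have hfinQ : Module.Finite (R ⧸ Ideal.span {π})
      (↥(integralClosure R E) ⧸ (Ideal.span {π} • ⊤ : Submodule R ↥(integralClosure R E))) :=
    inferInstance
  have htf : Module.IsTorsionFree (R ⧸ Ideal.span {π})
      (↥(integralClosure R E) ⧸ (Ideal.span {π} • ⊤ : Submodule R ↥(integralClosure R E))) := by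
    refine Module.IsTorsionFree.of_smul_eq_zero ?_
    intro a q h
    obtain ⟨a, rfl⟩ := Ideal.Quotient.mk_surjective a
    obtain ⟨c, rfl⟩ := Submodule.Quotient.mk_surjective _ q
    rw [Module.Quotient.mk_smul_mk, Submodule.Quotient.mk_eq_zero] at h
    rcases quot_torsionFree K hπ a c h with h1 | h1
    · left
      rw [Ideal.Quotient.eq_zero_iff_mem, Ideal.mem_span_singleton]
      exact h1
    · right
      rw [Submodule.Quotient.mk_eq_zero]
      exact h1
  have hfree : Module.Free (R ⧸ Ideal.span {π})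
      (↥(integralClosure R E) ⧸ (Ideal.span {π} • ⊤ : Submodule R ↥(integralClosure R E))) :=
    Module.free_of_finite_type_torsion_free'
  obtain ⟨bq⟩ : Nonempty (Module.Basis (Fin (Module.finrank (R ⧸ Ideal.span {π})
      (↥(integralClosure R E) ⧸ (Ideal.span {π} • ⊤ : Submodule R ↥(integralClosure R E)))))
      (R ⧸ Ideal.span {π})
      (↥(integralClosure R E) ⧸ (Ideal.span {π} • ⊤ : Submodule R ↥(integralClosure R E)))) :=
    ⟨Module.finBasis _ _⟩
  generalize Module.finrank (R ⧸ Ideal.span {π})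
      (↥(integralClosure R E) ⧸ (Ideal.span {π} • ⊤ : Submodule R ↥(integralClosure R E))) = k
      at bq
  have hlift : ∀ i, ∃ c : ↥(integralClosure R E),
      (Submodule.Quotient.mk c : ↥(integralClosure R E) ⧸
        (Ideal.span {π} • ⊤ : Submodule R ↥(integralClosure R E))) = bq i :=
    fun i => Submodule.Quotient.mk_surjective _ (bq i)
  choose m hm using hlift
  have hsumQ : ∀ f : Fin k → ↥(integralClosure R E),
      (Submodule.Quotient.mk (∑ i, f i) : ↥(integralClosure R E) ⧸
        (Ideal.span {π} • ⊤ : Submodule R ↥(integralClosure R E))) =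
      ∑ i, Submodule.Quotient.mk (f i) := fun f => map_sum (Submodule.mkQ _) f Finset.univ
  -- Nakayama
  have hsup : (⊤ : Submodule R ↥(integralClosure R E)) ≤
      Submodule.span R (Set.range m) ⊔ Ideal.span {π} • ⊤ := by
    intro c _
    have h1 := bq.sum_repr (Submodule.Quotient.mk c)
    have hsurj : ∀ i, ∃ a : R, Ideal.Quotient.mk (Ideal.span {π}) a =
        bq.repr (Submodule.Quotient.mk c) i := fun i => Ideal.Quotient.mk_surjective _
    choose a ha using hsurj
    have h2 : (Submodule.Quotient.mk (c - ∑ i, a i • m i) : ↥(integralClosure R E) ⧸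
        (Ideal.span {π} • ⊤ : Submodule R ↥(integralClosure R E))) = 0 := by
      rw [Submodule.Quotient.mk_sub, sub_eq_zero, ← h1, hsumQ]
      refine Finset.sum_congr rfl fun i _ => ?_
      rw [← ha i, ← hm i, Module.Quotient.mk_smul_mk]
    rw [Submodule.Quotient.mk_eq_zero] at h2
    have h3 : c = ∑ i, a i • m i + (c - ∑ i, a i • m i) := by abel
    rw [h3]
    refine Submodule.add_mem_sup ?_ h2
    exact Submodule.sum_mem _ fun i _ =>
      Submodule.smul_mem _ _ (Submodule.subset_span ⟨i, rfl⟩)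
  obtain ⟨r, hr1, hr2⟩ := Submodule.exists_sub_one_mem_and_smul_le_of_fg_of_le_sup
    (N := Submodule.span R (Set.range m)) (N' := ⊤) (P := ⊤) (I := Ideal.span {π})
    (Module.finite_def.mp hfin) le_rfl hsup
  rw [Ideal.mem_span_singleton] at hr1
  refine ⟨k, m, r, hr1, ?_, ?_⟩
  · -- linear independence via Nakayama on the module of relations
    have hS : (Fintype.linearCombination R m).ker ≤
        Ideal.span {π} • (Fintype.linearCombination R m).ker := by
      intro a ha
      rw [LinearMap.mem_ker, Fintype.linearCombination_apply] at ha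
      have h1 : ∑ i, Ideal.Quotient.mk (Ideal.span {π}) (a i) • bq i = 0 := by
        have := congrArg (Submodule.Quotient.mk (p := (Ideal.span {π} • ⊤ :
          Submodule R ↥(integralClosure R E)))) ha
        rw [hsumQ, Submodule.Quotient.mk_zero] at this
        rw [← this]
        refine Finset.sum_congr rfl fun i _ => ?_
        rw [← hm i, Module.Quotient.mk_smul_mk]
      have h2 := Fintype.linearIndependent_iff.mp bq.linearIndependent _ h1
      have h3 : ∀ i, ∃ a' : R, a i = π * a' := fun i => by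
        have := h2 i
        rwa [Ideal.Quotient.eq_zero_iff_mem, Ideal.mem_span_singleton] at this
      choose a' ha' using h3
      have h4 : a = π • a' := by
        funext i
        rw [Pi.smul_apply, smul_eq_mul, ha' i]
      have h5 : a' ∈ (Fintype.linearCombination R m).ker := by
        rw [LinearMap.mem_ker, Fintype.linearCombination_apply]
        have h6 : π • ∑ i, a' i • m i = 0 := by
          rw [Finset.smul_sum, ← ha]
          refine Finset.sum_congr rfl fun i _ => ?_
          rw [ha' i, mul_smul]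
        have h7 : algebraMap R E π * ((∑ i, a' i • m i : ↥(integralClosure R E)) : E) = 0 := by
          have := congrArg Subtype.val h6
          simpa [Algebra.smul_def] using this
        rcases mul_eq_zero.mp h7 with h8 | h8
        · exact absurd (hinj (by rw [h8, map_zero])) hπ.ne_zero
        · exact Subtype.ext h8
      rw [h4]
      exact Submodule.smul_mem_smul (Ideal.mem_span_singleton_self π) h5
    obtain ⟨r', hr'1, hr'2⟩ := Submodule.exists_sub_one_mem_and_smul_eq_zero_of_fg_of_le_smul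
      (Ideal.span {π}) _ (IsNoetherian.noetherian _) hS
    have hr'0 : r' ≠ 0 := by
      rintro rfl
      rw [Ideal.mem_span_singleton, zero_sub, dvd_neg] at hr'1
      exact hπ.not_isUnit (isUnit_of_dvd_one hr'1)
    rw [Fintype.linearIndependent_iff]
    intro a ha i
    have h1 := hr'2 a (by rw [LinearMap.mem_ker, Fintype.linearCombination_apply]; exact ha)
    have h2 := congrFun h1 i
    rw [Pi.smul_apply, Pi.zero_apply, smul_eq_mul] at h2
    exact (mul_eq_zero.mp h2).resolve_left hr'0
  · intro c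
    exact hr2 (Submodule.smul_mem_pointwise_smul c r ⊤ Submodule.mem_top)


include K in
theorem exists_basis {π : R} (hπ : Prime π) [IsPrincipalIdealRing (R ⧸ Ideal.span {π})] :
    ∃ (b : Module.Basis (Fin (Module.finrank K E)) K E) (r : R),
      (∀ i, b i ∈ integralClosure R E) ∧ π ∣ r - 1 ∧
      ∀ c ∈ integralClosure R E, ∀ i, ∃ a : R, r • b.repr c i = algebraMap R K a := by
  classical
  obtain ⟨k, m, r, hr, hli, hspan⟩ := exists_lift K (E := E) hπ
  have hr0 : r ≠ 0 := by
    rintro rfl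
    rw [zero_sub, dvd_neg] at hr
    exact hπ.not_isUnit (isUnit_of_dvd_one hr)
  have hliE : LinearIndependent R (fun i => (m i : E)) :=
    hli.map' (integralClosure R E).val.toLinearMap
      (LinearMap.ker_eq_bot.mpr Subtype.val_injective)
  have hliK : LinearIndependent K (fun i => (m i : E)) :=
    (LinearIndependent.iff_fractionRing R K).mp hliE
  have hexp : ∀ c ∈ integralClosure R E, ∃ a : Fin k → R,
      r • c = ∑ i, algebraMap R K (a i) • (m i : E) := by
    intro c hc
    obtain ⟨a, ha⟩ := (Submodule.mem_span_range_iff_exists_fun R).mp (hspan ⟨c, hc⟩)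
    refine ⟨a, ?_⟩
    have := congrArg Subtype.val ha
    simp only [algebraMap_smul]
    rw [← show ((r • (⟨c, hc⟩ : ↥(integralClosure R E)) : ↥(integralClosure R E)) : E) = r • c
      from rfl, ← this]
    simp
  have hsp : ⊤ ≤ Submodule.span K (Set.range fun i => (m i : E)) := by
    intro e _
    have halg : IsAlgebraic R e := by
      have : Algebra.IsAlgebraic R E :=
        IsFractionRing.comap_isAlgebraic_iff.mpr (inferInstance : Algebra.IsAlgebraic K E)
      exact Algebra.IsAlgebraic.isAlgebraic e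
    obtain ⟨d, hd0, hd⟩ := halg.exists_integral_multiple
    obtain ⟨a, ha⟩ := hexp (d • e) hd
    have hrd : algebraMap R K (r * d) ≠ 0 := by
      rw [Ne, map_eq_zero_iff _ (IsFractionRing.injective R K)]
      exact mul_ne_zero hr0 hd0
    have h1 : e = (algebraMap R K (r * d))⁻¹ • ∑ i, algebraMap R K (a i) • (m i : E) := by
      rw [eq_inv_smul_iff₀ hrd, ← ha, algebraMap_smul, mul_smul]
    rw [h1]
    exact Submodule.smul_mem _ _ (Submodule.sum_mem _ fun i _ =>
      Submodule.smul_mem _ _ (Submodule.subset_span ⟨i, rfl⟩))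
  have hb0 : ∀ i, (Module.Basis.mk hliK hsp) i = (m i : E) := fun i => by
    rw [Module.Basis.coe_mk]
  have hk : Fintype.card (Fin k) = Module.finrank K E :=
    (Module.finrank_eq_card_basis (Module.Basis.mk hliK hsp)).symm
  refine ⟨(Module.Basis.mk hliK hsp).reindex (Fintype.equivFinOfCardEq hk), r, ?_, hr, ?_⟩
  · intro i
    rw [Module.Basis.reindex_apply, hb0]
    exact (m _).2
  · intro c hc i
    obtain ⟨a, ha⟩ := hexp c hc
    refine ⟨a ((Fintype.equivFinOfCardEq hk).symm i), ?_⟩
    rw [Module.Basis.repr_reindex_apply]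
    have h2 : r • c = ∑ i, algebraMap R K (a i) • (Module.Basis.mk hliK hsp) i := by
      rw [ha]
      exact Finset.sum_congr rfl fun i _ => by rw [hb0]
    have h3 := (Module.Basis.mk hliK hsp).repr_sum_self (fun i => algebraMap R K (a i))
    rw [← h2, ← algebraMap_smul K r c, map_smul] at h3
    have h4 := congrFun h3 ((Fintype.equivFinOfCardEq hk).symm i)
    rw [Finsupp.smul_apply, smul_eq_mul] at h4
    rw [Algebra.smul_def, h4]

end ExBasis

section MatrixLemma

variable {n : Type*} [Fintype n] [DecidableEq n]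

/-- eigenvector computation for a polynomial in a matrix -/
theorem eval₂_mulVec_eigen {A S : Type*} [CommRing A] [CommRing S] (f : A →+* S)
    (M : Matrix n n S) (v : n → S) (μ : S) (h : M *ᵥ v = μ • v) (P : A[X]) :
    (eval₂ ((Matrix.scalar n).comp f) M P) *ᵥ v = (eval₂ f μ P) • v := by
  have hpow : ∀ k : ℕ, (M ^ k) *ᵥ v = μ ^ k • v := by
    intro k
    induction k with
    | zero => simp
    | succ k ih =>
      rw [pow_succ, ← Matrix.mulVec_mulVec, h, Matrix.mulVec_smul, ih, smul_smul, pow_succ, mul_comm]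
  induction P using Polynomial.induction_on' with
  | add p q hp hq => rw [eval₂_add, eval₂_add, Matrix.add_mulVec, hp, hq, add_smul]
  | monomial k a =>
    rw [eval₂_monomial, eval₂_monomial, RingHom.comp_apply, Matrix.scalar_apply,
      ← Matrix.mulVec_mulVec, hpow]
    ext i
    simp [Matrix.mulVec_diagonal, mul_assoc]

/-- A matrix over the fraction field of an integrally closed domain which is killed by a monic
polynomial has trace in the domain. -/
theorem trace_mem_of_eval₂_eq_zero {A : Type*} [CommRing A] [IsDomain A] [IsIntegrallyClosed A]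
    {κ : Type*} [Field κ] [Algebra A κ] [IsFractionRing A κ]
    (M : Matrix n n κ) (P : A[X]) (hP : P.Monic)
    (h : eval₂ ((Matrix.scalar n).comp (algebraMap A κ)) M P = 0) :
    ∃ a : A, algebraMap A κ a = M.trace := by
  have hint : ∀ μ ∈ (M.map (algebraMap κ (AlgebraicClosure κ))).charpoly.roots,
      IsIntegral A μ := by
    intro μ hμ
    have hroot := (Polynomial.mem_roots'.mp hμ).2
    rw [Polynomial.IsRoot, Matrix.eval_charpoly] at hroot
    obtain ⟨v, hv0, hv⟩ := Matrix.exists_mulVec_eq_zero_iff.mpr hroot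
    have hv' : (M.map (algebraMap κ (AlgebraicClosure κ))) *ᵥ v = μ • v := by
      rw [Matrix.sub_mulVec, sub_eq_zero] at hv
      rw [← hv]
      ext i
      simp [Matrix.scalar_apply, Matrix.mulVec_diagonal]
    have h1 := eval₂_mulVec_eigen (algebraMap A (AlgebraicClosure κ)) _ v μ hv' P
    have h2 : eval₂ ((Matrix.scalar n).comp (algebraMap A (AlgebraicClosure κ)))
        (M.map (algebraMap κ (AlgebraicClosure κ))) P = 0 := by
      have h3 := congrArg (algebraMap κ (AlgebraicClosure κ)).mapMatrix h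
      rw [Polynomial.hom_eval₂, map_zero] at h3
      rw [← h3]
      congr 1
      ext a i j
      simp [Matrix.scalar_apply, Matrix.diagonal_apply, IsScalarTower.algebraMap_apply A κ
        (AlgebraicClosure κ)]
      split_ifs <;> simp
    rw [h2, Matrix.zero_mulVec] at h1
    refine ⟨P, hP, ?_⟩
    by_contra hne
    apply hv0
    funext i
    have := congrFun h1 i
    simp only [Pi.zero_apply, Pi.smul_apply, smul_eq_mul] at this
    exact (mul_eq_zero.mp this.symm).resolve_left hne
  have htr : (M.map (algebraMap κ (AlgebraicClosure κ))).trace =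
      algebraMap κ (AlgebraicClosure κ) M.trace := by
    simp [Matrix.trace, map_sum]
  have h4 : IsIntegral A (algebraMap κ (AlgebraicClosure κ) M.trace) := by
    rw [← htr, Matrix.trace_eq_sum_roots_charpoly]
    exact IsIntegral.multiset_sum hint
  have h5 : IsIntegral A M.trace :=
    (isIntegral_algebraMap_iff (FaithfulSMul.algebraMap_injective κ (AlgebraicClosure κ))).mp h4
  exact IsIntegrallyClosed.isIntegral_iff.mp h5


/-- If `γ` is a matrix over `R`, `φ : R → A` a ring hom to an integrally closed domain and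
`(P.scaleRoots s)(γ)` vanishes under `φ` for a monic `P`, then `φ s ∣ φ (trace γ)`. -/
theorem dvd_trace_of_scaleRoots {R A : Type*} [CommRing R] [CommRing A] [IsDomain A]
    [IsIntegrallyClosed A] (φ : R →+* A) (γ : Matrix n n R) (P : R[X]) (hP : P.Monic) (s : R)
    (hs : φ s ≠ 0)
    (hγ : ∀ i j, φ ((eval₂ (Matrix.scalar n) γ (P.scaleRoots s)) i j) = 0) :
    φ s ∣ φ γ.trace := by
  have hψs : (algebraMap A (FractionRing A)).comp φ s ≠ 0 := by
    rw [RingHom.comp_apply, Ne, map_eq_zero_iff _ (IsFractionRing.injective A (FractionRing A))]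
    exact hs
  generalize hψ : (algebraMap A (FractionRing A)).comp φ = ψ at hψs
  have h1 : eval₂ ((Matrix.scalar n).comp ψ)
      ((Matrix.scalar n).comp ψ s * ((ψ s)⁻¹ • γ.map ψ)) (P.scaleRoots s) =
      ((Matrix.scalar n).comp ψ s) ^ P.natDegree *
        eval₂ ((Matrix.scalar n).comp ψ) ((ψ s)⁻¹ • γ.map ψ) P :=
    Polynomial.scaleRoots_eval₂_mul_of_commute _ _ _ (Matrix.scalar_commute _ (fun _ => Commute.all _ _) _)
      (fun a b => Matrix.scalar_commute _ (fun _ => Commute.all _ _) _)
  have h2 : (Matrix.scalar n).comp ψ s * ((ψ s)⁻¹ • γ.map ψ) = γ.map ψ := by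
    ext i j
    simp [Matrix.scalar_apply, Matrix.diagonal_mul, hψs]
  have h3 : eval₂ ((Matrix.scalar n).comp ψ) (γ.map ψ) (P.scaleRoots s) = 0 := by
    have h := Polynomial.hom_eval₂ (P.scaleRoots s) (Matrix.scalar n) ψ.mapMatrix γ
    have hcomp : ψ.mapMatrix.comp (Matrix.scalar n) = (Matrix.scalar n).comp ψ := by
      ext a i j
      simp [Matrix.scalar_apply, Matrix.diagonal_apply]
      split_ifs <;> simp
    rw [hcomp] at h
    simp only [RingHom.mapMatrix_apply] at h
    rw [← h]
    ext i j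
    rw [Matrix.map_apply, ← hψ, RingHom.comp_apply, hγ i j, map_zero, Matrix.zero_apply]
  rw [h2, h3] at h1
  have h4 : eval₂ ((Matrix.scalar n).comp ψ) ((ψ s)⁻¹ • γ.map ψ) P = 0 := by
    have hunit : IsUnit (((Matrix.scalar n).comp ψ s) ^ P.natDegree) := by
      refine IsUnit.pow _ ?_
      rw [RingHom.comp_apply]
      exact (IsUnit.mk0 _ hψs).map (Matrix.scalar n)
    exact (hunit.mul_right_eq_zero).mp h1.symm
  have h5 : eval₂ ((Matrix.scalar n).comp (algebraMap A (FractionRing A)))
      ((ψ s)⁻¹ • γ.map ψ) (P.map φ) = 0 := by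
    rw [Polynomial.eval₂_map, RingHom.comp_assoc, hψ]
    exact h4
  obtain ⟨a, ha⟩ := trace_mem_of_eval₂_eq_zero _ (P.map φ) (hP.map φ) h5
  refine ⟨a, ?_⟩
  apply IsFractionRing.injective A (FractionRing A)
  have h6 : (γ.map ψ).trace = ψ γ.trace := by simp [Matrix.trace, map_sum]
  rw [map_mul, ha, Matrix.trace_smul, smul_eq_mul, h6, ← hψ, RingHom.comp_apply,
    RingHom.comp_apply, ← mul_assoc, mul_inv_cancel₀, one_mul]
  rw [← RingHom.comp_apply, hψ]
  exact hψs

end MatrixLemma

section PiAdic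

variable {R : Type*} [CommRing R] [IsDomain R] [IsIntegrallyClosed R]
  {K : Type*} [Field K] [Algebra R K] [IsFractionRing R K] {π : R} (hπ : Prime π)

omit [IsDomain R] in
theorem mem_LamK_iff {k : K} :
    k ∈ Lam R K hπ ↔ ∃ g a : R, ¬ π ∣ g ∧ g • k = algebraMap R K a := by
  constructor
  · rintro ⟨g, hg, h⟩
    obtain ⟨a, ha⟩ := IsIntegrallyClosed.isIntegral_iff.mp h
    exact ⟨g, a, hg, ha.symm⟩
  · rintro ⟨g, a, hg, h⟩
    exact ⟨g, hg, by rw [h]; exact isIntegral_algebraMap⟩

/-- `R ∩ π R_(π) = π R` -/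
theorem dvd_of_algebraMap_eq_smul {a : R} {o : K} (ho : o ∈ Lam R K hπ)
    (h : algebraMap R K a = π • o) : π ∣ a := by
  obtain ⟨g, a', hg, hga⟩ := (mem_LamK_iff hπ).mp ho
  have h1 : algebraMap R K (g * a) = algebraMap R K (π * a') := by
    rw [map_mul, h, map_mul, ← hga, Algebra.smul_def, Algebra.smul_def]
    ring
  have h2 := IsFractionRing.injective R K h1
  exact (hπ.dvd_or_dvd ⟨a', h2⟩).resolve_left hg

/-- the subring `R + π R_(π)` of `K` -/
def PiRes (R : Type*) [CommRing R] (K : Type*) [Field K] [Algebra R K] {π : R} (hπ : Prime π) :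
    Subalgebra R K where
  carrier := {k | ∃ t : R, ∃ o ∈ Lam R K hπ, k = algebraMap R K t + π • o}
  mul_mem' := by
    rintro x y ⟨t, o, ho, rfl⟩ ⟨t', o', ho', rfl⟩
    refine ⟨t * t', t • o' + t' • o + π • (o * o'), ?_, ?_⟩
    · exact Subalgebra.add_mem _ (Subalgebra.add_mem _ (Subalgebra.smul_mem _ ho' _)
        (Subalgebra.smul_mem _ ho _)) (Subalgebra.smul_mem _ (Subalgebra.mul_mem _ ho ho') _)
    · simp only [Algebra.smul_def, map_mul]
      ring
  add_mem' := by
    rintro x y ⟨t, o, ho, rfl⟩ ⟨t', o', ho', rfl⟩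
    exact ⟨t + t', o + o', Subalgebra.add_mem _ ho ho', by rw [map_add, smul_add]; ring⟩
  algebraMap_mem' := fun r => ⟨r, 0, Subalgebra.zero_mem _, by rw [smul_zero, add_zero]⟩

omit [IsDomain R] [IsIntegrallyClosed R] [IsFractionRing R K] in
theorem smul_mem_PiRes {o : K} (ho : o ∈ Lam R K hπ) : π • o ∈ PiRes R K hπ :=
  ⟨0, o, ho, by rw [map_zero, zero_add]⟩

omit [IsDomain R] [IsIntegrallyClosed R] [IsFractionRing R K] in
theorem PiRes_le_LamK : PiRes R K hπ ≤ Lam R K hπ := by
  rintro x ⟨t, o, ho, rfl⟩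
  exact Subalgebra.add_mem _ (Subalgebra.algebraMap_mem _ t) (Subalgebra.smul_mem _ ho _)

theorem exists_common_denom {ι : Type*} [Fintype ι] (f : ι → K) (hf : ∀ i, f i ∈ Lam R K hπ) :
    ∃ s : R, ¬ π ∣ s ∧ ∀ i, ∃ a : R, s • f i = algebraMap R K a := by
  classical
  choose g a hg hga using fun i => (mem_LamK_iff hπ).mp (hf i)
  refine ⟨∏ i, g i, ?_, fun i => ⟨(∏ j ∈ Finset.univ.erase i, g j) * a i, ?_⟩⟩
  · rw [Prime.dvd_finsetProd_iff hπ]
    rintro ⟨i, -, hi⟩
    exact hg i hi
  · rw [← Finset.prod_erase_mul _ _ (Finset.mem_univ i), mul_smul, hga, map_mul, Algebra.smul_def]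

include hπ in
/-- units mod `π`: if `d₀` lies in no height-one prime meeting `V(π)` other than `(π)`. -/
theorem exists_inverse_mod [IsNoetherianRing R] (d₀ : R) (hd : ¬ π ∣ d₀)
    (h : ∀ 𝔮 : Ideal R, 𝔮.IsPrime → 𝔮 ≠ ⊥ → π ∉ 𝔮 → (∀ r : R, π ∣ r - 1 → r ∉ 𝔮) → d₀ ∉ 𝔮) :
    ∃ d₁ : R, π ∣ d₀ * d₁ - 1 := by
  by_contra hcon
  have hne : Ideal.span {d₀} ⊔ Ideal.span {π} ≠ ⊤ := by
    intro htop
    have h1 : (1 : R) ∈ Ideal.span {d₀} ⊔ Ideal.span {π} := by rw [htop]; trivial
    obtain ⟨x, hx, y, hy, hxy⟩ := Submodule.mem_sup.mp h1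
    obtain ⟨d₁, rfl⟩ := Ideal.mem_span_singleton'.mp hx
    obtain ⟨e, rfl⟩ := Ideal.mem_span_singleton'.mp hy
    exact hcon ⟨d₁, ⟨-e, by linear_combination hxy⟩⟩
  obtain ⟨𝔫, h𝔫max, h𝔫⟩ := Ideal.exists_le_maximal _ hne
  have hd𝔫 : d₀ ∈ 𝔫 := h𝔫 (Ideal.mem_sup_left (Ideal.mem_span_singleton_self d₀))
  have hπ𝔫 : π ∈ 𝔫 := h𝔫 (Ideal.mem_sup_right (Ideal.mem_span_singleton_self π))
  have h𝔫prime := h𝔫max.isPrime
  obtain ⟨𝔮, h𝔮min, h𝔮le⟩ := Ideal.exists_minimalPrimes_le (I := Ideal.span {d₀}) (J := 𝔫)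
    ((Ideal.span_singleton_le_iff_mem _).mpr hd𝔫)
  have h𝔮prime : 𝔮.IsPrime := h𝔮min.1.1
  have hd𝔮 : d₀ ∈ 𝔮 := h𝔮min.1.2 (Ideal.mem_span_singleton_self d₀)
  have hd0 : d₀ ≠ 0 := fun h0 => hd (h0 ▸ dvd_zero π)
  have h𝔮bot : 𝔮 ≠ ⊥ := fun hb => hd0 (by rw [hb] at hd𝔮; exact hd𝔮)
  have hht : 𝔮.height ≤ 1 := Ideal.height_le_one_of_isPrincipal_of_mem_minimalPrimes _ 𝔮 h𝔮min
  have hπ𝔮 : π ∉ 𝔮 := by
    intro hπ𝔮
    have hIprime : (Ideal.span {π}).IsPrime := (Ideal.span_singleton_prime hπ.ne_zero).mpr hπ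
    have hle : Ideal.span {π} ≤ 𝔮 := (Ideal.span_singleton_le_iff_mem _).mpr hπ𝔮
    rcases hle.eq_or_lt with heq | hlt
    · exact hd ((Ideal.mem_span_singleton).mp (heq ▸ hd𝔮))
    · have h1 := Ideal.height_add_one_le_of_lt_of_isPrime hlt
      have h2 : (Ideal.span {π}).height = 0 := by
        have h3 := h1.trans hht
        by_contra h4
        have h5 : 1 ≤ (Ideal.span {π}).height := Order.one_le_iff_ne_zero.mpr h4
        have h6 : (1 : ℕ∞) + 1 ≤ 1 := (add_le_add_left h5 1).trans h3
        exact absurd h6 (by decide)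
      rw [Ideal.height_eq_zero_iff_eq_bot, Ideal.span_singleton_eq_bot] at h2
      exact hπ.ne_zero h2
  refine h 𝔮 h𝔮prime h𝔮bot hπ𝔮 ?_ hd𝔮
  rintro r ⟨e, he⟩ hr𝔮
  apply h𝔫prime.ne_top
  rw [Ideal.eq_top_iff_one]
  have h1 : (1 : R) = r - π * e := by rw [← he]; ring
  rw [h1]
  exact 𝔫.sub_mem (h𝔮le hr𝔮) (𝔫.mul_mem_right _ hπ𝔫)

end PiAdic

section Main

variable {R : Type*} [CommRing R] [IsDomain R] [IsNoetherianRing R] [IsIntegrallyClosed R]
  {K : Type*} [Field K] [Algebra R K] [IsFractionRing R K]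
  {E : Type*} [Field E] [Algebra K E] [Algebra R E] [IsScalarTower R K E]
  [FiniteDimensional K E] [Algebra.IsSeparable K E]
  {π : R} (hπ : Prime π)
  {ι : Type*} [Fintype ι] [DecidableEq ι]

theorem smul_mem_Lam {o : K} (ho : o ∈ Lam R K hπ) {c : E} (hc : c ∈ integralClosure R E) :
    o • c ∈ Lam R E hπ := by
  obtain ⟨g, a, hg, hga⟩ := (mem_LamK_iff hπ).mp ho
  refine ⟨g, hg, ?_⟩
  have h1 : g • (o • c) = a • c := by
    rw [← smul_assoc, hga, algebraMap_smul]
  rw [h1]
  exact Subalgebra.smul_mem _ hc _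

/-- (L1) coordinates of elements of `Lam` are `π`-integral. -/
theorem repr_mem_LamK (b : Module.Basis ι K E) (r : R) (hr : π ∣ r - 1)
    (hbr : ∀ c ∈ integralClosure R E, ∀ i, ∃ a : R, r • b.repr c i = algebraMap R K a)
    {z : E} (hz : z ∈ Lam R E hπ) (i : ι) : b.repr z i ∈ Lam R K hπ := by
  obtain ⟨g, hg, hgz⟩ := hz
  obtain ⟨a, ha⟩ := hbr _ hgz i
  have hr' : ¬ π ∣ r := fun h =>
    hπ.not_isUnit (isUnit_of_dvd_one (by simpa using dvd_sub h hr))
  refine (mem_LamK_iff hπ).mpr ⟨r * g, a, fun h => (hπ.dvd_or_dvd h).elim hr' hg, ?_⟩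
  rw [mul_smul, ← ha]
  congr 1
  rw [← algebraMap_smul K g z, map_smul, Finsupp.smul_apply, smul_eq_mul, Algebra.smul_def]

theorem exists_traceMatrix (b : Module.Basis ι K E) (hb : ∀ i, b i ∈ integralClosure R E) :
    ∃ T₀ : Matrix ι ι R, T₀.map (algebraMap R K) = Algebra.traceMatrix K b := by
  have h : ∀ i j, ∃ t : R, algebraMap R K t = Algebra.trace K E (b i * b j) := fun i j =>
    IsIntegrallyClosed.isIntegral_iff.mp
      (Algebra.isIntegral_trace (Subalgebra.mul_mem _ (hb i) (hb j)))
  choose T hT using h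
  refine ⟨Matrix.of T, ?_⟩
  ext i j
  rw [Matrix.map_apply, Matrix.of_apply, hT, Algebra.traceMatrix_apply, Algebra.traceForm_apply]

/-- (Claim A) -/
theorem not_dvd_det (b : Module.Basis ι K E) (r : R) (hr : π ∣ r - 1)
    (hbr : ∀ c ∈ integralClosure R E, ∀ i, ∃ a : R, r • b.repr c i = algebraMap R K a)
    (T₀ : Matrix ι ι R) (hT₀ : T₀.map (algebraMap R K) = Algebra.traceMatrix K b)
    (hgen : ∃ b' : Module.Basis ι K E, (∀ i, b' i ∈ Lam R E hπ) ∧
      ∃ u v : R, ¬ π ∣ u ∧ ¬ π ∣ v ∧ u • Algebra.discr K b' = algebraMap R K v) :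
    ¬ π ∣ T₀.det := by
  obtain ⟨b', hb', u, v, hu, hv, huv⟩ := hgen
  rintro ⟨d', hd'⟩
  have hdisc : Algebra.discr K b = algebraMap R K T₀.det := by
    rw [Algebra.discr_def, ← hT₀, RingHom.map_det]
    rfl
  have hPmem : ∀ i j, b.repr (b' i) j ∈ Lam R K hπ := fun i j =>
    repr_mem_LamK hπ b r hr hbr (hb' i) j
  have hb'eq : (b' : ι → E) = (Matrix.of fun i j => b.repr (b' i) j).map (algebraMap K E) *ᵥ b := by
    funext i
    rw [← b.sum_repr (b' i)]
    simp [Matrix.mulVec, dotProduct, Algebra.smul_def]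
  have hdet : (Matrix.of fun i j => b.repr (b' i) j).det ∈ Lam R K hπ := by
    have h1 : (Matrix.of fun i j => b.repr (b' i) j) =
        (Lam R K hπ).val.mapMatrix (Matrix.of fun i j => (⟨b.repr (b' i) j, hPmem i j⟩ :
          ↥(Lam R K hπ))) := by
      ext i j
      rfl
    rw [h1, ← AlgHom.map_det]
    exact Subtype.property _
  have h2 : Algebra.discr K b' =
      (Matrix.of fun i j => b.repr (b' i) j).det ^ 2 * Algebra.discr K b := by
    conv_lhs => rw [hb'eq]
    exact Algebra.discr_of_matrix_mulVec b _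
  rw [h2, hdisc, hd', map_mul] at huv
  refine hv (dvd_of_algebraMap_eq_smul hπ (o := u • ((Matrix.of fun i j => b.repr (b' i) j).det ^ 2
    * algebraMap R K d')) ?_ ?_)
  · exact Subalgebra.smul_mem _ (Subalgebra.mul_mem _ (Subalgebra.pow_mem _ hdet 2)
      (Subalgebra.algebraMap_mem _ _)) _
  · rw [← huv]
    simp only [Algebra.smul_def]
    ring


/-- (Lemma T) the trace of an element of `Lam` which is integral mod `π` lies in `R + π R_(π)`. -/
theorem trace_mem_PiRes [IsPrincipalIdealRing (R ⧸ Ideal.span {π})]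
    (b : Module.Basis ι K E) (hb : ∀ i, b i ∈ integralClosure R E) (r : R) (hr : π ∣ r - 1)
    (hbr : ∀ c ∈ integralClosure R E, ∀ i, ∃ a : R, r • b.repr c i = algebraMap R K a)
    {w : E} (hw : w ∈ Lam R E hπ) (P : R[X]) (hP : P.Monic) {z : E} (hz : z ∈ Lam R E hπ)
    (hPw : aeval w P = π • z) : Algebra.trace K E w ∈ PiRes R K hπ := by
  have hIprime : (Ideal.span {π}).IsPrime := (Ideal.span_singleton_prime hπ.ne_zero).mpr hπ
  have hA : ∀ p : ι × ι, Algebra.leftMulMatrix b w p.1 p.2 ∈ Lam R K hπ := by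
    rintro ⟨i, j⟩
    rw [Algebra.leftMulMatrix_eq_repr_mul]
    exact repr_mem_LamK hπ b r hr hbr
      (Subalgebra.mul_mem _ hw (integralClosure_le_Lam hπ (hb j))) i
  obtain ⟨s, hs, hsA⟩ := exists_common_denom hπ
    (fun p : ι × ι => Algebra.leftMulMatrix b w p.1 p.2) hA
  choose γ' hγ' using hsA
  have hs0 : algebraMap R K s ≠ 0 := by
    rw [Ne, map_eq_zero_iff _ (IsFractionRing.injective R K)]
    rintro rfl
    exact hs (dvd_zero π)
  have hγ : (Matrix.of fun i j => γ' (i, j)).map (algebraMap R K) =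
      ((Matrix.scalar ι).comp (algebraMap R K)) s * Algebra.leftMulMatrix b w := by
    ext i j
    simp [Matrix.scalar_apply, Matrix.diagonal_mul, ← hγ' (i, j), Algebra.smul_def]
  have hdiv : ∀ i j, π ∣ (eval₂ (Matrix.scalar ι) (Matrix.of fun i j => γ' (i, j))
      (P.scaleRoots s)) i j := by
    have h1 : (eval₂ (Matrix.scalar ι) (Matrix.of fun i j => γ' (i, j))
        (P.scaleRoots s)).map (algebraMap R K) =
        (Matrix.scalar ι) (algebraMap R K (s ^ P.natDegree)) *
          Algebra.leftMulMatrix b (π • z) := by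
      have h := Polynomial.hom_eval₂ (P.scaleRoots s) (Matrix.scalar ι)
        (algebraMap R K).mapMatrix (Matrix.of fun i j => γ' (i, j))
      have hcomp : (algebraMap R K).mapMatrix.comp (Matrix.scalar ι) =
          (Matrix.scalar ι).comp (algebraMap R K) := by
        ext a i j
        simp [Matrix.scalar_apply, Matrix.diagonal_apply]
        split_ifs <;> simp
      rw [hcomp] at h
      simp only [RingHom.mapMatrix_apply] at h
      rw [h, hγ, Polynomial.scaleRoots_eval₂_mul_of_commute _ _ _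
        (Matrix.scalar_commute _ (fun _ => Commute.all _ _) _)
        (fun a b => Matrix.scalar_commute _ (fun _ => Commute.all _ _) _)]
      rw [← map_pow, RingHom.comp_apply]
      congr 1
      have h3 := Polynomial.aeval_algHom_apply ((Algebra.leftMulMatrix b).restrictScalars R) w P
      rw [← hPw]
      exact h3
    intro i j
    have h4 : algebraMap R K ((eval₂ (Matrix.scalar ι) (Matrix.of fun i j => γ' (i, j))
        (P.scaleRoots s)) i j) = algebraMap R K s ^ P.natDegree *
          (algebraMap R K π * b.repr (z * b j) i) := by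
      have h5 := congrArg (fun M : Matrix ι ι K => M i j) h1
      simp only [Matrix.map_apply, Matrix.scalar_apply,
        Matrix.diagonal_mul, Algebra.leftMulMatrix_eq_repr_mul] at h5
      rw [h5, map_pow]
      congr 1
      rw [smul_mul_assoc, ← algebraMap_smul K π (z * b j), map_smul, Finsupp.smul_apply,
        smul_eq_mul]
    refine dvd_of_algebraMap_eq_smul hπ (o := s ^ P.natDegree • b.repr (z * b j) i) ?_ ?_
    · exact Subalgebra.smul_mem _ (repr_mem_LamK hπ b r hr hbr
        (Subalgebra.mul_mem _ hz (integralClosure_le_Lam hπ (hb j))) i) _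
    · rw [h4]
      simp only [Algebra.smul_def, map_pow]
      ring
  have hmain := dvd_trace_of_scaleRoots (Ideal.Quotient.mk (Ideal.span {π}))
    (Matrix.of fun i j => γ' (i, j)) P hP s
    (by rw [Ne, Ideal.Quotient.eq_zero_iff_mem, Ideal.mem_span_singleton]; exact hs)
    (fun i j => by rw [Ideal.Quotient.eq_zero_iff_mem, Ideal.mem_span_singleton]; exact hdiv i j)
  obtain ⟨t', ht'⟩ := hmain
  obtain ⟨t, rfl⟩ := Ideal.Quotient.mk_surjective t'
  rw [← map_mul, Ideal.Quotient.eq, Ideal.mem_span_singleton] at ht'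
  obtain ⟨a, ha⟩ := ht'
  have h5 : algebraMap R K s * Algebra.trace K E w =
      algebraMap R K (Matrix.of fun i j => γ' (i, j)).trace := by
    have h6 : ((Matrix.of fun i j => γ' (i, j)).map (algebraMap R K)).trace =
        algebraMap R K (Matrix.of fun i j => γ' (i, j)).trace := by
      simp [Matrix.trace, map_sum]
    rw [← h6, hγ, Algebra.trace_eq_matrix_trace b]
    simp [Matrix.trace, Matrix.scalar_apply, Matrix.diagonal_mul, Finset.mul_sum]
  refine ⟨t, (algebraMap R K s)⁻¹ * algebraMap R K a, ?_, ?_⟩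
  · exact (mem_LamK_iff hπ).mpr ⟨s, a, hs, by
      rw [Algebra.smul_def, ← mul_assoc, mul_inv_cancel₀ hs0, one_mul]⟩
  · apply mul_left_cancel₀ hs0
    have h7 : (Matrix.of fun i j => γ' (i, j)).trace = s * t + π * a := by
      linear_combination ha
    rw [h5, h7, Algebra.smul_def, map_add, map_mul, map_mul]
    field_simp

theorem intMod_mul {x c : E} (hx : x ∈ Lam R E hπ)
    (hxint : ∃ P : R[X], P.Monic ∧ ∃ z ∈ Lam R E hπ, aeval x P = π • z)
    (hc : c ∈ integralClosure R E) :
    ∃ P : R[X], P.Monic ∧ ∃ z ∈ Lam R E hπ, aeval (x * c) P = π • z := by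
  obtain ⟨P, hP, z, hz, hPz⟩ := hxint
  have h1 : IsIntegral R (Ideal.Quotient.mkₐ R
      (Ideal.span {algebraMap R ↥(Lam R E hπ) π}) ⟨x, hx⟩) := by
    refine ⟨P, hP, ?_⟩
    rw [← Polynomial.aeval_def, Polynomial.aeval_algHom_apply, Ideal.Quotient.mkₐ_eq_mk,
      Ideal.Quotient.eq_zero_iff_mem, Ideal.mem_span_singleton]
    refine ⟨⟨z, hz⟩, Subtype.ext ?_⟩
    rw [Polynomial.aeval_subalgebra_coe]
    simp [hPz, Algebra.smul_def]
  have h2 : IsIntegral R (Ideal.Quotient.mkₐ R
      (Ideal.span {algebraMap R ↥(Lam R E hπ) π}) ⟨c, integralClosure_le_Lam hπ hc⟩) := by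
    have h : IsIntegral R (⟨c, integralClosure_le_Lam hπ hc⟩ : ↥(Lam R E hπ)) :=
      (isIntegral_algHom_iff (Lam R E hπ).val Subtype.val_injective).mp hc
    exact h.map _
  have h3 := h1.mul h2
  rw [← map_mul] at h3
  obtain ⟨Q, hQ, hQ0⟩ := h3
  rw [← Polynomial.aeval_def, Polynomial.aeval_algHom_apply, Ideal.Quotient.mkₐ_eq_mk,
    Ideal.Quotient.eq_zero_iff_mem, Ideal.mem_span_singleton] at hQ0
  obtain ⟨z', hz'⟩ := hQ0
  refine ⟨Q, hQ, z', z'.2, ?_⟩
  have h4 := congrArg Subtype.val hz'
  rw [Polynomial.aeval_subalgebra_coe] at h4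
  simpa [Algebra.smul_def] using h4


/-- **FINITE CHART, surjectivity**: every element of `Lam/π` integral over `R/π` comes from `C`. -/
theorem finiteChart_surj [IsPrincipalIdealRing (R ⧸ Ideal.span {π})]
    (hgen : ∃ b : Module.Basis (Fin (Module.finrank K E)) K E, (∀ i, b i ∈ Lam R E hπ) ∧
      ∃ u v : R, ¬ π ∣ u ∧ ¬ π ∣ v ∧ u • Algebra.discr K b = algebraMap R K v)
    (hunr : ∀ 𝔮 : Ideal R, 𝔮.IsPrime → 𝔮 ≠ ⊥ → π ∉ 𝔮 →
      ∀ b : Module.Basis (Fin (Module.finrank K E)) K E, (∀ i, b i ∈ integralClosure R E) →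
      (∃ g : R, g ∉ 𝔮 ∧ ∀ z ∈ integralClosure R E, ∀ i, ∃ a : R,
        g • b.repr z i = algebraMap R K a) →
      ∀ d : R, algebraMap R K d = Algebra.discr K b → d ∉ 𝔮) :
    ∀ x ∈ Lam R E hπ, (∃ P : R[X], P.Monic ∧ ∃ z ∈ Lam R E hπ, aeval x P = π • z) →
      ∃ y ∈ integralClosure R E, ∃ z ∈ Lam R E hπ, y - x = π • z := by
  intro x hx hxint
  obtain ⟨b, r, hb, hr, hbr⟩ := exists_basis K (E := E) hπ
  obtain ⟨T₀, hT₀⟩ := exists_traceMatrix b hb
  have hdisc : algebraMap R K T₀.det = Algebra.discr K b := by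
    rw [Algebra.discr_def, ← hT₀, RingHom.map_det]
    rfl
  have hA : ¬ π ∣ T₀.det := not_dvd_det hπ b r hr hbr T₀ hT₀ hgen
  obtain ⟨d₁, e, he⟩ := exists_inverse_mod hπ T₀.det hA
    (fun 𝔮 h1 h2 h3 h4 => hunr 𝔮 h1 h2 h3 b hb ⟨r, h4 r hr, hbr⟩ T₀.det hdisc)
  have hτ : ∀ j, Algebra.trace K E (x * b j) ∈ PiRes R K hπ := by
    intro j
    obtain ⟨Pj, hPj, zj, hzj, hj⟩ := intMod_mul hπ hx hxint (hb j)
    exact trace_mem_PiRes hπ b hb r hr hbr
      (Subalgebra.mul_mem _ hx (integralClosure_le_Lam hπ (hb j))) Pj hPj hzj hj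
  have hξ : ∀ k, algebraMap R K T₀.det * b.repr x k ∈ PiRes R K hπ := by
    intro k
    have h1 : ∀ j, Algebra.trace K E (x * b j) =
        ∑ i, b.repr x i * algebraMap R K (T₀ i j) := by
      intro j
      conv_lhs => rw [← b.sum_repr x]
      rw [Finset.sum_mul, map_sum]
      refine Finset.sum_congr rfl fun i _ => ?_
      rw [smul_mul_assoc, map_smul, smul_eq_mul]
      congr 1
      have h := congrArg (fun M : Matrix (Fin (Module.finrank K E)) (Fin (Module.finrank K E)) K
        => M i j) hT₀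
      simp only [Matrix.map_apply, Algebra.traceMatrix_apply, Algebra.traceForm_apply] at h
      exact h.symm
    have h2 : algebraMap R K T₀.det * b.repr x k =
        ∑ j, Algebra.trace K E (x * b j) * algebraMap R K (T₀.adjugate j k) := by
      have h3 : ∀ i, ∑ j, b.repr x i * algebraMap R K (T₀ i j) *
          algebraMap R K (T₀.adjugate j k) =
          b.repr x i * algebraMap R K ((T₀ * T₀.adjugate) i k) := by
        intro i
        rw [Matrix.mul_apply, map_sum, Finset.mul_sum]
        exact Finset.sum_congr rfl fun j _ => by rw [map_mul, mul_assoc]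
      simp_rw [h1, Finset.sum_mul]
      rw [Finset.sum_comm]
      simp_rw [h3, Matrix.mul_adjugate, Matrix.smul_apply, Matrix.one_apply, smul_eq_mul]
      rw [Finset.sum_eq_single k (fun i _ hik => by simp [hik])
        (fun h => absurd (Finset.mem_univ k) h)]
      simp [mul_comm]
    rw [h2]
    exact Subalgebra.sum_mem _ fun j _ =>
      Subalgebra.mul_mem _ (hτ j) (Subalgebra.algebraMap_mem _ _)
  have hξ' : ∀ k, b.repr x k ∈ PiRes R K hπ := by
    intro k
    have hO : b.repr x k ∈ Lam R K hπ := repr_mem_LamK hπ b r hr hbr hx k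
    have h1 : b.repr x k = d₁ • (algebraMap R K T₀.det * b.repr x k) - π • (e • b.repr x k) := by
      have h2 := congrArg (algebraMap R K) he
      simp only [map_sub, map_mul, map_one] at h2
      simp only [Algebra.smul_def]
      linear_combination (- b.repr x k) * h2
    rw [h1]
    exact Subalgebra.sub_mem _ (Subalgebra.smul_mem _ (hξ k) _)
      (smul_mem_PiRes hπ (Subalgebra.smul_mem _ hO _))
  choose η o ho hηo using hξ'
  refine ⟨∑ k, η k • b k, Subalgebra.sum_mem _ fun k _ => Subalgebra.smul_mem _ (hb k) _,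
    -∑ k, o k • b k, ?_, ?_⟩
  · exact Subalgebra.neg_mem _ (Subalgebra.sum_mem _ fun k _ => smul_mem_Lam hπ (ho k) (hb k))
  · conv_lhs => rw [← b.sum_repr x]
    rw [← Finset.sum_sub_distrib, smul_neg, Finset.smul_sum, ← Finset.sum_neg_distrib]
    refine Finset.sum_congr rfl fun k _ => ?_
    rw [hηo k, add_smul, algebraMap_smul, smul_assoc]
    abel

end Main

end Fermat.Agent.RedLib.FiniteChart
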