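/-
S18 long shot, piece (5) FC-core of the AG interface (helper4): the finite chart lemma
WITHOUT the unramifiedness hypothesis.  In the setting of `FiniteChart` there are a basis `b`
of `E` inside the integral closure `C`, free near `V(π)`, with discriminant `d` prime to `π`,
such that `d • x ∈ C + π Lam` for every `x ∈ Lam` which is integral modulo `π`
(in particular for every idempotent modulo `π`).
-/
import Mathlib
import Fermat.Agent.RedLib.FiniteChart

set_option autoImplicit false
set_option linter.unusedSectionVars false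

namespace Fermat.Agent.RedLib.FCCore

open Polynomial Matrix
open Fermat.Agent.RedLib.FiniteChart

variable {R : Type*} [CommRing R] [IsDomain R] [IsNoetherianRing R] [IsIntegrallyClosed R]
  {K : Type*} [Field K] [Algebra R K] [IsFractionRing R K]
  {E : Type*} [Field E] [Algebra K E] [Algebra R E] [IsScalarTower R K E]
  [FiniteDimensional K E] [Algebra.IsSeparable K E]
  {π : R} (hπ : Prime π)

/-- the generic discriminant hypothesis of `FiniteChart` from a basis indexed by any `Fin n`. -/
theorem hgen_of_fin {n : ℕ} (b : Module.Basis (Fin n) K E) (hb : ∀ i, b i ∈ Lam R E hπ)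
    (u v : R) (hu : ¬ π ∣ u) (hv : ¬ π ∣ v)
    (h : algebraMap R K u * Algebra.discr K b = algebraMap R K v) :
    ∃ b : Module.Basis (Fin (Module.finrank K E)) K E, (∀ i, b i ∈ Lam R E hπ) ∧
      ∃ u v : R, ¬ π ∣ u ∧ ¬ π ∣ v ∧ u • Algebra.discr K b = algebraMap R K v := by
  obtain rfl : n = Module.finrank K E := by
    rw [Module.finrank_eq_card_basis b, Fintype.card_fin]
  exact ⟨b, hb, u, v, hu, hv, by rw [Algebra.smul_def]; exact h⟩

/-- FC-core, general form (any monic polynomial). -/
theorem fc_core_gen [IsPrincipalIdealRing (R ⧸ Ideal.span {π})]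
    (hgen : ∃ b : Module.Basis (Fin (Module.finrank K E)) K E, (∀ i, b i ∈ Lam R E hπ) ∧
      ∃ u v : R, ¬ π ∣ u ∧ ¬ π ∣ v ∧ u • Algebra.discr K b = algebraMap R K v) :
    ∃ (b : Module.Basis (Fin (Module.finrank K E)) K E) (r d : R),
      (∀ i, b i ∈ integralClosure R E) ∧ π ∣ r - 1 ∧
      (∀ z ∈ integralClosure R E, ∀ i, ∃ a : R, r • b.repr z i = algebraMap R K a) ∧
      algebraMap R K d = Algebra.discr K b ∧ ¬ π ∣ d ∧
      ∀ x ∈ Lam R E hπ, (∃ P : R[X], P.Monic ∧ ∃ z ∈ Lam R E hπ, aeval x P = π • z) →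
        ∃ y ∈ integralClosure R E, ∃ z ∈ Lam R E hπ, y - d • x = π • z := by
  obtain ⟨b, r, hb, hr, hbr⟩ := exists_basis K (E := E) hπ
  obtain ⟨T₀, hT₀⟩ := exists_traceMatrix b hb
  have hdisc : algebraMap R K T₀.det = Algebra.discr K b := by
    rw [Algebra.discr_def, ← hT₀, RingHom.map_det]
    rfl
  have hA : ¬ π ∣ T₀.det := not_dvd_det hπ b r hr hbr T₀ hT₀ hgen
  refine ⟨b, r, T₀.det, hb, hr, hbr, hdisc, hA, ?_⟩
  intro x hx hxint
  have hτ : ∀ j, Algebra.trace K E (x * b j) ∈ PiRes R K hπ := by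
    intro j
    obtain ⟨Pj, hPj, zj, hzj, hj⟩ := intMod_mul hπ hx hxint (hb j)
    exact trace_mem_PiRes hπ b hb r hr hbr
      (Subalgebra.mul_mem _ hx (integralClosure_le_Lam hπ (hb j))) Pj hPj hzj hj
  have hξ : ∀ k, algebraMap R K T₀.det * b.repr x k ∈ PiRes R K hπ := by
    intro k
    have h1 : ∀ j, Algebra.trace K E (x * b j) =
        ∑ i, b.repr x i * algebraMap R K (T₀ i j) := by
      intro j
      conv_lhs => rw [← b.sum_repr x]
      rw [Finset.sum_mul, map_sum]
      refine Finset.sum_congr rfl fun i _ => ?_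
      rw [smul_mul_assoc, map_smul, smul_eq_mul]
      congr 1
      have h := congrArg (fun M : Matrix (Fin (Module.finrank K E)) (Fin (Module.finrank K E)) K
        => M i j) hT₀
      simp only [Matrix.map_apply, Algebra.traceMatrix_apply, Algebra.traceForm_apply] at h
      exact h.symm
    have h2 : algebraMap R K T₀.det * b.repr x k =
        ∑ j, Algebra.trace K E (x * b j) * algebraMap R K (T₀.adjugate j k) := by
      have h3 : ∀ i, ∑ j, b.repr x i * algebraMap R K (T₀ i j) *
          algebraMap R K (T₀.adjugate j k) =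
          b.repr x i * algebraMap R K ((T₀ * T₀.adjugate) i k) := by
        intro i
        rw [Matrix.mul_apply, map_sum, Finset.mul_sum]
        exact Finset.sum_congr rfl fun j _ => by rw [map_mul, mul_assoc]
      simp_rw [h1, Finset.sum_mul]
      rw [Finset.sum_comm]
      simp_rw [h3, Matrix.mul_adjugate, Matrix.smul_apply, Matrix.one_apply, smul_eq_mul]
      rw [Finset.sum_eq_single k (fun i _ hik => by simp [hik])
        (fun h => absurd (Finset.mem_univ k) h)]
      simp [mul_comm]
    rw [h2]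
    exact Subalgebra.sum_mem _ fun j _ =>
      Subalgebra.mul_mem _ (hτ j) (Subalgebra.algebraMap_mem _ _)
  choose η o ho hηo using hξ
  refine ⟨∑ k, η k • b k, Subalgebra.sum_mem _ fun k _ => Subalgebra.smul_mem _ (hb k) _,
    -∑ k, o k • b k, ?_, ?_⟩
  · exact Subalgebra.neg_mem _ (Subalgebra.sum_mem _ fun k _ => smul_mem_Lam hπ (ho k) (hb k))
  · conv_lhs => rw [← b.sum_repr x]
    rw [Finset.smul_sum, ← Finset.sum_sub_distrib, smul_neg, Finset.smul_sum,
      ← Finset.sum_neg_distrib]
    refine Finset.sum_congr rfl fun k _ => ?_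
    have h4 : T₀.det • (b.repr x k • b k) = (algebraMap R K T₀.det * b.repr x k) • b k := by
      rw [mul_smul, algebraMap_smul]
    rw [h4, hηo k, add_smul, algebraMap_smul, smul_assoc]
    abel

/-- FC-core, the exact shape of piece (5) of the AG interface (idempotents modulo `π`). -/
theorem fc_core [IsPrincipalIdealRing (R ⧸ Ideal.span {π})]
    (hgen : ∃ b : Module.Basis (Fin (Module.finrank K E)) K E, (∀ i, b i ∈ Lam R E hπ) ∧
      ∃ u v : R, ¬ π ∣ u ∧ ¬ π ∣ v ∧ u • Algebra.discr K b = algebraMap R K v) :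
    ∃ (b : Module.Basis (Fin (Module.finrank K E)) K E) (r d : R),
      (∀ i, b i ∈ integralClosure R E) ∧ π ∣ r - 1 ∧
      (∀ z ∈ integralClosure R E, ∀ i, ∃ a : R,
        algebraMap R K r * b.repr z i = algebraMap R K a) ∧
      algebraMap R K d = Algebra.discr K b ∧ ¬ π ∣ d ∧
      ∀ x ∈ Lam R E hπ, (∃ z ∈ Lam R E hπ, x * x - x = π • z) →
        ∃ y ∈ integralClosure R E, ∃ z ∈ Lam R E hπ, y - d • x = π • z := by
  obtain ⟨b, r, d, hb, hr, hbr, hd, hπd, h⟩ := fc_core_gen hπ hgen
  refine ⟨b, r, d, hb, hr, ?_, hd, hπd, ?_⟩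
  · intro z hz i
    obtain ⟨a, ha⟩ := hbr z hz i
    exact ⟨a, by rw [← Algebra.smul_def]; exact ha⟩
  · rintro x hx ⟨z, hz, hxz⟩
    refine h x hx ⟨X ^ 2 - X, ?_, z, hz, ?_⟩
    · exact monic_X_pow_sub (by rw [degree_X]; exact_mod_cast one_lt_two)
    · rw [map_sub, map_pow, aeval_X, pow_two]
      exact hxz

end Fermat.Agent.RedLib.FCCore
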