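/-
S18 long shot: the LINE SPECIALISATION of FC-core (helper4), in the vocabulary of `AGDefs`.
`R := A0[X]` acts on `Kt = K(x)` and on `FF` through `X ↦ x`; `R` is a noetherian integrally closed
domain, `C π` is prime, `R/(C π) = k0[X]` is a PID, `Kt = Frac R`, the integral closure of `R` in
`FF` is `chart A0 x`, and `FiniteChart.Lam` is the Gauss lattice.
-/
import Mathlib
import Fermat.Agent.RedLib.AGDefs
import Fermat.Agent.RedLib.FCCore

set_option autoImplicit false

namespace Fermat.Agent.RedLib.FCLine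

open Polynomial

/-- `A0[X]/(π) = k0[X]` is a principal ideal ring. -/
theorem pid_quot {A0 : Type*} [CommRing A0] [IsDomain A0] [IsDiscreteValuationRing A0] {π : A0}
    (hπ : Irreducible π) : IsPrincipalIdealRing (A0[X] ⧸ Ideal.span {(C π : A0[X])}) := by
  have hmax : (Ideal.span {π}).IsMaximal := by
    rw [← hπ.maximalIdeal_eq]
    infer_instance
  let _ : Field (A0 ⧸ Ideal.span {π}) := Ideal.Quotient.field _
  have hI : Ideal.map (C : A0 →+* A0[X]) (Ideal.span {π}) = Ideal.span {(C π : A0[X])} := by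
    rw [Ideal.map_span, Set.image_singleton]
  have h1 : IsPrincipalIdealRing (A0[X] ⧸ Ideal.map (C : A0 →+* A0[X]) (Ideal.span {π})) :=
    IsPrincipalIdealRing.of_surjective
      (Ideal.polynomialQuotientEquivQuotientPolynomial (Ideal.span {π})) (RingEquiv.surjective _)
  exact IsPrincipalIdealRing.of_surjective (Ideal.quotEquivOfEq hI) (RingEquiv.surjective _)

/-- `K(x) = Frac A0[X]` for `x` transcendental. -/
theorem isFractionRing_of_transcendental {A0 K Kt : Type*} [CommRing A0] [IsDomain A0] [Field K]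
    [Algebra A0 K] [IsFractionRing A0 K] [Field Kt] [Algebra A0 Kt] [Algebra K Kt]
    [IsScalarTower A0 K Kt] [Algebra A0[X] Kt] (xK : Kt)
    (halg : ∀ g : A0[X], algebraMap A0[X] Kt g = aeval xK g) (hxK : Transcendental K xK)
    (hKt : ∀ z : Kt, ∃ f g : K[X], g ≠ 0 ∧ z * aeval xK g = aeval xK f) :
    IsFractionRing A0[X] Kt := by
  have hinjK : Function.Injective (aeval xK : K[X] → Kt) := transcendental_iff_injective.mp hxK
  have hinj : Function.Injective (algebraMap A0[X] Kt) := by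
    intro g₁ g₂ h
    rw [halg, halg, ← aeval_map_algebraMap K xK g₁, ← aeval_map_algebraMap K xK g₂] at h
    exact Polynomial.map_injective _ (IsFractionRing.injective A0 K) (hinjK h)
  have : FaithfulSMul A0[X] Kt := (faithfulSMul_iff_algebraMap_injective _ _).mpr hinj
  refine IsFractionRing.of_field _ _ fun z => ?_
  obtain ⟨f, g, hg, hz⟩ := hKt z
  obtain ⟨bf, hbf0, hbf⟩ := IsLocalization.integerNormalization_spec (nonZeroDivisors A0) f
  obtain ⟨bg, hbg0, hbg⟩ := IsLocalization.integerNormalization_spec (nonZeroDivisors A0) g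
  have hsm : ∀ (c : A0) (p : K[X]), aeval xK (c • p) = algebraMap A0 Kt c * aeval xK p := by
    intro c p
    rw [Algebra.smul_def, map_mul, IsScalarTower.algebraMap_apply A0 K K[X],
      Polynomial.algebraMap_apply, Algebra.algebraMap_self, RingHom.id_apply, aeval_C,
      ← IsScalarTower.algebraMap_apply]
  have hF : aeval xK (IsLocalization.integerNormalization (nonZeroDivisors A0) f) =
      algebraMap A0 Kt bf * aeval xK f := by
    rw [← aeval_map_algebraMap K, hbf, hsm]
  have hG : aeval xK (IsLocalization.integerNormalization (nonZeroDivisors A0) g) =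
      algebraMap A0 Kt bg * aeval xK g := by
    rw [← aeval_map_algebraMap K, hbg, hsm]
  have hne : ∀ c : A0, c ∈ nonZeroDivisors A0 → algebraMap A0 Kt c ≠ 0 := by
    intro c hc
    rw [IsScalarTower.algebraMap_apply A0 K Kt, Ne, map_eq_zero,
      map_eq_zero_iff _ (IsFractionRing.injective A0 K)]
    exact nonZeroDivisors.ne_zero hc
  have hg' : aeval xK g ≠ 0 := fun h => hg (hinjK (by rw [h, map_zero]))
  refine ⟨C bg * IsLocalization.integerNormalization (nonZeroDivisors A0) f,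
    C bf * IsLocalization.integerNormalization (nonZeroDivisors A0) g, ?_⟩
  rw [halg, halg, map_mul, map_mul, aeval_C, aeval_C, hF, hG, eq_div_iff
    (mul_ne_zero (hne bf hbf0) (mul_ne_zero (hne bg hbg0) hg'))]
  linear_combination (algebraMap A0 Kt bf * algebraMap A0 Kt bg) * hz

/-- the integral closure of `A0[X]` (acting through `X ↦ x`) is the chart. -/
theorem mem_integralClosure_iff_mem_chart {A0 FF : Type*} [CommRing A0] [Field FF] [Algebra A0 FF]
    [Algebra A0[X] FF] (x : FF) (halg : ∀ g : A0[X], algebraMap A0[X] FF g = aeval x g) (z : FF) :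
    z ∈ integralClosure A0[X] FF ↔ z ∈ AGDefs.chart A0 x := by
  obtain ⟨φ, hφ⟩ : ∃ φ : A0[X] →+* ↥(Algebra.adjoin A0 ({x} : Set FF)),
      ∀ g, (φ g : FF) = aeval x g :=
    ⟨(aeval (R := A0) (⟨x, Algebra.subset_adjoin (Set.mem_singleton x)⟩ :
        ↥(Algebra.adjoin A0 ({x} : Set FF)))).toRingHom, fun g => by
      simp⟩
  have hcomp : (algebraMap ↥(Algebra.adjoin A0 ({x} : Set FF)) FF).comp φ =
      algebraMap A0[X] FF := RingHom.ext fun g => by
    rw [RingHom.comp_apply, halg, ← hφ]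
    rfl
  have hsurj : Function.Surjective φ := by
    rintro ⟨s, hs⟩
    rw [Algebra.adjoin_singleton_eq_range_aeval A0 x] at hs
    obtain ⟨g, rfl⟩ := hs
    exact ⟨g, Subtype.ext (hφ g)⟩
  rw [AGDefs.mem_chart]
  constructor
  · intro h
    have h1 := IsIntegral.map_of_comp_eq φ (RingHom.id FF)
      (by rw [hcomp, RingHom.id_comp]) h
    simpa using h1
  · rintro ⟨P, hP, hPz⟩
    obtain ⟨Q, hQ, -, hQm⟩ := Polynomial.lifts_and_natDegree_eq_and_monic
      ((Polynomial.mem_lifts P).mpr (Polynomial.map_surjective _ hsurj P)) hP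
    refine ⟨Q, hQm, ?_⟩
    rw [← hcomp, ← Polynomial.eval₂_map, hQ]
    exact hPz

/-- **FC-core on the line.** -/
theorem fc_line {A0 K Kt FF : Type*} [CommRing A0] [IsDomain A0] [IsDiscreteValuationRing A0]
    [Field K] [Algebra A0 K] [IsFractionRing A0 K]
    [Field Kt] [Algebra A0 Kt] [Algebra K Kt] [IsScalarTower A0 K Kt]
    [Field FF] [Algebra A0 FF] [Algebra Kt FF] [IsScalarTower A0 Kt FF]
    [FiniteDimensional Kt FF] [Algebra.IsSeparable Kt FF]
    (π : A0) (hπ : Irreducible π) (xK : Kt) (hxK : Transcendental K xK)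
    (hKt : ∀ z : Kt, ∃ f g : K[X], g ≠ 0 ∧ z * aeval xK g = aeval xK f)
    (Lam : Subalgebra A0 FF) (hLam : AGDefs.IsGaussLattice A0 π (algebraMap Kt FF xK) Lam)
    (hgen : AGDefs.IsGaussEtale A0 π xK Lam) :
    ∃ (n : ℕ) (b : Module.Basis (Fin n) Kt FF) (r d : A0[X]),
      (∀ i, b i ∈ AGDefs.chart A0 (algebraMap Kt FF xK)) ∧ C π ∣ r - 1 ∧
      (∀ z ∈ AGDefs.chart A0 (algebraMap Kt FF xK), ∀ i, ∃ a : A0[X],
        aeval xK r * b.repr z i = aeval xK a) ∧
      aeval xK d = Algebra.discr Kt b ∧ ¬ C π ∣ d ∧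
      ∀ y ∈ Lam, (∃ z ∈ Lam, y * y - y = π • z) →
        ∃ c ∈ AGDefs.chart A0 (algebraMap Kt FF xK), ∃ z ∈ Lam,
          c - aeval (algebraMap Kt FF xK) d * y = π • z := by
  let algKt : Algebra A0[X] Kt := (aeval xK : A0[X] →ₐ[A0] Kt).toRingHom.toAlgebra
  let algFF : Algebra A0[X] FF :=
    (aeval (algebraMap Kt FF xK) : A0[X] →ₐ[A0] FF).toRingHom.toAlgebra
  have hKt' : ∀ g : A0[X], algebraMap A0[X] Kt g = aeval xK g := fun _ => rfl
  have hFF' : ∀ g : A0[X], algebraMap A0[X] FF g = aeval (algebraMap Kt FF xK) g := fun _ => rfl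
  have : IsScalarTower A0[X] Kt FF := IsScalarTower.of_algebraMap_eq fun g => by
    rw [hKt', hFF', aeval_algebraMap_apply]
  have : IsFractionRing A0[X] Kt := isFractionRing_of_transcendental xK hKt' hxK hKt
  have hprime : Prime (C π : A0[X]) := prime_C_iff.mpr hπ.prime
  have : IsPrincipalIdealRing (A0[X] ⧸ Ideal.span {(C π : A0[X])}) := pid_quot hπ
  have hint : ∀ z : FF, z ∈ integralClosure A0[X] FF ↔
      z ∈ AGDefs.chart A0 (algebraMap Kt FF xK) :=
    fun z => mem_integralClosure_iff_mem_chart _ hFF' z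
  have hsmul : ∀ (g : A0[X]) (z : FF), g • z = aeval (algebraMap Kt FF xK) g * z := fun g z => by
    rw [Algebra.smul_def, hFF']
  have hLam' : ∀ y : FF, y ∈ FiniteChart.Lam A0[X] FF hprime ↔ y ∈ Lam := by
    intro y
    rw [hLam y, FiniteChart.mem_Lam]
    constructor
    · rintro ⟨g, hg, h⟩
      exact ⟨g, hg, by rw [← hsmul]; exact (hint _).mp h⟩
    · rintro ⟨g, hg, h⟩
      exact ⟨g, hg, (hint _).mpr (by rw [hsmul]; exact h)⟩
  obtain ⟨n, b₀, hb₀, u, v, hu, hv, huv⟩ := hgen
  have hgen' := FCCore.hgen_of_fin hprime b₀ (fun i => (hLam' _).mpr (hb₀ i)) u v hu hv huv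
  obtain ⟨b, r, d, hb, hr, hbr, hd, hπd, h⟩ := FCCore.fc_core hprime hgen'
  refine ⟨Module.finrank Kt FF, b, r, d, fun i => (hint _).mp (hb i), hr, ?_, hd, hπd, ?_⟩
  · intro z hz i
    exact hbr z ((hint z).mpr hz) i
  · rintro y hy ⟨z, hz, hyz⟩
    have hπsmul : ∀ w : FF, (C π : A0[X]) • w = π • w := fun w => by
      rw [hsmul, aeval_C, Algebra.smul_def]
    obtain ⟨c, hc, z', hz', hcz⟩ := h y ((hLam' y).mpr hy)
      ⟨z, (hLam' z).mpr hz, by rw [hπsmul]; exact hyz⟩
    exact ⟨c, (hint c).mp hc, z', (hLam' z').mp hz', by rw [← hsmul, hcz, hπsmul]⟩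

end Fermat.Agent.RedLib.FCLine
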