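import Mathlib

/-!
# The local ring of `A0[X]` at the closed point `(π, X - a)`
-/

open Polynomial

namespace Fermat.Agent.RedLib.PolyLocal


theorem isUnit_of_not_dvd' {A0 : Type*} [CommRing A0] [IsDomain A0] [IsDiscreteValuationRing A0]
    {π : A0} (hπ : Irreducible π) {c : A0} (hc : ¬ π ∣ c) : IsUnit c := by
  by_contra h
  apply hc
  have h1 : c ∈ IsLocalRing.maximalIdeal A0 := (IsLocalRing.mem_maximalIdeal c).mpr h
  rw [(IsDiscreteValuationRing.irreducible_iff_uniformizer π).mp hπ] at h1
  exact Ideal.mem_span_singleton.mp h1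

/-- The maximal ideal `(π, X - a)` of `A0[X]`. -/
noncomputable def nId {A0 : Type*} [CommRing A0] (π a : A0) : Ideal A0[X] :=
  (Ideal.span {π}).comap (evalRingHom a)

theorem mem_nId {A0 : Type*} [CommRing A0] {π a : A0} {g : A0[X]} :
    g ∈ nId π a ↔ π ∣ g.eval a := by
  simp [nId, Ideal.mem_span_singleton]

theorem nId_isPrime {A0 : Type*} [CommRing A0] [IsDomain A0] [IsDiscreteValuationRing A0]
    {π : A0} (hπ : Irreducible π) (a : A0) : (nId π a).IsPrime := by
  haveI := (Ideal.span_singleton_prime hπ.ne_zero).mpr hπ.prime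
  exact Ideal.comap_isPrime _ _

section loc

variable {A0 : Type*} [CommRing A0] [IsDomain A0] [IsDiscreteValuationRing A0]
  {π : A0} (hπ : Irreducible π) (a : A0)
  (O : Type*) [CommRing O] [Algebra A0[X] O] [(nId π a).IsPrime]
  [IsLocalization.AtPrime O (nId π a)]

include hπ a

theorem isUnit_eval_of_not_mem (y : (nId π a).primeCompl) :
    IsUnit (evalRingHom a (y : A0[X])) := by
  apply isUnit_of_not_dvd' hπ
  intro h
  exact y.2 (mem_nId.mpr h)

/-- Evaluation at `a`, extended to the local ring. -/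
noncomputable def psi : O →+* A0 :=
  IsLocalization.lift (M := (nId π a).primeCompl) (g := evalRingHom a)
    (isUnit_eval_of_not_mem hπ a)

theorem psi_algebraMap (g : A0[X]) : psi hπ a O (algebraMap A0[X] O g) = g.eval a := by
  simp [psi, IsLocalization.lift_eq]

theorem psi_surjective : Function.Surjective (psi hπ a O) := by
  intro c
  exact ⟨algebraMap A0[X] O (C c), by rw [psi_algebraMap]; simp⟩

theorem algebraMap_injective : Function.Injective (algebraMap A0[X] O) :=
  IsLocalization.injective O (Ideal.primeCompl_le_nonZeroDivisors (nId π a))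

/-- every element of `O` is a fraction `p / g` with `g ∉ 𝔫`. -/
theorem exists_frac (o : O) : ∃ (p g : A0[X]), g ∉ nId π a ∧ o * algebraMap A0[X] O g =
    algebraMap A0[X] O p := by
  obtain ⟨⟨p, g⟩, h⟩ := IsLocalization.surj (nId π a).primeCompl o
  exact ⟨p, g, g.2, h⟩

theorem isUnit_algebraMap {g : A0[X]} (hg : g ∉ nId π a) : IsUnit (algebraMap A0[X] O g) :=
  IsLocalization.map_units O (⟨g, hg⟩ : (nId π a).primeCompl)

theorem psi_eq_zero_iff (o : O) :
    psi hπ a O o = 0 ↔ algebraMap A0[X] O (X - C a) ∣ o := by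
  constructor
  · intro h
    obtain ⟨p, g, hg, hpg⟩ := exists_frac hπ a O o
    have h1 : p.eval a = 0 := by
      have := congrArg (psi hπ a O) hpg
      rw [map_mul, psi_algebraMap, psi_algebraMap, h, zero_mul] at this
      exact this.symm
    have h2 : (X - C a) ∣ p := Polynomial.dvd_iff_isRoot.mpr h1
    have h3 : algebraMap A0[X] O (X - C a) ∣ o * algebraMap A0[X] O g := by
      rw [hpg]
      exact map_dvd _ h2
    exact ((isUnit_algebraMap hπ a O hg).dvd_mul_right).mp h3
  · rintro ⟨w, rfl⟩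
    rw [map_mul, psi_algebraMap]
    simp

theorem isUnit_iff_psi (o : O) : IsUnit o ↔ IsUnit (psi hπ a O o) := by
  constructor
  · intro h
    exact h.map _
  · intro h
    obtain ⟨p, g, hg, hpg⟩ := exists_frac hπ a O o
    have h1 : IsUnit (p.eval a) := by
      have := congrArg (psi hπ a O) hpg
      rw [map_mul, psi_algebraMap, psi_algebraMap] at this
      rw [← this]
      apply h.mul
      apply isUnit_of_not_dvd' hπ
      intro h'
      exact hg (mem_nId.mpr h')
    have h2 : p ∉ nId π a := by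
      intro h'
      exact hπ.not_isUnit (isUnit_of_dvd_unit (mem_nId.mp h') h1)
    have h3 : IsUnit (o * algebraMap A0[X] O g) := by
      rw [hpg]
      exact isUnit_algebraMap hπ a O h2
    exact isUnit_of_mul_isUnit_left h3

/-- `π ∣ algebraMap f` in `O` only if `C π ∣ f`. -/
theorem C_dvd_of_dvd_algebraMap {f : A0[X]}
    (h : algebraMap A0[X] O (C π) ∣ algebraMap A0[X] O f) : C π ∣ f := by
  obtain ⟨w, hw⟩ := h
  obtain ⟨p, g, hg, hpg⟩ := exists_frac hπ a O w
  have h1 : algebraMap A0[X] O (f * g) = algebraMap A0[X] O (C π * p) := by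
    rw [map_mul, map_mul, hw, ← hpg]
    ring
  have h2 : f * g = C π * p := algebraMap_injective hπ a O h1
  have h3 : C π ∣ f * g := ⟨p, h2⟩
  rcases (Polynomial.prime_C_iff.mpr hπ.prime).dvd_or_dvd h3 with h4 | h4
  · exact h4
  · exfalso
    apply hg
    rw [mem_nId]
    obtain ⟨g', rfl⟩ := h4
    simp

theorem not_dvd_algebraMap {f : A0[X]} (hf : ¬ C π ∣ f) :
    ¬ algebraMap A0[X] O (C π) ∣ algebraMap A0[X] O f :=
  fun h => hf (C_dvd_of_dvd_algebraMap hπ a O h)

theorem prime_s : Prime (algebraMap A0[X] O (X - C a)) := by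
  refine ⟨?_, ?_, ?_⟩
  · intro h
    have : (X - C a : A0[X]) = 0 := algebraMap_injective hπ a O (by rw [h, map_zero])
    exact Polynomial.X_sub_C_ne_zero a this
  · intro h
    have := (isUnit_iff_psi hπ a O _).mp h
    rw [psi_algebraMap] at this
    simp at this
  · intro x y hxy
    rw [← psi_eq_zero_iff hπ, map_mul, mul_eq_zero] at hxy
    rcases hxy with h | h
    · exact Or.inl ((psi_eq_zero_iff hπ a O x).mp h)
    · exact Or.inr ((psi_eq_zero_iff hπ a O y).mp h)

theorem isPrime_span_pi : (Ideal.span {algebraMap A0[X] O (C π)}).IsPrime := by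
  have h1 : (Ideal.span {(C π : A0[X])}).IsPrime :=
    (Ideal.span_singleton_prime (by simpa using hπ.ne_zero)).mpr (Polynomial.prime_C_iff.mpr hπ.prime)
  have h2 : Disjoint ((nId π a).primeCompl : Set A0[X]) (Ideal.span {(C π : A0[X])} : Set A0[X]) := by
    rw [Set.disjoint_left]
    intro g hg hg'
    apply hg
    rw [SetLike.mem_coe, Ideal.mem_span_singleton] at hg'
    obtain ⟨g', rfl⟩ := hg'
    show _ ∈ nId π a
    rw [mem_nId]
    simp
  have := IsLocalization.isPrime_of_isPrime_disjoint (nId π a).primeCompl O _ h1 h2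
  rwa [Ideal.map_span, Set.image_singleton] at this

theorem pi_ne_zero : algebraMap A0[X] O (C π) ≠ 0 := by
  intro h
  have : (C π : A0[X]) = 0 := algebraMap_injective hπ a O (by rw [h, map_zero])
  exact hπ.ne_zero (by simpa using this)

theorem prime_pi : Prime (algebraMap A0[X] O (C π)) :=
  (Ideal.span_singleton_prime (pi_ne_zero hπ a O)).mp (isPrime_span_pi hπ a O)

/-- nonunits of `O` lie in `(π, s)`. -/
theorem exists_of_not_isUnit (o : O) (ho : ¬ IsUnit o) :
    ∃ u v : O, o = algebraMap A0[X] O (C π) * u + algebraMap A0[X] O (X - C a) * v := by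
  have h1 : ¬ IsUnit (psi hπ a O o) := fun h => ho ((isUnit_iff_psi hπ a O o).mpr h)
  have h2 : π ∣ psi hπ a O o := by
    by_contra h
    exact h1 (isUnit_of_not_dvd' hπ h)
  obtain ⟨c, hc⟩ := h2
  have h3 : psi hπ a O (o - algebraMap A0[X] O (C π) * algebraMap A0[X] O (C c)) = 0 := by
    rw [map_sub, map_mul, psi_algebraMap, psi_algebraMap, hc]
    simp
  obtain ⟨v, hv⟩ := (psi_eq_zero_iff hπ a O _).mp h3
  exact ⟨algebraMap A0[X] O (C c), v, by rw [← hv]; ring⟩

end loc



section quot

variable {A0 : Type*} [CommRing A0] [IsDomain A0] [IsDiscreteValuationRing A0]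
  {π : A0} (hπ : Irreducible π) (a : A0)
  (O : Type*) [CommRing O] [Algebra A0[X] O] [(nId π a).IsPrime]
  [IsLocalization.AtPrime O (nId π a)]

include hπ a

theorem isDomain_O : IsDomain O :=
  IsLocalization.isDomain_of_le_nonZeroDivisors (M := (nId π a).primeCompl) O
    (Ideal.primeCompl_le_nonZeroDivisors (nId π a))

theorem isLocalRing_O : IsLocalRing O := IsLocalization.AtPrime.isLocalRing O (nId π a)

theorem isNoetherianRing_O : IsNoetherianRing O :=
  IsLocalization.isNoetherianRing (nId π a).primeCompl O inferInstance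

theorem isIntegrallyClosed_O : IsIntegrallyClosed O := by
  haveI := isDomain_O hπ a O
  exact isIntegrallyClosed_of_isLocalization O (nId π a).primeCompl
    (Ideal.primeCompl_le_nonZeroDivisors (nId π a))

/-- The reduction `O/π` is a domain. -/
theorem isDomain_quot : IsDomain (O ⧸ Ideal.span {algebraMap A0[X] O (C π)}) := by
  haveI := isPrime_span_pi hπ a O
  exact Ideal.Quotient.isDomain _

theorem mk_s_not_isUnit :
    ¬ IsUnit (Ideal.Quotient.mk (Ideal.span {algebraMap A0[X] O (C π)})
      (algebraMap A0[X] O (X - C a))) := by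
  intro h
  obtain ⟨t, ht⟩ := h.exists_right_inv
  obtain ⟨t', rfl⟩ := Ideal.Quotient.mk_surjective t
  rw [← map_mul, ← map_one (Ideal.Quotient.mk _), Ideal.Quotient.eq, Ideal.mem_span_singleton] at ht
  obtain ⟨w, hw⟩ := ht
  have := congrArg (psi hπ a O) hw
  rw [map_sub, map_mul, map_mul, psi_algebraMap, psi_algebraMap, map_one] at this
  simp only [eval_sub, eval_X, eval_C, sub_self, zero_mul, zero_sub] at this
  have h1 : π ∣ (1 : A0) := ⟨-psi hπ a O w, by rw [mul_neg, ← this]; ring⟩
  exact hπ.not_isUnit (isUnit_of_dvd_one h1)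

theorem mk_s_ne_zero :
    Ideal.Quotient.mk (Ideal.span {algebraMap A0[X] O (C π)})
      (algebraMap A0[X] O (X - C a)) ≠ 0 := by
  intro h
  rw [Ideal.Quotient.eq_zero_iff_mem, Ideal.mem_span_singleton] at h
  have h1 := C_dvd_of_dvd_algebraMap hπ a O h
  rw [Polynomial.C_dvd_iff_dvd_coeff] at h1
  have h2 := h1 1
  rw [coeff_sub, coeff_X_one, coeff_C_succ, sub_zero] at h2
  exact hπ.not_isUnit (isUnit_of_dvd_one h2)

theorem maximalIdeal_quot [IsLocalRing (O ⧸ Ideal.span {algebraMap A0[X] O (C π)})] :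
    IsLocalRing.maximalIdeal (O ⧸ Ideal.span {algebraMap A0[X] O (C π)}) =
      Ideal.span {Ideal.Quotient.mk (Ideal.span {algebraMap A0[X] O (C π)})
        (algebraMap A0[X] O (X - C a))} := by
  apply le_antisymm
  · intro x hx
    obtain ⟨o, rfl⟩ := Ideal.Quotient.mk_surjective x
    have ho : ¬ IsUnit o := by
      intro h
      exact (IsLocalRing.mem_maximalIdeal _).mp hx (h.map _)
    obtain ⟨u, v, huv⟩ := exists_of_not_isUnit hπ a O o ho
    rw [Ideal.mem_span_singleton]
    refine ⟨Ideal.Quotient.mk _ v, ?_⟩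
    rw [huv, map_add, map_mul, map_mul]
    have : Ideal.Quotient.mk (Ideal.span {algebraMap A0[X] O (C π)})
        (algebraMap A0[X] O (C π)) = 0 :=
      Ideal.Quotient.eq_zero_iff_mem.mpr (Ideal.mem_span_singleton_self _)
    rw [this, zero_mul, zero_add]
  · rw [Ideal.span_singleton_le_iff_mem, IsLocalRing.mem_maximalIdeal]
    exact mk_s_not_isUnit hπ a O

/-- The reduction `O/π` is a discrete valuation ring with uniformiser `X - a`. -/
theorem isDVR_quot [IsDomain (O ⧸ Ideal.span {algebraMap A0[X] O (C π)})] :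
    IsDiscreteValuationRing (O ⧸ Ideal.span {algebraMap A0[X] O (C π)}) ∧
    Irreducible (Ideal.Quotient.mk (Ideal.span {algebraMap A0[X] O (C π)})
      (algebraMap A0[X] O (X - C a))) := by
  haveI := isLocalRing_O hπ a O
  haveI := isNoetherianRing_O hπ a O
  haveI : IsLocalRing (O ⧸ Ideal.span {algebraMap A0[X] O (C π)}) :=
    IsLocalRing.of_surjective' (Ideal.Quotient.mk _) Ideal.Quotient.mk_surjective
  have hmax := maximalIdeal_quot hπ a O
  have hnf : ¬ IsField (O ⧸ Ideal.span {algebraMap A0[X] O (C π)}) := by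
    intro hf
    obtain ⟨t, ht⟩ := hf.mul_inv_cancel (mk_s_ne_zero hπ a O)
    exact mk_s_not_isUnit hπ a O (IsUnit.of_mul_eq_one _ ht)
  have hdvr : IsDiscreteValuationRing (O ⧸ Ideal.span {algebraMap A0[X] O (C π)}) := by
    refine ((IsDiscreteValuationRing.TFAE _ hnf).out 0 4).mpr ?_
    rw [hmax]
    exact ⟨⟨_, rfl⟩⟩
  refine ⟨hdvr, ?_⟩
  haveI := hdvr
  exact (IsDiscreteValuationRing.irreducible_iff_uniformizer _).mpr hmax

end quot

end Fermat.Agent.RedLib.PolyLocal
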