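import Mathlib
import Fermat.Agent.RedLib.AGDefs
import Fermat.Agent.RedLib.FCLine
import Fermat.Agent.RedLib.PolyLocal

/-!
# S18 long shot: CHART — assembly of `chart_surj` from the prime-factor lemma (A) (`LemmaP`) and
the local lemma at a cusp (B), by the conductor argument.
-/

set_option autoImplicit false

namespace Fermat.Agent.RedLib.ChartAsm

open Polynomial Fermat.Agent.RedLib

/-- **CHART, assembled**: the conductor argument.  `hA` is the prime-factor lemma (an unramified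
prime of `A0[X]`, not `π` and not a unit modulo `π`, does not divide the discriminant `d` of the
`fc_line` basis); `hB` is the local lemma at a cusp `(π, X - a)`. -/
theorem chart_surj_of_local {A0 K Kt FF : Type*} [CommRing A0] [IsDomain A0]
    [IsDiscreteValuationRing A0]
    [Field K] [Algebra A0 K] [IsFractionRing A0 K]
    [Field Kt] [Algebra A0 Kt] [Algebra K Kt] [IsScalarTower A0 K Kt]
    [Field FF] [Algebra A0 FF] [Algebra K FF] [Algebra Kt FF] [IsScalarTower A0 Kt FF]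
    [IsScalarTower K Kt FF] [FiniteDimensional Kt FF] [Algebra.IsSeparable Kt FF]
    (π : A0) (hπ : Irreducible π) (xK : Kt) (hxK : Transcendental K xK)
    (hKt : ∀ z : Kt, ∃ f g : K[X], g ≠ 0 ∧ z * aeval xK g = aeval xK f)
    (S : Finset A0) (_hS : ∀ a ∈ S, ∀ b ∈ S, a ≠ b → IsUnit (a - b))
    (Lam : Subalgebra A0 FF) (hLam : AGDefs.IsGaussLattice A0 π (algebraMap Kt FF xK) Lam)
    (hgen : AGDefs.IsGaussEtale A0 π xK Lam)
    (hunr : ∀ q : A0[X], Prime q → ¬ Associated q (C π) → (¬ ∃ h : A0[X], C π ∣ q * h - 1) →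
      (∀ a ∈ S, ¬ Associated q (X - C a)) →
      AGDefs.IsUnramAt K (algebraMap Kt FF xK) (q.map (algebraMap A0 K)))
    (hA : ∀ {n : ℕ} (b : Module.Basis (Fin n) Kt FF) (r d : A0[X]),
      (∀ i, b i ∈ AGDefs.chart A0 (algebraMap Kt FF xK)) → C π ∣ r - 1 →
      (∀ z ∈ AGDefs.chart A0 (algebraMap Kt FF xK), ∀ i, ∃ a : A0[X],
        aeval xK r * b.repr z i = aeval xK a) →
      aeval xK d = Algebra.discr Kt b →
      ∀ q : A0[X], Prime q → ¬ Associated q (C π) → (¬ ∃ h : A0[X], C π ∣ q * h - 1) →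
        AGDefs.IsUnramAt K (algebraMap Kt FF xK) (q.map (algebraMap A0 K)) → ¬ q ∣ d)
    (hB : ∀ a ∈ S, ∀ y ∈ Lam, (∃ z ∈ Lam, y * y - y = π • z) →
      ∃ u : A0[X], ¬ π ∣ u.eval a ∧ ∃ c ∈ AGDefs.chart A0 (algebraMap Kt FF xK), ∃ z ∈ Lam,
        c - aeval (algebraMap Kt FF xK) u * y = π • z)
    (y : FF) (hy : y ∈ Lam) (hyid : ∃ z ∈ Lam, y * y - y = π • z) :
    ∃ c ∈ AGDefs.chart A0 (algebraMap Kt FF xK), ∃ z ∈ Lam, c - y = π • z := by
  classical
  obtain ⟨n, b, r, d, hb, hr, hbr, hd, hπd, hfc⟩ :=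
    FCLine.fc_line π hπ xK hxK hKt Lam hLam hgen
  obtain ⟨c0, hc0, hc0y⟩ := hfc y hy hyid
  set x : FF := algebraMap Kt FF xK with hx
  have hπnu : ¬ IsUnit π := hπ.not_isUnit
  -- prime factors of `d` which are not units modulo `π` are cusps
  have hfac : ∀ q : A0[X], Prime q → q ∣ d → (¬ ∃ h : A0[X], C π ∣ q * h - 1) →
      ∃ a ∈ S, Associated q (X - C a) := by
    intro q hq hqd hqu
    by_contra hcon
    push Not at hcon
    have hqπ : ¬ Associated q (C π) := fun h => hπd (h.symm.dvd.trans hqd)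
    exact hA b r d hb hr hbr hd q hq hqπ hqu (hunr q hq hqπ hqu hcon) hqd
  -- the conductor ideal
  let I : Ideal A0[X] :=
    { carrier := {f | ∃ c ∈ AGDefs.chart A0 x, ∃ z ∈ Lam, c - aeval x f * y = π • z}
      add_mem' := by
        rintro f g ⟨c1, hc1, z1, hz1, h1⟩ ⟨c2, hc2, z2, hz2, h2⟩
        refine ⟨c1 + c2, add_mem hc1 hc2, z1 + z2, add_mem hz1 hz2, ?_⟩
        rw [map_add, smul_add, ← h1, ← h2]
        ring
      zero_mem' := ⟨0, zero_mem _, 0, zero_mem _, by simp⟩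
      smul_mem' := by
        rintro g f ⟨c1, hc1, z1, hz1, h1⟩
        have hgx : aeval x g ∈ AGDefs.chart A0 x := by
          rw [AGDefs.mem_chart]
          have : aeval x g ∈ Algebra.adjoin A0 ({x} : Set FF) := by
            rw [Algebra.adjoin_singleton_eq_range_aeval]
            exact ⟨g, rfl⟩
          exact isIntegral_algebraMap (R := Algebra.adjoin A0 ({x} : Set FF)) (x := ⟨_, this⟩)
        have hgL : aeval x g ∈ Lam := by
          rw [hLam]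
          exact ⟨1, fun h => hπnu (by
            have := isUnit_of_dvd_one h
            exact (Polynomial.isUnit_C.mp this)), by simpa using hgx⟩
        refine ⟨aeval x g * c1, mul_mem hgx hc1, aeval x g * z1, mul_mem hgL hz1, ?_⟩
        rw [smul_eq_mul, map_mul]
        have h2 : π • (aeval x g * z1) = aeval x g * (π • z1) := by
          rw [mul_smul_comm]
        rw [h2, ← h1]
        ring }
  have hmemI : ∀ f : A0[X], f ∈ I ↔
      ∃ c ∈ AGDefs.chart A0 x, ∃ z ∈ Lam, c - aeval x f * y = π • z := fun f => Iff.rfl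
  suffices h1 : (1 : A0[X]) ∈ I by
    obtain ⟨c, hc, z, hz, h⟩ := (hmemI 1).mp h1
    exact ⟨c, hc, z, hz, by simpa using h⟩
  rw [← Ideal.eq_top_iff_one]
  by_contra hI
  obtain ⟨𝔪, h𝔪, hI𝔪⟩ := Ideal.exists_le_maximal I hI
  have hπI : C π ∈ I := (hmemI _).mpr ⟨0, zero_mem _, -y, neg_mem hy, by
    rw [aeval_C, Algebra.smul_def]; ring⟩
  have hdI : d ∈ I := (hmemI _).mpr ⟨c0, hc0, hc0y⟩
  have hπ𝔪 : C π ∈ 𝔪 := hI𝔪 hπI
  have hd𝔪 : d ∈ 𝔪 := hI𝔪 hdI
  have hd0 : d ≠ 0 := fun h => hπd (h ▸ dvd_zero _)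
  have h1𝔪 : (1 : A0[X]) ∉ 𝔪 := fun h => h𝔪.ne_top ((Ideal.eq_top_iff_one _).mpr h)
  -- a prime factor of `d` in `𝔪`
  obtain ⟨q, hq, hqd, hq𝔪⟩ : ∃ q, Prime q ∧ q ∣ d ∧ q ∈ 𝔪 := by
    obtain ⟨f, hf, u, hfu⟩ := UniqueFactorizationMonoid.exists_prime_factors d hd0
    have hprod : f.prod ∈ 𝔪 := by
      have : f.prod = d * ((u⁻¹ : (A0[X])ˣ) : A0[X]) := by
        rw [← hfu, mul_assoc, Units.mul_inv, mul_one]
      rw [this]
      exact 𝔪.mul_mem_right _ hd𝔪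
    obtain ⟨q, hqf, hq𝔪⟩ := (h𝔪.isPrime.multiset_prod_mem_iff_exists_mem f).mp hprod
    exact ⟨q, hf q hqf, (Multiset.dvd_prod hqf).trans (Dvd.intro _ hfu), hq𝔪⟩
  have hnu𝔪 : ∀ q' : A0[X], q' ∈ 𝔪 → ¬ ∃ h : A0[X], C π ∣ q' * h - 1 := by
    rintro q' hq' ⟨h, g, hg⟩
    apply h1𝔪
    have : (1 : A0[X]) = q' * h - C π * g := by rw [← hg]; ring
    rw [this]
    exact 𝔪.sub_mem (𝔪.mul_mem_right _ hq') (𝔪.mul_mem_right _ hπ𝔪)
  obtain ⟨a, haS, hqa⟩ := hfac q hq hqd (hnu𝔪 q hq𝔪)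
  have hXa𝔪 : X - C a ∈ 𝔪 := by
    obtain ⟨u, hu⟩ := hqa
    rw [← hu]
    exact 𝔪.mul_mem_right _ hq𝔪
  -- `𝔪 ≤ (π, X - a)`
  have h𝔪a : ∀ g ∈ 𝔪, g ∈ PolyLocal.nId π a := by
    intro g hg
    rw [PolyLocal.mem_nId]
    by_contra hcon
    have hunit : IsUnit (g.eval a) := PolyLocal.isUnit_of_not_dvd' hπ hcon
    obtain ⟨g1, hg1⟩ : X - C a ∣ g - C (g.eval a) := by
      rw [Polynomial.dvd_iff_isRoot]
      simp
    apply h1𝔪
    have hC : C (g.eval a) ∈ 𝔪 := by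
      have : C (g.eval a) = g - (X - C a) * g1 := by rw [← hg1]; ring
      rw [this]
      exact 𝔪.sub_mem hg (𝔪.mul_mem_right _ hXa𝔪)
    obtain ⟨v, hv⟩ := hunit.exists_right_inv
    have : (1 : A0[X]) = C (g.eval a) * C v := by rw [← C_mul, hv, C_1]
    rw [this]
    exact 𝔪.mul_mem_right _ hC
  obtain ⟨u, hu, c, hc, z, hz, h⟩ := hB a haS y hy hyid
  exact hu (PolyLocal.mem_nId.mp (h𝔪a u (hI𝔪 ((hmemI u).mpr ⟨c, hc, z, hz, h⟩))))

end Fermat.Agent.RedLib.ChartAsm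

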