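/-
Linear algebra of finite free algebras over a discrete valuation ring: discriminants,
nilpotents modulo the uniformiser, the maximality criterion and the exact tame discriminant.
(W2 of the S18 blueprint.)
-/
import Mathlib

set_option autoImplicit false

namespace Fermat.Agent.RedLib.DiscLA

open Module Matrix

set_option linter.unusedSectionVars false

/-- dimension of the reduced quotient of an algebra over a field -/
noncomputable def redDim (κ B : Type*) [Field κ] [CommRing B] [Algebra κ B] : ℕ :=
  Module.finrank κ (B ⧸ nilradical B)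

/-- `ρ : M → B` exhibits the `κ`-algebra `B` as the reduction of the `V`-algebra `M` modulo `s`
(`φ : V → κ` being the reduction of scalars). -/
structure IsRed {V M κ B : Type*} [CommRing V] [CommRing M] [Algebra V M] [Field κ]
    [CommRing B] [Algebra κ B] (s : V) (φ : V →+* κ) (ρ : M →+* B) : Prop where
  phi_surj : Function.Surjective φ
  phi_ker : ∀ a, φ a = 0 ↔ s ∣ a
  rho_surj : Function.Surjective ρ
  rho_ker : ∀ x, ρ x = 0 ↔ algebraMap V M s ∣ x
  compat : ∀ (a : V) (x : M), ρ (a • x) = φ a • ρ x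

section Det

variable {R ι : Type*} [CommRing R] [Fintype ι] [DecidableEq ι]

/-- rows indexed by `S` divisible by `s` ⇒ `s ^ |S|` divides the determinant -/
theorem pow_card_dvd_det_of_rows (A : Matrix ι ι R) (s : R) (S : Finset ι)
    (h : ∀ i ∈ S, ∀ j, s ∣ A i j) : s ^ S.card ∣ A.det := by
  classical
  choose Q hQ using h
  let A' : Matrix ι ι R := Matrix.of fun i j => if hi : i ∈ S then Q i hi j else A i j
  let v : ι → R := fun i => if i ∈ S then s else 1
  have hA : A = Matrix.of fun i j => v i * A' i j := by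
    ext i j
    by_cases hi : i ∈ S
    · simp [v, A', hi, hQ i hi j]
    · simp [v, A', hi]
  have hv : ∏ i, v i = s ^ S.card := by
    simp [v, Finset.prod_ite_mem, Finset.prod_const]
  rw [hA, Matrix.det_mul_column, hv]
  exact dvd_mul_right _ _

/-- columns indexed by `S` divisible by `s` ⇒ `s ^ |S|` divides the determinant -/
theorem pow_card_dvd_det_of_cols (A : Matrix ι ι R) (s : R) (S : Finset ι)
    (h : ∀ j ∈ S, ∀ i, s ∣ A i j) : s ^ S.card ∣ A.det := by
  rw [← Matrix.det_transpose]
  exact pow_card_dvd_det_of_rows _ s S fun i hi j => h i hi j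

/-- rows in `S` divisible by `s`, and the column `i₀` divisible once more -/
theorem pow_card_succ_dvd_det [IsDomain R] (A : Matrix ι ι R) {s : R} (hs0 : s ≠ 0)
    (S : Finset ι) (i₀ : ι) (h1 : ∀ i ∈ S, ∀ j, s ∣ A i j) (h2 : ∀ i ∈ S, s ^ 2 ∣ A i i₀)
    (h3 : ∀ i, i ∉ S → s ∣ A i i₀) : s ^ (S.card + 1) ∣ A.det := by
  classical
  choose Q hQ using h1
  let A' : Matrix ι ι R := Matrix.of fun i j => if hi : i ∈ S then Q i hi j else A i j
  let v : ι → R := fun i => if i ∈ S then s else 1
  have hA : A = Matrix.of fun i j => v i * A' i j := by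
    ext i j
    by_cases hi : i ∈ S
    · simp [v, A', hi, hQ i hi j]
    · simp [v, A', hi]
  have hv : ∏ i, v i = s ^ S.card := by
    simp [v, Finset.prod_ite_mem, Finset.prod_const]
  have hcol : ∀ i, s ∣ A' i i₀ := by
    intro i
    by_cases hi : i ∈ S
    · have h2' := h2 i hi
      rw [hQ i hi i₀, pow_two] at h2'
      have : s ∣ Q i hi i₀ := (mul_dvd_mul_iff_left hs0).mp h2'
      simpa [A', hi] using this
    · simpa [A', hi] using h3 i hi
  have hdet : s ∣ A'.det := by
    have := pow_card_dvd_det_of_cols A' s {i₀} (fun j hj i => by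
      rw [Finset.mem_singleton] at hj; subst hj; exact hcol i)
    simpa using this
  rw [hA, Matrix.det_mul_column, hv, pow_succ]
  exact mul_dvd_mul_left _ hdet

end Det

section TraceNil

variable {V M ι : Type*} [CommRing V] [IsDomain V] [CommRing M] [Algebra V M]
  [Fintype ι] [DecidableEq ι]

/-- the trace of an element which is nilpotent modulo the prime `s` is divisible by `s` -/
theorem dvd_trace_of_dvd_pow (b : Basis ι V M) {s : V} (hs : Prime s) {z : M} {m : ℕ}
    (h : algebraMap V M s ∣ z ^ m) : s ∣ Algebra.trace V M z := by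
  obtain ⟨w, hw⟩ := h
  rw [Algebra.trace_eq_matrix_trace b]
  set Z := Algebra.leftMulMatrix b z with hZ
  have hZm : Z ^ m = s • Algebra.leftMulMatrix b w := by
    rw [hZ, ← map_pow, hw, ← Algebra.smul_def, map_smul]
  have hI : (Ideal.span {s}).IsPrime := (Ideal.span_singleton_prime hs.ne_zero).mpr hs
  let f : V →+* V ⧸ Ideal.span {s} := Ideal.Quotient.mk _
  have hfs : f s = 0 := Ideal.Quotient.eq_zero_iff_mem.mpr (Ideal.mem_span_singleton_self s)
  have hnil : IsNilpotent (f.mapMatrix Z) := by
    refine ⟨m, ?_⟩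
    rw [← map_pow, hZm]
    ext i j
    simp [hfs]
  have htr : (f.mapMatrix Z).trace = 0 :=
    (Matrix.isNilpotent_trace_of_isNilpotent hnil).eq_zero
  have h0 : f Z.trace = 0 := by
    rw [← htr]
    simp [Matrix.trace, RingHom.mapMatrix_apply]
  exact Ideal.mem_span_singleton.mp (Ideal.Quotient.eq_zero_iff_mem.mp h0)

end TraceNil

section DVR

variable {V : Type*} [CommRing V] [IsDomain V] [IsDiscreteValuationRing V]

/-- in a DVR an element not divisible by the uniformiser is a unit -/
theorem isUnit_of_not_dvd {s : V} (hs : Irreducible s) {a : V} (h : ¬ s ∣ a) : IsUnit a := by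
  rw [← IsLocalRing.notMem_maximalIdeal, hs.maximalIdeal_eq, Ideal.mem_span_singleton]
  exact h

/-- a square matrix over a DVR which is injective modulo the uniformiser has unit determinant -/
theorem isUnit_det_of_mulVec_inj {τ : Type*} [Fintype τ] [DecidableEq τ] {s : V}
    (hs : Irreducible s) (N : Matrix τ τ V)
    (h : ∀ x : τ → V, (∀ i, s ∣ (N *ᵥ x) i) → ∀ i, s ∣ x i) : IsUnit N.det := by
  have : (Ideal.span {s}).IsMaximal := PrincipalIdealRing.isMaximal_of_irreducible hs
  let _ := Ideal.Quotient.field (Ideal.span {s})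
  let f : V →+* V ⧸ Ideal.span {s} := Ideal.Quotient.mk _
  have hf : ∀ a, f a = 0 ↔ s ∣ a := fun a => by
    rw [Ideal.Quotient.eq_zero_iff_mem, Ideal.mem_span_singleton]
  have hinj : Function.Injective (f.mapMatrix N).mulVec := by
    intro x y hxy
    obtain ⟨z, hz⟩ : ∃ z : τ → V, f ∘ z = x - y := by
      choose z hz using fun i => Ideal.Quotient.mk_surjective ((x - y) i)
      exact ⟨z, funext hz⟩
    have h0 : (f.mapMatrix N) *ᵥ (f ∘ z) = 0 := by
      rw [hz, Matrix.mulVec_sub, hxy, sub_self]
    have h1 : ∀ i, s ∣ (N *ᵥ z) i := fun i => by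
      rw [← hf, RingHom.map_mulVec]
      exact congrFun h0 i
    have h2 := h z h1
    have h3 : x - y = 0 := by
      rw [← hz]
      funext i
      exact (hf _).mpr (h2 i)
    exact sub_eq_zero.mp h3
  have hu : IsUnit (f.mapMatrix N).det :=
    (Matrix.isUnit_iff_isUnit_det _).mp (Matrix.mulVec_injective_iff_isUnit.mp hinj)
  rw [← RingHom.map_det] at hu
  refine isUnit_of_not_dvd hs fun hdvd => ?_
  rw [(hf _).mpr hdvd] at hu
  exact not_isUnit_zero hu

/-- ADAPTED BASIS (matrix form): a family `c` which is linearly independent modulo `s` can be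
completed to a basis; `P` is the (invertible) matrix of the new basis, whose rows `ia a` are the
coordinates of the `c a`. -/
theorem exists_adapted {M ι κ : Type*} [CommRing M] [Algebra V M] [Fintype ι] [DecidableEq ι]
    [Fintype κ] (b : Basis ι V M) {s : V} (hs : Irreducible s) (c : κ → M)
    (hind : ∀ g : κ → V, algebraMap V M s ∣ ∑ a, g a • c a → ∀ a, s ∣ g a) :
    ∃ (P : Matrix ι ι V) (ia : κ → ι), Function.Injective ia ∧ IsUnit P.det ∧
      ∀ a j, P (ia a) j = b.repr (c a) j := by
  classical
  have : (Ideal.span {s}).IsMaximal := PrincipalIdealRing.isMaximal_of_irreducible hs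
  let _ := Ideal.Quotient.field (Ideal.span {s})
  let f : V →+* V ⧸ Ideal.span {s} := Ideal.Quotient.mk _
  have hfsurj : Function.Surjective f := Ideal.Quotient.mk_surjective
  have hf : ∀ a, f a = 0 ↔ s ∣ a := fun a => by
    rw [Ideal.Quotient.eq_zero_iff_mem, Ideal.mem_span_singleton]
  let C : κ → ι → V := fun a j => b.repr (c a) j
  let vbar : κ → (ι → V ⧸ Ideal.span {s}) := fun a j => f (C a j)
  have hli : LinearIndependent (V ⧸ Ideal.span {s}) vbar := by
    rw [Fintype.linearIndependent_iff]
    intro g hg a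
    choose g' hg' using fun a => hfsurj (g a)
    have h1 : ∀ j, s ∣ ∑ a, g' a * C a j := by
      intro j
      rw [← hf, map_sum]
      have h := congrFun hg j
      simp only [Finset.sum_apply, Pi.smul_apply, smul_eq_mul, Pi.zero_apply] at h
      rw [← h]
      refine Finset.sum_congr rfl fun a _ => ?_
      rw [map_mul, hg' a]
    have h2 : algebraMap V M s ∣ ∑ a, g' a • c a := by
      choose q hq using h1
      refine ⟨∑ j, q j • b j, ?_⟩
      have hc : ∀ a, c a = ∑ j, C a j • b j := fun a => (b.sum_repr (c a)).symm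
      calc ∑ a, g' a • c a = ∑ a, ∑ j, (g' a * C a j) • b j := by
            refine Finset.sum_congr rfl fun a _ => ?_
            rw [hc a, Finset.smul_sum]
            simp only [smul_smul]
        _ = ∑ j, (∑ a, g' a * C a j) • b j := by
            rw [Finset.sum_comm]
            refine Finset.sum_congr rfl fun j _ => ?_
            rw [Finset.sum_smul]
        _ = ∑ j, (s * q j) • b j := by
            refine Finset.sum_congr rfl fun j _ => ?_
            rw [hq j]
        _ = algebraMap V M s * ∑ j, q j • b j := by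
            rw [← Algebra.smul_def, Finset.smul_sum]
            simp only [smul_smul]
    rw [← hg' a]
    exact (hf _).mpr (hind g' h2 a)
  let B₀ := Basis.extend hli.linearIndepOn_id
  let e₀ := B₀.indexEquiv (Pi.basisFun (V ⧸ Ideal.span {s}) ι)
  have hB₀ : ∀ x, B₀ x = x.val := fun x => by
    simp [B₀, Basis.coe_extend]
  let lift : V ⧸ Ideal.span {s} → V := Function.surjInv hfsurj
  have hlift : ∀ y, f (lift y) = y := Function.surjInv_eq hfsurj
  let P : Matrix ι ι V := fun i j =>
    if h : ∃ a, vbar a = (e₀.symm i).val then C h.choose j else lift ((e₀.symm i).val j)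
  have hP : ∀ i j, f (P i j) = (e₀.symm i).val j := by
    intro i j
    by_cases h : ∃ a, vbar a = (e₀.symm i).val
    · simp only [P, dif_pos h]
      exact congrFun h.choose_spec j
    · simp only [P, dif_neg h]
      exact hlift _
  let ia : κ → ι := fun a =>
    e₀ ⟨vbar a, Basis.subset_extend hli.linearIndepOn_id (Set.mem_range_self a)⟩
  have hia : ∀ a, (e₀.symm (ia a)).val = vbar a := fun a => by simp [ia]
  refine ⟨P, ia, ?_, ?_, ?_⟩
  · intro a a' h
    have h1 : vbar a = vbar a' := by rw [← hia a, ← hia a', h]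
    exact hli.injective h1
  · have hmap : f.mapMatrix P =
        ((Pi.basisFun (V ⧸ Ideal.span {s}) ι).toMatrix (B₀.reindex e₀))ᵀ := by
      ext i j
      simp only [RingHom.mapMatrix_apply, Matrix.map_apply, Matrix.transpose_apply,
        Basis.toMatrix_apply, Pi.basisFun_repr, Basis.reindex_apply, hP, hB₀]
    have hu : IsUnit (f.mapMatrix P).det := by
      rw [hmap, Matrix.det_transpose, ← Basis.det_apply]
      exact Basis.isUnit_det _ _
    rw [← RingHom.map_det] at hu
    refine isUnit_of_not_dvd hs fun hdvd => ?_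
    rw [(hf _).mpr hdvd] at hu
    exact not_isUnit_zero hu
  · intro a j
    have h : ∃ a', vbar a' = (e₀.symm (ia a)).val := ⟨a, (hia a).symm⟩
    have h1 : h.choose = a := hli.injective (h.choose_spec.trans (hia a))
    simp only [P, dif_pos h, h1]
    rfl

/-- the new family is `c` on the rows `ia` -/
theorem adapted_apply {M ι κ : Type*} [CommRing M] [Algebra V M] [Fintype ι] [DecidableEq ι]
    (b : Basis ι V M) (c : κ → M) (P : Matrix ι ι V) (ia : κ → ι)
    (hP : ∀ a j, P (ia a) j = b.repr (c a) j) (a : κ) :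
    (P.map (algebraMap V M) *ᵥ b) (ia a) = c a := by
  simp only [Matrix.mulVec, dotProduct, Matrix.map_apply, hP, ← Algebra.smul_def]
  exact b.sum_repr (c a)

/-- (ii), family form: `r` elements which are nilpotent modulo `s` and linearly independent
modulo `s` force `s ^ r ∣ disc`. -/
theorem pow_card_dvd_discr_of_family {M ι κ : Type*} [CommRing M] [Algebra V M] [Fintype ι]
    [DecidableEq ι] [Fintype κ] (b : Basis ι V M) {s : V} (hs : Irreducible s) (c : κ → M)
    (hnil : ∀ a, ∃ m : ℕ, algebraMap V M s ∣ c a ^ m)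
    (hind : ∀ g : κ → V, algebraMap V M s ∣ ∑ a, g a • c a → ∀ a, s ∣ g a) :
    s ^ Fintype.card κ ∣ Algebra.discr V b := by
  classical
  obtain ⟨P, ia, hia, hPu, hP⟩ := exists_adapted b hs c hind
  have hdisc : Algebra.discr V (P.map (algebraMap V M) *ᵥ b) = P.det ^ 2 * Algebra.discr V b :=
    Algebra.discr_of_matrix_mulVec b P
  have hrows : ∀ i ∈ Finset.univ.image ia, ∀ j,
      s ∣ Algebra.traceMatrix V (P.map (algebraMap V M) *ᵥ b) i j := by
    intro i hi j
    obtain ⟨a, -, rfl⟩ := Finset.mem_image.mp hi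
    rw [Algebra.traceMatrix_apply, Algebra.traceForm_apply, adapted_apply b c P ia hP a]
    obtain ⟨m, hm⟩ := hnil a
    exact dvd_trace_of_dvd_pow b hs.prime (m := m) (by rw [mul_pow]; exact Dvd.dvd.mul_right hm _)
  have h1 := pow_card_dvd_det_of_rows _ s _ hrows
  rw [Finset.card_image_of_injective _ hia, Finset.card_univ] at h1
  have h2 : s ^ Fintype.card κ ∣ P.det ^ 2 * Algebra.discr V b := by
    rw [← hdisc]; exact h1
  exact ((hPu.pow 2).dvd_mul_left).mp h2

end DVR

section Red

variable {V M κ B ι : Type*} [CommRing V] [CommRing M] [Algebra V M] [Field κ] [CommRing B]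
  [Algebra κ B] {s : V} {φ : V →+* κ} {ρ : M →+* B}

theorem IsRed.rho_sum (h : IsRed s φ ρ) [Fintype ι] (g : ι → V) (x : ι → M) :
    ρ (∑ i, g i • x i) = ∑ i, φ (g i) • ρ (x i) := by
  rw [map_sum]
  exact Finset.sum_congr rfl fun i _ => h.compat _ _

/-- the reduction of a basis is a basis -/
noncomputable def IsRed.basis [Fintype ι] (h : IsRed s φ ρ) (b : Basis ι V M) : Basis ι κ B :=
  Basis.mk (v := fun i => ρ (b i))
    (by
      classical
      rw [Fintype.linearIndependent_iff]
      intro g hg i
      choose g' hg' using fun i => h.phi_surj (g i)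
      have h0 : ρ (∑ i, g' i • b i) = 0 := by
        rw [h.rho_sum, ← hg]
        exact Finset.sum_congr rfl fun i _ => by rw [hg' i]
      obtain ⟨y, hy⟩ := (h.rho_ker _).mp h0
      have h1 : g' i = s * b.repr y i := by
        have h2 := congrArg (fun z => b.repr z i) hy
        simp only [← Algebra.smul_def, map_smul, Finsupp.smul_apply, smul_eq_mul] at h2
        rw [← h2, b.repr_sum_self]
      rw [← hg' i, h1]
      exact (h.phi_ker _).mpr (dvd_mul_right _ _))
    (by
      intro y _
      obtain ⟨x, rfl⟩ := h.rho_surj y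
      rw [← b.sum_repr x, h.rho_sum]
      exact Submodule.sum_mem _ fun i _ =>
        Submodule.smul_mem _ _ (Submodule.subset_span (Set.mem_range_self i)))

@[simp] theorem IsRed.basis_apply [Fintype ι] (h : IsRed s φ ρ) (b : Basis ι V M) (i : ι) :
    h.basis b i = ρ (b i) := by
  simp [IsRed.basis]

theorem IsRed.finrank_eq [Fintype ι] (h : IsRed s φ ρ) (b : Basis ι V M) :
    Module.finrank κ B = Fintype.card ι :=
  Module.finrank_eq_card_basis (h.basis b)

/-- trace commutes with reduction -/
theorem IsRed.trace_rho [Fintype ι] [DecidableEq ι] (h : IsRed s φ ρ) (b : Basis ι V M) (z : M) :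
    Algebra.trace κ B (ρ z) = φ (Algebra.trace V M z) := by
  rw [Algebra.trace_eq_matrix_trace (h.basis b), Algebra.trace_eq_matrix_trace b,
    Matrix.trace, Matrix.trace, map_sum]
  refine Finset.sum_congr rfl fun i _ => ?_
  simp only [Matrix.diag_apply, Algebra.leftMulMatrix_eq_repr_mul]
  have h1 : ρ z * h.basis b i = ∑ j, φ (b.repr (z * b i) j) • h.basis b j := by
    rw [h.basis_apply, ← map_mul, ← b.sum_repr (z * b i), h.rho_sum]
    refine Finset.sum_congr rfl fun j _ => ?_
    rw [h.basis_apply, b.sum_repr]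
  rw [h1, (h.basis b).repr_sum_self]

end Red

section Sub

variable {V : Type*} [CommRing V] [IsDomain V]
variable {M' ι : Type*} [CommRing M'] [Algebra V M'] [Fintype ι] [DecidableEq ι]

/-- the transition matrix from a basis of a subalgebra to a basis of the big algebra -/
noncomputable def transMat (b' : Basis ι V M') (M : Subalgebra V M') (b : Basis ι V M) :
    Matrix ι ι V := fun l j => b'.repr (b j : M') l

theorem transMat_det_ne_zero (b' : Basis ι V M') (M : Subalgebra V M') (b : Basis ι V M) :
    (transMat b' M b).det ≠ 0 := by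
  intro h0
  obtain ⟨v, hv, hTv⟩ := Matrix.exists_mulVec_eq_zero_iff.mpr h0
  apply hv
  have h1 : ((∑ j, v j • b j : M) : M') = 0 := by
    apply b'.repr.injective
    ext l
    have := congrFun hTv l
    simp only [Matrix.mulVec, dotProduct, transMat, Pi.zero_apply] at this
    simp only [AddSubmonoidClass.coe_finsetSum, SetLike.val_smul, map_sum, map_smul,
      Finsupp.coe_finsetSum, Finset.sum_apply, Finsupp.smul_apply, smul_eq_mul, map_zero,
      Finsupp.coe_zero, Pi.zero_apply]
    rw [← this]
    exact Finset.sum_congr rfl fun j _ => mul_comm _ _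
  have h2 : (∑ j, v j • b j : M) = 0 := Subtype.ext h1
  funext j
  exact Fintype.linearIndependent_iff.mp b.linearIndependent v h2 j

/-- `det T • M' ⊆ M` -/
theorem exists_mem_eq_det_smul (b' : Basis ι V M') (M : Subalgebra V M') (b : Basis ι V M)
    (y : M') : ∃ m : M, (m : M') = (transMat b' M b).det • y := by
  have key : ∀ l, ∃ m : M, (m : M') = (transMat b' M b).det • b' l := by
    intro l
    refine ⟨∑ j, (transMat b' M b).adjugate j l • b j, ?_⟩
    apply b'.repr.injective
    ext i
    have h1 := congrFun (congrFun (Matrix.mul_adjugate (transMat b' M b)) i) l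
    simp only [Matrix.mul_apply, Matrix.smul_apply, Matrix.one_apply, smul_eq_mul] at h1
    simp only [AddSubmonoidClass.coe_finsetSum, SetLike.val_smul, map_sum, map_smul,
      Finsupp.coe_finsetSum, Finset.sum_apply, Finsupp.smul_apply, smul_eq_mul,
      Basis.repr_self, Finsupp.single_apply]
    have h2 : (if l = i then (1 : V) else 0) = if i = l then 1 else 0 := by
      simp only [eq_comm]
    rw [h2, ← h1]
    simp only [transMat]
    exact Finset.sum_congr rfl fun j _ => mul_comm _ _
  choose m hm using key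
  refine ⟨∑ l, b'.repr y l • m l, ?_⟩
  simp only [AddSubmonoidClass.coe_finsetSum, SetLike.val_smul, hm]
  conv_rhs => rw [← b'.sum_repr y, Finset.smul_sum]
  exact Finset.sum_congr rfl fun l _ => smul_comm _ _ _

/-- traces of a subalgebra of the same rank agree with traces in the big algebra -/
theorem trace_subalgebra_eq (b' : Basis ι V M') (M : Subalgebra V M') (b : Basis ι V M) (m : M) :
    Algebra.trace V M m = Algebra.trace V M' (m : M') := by
  rw [Algebra.trace_eq_matrix_trace b, Algebra.trace_eq_matrix_trace b']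
  set T := transMat b' M b with hT
  set Z := Algebra.leftMulMatrix b m with hZ
  set Z' := Algebra.leftMulMatrix b' (m : M') with hZ'
  have hcomm : T * Z = Z' * T := by
    ext l j
    have h1 : (T * Z) l j = b'.repr ((m : M') * (b j : M')) l := by
      simp only [Matrix.mul_apply, hT, transMat, hZ, Algebra.leftMulMatrix_eq_repr_mul]
      have := congrArg (fun z : M => b'.repr (z : M') l) (b.sum_repr (m * b j))
      simp only [AddSubmonoidClass.coe_finsetSum, SetLike.val_smul, map_sum, map_smul,
        Finsupp.coe_finsetSum, Finset.sum_apply, Finsupp.smul_apply, smul_eq_mul,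
        MulMemClass.coe_mul] at this
      rw [← this]
      exact Finset.sum_congr rfl fun i _ => mul_comm _ _
    have h2 : (Z' * T) l j = b'.repr ((m : M') * (b j : M')) l := by
      simp only [Matrix.mul_apply, hT, transMat, hZ', Algebra.leftMulMatrix_eq_repr_mul]
      have := congrArg (fun z : M' => b'.repr ((m : M') * z) l) (b'.sum_repr (b j : M'))
      simp only [Finset.mul_sum, mul_smul_comm, map_sum, map_smul, Finsupp.coe_finsetSum,
        Finset.sum_apply, Finsupp.smul_apply, smul_eq_mul] at this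
      rw [← this]
      exact Finset.sum_congr rfl fun i _ => mul_comm _ _
    rw [h1, h2]
  have hdet := transMat_det_ne_zero b' M b
  have h3 : T.det * Z.trace = T.det * Z'.trace := by
    have e1 : (T.adjugate * (T * Z)).trace = T.det * Z.trace := by
      rw [← Matrix.mul_assoc, Matrix.adjugate_mul, Matrix.smul_mul, Matrix.one_mul,
        Matrix.trace_smul, smul_eq_mul]
    have e2 : (T.adjugate * (Z' * T)).trace = T.det * Z'.trace := by
      rw [Matrix.trace_mul_comm, Matrix.mul_assoc, Matrix.mul_adjugate, Matrix.mul_smul,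
        Matrix.mul_one, Matrix.trace_smul, smul_eq_mul]
    rw [← e1, ← e2, hcomm]
  exact mul_left_cancel₀ hdet h3

end Sub

section Max

variable {V : Type*} [CommRing V] [IsDomain V] [IsDiscreteValuationRing V]
variable {M' ι κ : Type*} [CommRing M'] [Algebra V M'] [Fintype ι] [DecidableEq ι] [Fintype κ]

/-- MAX, family form: if `M ≤ M'` are finite free `V`-algebras of the same rank and `M` has an
independent-mod-`s` family of `r` elements nilpotent mod `s` with `s^(r+1) ∤ disc M`,
then `M = M'`. -/
theorem eq_top_of_family (b' : Basis ι V M') (M : Subalgebra V M') (b : Basis ι V M)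
    {s : V} (hs : Irreducible s) (c : κ → M)
    (hnil : ∀ a, ∃ m : ℕ, algebraMap V M s ∣ c a ^ m)
    (hind : ∀ g : κ → V, algebraMap V M s ∣ ∑ a, g a • c a → ∀ a, s ∣ g a)
    (hd : ¬ s ^ (Fintype.card κ + 1) ∣ Algebra.discr V b) : M = ⊤ := by
  classical
  by_contra hne
  obtain ⟨y, hy⟩ : ∃ y : M', y ∉ M := by
    by_contra hall
    push Not at hall
    exact hne (eq_top_iff.mpr fun x _ => hall x)
  have hdet := transMat_det_ne_zero b' M b
  obtain ⟨N, u, hu⟩ := IsDiscreteValuationRing.eq_unit_mul_pow_irreducible hdet hs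
  have hsN : ∀ z : M', s ^ N • z ∈ M := by
    intro z
    obtain ⟨m, hm⟩ := exists_mem_eq_det_smul b' M b z
    have h1 : s ^ N • z = (↑u⁻¹ : V) • (m : M') := by
      rw [hm, hu, smul_smul, ← mul_assoc, Units.inv_mul, one_mul]
    rw [h1]
    exact M.smul_mem m.2 _
  have hex : ∃ n, s ^ n • y ∈ M := ⟨N, hsN y⟩
  have hN₀pos : Nat.find hex ≠ 0 := by
    intro h0
    have h1 := Nat.find_spec hex
    rw [h0, pow_zero, one_smul] at h1
    exact hy h1
  obtain ⟨k, hk⟩ := Nat.exists_eq_succ_of_ne_zero hN₀pos
  have hx'not : s ^ k • y ∉ M := Nat.find_min hex (by omega)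
  have hsx' : s • (s ^ k • y) ∈ M := by
    have h1 := Nat.find_spec hex
    rw [hk, pow_succ, mul_comm, mul_smul] at h1
    exact h1
  obtain ⟨x', hx'⟩ : ∃ x' : M', x' = s ^ k • y := ⟨_, rfl⟩
  rw [← hx'] at hx'not hsx'
  let c₁ : M := ⟨s • x', hsx'⟩
  have hc₁ : ¬ algebraMap V M s ∣ c₁ := by
    rintro ⟨m₀, hm₀⟩
    have h1 : s • x' = s • (m₀ : M') := by
      have h2 := congrArg (fun z : M => (z : M')) hm₀
      simp only [c₁, ← Algebra.smul_def] at h2
      exact h2
    have h2 : x' = (m₀ : M') := by
      apply b'.repr.injective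
      ext i
      have h3 := congrArg (fun z => b'.repr z i) h1
      simp only [map_smul, Finsupp.smul_apply, smul_eq_mul] at h3
      exact mul_left_cancel₀ hs.ne_zero h3
    exact hx'not (h2 ▸ m₀.2)
  obtain ⟨P, ia, hia, hPu, hP⟩ := exists_adapted b hs c hind
  obtain ⟨b₂, hb₂⟩ : ∃ b₂ : ι → M, b₂ = P.map (algebraMap V M) *ᵥ b := ⟨_, rfl⟩
  have hdisc : Algebra.discr V b₂ = P.det ^ 2 * Algebra.discr V b := by
    rw [hb₂]; exact Algebra.discr_of_matrix_mulVec b P
  obtain ⟨G, hG⟩ : ∃ G : Matrix ι ι V, G = Algebra.traceMatrix V b₂ := ⟨_, rfl⟩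
  let y₀ : ι → V := (fun j => b.repr c₁ j) ᵥ* P⁻¹
  have hy₀P : y₀ ᵥ* P = fun j => b.repr c₁ j := by
    simp only [y₀, Matrix.vecMul_vecMul, Matrix.nonsing_inv_mul _ hPu, Matrix.vecMul_one]
  have hb₂sum : ∀ i, b₂ i = ∑ j, P i j • b j := fun i => by
    simp only [hb₂, Matrix.mulVec, dotProduct, Matrix.map_apply, ← Algebra.smul_def]
  have hc₁sum : ∑ i, y₀ i • b₂ i = c₁ := by
    calc ∑ i, y₀ i • b₂ i = ∑ i, ∑ j, (y₀ i * P i j) • b j := by
          refine Finset.sum_congr rfl fun i _ => ?_
          rw [hb₂sum i, Finset.smul_sum]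
          simp only [smul_smul]
      _ = ∑ j, (y₀ ᵥ* P) j • b j := by
          rw [Finset.sum_comm]
          refine Finset.sum_congr rfl fun j _ => ?_
          rw [← Finset.sum_smul]
          rfl
      _ = c₁ := by
          rw [hy₀P]
          exact b.sum_repr c₁
  obtain ⟨i₀, hi₀⟩ : ∃ i₀, ¬ s ∣ y₀ i₀ := by
    by_contra hall
    push Not at hall
    choose q hq using hall
    apply hc₁
    refine ⟨∑ i, q i • b₂ i, ?_⟩
    rw [← hc₁sum, ← Algebra.smul_def, Finset.smul_sum]
    exact Finset.sum_congr rfl fun i _ => by rw [hq i, mul_smul]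
  have hyu : IsUnit (y₀ i₀) := isUnit_of_not_dvd hs hi₀
  have hcol : ∀ l, (G *ᵥ y₀) l = Algebra.trace V M (b₂ l * c₁) := by
    intro l
    simp only [Matrix.mulVec, dotProduct, hG, Algebra.traceMatrix_apply, Algebra.traceForm_apply]
    rw [← hc₁sum, Finset.mul_sum, map_sum]
    refine Finset.sum_congr rfl fun i _ => ?_
    rw [mul_smul_comm, map_smul, smul_eq_mul, mul_comm]
  have htr : ∀ z : M, Algebra.trace V M (z * c₁) = s * Algebra.trace V M' ((z : M') * x') := by
    intro z
    rw [trace_subalgebra_eq b' M b]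
    have h1 : ((z * c₁ : M) : M') = s • ((z : M') * x') := by
      simp only [c₁, MulMemClass.coe_mul, mul_smul_comm]
    rw [h1, map_smul, smul_eq_mul]
  let S : Finset ι := Finset.univ.image ia
  have hb₂ia : ∀ a, b₂ (ia a) = c a := fun a => by
    rw [hb₂]; exact adapted_apply b c P ia hP a
  have hnilM : ∀ a (z : M), s ∣ Algebra.trace V M (c a * z) := by
    intro a z
    obtain ⟨m, hm⟩ := hnil a
    exact dvd_trace_of_dvd_pow b hs.prime (m := m) (by rw [mul_pow]; exact Dvd.dvd.mul_right hm _)
  have h1 : ∀ i ∈ S, ∀ j, s ∣ (G.updateCol i₀ (G *ᵥ y₀)) i j := by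
    intro i hi j
    obtain ⟨a, -, rfl⟩ := Finset.mem_image.mp hi
    by_cases hj : j = i₀
    · subst hj
      rw [Matrix.updateCol_self, hcol, hb₂ia]
      exact hnilM a _
    · rw [Matrix.updateCol_ne hj, hG, Algebra.traceMatrix_apply, Algebra.traceForm_apply, hb₂ia]
      exact hnilM a _
  have h2 : ∀ i ∈ S, s ^ 2 ∣ (G.updateCol i₀ (G *ᵥ y₀)) i i₀ := by
    intro i hi
    obtain ⟨a, -, rfl⟩ := Finset.mem_image.mp hi
    obtain ⟨m, w, hw⟩ := hnil a
    rw [Matrix.updateCol_self, hcol, hb₂ia, htr, pow_two]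
    refine mul_dvd_mul_left s ?_
    refine dvd_trace_of_dvd_pow b' hs.prime (m := m) ⟨(w : M') * x' ^ m, ?_⟩
    have h3 := congrArg (fun z : M => (z : M')) hw
    simp only [SubmonoidClass.coe_pow, MulMemClass.coe_mul, Subalgebra.coe_algebraMap] at h3
    rw [mul_pow, h3, mul_assoc]
  have h3 : ∀ i, i ∉ S → s ∣ (G.updateCol i₀ (G *ᵥ y₀)) i i₀ := by
    intro i _
    rw [Matrix.updateCol_self, hcol, htr]
    exact dvd_mul_right _ _
  have hdvd := pow_card_succ_dvd_det (G.updateCol i₀ (G *ᵥ y₀)) hs.ne_zero S i₀ h1 h2 h3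
  have hcard : S.card = Fintype.card κ := by
    rw [Finset.card_image_of_injective _ hia, Finset.card_univ]
  have hdetupd : (G.updateCol i₀ (G *ᵥ y₀)).det = G.det * y₀ i₀ := by
    rw [← Matrix.cramer_apply, Matrix.cramer_eq_adjugate_mulVec, Matrix.mulVec_mulVec,
      Matrix.adjugate_mul, Matrix.smul_mulVec, Matrix.one_mulVec]
    rfl
  rw [hdetupd, hcard] at hdvd
  have h4 : s ^ (Fintype.card κ + 1) ∣ G.det := (hyu.dvd_mul_right).mp hdvd
  have h5 : s ^ (Fintype.card κ + 1) ∣ P.det ^ 2 * Algebra.discr V b := by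
    rw [← hdisc, Algebra.discr_def, ← hG]
    exact h4
  exact hd (((hPu.pow 2).dvd_mul_left).mp h5)

end Max

section NilBasis

variable {V M κ B ι : Type*} [CommRing V] [CommRing M] [Algebra V M] [Field κ] [CommRing B]
  [Algebra κ B] {s : V} {φ : V →+* κ} {ρ : M →+* B}

/-- nilpotent modulo `s` ↔ nilpotent image -/
theorem IsRed.isNilpotent_rho_iff (h : IsRed s φ ρ) (x : M) :
    IsNilpotent (ρ x) ↔ ∃ m : ℕ, algebraMap V M s ∣ x ^ m := by
  constructor
  · rintro ⟨m, hm⟩
    exact ⟨m, (h.rho_ker _).mp (by rw [map_pow, hm])⟩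
  · rintro ⟨m, hm⟩
    exact ⟨m, by rw [← map_pow]; exact (h.rho_ker _).mpr hm⟩

theorem IsRed.card_sub_redDim [Fintype ι] (h : IsRed s φ ρ) (b : Basis ι V M) :
    Fintype.card ι - redDim κ B = Module.finrank κ ((nilradical B).restrictScalars κ) := by
  have : Module.Finite κ B := Module.Finite.of_basis (h.basis b)
  have h1 := Submodule.finrank_quotient_add_finrank ((nilradical B).restrictScalars κ)
  rw [h.finrank_eq b] at h1
  have h2 : Module.finrank κ (B ⧸ (nilradical B).restrictScalars κ) = redDim κ B := by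
    unfold redDim
    exact LinearEquiv.finrank_eq (Submodule.Quotient.restrictScalarsEquiv κ (nilradical B))
  omega

theorem IsRed.redDim_le_card [Fintype ι] (h : IsRed s φ ρ) (b : Basis ι V M) :
    redDim κ B ≤ Fintype.card ι := by
  have : Module.Finite κ B := Module.Finite.of_basis (h.basis b)
  have h1 := Submodule.finrank_quotient_add_finrank ((nilradical B).restrictScalars κ)
  rw [h.finrank_eq b] at h1
  have h2 : Module.finrank κ (B ⧸ (nilradical B).restrictScalars κ) = redDim κ B := by
    unfold redDim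
    exact LinearEquiv.finrank_eq (Submodule.Quotient.restrictScalarsEquiv κ (nilradical B))
  omega

/-- a family of `card ι - redDim` elements of `M` lifting a basis of the nilradical of the
reduction: nilpotent mod `s`, independent mod `s`, spanning the nilpotents mod `s`. -/
theorem IsRed.exists_nilBasis [Fintype ι] (h : IsRed s φ ρ) (b : Basis ι V M) :
    ∃ c : Fin (Fintype.card ι - redDim κ B) → M,
      (∀ a, ∃ m : ℕ, algebraMap V M s ∣ c a ^ m) ∧
      (∀ g : Fin (Fintype.card ι - redDim κ B) → V,
        algebraMap V M s ∣ ∑ a, g a • c a → ∀ a, s ∣ g a) ∧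
      (∀ x : M, (∃ m : ℕ, algebraMap V M s ∣ x ^ m) →
        ∃ g : Fin (Fintype.card ι - redDim κ B) → V, algebraMap V M s ∣ x - ∑ a, g a • c a) := by
  classical
  have : Module.Finite κ B := Module.Finite.of_basis (h.basis b)
  rw [h.card_sub_redDim b]
  let bN := Module.finBasis κ ((nilradical B).restrictScalars κ)
  choose c hc using fun a => h.rho_surj (bN a : B)
  refine ⟨c, ?_, ?_, ?_⟩
  · intro a
    have h1 : IsNilpotent (ρ (c a)) := by
      rw [hc]
      exact mem_nilradical.mp (bN a).2
    exact (h.isNilpotent_rho_iff _).mp h1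
  · intro g hg a
    have h0 : ρ (∑ a, g a • c a) = 0 := (h.rho_ker _).mpr hg
    rw [h.rho_sum] at h0
    have h1 : ∑ a, φ (g a) • bN a = 0 := by
      apply Subtype.ext
      simp only [AddSubmonoidClass.coe_finsetSum, SetLike.val_smul, ZeroMemClass.coe_zero]
      rw [← h0]
      exact Finset.sum_congr rfl fun a _ => by rw [hc]
    have h2 := Fintype.linearIndependent_iff.mp bN.linearIndependent _ h1 a
    exact (h.phi_ker _).mp h2
  · intro x hx
    have hx' : ρ x ∈ (nilradical B).restrictScalars κ :=
      mem_nilradical.mpr ((h.isNilpotent_rho_iff x).mpr hx)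
    choose g hg using fun a => h.phi_surj (bN.repr ⟨ρ x, hx'⟩ a)
    refine ⟨g, (h.rho_ker _).mp ?_⟩
    rw [map_sub, h.rho_sum, sub_eq_zero]
    have h1 := congrArg Subtype.val (bN.sum_repr ⟨ρ x, hx'⟩)
    simp only [AddSubmonoidClass.coe_finsetSum, SetLike.val_smul] at h1
    rw [← h1]
    exact Finset.sum_congr rfl fun a _ => by rw [hg, hc]

/-- (ii): `s ^ (n - redDim)` divides the discriminant -/
theorem pow_dvd_discr [IsDomain V] [IsDiscreteValuationRing V] [Fintype ι] [DecidableEq ι]
    (b : Basis ι V M) (hs : Irreducible s) (h : IsRed s φ ρ) :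
    s ^ (Fintype.card ι - redDim κ B) ∣ Algebra.discr V b := by
  obtain ⟨c, hnil, hind, -⟩ := h.exists_nilBasis b
  have h1 := pow_card_dvd_discr_of_family b hs c hnil hind
  rwa [Fintype.card_fin] at h1

end NilBasis

section MaxRed

variable {V : Type*} [CommRing V] [IsDomain V] [IsDiscreteValuationRing V]
variable {M' ι κ B : Type*} [CommRing M'] [Algebra V M'] [Fintype ι] [DecidableEq ι]
  [Field κ] [CommRing B] [Algebra κ B]

/-- MAX: a finite free subalgebra `M` of full rank of `M'` whose discriminant is not divisible by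
`s ^ (n - redDim + 1)` is everything. -/
theorem eq_top_of_not_dvd_discr (b' : Basis ι V M') (M : Subalgebra V M') (b : Basis ι V M)
    {s : V} (hs : Irreducible s) {φ : V →+* κ} {ρ : M →+* B} (h : IsRed s φ ρ)
    (hd : ¬ s ^ (Fintype.card ι - redDim κ B + 1) ∣ Algebra.discr V b) : M = ⊤ := by
  obtain ⟨c, hnil, hind, -⟩ := h.exists_nilBasis b
  refine eq_top_of_family b' M b hs c hnil hind ?_
  rwa [Fintype.card_fin]

end MaxRed

section LemmaB

/-- in characteristic zero, an element of a finite-dimensional commutative algebra which is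
trace-orthogonal to everything is nilpotent -/
theorem isNilpotent_of_trace_mul_eq_zero {κ B : Type*} [Field κ] [CharZero κ] [CommRing B]
    [Algebra κ B] [Module.Finite κ B] (x : B) (hx : ∀ y, Algebra.trace κ B (x * y) = 0) :
    IsNilpotent x := by
  have : IsArtinianRing B := IsArtinianRing.of_finite κ B
  obtain ⟨n, a, ha⟩ := IsArtinian.exists_pow_succ_smul_dvd x (1 : B)
  simp only [smul_eq_mul, mul_one, Nat.succ_eq_add_one] at ha
  have hk : ∀ k, x ^ (n + k) * a ^ k = x ^ n := by
    intro k
    induction k with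
    | zero => simp
    | succ k ih =>
      calc x ^ (n + (k + 1)) * a ^ (k + 1) = x ^ k * a ^ k * (x ^ (n + 1) * a) := by ring
        _ = x ^ k * a ^ k * x ^ n := by rw [ha]
        _ = x ^ (n + k) * a ^ k := by ring
        _ = x ^ n := ih
  obtain ⟨e, he⟩ : ∃ e : B, e = x ^ (n + 1) * a ^ (n + 1) := ⟨_, rfl⟩
  have hidem : e * e = e := by
    calc e * e = x ^ (n + (n + 1)) * a ^ (n + 1) * (x * a ^ (n + 1)) := by rw [he]; ring
      _ = x ^ n * (x * a ^ (n + 1)) := by rw [hk]
      _ = e := by rw [he]; ring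
  have htr : Algebra.trace κ B e = 0 := by
    have h1 : e = x * (x ^ n * a ^ (n + 1)) := by rw [he]; ring
    rw [h1]; exact hx _
  have he0 : e = 0 := by
    have hid : IsIdempotentElem (LinearMap.mulLeft κ e) := by
      show LinearMap.mulLeft κ e * LinearMap.mulLeft κ e = _
      rw [Module.End.mul_eq_comp, ← LinearMap.mulLeft_mul, hidem]
    have h0 : LinearMap.trace κ B (LinearMap.mulLeft κ e) = 0 := by
      rw [← htr]; rfl
    have h1 := (LinearMap.IsIdempotentElem.trace_eq_zero_iff hid).mp h0
    have h2 := congrArg (fun f : B →ₗ[κ] B => f 1) h1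
    simpa using h2
  refine ⟨n + 1, ?_⟩
  have h1 : x ^ (n + 1) = x ^ (n + 1) * e := by
    calc x ^ (n + 1) = x * x ^ n := by ring
      _ = x * (x ^ (n + (n + 1)) * a ^ (n + 1)) := by rw [hk]
      _ = x ^ (n + 1) * e := by rw [he]; ring
  rw [h1, he0, mul_zero]

end LemmaB

section Gram

variable {V M ι : Type*} [CommRing V] [CommRing M] [Algebra V M] [Fintype ι] [DecidableEq ι]

theorem traceMatrix_mulVec (b : ι → M) (x : ι → V) (i : ι) :
    (Algebra.traceMatrix V b *ᵥ x) i = Algebra.trace V M (b i * ∑ j, x j • b j) := by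
  simp only [Matrix.mulVec, dotProduct, Algebra.traceMatrix_apply, Algebra.traceForm_apply]
  rw [Finset.mul_sum, map_sum]
  exact Finset.sum_congr rfl fun j _ => by rw [mul_smul_comm, map_smul, smul_eq_mul, mul_comm]

theorem dvd_trace_mul_of_family (b : ι → M) (s : V) (w : M)
    (hw : ∀ i, s ∣ Algebra.trace V M (b i * w)) (y : ι → V) :
    s ∣ Algebra.trace V M (w * ∑ i, y i • b i) := by
  rw [Finset.mul_sum, map_sum]
  refine Finset.dvd_sum fun i _ => ?_
  rw [mul_smul_comm, map_smul, smul_eq_mul, mul_comm w]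
  exact Dvd.dvd.mul_left (hw i) _

theorem dvd_trace_mul_of_basis (b : Basis ι V M) (s : V) (w : M)
    (hw : ∀ i, s ∣ Algebra.trace V M (b i * w)) (u : M) : s ∣ Algebra.trace V M (w * u) := by
  rw [← b.sum_repr u]
  exact dvd_trace_mul_of_family b s w hw _

theorem dvd_repr_of_dvd (b : Basis ι V M) {s : V} {w : M} (h : algebraMap V M s ∣ w) (i : ι) :
    s ∣ b.repr w i := by
  obtain ⟨y, rfl⟩ := h
  rw [← Algebra.smul_def, map_smul, Finsupp.smul_apply, smul_eq_mul]
  exact dvd_mul_right _ _

end Gram

section UnitDisc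

variable {V M κ B ι : Type*} [CommRing V] [CommRing M] [Algebra V M] [Field κ] [CommRing B]
  [Algebra κ B] {s : V} {φ : V →+* κ} {ρ : M →+* B}

/-- (hchar): in residue characteristic zero the radical of the trace form modulo `s` consists of
elements nilpotent modulo `s`. -/
theorem IsRed.nil_of_trace [CharZero κ] [Fintype ι] [DecidableEq ι] (h : IsRed s φ ρ)
    (b : Basis ι V M) (w : M) (hw : ∀ u : M, s ∣ Algebra.trace V M (w * u)) :
    ∃ m : ℕ, algebraMap V M s ∣ w ^ m := by
  have : Module.Finite κ B := Module.Finite.of_basis (h.basis b)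
  apply (h.isNilpotent_rho_iff w).mp
  apply isNilpotent_of_trace_mul_eq_zero (κ := κ)
  intro y
  obtain ⟨u, rfl⟩ := h.rho_surj y
  rw [← map_mul, h.trace_rho b]
  exact (h.phi_ker _).mpr (hw u)

/-- (v'): reduced reduction in residue characteristic zero ⇒ unit discriminant -/
theorem isUnit_discr_of_isReduced [IsDomain V] [IsDiscreteValuationRing V] [CharZero κ]
    [IsReduced B] [Fintype ι] [DecidableEq ι] (b : Basis ι V M) (hs : Irreducible s)
    (h : IsRed s φ ρ) : IsUnit (Algebra.discr V b) := by
  rw [Algebra.discr_def]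
  apply isUnit_det_of_mulVec_inj hs
  intro x hx i
  have hw : ∀ u : M, s ∣ Algebra.trace V M ((∑ j, x j • b j) * u) :=
    dvd_trace_mul_of_basis b s _ (fun i => by rw [← traceMatrix_mulVec]; exact hx i)
  obtain ⟨m, hm⟩ := h.nil_of_trace b _ hw
  have h0 : ρ (∑ j, x j • b j) = 0 :=
    ((h.isNilpotent_rho_iff _).mpr ⟨m, hm⟩).eq_zero
  have h1 := dvd_repr_of_dvd b ((h.rho_ker _).mp h0) i
  rwa [b.repr_sum_self] at h1

end UnitDisc

end Fermat.Agent.RedLib.DiscLA
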