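import Mathlib

/-!
# RedLib/SelfDual: self-dual lattices (`SD`) for the trace form

`SD O K E Lam` : `Lam` is the `O`-span of a `K`-basis of `E` whose discriminant is a unit of `O`.
Consequences: `Lam` contains its trace dual (`SD.dual_le`), `Lam` is the integral closure of `O`
in `E` when `O` is integrally closed (`SD.mem_iff_isIntegral`); constructions: `SD.of_adjoin`
(monogenic, unit different), `SD.trans` (towers).
-/

set_option autoImplicit false

namespace Fermat.Agent.RedLib.SelfDual

open Polynomial

/-- `Lam` is the `O`-span of a `K`-basis of `E` whose discriminant is a unit of `O`. -/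
structure SD (O K E : Type*) [CommRing O] [Field K] [Algebra O K] [CommRing E] [Algebra K E]
    [Algebra O E] [IsScalarTower O K E] (Lam : Subalgebra O E) : Prop where
  exists_basis : ∃ (ι : Type) (_ : Fintype ι) (_ : DecidableEq ι) (b : Module.Basis ι K E),
    Submodule.span O (Set.range b) = Subalgebra.toSubmodule Lam ∧
      ∃ u : Oˣ, Algebra.discr K b = algebraMap O K u

section Basic

variable {O K E : Type*} [CommRing O] [Field K] [Algebra O K] [CommRing E] [Algebra K E]
  [Algebra O E] [IsScalarTower O K E]

/-- Coordinates of elements of the `O`-span of a basis lie in the image of `O`. -/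
theorem repr_mem_range {ι : Type*} (b : Module.Basis ι K E) {z : E}
    (hz : z ∈ Submodule.span O (Set.range b)) (i : ι) :
    b.repr z i ∈ (algebraMap O K).range := by
  classical
  induction hz using Submodule.span_induction with
  | mem x hx =>
    obtain ⟨j, rfl⟩ := hx
    rw [Module.Basis.repr_self, Finsupp.single_apply]
    split_ifs
    · exact Subring.one_mem _
    · exact Subring.zero_mem _
  | zero => rw [map_zero, Finsupp.zero_apply]; exact Subring.zero_mem _
  | add x y _ _ hx hy => rw [map_add, Finsupp.add_apply]; exact Subring.add_mem _ hx hy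
  | smul a x _ hx =>
    rw [← algebraMap_smul K a x, map_smul, Finsupp.smul_apply, smul_eq_mul]
    exact Subring.mul_mem _ ⟨a, rfl⟩ hx

/-- An element all of whose coordinates lie in the image of `O` is in the `O`-span. -/
theorem mem_span_of_repr_mem_range {ι : Type*} [Fintype ι] (b : Module.Basis ι K E) {z : E}
    (hz : ∀ i, b.repr z i ∈ (algebraMap O K).range) :
    z ∈ Submodule.span O (Set.range b) := by
  classical
  choose a ha using hz
  rw [← b.sum_repr z]
  refine Submodule.sum_mem _ fun i _ => ?_
  rw [← ha i, algebraMap_smul]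
  exact Submodule.smul_mem _ _ (Submodule.subset_span ⟨i, rfl⟩)

/-- The trace of an element of a subalgebra which is the `O`-span of a basis lies in the image of
`O`. -/
theorem trace_mem_range {ι : Type*} [Fintype ι] [DecidableEq ι] (b : Module.Basis ι K E)
    (Lam : Subalgebra O E)
    (hb : Submodule.span O (Set.range b) = Subalgebra.toSubmodule Lam) {y : E} (hy : y ∈ Lam) :
    Algebra.trace K E y ∈ (algebraMap O K).range := by
  rw [Algebra.trace_eq_matrix_trace b, Matrix.trace]
  refine Subring.sum_mem _ fun i _ => ?_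
  rw [Matrix.diag_apply, Algebra.leftMulMatrix_eq_repr_mul]
  refine repr_mem_range b ?_ i
  rw [hb]
  exact Lam.mul_mem hy (by
    have : b i ∈ Submodule.span O (Set.range b) := Submodule.subset_span ⟨i, rfl⟩
    rw [hb] at this
    exact this)

/-- Entries of the adjugate of a matrix with entries in a subring lie in that subring. -/
theorem adjugate_mem {ι : Type*} [Fintype ι] [DecidableEq ι] (S : Subring K) (M : Matrix ι ι K)
    (hM : ∀ i j, M i j ∈ S) (i j : ι) : Matrix.adjugate M i j ∈ S := by
  let MS : Matrix ι ι S := fun i j => ⟨M i j, hM i j⟩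
  have hMS : M = S.subtype.mapMatrix MS := by
    ext i j; rfl
  rw [hMS, ← RingHom.map_adjugate]
  exact ((Matrix.adjugate MS) i j).2

/-- Core of `SD.dual_le`, for a given basis. -/
theorem dual_le_of_basis {ι : Type*} [Fintype ι] [DecidableEq ι] (b : Module.Basis ι K E)
    (Lam : Subalgebra O E)
    (hb : Submodule.span O (Set.range b) = Subalgebra.toSubmodule Lam)
    (u : Oˣ) (hu : Algebra.discr K b = algebraMap O K u) (x : E)
    (hx : ∀ i, Algebra.trace K E (x * b i) ∈ (algebraMap O K).range) : x ∈ Lam := by
  have hbL : ∀ i, b i ∈ Lam := fun i => by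
    have : b i ∈ Submodule.span O (Set.range b) := Submodule.subset_span ⟨i, rfl⟩
    rw [hb] at this
    exact this
  set M := Algebra.traceMatrix K b with hM
  set c : ι → K := fun i => b.repr x i with hc
  set o : ι → K := fun i => Algebra.trace K E (x * b i) with ho
  have hMc : M.mulVec c = o := by
    funext i
    simp only [Matrix.mulVec, dotProduct, hM, Algebra.traceMatrix_apply, Algebra.traceForm_apply,
      ho, hc]
    conv_rhs => rw [← b.sum_repr x]
    rw [Finset.sum_mul, map_sum]
    refine Finset.sum_congr rfl fun j _ => ?_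
    rw [smul_mul_assoc, map_smul, smul_eq_mul, mul_comm (b i) (b j), mul_comm]
  have hMS : ∀ i j, M i j ∈ (algebraMap O K).range := fun i j => by
    rw [hM, Algebra.traceMatrix_apply, Algebra.traceForm_apply]
    exact trace_mem_range b Lam hb (Lam.mul_mem (hbL i) (hbL j))
  have hdet : M.det = algebraMap O K u := by rw [← hu, Algebra.discr_def]
  have hadj : M.det • c = (Matrix.adjugate M).mulVec o := by
    rw [← hMc, Matrix.mulVec_mulVec, Matrix.adjugate_mul, Matrix.smul_mulVec, Matrix.one_mulVec]
  have hci : ∀ i, c i ∈ (algebraMap O K).range := by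
    intro i
    have h1 : algebraMap O K u * c i = (Matrix.adjugate M).mulVec o i := by
      rw [← hdet, ← hadj]; rfl
    have h2 : c i = algebraMap O K ((u⁻¹ : Oˣ) : O) * (Matrix.adjugate M).mulVec o i := by
      rw [← h1, ← mul_assoc, ← map_mul, Units.inv_mul, map_one, one_mul]
    rw [h2]
    refine Subring.mul_mem _ ⟨_, rfl⟩ ?_
    simp only [Matrix.mulVec, dotProduct]
    exact Subring.sum_mem _ fun j _ =>
      Subring.mul_mem _ (adjugate_mem _ M hMS i j) (hx j)
  have := mem_span_of_repr_mem_range (O := O) b hci
  rw [hb] at this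
  exact this

/-- A self-dual lattice contains every element whose trace pairings with it are integral. -/
theorem SD.dual_le {Lam : Subalgebra O E} (h : SD O K E Lam) (x : E)
    (hx : ∀ y ∈ Lam, Algebra.trace K E (x * y) ∈ (algebraMap O K).range) : x ∈ Lam := by
  obtain ⟨ι, _, _, b, hb, u, hu⟩ := h.exists_basis
  refine dual_le_of_basis b Lam hb u hu x fun i => hx _ ?_
  have : b i ∈ Submodule.span O (Set.range b) := Submodule.subset_span ⟨i, rfl⟩
  rw [hb] at this
  exact this

/-- A self-dual lattice is finitely generated as a module. -/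
theorem SD.fg {Lam : Subalgebra O E} (h : SD O K E Lam) : (Subalgebra.toSubmodule Lam).FG := by
  obtain ⟨ι, _, _, b, hb, -⟩ := h.exists_basis
  rw [← hb]
  exact Submodule.fg_span (Set.finite_range b)

/-- `E` is finite over `K` when it carries a self-dual lattice. -/
theorem SD.finite {Lam : Subalgebra O E} (h : SD O K E Lam) : Module.Finite K E := by
  obtain ⟨ι, _, _, b, -, -⟩ := h.exists_basis
  exact Module.Finite.of_basis b

end Basic

section Integral

variable {O K E : Type*} [CommRing O] [IsIntegrallyClosed O] [Field K] [Algebra O K]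
  [IsFractionRing O K] [Field E] [Algebra K E] [Algebra O E] [IsScalarTower O K E]

/-- A self-dual lattice over an integrally closed domain is the integral closure. -/
theorem SD.mem_iff_isIntegral {Lam : Subalgebra O E} (h : SD O K E Lam) (x : E) :
    x ∈ Lam ↔ IsIntegral O x := by
  constructor
  · intro hx
    exact IsIntegral.of_mem_of_fg Lam h.fg x hx
  · intro hx
    have := h.finite
    refine h.dual_le x fun y hy => ?_
    have hy' : IsIntegral O y := IsIntegral.of_mem_of_fg Lam h.fg y hy
    have h1 : IsIntegral O (Algebra.trace K E (x * y)) := Algebra.isIntegral_trace (hx.mul hy')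
    obtain ⟨a, ha⟩ := IsIntegrallyClosed.isIntegral_iff.mp h1
    exact ⟨a, ha⟩

end Integral

section Norm

variable {O K E : Type*} [CommRing O] [Field K] [Algebra O K] [CommRing E] [Algebra K E]
  [Algebra O E] [IsScalarTower O K E]

/-- The norm of an element of a subalgebra which is the `O`-span of a basis lies in the image of
`O`. -/
theorem norm_mem_range {ι : Type*} [Fintype ι] [DecidableEq ι] (b : Module.Basis ι K E)
    (Lam : Subalgebra O E)
    (hb : Submodule.span O (Set.range b) = Subalgebra.toSubmodule Lam) {y : E} (hy : y ∈ Lam) :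
    Algebra.norm K y ∈ (algebraMap O K).range := by
  have hM : ∀ i j, Algebra.leftMulMatrix b y i j ∈ (algebraMap O K).range := by
    intro i j
    rw [Algebra.leftMulMatrix_eq_repr_mul]
    refine repr_mem_range b ?_ i
    rw [hb]
    exact Lam.mul_mem hy (by
      have : b j ∈ Submodule.span O (Set.range b) := Submodule.subset_span ⟨j, rfl⟩
      rw [hb] at this
      exact this)
  choose M₀ hM₀ using hM
  have hmap : Algebra.leftMulMatrix b y = (algebraMap O K).mapMatrix (Matrix.of M₀) := by
    ext i j
    exact (hM₀ i j).symm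
  rw [Algebra.norm_eq_matrix_det b, hmap, ← RingHom.map_det]
  exact ⟨_, rfl⟩

end Norm

section Monogenic

variable {A K L : Type*} [CommRing A] [Field K] [Algebra A K] [CommRing L] [Algebra K L]
  [Algebra A L] [IsScalarTower A K L]

/-- The `A`-span of the first `deg h` powers of a root `x` of a monic polynomial `h` is `A[x]`. -/
theorem span_pow_eq_adjoin (x : L) (h : A[X]) (hm : h.Monic) (hroot : aeval x h = 0) (n : ℕ)
    (hn : n = h.natDegree) :
    Submodule.span A (Set.range fun i : Fin n => x ^ (i : ℕ)) =
      Subalgebra.toSubmodule (Algebra.adjoin A {x}) := by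
  apply le_antisymm
  · rw [Submodule.span_le]
    rintro _ ⟨i, rfl⟩
    exact (Algebra.adjoin A {x}).pow_mem (Algebra.subset_adjoin rfl) _
  · intro z hz
    rw [Subalgebra.mem_toSubmodule, Algebra.adjoin_singleton_eq_range_aeval] at hz
    obtain ⟨g, rfl⟩ := hz
    change aeval x g ∈ _
    by_cases h1 : h = 1
    · have h0 : (1 : L) = 0 := by simpa [h1] using hroot
      have : aeval x g = 0 := by rw [← mul_one (aeval x g), h0, mul_zero]
      rw [this]
      exact Submodule.zero_mem _
    · rw [← aeval_modByMonic_eq_self_of_root hroot (p := g),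
        aeval_eq_sum_range' (hn ▸ natDegree_modByMonic_lt g hm h1)]
      exact Submodule.sum_mem _ fun i hi => Submodule.smul_mem _ _
        (Submodule.subset_span ⟨⟨i, Finset.mem_range.mp hi⟩, rfl⟩)

end Monogenic

section MonogenicField

variable {A K L : Type*} [CommRing A] [Field K] [Algebra A K] [Field L] [Algebra K L]
  [Algebra A L] [IsScalarTower A K L]

/-- Monogenic self-dual lattices: if `x` generates `L/K`, is a root of a monic `h ∈ A[X]`
irreducible over `K`, and `h'(x)` is a unit of `A[x]`, then `A[x]` is self-dual. -/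
theorem SD.of_root (hinj : Function.Injective (algebraMap A K))
    (x : L) (h : A[X]) (hm : h.Monic) (hirr : Irreducible (h.map (algebraMap A K)))
    (hroot : aeval x h = 0) (hgen : IntermediateField.adjoin K {x} = ⊤)
    (hder : ∃ y ∈ Algebra.adjoin A {x}, y * aeval x (derivative h) = 1) :
    SD A K L (Algebra.adjoin A {x}) := by
  classical
  have hrootK : aeval x (h.map (algebraMap A K)) = 0 := by
    rw [aeval_map_algebraMap]; exact hroot
  have hxK : IsIntegral K x := ⟨h.map (algebraMap A K), hm.map _, by
    rw [← aeval_def]; exact hrootK⟩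
  have hmin : minpoly K x = h.map (algebraMap A K) :=
    (minpoly.eq_of_irreducible_of_monic hirr hrootK (hm.map _)).symm
  have htop : Algebra.adjoin K {x} = ⊤ := by
    rw [← IntermediateField.adjoin_simple_toSubalgebra_of_isAlgebraic hxK.isAlgebraic, hgen,
      IntermediateField.top_toSubalgebra]
  set pb := PowerBasis.ofAdjoinEqTop hxK htop with hpb
  have hgenpb : pb.gen = x := PowerBasis.ofAdjoinEqTop_gen hxK htop
  have hdim : pb.dim = h.natDegree := by
    rw [hpb, PowerBasis.ofAdjoinEqTop_dim, hmin, hm.natDegree_map]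
  have hspan : Submodule.span A (Set.range pb.basis) =
      Subalgebra.toSubmodule (Algebra.adjoin A {x}) := by
    rw [PowerBasis.coe_basis, hgenpb]
    exact span_pow_eq_adjoin x h hm hroot pb.dim hdim
  refine ⟨Fin pb.dim, inferInstance, inferInstance, pb.basis, hspan, ?_⟩
  obtain ⟨y, hy, hyd⟩ := hder
  have hsepx : IsSeparable K x := by
    unfold IsSeparable
    rw [hmin, separable_iff_derivative_ne_zero hirr]
    intro h0
    rw [derivative_map] at h0
    have h1 : aeval x (derivative h) = 0 := by
      rw [← aeval_map_algebraMap K, h0, map_zero]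
    rw [h1, mul_zero] at hyd
    exact zero_ne_one hyd
  have hsep : Algebra.IsSeparable K L := by
    have h1 : Algebra.IsSeparable K (IntermediateField.adjoin K {x}) :=
      (IntermediateField.isSeparable_adjoin_simple_iff_isSeparable K L).mpr hsepx
    rw [hgen] at h1
    exact AlgEquiv.Algebra.isSeparable (IntermediateField.topEquiv (F := K) (E := L))
  have hd : aeval x (derivative h) ∈ Algebra.adjoin A {x} := aeval_mem_adjoin_singleton _ _
  obtain ⟨a, ha⟩ := norm_mem_range pb.basis _ hspan hd
  obtain ⟨a', ha'⟩ := norm_mem_range pb.basis _ hspan hy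
  have haa : a' * a = 1 := by
    apply hinj
    rw [map_mul, ha, ha', ← map_mul, hyd, map_one, map_one]
  have : Module.Finite K L := pb.finite
  have hdisc := Algebra.discr_powerBasis_eq_norm K pb
  rw [hgenpb, hmin, derivative_map, aeval_map_algebraMap, ← ha] at hdisc
  refine ⟨(-1) ^ (Module.finrank K L * (Module.finrank K L - 1) / 2) *
    Units.mkOfMulEqOne a a' (by rw [mul_comm]; exact haa), ?_⟩
  rw [hdisc]
  simp

/-- Monogenic self-dual lattices over an integrally closed domain, in terms of the minimal
polynomial. -/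
theorem SD.of_adjoin [IsIntegrallyClosed A] [IsFractionRing A K] (x : L) (hx : IsIntegral A x)
    (hgen : IntermediateField.adjoin K {x} = ⊤)
    (hder : ∃ y ∈ Algebra.adjoin A {x}, y * aeval x (derivative (minpoly A x)) = 1) :
    SD A K L (Algebra.adjoin A {x}) := by
  have hinj : Function.Injective (algebraMap A K) := IsFractionRing.injective A K
  have : IsDomain A := hinj.isDomain
  refine SD.of_root hinj x (minpoly A x) (minpoly.monic hx) ?_ (minpoly.aeval A x) hgen hder
  rw [← minpoly.isIntegrallyClosed_eq_field_fractions' K hx]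
  exact minpoly.irreducible (hx.tower_top)


end MonogenicField

section Closure

variable {O K E : Type*} [CommRing O] [IsIntegrallyClosed O] [Field K] [Algebra O K]
  [IsFractionRing O K] [Field E] [Algebra K E] [Algebra O E] [IsScalarTower O K E]

/-- A self-dual lattice over an integrally closed domain is the integral closure. -/
theorem SD.eq_integralClosure {Lam : Subalgebra O E} (h : SD O K E Lam) :
    Lam = integralClosure O E := by
  ext x
  exact h.mem_iff_isIntegral x

/-- A self-dual lattice over an integrally closed domain is integrally closed. -/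
theorem SD.isIntegrallyClosed {Lam : Subalgebra O E} (h : SD O K E Lam) :
    IsIntegrallyClosed Lam := by
  have hinj : Function.Injective (algebraMap O K) := IsFractionRing.injective O K
  have : IsDomain O := hinj.isDomain
  have := h.finite
  obtain rfl := h.eq_integralClosure
  exact integralClosure.isIntegrallyClosedOfFiniteExtension K

/-- The ambient field is the fraction field of a self-dual lattice. -/
theorem SD.isFractionRing {Lam : Subalgebra O E} (h : SD O K E Lam) :
    IsFractionRing Lam E := by
  have hinj : Function.Injective (algebraMap O K) := IsFractionRing.injective O K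
  have : IsDomain O := hinj.isDomain
  have := h.finite
  obtain rfl := h.eq_integralClosure
  exact integralClosure.isFractionRing_of_finite_extension K E

end Closure

section Dual

variable {O K E : Type*} [CommRing O] [Field K] [Algebra O K] [CommRing E] [Algebra K E]
  [Algebra O E] [IsScalarTower O K E]

/-- The trace matrix applied to the coordinates of `x` gives the trace pairings of `x` with the
basis. -/
theorem traceMatrix_mulVec_repr {ι : Type*} [Fintype ι] [DecidableEq ι] (b : Module.Basis ι K E)
    (x : E) :
    (Algebra.traceMatrix K b).mulVec (fun i => b.repr x i) =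
      fun i => Algebra.trace K E (x * b i) := by
  funext i
  simp only [Matrix.mulVec, dotProduct, Algebra.traceMatrix_apply, Algebra.traceForm_apply]
  conv_rhs => rw [← b.sum_repr x]
  rw [Finset.sum_mul, map_sum]
  refine Finset.sum_congr rfl fun j _ => ?_
  rw [smul_mul_assoc, map_smul, smul_eq_mul, mul_comm (b i) (b j), mul_comm]

/-- Non-degeneracy of the trace form in terms of a basis with non-zero discriminant. -/
theorem eq_zero_of_trace_mul_eq_zero {ι : Type*} [Fintype ι] [DecidableEq ι]
    (b : Module.Basis ι K E) (hd : Algebra.discr K b ≠ 0) (x : E)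
    (hx : ∀ i, Algebra.trace K E (x * b i) = 0) : x = 0 := by
  have h1 := traceMatrix_mulVec_repr b x
  have h2 : (fun i => Algebra.trace K E (x * b i)) = 0 := funext hx
  rw [h2] at h1
  have h3 := Matrix.eq_zero_of_mulVec_eq_zero (by rwa [Algebra.discr_def] at hd) h1
  have h4 : b.repr x = 0 := by
    ext i
    exact congrFun h3 i
  exact (LinearEquiv.map_eq_zero_iff _).mp h4

/-- The discriminant of a basis is non-zero as soon as the trace form is non-degenerate. -/
theorem discr_ne_zero_of_trace {ι : Type*} [Fintype ι] [DecidableEq ι] (b : Module.Basis ι K E)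
    (h : ∀ x : E, (∀ i, Algebra.trace K E (x * b i) = 0) → x = 0) : Algebra.discr K b ≠ 0 := by
  intro h0
  rw [Algebra.discr_def, ← Matrix.exists_mulVec_eq_zero_iff] at h0
  obtain ⟨v, hv, hMv⟩ := h0
  set x : E := ∑ i, v i • b i with hx
  have hrepr : (fun i => b.repr x i) = v := by
    funext i
    rw [hx, Module.Basis.repr_sum_self]
  have h1 := traceMatrix_mulVec_repr b x
  rw [hrepr, hMv] at h1
  have hx0 : x = 0 := h x fun i => (congrFun h1 i).symm
  apply hv
  rw [← hrepr, hx0]
  funext i
  simp

/-- Converse of `dual_le_of_basis`: a lattice spanned by a basis which contains its trace dual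
(and with non-degenerate trace form) has unit discriminant. -/
theorem exists_unit_discr_of_dual (hinj : Function.Injective (algebraMap O K)) {ι : Type*}
    [Fintype ι] [DecidableEq ι] (b : Module.Basis ι K E) (Lam : Subalgebra O E)
    (hb : Submodule.span O (Set.range b) = Subalgebra.toSubmodule Lam)
    (hnd : Algebra.discr K b ≠ 0)
    (hdual : ∀ x : E, (∀ i, Algebra.trace K E (x * b i) ∈ (algebraMap O K).range) → x ∈ Lam) :
    ∃ u : Oˣ, Algebra.discr K b = algebraMap O K u := by
  have hbL : ∀ i, b i ∈ Lam := fun i => by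
    have : b i ∈ Submodule.span O (Set.range b) := Submodule.subset_span ⟨i, rfl⟩
    rw [hb] at this
    exact this
  set M := Algebra.traceMatrix K b with hM
  have hMS : ∀ i j, M i j ∈ (algebraMap O K).range := fun i j => by
    rw [hM, Algebra.traceMatrix_apply, Algebra.traceForm_apply]
    exact trace_mem_range b Lam hb (Lam.mul_mem (hbL i) (hbL j))
  have hdet : IsUnit M.det := by
    rw [isUnit_iff_ne_zero]
    rwa [Algebra.discr_def] at hnd
  have hinv : ∀ i j, M⁻¹ i j ∈ (algebraMap O K).range := by
    intro i j
    set x : E := ∑ k, M⁻¹ k j • b k with hx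
    have hxL : x ∈ Lam := by
      apply hdual
      intro l
      have h1 : Algebra.trace K E (x * b l) = (M * M⁻¹) l j := by
        rw [hx, Finset.sum_mul, map_sum, Matrix.mul_apply]
        refine Finset.sum_congr rfl fun k _ => ?_
        rw [smul_mul_assoc, map_smul, smul_eq_mul, hM, Algebra.traceMatrix_apply,
          Algebra.traceForm_apply, mul_comm (b l) (b k), mul_comm]
      rw [h1, Matrix.mul_nonsing_inv _ hdet, Matrix.one_apply]
      split_ifs
      · exact Subring.one_mem _
      · exact Subring.zero_mem _
    have h2 : b.repr x i = M⁻¹ i j := by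
      rw [hx, Module.Basis.repr_sum_self]
    rw [← h2]
    refine repr_mem_range b ?_ i
    rw [hb]
    exact hxL
  choose M₀ hM₀ using hMS
  choose N₀ hN₀ using hinv
  have hmap : M = (algebraMap O K).mapMatrix (Matrix.of M₀) := by
    ext i j
    exact (hM₀ i j).symm
  have hmapN : M⁻¹ = (algebraMap O K).mapMatrix (Matrix.of N₀) := by
    ext i j
    exact (hN₀ i j).symm
  have hprod : Matrix.of M₀ * Matrix.of N₀ = 1 := by
    have h3 : (algebraMap O K).mapMatrix (Matrix.of M₀ * Matrix.of N₀) =
        (algebraMap O K).mapMatrix 1 := by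
      rw [map_mul, ← hmap, ← hmapN, Matrix.mul_nonsing_inv _ hdet, map_one]
    exact Matrix.map_injective hinj h3
  have hdd : (Matrix.of M₀).det * (Matrix.of N₀).det = 1 := by
    rw [← Matrix.det_mul, hprod, Matrix.det_one]
  refine ⟨Units.mkOfMulEqOne _ _ hdd, ?_⟩
  rw [Algebra.discr_def, ← hM, hmap, ← RingHom.map_det]
  rfl

end Dual

section Trans

variable {O K E₁ E₂ : Type*} [CommRing O] [Field K] [Algebra O K] [Field E₁] [Algebra K E₁]
  [Algebra O E₁] [IsScalarTower O K E₁] [CommRing E₂] [Algebra E₁ E₂] [Algebra K E₂] [Algebra O E₂]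
  [IsScalarTower K E₁ E₂] [IsScalarTower O K E₂] [IsScalarTower O E₁ E₂]

/-- Transitivity of traces, twisted by a scalar. -/
theorem trace_trace_smul [Module.Free K E₁] [Module.Finite K E₁] [Module.Free E₁ E₂]
    [Module.Finite E₁ E₂] (x : E₂) (a : E₁) (y : E₂) :
    Algebra.trace K E₁ (Algebra.trace E₁ E₂ (x * y) * a) = Algebra.trace K E₂ (x * (a • y)) := by
  rw [mul_comm _ a, ← smul_eq_mul, ← map_smul, Algebra.trace_trace, mul_smul_comm]

/-- Self-dual lattices in towers. -/
theorem SD.trans (hinj : Function.Injective (algebraMap O K)) {Lam₁ : Subalgebra O E₁}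
    (h₁ : SD O K E₁ Lam₁) {Lam₂ : Subalgebra Lam₁ E₂} (h₂ : SD Lam₁ E₁ E₂ Lam₂) :
    SD O K E₂ (Lam₂.restrictScalars O) := by
  obtain ⟨ι₁, _, _, b₁, hb₁, u₁, hu₁⟩ := h₁.exists_basis
  obtain ⟨ι₂, _, _, b₂, hb₂, u₂, hu₂⟩ := h₂.exists_basis
  have : Module.Finite K E₁ := Module.Finite.of_basis b₁
  have : Module.Finite E₁ E₂ := Module.Finite.of_basis b₂
  have : Module.Free E₁ E₂ := Module.Free.of_basis b₂
  have hb₁L : ∀ i, b₁ i ∈ Lam₁ := fun i => by
    have : b₁ i ∈ Submodule.span O (Set.range b₁) := Submodule.subset_span ⟨i, rfl⟩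
    rw [hb₁] at this
    exact this
  have hb₂L : ∀ j, b₂ j ∈ Lam₂ := fun j => by
    have : b₂ j ∈ Submodule.span Lam₁ (Set.range b₂) := Submodule.subset_span ⟨j, rfl⟩
    rw [hb₂] at this
    exact this
  set b := b₁.smulTower b₂ with hbdef
  have hbL : ∀ I, b I ∈ Lam₂ := fun I => by
    rw [hbdef, Module.Basis.smulTower_apply]
    exact Lam₂.smul_mem (hb₂L I.2) (⟨b₁ I.1, hb₁L I.1⟩ : Lam₁)
  have hb : Submodule.span O (Set.range b) =
      Subalgebra.toSubmodule (Lam₂.restrictScalars O) := by
    apply le_antisymm
    · rw [Submodule.span_le]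
      rintro _ ⟨I, rfl⟩
      exact hbL I
    · intro z hz
      apply mem_span_of_repr_mem_range
      rintro ⟨i, j⟩
      rw [hbdef, Module.Basis.smulTower_repr]
      refine repr_mem_range b₁ ?_ i
      rw [hb₁]
      obtain ⟨l, hl⟩ := repr_mem_range (O := Lam₁) b₂ (z := z) (by rw [hb₂]; exact hz) j
      rw [← hl]
      exact l.2
  have hd₁ : Algebra.discr K b₁ ≠ 0 := by
    rw [hu₁]
    exact (u₁.isUnit.map (algebraMap O K)).ne_zero
  have hd₂ : Algebra.discr E₁ b₂ ≠ 0 := by
    rw [hu₂]
    exact (u₂.isUnit.map (algebraMap Lam₁ E₁)).ne_zero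
  have hkey : ∀ (x : E₂) (i : ι₁) (j : ι₂),
      Algebra.trace K E₁ (Algebra.trace E₁ E₂ (x * b₂ j) * b₁ i) =
        Algebra.trace K E₂ (x * b (i, j)) := by
    intro x i j
    rw [trace_trace_smul, hbdef, Module.Basis.smulTower_apply]
  have hnd : Algebra.discr K b ≠ 0 := by
    refine discr_ne_zero_of_trace b fun x hx => ?_
    refine eq_zero_of_trace_mul_eq_zero b₂ hd₂ x fun j => ?_
    refine eq_zero_of_trace_mul_eq_zero b₁ hd₁ _ fun i => ?_
    rw [hkey]
    exact hx (i, j)
  have hdual : ∀ x : E₂, (∀ I, Algebra.trace K E₂ (x * b I) ∈ (algebraMap O K).range) →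
      x ∈ Lam₂.restrictScalars O := by
    intro x hx
    refine dual_le_of_basis b₂ Lam₂ hb₂ u₂ hu₂ x fun j => ?_
    have : Algebra.trace E₁ E₂ (x * b₂ j) ∈ Lam₁ := by
      refine dual_le_of_basis b₁ Lam₁ hb₁ u₁ hu₁ _ fun i => ?_
      rw [hkey]
      exact hx (i, j)
    exact ⟨⟨_, this⟩, rfl⟩
  obtain ⟨u, hu⟩ := exists_unit_discr_of_dual hinj b _ hb hnd hdual
  exact ⟨ι₁ × ι₂, inferInstance, inferInstance, b, hb, u, hu⟩

end Trans


section AdjoinRoot

variable {O K E₁ E₂ : Type*} [CommRing O] [Field K] [Algebra O K] [Field E₁] [Algebra K E₁]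
  [Algebra O E₁] [IsScalarTower O K E₁] [Field E₂] [Algebra E₁ E₂] [Algebra K E₂] [Algebra O E₂]
  [IsScalarTower K E₁ E₂] [IsScalarTower O K E₂] [IsScalarTower O E₁ E₂]

/-- Adjoining a root on top of a self-dual lattice: `SD.of_root` followed by `SD.trans`. -/
theorem SD.adjoin_root (hinj : Function.Injective (algebraMap O K)) {Lam₁ : Subalgebra O E₁}
    (h₁ : SD O K E₁ Lam₁) (x : E₂) (h : Polynomial Lam₁) (hm : h.Monic)
    (hirr : Irreducible (h.map (algebraMap Lam₁ E₁))) (hroot : aeval x h = 0)
    (hgen : IntermediateField.adjoin E₁ {x} = ⊤)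
    (hder : ∃ y ∈ Algebra.adjoin Lam₁ {x}, y * aeval x (derivative h) = 1) :
    SD O K E₂ ((Algebra.adjoin Lam₁ {x}).restrictScalars O) :=
  h₁.trans hinj (SD.of_root Subtype.val_injective x h hm hirr hroot hgen hder)

end AdjoinRoot

section UnitDiscr

variable {O K E : Type*} [CommRing O] [Field K] [Algebra O K] [CommRing E] [Algebra K E]
  [Algebra O E] [IsScalarTower O K E]

/-- A `K`-basis of `E` whose `O`-span is the subalgebra `Lam` gives an `O`-basis of `Lam` with
the same discriminant. -/
theorem exists_basis_discr_eq (hinj : Function.Injective (algebraMap O K)) {ι : Type*}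
    [Fintype ι] [DecidableEq ι] (b : Module.Basis ι K E) (Lam : Subalgebra O E)
    (hb : Submodule.span O (Set.range b) = Subalgebra.toSubmodule Lam) :
    ∃ bO : Module.Basis ι O Lam, (∀ i, (bO i : E) = b i) ∧
      (∀ (z : Lam) (i : ι), algebraMap O K (bO.repr z i) = b.repr (z : E) i) ∧
      (∀ z : Lam, Algebra.trace K E (z : E) = algebraMap O K (Algebra.trace O Lam z)) ∧
      Algebra.discr K b = algebraMap O K (Algebra.discr O bO) := by
  have hbL : ∀ i, b i ∈ Lam := fun i => by
    have : b i ∈ Submodule.span O (Set.range b) := Submodule.subset_span ⟨i, rfl⟩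
    rw [hb] at this
    exact this
  set v : ι → Lam := fun i => ⟨b i, hbL i⟩ with hv
  have hvb : (Lam.val.toLinearMap ∘ v) = b := by
    funext i
    rfl
  have hli : LinearIndependent O v := by
    apply LinearIndependent.of_comp Lam.val.toLinearMap
    rw [hvb]
    refine b.linearIndependent.restrict_scalars ?_
    have : (fun r : O => r • (1 : K)) = algebraMap O K := by
      funext r
      rw [Algebra.algebraMap_eq_smul_one]
    rw [this]
    exact hinj
  have hsp : ⊤ ≤ Submodule.span O (Set.range v) := by
    rintro z -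
    have h1 : (z : E) ∈ Submodule.map Lam.val.toLinearMap (Submodule.span O (Set.range v)) := by
      rw [Submodule.map_span, ← Set.range_comp, hvb, hb]
      exact z.2
    obtain ⟨z', hz', hzz'⟩ := h1
    have : z' = z := Subtype.ext hzz'
    rw [← this]
    exact hz'
  set bO := Module.Basis.mk hli hsp with hbO
  have hbOb : ∀ i, (bO i : E) = b i := fun i => by
    rw [hbO, Module.Basis.mk_apply]
  have hrepr : ∀ (z : Lam) (i : ι), algebraMap O K (bO.repr z i) = b.repr (z : E) i := by
    intro z i
    have h1 : (z : E) = ∑ j, algebraMap O K (bO.repr z j) • b j := by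
      conv_lhs => rw [← bO.sum_repr z]
      rw [AddSubmonoidClass.coe_finsetSum]
      refine Finset.sum_congr rfl fun j _ => ?_
      rw [algebraMap_smul, ← hbOb j]
      rfl
    conv_rhs => rw [h1]
    rw [Module.Basis.repr_sum_self]
  have hmat : ∀ (z : Lam) (i j : ι), Algebra.leftMulMatrix b (z : E) i j =
      algebraMap O K (Algebra.leftMulMatrix bO z i j) := by
    intro z i j
    rw [Algebra.leftMulMatrix_eq_repr_mul, Algebra.leftMulMatrix_eq_repr_mul, hrepr, ← hbOb j]
    rfl
  have htr : ∀ z : Lam, Algebra.trace K E (z : E) = algebraMap O K (Algebra.trace O Lam z) := by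
    intro z
    rw [Algebra.trace_eq_matrix_trace b, Algebra.trace_eq_matrix_trace bO, Matrix.trace,
      Matrix.trace, map_sum]
    exact Finset.sum_congr rfl fun i _ => hmat z i i
  refine ⟨bO, hbOb, hrepr, htr, ?_⟩
  have hTM : Algebra.traceMatrix K b = (algebraMap O K).mapMatrix (Algebra.traceMatrix O bO) := by
    ext i j
    rw [Algebra.traceMatrix_apply, Algebra.traceForm_apply, RingHom.mapMatrix_apply,
      Matrix.map_apply, Algebra.traceMatrix_apply, Algebra.traceForm_apply, ← htr, ← hbOb i,
      ← hbOb j]
    rfl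
  rw [Algebra.discr_def, Algebra.discr_def, hTM, ← RingHom.map_det]

/-- The discriminant of any `O`-basis of a self-dual lattice is a unit. -/
theorem SD.isUnit_discr (hinj : Function.Injective (algebraMap O K)) {ι : Type*} [Fintype ι]
    [DecidableEq ι] {Lam : Subalgebra O E} (h : SD O K E Lam) (b : Module.Basis ι O Lam) :
    IsUnit (Algebra.discr O b) := by
  obtain ⟨ι', _, _, b', hb', u, hu⟩ := h.exists_basis
  obtain ⟨bO, -, -, -, hdisc⟩ := exists_basis_discr_eq hinj b' Lam hb'
  have hunit : IsUnit (Algebra.discr O bO) := by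
    have : Algebra.discr O bO = u := hinj (by rw [← hdisc, hu])
    rw [this]
    exact u.isUnit
  have : Nontrivial O := (algebraMap O K).domain_nontrivial
  set e : ι' ≃ ι := bO.indexEquiv b with he
  set bO' : Module.Basis ι O Lam := bO.reindex e with hbO'
  have h1 : Algebra.discr O bO' = Algebra.discr O bO := by
    rw [hbO', Module.Basis.coe_reindex]
    exact Algebra.discr_reindex O bO e
  set P : Matrix ι ι O := (bO'.toMatrix b).transpose with hP
  have h2 : (P.map (algebraMap O Lam)).mulVec bO' = b := by
    funext i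
    simp only [Matrix.mulVec, dotProduct, Matrix.map_apply, hP, Matrix.transpose_apply,
      Module.Basis.toMatrix_apply]
    conv_rhs => rw [← bO'.sum_repr (b i)]
    refine Finset.sum_congr rfl fun j _ => ?_
    rw [Algebra.smul_def]
  have h3 := Algebra.discr_of_matrix_mulVec (⇑bO') P
  rw [h2] at h3
  rw [h3, h1]
  refine IsUnit.mul (IsUnit.pow 2 ?_) hunit
  rw [hP, Matrix.det_transpose, ← Module.Basis.det_apply]
  exact Module.Basis.isUnit_det bO' b

end UnitDiscr

end Fermat.Agent.RedLib.SelfDual
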