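import Mathlib
import Fermat.Agent.RedLib.PlaceVS

/-!
# S18 (reduction of `J₀(N)`): unramified in the DVR language ⟹ reduced fibre

`V` a discrete valuation ring with uniformiser `s` and fraction field `K₁`, `E / K₁` finite
separable, `M = integralClosure V E`.

* `isDVR_valuationSubring` : the valuation subring of a height one prime of a Dedekind domain is a
  discrete valuation ring;
* `isPrincipalIdealRing_integralClosure` : `M` is a principal ideal domain (semilocal Dedekind);
* `exists_eq_mul_of_pow`, `isRadical_span`, `isReduced_quotient` : if `s` generates the maximal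
  ideal of every discrete valuation subring of `E` containing `V` (in which `s` is a non-unit),
  then `M / s M` is reduced.
-/

set_option autoImplicit false
set_option linter.unusedSectionVars false
set_option linter.style.haveILetI false

noncomputable section

namespace Fermat.Agent.RedLib.UnramRed

open IsDedekindDomain
open Fermat.Agent.RedLib.PlaceVS

section HOS

variable {M E : Type*} [CommRing M] [IsDedekindDomain M] [Field E] [Algebra M E]
  [IsFractionRing M E]

/-- The valuation subring of a height one prime of a Dedekind domain is a discrete valuation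
ring. -/
theorem isDVR_valuationSubring (w : HeightOneSpectrum M) :
    IsDiscreteValuationRing (w.valuation E).valuationSubring := by
  haveI := AlgebraicCurve.Place.isPrincipalIdealRing_valuationSubring (F := E) w
  refine { not_a_field' := ?_ }
  rw [ne_eq, ← IsLocalRing.isField_iff_maximalIdeal_eq]
  refine ValuationSubring.not_isField_of_ne_top E ?_
  simp only [ne_eq, Valuation.valuationSubring_eq_top_iff, not_not]
  infer_instance

theorem mem_nonunits_valuationSubring_iff (w : HeightOneSpectrum M) (x : E) :
    x ∈ (w.valuation E).valuationSubring.nonunits ↔ w.valuation E x < 1 := by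
  rw [ValuationSubring.mem_nonunits_iff_exists_mem_maximalIdeal]
  constructor
  · rintro ⟨hx, h⟩
    exact (Valuation.mem_maximalIdeal_iff _ _).mp h
  · intro h
    exact ⟨(Valuation.mem_valuationSubring_iff _ _).mpr h.le, (Valuation.mem_maximalIdeal_iff _ _).mpr h⟩

end HOS

variable {V : Type*} [CommRing V] [IsDomain V] [IsDiscreteValuationRing V]
  (K₁ : Type*) [Field K₁] [Algebra V K₁] [IsFractionRing V K₁]
  {E : Type*} [Field E] [Algebra K₁ E] [Algebra V E] [IsScalarTower V K₁ E]
  [FiniteDimensional K₁ E] [Algebra.IsSeparable K₁ E]

include K₁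

theorem algebraMap_injective : Function.Injective (algebraMap V E) := by
  rw [IsScalarTower.algebraMap_eq V K₁ E]
  exact (algebraMap K₁ E).injective.comp (IsFractionRing.injective V K₁)

omit K₁ [Algebra V K₁] [IsFractionRing V K₁] [Algebra K₁ E] [IsScalarTower V K₁ E]
  [FiniteDimensional K₁ E] [Algebra.IsSeparable K₁ E] in
/-- Every nonzero prime of the integral closure contains the uniformiser. -/
theorem algebraMap_mem_of_isPrime {s : V} (hs : Irreducible s)
    (P : Ideal (integralClosure V E)) [P.IsPrime] (hP : P ≠ ⊥) :
    algebraMap V (integralClosure V E) s ∈ P := by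
  have hne : P.comap (algebraMap V (integralClosure V E)) ≠ ⊥ := fun h =>
    hP (Ideal.eq_bot_of_comap_eq_bot h)
  haveI : (P.comap (algebraMap V (integralClosure V E))).IsPrime := Ideal.comap_isPrime _ _
  have hmax : (P.comap (algebraMap V (integralClosure V E))).IsMaximal :=
    Ideal.IsPrime.isMaximal inferInstance hne
  have h1 := IsLocalRing.eq_maximalIdeal hmax
  have hsm : s ∈ IsLocalRing.maximalIdeal V := by
    rw [hs.maximalIdeal_eq]; exact Ideal.mem_span_singleton_self s
  rw [← h1] at hsm
  exact hsm

/-- The integral closure of a discrete valuation ring in a finite separable extension is a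
principal ideal domain. -/
theorem isPrincipalIdealRing_integralClosure :
    IsPrincipalIdealRing (integralClosure V E) := by
  haveI : IsDedekindDomain (integralClosure V E) := integralClosure.isDedekindDomain V K₁ E
  obtain ⟨s, hs⟩ := IsDiscreteValuationRing.exists_irreducible V
  have hinj := algebraMap_injective (V := V) K₁ (E := E)
  have hs0 : algebraMap V (integralClosure V E) s ≠ 0 := by
    intro h
    apply hs.ne_zero
    apply hinj
    have := congrArg (algebraMap (integralClosure V E) E) h
    rw [map_zero] at this ⊢
    exact this
  have hI : (Ideal.span {algebraMap V (integralClosure V E) s} : Ideal (integralClosure V E)) ≠ 0 := by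
    rw [Ne, Ideal.zero_eq_bot, Ideal.span_singleton_eq_bot]; exact hs0
  apply IsPrincipalIdealRing.of_finite_primes
  refine (((Ideal.finite_factors hI).image HeightOneSpectrum.asIdeal).insert ⊥).subset ?_
  intro P hP
  by_cases hP0 : P = ⊥
  · exact Set.mem_insert_iff.mpr (Or.inl hP0)
  · refine Set.mem_insert_iff.mpr (Or.inr ?_)
    haveI : P.IsPrime := hP
    refine ⟨⟨P, hP, hP0⟩, ?_, rfl⟩
    rw [Set.mem_ofPred_eq, Ideal.dvd_span_singleton]
    exact algebraMap_mem_of_isPrime hs P hP0

/-- **Unramified ⟹ reduced fibre**, elementwise form. -/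
theorem exists_eq_mul_of_pow {s : V} (hs : Irreducible s)
    (hunr : ∀ O : ValuationSubring E, IsDiscreteValuationRing O →
      (∀ v : V, algebraMap V E v ∈ O) → algebraMap V E s ∈ O.nonunits →
      IsUnif O (algebraMap V E s))
    {x y : E} (hx : IsIntegral V x) (hy : IsIntegral V y) {m : ℕ}
    (hxy : x ^ m = algebraMap V E s * y) :
    ∃ z : E, IsIntegral V z ∧ x = algebraMap V E s * z := by
  haveI : IsDedekindDomain (integralClosure V E) := integralClosure.isDedekindDomain V K₁ E
  haveI : IsFractionRing (integralClosure V E) E :=
    integralClosure.isFractionRing_of_finite_extension K₁ E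
  have hinj := algebraMap_injective (V := V) K₁ (E := E)
  have hs0 : algebraMap V E s ≠ 0 := fun h => hs.ne_zero (hinj (h.trans (map_zero _).symm))
  have key : ∀ w : HeightOneSpectrum (integralClosure V E),
      w.valuation E (x / algebraMap V E s) ≤ 1 := by
    intro w
    haveI := isDVR_valuationSubring (E := E) w
    have hVO : ∀ v : V, algebraMap V E v ∈ (w.valuation E).valuationSubring := by
      intro v
      rw [Valuation.mem_valuationSubring_iff]
      exact w.valuation_le_one (algebraMap V (integralClosure V E) v)
    have hsw : algebraMap V (integralClosure V E) s ∈ w.asIdeal :=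
      algebraMap_mem_of_isPrime hs w.asIdeal w.ne_bot
    have hslt : w.valuation E (algebraMap V E s) < 1 :=
      (w.valuation_lt_one_iff_mem (algebraMap V (integralClosure V E) s)).mpr hsw
    have hU := hunr _ inferInstance hVO ((mem_nonunits_valuationSubring_iff w _).mpr hslt)
    have hxM : w.valuation E x ≤ 1 := w.valuation_le_one (⟨x, hx⟩ : integralClosure V E)
    have hyM : w.valuation E y ≤ 1 := w.valuation_le_one (⟨y, hy⟩ : integralClosure V E)
    have hxlt : w.valuation E x < 1 := by
      by_contra hge
      push Not at hge
      have h1 : w.valuation E x = 1 := le_antisymm hxM hge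
      have h2 : w.valuation E (x ^ m) = 1 := by rw [map_pow, h1, one_pow]
      rw [hxy, map_mul] at h2
      have h3 : w.valuation E (algebraMap V E s) * w.valuation E y < 1 :=
        lt_of_le_of_lt (mul_le_of_le_one_right' hyM) hslt
      exact absurd h2 (ne_of_lt h3)
    obtain ⟨z, hz, hxz⟩ := hU.2 x ((mem_nonunits_valuationSubring_iff w _).mpr hxlt)
    have h4 : x / algebraMap V E s = z := by
      rw [hxz]; field_simp
    rw [h4]
    exact (Valuation.mem_valuationSubring_iff _ _).mp hz
  obtain ⟨z, hz⟩ := HeightOneSpectrum.mem_integers_of_valuation_le_one E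
    (x / algebraMap V E s) key
  refine ⟨x / algebraMap V E s, ?_, by field_simp⟩
  rw [← hz]
  exact z.2

/-- **Unramified ⟹ reduced fibre**: the ideal `s M` is radical. -/
theorem isRadical_span {s : V} (hs : Irreducible s)
    (hunr : ∀ O : ValuationSubring E, IsDiscreteValuationRing O →
      (∀ v : V, algebraMap V E v ∈ O) → algebraMap V E s ∈ O.nonunits →
      IsUnif O (algebraMap V E s)) :
    (Ideal.span {algebraMap V (integralClosure V E) s}).IsRadical := by
  rintro a ⟨n, hn⟩
  rw [Ideal.mem_span_singleton'] at hn ⊢
  obtain ⟨c, hc⟩ := hn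
  have hc' : (a : E) ^ n = algebraMap V E s * (c : E) := by
    have h1 := congrArg (Subtype.val : integralClosure V E → E) hc
    rw [mul_comm]
    exact h1.symm
  obtain ⟨z, hz, hxz⟩ := exists_eq_mul_of_pow K₁ hs hunr a.2 c.2 hc'
  refine ⟨⟨z, hz⟩, Subtype.ext ?_⟩
  rw [hxz, mul_comm]
  rfl

/-- **Unramified ⟹ reduced fibre.** -/
theorem isReduced_quotient {s : V} (hs : Irreducible s)
    (hunr : ∀ O : ValuationSubring E, IsDiscreteValuationRing O →
      (∀ v : V, algebraMap V E v ∈ O) → algebraMap V E s ∈ O.nonunits →
      IsUnif O (algebraMap V E s)) :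
    IsReduced (integralClosure V E ⧸ Ideal.span {algebraMap V (integralClosure V E) s}) :=
  (Ideal.isRadical_iff_quotient_reduced _).mp (isRadical_span K₁ hs hunr)

end Fermat.Agent.RedLib.UnramRed
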