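import Mathlib
import Fermat.Agent.RedLib.SelfDual
import Fermat.Agent.RedLib.DiscLA
import Fermat.Agent.RedLib.UnramRed

/-!
# S18 (reduction of `J₀(N)`): BRIDGE — unramified at a prime element ⟹ unit discriminant

`R` a noetherian domain, `q ∈ R` a prime element, `K = Frac R`, `E / K` finite separable.

* section `LocPrime` : the localisation `V` of `R` at `(q)` is a discrete valuation ring with
  uniformiser `q`;
* `span_eq_integralClosure` : a `K`-basis of `E` of `R`-integral elements spanning the integral
  closure of `R` up to a denominator prime to `q` is a `V`-basis of the integral closure of `V`;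
* `isRed_quotient` : `W / s W` is the reduction of `W` modulo `s` in the sense of `DiscLA.IsRed`;
* `not_dvd_discr_of_unram` : BRIDGE.
-/

set_option autoImplicit false
set_option linter.unusedSectionVars false
set_option linter.style.haveILetI false

noncomputable section

namespace Fermat.Agent.RedLib.Bridge

open Fermat.Agent.RedLib

section LocPrime

variable {R : Type*} [CommRing R] [IsDomain R] {q : R} [hP : (Ideal.span {q}).IsPrime]
  (V : Type*) [CommRing V] [Algebra R V] [IsLocalization.AtPrime V (Ideal.span {q})]

omit [IsDomain R] in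
theorem mem_primeCompl_iff (r : R) : r ∈ (Ideal.span {q}).primeCompl ↔ ¬ q ∣ r := by
  rw [Ideal.mem_primeCompl_iff, Ideal.mem_span_singleton]

include hP in
theorem algebraMap_injective : Function.Injective (algebraMap R V) :=
  IsLocalization.injective V (Ideal.primeCompl_le_nonZeroDivisors (Ideal.span {q}))

include hP in
omit [IsDomain R] in
theorem isUnit_algebraMap {u : R} (hu : ¬ q ∣ u) : IsUnit (algebraMap R V u) :=
  IsLocalization.map_units V (⟨u, (mem_primeCompl_iff u).mpr hu⟩ : (Ideal.span {q}).primeCompl)

include hP in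
omit [IsDomain R] in
theorem exists_mul_eq (v : V) : ∃ a u : R, ¬ q ∣ u ∧ v * algebraMap R V u = algebraMap R V a := by
  obtain ⟨⟨a, u⟩, h⟩ := IsLocalization.surj (Ideal.span {q}).primeCompl v
  exact ⟨a, u, (mem_primeCompl_iff (u : R)).mp u.2, h⟩

include hP in
theorem algebraMap_dvd_iff (hq : Prime q) (r : R) :
    algebraMap R V q ∣ algebraMap R V r ↔ q ∣ r := by
  constructor
  · rintro ⟨v, hv⟩
    obtain ⟨a, u, hu, hau⟩ := exists_mul_eq (q := q) V v
    have h1 : algebraMap R V (r * u) = algebraMap R V (q * a) := by
      rw [map_mul, map_mul, hv, mul_assoc, hau]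
    have h2 : r * u = q * a := algebraMap_injective (q := q) V h1
    have h3 : q ∣ r * u := ⟨a, h2⟩
    rcases hq.dvd_or_dvd h3 with h | h
    · exact h
    · exact absurd h hu
  · intro h
    exact map_dvd _ h

include hP in
theorem isDomain_loc : IsDomain V :=
  IsLocalization.isDomain_of_le_nonZeroDivisors V
    (Ideal.primeCompl_le_nonZeroDivisors (Ideal.span {q}))

include hP in
theorem maximalIdeal_eq [IsLocalRing V] :
    IsLocalRing.maximalIdeal V = Ideal.span {algebraMap R V q} := by
  rw [← IsLocalization.AtPrime.map_eq_maximalIdeal (Ideal.span {q}) V, Ideal.map_span,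
    Set.image_singleton]

include hP in
theorem isDVR_loc [IsNoetherianRing R] [IsDomain V] (hq : Prime q) :
    IsDiscreteValuationRing V := by
  haveI : IsLocalRing V := IsLocalization.AtPrime.isLocalRing V (Ideal.span {q})
  haveI : IsNoetherianRing V :=
    IsLocalization.isNoetherianRing (Ideal.span {q}).primeCompl V inferInstance
  have hne : algebraMap R V q ≠ 0 := by
    intro h
    exact hq.ne_zero (algebraMap_injective (q := q) V (h.trans (map_zero _).symm))
  have hnf : ¬ IsField V := by
    intro hf
    have h1 := (IsLocalRing.isField_iff_maximalIdeal_eq (R := V)).mp hf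
    rw [maximalIdeal_eq (R := R) (q := q) V, Ideal.span_singleton_eq_bot] at h1
    exact hne h1
  refine ((IsDiscreteValuationRing.TFAE V hnf).out 0 4).mpr ?_
  rw [maximalIdeal_eq (R := R) (q := q) V]
  exact ⟨⟨_, rfl⟩⟩

include hP in
theorem irreducible_algebraMap [IsDomain V] [IsDiscreteValuationRing V] :
    Irreducible (algebraMap R V q) := by
  rw [IsDiscreteValuationRing.irreducible_iff_uniformizer]
  exact maximalIdeal_eq (R := R) (q := q) V

end LocPrime

section Span

variable {R K E : Type*} [CommRing R] [Field K] [Algebra R K] [Field E] [Algebra K E]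
  [Algebra R E] [IsScalarTower R K E] {q : R} [hP : (Ideal.span {q}).IsPrime]
  (V : Type*) [CommRing V] [Algebra R V] [IsLocalization.AtPrime V (Ideal.span {q})]
  [Algebra V K] [IsScalarTower R V K] [Algebra V E] [IsScalarTower V K E] [IsScalarTower R V E]

include hP in
/-- A `K`-basis of `E` consisting of `R`-integral elements and spanning the integral closure of
`R` up to a denominator prime to `q` spans the integral closure of the localisation `V` of `R`
at `(q)`. -/
theorem span_eq_integralClosure {ι : Type*} [Fintype ι] (b : Module.Basis ι K E)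
    (hb : ∀ i, IsIntegral R (b i)) (g : R) (hg : ¬ q ∣ g)
    (hbg : ∀ z : E, IsIntegral R z → ∀ i, ∃ a : R,
      algebraMap R K g * b.repr z i = algebraMap R K a) :
    Submodule.span V (Set.range b) = Subalgebra.toSubmodule (integralClosure V E) := by
  apply le_antisymm
  · rw [Submodule.span_le]
    rintro _ ⟨i, rfl⟩
    exact (hb i).tower_top
  · intro z hz
    have hz' : IsIntegral V z := hz
    obtain ⟨⟨m, hm⟩, hmz⟩ :=
      IsIntegral.exists_multiple_integral_of_isLocalization (Ideal.span {q}).primeCompl z hz'
    rw [Submonoid.smul_def] at hmz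
    have hm' : ¬ q ∣ m := (mem_primeCompl_iff m).mp hm
    obtain ⟨w, hw⟩ := (isUnit_algebraMap V hg).exists_right_inv
    obtain ⟨w', hw'⟩ := (isUnit_algebraMap V hm').exists_right_inv
    have hrepr : ∀ i, ∃ v : V, b.repr z i = algebraMap V K v := by
      intro i
      obtain ⟨a, ha⟩ := hbg _ hmz i
      refine ⟨algebraMap R V a * w * w', ?_⟩
      have h1 : b.repr ((m : R) • z) i = algebraMap R K m * b.repr z i := by
        rw [← IsScalarTower.algebraMap_smul K (m : R) z, map_smul, Finsupp.smul_apply,
          smul_eq_mul]
      rw [h1] at ha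
      have h2 : algebraMap R K g * algebraMap V K w = 1 := by
        rw [IsScalarTower.algebraMap_apply R V K, ← map_mul, hw, map_one]
      have h3 : algebraMap R K m * algebraMap V K w' = 1 := by
        rw [IsScalarTower.algebraMap_apply R V K, ← map_mul, hw', map_one]
      rw [map_mul, map_mul, ← IsScalarTower.algebraMap_apply R V K, ← ha]
      calc b.repr z i = (algebraMap R K g * algebraMap V K w) *
            (algebraMap R K m * algebraMap V K w') * b.repr z i := by
            rw [h2, h3, one_mul, one_mul]
        _ = _ := by ring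
    choose c hc using hrepr
    have hsum : z = ∑ i, c i • b i := by
      conv_lhs => rw [← b.sum_repr z]
      refine Finset.sum_congr rfl fun i _ => ?_
      rw [hc i, IsScalarTower.algebraMap_smul]
    rw [hsum]
    exact Submodule.sum_mem _ fun i _ =>
      Submodule.smul_mem _ _ (Submodule.subset_span ⟨i, rfl⟩)

end Span

section Quot

variable {V W : Type*} [CommRing V] [CommRing W] [Algebra V W]

/-- the algebra structure of `W / s W` over `V / s V` -/
@[reducible] def quotAlgebra (s : V) :
    Algebra (V ⧸ Ideal.span {s}) (W ⧸ Ideal.span {algebraMap V W s}) :=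
  (Ideal.quotientMap (Ideal.span {algebraMap V W s}) (algebraMap V W) (by
    rw [Ideal.span_le]
    intro x hx
    rw [Set.mem_singleton_iff] at hx
    subst hx
    exact Ideal.mem_comap.mpr (Ideal.mem_span_singleton_self _))).toAlgebra

/-- `W / s W` is the reduction of `W` modulo `s`. -/
theorem isRed_quotient (s : V) [hmax : (Ideal.span {s}).IsMaximal] :
    letI := Ideal.Quotient.field (Ideal.span {s})
    letI := quotAlgebra (W := W) s
    DiscLA.IsRed s (Ideal.Quotient.mk (Ideal.span {s}))
      (Ideal.Quotient.mk (Ideal.span {algebraMap V W s})) := by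
  letI := Ideal.Quotient.field (Ideal.span {s})
  letI := quotAlgebra (W := W) s
  refine ⟨Ideal.Quotient.mk_surjective, fun a => ?_, Ideal.Quotient.mk_surjective, fun x => ?_,
    fun a x => ?_⟩
  · rw [Ideal.Quotient.eq_zero_iff_mem, Ideal.mem_span_singleton]
  · rw [Ideal.Quotient.eq_zero_iff_mem, Ideal.mem_span_singleton]
  · rw [Algebra.smul_def, Algebra.smul_def, map_mul, RingHom.algebraMap_toAlgebra,
      Ideal.quotientMap_mk]

end Quot

section Core

variable {R K E : Type*} [CommRing R] [IsDomain R] [Field K] [Algebra R K] [Field E]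
  [Algebra K E] [Algebra R E] [IsScalarTower R K E] [FiniteDimensional K E]
  [Algebra.IsSeparable K E] {q : R} [hP : (Ideal.span {q}).IsPrime]
  (V : Type*) [CommRing V] [IsDomain V] [IsDiscreteValuationRing V] [Algebra R V]
  [IsLocalization.AtPrime V (Ideal.span {q})]
  [Algebra V K] [IsScalarTower R V K] [IsFractionRing V K] [Algebra V E] [IsScalarTower V K E]
  [IsScalarTower R V E]

include hP in
/-- BRIDGE over the localisation: the discriminant is a unit of `V`. -/
theorem exists_isUnit_discr (hq : Prime q) (hchar : ∀ m : ℕ, m ≠ 0 → ¬ q ∣ (m : R))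
    (hunr : ∀ O : ValuationSubring E, IsDiscreteValuationRing O →
      (∀ r : R, algebraMap R E r ∈ O) → (∀ r : R, ¬ q ∣ r → (algebraMap R E r)⁻¹ ∈ O) →
      algebraMap R E q ∈ O.nonunits → ∀ z ∈ O.nonunits, ∃ y ∈ O, z = algebraMap R E q * y)
    {ι : Type*} [Fintype ι] [DecidableEq ι] (b : Module.Basis ι K E)
    (hb : ∀ i, IsIntegral R (b i)) (g : R) (hg : ¬ q ∣ g)
    (hbg : ∀ z : E, IsIntegral R z → ∀ i, ∃ a : R,
      algebraMap R K g * b.repr z i = algebraMap R K a) :
    ∃ u : V, IsUnit u ∧ Algebra.discr K b = algebraMap V K u := by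
  have hs : Irreducible (algebraMap R V q) := irreducible_algebraMap (R := R) (q := q) V
  have hspan := span_eq_integralClosure V b hb g hg hbg
  obtain ⟨bO, -, -, -, hdisc⟩ :=
    SelfDual.exists_basis_discr_eq (IsFractionRing.injective V K) b (integralClosure V E) hspan
  refine ⟨Algebra.discr V bO, ?_, hdisc⟩
  have hunr' : ∀ O : ValuationSubring E, IsDiscreteValuationRing O →
      (∀ v : V, algebraMap V E v ∈ O) → algebraMap V E (algebraMap R V q) ∈ O.nonunits →
      PlaceVS.IsUnif O (algebraMap V E (algebraMap R V q)) := by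
    intro O hO hV hq'
    have hqE : algebraMap V E (algebraMap R V q) = algebraMap R E q :=
      (IsScalarTower.algebraMap_apply R V E q).symm
    rw [hqE] at hq' ⊢
    refine ⟨hq', hunr O hO (fun r => ?_) (fun r hr => ?_) hq'⟩
    · rw [IsScalarTower.algebraMap_apply R V E]
      exact hV _
    · obtain ⟨w, hw⟩ := (isUnit_algebraMap V hr).exists_right_inv
      have h1 : algebraMap R E r * algebraMap V E w = 1 := by
        rw [IsScalarTower.algebraMap_apply R V E, ← map_mul, hw, map_one]
      rw [← eq_inv_of_mul_eq_one_right h1]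
      exact hV w
  haveI hmax : (Ideal.span {algebraMap R V q}).IsMaximal :=
    PrincipalIdealRing.isMaximal_of_irreducible hs
  letI := Ideal.Quotient.field (Ideal.span {algebraMap R V q})
  letI := quotAlgebra (W := integralClosure V E) (algebraMap R V q)
  haveI : CharZero (V ⧸ Ideal.span {algebraMap R V q}) := by
    refine charZero_of_inj_zero fun m hm => ?_
    by_contra hm0
    have h1 : (Ideal.Quotient.mk (Ideal.span {algebraMap R V q})) (algebraMap R V (m : R)) = 0 := by
      rw [map_natCast, map_natCast]
      exact hm
    rw [Ideal.Quotient.eq_zero_iff_mem, Ideal.mem_span_singleton, algebraMap_dvd_iff V hq] at h1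
    exact hchar m hm0 h1
  haveI : IsReduced (integralClosure V E ⧸
      Ideal.span {algebraMap V (integralClosure V E) (algebraMap R V q)}) :=
    UnramRed.isReduced_quotient K hs hunr'
  exact DiscLA.isUnit_discr_of_isReduced bO hs (isRed_quotient (W := integralClosure V E) _)

end Core

/-- **BRIDGE**: unramifiedness at the prime element `q` in the language of discrete valuation
subrings implies that the discriminant of a basis of the integral closure (up to a denominator
prime to `q`) is prime to `q`. -/
theorem not_dvd_discr_of_unram {R K E : Type*} [CommRing R] [IsDomain R] [IsNoetherianRing R]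
    [IsIntegrallyClosed R] [Field K] [Algebra R K] [IsFractionRing R K] [Field E] [Algebra K E]
    [Algebra R E] [IsScalarTower R K E] [FiniteDimensional K E] [Algebra.IsSeparable K E]
    (q : R) (hq : Prime q) (hchar : ∀ m : ℕ, m ≠ 0 → ¬ q ∣ (m : R))
    (hunr : ∀ O : ValuationSubring E, IsDiscreteValuationRing O →
      (∀ r : R, algebraMap R E r ∈ O) → (∀ r : R, ¬ q ∣ r → (algebraMap R E r)⁻¹ ∈ O) →
      algebraMap R E q ∈ O.nonunits → ∀ z ∈ O.nonunits, ∃ y ∈ O, z = algebraMap R E q * y)
    {ι : Type*} [Fintype ι] [DecidableEq ι] (b : Module.Basis ι K E)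
    (hb : ∀ i, IsIntegral R (b i)) (g : R) (hg : ¬ q ∣ g)
    (hbg : ∀ z : E, IsIntegral R z → ∀ i, ∃ a : R,
      algebraMap R K g * b.repr z i = algebraMap R K a)
    (d : R) (hd : algebraMap R K d = Algebra.discr K b) : ¬ q ∣ d := by
  haveI hP : (Ideal.span {q}).IsPrime := (Ideal.span_singleton_prime hq.ne_zero).mpr hq
  have hunitK : ∀ y : (Ideal.span {q}).primeCompl, IsUnit (algebraMap R K (y : R)) := by
    intro y
    have hy : (y : R) ≠ 0 := by
      intro h0
      exact y.2 (h0 ▸ Ideal.zero_mem _)
    exact ((map_ne_zero_iff _ (IsFractionRing.injective R K)).mpr hy).isUnit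
  letI V := Localization.AtPrime (Ideal.span {q})
  letI : Algebra V K := (IsLocalization.lift hunitK).toAlgebra
  haveI : IsScalarTower R V K :=
    IsScalarTower.of_algebraMap_eq fun r => (IsLocalization.lift_eq hunitK r).symm
  letI : Algebra V E := ((algebraMap K E).comp (algebraMap V K)).toAlgebra
  haveI : IsScalarTower V K E := IsScalarTower.of_algebraMap_eq fun _ => rfl
  haveI : IsScalarTower R V E := IsScalarTower.of_algebraMap_eq fun r => by
    rw [IsScalarTower.algebraMap_apply R K E, IsScalarTower.algebraMap_apply R V K]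
    rfl
  haveI : IsDomain V := isDomain_loc (R := R) (q := q) V
  haveI : IsFractionRing V K :=
    IsFractionRing.isFractionRing_of_isDomain_of_isLocalization (Ideal.span {q}).primeCompl V K
  haveI : IsDiscreteValuationRing V := isDVR_loc (R := R) (q := q) V hq
  obtain ⟨u, hu, hdu⟩ := exists_isUnit_discr V hq hchar hunr b hb g hg hbg
  intro hqd
  have h1 : algebraMap R V d = u := by
    apply IsFractionRing.injective V K
    rw [← IsScalarTower.algebraMap_apply R V K, hd, hdu]
  have h2 : algebraMap R V q ∣ u := h1 ▸ map_dvd _ hqd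
  exact (irreducible_algebraMap (R := R) (q := q) V).not_isUnit (isUnit_of_dvd_unit h2 hu)

end Fermat.Agent.RedLib.Bridge
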