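import Mathlib

/-!
# The base ring `A0[X]` over a discrete valuation ring `A0`

Basic facts used for the integral charts of the projective line over `A0`.
-/

open Polynomial

namespace Fermat.Agent.RedLib.PolyBase


section basic

variable {A0 : Type*} [CommRing A0] [IsDomain A0] [IsDiscreteValuationRing A0]

theorem prime_pi {π : A0} (hπ : Irreducible π) : Prime π := hπ.prime

theorem prime_C_pi {π : A0} (hπ : Irreducible π) : Prime (C π : A0[X]) :=
  Polynomial.prime_C_iff.mpr hπ.prime

theorem isMaximal_span_pi {π : A0} (hπ : Irreducible π) : (Ideal.span {π}).IsMaximal := by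
  have := (IsDiscreteValuationRing.irreducible_iff_uniformizer π).mp hπ
  rw [← this]
  exact IsLocalRing.maximalIdeal.isMaximal A0

theorem isUnit_of_not_dvd {π : A0} (hπ : Irreducible π) {c : A0} (hc : ¬ π ∣ c) : IsUnit c := by
  by_contra h
  apply hc
  have h1 : c ∈ IsLocalRing.maximalIdeal A0 := (IsLocalRing.mem_maximalIdeal c).mpr h
  rw [(IsDiscreteValuationRing.irreducible_iff_uniformizer π).mp hπ] at h1
  exact Ideal.mem_span_singleton.mp h1

theorem C_pi_dvd_iff {π : A0} (g : A0[X]) :
    C π ∣ g ↔ g.map (Ideal.Quotient.mk (Ideal.span {π})) = 0 := by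
  rw [Polynomial.C_dvd_iff_dvd_coeff]
  constructor
  · intro h
    ext i
    simp only [coeff_map, coeff_zero]
    exact Ideal.Quotient.eq_zero_iff_mem.mpr (Ideal.mem_span_singleton.mpr (h i))
  · intro h i
    have := congrArg (fun p => p.coeff i) h
    simp only [coeff_map, coeff_zero] at this
    exact Ideal.mem_span_singleton.mp (Ideal.Quotient.eq_zero_iff_mem.mp this)

theorem isPrincipalIdealRing_quot {π : A0} (hπ : Irreducible π) :
    IsPrincipalIdealRing (A0[X] ⧸ Ideal.span {(C π : A0[X])}) := by
  haveI := isMaximal_span_pi hπ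
  letI : Field (A0 ⧸ Ideal.span {π}) := Ideal.Quotient.field _
  have e := Ideal.polynomialQuotientEquivQuotientPolynomial (Ideal.span {π})
  have hI : (Ideal.span {π}).map (C : A0 →+* A0[X]) = Ideal.span {(C π : A0[X])} := by
    rw [Ideal.map_span, Set.image_singleton]
  rw [hI] at e
  exact IsPrincipalIdealRing.of_surjective e.toRingHom e.surjective

end basic



section frac

variable {A0 K Kt : Type*} [CommRing A0] [IsDomain A0]
  [Field K] [Algebra A0 K] [IsFractionRing A0 K]
  [Field Kt] [Algebra K Kt] [Algebra A0 Kt] [IsScalarTower A0 K Kt]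

theorem aeval_injective_of_transcendental {xK : Kt} (hxK : Transcendental K xK) :
    Function.Injective (aeval xK : A0[X] →ₐ[A0] Kt) := by
  have h1 : Transcendental A0 xK :=
    hxK.restrictScalars (IsFractionRing.injective A0 K)
  exact transcendental_iff_injective.mp h1

/-- `Kt` is the fraction field of `A0[X]` (acting through `X ↦ xK`). -/
theorem isFractionRing_of_gen [Algebra A0[X] Kt] (xK : Kt)
    (hX : ∀ f : A0[X], algebraMap A0[X] Kt f = aeval xK f)
    (hxK : Transcendental K xK)
    (hKt : ∀ z : Kt, ∃ f g : K[X], g ≠ 0 ∧ z * aeval xK g = aeval xK f) :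
    IsFractionRing A0[X] Kt := by
  have hinj : Function.Injective (algebraMap A0[X] Kt) := by
    intro f g hfg
    rw [hX, hX] at hfg
    exact aeval_injective_of_transcendental hxK hfg
  haveI : FaithfulSMul A0[X] Kt := (faithfulSMul_iff_algebraMap_injective _ _).mpr hinj
  refine IsFractionRing.of_field (R := A0[X]) Kt ?_
  intro z
  obtain ⟨f, g, hg, hz⟩ := hKt z
  obtain ⟨bf, hbfm, hbf⟩ := IsLocalization.integerNormalization_spec (nonZeroDivisors A0) f
  obtain ⟨bg, hbgm, hbg⟩ := IsLocalization.integerNormalization_spec (nonZeroDivisors A0) g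
  set F := IsLocalization.integerNormalization (nonZeroDivisors A0) f with hF
  set G := IsLocalization.integerNormalization (nonZeroDivisors A0) g with hG
  have hbf0 : algebraMap A0 K bf ≠ 0 :=
    IsFractionRing.to_map_ne_zero_of_mem_nonZeroDivisors hbfm
  have hbg0 : algebraMap A0 K bg ≠ 0 :=
    IsFractionRing.to_map_ne_zero_of_mem_nonZeroDivisors hbgm
  have hgK : aeval xK g ≠ 0 := fun h => hg (transcendental_iff_injective.mp hxK (by simpa using h))
  have hF' : aeval xK F = algebraMap A0 K bf • aeval xK f := by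
    have := congrArg (aeval xK) hbf
    rw [aeval_map_algebraMap] at this
    rw [this, ← algebraMap_smul K bf f, map_smul]
  have hG' : aeval xK G = algebraMap A0 K bg • aeval xK g := by
    have := congrArg (aeval xK) hbg
    rw [aeval_map_algebraMap] at this
    rw [this, ← algebraMap_smul K bg g, map_smul]
  refine ⟨C bg * F, C bf * G, ?_⟩
  rw [hX, hX, map_mul, map_mul, aeval_C, aeval_C, hF', hG']
  have h1 : algebraMap A0 Kt bf ≠ 0 := by
    rw [IsScalarTower.algebraMap_apply A0 K Kt]
    exact (map_ne_zero_iff _ (algebraMap K Kt).injective).mpr hbf0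
  have h2 : algebraMap A0 Kt bg ≠ 0 := by
    rw [IsScalarTower.algebraMap_apply A0 K Kt]
    exact (map_ne_zero_iff _ (algebraMap K Kt).injective).mpr hbg0
  rw [Algebra.smul_def, Algebra.smul_def, ← IsScalarTower.algebraMap_apply A0 K Kt,
    ← IsScalarTower.algebraMap_apply A0 K Kt, ← hz]
  field_simp

end frac

section adjoin

variable {A0 FF : Type*} [CommRing A0] [Field FF] [Algebra A0 FF]

/-- Integrality over `A0[x]` (subalgebra) is integrality over `A0[X]` acting through `X ↦ x`. -/
theorem isIntegral_adjoin_iff [Algebra A0[X] FF] (x : FF)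
    (hX : ∀ f : A0[X], algebraMap A0[X] FF f = aeval x f) (y : FF) :
    IsIntegral (Algebra.adjoin A0 ({x} : Set FF)) y ↔ IsIntegral A0[X] y := by
  have hmem : ∀ f : A0[X], algebraMap A0[X] FF f ∈ (Algebra.adjoin A0 ({x} : Set FF)).toSubring := by
    intro f
    rw [hX]
    exact (le_of_eq (Algebra.adjoin_singleton_eq_range_aeval A0 x).symm) ⟨f, rfl⟩
  let φ : A0[X] →+* (Algebra.adjoin A0 ({x} : Set FF)).toSubring :=
    (algebraMap A0[X] FF).codRestrict _ hmem
  letI : Algebra A0[X] (Algebra.adjoin A0 ({x} : Set FF)) := φ.toAlgebra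
  haveI : IsScalarTower A0[X] (Algebra.adjoin A0 ({x} : Set FF)) FF :=
    IsScalarTower.of_algebraMap_eq (fun f => rfl)
  have hsurj : Function.Surjective (algebraMap A0[X] (Algebra.adjoin A0 ({x} : Set FF))) := by
    intro c
    obtain ⟨f, hf⟩ := (le_of_eq (Algebra.adjoin_singleton_eq_range_aeval A0 x)) c.2
    refine ⟨f, Subtype.ext ?_⟩
    show algebraMap A0[X] FF f = c
    rw [hX]
    exact hf
  haveI : Algebra.IsIntegral A0[X] (Algebra.adjoin A0 ({x} : Set FF)) :=
    Algebra.isIntegral_of_surjective hsurj
  constructor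
  · intro h
    exact isIntegral_trans (R := A0[X]) (A := Algebra.adjoin A0 ({x} : Set FF)) y h
  · intro h
    exact h.tower_top

end adjoin

end Fermat.Agent.RedLib.PolyBase
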