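import Mathlib
import Fermat.Agent.RedLib.AGDefs
import Fermat.Agent.RedLib.FCLine
import Fermat.Agent.RedLib.Bridge
import Fermat.Agent.RedLib.PolyBase
import Fermat.Agent.RedLib.PolyLocal

/-!
# S18 (reduction of `J₀(N)`): the prime factors of the discriminant of a chart basis

In the vocabulary of `FCLine.fc_line` (`A0` a discrete valuation ring, `K = Frac A0` of
characteristic zero, `Kt = K(x)`, `FF / Kt` finite separable, `A0[X]` acting through `X ↦ x`):

* `not_dvd_discr_line` : BRIDGE on the line — a prime `q` of `A0[X]`, not associated to `π`, at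
  which `FF` is unramified (in the sense of `AGDefs.IsUnramAt`) does not divide the discriminant
  of a chart basis;
* `exists_assoc_of_dvd_discr` : the prime factors of the discriminant which are not units modulo
  `π` are the cusps `X - a`, `a ∈ S`;
* `exists_eq_pow_mul_unit` : (abstract UFD lemma) if every prime factor of `d` is associated to
  `s` or becomes a unit, then `d` becomes a unit times a power of `s`;
* `exists_eq_pow_mul_unit_cusp` : in the local ring of `A0[X]` at `(π, X - a)`, `a ∈ S`, the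
  discriminant is a unit times a power of `X - a`.
-/

set_option autoImplicit false
set_option linter.unusedSectionVars false
set_option linter.style.haveILetI false

noncomputable section

namespace Fermat.Agent.RedLib.DiscPrime

open Polynomial Fermat.Agent.RedLib

/-- If every prime factor of `d` is associated to `s` or becomes a unit under `f`, then `f d` is
a unit times a power of `f s`. -/
theorem exists_eq_pow_mul_unit {R O : Type*} [CommRing R] [IsDomain R]
    [UniqueFactorizationMonoid R] [CommRing O] (f : R →+* O) (s d : R) (hd : d ≠ 0)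
    (h : ∀ q, Prime q → q ∣ d → Associated q s ∨ IsUnit (f q)) :
    ∃ (m : ℕ) (e : O), IsUnit e ∧ f d = f s ^ m * e := by
  revert hd h
  refine UniqueFactorizationMonoid.induction_on_prime d (fun h0 => absurd rfl h0) ?_ ?_
  · intro x hx _ _
    exact ⟨0, f x, hx.map f, by rw [pow_zero, one_mul]⟩
  · intro a p ha hp ih _ h
    obtain ⟨m, e, he, hfa⟩ := ih ha (fun q hq hqa => h q hq (Dvd.dvd.mul_left hqa p))
    rcases h p hp (dvd_mul_right p a) with hps | hpu
    · obtain ⟨u, hu⟩ := hps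
      refine ⟨m + 1, f ((u⁻¹ : Rˣ) : R) * e, ((u⁻¹).isUnit.map f).mul he, ?_⟩
      have hp' : p = s * ((u⁻¹ : Rˣ) : R) := by
        rw [← hu, mul_assoc, Units.mul_inv, mul_one]
      rw [map_mul, hfa]
      conv_lhs => rw [hp']
      rw [map_mul, pow_succ]
      ring
    · exact ⟨m, f p * e, hpu.mul he, by rw [map_mul, hfa]; ring⟩

section Line

variable {A0 K Kt FF : Type*} [CommRing A0] [IsDomain A0] [IsDiscreteValuationRing A0]
  [Field K] [CharZero K] [Algebra A0 K] [IsFractionRing A0 K]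
  [Field Kt] [Algebra A0 Kt] [Algebra K Kt] [IsScalarTower A0 K Kt]
  [Field FF] [Algebra A0 FF] [Algebra K FF] [Algebra Kt FF] [IsScalarTower A0 Kt FF]
  [IsScalarTower A0 K FF] [FiniteDimensional Kt FF] [Algebra.IsSeparable Kt FF]

omit [Field K] [CharZero K] [Algebra A0 K] [IsFractionRing A0 K] [Field Kt] [Algebra A0 Kt]
  [Algebra K Kt] [IsScalarTower A0 K Kt] [Field FF] [Algebra A0 FF] [Algebra K FF]
  [Algebra Kt FF] [IsScalarTower A0 Kt FF] [IsScalarTower A0 K FF] [FiniteDimensional Kt FF]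
  [Algebra.IsSeparable Kt FF] in
/-- A prime of `A0[X]` not associated to `π` divides no nonzero constant. -/
theorem not_dvd_C {π : A0} (hπ : Irreducible π) {q : A0[X]} (hq : Prime q)
    (hqπ : ¬ Associated q (C π)) {a : A0} (ha : a ≠ 0) : ¬ q ∣ C a := by
  intro h
  obtain ⟨k, hk⟩ := IsDiscreteValuationRing.associated_pow_irreducible ha hπ
  have h0 : Associated (C a : A0[X]) (C π ^ k) := by
    rw [← C_pow]
    exact hk.map (C : A0 →+* A0[X])
  have h1 : q ∣ C π ^ k := h0.dvd_iff_dvd_right.mp h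
  have h2 : q ∣ C π := hq.dvd_of_dvd_pow h1
  have hCπ : Irreducible (C π : A0[X]) := (PolyBase.prime_C_pi hπ).irreducible
  rcases hCπ.dvd_iff.mp h2 with hu | hassoc
  · exact hq.not_isUnit hu
  · exact hqπ hassoc.symm

/-- **BRIDGE on the line**: a prime `q` of `A0[X]`, not associated to `π`, at which `FF` is
unramified does not divide the discriminant of a chart basis. -/
theorem not_dvd_discr_line (π : A0) (hπ : Irreducible π) (xK : Kt) (hxK : Transcendental K xK)
    (hKt : ∀ z : Kt, ∃ f g : K[X], g ≠ 0 ∧ z * aeval xK g = aeval xK f)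
    (q : A0[X]) (hq : Prime q) (hqπ : ¬ Associated q (C π))
    (hunr : AGDefs.IsUnramAt K (algebraMap Kt FF xK) (q.map (algebraMap A0 K)))
    {n : ℕ} (b : Module.Basis (Fin n) Kt FF)
    (hb : ∀ i, b i ∈ AGDefs.chart A0 (algebraMap Kt FF xK))
    (r d : A0[X]) (hr : ¬ q ∣ r)
    (hbr : ∀ z ∈ AGDefs.chart A0 (algebraMap Kt FF xK), ∀ i, ∃ a : A0[X],
      aeval xK r * b.repr z i = aeval xK a)
    (hd : aeval xK d = Algebra.discr Kt b) : ¬ q ∣ d := by
  classical
  letI algKt : Algebra A0[X] Kt := (aeval xK : A0[X] →ₐ[A0] Kt).toRingHom.toAlgebra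
  letI algFF : Algebra A0[X] FF :=
    (aeval (algebraMap Kt FF xK) : A0[X] →ₐ[A0] FF).toRingHom.toAlgebra
  have halgKt : ∀ g : A0[X], algebraMap A0[X] Kt g = aeval xK g := fun _ => rfl
  have halgFF : ∀ g : A0[X], algebraMap A0[X] FF g = aeval (algebraMap Kt FF xK) g :=
    fun _ => rfl
  haveI : IsScalarTower A0[X] Kt FF := IsScalarTower.of_algebraMap_eq fun g => by
    rw [halgFF, halgKt, aeval_algebraMap_apply]
  haveI : IsFractionRing A0[X] Kt :=
    FCLine.isFractionRing_of_transcendental xK halgKt hxK hKt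
  have hchar : ∀ m : ℕ, m ≠ 0 → ¬ q ∣ ((m : ℕ) : A0[X]) := by
    intro m hm
    have hm' : ((m : ℕ) : A0) ≠ 0 := by
      intro h0
      have h1 : ((m : ℕ) : K) = 0 := by
        rw [← map_natCast (algebraMap A0 K), h0, map_zero]
      exact hm (Nat.cast_eq_zero.mp h1)
    have h2 := not_dvd_C hπ hq hqπ hm'
    rwa [map_natCast] at h2
  refine Bridge.not_dvd_discr_of_unram (R := A0[X]) (K := Kt) (E := FF) q hq hchar ?_ b ?_ r hr
    ?_ d hd
  · intro O hO hRO hinv hqO z hz
    have hxO : algebraMap Kt FF xK ∈ O := by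
      have h1 := hRO X
      rwa [halgFF, aeval_X] at h1
    have hKO : ∀ c : K, algebraMap K FF c ∈ O := by
      intro c
      obtain ⟨c1, c2, hc2, rfl⟩ := IsFractionRing.div_surjective (A := A0) c
      have hc20 : c2 ≠ 0 := nonZeroDivisors.ne_zero hc2
      have h1 : algebraMap A0 FF c1 ∈ O := by
        have h2 := hRO (C c1)
        rwa [halgFF, aeval_C] at h2
      have h3 : (algebraMap A0 FF c2)⁻¹ ∈ O := by
        have h4 := hinv (C c2) (not_dvd_C hπ hq hqπ hc20)
        rwa [halgFF, aeval_C] at h4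
      rw [map_div₀, ← IsScalarTower.algebraMap_apply A0 K FF,
        ← IsScalarTower.algebraMap_apply A0 K FF, div_eq_mul_inv]
      exact O.mul_mem _ _ h1 h3
    have hq' : aeval (algebraMap Kt FF xK) (q.map (algebraMap A0 K)) = algebraMap A0[X] FF q := by
      rw [halgFF, aeval_map_algebraMap]
    have h5 := hunr O hO hKO hxO (hq' ▸ hqO) z hz
    rwa [hq'] at h5
  · intro i
    exact (FCLine.mem_integralClosure_iff_mem_chart (algebraMap Kt FF xK) halgFF (b i)).mpr (hb i)
  · intro z hz i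
    exact hbr z
      ((FCLine.mem_integralClosure_iff_mem_chart (algebraMap Kt FF xK) halgFF z).mp hz) i

/-- The prime factors of the discriminant of a chart basis which are not units modulo `π` are
the cusps. -/
theorem exists_assoc_of_dvd_discr (π : A0) (hπ : Irreducible π) (xK : Kt)
    (hxK : Transcendental K xK)
    (hKt : ∀ z : Kt, ∃ f g : K[X], g ≠ 0 ∧ z * aeval xK g = aeval xK f)
    (S : Finset A0)
    (hunr : ∀ q : A0[X], Prime q → ¬ Associated q (C π) → (¬ ∃ h : A0[X], C π ∣ q * h - 1) →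
      (∀ a ∈ S, ¬ Associated q (X - C a)) →
      AGDefs.IsUnramAt K (algebraMap Kt FF xK) (q.map (algebraMap A0 K)))
    {n : ℕ} (b : Module.Basis (Fin n) Kt FF)
    (hb : ∀ i, b i ∈ AGDefs.chart A0 (algebraMap Kt FF xK))
    (r d : A0[X]) (hr1 : C π ∣ r - 1)
    (hbr : ∀ z ∈ AGDefs.chart A0 (algebraMap Kt FF xK), ∀ i, ∃ a : A0[X],
      aeval xK r * b.repr z i = aeval xK a)
    (hd : aeval xK d = Algebra.discr Kt b) (hdπ : ¬ C π ∣ d)
    (q : A0[X]) (hq : Prime q) (hqd : q ∣ d) (hqu : ¬ ∃ h : A0[X], C π ∣ q * h - 1) :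
    ∃ a ∈ S, Associated q (X - C a) := by
  by_contra hcon0
  have hcon : ∀ a ∈ S, ¬ Associated q (X - C a) := fun a ha h => hcon0 ⟨a, ha, h⟩
  have hqπ : ¬ Associated q (C π) := fun h => hdπ (h.symm.dvd.trans hqd)
  have hr : ¬ q ∣ r := by
    rintro ⟨h, rfl⟩
    exact hqu ⟨h, hr1⟩
  exact not_dvd_discr_line π hπ xK hxK hKt q hq hqπ (hunr q hq hqπ hqu hcon) b hb r d hr hbr hd
    hqd

/-- In the local ring of `A0[X]` at the cusp `(π, X - a)`, `a ∈ S`, the discriminant of a chart
basis is a unit times a power of `X - a`. -/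
theorem exists_eq_pow_mul_unit_cusp (π : A0) (hπ : Irreducible π) (xK : Kt)
    (hxK : Transcendental K xK)
    (hKt : ∀ z : Kt, ∃ f g : K[X], g ≠ 0 ∧ z * aeval xK g = aeval xK f)
    (S : Finset A0) (hS : ∀ a ∈ S, ∀ b ∈ S, a ≠ b → IsUnit (a - b))
    (hunr : ∀ q : A0[X], Prime q → ¬ Associated q (C π) → (¬ ∃ h : A0[X], C π ∣ q * h - 1) →
      (∀ a ∈ S, ¬ Associated q (X - C a)) →
      AGDefs.IsUnramAt K (algebraMap Kt FF xK) (q.map (algebraMap A0 K)))
    {n : ℕ} (b : Module.Basis (Fin n) Kt FF)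
    (hb : ∀ i, b i ∈ AGDefs.chart A0 (algebraMap Kt FF xK))
    (r d : A0[X]) (hr1 : C π ∣ r - 1)
    (hbr : ∀ z ∈ AGDefs.chart A0 (algebraMap Kt FF xK), ∀ i, ∃ a : A0[X],
      aeval xK r * b.repr z i = aeval xK a)
    (hd : aeval xK d = Algebra.discr Kt b) (hdπ : ¬ C π ∣ d)
    (a : A0) (ha : a ∈ S) (O : Type*) [CommRing O] [Algebra A0[X] O]
    [hn : (PolyLocal.nId π a).IsPrime] [IsLocalization.AtPrime O (PolyLocal.nId π a)] :
    ∃ (m : ℕ) (e : O), IsUnit e ∧
      algebraMap A0[X] O d = algebraMap A0[X] O (X - C a) ^ m * e := by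
  have hd0 : d ≠ 0 := fun h0 => hdπ (h0 ▸ dvd_zero _)
  have hunit : ∀ g : A0[X], g ∉ PolyLocal.nId π a → IsUnit (algebraMap A0[X] O g) := fun g hg =>
    IsLocalization.map_units O (⟨g, hg⟩ : (PolyLocal.nId π a).primeCompl)
  have hπmem : (C π : A0[X]) ∈ PolyLocal.nId π a := by
    rw [PolyLocal.mem_nId, eval_C]
  refine exists_eq_pow_mul_unit (algebraMap A0[X] O) (X - C a) d hd0 fun q hq hqd => ?_
  by_cases hqu : ∃ h : A0[X], C π ∣ q * h - 1
  · right
    apply hunit
    intro hqmem
    obtain ⟨h, w, hw⟩ := hqu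
    have h1 : (1 : A0[X]) = q * h - C π * w := by rw [← hw]; ring
    have h2 : (1 : A0[X]) ∈ PolyLocal.nId π a := by
      rw [h1]
      exact Ideal.sub_mem _ (Ideal.mul_mem_right _ _ hqmem) (Ideal.mul_mem_right _ _ hπmem)
    exact hn.ne_top ((Ideal.eq_top_iff_one _).mpr h2)
  · obtain ⟨a', ha', hqa'⟩ := exists_assoc_of_dvd_discr π hπ xK hxK hKt S hunr b hb r d hr1 hbr hd
      hdπ q hq hqd hqu
    by_cases haa' : a' = a
    · left
      rw [← haa']
      exact hqa'
    · right
      obtain ⟨u, hu⟩ := hqa'.symm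
      rw [← hu, map_mul]
      refine IsUnit.mul (hunit _ ?_) (u.isUnit.map _)
      rw [PolyLocal.mem_nId, eval_sub, eval_X, eval_C]
      intro hdvd
      exact hπ.not_isUnit (isUnit_of_dvd_unit hdvd (hS a ha a' ha' (Ne.symm haa')))

end Line

end Fermat.Agent.RedLib.DiscPrime
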