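/-
S18 long shot (helper4): a basis of the integral closure "near a multiplicative set" is a basis
of the integral closure of the localisation.  Generalises `Bridge.span_eq_integralClosure` from
the localisation at a prime element to an arbitrary localisation `V = M⁻¹ R` inside `K`.
-/
import Mathlib
import Fermat.Agent.RedLib.SelfDual

set_option autoImplicit false

namespace Fermat.Agent.RedLib.LocBasis

open Fermat.Agent.RedLib

variable {R K E : Type*} [CommRing R] [Field K] [Algebra R K] [Field E] [Algebra K E]
  [Algebra R E] [IsScalarTower R K E]
  (M : Submonoid R) (V : Type*) [CommRing V] [Algebra R V] [IsLocalization M V]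
  [Algebra V K] [IsScalarTower R V K] [Algebra V E] [IsScalarTower V K E] [IsScalarTower R V E]

/-- A `K`-basis of `E` consisting of `R`-integral elements and spanning the integral closure of
`R` up to a denominator in `M` spans the integral closure of the localisation `V = M⁻¹ R`. -/
theorem span_eq_integralClosure {ι : Type*} [Fintype ι] (b : Module.Basis ι K E)
    (hb : ∀ i, IsIntegral R (b i)) (g : R) (hg : g ∈ M)
    (hbg : ∀ z : E, IsIntegral R z → ∀ i, ∃ a : R,
      algebraMap R K g * b.repr z i = algebraMap R K a) :
    Submodule.span V (Set.range b) = Subalgebra.toSubmodule (integralClosure V E) := by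
  apply le_antisymm
  · rw [Submodule.span_le]
    rintro _ ⟨i, rfl⟩
    exact (hb i).tower_top
  · intro z hz
    have hz' : IsIntegral V z := hz
    obtain ⟨⟨m, hm⟩, hmz⟩ := IsIntegral.exists_multiple_integral_of_isLocalization M z hz'
    rw [Submonoid.smul_def] at hmz
    obtain ⟨w, hw⟩ := (IsLocalization.map_units V (⟨g, hg⟩ : M)).exists_right_inv
    obtain ⟨w', hw'⟩ := (IsLocalization.map_units V (⟨m, hm⟩ : M)).exists_right_inv
    have hrepr : ∀ i, ∃ v : V, b.repr z i = algebraMap V K v := by
      intro i
      obtain ⟨a, ha⟩ := hbg _ hmz i
      refine ⟨algebraMap R V a * w * w', ?_⟩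
      have h1 : b.repr ((m : R) • z) i = algebraMap R K m * b.repr z i := by
        rw [← IsScalarTower.algebraMap_smul K (m : R) z, map_smul, Finsupp.smul_apply,
          smul_eq_mul]
      rw [h1] at ha
      have h2 : algebraMap R K g * algebraMap V K w = 1 := by
        rw [IsScalarTower.algebraMap_apply R V K, ← map_mul, hw, map_one]
      have h3 : algebraMap R K m * algebraMap V K w' = 1 := by
        rw [IsScalarTower.algebraMap_apply R V K, ← map_mul, hw', map_one]
      rw [map_mul, map_mul, ← IsScalarTower.algebraMap_apply R V K, ← ha]
      calc b.repr z i = (algebraMap R K g * algebraMap V K w) *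
            (algebraMap R K m * algebraMap V K w') * b.repr z i := by
            rw [h2, h3, one_mul, one_mul]
        _ = _ := by ring
    choose c hc using hrepr
    have hsum : z = ∑ i, c i • b i := by
      conv_lhs => rw [← b.sum_repr z]
      refine Finset.sum_congr rfl fun i _ => ?_
      rw [hc i, IsScalarTower.algebraMap_smul]
    rw [hsum]
    exact Submodule.sum_mem _ fun i _ =>
      Submodule.smul_mem _ _ (Submodule.subset_span ⟨i, rfl⟩)

/-- The local basis: a `V`-basis of the integral closure of `V` with the same underlying vectors,
coordinates, and discriminant. -/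
theorem exists_local_basis (hinj : Function.Injective (algebraMap V K)) {ι : Type*} [Fintype ι]
    [DecidableEq ι] (b : Module.Basis ι K E)
    (hb : ∀ i, IsIntegral R (b i)) (g : R) (hg : g ∈ M)
    (hbg : ∀ z : E, IsIntegral R z → ∀ i, ∃ a : R,
      algebraMap R K g * b.repr z i = algebraMap R K a) :
    ∃ bV : Module.Basis ι V ↥(integralClosure V E), (∀ i, (bV i : E) = b i) ∧
      (∀ (z : ↥(integralClosure V E)) (i : ι), algebraMap V K (bV.repr z i) = b.repr (z : E) i) ∧
      Algebra.discr K b = algebraMap V K (Algebra.discr V bV) := by
  obtain ⟨bV, h1, h2, -, h4⟩ := SelfDual.exists_basis_discr_eq hinj b (integralClosure V E)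
    (span_eq_integralClosure M V b hb g hg hbg)
  exact ⟨bV, h1, h2, h4⟩

end Fermat.Agent.RedLib.LocBasis
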