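/-
Exact tame discriminant of a finite free PID-algebra over a discrete valuation ring with residue
characteristic zero, and comparison of reduced dimensions (W2 of the S18 blueprint, part 2).
-/
import Fermat.Agent.RedLib.DiscLA

set_option autoImplicit false

namespace Fermat.Agent.RedLib.DiscTame

open Module Matrix Fermat.Agent.RedLib.DiscLA

set_option linter.unusedSectionVars false

/-- dividing the rows indexed by `S` by `s` -/
theorem exists_det_eq_pow_mul {R ι : Type*} [CommRing R] [Fintype ι] [DecidableEq ι]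
    (A : Matrix ι ι R) (s : R) (S : Finset ι) (h : ∀ i ∈ S, ∀ j, s ∣ A i j) :
    ∃ N : Matrix ι ι R, A.det = s ^ S.card * N.det ∧ (∀ i ∈ S, ∀ j, A i j = s * N i j) ∧
      (∀ i, i ∉ S → ∀ j, N i j = A i j) := by
  classical
  choose Q hQ using h
  let A' : Matrix ι ι R := Matrix.of fun i j => if hi : i ∈ S then Q i hi j else A i j
  let v : ι → R := fun i => if i ∈ S then s else 1
  have hA : A = Matrix.of fun i j => v i * A' i j := by
    ext i j
    by_cases hi : i ∈ S
    · simp [v, A', hi, hQ i hi j]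
    · simp [v, A', hi]
  have hv : ∏ i, v i = s ^ S.card := by
    simp [v, Finset.prod_ite_mem, Finset.prod_const]
  refine ⟨A', ?_, ?_, ?_⟩
  · conv_lhs => rw [hA]
    rw [Matrix.det_mul_column, hv]
  · intro i hi j
    simp only [A', Matrix.of_apply, dif_pos hi]
    exact hQ i hi j
  · intro i hi j
    simp only [A', Matrix.of_apply, dif_neg hi]

section Adapted

variable {V M ι : Type*} [CommRing V] [CommRing M] [Algebra V M] [Fintype ι] [DecidableEq ι]

theorem adapted_sum (b : Basis ι V M) (P : Matrix ι ι V) (x : ι → V) :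
    ∑ i, x i • (P.map (algebraMap V M) *ᵥ b) i = ∑ j, (x ᵥ* P) j • b j := by
  have hb₂sum : ∀ i, (P.map (algebraMap V M) *ᵥ b) i = ∑ j, P i j • b j := fun i => by
    simp only [Matrix.mulVec, dotProduct, Matrix.map_apply, ← Algebra.smul_def]
  calc ∑ i, x i • (P.map (algebraMap V M) *ᵥ b) i = ∑ i, ∑ j, (x i * P i j) • b j := by
        refine Finset.sum_congr rfl fun i _ => ?_
        rw [hb₂sum i, Finset.smul_sum]
        simp only [smul_smul]
    _ = ∑ j, (x ᵥ* P) j • b j := by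
        rw [Finset.sum_comm]
        refine Finset.sum_congr rfl fun j _ => ?_
        rw [← Finset.sum_smul]
        rfl

theorem exists_adapted_repr (b : Basis ι V M) (P : Matrix ι ι V) (hPu : IsUnit P.det) (u : M) :
    ∃ y : ι → V, ∑ i, y i • (P.map (algebraMap V M) *ᵥ b) i = u := by
  refine ⟨(fun j => b.repr u j) ᵥ* P⁻¹, ?_⟩
  rw [adapted_sum, Matrix.vecMul_vecMul, Matrix.nonsing_inv_mul _ hPu, Matrix.vecMul_one]
  exact b.sum_repr u

theorem dvd_of_dvd_adapted_sum (b : Basis ι V M) (P : Matrix ι ι V) (hPu : IsUnit P.det) {s : V}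
    (x : ι → V) (h : algebraMap V M s ∣ ∑ i, x i • (P.map (algebraMap V M) *ᵥ b) i) (i : ι) :
    s ∣ x i := by
  rw [adapted_sum] at h
  have h1 : ∀ j, s ∣ (x ᵥ* P) j := fun j => by
    have h0 := dvd_repr_of_dvd b h j
    rwa [b.repr_sum_self] at h0
  have h2 : x = (x ᵥ* P) ᵥ* P⁻¹ := by
    rw [Matrix.vecMul_vecMul, Matrix.mul_nonsing_inv _ hPu, Matrix.vecMul_one]
  rw [h2]
  simp only [Matrix.vecMul, dotProduct]
  exact Finset.dvd_sum fun j _ => Dvd.dvd.mul_right (h1 j) _

end Adapted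

section Tame

variable {V W κ B ι : Type*} [CommRing V] [IsDomain V] [CommRing W] [IsDomain W]
  [IsPrincipalIdealRing W] [Algebra V W] [Field κ] [CharZero κ] [CommRing B] [Algebra κ B]
  [Fintype ι] [DecidableEq ι] {s : V} {φ : V →+* κ} {ρ : W →+* B}

/-- (hβ'): an element whose trace pairing is divisible by `s ^ 2` lies in `s • rad`. -/
theorem exists_eq_mul_nil (h : IsRed s φ ρ) (b : Basis ι V W) (hs0 : s ≠ 0)
    (hs' : algebraMap V W s ≠ 0) (w : W) (hw : ∀ u : W, s ^ 2 ∣ Algebra.trace V W (w * u)) :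
    ∃ w₁ : W, w = algebraMap V W s * w₁ ∧ ∃ m : ℕ, algebraMap V W s ∣ w₁ ^ m := by
  obtain ⟨g, hg⟩ : ∃ g : W, Ideal.span {w, algebraMap V W s} = Ideal.span {g} :=
    ⟨_, (Ideal.span_singleton_generator _).symm⟩
  have hwg : g ∣ w := Ideal.mem_span_singleton.mp (hg ▸ Ideal.subset_span (by simp))
  have hsg : g ∣ algebraMap V W s :=
    Ideal.mem_span_singleton.mp (hg ▸ Ideal.subset_span (by simp))
  obtain ⟨w₁, hw₁⟩ := hwg
  obtain ⟨t, ht⟩ := hsg
  have hgmem : g ∈ Ideal.span {w, algebraMap V W s} := hg ▸ Ideal.mem_span_singleton_self g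
  obtain ⟨a, b', hab⟩ := Ideal.mem_span_pair.mp hgmem
  have hg0 : g ≠ 0 := by
    rintro rfl
    rw [zero_mul] at ht
    exact hs' ht
  have hcop : IsCoprime w₁ t := by
    refine ⟨a, b', ?_⟩
    apply mul_left_cancel₀ hg0
    rw [mul_one]
    calc g * (a * w₁ + b' * t) = a * (g * w₁) + b' * (g * t) := by ring
      _ = g := by rw [← hw₁, ← ht, hab]
  have hw₁tr : ∀ u : W, s ∣ Algebra.trace V W (w₁ * u) := by
    intro u
    have h1 := hw (t * u)
    have h2 : w * (t * u) = s • (w₁ * u) := by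
      rw [Algebra.smul_def, hw₁, ht]; ring
    rw [h2, map_smul, smul_eq_mul, pow_two] at h1
    exact (mul_dvd_mul_iff_left hs0).mp h1
  obtain ⟨m, hm⟩ := h.nil_of_trace b w₁ hw₁tr
  have htu : IsUnit t := by
    have h1 : t ∣ w₁ ^ m := Dvd.dvd.trans ⟨g, by rw [ht, mul_comm]⟩ hm
    exact (hcop.pow_left (m := m)).isUnit_of_dvd' h1 dvd_rfl
  obtain ⟨t', ht'⟩ := htu.exists_right_inv
  refine ⟨t' * w₁, ?_, m, ?_⟩
  · rw [hw₁, ht]
    calc g * w₁ = g * (t * t') * w₁ := by rw [ht', mul_one]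
      _ = g * t * (t' * w₁) := by ring
  · rw [mul_pow]; exact Dvd.dvd.mul_left hm _

/-- (v) EXACT TAME DISCRIMINANT: for a finite free `V`-algebra `W` which is a principal ideal
domain, in residue characteristic zero, `disc = unit * s ^ (n - redDim)`. -/
theorem exact_tame [IsDiscreteValuationRing V] (b : Basis ι V W) (hs : Irreducible s)
    (h : IsRed s φ ρ) :
    ∃ u : Vˣ, Algebra.discr V b = u * s ^ (Fintype.card ι - redDim κ B) := by
  classical
  have hs0 : s ≠ 0 := hs.ne_zero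
  have hs' : algebraMap V W s ≠ 0 := by
    intro h0
    obtain ⟨i⟩ : Nonempty ι := by
      by_contra hemp
      rw [not_nonempty_iff] at hemp
      have hsub : Subsingleton W := b.repr.injective.subsingleton
      exact zero_ne_one (Subsingleton.elim (0 : W) 1)
    have h1 : s • b i = 0 := by rw [Algebra.smul_def, h0, zero_mul]
    have h2 := congrArg (fun z => b.repr z i) h1
    simp only [map_smul, Finsupp.smul_apply, Basis.repr_self, Finsupp.single_eq_same,
      smul_eq_mul, mul_one, map_zero, Finsupp.zero_apply] at h2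
    exact hs0 h2
  obtain ⟨c, hnil, hind, hspan⟩ := h.exists_nilBasis b
  obtain ⟨P, ia, hia, hPu, hP⟩ := exists_adapted b hs c hind
  obtain ⟨b₂, hb₂⟩ : ∃ b₂ : ι → W, b₂ = P.map (algebraMap V W) *ᵥ b := ⟨_, rfl⟩
  have hdisc : Algebra.discr V b₂ = P.det ^ 2 * Algebra.discr V b := by
    rw [hb₂]; exact Algebra.discr_of_matrix_mulVec b P
  obtain ⟨G, hG⟩ : ∃ G : Matrix ι ι V, G = Algebra.traceMatrix V b₂ := ⟨_, rfl⟩
  let S : Finset ι := Finset.univ.image ia
  have hb₂ia : ∀ a, b₂ (ia a) = c a := fun a => by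
    rw [hb₂]; exact adapted_apply b c P ia hP a
  have hnilM : ∀ a (z : W), s ∣ Algebra.trace V W (c a * z) := by
    intro a z
    obtain ⟨m, hm⟩ := hnil a
    exact dvd_trace_of_dvd_pow b hs.prime (m := m) (by rw [mul_pow]; exact Dvd.dvd.mul_right hm _)
  have hrows : ∀ i ∈ S, ∀ j, s ∣ G i j := by
    intro i hi j
    obtain ⟨a, -, rfl⟩ := Finset.mem_image.mp hi
    rw [hG, Algebra.traceMatrix_apply, Algebra.traceForm_apply, hb₂ia]
    exact hnilM a _
  obtain ⟨N, hdetN, hNS, hNnS⟩ := exists_det_eq_pow_mul G s S hrows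
  have hcard : S.card = Fintype.card ι - redDim κ B := by
    rw [Finset.card_image_of_injective _ hia, Finset.card_univ, Fintype.card_fin]
  obtain ⟨ϖ, hϖ⟩ : ∃ ϖ : W, (Ideal.span {algebraMap V W s}).radical = Ideal.span {ϖ} :=
    ⟨_, (Ideal.span_singleton_generator _).symm⟩
  have hrad : ∀ x : W, (∃ m : ℕ, algebraMap V W s ∣ x ^ m) ↔ ϖ ∣ x := by
    intro x
    rw [← Ideal.mem_span_singleton, ← hϖ]
    constructor
    · rintro ⟨m, hm⟩; exact ⟨m, Ideal.mem_span_singleton.mpr hm⟩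
    · rintro ⟨m, hm⟩; exact ⟨m, Ideal.mem_span_singleton.mp hm⟩
  have hϖ0 : ϖ ≠ 0 := by
    rintro rfl
    have h1 := (hrad (algebraMap V W s)).mp ⟨1, by rw [pow_one]⟩
    exact hs' (zero_dvd_iff.mp h1)
  have hNu : IsUnit N.det := by
    apply isUnit_det_of_mulVec_inj hs
    intro x hx
    obtain ⟨w, hw⟩ : ∃ w : W, w = ∑ j, x j • b₂ j := ⟨_, rfl⟩
    have hGx : ∀ i, (G *ᵥ x) i = Algebra.trace V W (b₂ i * w) := by
      intro i; rw [hG, hw]; exact traceMatrix_mulVec b₂ x i
    have hS2 : ∀ i ∈ S, s ^ 2 ∣ Algebra.trace V W (b₂ i * w) := by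
      intro i hi
      rw [← hGx]
      have h1 : (G *ᵥ x) i = s * (N *ᵥ x) i := by
        simp only [Matrix.mulVec, dotProduct, Finset.mul_sum]
        exact Finset.sum_congr rfl fun j _ => by rw [hNS i hi j, mul_assoc]
      rw [h1, pow_two]
      exact mul_dvd_mul_left s (hx i)
    have hnS : ∀ i, i ∉ S → s ∣ Algebra.trace V W (b₂ i * w) := by
      intro i hi
      rw [← hGx]
      have h1 : (G *ᵥ x) i = (N *ᵥ x) i := by
        simp only [Matrix.mulVec, dotProduct]
        exact Finset.sum_congr rfl fun j _ => by rw [hNnS i hi j]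
      rw [h1]; exact hx i
    have hall : ∀ i, s ∣ Algebra.trace V W (b₂ i * w) := by
      intro i
      by_cases hi : i ∈ S
      · exact Dvd.dvd.trans (dvd_pow_self s two_ne_zero) (hS2 i hi)
      · exact hnS i hi
    have hA : ∀ u : W, s ∣ Algebra.trace V W (w * u) := by
      intro u
      obtain ⟨y, hy⟩ := exists_adapted_repr b P hPu u
      rw [← hy, ← hb₂]
      exact dvd_trace_mul_of_family b₂ s w hall y
    have hC : ∀ x₀ : W, ϖ ∣ x₀ → s ^ 2 ∣ Algebra.trace V W (w * x₀) := by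
      intro x₀ hx₀
      obtain ⟨g, y, hy⟩ := hspan x₀ ((hrad x₀).mpr hx₀)
      have h1 : x₀ = ∑ a, g a • c a + s • y := by
        rw [Algebra.smul_def, ← hy]; ring
      rw [h1, mul_add, map_add, mul_smul_comm, map_smul, smul_eq_mul, Finset.mul_sum, map_sum]
      refine dvd_add (Finset.dvd_sum fun a _ => ?_) ?_
      · rw [mul_smul_comm, map_smul, smul_eq_mul, mul_comm w, ← hb₂ia]
        exact Dvd.dvd.mul_left (hS2 _ (Finset.mem_image_of_mem ia (Finset.mem_univ a))) _
      · rw [pow_two]; exact mul_dvd_mul_left s (hA y)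
    obtain ⟨w₁, hw₁, hw₁nil⟩ := exists_eq_mul_nil h b hs0 hs' (w * ϖ) (fun u => by
      rw [mul_assoc]; exact hC _ (dvd_mul_right _ _))
    obtain ⟨w₂, hw₂⟩ := (hrad w₁).mp hw₁nil
    have hsw : algebraMap V W s ∣ w := by
      refine ⟨w₂, ?_⟩
      apply mul_right_cancel₀ hϖ0
      rw [hw₁, hw₂]; ring
    intro i
    rw [hw, hb₂] at hsw
    exact dvd_of_dvd_adapted_sum b P hPu x hsw i
  have h5 : P.det ^ 2 * Algebra.discr V b = s ^ (Fintype.card ι - redDim κ B) * N.det := by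
    rw [← hdisc, Algebra.discr_def, ← hG, hdetN, hcard]
  refine ⟨(hPu.unit ^ 2)⁻¹ * hNu.unit, ?_⟩
  have h6 : Algebra.discr V b = ↑((hPu.unit ^ 2)⁻¹ : Vˣ) * (P.det ^ 2 * Algebra.discr V b) := by
    rw [← mul_assoc]
    have h7 : (↑((hPu.unit ^ 2)⁻¹ : Vˣ) : V) * P.det ^ 2 = 1 := by
      have h8 : (P.det ^ 2 : V) = ↑(hPu.unit ^ 2 : Vˣ) := by simp
      rw [h8, Units.inv_mul]
    rw [h7, one_mul]
  rw [h6, h5, Units.val_mul, IsUnit.unit_spec]
  ring

end Tame

end Fermat.Agent.RedLib.DiscTame
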