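/-
SLICE: for a finite free algebra `B` over a two-dimensional regular local ring `O` with parameters
`π, s`, tamely ramified along `s = 0`, idempotents of `B / π B` localised at `s` lie in `B / π B`.
(Base change of bases along ring maps, comparison of reduced dimensions, and a direct maximality
lemma over a discrete valuation ring; S18 blueprint, AG step (E).)
-/
import Fermat.Agent.RedLib.DiscTame

set_option autoImplicit false

namespace Fermat.Agent.RedLib.Slice

open Module Matrix TensorProduct Fermat.Agent.RedLib.DiscLA Fermat.Agent.RedLib.DiscTame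

set_option linter.unusedSectionVars false

universe u₁ u₂ u₃ u₄

/-- `ρ : M₁ → M₂` is the base change along `g : R₁ → R₂` of the algebra `M₁` with basis `b₁`;
`b₂` is the image basis. -/
structure IsBC {R₁ M₁ R₂ M₂ ι : Type*} [CommRing R₁] [CommRing M₁] [Algebra R₁ M₁] [CommRing R₂]
    [CommRing M₂] [Algebra R₂ M₂] (g : R₁ →+* R₂) (ρ : M₁ →+* M₂) (b₁ : Basis ι R₁ M₁)
    (b₂ : Basis ι R₂ M₂) : Prop where
  compat : ∀ (a : R₁) (x : M₁), ρ (a • x) = g a • ρ x
  map_basis : ∀ i, ρ (b₁ i) = b₂ i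

section BC

variable {R₁ M₁ R₂ M₂ ι : Type*} [CommRing R₁] [CommRing M₁] [Algebra R₁ M₁] [CommRing R₂]
    [CommRing M₂] [Algebra R₂ M₂] {g : R₁ →+* R₂} {ρ : M₁ →+* M₂} {b₁ : Basis ι R₁ M₁}
    {b₂ : Basis ι R₂ M₂} [Fintype ι] [DecidableEq ι]

theorem IsBC.rho_sum (h : IsBC g ρ b₁ b₂) (c : ι → R₁) :
    ρ (∑ i, c i • b₁ i) = ∑ i, g (c i) • b₂ i := by
  rw [map_sum]
  exact Finset.sum_congr rfl fun i _ => by rw [h.compat, h.map_basis]

theorem IsBC.repr_rho (h : IsBC g ρ b₁ b₂) (x : M₁) (i : ι) :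
    b₂.repr (ρ x) i = g (b₁.repr x i) := by
  conv_lhs => rw [← b₁.sum_repr x, h.rho_sum]
  rw [b₂.repr_sum_self]

theorem IsBC.rho_eq_zero_iff (h : IsBC g ρ b₁ b₂) (x : M₁) :
    ρ x = 0 ↔ ∀ i, g (b₁.repr x i) = 0 := by
  constructor
  · intro h0 i
    rw [← h.repr_rho, h0]; simp
  · intro h0
    apply b₂.repr.injective
    ext i
    rw [h.repr_rho, h0 i]; simp

theorem IsBC.surjective (h : IsBC g ρ b₁ b₂) (hg : Function.Surjective g) :
    Function.Surjective ρ := by
  intro y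
  choose c hc using fun i => hg (b₂.repr y i)
  refine ⟨∑ i, c i • b₁ i, ?_⟩
  rw [h.rho_sum]
  conv_rhs => rw [← b₂.sum_repr y]
  exact Finset.sum_congr rfl fun i _ => by rw [hc]

theorem IsBC.injective (h : IsBC g ρ b₁ b₂) (hg : Function.Injective g) :
    Function.Injective ρ := by
  rw [injective_iff_map_eq_zero]
  intro x hx
  apply b₁.repr.injective
  ext i
  have h1 := (h.rho_eq_zero_iff x).mp hx i
  rw [← map_zero g] at h1
  simpa using hg h1

theorem IsBC.rho_eq_zero_iff_dvd (h : IsBC g ρ b₁ b₂) {s : R₁} (hs : ∀ a, g a = 0 ↔ s ∣ a)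
    (x : M₁) : ρ x = 0 ↔ algebraMap R₁ M₁ s ∣ x := by
  rw [h.rho_eq_zero_iff]
  constructor
  · intro h0
    choose q hq using fun i => (hs _).mp (h0 i)
    refine ⟨∑ i, q i • b₁ i, ?_⟩
    conv_lhs => rw [← b₁.sum_repr x]
    rw [← Algebra.smul_def, Finset.smul_sum]
    exact Finset.sum_congr rfl fun i _ => by rw [hq i, mul_smul]
  · intro hx i
    exact (hs _).mpr (dvd_repr_of_dvd b₁ hx i)

theorem IsBC.trace (h : IsBC g ρ b₁ b₂) (z : M₁) :
    Algebra.trace R₂ M₂ (ρ z) = g (Algebra.trace R₁ M₁ z) := by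
  rw [Algebra.trace_eq_matrix_trace b₂, Algebra.trace_eq_matrix_trace b₁, Matrix.trace,
    Matrix.trace, map_sum]
  refine Finset.sum_congr rfl fun i _ => ?_
  simp only [Matrix.diag_apply, Algebra.leftMulMatrix_eq_repr_mul]
  rw [← h.map_basis i, ← map_mul, h.repr_rho]

theorem IsBC.discr (h : IsBC g ρ b₁ b₂) :
    Algebra.discr R₂ b₂ = g (Algebra.discr R₁ b₁) := by
  rw [Algebra.discr_def, Algebra.discr_def, RingHom.map_det]
  congr 1
  ext i j
  simp only [Algebra.traceMatrix_apply, Algebra.traceForm_apply, RingHom.mapMatrix_apply,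
    Matrix.map_apply]
  rw [← h.map_basis i, ← h.map_basis j, ← map_mul, h.trace]

/-- lifting a base change through a surjective intermediate base change -/
theorem IsBC.exists_lift {R₃ M₃ : Type*} [CommRing R₃] [CommRing M₃] [Algebra R₃ M₃]
    {g' : R₁ →+* R₃} {ρ' : M₁ →+* M₃} {b₃ : Basis ι R₃ M₃}
    (h : IsBC g ρ b₁ b₂) (hg : Function.Surjective g) (h' : IsBC g' ρ' b₁ b₃) (f : R₂ →+* R₃)
    (hf : ∀ a, f (g a) = g' a) :
    ∃ σ : M₂ →+* M₃, IsBC f σ b₂ b₃ ∧ ∀ x, σ (ρ x) = ρ' x := by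
  have hsurj := h.surjective hg
  have hker : RingHom.ker ρ ≤ RingHom.ker ρ' := by
    intro x hx
    rw [RingHom.mem_ker] at hx ⊢
    rw [h'.rho_eq_zero_iff]
    intro i
    rw [← hf, (h.rho_eq_zero_iff x).mp hx i, map_zero]
  have hσ : ∀ x, (ρ.liftOfSurjective hsurj ⟨ρ', hker⟩) (ρ x) = ρ' x := fun x =>
    ρ.liftOfSurjective_comp_apply hsurj ⟨ρ', hker⟩ x
  refine ⟨ρ.liftOfSurjective hsurj ⟨ρ', hker⟩, ⟨?_, ?_⟩, hσ⟩
  · intro v y
    obtain ⟨a, rfl⟩ := hg v
    obtain ⟨x, rfl⟩ := hsurj y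
    rw [← h.compat, hσ, hσ, h'.compat, hf]
  · intro i
    rw [← h.map_basis, hσ, h'.map_basis]

end BC

theorem IsBC.isRed {R₁ M₁ κ B ι : Type*} [CommRing R₁] [CommRing M₁] [Algebra R₁ M₁] [Field κ]
    [CommRing B] [Algebra κ B] [Fintype ι] [DecidableEq ι] {g : R₁ →+* κ} {ρ : M₁ →+* B}
    {b₁ : Basis ι R₁ M₁} {b₂ : Basis ι κ B} (h : IsBC g ρ b₁ b₂) (hg : Function.Surjective g)
    {s : R₁} (hs : ∀ a, g a = 0 ↔ s ∣ a) : IsRed s g ρ :=
  ⟨hg, hs, h.surjective hg, h.rho_eq_zero_iff_dvd hs, h.compat⟩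

theorem isBC_tensor {R₁ M₁ R₂ ι : Type*} [CommRing R₁] [CommRing M₁] [Algebra R₁ M₁]
    [CommRing R₂] [Algebra R₁ R₂] (b₁ : Basis ι R₁ M₁) :
    IsBC (algebraMap R₁ R₂)
      (Algebra.TensorProduct.includeRight : M₁ →ₐ[R₁] R₂ ⊗[R₁] M₁).toRingHom b₁
      (Algebra.TensorProduct.basis R₂ b₁) := by
  constructor
  · intro a x
    simp only [AlgHom.toRingHom_eq_coe, RingHom.coe_coe,
      Algebra.TensorProduct.includeRight_apply]
    rw [TensorProduct.tmul_smul, TensorProduct.smul_tmul', TensorProduct.smul_tmul',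
      Algebra.smul_def, smul_eq_mul]
  · intro i
    simp only [AlgHom.toRingHom_eq_coe, RingHom.coe_coe,
      Algebra.TensorProduct.includeRight_apply, Algebra.TensorProduct.basis_apply]

theorem exists_baseChange {R₁ : Type u₁} {M₁ : Type u₂} {R₂ : Type u₃} {ι : Type u₄}
    [CommRing R₁] [CommRing M₁] [Algebra R₁ M₁] [CommRing R₂] (b₁ : Basis ι R₁ M₁)
    (g : R₁ →+* R₂) :
    ∃ (M₂ : Type (max u₃ u₂)) (_ : CommRing M₂) (_ : Algebra R₂ M₂) (ρ : M₁ →+* M₂)
      (b₂ : Basis ι R₂ M₂), IsBC g ρ b₁ b₂ := by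
  let _ : Algebra R₁ R₂ := g.toAlgebra
  exact ⟨R₂ ⊗[R₁] M₁, inferInstance, inferInstance, _, _, isBC_tensor (R₂ := R₂) b₁⟩

section Generic

/-- (iv): the reduced dimension of the special fibre is at most that of the generic fibre. -/
theorem redDim_le_redDim_generic {A0 K V0 k0 B0 BK ι : Type*} [CommRing A0] [IsDomain A0]
    [IsPrincipalIdealRing A0] [Field K] [Algebra A0 K] [IsFractionRing A0 K]
    [CommRing V0] [Algebra A0 V0] [Fintype ι] (bV : Basis ι A0 V0)
    [Field k0] [CommRing B0] [Algebra k0 B0] {π : A0} {φ : A0 →+* k0} {ρ : V0 →+* B0}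
    (h : IsRed π φ ρ) [CommRing BK] [Algebra K BK] [Module.Finite K BK] (γ : V0 →+* BK)
    (hγ : Function.Injective γ)
    (hγc : ∀ (a : A0) (x : V0), γ (a • x) = algebraMap A0 K a • γ x) :
    redDim k0 B0 ≤ redDim K BK := by
  classical
  have hfin : Module.Finite A0 V0 := Module.Finite.of_basis bV
  have hQfin : Module.Finite A0 (V0 ⧸ nilradical V0) :=
    Module.Finite.of_surjective (Ideal.Quotient.mkₐ A0 (nilradical V0)).toLinearMap
      (Ideal.Quotient.mkₐ_surjective A0 (nilradical V0))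
  have hmk : ∀ (a : A0) (x : V0), Ideal.Quotient.mk (nilradical V0) (a • x) =
      a • Ideal.Quotient.mk (nilradical V0) x := fun a x =>
    map_smul (Ideal.Quotient.mkₐ A0 (nilradical V0)) a x
  have hQtf : Module.IsTorsionFree A0 (V0 ⧸ nilradical V0) := by
    rw [Module.isTorsionFree_iff_smul_eq_zero]
    intro a q hq
    by_cases ha : a = 0
    · exact Or.inl ha
    right
    obtain ⟨x, rfl⟩ := Ideal.Quotient.mk_surjective q
    have h1 : a • x ∈ nilradical V0 := by
      rw [← Ideal.Quotient.eq_zero_iff_mem, hmk]; exact hq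
    obtain ⟨m, hm⟩ := mem_nilradical.mp h1
    rw [smul_pow] at hm
    have h2 : x ^ m = 0 := by
      apply bV.repr.injective
      ext i
      have h3 := congrArg (fun y => bV.repr y i) hm
      simp only [map_smul, Finsupp.smul_apply, smul_eq_mul, map_zero, Finsupp.zero_apply] at h3
      simpa using (mul_eq_zero.mp h3).resolve_left (pow_ne_zero m ha)
    exact Ideal.Quotient.eq_zero_iff_mem.mpr (mem_nilradical.mpr ⟨m, h2⟩)
  have hQfree : Module.Free A0 (V0 ⧸ nilradical V0) := inferInstance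
  let bQ := Module.Free.chooseBasis A0 (V0 ⧸ nilradical V0)
  choose qt hqt using fun i => Ideal.Quotient.mk_surjective (bQ i)
  have ha : redDim k0 B0 ≤ Fintype.card (Module.Free.ChooseBasisIndex A0 (V0 ⧸ nilradical V0)) := by
    unfold redDim
    have hred : IsReduced (B0 ⧸ nilradical B0) :=
      (Ideal.isRadical_iff_quotient_reduced _).mp (Ideal.radical_isRadical ⊥)
    let τ : V0 →+* B0 ⧸ nilradical B0 := (Ideal.Quotient.mk _).comp ρ
    have hτc : ∀ (c : A0) (x : V0), τ (c • x) = φ c • τ x := fun c x => by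
      simp only [τ, RingHom.comp_apply, h.compat]
      exact map_smul (Ideal.Quotient.mkₐ k0 (nilradical B0)) (φ c) (ρ x)
    apply finrank_le_of_span_eq_top (v := fun i => τ (qt i))
    rw [eq_top_iff]
    rintro y -
    obtain ⟨y', rfl⟩ := Ideal.Quotient.mk_surjective y
    obtain ⟨x, rfl⟩ := h.rho_surj y'
    have h1 : x - ∑ i, bQ.repr (Ideal.Quotient.mk (nilradical V0) x) i • qt i ∈ nilradical V0 := by
      rw [← Ideal.Quotient.eq_zero_iff_mem, map_sub, sub_eq_zero, map_sum]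
      conv_lhs => rw [← bQ.sum_repr (Ideal.Quotient.mk (nilradical V0) x)]
      refine Finset.sum_congr rfl fun i _ => ?_
      rw [hmk, hqt i]
    have h2 : τ (x - ∑ i, bQ.repr (Ideal.Quotient.mk (nilradical V0) x) i • qt i) = 0 :=
      ((mem_nilradical.mp h1).map τ).eq_zero
    rw [map_sub, sub_eq_zero] at h2
    change τ x ∈ _
    rw [h2, map_sum]
    refine Submodule.sum_mem _ fun i _ => ?_
    rw [hτc]
    exact Submodule.smul_mem _ _ (Submodule.subset_span (Set.mem_range_self i))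
  have hb : Fintype.card (Module.Free.ChooseBasisIndex A0 (V0 ⧸ nilradical V0)) ≤ redDim K BK := by
    unfold redDim
    let τK : V0 →+* BK ⧸ nilradical BK := (Ideal.Quotient.mk _).comp γ
    have hτKc : ∀ (c : A0) (x : V0), τK (c • x) = algebraMap A0 K c • τK x := fun c x => by
      simp only [τK, RingHom.comp_apply, hγc]
      exact map_smul (Ideal.Quotient.mkₐ K (nilradical BK)) (algebraMap A0 K c) (γ x)
    have hfinK : Module.Finite K (BK ⧸ nilradical BK) :=
      Module.Finite.of_surjective (Ideal.Quotient.mkₐ K (nilradical BK)).toLinearMap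
        (Ideal.Quotient.mkₐ_surjective K (nilradical BK))
    apply LinearIndependent.fintype_card_le_finrank (b := fun i => τK (qt i))
    rw [Fintype.linearIndependent_iff]
    intro c hc i
    obtain ⟨d, hd⟩ := IsLocalization.exist_integer_multiples (nonZeroDivisors A0) Finset.univ c
    choose a ha using fun i => hd i (Finset.mem_univ i)
    have hd0 : (d : A0) ≠ 0 := nonZeroDivisors.coe_ne_zero d
    have h1 : τK (∑ i, a i • qt i) = 0 := by
      rw [map_sum]
      have h2 : ∀ i, τK (a i • qt i) = algebraMap A0 K (d : A0) • (c i • τK (qt i)) := by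
        intro i
        rw [hτKc, ha i, Algebra.smul_def (d : A0) (c i), mul_smul]
      rw [Finset.sum_congr rfl fun i _ => h2 i, ← Finset.smul_sum, hc, smul_zero]
    have h2 : ∑ i, a i • qt i ∈ nilradical V0 := by
      have h3 : γ (∑ i, a i • qt i) ∈ nilradical BK := Ideal.Quotient.eq_zero_iff_mem.mp h1
      obtain ⟨N, hN⟩ := mem_nilradical.mp h3
      rw [← map_pow] at hN
      exact mem_nilradical.mpr ⟨N, hγ (by rw [hN, map_zero])⟩
    have h4 : ∑ i, a i • bQ i = 0 := by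
      have h5 := Ideal.Quotient.eq_zero_iff_mem.mpr h2
      rw [map_sum] at h5
      rw [← h5]
      exact Finset.sum_congr rfl fun i _ => by rw [hmk, hqt i]
    have h5 : a i = 0 := Fintype.linearIndependent_iff.mp bQ.linearIndependent a h4 i
    have h6 := ha i
    rw [h5, map_zero, Algebra.smul_def] at h6
    have h7 : algebraMap A0 K (d : A0) ≠ 0 := fun h0 =>
      hd0 (IsFractionRing.injective A0 K (by rw [h0, map_zero]))
    exact (mul_eq_zero.mp h6.symm).resolve_left h7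
  exact ha.trans hb

end Generic

section MaxDirect

/-- an endomorphism of a finite free module which is nilpotent modulo the prime `s` has trace
divisible by `s` -/
theorem dvd_trace_of_pow_range {V N : Type*} [CommRing V] [IsDomain V] [AddCommGroup N]
    [Module V N] [Module.Free V N] [Module.Finite V N] {s : V} (hs : Prime s) (T : N →ₗ[V] N)
    (m : ℕ) (hT : ∀ x, ∃ y, (T ^ m) x = s • y) : s ∣ LinearMap.trace V N T := by
  classical
  let bN := Module.Free.chooseBasis V N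
  rw [LinearMap.trace_eq_matrix_trace V bN T]
  obtain ⟨Z, hZ⟩ : ∃ Z, Z = LinearMap.toMatrix bN bN T := ⟨_, rfl⟩
  rw [← hZ]
  have hZm : ∀ i j, s ∣ (Z ^ m) i j := by
    intro i j
    rw [hZ, LinearMap.toMatrix_pow, LinearMap.toMatrix_apply]
    obtain ⟨y, hy⟩ := hT (bN j)
    rw [hy, map_smul, Finsupp.smul_apply, smul_eq_mul]
    exact dvd_mul_right _ _
  have hI : (Ideal.span {s}).IsPrime := (Ideal.span_singleton_prime hs.ne_zero).mpr hs
  let f : V →+* V ⧸ Ideal.span {s} := Ideal.Quotient.mk _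
  have hnil : IsNilpotent (f.mapMatrix Z) := by
    refine ⟨m, ?_⟩
    rw [← map_pow]
    ext i j
    simp only [RingHom.mapMatrix_apply, Matrix.map_apply, Matrix.zero_apply]
    exact Ideal.Quotient.eq_zero_iff_mem.mpr (Ideal.mem_span_singleton.mpr (hZm i j))
  have htr : (f.mapMatrix Z).trace = 0 :=
    (Matrix.isNilpotent_trace_of_isNilpotent hnil).eq_zero
  have h0 : f Z.trace = 0 := by
    rw [← htr]
    simp [Matrix.trace, RingHom.mapMatrix_apply]
  exact Ideal.mem_span_singleton.mp (Ideal.Quotient.eq_zero_iff_mem.mp h0)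

/-- the crux: if `z * z = (s * c₀) • z` and `ca` is nilpotent modulo `s`, then `s ^ 2` divides
the trace of `ca * z` -/
theorem sq_dvd_trace_mul {V M ι : Type*} [CommRing V] [IsDomain V] [IsPrincipalIdealRing V]
    [CommRing M] [Algebra V M] [Fintype ι] (b : Basis ι V M) {s : V} (hs : Prime s) (z ca : M)
    (c₀ : V) (m : ℕ) (hz : z * z = (s * c₀) • z) (hca : algebraMap V M s ∣ ca ^ m) :
    s ^ 2 ∣ Algebra.trace V M (ca * z) := by
  have hfinM : Module.Finite V M := Module.Finite.of_basis b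
  have hfreeM : Module.Free V M := Module.Free.of_basis b
  let N : Submodule V M := LinearMap.range (LinearMap.mulLeft V z)
  have hmemN : ∀ x ∈ N, LinearMap.mulLeft V ca x ∈ N := by
    rintro x ⟨y, rfl⟩
    exact ⟨ca * y, by simp only [LinearMap.mulLeft_apply]; ring⟩
  let T : N →ₗ[V] N := (LinearMap.mulLeft V ca).restrict hmemN
  let f : M →ₗ[V] N := (LinearMap.mulLeft V z).rangeRestrict
  have hTval : ∀ x : N, ((T x : N) : M) = ca * (x : M) := fun x => rfl
  have hfval : ∀ x : M, ((f x : N) : M) = z * x := fun x => rfl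
  have hcomp : LinearMap.mulLeft V (ca * z) = N.subtype ∘ₗ (T ∘ₗ f) := by
    ext x
    simp only [LinearMap.mulLeft_apply, LinearMap.comp_apply, Submodule.subtype_apply, hTval,
      hfval, mul_assoc]
  have hcomp2 : (T ∘ₗ f) ∘ₗ N.subtype = (s * c₀) • T := by
    ext x
    obtain ⟨x, y, rfl⟩ := x
    simp only [LinearMap.comp_apply, Submodule.subtype_apply, hTval, hfval, LinearMap.smul_apply,
      SetLike.val_smul, LinearMap.mulLeft_apply]
    rw [← mul_assoc z z, hz, smul_mul_assoc, mul_smul_comm]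
  have hpow : ∀ (k : ℕ) (x : N), (((T ^ k) x : N) : M) = ca ^ k * (x : M) := by
    intro k
    induction k with
    | zero => intro x; simp
    | succ k ih =>
      intro x
      rw [pow_succ', Module.End.mul_apply, hTval, ih, pow_succ', mul_assoc]
  have hT : ∀ x : N, ∃ y : N, (T ^ m) x = s • y := by
    intro x
    obtain ⟨x, y, rfl⟩ := x
    obtain ⟨q, hq⟩ := hca
    refine ⟨⟨z * (q * y), ⟨q * y, rfl⟩⟩, ?_⟩
    apply Subtype.ext
    rw [hpow]
    simp only [SetLike.val_smul, LinearMap.mulLeft_apply]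
    rw [hq, Algebra.smul_def]
    ring
  have h1 := dvd_trace_of_pow_range hs T m hT
  have h2 : Algebra.trace V M (ca * z) = (s * c₀) * LinearMap.trace V N T := by
    have h3 : Algebra.trace V M (ca * z) = LinearMap.trace V M (LinearMap.mulLeft V (ca * z)) :=
      rfl
    rw [h3, hcomp, LinearMap.trace_comp_comm', hcomp2, map_smul, smul_eq_mul]
  rw [h2, pow_two, mul_assoc]
  exact mul_dvd_mul_left s (Dvd.dvd.mul_left h1 c₀)

theorem smul_cancel_of_basis {V M ι : Type*} [CommRing V] [IsDomain V] [AddCommGroup M]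
    [Module V M] (b : Basis ι V M) {a : V} (ha : a ≠ 0) {x y : M} (h : a • x = a • y) :
    x = y := by
  apply b.repr.injective
  ext i
  have h3 := congrArg (fun z => b.repr z i) h
  simp only [map_smul, Finsupp.smul_apply, smul_eq_mul] at h3
  exact mul_left_cancel₀ ha h3

variable {V : Type*} [CommRing V] [IsDomain V] [IsDiscreteValuationRing V]
variable {M ι κ : Type*} [CommRing M] [Algebra V M] [Fintype ι] [DecidableEq ι] [Fintype κ]

/-- one step: `z * z = (s * c₀) • z` forces `s ∣ z` when the discriminant is minimal -/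
theorem dvd_of_sq_eq_step (b : Basis ι V M) {s : V} (hs : Irreducible s) (c : κ → M)
    (hnil : ∀ a, ∃ m : ℕ, algebraMap V M s ∣ c a ^ m)
    (hind : ∀ g : κ → V, algebraMap V M s ∣ ∑ a, g a • c a → ∀ a, s ∣ g a)
    (hd : ¬ s ^ (Fintype.card κ + 1) ∣ Algebra.discr V b) (z : M) (c₀ : V)
    (hz : z * z = (s * c₀) • z) : algebraMap V M s ∣ z := by
  classical
  by_contra hc₁
  obtain ⟨P, ia, hia, hPu, hP⟩ := exists_adapted b hs c hind
  obtain ⟨y₀, hy₀⟩ := exists_adapted_repr b P hPu z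
  obtain ⟨b₂, hb₂⟩ : ∃ b₂ : ι → M, b₂ = P.map (algebraMap V M) *ᵥ b := ⟨_, rfl⟩
  rw [← hb₂] at hy₀
  have hdisc : Algebra.discr V b₂ = P.det ^ 2 * Algebra.discr V b := by
    rw [hb₂]; exact Algebra.discr_of_matrix_mulVec b P
  obtain ⟨G, hG⟩ : ∃ G : Matrix ι ι V, G = Algebra.traceMatrix V b₂ := ⟨_, rfl⟩
  obtain ⟨i₀, hi₀⟩ : ∃ i₀, ¬ s ∣ y₀ i₀ := by
    by_contra hall
    push Not at hall
    choose q hq using hall
    apply hc₁
    refine ⟨∑ i, q i • b₂ i, ?_⟩
    rw [← hy₀, ← Algebra.smul_def, Finset.smul_sum]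
    exact Finset.sum_congr rfl fun i _ => by rw [hq i, mul_smul]
  have hyu : IsUnit (y₀ i₀) := isUnit_of_not_dvd hs hi₀
  have hcol : ∀ l, (G *ᵥ y₀) l = Algebra.trace V M (b₂ l * z) := by
    intro l
    rw [hG, ← hy₀]
    exact traceMatrix_mulVec b₂ y₀ l
  let S : Finset ι := Finset.univ.image ia
  have hb₂ia : ∀ a, b₂ (ia a) = c a := fun a => by
    rw [hb₂]; exact adapted_apply b c P ia hP a
  have hnilM : ∀ a (x : M), s ∣ Algebra.trace V M (c a * x) := by
    intro a x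
    obtain ⟨m, hm⟩ := hnil a
    exact dvd_trace_of_dvd_pow b hs.prime (m := m) (by rw [mul_pow]; exact Dvd.dvd.mul_right hm _)
  have hznil : ∀ x : M, s ∣ Algebra.trace V M (x * z) := by
    intro x
    refine dvd_trace_of_dvd_pow b hs.prime (m := 2) ⟨x ^ 2 * c₀ • z, ?_⟩
    rw [mul_pow, pow_two z, hz, mul_smul, Algebra.smul_def]
    ring
  have h1 : ∀ i ∈ S, ∀ j, s ∣ (G.updateCol i₀ (G *ᵥ y₀)) i j := by
    intro i hi j
    obtain ⟨a, -, rfl⟩ := Finset.mem_image.mp hi
    by_cases hj : j = i₀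
    · subst hj
      rw [Matrix.updateCol_self, hcol, hb₂ia]
      exact hnilM a _
    · rw [Matrix.updateCol_ne hj, hG, Algebra.traceMatrix_apply, Algebra.traceForm_apply, hb₂ia]
      exact hnilM a _
  have h2 : ∀ i ∈ S, s ^ 2 ∣ (G.updateCol i₀ (G *ᵥ y₀)) i i₀ := by
    intro i hi
    obtain ⟨a, -, rfl⟩ := Finset.mem_image.mp hi
    obtain ⟨m, hm⟩ := hnil a
    rw [Matrix.updateCol_self, hcol, hb₂ia]
    exact sq_dvd_trace_mul b hs.prime z (c a) c₀ m hz hm
  have h3 : ∀ i, i ∉ S → s ∣ (G.updateCol i₀ (G *ᵥ y₀)) i i₀ := by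
    intro i _
    rw [Matrix.updateCol_self, hcol]
    exact hznil _
  have hdvd := pow_card_succ_dvd_det (G.updateCol i₀ (G *ᵥ y₀)) hs.ne_zero S i₀ h1 h2 h3
  have hcard : S.card = Fintype.card κ := by
    rw [Finset.card_image_of_injective _ hia, Finset.card_univ]
  have hdetupd : (G.updateCol i₀ (G *ᵥ y₀)).det = G.det * y₀ i₀ := by
    rw [← Matrix.cramer_apply, Matrix.cramer_eq_adjugate_mulVec, Matrix.mulVec_mulVec,
      Matrix.adjugate_mul, Matrix.smul_mulVec, Matrix.one_mulVec]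
    rfl
  rw [hdetupd, hcard] at hdvd
  have h4 : s ^ (Fintype.card κ + 1) ∣ G.det := (hyu.dvd_mul_right).mp hdvd
  have h5 : s ^ (Fintype.card κ + 1) ∣ P.det ^ 2 * Algebra.discr V b := by
    rw [← hdisc, Algebra.discr_def, ← hG]
    exact h4
  exact hd (((hPu.pow 2).dvd_mul_left).mp h5)

/-- family form: `z * z = f • z` with `f ≠ 0` forces `z ∈ f • M` when the discriminant is
minimal -/
theorem exists_eq_smul_of_sq_eq_family (b : Basis ι V M) {s : V} (hs : Irreducible s)
    (c : κ → M) (hnil : ∀ a, ∃ m : ℕ, algebraMap V M s ∣ c a ^ m)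
    (hind : ∀ g : κ → V, algebraMap V M s ∣ ∑ a, g a • c a → ∀ a, s ∣ g a)
    (hd : ¬ s ^ (Fintype.card κ + 1) ∣ Algebra.discr V b) (z : M) (f : V) (hf : f ≠ 0)
    (hz : z * z = f • z) : ∃ w : M, z = f • w := by
  obtain ⟨k, u, hu⟩ := IsDiscreteValuationRing.eq_unit_mul_pow_irreducible hf hs
  have key : ∀ (k : ℕ) (z : M) (u : V), z * z = (u * s ^ k) • z → ∃ w : M, z = s ^ k • w := by
    intro k
    induction k with
    | zero => intro z u _; exact ⟨z, by simp⟩
    | succ k ih =>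
      intro z u hz
      have hz' : z * z = (s * (u * s ^ k)) • z := by
        rw [hz]; congr 1; ring
      obtain ⟨z₁, hz₁⟩ := dvd_of_sq_eq_step b hs c hnil hind hd z (u * s ^ k) hz'
      rw [← Algebra.smul_def] at hz₁
      have h1 : z₁ * z₁ = (u * s ^ k) • z₁ := by
        apply smul_cancel_of_basis b (pow_ne_zero 2 hs.ne_zero)
        calc s ^ 2 • (z₁ * z₁) = (s • z₁) * (s • z₁) := by rw [smul_mul_smul_comm, pow_two]
          _ = (s * (u * s ^ k)) • (s • z₁) := by rw [← hz₁]; exact hz'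
          _ = s ^ 2 • ((u * s ^ k) • z₁) := by
              rw [smul_smul, smul_smul]; congr 1; ring
      obtain ⟨w, hw⟩ := ih z₁ u h1
      exact ⟨w, by rw [hz₁, hw, smul_smul, pow_succ']⟩
  obtain ⟨w, hw⟩ := key k z u (by rw [← hu]; exact hz)
  refine ⟨(↑u⁻¹ : V) • w, ?_⟩
  rw [hw, hu, smul_smul]
  congr 1
  rw [mul_assoc, mul_comm (s ^ k), ← mul_assoc, Units.mul_inv, one_mul]

end MaxDirect

section MaxDirectRed

variable {V : Type*} [CommRing V] [IsDomain V] [IsDiscreteValuationRing V]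
variable {M ι κ B : Type*} [CommRing M] [Algebra V M] [Fintype ι] [DecidableEq ι]
  [Field κ] [CommRing B] [Algebra κ B]

/-- DIRECT MAXIMALITY: over a DVR, if `¬ s ^ (n - redDim + 1) ∣ disc M` then every `z` with
`z * z = f • z`, `f ≠ 0`, lies in `f • M`. -/
theorem exists_eq_smul_of_sq_eq (b : Basis ι V M) {s : V} (hs : Irreducible s) {φ : V →+* κ}
    {ρ : M →+* B} (h : IsRed s φ ρ)
    (hd : ¬ s ^ (Fintype.card ι - redDim κ B + 1) ∣ Algebra.discr V b) (z : M) (f : V)
    (hf : f ≠ 0) (hz : z * z = f • z) : ∃ w : M, z = f • w := by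
  obtain ⟨c, hnil, hind, -⟩ := h.exists_nilBasis b
  refine exists_eq_smul_of_sq_eq_family b hs c hnil hind ?_ z f hf hz
  rwa [Fintype.card_fin]

end MaxDirectRed

section SliceThm

set_option linter.unusedVariables false in
/-- SLICE. `O` a domain with two elements `π, s` such that `O / π` and `O / s` are discrete
valuation rings with uniformisers `s`, resp. `π`; `κ` the fraction field of `O / s`;
`B` a finite free `O`-algebra with discriminant `s ^ a * unit`, tame along `s = 0`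
(`a + redDim (κ ⊗ B) ≤ n`). Then every `z ∈ B` with `z * z ≡ f • z` modulo `π`, `π ∤ f`, is
congruent modulo `π` to an element of `f • B`. -/
theorem slice {O : Type*} [CommRing O] [IsDomain O] (π s : O)
    {Vb : Type*} [CommRing Vb] [IsDomain Vb] [IsDiscreteValuationRing Vb] (φ : O →+* Vb)
    (hφ : Function.Surjective φ) (hφk : ∀ o, φ o = 0 ↔ π ∣ o) (hφs : Irreducible (φ s))
    {A' : Type*} [CommRing A'] [IsDomain A'] [IsDiscreteValuationRing A'] (ψ : O →+* A')
    (hψ : Function.Surjective ψ) (hψk : ∀ o, ψ o = 0 ↔ s ∣ o) (hψπ : Irreducible (ψ π))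
    {κ : Type*} [Field κ] [CharZero κ] [Algebra A' κ] [IsFractionRing A' κ] [Algebra O κ]
    (hκ : ∀ o, algebraMap O κ o = algebraMap A' κ (ψ o))
    {B : Type*} [CommRing B] [Algebra O B] {n : ℕ} (b : Module.Basis (Fin n) O B) (a : ℕ)
    (e : O) (he : IsUnit e) (hd : Algebra.discr O b = s ^ a * e)
    (htame : a + redDim κ (κ ⊗[O] B) ≤ n)
    (z : B) (f : O) (hf : ¬ π ∣ f) (hz : ∃ w : B, z * z - f • z = π • w) :
    ∃ w w' : B, z - f • w = π • w' := by
  classical
  have hmax : (Ideal.span {φ s}).IsMaximal := PrincipalIdealRing.isMaximal_of_irreducible hφs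
  let _ : Field (Vb ⧸ Ideal.span {φ s}) := Ideal.Quotient.field _
  obtain ⟨q, hqdef⟩ : ∃ q : Vb →+* Vb ⧸ Ideal.span {φ s}, q = Ideal.Quotient.mk _ := ⟨_, rfl⟩
  have hq : Function.Surjective q := by rw [hqdef]; exact Ideal.Quotient.mk_surjective
  have hqk : ∀ v, q v = 0 ↔ φ s ∣ v := fun v => by
    rw [hqdef, Ideal.Quotient.eq_zero_iff_mem, Ideal.mem_span_singleton]
  -- the four base changes
  obtain ⟨M, _, _, ρM, bM, hM⟩ := exists_baseChange b φ
  obtain ⟨V0, _, _, ρV, bV, hV⟩ := exists_baseChange b ψ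
  obtain ⟨B₀, _, _, ρ₀, b₀, h₀⟩ := exists_baseChange b (q.comp φ)
  have hK : IsBC (algebraMap O κ)
      (Algebra.TensorProduct.includeRight : B →ₐ[O] κ ⊗[O] B).toRingHom b
      (Algebra.TensorProduct.basis κ b) := isBC_tensor b
  -- reduction of `M` modulo `φ s`
  obtain ⟨σ₁, hσ₁, -⟩ := hM.exists_lift hφ h₀ q (fun _ => rfl)
  have hRed₁ : IsRed (φ s) q σ₁ := hσ₁.isRed hq hqk
  -- reduction of `V0` modulo `ψ π`
  have hkerψ : RingHom.ker ψ ≤ RingHom.ker (q.comp φ) := by
    intro o ho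
    rw [RingHom.mem_ker] at ho ⊢
    obtain ⟨o', rfl⟩ := (hψk o).mp ho
    rw [RingHom.comp_apply, map_mul, map_mul, (hqk (φ s)).mpr dvd_rfl, zero_mul]
  obtain ⟨h₂, hh₂def⟩ : ∃ h₂ : A' →+* Vb ⧸ Ideal.span {φ s},
      h₂ = ψ.liftOfSurjective hψ ⟨q.comp φ, hkerψ⟩ := ⟨_, rfl⟩
  have hh₂ : ∀ o, h₂ (ψ o) = (q.comp φ) o := fun o => by
    rw [hh₂def]; exact ψ.liftOfSurjective_comp_apply hψ ⟨q.comp φ, hkerψ⟩ o
  obtain ⟨σ₂, hσ₂, -⟩ := hV.exists_lift hψ h₀ h₂ hh₂
  have hh₂surj : Function.Surjective h₂ := by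
    intro y
    obtain ⟨v, rfl⟩ := hq y
    obtain ⟨o, rfl⟩ := hφ v
    exact ⟨ψ o, hh₂ o⟩
  have hh₂k : ∀ a', h₂ a' = 0 ↔ ψ π ∣ a' := by
    intro a'
    obtain ⟨o, rfl⟩ := hψ a'
    rw [hh₂, RingHom.comp_apply, hqk]
    constructor
    · rintro ⟨v, hv⟩
      obtain ⟨o', rfl⟩ := hφ v
      have h1 : φ (o - s * o') = 0 := by rw [map_sub, map_mul, hv, sub_self]
      obtain ⟨o'', ho''⟩ := (hφk _).mp h1
      refine ⟨ψ o'', ?_⟩
      have h2 : o = s * o' + π * o'' := by rw [← ho'']; ring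
      rw [h2, map_add, map_mul, map_mul, (hψk s).mpr dvd_rfl, zero_mul, zero_add]
    · rintro ⟨v, hv⟩
      obtain ⟨o', rfl⟩ := hψ v
      have h1 : ψ (o - π * o') = 0 := by rw [map_sub, map_mul, hv, sub_self]
      obtain ⟨o'', ho''⟩ := (hψk _).mp h1
      refine ⟨φ o'', ?_⟩
      have h2 : o = π * o' + s * o'' := by rw [← ho'']; ring
      rw [h2, map_add, map_mul, map_mul, (hφk π).mpr dvd_rfl, zero_mul, zero_add]
  have hRed₂ : IsRed (ψ π) h₂ σ₂ := hσ₂.isRed hh₂surj hh₂k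
  -- generic fibre
  obtain ⟨γ, hγ, -⟩ := hV.exists_lift hψ hK (algebraMap A' κ) (fun o => (hκ o).symm)
  have hγinj : Function.Injective γ := hγ.injective (IsFractionRing.injective A' κ)
  have hfinK : Module.Finite κ (κ ⊗[O] B) :=
    Module.Finite.of_basis (Algebra.TensorProduct.basis κ b)
  have hiv : redDim (Vb ⧸ Ideal.span {φ s}) B₀ ≤ redDim κ (κ ⊗[O] B) :=
    redDim_le_redDim_generic bV hRed₂ γ hγinj hγ.compat
  -- discriminant of `M`
  have hdM : Algebra.discr Vb bM = φ s ^ a * φ e := by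
    rw [hM.discr, hd, map_mul, map_pow]
  have hnd : ¬ φ s ^ (Fintype.card (Fin n) - redDim (Vb ⧸ Ideal.span {φ s}) B₀ + 1) ∣
      Algebra.discr Vb bM := by
    rw [hdM, Fintype.card_fin]
    intro hdiv
    have hue : IsUnit (φ e) := he.map φ
    have h1 : φ s ^ (n - redDim (Vb ⧸ Ideal.span {φ s}) B₀ + 1) ∣ φ s ^ a :=
      (hue.dvd_mul_right).mp hdiv
    have h2 := (pow_dvd_pow_iff hφs.ne_zero hφs.not_isUnit).mp h1
    omega
  -- apply the direct maximality lemma
  obtain ⟨w₀, hw₀⟩ := hz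
  have hfφ : φ f ≠ 0 := fun h0 => hf ((hφk f).mp h0)
  have hzM : ρM z * ρM z = φ f • ρM z := by
    have h1 : ρM (z * z - f • z) = 0 := by
      rw [hw₀, hM.compat, (hφk π).mpr dvd_rfl, zero_smul]
    rw [map_sub, map_mul, hM.compat, sub_eq_zero] at h1
    exact h1
  obtain ⟨wM, hwM⟩ := exists_eq_smul_of_sq_eq bM hφs hRed₁ hnd (ρM z) (φ f) hfφ hzM
  obtain ⟨w, rfl⟩ := hM.surjective hφ wM
  have h0 : ρM (z - f • w) = 0 := by rw [map_sub, hM.compat, hwM, sub_self]
  obtain ⟨w', hw'⟩ := (hM.rho_eq_zero_iff_dvd hφk _).mp h0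
  exact ⟨w, w', by rw [hw', Algebra.smul_def]⟩

end SliceThm

end Fermat.Agent.RedLib.Slice
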