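import Mathlib
import Fermat.Agent.RedLib.Bridge
import Fermat.Agent.RedLib.DiscTame

/-!
# S18 (reduction of `J₀(N)`): TAME-O — exact tame discriminant at a prime element

`O` a noetherian integrally closed domain, `s ∈ O` a prime element with residue field `κ` of
characteristic zero, `Kt = Frac O`, `E / Kt` finite separable, and the integral closure `C` of `O`
in `E` free over `O` with basis `b`.  Then `disc(b) = s ^ (n - redDim κ (κ ⊗[O] C)) * e` with
`e` prime to `s`.
-/

set_option autoImplicit false
set_option linter.unusedSectionVars false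
set_option linter.style.haveILetI false

noncomputable section

namespace Fermat.Agent.RedLib.TameO

open Fermat.Agent.RedLib TensorProduct

section Bases

variable {O Kt E : Type*} [CommRing O] [IsDomain O] [Field Kt] [Algebra O Kt]
  [IsFractionRing O Kt] [Field E] [Algebra Kt E] [Algebra O E] [IsScalarTower O Kt E]
  [FiniteDimensional Kt E]

/-- an `O`-basis of the integral closure is a `Kt`-basis of `E` -/
theorem exists_basis_field {ι : Type*} [Fintype ι] (b : Module.Basis ι O (integralClosure O E)) :
    ∃ bK : Module.Basis ι Kt E, (∀ i, bK i = (b i : E)) ∧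
      ∀ (z : integralClosure O E) (i : ι), bK.repr (z : E) i = algebraMap O Kt (b.repr z i) := by
  haveI : IsLocalization (Algebra.algebraMapSubmonoid (integralClosure O E) (nonZeroDivisors O))
      E := IsIntegralClosure.isLocalization O Kt E (integralClosure O E)
  refine ⟨b.localizationLocalization Kt (nonZeroDivisors O) E, fun i => ?_, fun z i => ?_⟩
  · rw [Module.Basis.localizationLocalization_apply]
    rfl
  · exact Module.Basis.localizationLocalization_repr_algebraMap Kt (nonZeroDivisors O) E b z i

/-- the `O`-span of the basis of the integral closure, inside `E` -/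
theorem span_eq_integralClosure {ι : Type*} [Fintype ι]
    (b : Module.Basis ι O (integralClosure O E)) (bK : Module.Basis ι Kt E)
    (hbK : ∀ i, bK i = (b i : E)) :
    Submodule.span O (Set.range bK) = Subalgebra.toSubmodule (integralClosure O E) := by
  apply le_antisymm
  · rw [Submodule.span_le]
    rintro _ ⟨i, rfl⟩
    rw [hbK i]
    exact (b i).2
  · intro z hz
    have h1 : z = ∑ i, b.repr ⟨z, hz⟩ i • bK i := by
      have h2 := congrArg (Subtype.val : integralClosure O E → E) (b.sum_repr ⟨z, hz⟩)
      have h3 : z = ((∑ i, b.repr ⟨z, hz⟩ i • b i : integralClosure O E) : E) := h2.symm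
      refine h3.trans ?_
      rw [AddSubmonoidClass.coe_finsetSum]
      refine Finset.sum_congr rfl fun i _ => ?_
      rw [hbK i]
      rfl
    rw [h1]
    exact Submodule.sum_mem _ fun i _ =>
      Submodule.smul_mem _ _ (Submodule.subset_span ⟨i, rfl⟩)

end Bases

section Core

variable {O : Type*} (Kt : Type*) {E : Type*} [CommRing O] [IsDomain O] [Field Kt] [Algebra O Kt]
  [IsFractionRing O Kt] [Field E] [Algebra Kt E] [Algebra O E] [IsScalarTower O Kt E]
  [FiniteDimensional Kt E] [Algebra.IsSeparable Kt E] {s : O} [hP : (Ideal.span {s}).IsPrime]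
  (V : Type*) [CommRing V] [IsDomain V] [IsDiscreteValuationRing V] [Algebra O V]
  [IsLocalization.AtPrime V (Ideal.span {s})]
  [Algebra V Kt] [IsScalarTower O V Kt] [IsFractionRing V Kt] [Algebra V E]
  [IsScalarTower V Kt E] [IsScalarTower O V E]
  {κ : Type*} [Field κ] [Algebra O κ]

/-- reduction of scalars `V → κ` -/
def phi (hκk : ∀ o, algebraMap O κ o = 0 ↔ s ∣ o) : V →+* κ :=
  IsLocalization.lift (M := (Ideal.span {s}).primeCompl) (g := algebraMap O κ) (fun y => by
    have : algebraMap O κ (y : O) ≠ 0 := fun h =>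
      (Bridge.mem_primeCompl_iff (y : O)).mp y.2 ((hκk _).mp h)
    exact this.isUnit)

theorem phi_algebraMap (hκk : ∀ o, algebraMap O κ o = 0 ↔ s ∣ o) (o : O) :
    phi V hκk (algebraMap O V o) = algebraMap O κ o :=
  IsLocalization.lift_eq _ o

theorem phi_surjective (hκk : ∀ o, algebraMap O κ o = 0 ↔ s ∣ o)
    (hκf : ∀ y : κ, ∃ o1 o2 : O, algebraMap O κ o2 ≠ 0 ∧
      y * algebraMap O κ o2 = algebraMap O κ o1) : Function.Surjective (phi V hκk) := by
  intro y
  obtain ⟨o1, o2, h2, h12⟩ := hκf y
  have hs2 : ¬ s ∣ o2 := fun h => h2 ((hκk _).mpr h)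
  obtain ⟨w, hw⟩ := (Bridge.isUnit_algebraMap V hs2).exists_right_inv
  refine ⟨algebraMap O V o1 * w, ?_⟩
  have h3 : algebraMap O κ o2 * phi V hκk w = 1 := by
    rw [← phi_algebraMap V hκk, ← map_mul, hw, map_one]
  rw [map_mul, phi_algebraMap, ← h12, mul_assoc, h3, mul_one]

theorem phi_eq_zero_iff (hκk : ∀ o, algebraMap O κ o = 0 ↔ s ∣ o) (v : V) :
    phi V hκk v = 0 ↔ algebraMap O V s ∣ v := by
  constructor
  · intro h0
    obtain ⟨a, u, hu, hau⟩ := Bridge.exists_mul_eq (q := s) V v
    have h1 : algebraMap O κ a = 0 := by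
      rw [← phi_algebraMap V hκk, ← hau, map_mul, h0, zero_mul]
    have h2 : algebraMap O V s ∣ v * algebraMap O V u := hau ▸ map_dvd _ ((hκk _).mp h1)
    exact (Bridge.isUnit_algebraMap V hu).dvd_mul_right.mp h2
  · rintro ⟨v', rfl⟩
    rw [map_mul, phi_algebraMap, (hκk s).mpr dvd_rfl, zero_mul]

/-- the inclusion of the integral closure of `O` into the integral closure of `V` -/
def incl : integralClosure O E →+* integralClosure V E :=
  (algebraMap (integralClosure O E) E).codRestrict (integralClosure V E)
    (fun c => (c.2 : IsIntegral O (c : E)).tower_top)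

/-- the reduction map `W → κ ⊗[O] C` -/
theorem exists_rho (hinjE : Function.Injective (algebraMap O E))
    (hκk : ∀ o, algebraMap O κ o = 0 ↔ s ∣ o) :
    ∃ ρ : integralClosure V E →+* κ ⊗[O] integralClosure O E,
      (∀ (c : integralClosure O E) (hc : IsIntegral V (c : E)),
        ρ ⟨(c : E), hc⟩ = (1 : κ) ⊗ₜ[O] c) ∧
      ∀ (v : V) (w : integralClosure V E), ρ (v • w) = phi V hκk v • ρ w := by
  classical
  letI : Algebra (integralClosure O E) (integralClosure V E) := (incl V).toAlgebra
  haveI : IsScalarTower (integralClosure O E) (integralClosure V E) E :=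
    IsScalarTower.of_algebraMap_eq fun _ => rfl
  haveI : IsScalarTower O (integralClosure O E) (integralClosure V E) :=
    IsScalarTower.of_algebraMap_eq fun o => Subtype.ext rfl
  haveI : IsLocalization (Algebra.algebraMapSubmonoid E (Ideal.span {s}).primeCompl) E := by
    apply IsLocalization.of_le_isUnit
    rintro _ ⟨m, hm, rfl⟩
    have hm0 : m ≠ 0 := fun h0 => hm (h0 ▸ Ideal.zero_mem _)
    exact ((map_ne_zero_iff _ hinjE).mpr hm0).isUnit
  haveI hloc : IsLocalization
      (Algebra.algebraMapSubmonoid (integralClosure O E) (Ideal.span {s}).primeCompl)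
      (integralClosure V E) := IsLocalization.integralClosure (Ideal.span {s}).primeCompl
  set incR : integralClosure O E →+* κ ⊗[O] integralClosure O E :=
    (Algebra.TensorProduct.includeRight :
      integralClosure O E →ₐ[O] κ ⊗[O] integralClosure O E).toRingHom with hincR
  have hincR_alg : ∀ o : O, incR (algebraMap O (integralClosure O E) o) =
      algebraMap κ (κ ⊗[O] integralClosure O E) (algebraMap O κ o) := by
    intro o
    rw [← IsScalarTower.algebraMap_apply O κ]
    exact (Algebra.TensorProduct.includeRight :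
      integralClosure O E →ₐ[O] κ ⊗[O] integralClosure O E).commutes o
  have hunits : ∀ y : Algebra.algebraMapSubmonoid (integralClosure O E)
      (Ideal.span {s}).primeCompl, IsUnit (incR (y : integralClosure O E)) := by
    rintro ⟨_, m, hm, rfl⟩
    rw [hincR_alg]
    have : algebraMap O κ m ≠ 0 := fun h =>
      (Bridge.mem_primeCompl_iff m).mp hm ((hκk _).mp h)
    exact this.isUnit.map _
  refine ⟨IsLocalization.lift hunits, fun c hc => ?_, fun v w => ?_⟩
  · have h1 : (⟨(c : E), hc⟩ : integralClosure V E) =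
        algebraMap (integralClosure O E) (integralClosure V E) c := rfl
    rw [h1, IsLocalization.lift_eq]
    rfl
  · have hext : (IsLocalization.lift hunits).comp (algebraMap V (integralClosure V E)) =
        (algebraMap κ (κ ⊗[O] integralClosure O E)).comp (phi V hκk) := by
      apply IsLocalization.ringHom_ext (Ideal.span {s}).primeCompl
      ext o
      simp only [RingHom.comp_apply]
      rw [phi_algebraMap, ← IsScalarTower.algebraMap_apply O V (integralClosure V E),
        IsScalarTower.algebraMap_apply O (integralClosure O E) (integralClosure V E),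
        IsLocalization.lift_eq, hincR_alg]
    have h5 : phi V hκk v • (IsLocalization.lift hunits) w =
        algebraMap κ (κ ⊗[O] integralClosure O E) (phi V hκk v) *
          (IsLocalization.lift hunits) w :=
      @Algebra.smul_def κ (κ ⊗[O] integralClosure O E) _ _ _ (phi V hκk v) _
    rw [Algebra.smul_def, map_mul, h5]
    congr 1
    exact RingHom.congr_fun hext v

/-- `ρ` exhibits `κ ⊗[O] C` as the reduction of `W` modulo `s`. -/
theorem isRed (hκk : ∀ o, algebraMap O κ o = 0 ↔ s ∣ o)
    (hκf : ∀ y : κ, ∃ o1 o2 : O, algebraMap O κ o2 ≠ 0 ∧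
      y * algebraMap O κ o2 = algebraMap O κ o1)
    {ι : Type*} [Fintype ι] (b : Module.Basis ι O (integralClosure O E))
    (bV : Module.Basis ι V (integralClosure V E)) (hbV : ∀ i, (bV i : E) = (b i : E))
    (ρ : integralClosure V E →+* κ ⊗[O] integralClosure O E)
    (hρ1 : ∀ (c : integralClosure O E) (hc : IsIntegral V (c : E)),
      ρ ⟨(c : E), hc⟩ = (1 : κ) ⊗ₜ[O] c)
    (hρ2 : ∀ (v : V) (w : integralClosure V E), ρ (v • w) = phi V hκk v • ρ w) :
    DiscLA.IsRed (algebraMap O V s) (phi V hκk) ρ := by
  classical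
  refine ⟨phi_surjective V hκk hκf, phi_eq_zero_iff V hκk, ?_, ?_, hρ2⟩
  · intro x
    induction x using TensorProduct.induction_on with
    | zero => exact ⟨0, map_zero _⟩
    | tmul y c =>
      obtain ⟨v, rfl⟩ := phi_surjective V hκk hκf y
      refine ⟨v • ⟨(c : E), (c.2 : IsIntegral O (c : E)).tower_top⟩, ?_⟩
      rw [hρ2, hρ1, TensorProduct.smul_tmul', smul_eq_mul, mul_one]
    | add x y hx hy =>
      obtain ⟨a, rfl⟩ := hx
      obtain ⟨a', rfl⟩ := hy
      exact ⟨a + a', map_add _ _ _⟩
  · intro w
    constructor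
    · intro h0
      have hw : w = ∑ i, bV.repr w i • bV i := (bV.sum_repr w).symm
      have h1 : ρ w = ∑ i, phi V hκk (bV.repr w i) • (Algebra.TensorProduct.basis κ b) i := by
        conv_lhs => rw [hw]
        rw [map_sum]
        refine Finset.sum_congr rfl fun i _ => ?_
        rw [hρ2, Algebra.TensorProduct.basis_apply]
        congr 1
        have h2 : bV i = ⟨(b i : E), ((b i).2 : IsIntegral O (b i : E)).tower_top⟩ :=
          Subtype.ext (hbV i)
        rw [h2, hρ1]
      rw [h1] at h0
      have h2 := Fintype.linearIndependent_iff.mp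
        (Algebra.TensorProduct.basis κ b).linearIndependent _ h0
      have h3 : ∀ i, algebraMap O V s ∣ bV.repr w i := fun i =>
        (phi_eq_zero_iff V hκk _).mp (h2 i)
      choose c hc using h3
      refine ⟨∑ i, c i • bV i, ?_⟩
      rw [Finset.mul_sum]
      conv_lhs => rw [hw]
      refine Finset.sum_congr rfl fun i _ => ?_
      rw [hc i, mul_smul, Algebra.smul_def (algebraMap O V s)]
    · rintro ⟨w', rfl⟩
      rw [← Algebra.smul_def, hρ2, (phi_eq_zero_iff V hκk _).mpr dvd_rfl, zero_smul]

include hP Kt V in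
/-- TAME-O over the localisation. -/
theorem tame_exponent_core (hs : Prime s) [CharZero κ]
    (hκk : ∀ o, algebraMap O κ o = 0 ↔ s ∣ o)
    (hκf : ∀ y : κ, ∃ o1 o2 : O, algebraMap O κ o2 ≠ 0 ∧
      y * algebraMap O κ o2 = algebraMap O κ o1)
    {n : ℕ} (b : Module.Basis (Fin n) O (integralClosure O E)) :
    ∃ e : O, ¬ s ∣ e ∧ Algebra.discr O b =
      s ^ (n - DiscLA.redDim κ (κ ⊗[O] integralClosure O E)) * e := by
  classical
  obtain ⟨bK, hbK, hbKr⟩ := exists_basis_field (Kt := Kt) b
  have hspanO := span_eq_integralClosure (Kt := Kt) b bK hbK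
  have hspanV : Submodule.span V (Set.range bK) =
      Subalgebra.toSubmodule (integralClosure V E) :=
    Bridge.span_eq_integralClosure V bK (fun i => by rw [hbK i]; exact (b i).2) 1
      (fun h => hs.not_isUnit (isUnit_of_dvd_one h))
      (fun z hz i => ⟨b.repr ⟨z, hz⟩ i, by rw [map_one, one_mul]; exact hbKr ⟨z, hz⟩ i⟩)
  obtain ⟨bO, hbO, -, -, hdiscO⟩ := SelfDual.exists_basis_discr_eq
    (IsFractionRing.injective O Kt) bK (integralClosure O E) hspanO
  obtain ⟨bV, hbV, -, -, hdiscV⟩ := SelfDual.exists_basis_discr_eq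
    (IsFractionRing.injective V Kt) bK (integralClosure V E) hspanV
  have hbOb : (⇑bO : Fin n → integralClosure O E) = ⇑b :=
    funext fun i => Subtype.ext ((hbO i).trans (hbK i))
  rw [hbOb] at hdiscO
  have hdisc : algebraMap O V (Algebra.discr O b) = Algebra.discr V bV := by
    apply IsFractionRing.injective V Kt
    rw [← IsScalarTower.algebraMap_apply O V Kt, ← hdiscO, hdiscV]
  have hinjE : Function.Injective (algebraMap O E) := by
    rw [IsScalarTower.algebraMap_eq O Kt E]
    exact (algebraMap Kt E).injective.comp (IsFractionRing.injective O Kt)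
  obtain ⟨ρ, hρ1, hρ2⟩ := exists_rho V (κ := κ) (E := E) hinjE hκk
  have hred := isRed V hκk hκf b bV (fun i => (hbV i).trans (hbK i)) ρ hρ1 hρ2
  haveI : IsPrincipalIdealRing (integralClosure V E) :=
    UnramRed.isPrincipalIdealRing_integralClosure Kt
  have hirr : Irreducible (algebraMap O V s) := Bridge.irreducible_algebraMap (R := O) (q := s) V
  obtain ⟨u, hu⟩ := DiscTame.exact_tame bV hirr hred
  rw [Fintype.card_fin, ← hdisc] at hu
  obtain ⟨a, ha⟩ : ∃ a : ℕ, a = n - DiscLA.redDim κ (κ ⊗[O] integralClosure O E) := ⟨_, rfl⟩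
  rw [← ha] at hu ⊢
  obtain ⟨x, y, hy, hxy⟩ := Bridge.exists_mul_eq (q := s) V (u : V)
  have hx : ¬ s ∣ x := by
    intro hsx
    have h1 : algebraMap O V s ∣ (u : V) * algebraMap O V y := hxy ▸ map_dvd _ hsx
    rw [(Bridge.isUnit_algebraMap V hy).dvd_mul_right] at h1
    exact hirr.not_isUnit (isUnit_of_dvd_unit h1 u.isUnit)
  have h2 : Algebra.discr O b * y = x * s ^ a := by
    apply Bridge.algebraMap_injective (q := s) V
    rw [map_mul, map_mul, map_pow, hu, ← hxy]
    ring
  have h3 : s ^ a ∣ Algebra.discr O b :=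
    hs.pow_dvd_of_dvd_mul_right a hy ⟨x, by rw [h2]; ring⟩
  obtain ⟨e, he⟩ := h3
  refine ⟨e, ?_, he⟩
  intro hse
  apply hx
  have h4 : s ^ a * (e * y) = s ^ a * x := by
    rw [← mul_assoc, ← he, h2]
    ring
  have h5 : e * y = x := mul_left_cancel₀ (pow_ne_zero _ hs.ne_zero) h4
  rw [← h5]
  exact Dvd.dvd.mul_right hse y

end Core

/-- **TAME-O**: exact tame discriminant of a free integral closure at a prime element with
residue characteristic zero. -/
theorem tame_exponent {O Kt E : Type*} [CommRing O] [IsDomain O] [IsNoetherianRing O]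
    [IsIntegrallyClosed O] [Field Kt] [Algebra O Kt] [IsFractionRing O Kt] [Field E]
    [Algebra Kt E] [Algebra O E] [IsScalarTower O Kt E] [FiniteDimensional Kt E]
    [Algebra.IsSeparable Kt E] (s : O) (hs : Prime s) {κ : Type*} [Field κ] [CharZero κ]
    [Algebra O κ] (hκk : ∀ o, algebraMap O κ o = 0 ↔ s ∣ o)
    (hκf : ∀ y : κ, ∃ o1 o2 : O, algebraMap O κ o2 ≠ 0 ∧
      y * algebraMap O κ o2 = algebraMap O κ o1)
    {n : ℕ} (b : Module.Basis (Fin n) O (integralClosure O E)) :
    ∃ e : O, ¬ s ∣ e ∧ Algebra.discr O b =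
      s ^ (n - DiscLA.redDim κ (κ ⊗[O] (integralClosure O E))) * e := by
  haveI hP : (Ideal.span {s}).IsPrime := (Ideal.span_singleton_prime hs.ne_zero).mpr hs
  have hunitK : ∀ y : (Ideal.span {s}).primeCompl, IsUnit (algebraMap O Kt (y : O)) := by
    intro y
    have hy : (y : O) ≠ 0 := by
      intro h0
      exact y.2 (h0 ▸ Ideal.zero_mem _)
    exact ((map_ne_zero_iff _ (IsFractionRing.injective O Kt)).mpr hy).isUnit
  letI V := Localization.AtPrime (Ideal.span {s})
  letI : Algebra V Kt := (IsLocalization.lift hunitK).toAlgebra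
  haveI : IsScalarTower O V Kt :=
    IsScalarTower.of_algebraMap_eq fun r => (IsLocalization.lift_eq hunitK r).symm
  letI : Algebra V E := ((algebraMap Kt E).comp (algebraMap V Kt)).toAlgebra
  haveI : IsScalarTower V Kt E := IsScalarTower.of_algebraMap_eq fun _ => rfl
  haveI : IsScalarTower O V E := IsScalarTower.of_algebraMap_eq fun r => by
    rw [IsScalarTower.algebraMap_apply O Kt E, IsScalarTower.algebraMap_apply O V Kt]
    rfl
  haveI : IsDomain V := Bridge.isDomain_loc (R := O) (q := s) V
  haveI : IsFractionRing V Kt :=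
    IsFractionRing.isFractionRing_of_isDomain_of_isLocalization (Ideal.span {s}).primeCompl V Kt
  haveI : IsDiscreteValuationRing V := Bridge.isDVR_loc (R := O) (q := s) V hs
  exact tame_exponent_core Kt V hs hκk hκf b

end Fermat.Agent.RedLib.TameO
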