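/-
S18 long shot, CHART piece (B) (helper4): the local statement at a cusp `(π, X - a)`, `a ∈ S`.
For an idempotent-mod-`π` element `y` of the Gauss lattice there is `u ∈ A0[X]` with `u(a)` a
unit such that `u(x) y ∈ chart + π Lam`.  Assembly of the local basis (`LocBasis`), the exact tame
discriminant (`TameO`), the factorisation of the discriminant (`DiscPrime`) and `Slice.slice`
over the local ring `O` of `A0[X]` at `(π, X - a)`.
-/
import Mathlib
import Fermat.Agent.RedLib.AGDefs
import Fermat.Agent.RedLib.S2Lemma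
import Fermat.Agent.RedLib.FCLine
import Fermat.Agent.RedLib.LocBasis
import Fermat.Agent.RedLib.PolyLocal
import Fermat.Agent.RedLib.DiscPrime
import Fermat.Agent.RedLib.TameO
import Fermat.Agent.RedLib.Slice

set_option autoImplicit false
set_option linter.style.haveILetI false

namespace Fermat.Agent.RedLib.ChartCusp

open Polynomial TensorProduct
open Fermat.Agent.RedLib

/-- the reduced dimension of a base change of a free algebra of rank `n` is at most `n`. -/
theorem redDim_le {O κ B : Type*} [CommRing O] [Field κ] [Algebra O κ] [CommRing B] [Algebra O B]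
    {n : ℕ} (b : Module.Basis (Fin n) O B) : DiscLA.redDim κ (κ ⊗[O] B) ≤ n := by
  have h1 : Module.finrank κ (κ ⊗[O] B) = n := by
    rw [Module.finrank_eq_card_basis (Algebra.TensorProduct.basis κ b), Fintype.card_fin]
  have : Module.Finite κ (κ ⊗[O] B) := Module.Finite.of_basis (Algebra.TensorProduct.basis κ b)
  have h2 := LinearMap.finrank_le_finrank_of_surjective
    (f := (Ideal.Quotient.mkₐ κ (nilradical (κ ⊗[O] B))).toLinearMap)
    (Ideal.Quotient.mkₐ_surjective κ _)
  rw [h1] at h2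
  exact h2

/-- uniqueness of the exponent in `unit * s ^ m`. -/
theorem pow_unique {O : Type*} [CommRing O] [IsDomain O] {s : O} (hs : Prime s) {m k : ℕ}
    {e e' : O} (he : IsUnit e) (he' : ¬ s ∣ e') (h : s ^ m * e = s ^ k * e') :
    m = k ∧ IsUnit e' := by
  have hs0 : s ≠ 0 := hs.ne_zero
  have hmk : m = k := by
    rcases lt_trichotomy m k with hlt | heq | hgt
    · exfalso
      obtain ⟨j, rfl⟩ := Nat.exists_eq_add_of_lt hlt
      have h1 : s ^ m * e = s ^ m * (s ^ (j + 1) * e') := by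
        rw [h]
        ring
      have h2 := mul_left_cancel₀ (pow_ne_zero m hs0) h1
      have h3 : s ∣ e := ⟨s ^ j * e', by rw [h2]; ring⟩
      exact hs.not_isUnit (isUnit_of_dvd_unit h3 he)
    · exact heq
    · exfalso
      obtain ⟨j, rfl⟩ := Nat.exists_eq_add_of_lt hgt
      have h1 : s ^ k * (s ^ (j + 1) * e) = s ^ k * e' := by
        rw [← h]
        ring
      have h2 := mul_left_cancel₀ (pow_ne_zero k hs0) h1
      exact he' ⟨s ^ j * e, by rw [← h2]; ring⟩
  refine ⟨hmk, ?_⟩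
  subst hmk
  rw [← mul_left_cancel₀ (pow_ne_zero m hs0) h]
  exact he


/-- The cusp-local statement for an abstract model `O` of the local ring of `A0[X]` at
`(π, X - a)` inside `Kt`, in the language of `R = A0[X]`-algebras. -/
theorem cusp_core {A0 K Kt FF O : Type*} [CommRing A0] [IsDomain A0] [IsDiscreteValuationRing A0]
    [Field K] [CharZero K] [Algebra A0 K] [IsFractionRing A0 K]
    [Field Kt] [Field FF] [Algebra Kt FF] [FiniteDimensional Kt FF] [Algebra.IsSeparable Kt FF]
    [Algebra A0[X] Kt] [Algebra A0[X] FF] [IsScalarTower A0[X] Kt FF]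
    [CommRing O] [Algebra A0[X] O] {π : A0} (hπ : Irreducible π) (a : A0)
    [hn : (PolyLocal.nId π a).IsPrime] [IsLocalization.AtPrime O (PolyLocal.nId π a)]
    [Algebra O Kt] [IsFractionRing O Kt] [IsScalarTower A0[X] O Kt] [Algebra O FF]
    [IsScalarTower O Kt FF] [IsScalarTower A0[X] O FF]
    {n : ℕ} (b : Module.Basis (Fin n) Kt FF) (hb : ∀ i, IsIntegral A0[X] (b i))
    (r : A0[X]) (hr : r ∉ PolyLocal.nId π a)
    (hbr : ∀ z : FF, IsIntegral A0[X] z → ∀ i, ∃ c : A0[X],
      algebraMap A0[X] Kt r * b.repr z i = algebraMap A0[X] Kt c)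
    (d : A0[X]) (hd : algebraMap A0[X] Kt d = Algebra.discr Kt b)
    (hde : ∃ (m : ℕ) (e : O), IsUnit e ∧
      algebraMap A0[X] O d = algebraMap A0[X] O (X - C a) ^ m * e)
    (y : FF) (g : A0[X]) (hg : ¬ C π ∣ g) (hgy : IsIntegral A0[X] (algebraMap A0[X] FF g * y))
    (l : FF) (g' : A0[X]) (hg' : ¬ C π ∣ g')
    (hg'l : IsIntegral A0[X] (algebraMap A0[X] FF g' * l))
    (hyl : y * y - y = algebraMap A0[X] FF (C π) * l) :
    ∃ u : A0[X], u ∉ PolyLocal.nId π a ∧ ∃ (c w : FF) (v : A0[X]), IsIntegral A0[X] c ∧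
      ¬ C π ∣ v ∧ IsIntegral A0[X] (algebraMap A0[X] FF v * w) ∧
      c - algebraMap A0[X] FF u * y = algebraMap A0[X] FF (C π) * w := by
  classical
  haveI := PolyLocal.isDomain_O hπ a O
  haveI := PolyLocal.isNoetherianRing_O hπ a O
  haveI := PolyLocal.isIntegrallyClosed_O hπ a O
  have hinjOK : Function.Injective (algebraMap O Kt) := IsFractionRing.injective O Kt
  have hinjOF : Function.Injective (algebraMap O FF) := by
    rw [IsScalarTower.algebraMap_eq O Kt FF]
    exact (algebraMap Kt FF).injective.comp hinjOK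
  have hinjRO : Function.Injective (algebraMap A0[X] O) := PolyLocal.algebraMap_injective hπ a O
  have hinjRF : Function.Injective (algebraMap A0[X] FF) := by
    rw [IsScalarTower.algebraMap_eq A0[X] O FF]
    exact hinjOF.comp hinjRO
  have hRO : ∀ p : A0[X], algebraMap O FF (algebraMap A0[X] O p) = algebraMap A0[X] FF p :=
    fun p => (IsScalarTower.algebraMap_apply A0[X] O FF p).symm
  -- local basis
  obtain ⟨bO, hbO, -, hdiscr⟩ := LocBasis.exists_local_basis (PolyLocal.nId π a).primeCompl O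
    hinjOK b hb r hr hbr
  have hdO : Algebra.discr O bO = algebraMap A0[X] O d := by
    apply hinjOK
    rw [← hdiscr, ← hd, IsScalarTower.algebraMap_apply A0[X] O Kt]
  -- the data at the cusp
  have hs : Prime (algebraMap A0[X] O (X - C a)) := PolyLocal.prime_s hπ a O
  have hπO : Prime (algebraMap A0[X] O (C π)) := PolyLocal.prime_pi hπ a O
  letI algOK : Algebra O K := ((algebraMap A0 K).comp (PolyLocal.psi hπ a O)).toAlgebra
  have hκ : ∀ o : O, algebraMap O K o = algebraMap A0 K (PolyLocal.psi hπ a O o) := fun _ => rfl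
  have hκk : ∀ o : O, algebraMap O K o = 0 ↔ algebraMap A0[X] O (X - C a) ∣ o := by
    intro o
    rw [hκ, map_eq_zero_iff _ (IsFractionRing.injective A0 K), PolyLocal.psi_eq_zero_iff]
  have hκf : ∀ k : K, ∃ o1 o2 : O, algebraMap O K o2 ≠ 0 ∧
      k * algebraMap O K o2 = algebraMap O K o1 := by
    intro k
    obtain ⟨c₁, c₂, hc₂, rfl⟩ := IsFractionRing.div_surjective (A := A0) k
    have hc₂' : algebraMap A0 K c₂ ≠ 0 := by
      rw [Ne, map_eq_zero_iff _ (IsFractionRing.injective A0 K)]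
      exact nonZeroDivisors.ne_zero hc₂
    refine ⟨algebraMap A0[X] O (C c₁), algebraMap A0[X] O (C c₂), ?_, ?_⟩
    · rw [hκ, PolyLocal.psi_algebraMap, eval_C]
      exact hc₂'
    · rw [hκ, hκ, PolyLocal.psi_algebraMap, PolyLocal.psi_algebraMap, eval_C, eval_C,
        div_mul_cancel₀ _ hc₂']
  obtain ⟨e', he', hdisc⟩ := TameO.tame_exponent (Kt := Kt) (algebraMap A0[X] O (X - C a)) hs
    hκk hκf bO
  obtain ⟨m, e, he, hm⟩ := hde
  have hcmp : algebraMap A0[X] O (X - C a) ^ m * e = algebraMap A0[X] O (X - C a) ^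
      (n - DiscLA.redDim K (K ⊗[O] ↥(integralClosure O FF))) * e' := by
    rw [← hm, ← hdO, hdisc]
  obtain ⟨-, he'u⟩ := pow_unique hs he he' hcmp
  have hρ : DiscLA.redDim K (K ⊗[O] ↥(integralClosure O FF)) ≤ n := redDim_le (κ := K) bO
  -- slice data
  haveI := PolyLocal.isDomain_quot hπ a O
  obtain ⟨hdvr, hirr⟩ := PolyLocal.isDVR_quot hπ a O
  haveI := hdvr
  have hφk : ∀ o : O, Ideal.Quotient.mk (Ideal.span {algebraMap A0[X] O (C π)}) o = 0 ↔
      algebraMap A0[X] O (C π) ∣ o := fun o =>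
    Ideal.Quotient.eq_zero_iff_mem.trans Ideal.mem_span_singleton
  have hψπ : Irreducible (PolyLocal.psi hπ a O (algebraMap A0[X] O (C π))) := by
    rw [PolyLocal.psi_algebraMap, eval_C]
    exact hπ
  -- the element `z = g y` and the S2 step
  have hzint : IsIntegral O (algebraMap A0[X] FF g * y) := hgy.tower_top
  have hkey : algebraMap A0[X] FF (C π) * (algebraMap A0[X] FF (g * g) * l) =
      (algebraMap A0[X] FF g * y) * (algebraMap A0[X] FF g * y) -
        algebraMap A0[X] FF g * (algebraMap A0[X] FF g * y) := by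
    rw [map_mul]
    linear_combination (-(algebraMap A0[X] FF g * algebraMap A0[X] FF g)) * hyl
  have hw0 : IsIntegral O (algebraMap A0[X] FF (g * g) * l) := by
    refine S2Lemma.isIntegral_of_smul_of_injective hinjOF hπO
      (PolyLocal.not_dvd_algebraMap hπ a O hg') ?_ ?_
    · rw [Algebra.smul_def, hRO]
      have h1 : algebraMap A0[X] FF g' * (algebraMap A0[X] FF (g * g) * l) =
          algebraMap O FF (algebraMap A0[X] O (g * g)) * (algebraMap A0[X] FF g' * l) := by
        rw [hRO]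
        ring
      rw [h1]
      exact isIntegral_algebraMap.mul hg'l.tower_top
    · rw [Algebra.smul_def, hRO, hkey]
      refine (hzint.mul hzint).sub ?_
      rw [← hRO g]
      exact isIntegral_algebraMap.mul (by rw [hRO]; exact hzint)
  have hz : ∃ w : ↥(integralClosure O FF),
      (⟨algebraMap A0[X] FF g * y, hzint⟩ : ↥(integralClosure O FF)) *
        ⟨algebraMap A0[X] FF g * y, hzint⟩ -
        algebraMap A0[X] O g • (⟨algebraMap A0[X] FF g * y, hzint⟩ : ↥(integralClosure O FF)) =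
        algebraMap A0[X] O (C π) • w := by
    refine ⟨⟨algebraMap A0[X] FF (g * g) * l, hw0⟩, Subtype.ext ?_⟩
    simp only [Subalgebra.coe_sub, Subalgebra.coe_mul, Algebra.smul_def,
      Subalgebra.coe_algebraMap, hRO]
    exact hkey.symm
  obtain ⟨w₁, w₂, hw⟩ := Slice.slice (algebraMap A0[X] O (C π)) (algebraMap A0[X] O (X - C a))
    (Ideal.Quotient.mk (Ideal.span {algebraMap A0[X] O (C π)})) Ideal.Quotient.mk_surjective
    hφk hirr (PolyLocal.psi hπ a O) (PolyLocal.psi_surjective hπ a O)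
    (PolyLocal.psi_eq_zero_iff hπ a O) hψπ hκ bO
    (n - DiscLA.redDim K (K ⊗[O] ↥(integralClosure O FF))) e' he'u hdisc
    (by omega) ⟨algebraMap A0[X] FF g * y, hzint⟩ (algebraMap A0[X] O g)
    (PolyLocal.not_dvd_algebraMap hπ a O hg) hz
  have hw' : algebraMap A0[X] FF g * y - algebraMap A0[X] FF g * (w₁ : FF) =
      algebraMap A0[X] FF (C π) * (w₂ : FF) := by
    have h1 := congrArg Subtype.val hw
    simp only [Subalgebra.coe_sub, Subalgebra.coe_mul, Algebra.smul_def,
      Subalgebra.coe_algebraMap, hRO] at h1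
    exact h1
  -- clear the denominators outside `(π, X - a)`
  obtain ⟨⟨u₁, hu₁⟩, hu₁w⟩ := IsIntegral.exists_multiple_integral_of_isLocalization
    (PolyLocal.nId π a).primeCompl (w₁ : FF) w₁.2
  obtain ⟨⟨u₂, hu₂⟩, hu₂w⟩ := IsIntegral.exists_multiple_integral_of_isLocalization
    (PolyLocal.nId π a).primeCompl (w₂ : FF) w₂.2
  rw [Submonoid.smul_def, Algebra.smul_def] at hu₁w hu₂w
  have hg0 : algebraMap A0[X] FF g ≠ 0 := by
    rw [Ne, map_eq_zero_iff _ hinjRF]
    rintro rfl
    exact hg (dvd_zero _)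
  have hu₂π : ¬ C π ∣ u₂ := by
    rintro ⟨h, rfl⟩
    apply hu₂
    show C π * h ∈ PolyLocal.nId π a
    rw [PolyLocal.mem_nId, eval_mul, eval_C]
    exact dvd_mul_right _ _
  refine ⟨u₁, hu₁, algebraMap A0[X] FF u₁ * (w₁ : FF),
    -((algebraMap A0[X] FF g)⁻¹ * (algebraMap A0[X] FF u₁ * (w₂ : FF))), g * u₂, hu₁w,
    fun h => ((prime_C_iff.mpr hπ.prime).dvd_or_dvd h).elim hg hu₂π, ?_, ?_⟩
  · have h1 : algebraMap A0[X] FF (g * u₂) *
        -((algebraMap A0[X] FF g)⁻¹ * (algebraMap A0[X] FF u₁ * (w₂ : FF))) =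
        -(algebraMap A0[X] FF u₁ * (algebraMap A0[X] FF u₂ * (w₂ : FF))) := by
      rw [map_mul]
      field_simp
    rw [h1]
    exact (isIntegral_algebraMap.mul hu₂w).neg
  · field_simp
    linear_combination (-(algebraMap A0[X] FF u₁)) * hw'


/-- **CHART, piece (B)**: the local statement at a cusp `(π, X - a)`, `a ∈ S`. -/
theorem cusp_local {A0 K Kt FF : Type*} [CommRing A0] [IsDomain A0] [IsDiscreteValuationRing A0]
    [Field K] [CharZero K] [Algebra A0 K] [IsFractionRing A0 K]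
    [Field Kt] [Algebra A0 Kt] [Algebra K Kt] [IsScalarTower A0 K Kt]
    [Field FF] [Algebra A0 FF] [Algebra K FF] [Algebra Kt FF] [IsScalarTower A0 Kt FF]
    [IsScalarTower K Kt FF] [IsScalarTower A0 K FF] [FiniteDimensional Kt FF]
    [Algebra.IsSeparable Kt FF]
    (π : A0) (hπ : Irreducible π) (xK : Kt) (hxK : Transcendental K xK)
    (hKt : ∀ z : Kt, ∃ f g : K[X], g ≠ 0 ∧ z * aeval xK g = aeval xK f)
    (S : Finset A0) (hS : ∀ a ∈ S, ∀ b ∈ S, a ≠ b → IsUnit (a - b))
    (Lam : Subalgebra A0 FF) (hLam : AGDefs.IsGaussLattice A0 π (algebraMap Kt FF xK) Lam)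
    (hgen : AGDefs.IsGaussEtale A0 π xK Lam)
    (hunr : ∀ q : A0[X], Prime q → ¬ Associated q (C π) → (¬ ∃ h : A0[X], C π ∣ q * h - 1) →
      (∀ a ∈ S, ¬ Associated q (X - C a)) →
      AGDefs.IsUnramAt K (algebraMap Kt FF xK) (q.map (algebraMap A0 K)))
    (a : A0) (ha : a ∈ S) (y : FF) (hy : y ∈ Lam) (hyid : ∃ z ∈ Lam, y * y - y = π • z) :
    ∃ u : A0[X], ¬ π ∣ u.eval a ∧ ∃ c ∈ AGDefs.chart A0 (algebraMap Kt FF xK), ∃ z ∈ Lam,
      c - aeval (algebraMap Kt FF xK) u * y = π • z := by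
  classical
  obtain ⟨n, b, r, d, hb, hr, hbr, hd, hdπ, -⟩ := FCLine.fc_line π hπ xK hxK hKt Lam hLam hgen
  haveI hn : (PolyLocal.nId π a).IsPrime := PolyLocal.nId_isPrime hπ a
  letI algKt : Algebra A0[X] Kt := (aeval xK : A0[X] →ₐ[A0] Kt).toRingHom.toAlgebra
  letI algFF : Algebra A0[X] FF :=
    (aeval (algebraMap Kt FF xK) : A0[X] →ₐ[A0] FF).toRingHom.toAlgebra
  have hKt' : ∀ g : A0[X], algebraMap A0[X] Kt g = aeval xK g := fun _ => rfl
  have hFF' : ∀ g : A0[X], algebraMap A0[X] FF g = aeval (algebraMap Kt FF xK) g := fun _ => rfl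
  haveI : IsScalarTower A0[X] Kt FF := IsScalarTower.of_algebraMap_eq fun g => by
    rw [hKt', hFF', aeval_algebraMap_apply]
  haveI : IsFractionRing A0[X] Kt := FCLine.isFractionRing_of_transcendental xK hKt' hxK hKt
  have hint : ∀ z : FF, IsIntegral A0[X] z ↔ z ∈ AGDefs.chart A0 (algebraMap Kt FF xK) :=
    fun z => FCLine.mem_integralClosure_iff_mem_chart _ hFF' z
  have hle : (PolyLocal.nId π a).primeCompl ≤ nonZeroDivisors A0[X] :=
    Ideal.primeCompl_le_nonZeroDivisors _
  have hde := DiscPrime.exists_eq_pow_mul_unit_cusp π hπ xK hxK hKt S hS hunr b hb r d hr hbr hd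
    hdπ a ha ↥(Localization.subalgebra.ofField Kt (PolyLocal.nId π a).primeCompl hle)
  have hr' : r ∉ PolyLocal.nId π a := by
    intro h
    rw [PolyLocal.mem_nId] at h
    obtain ⟨t, ht⟩ := hr
    have h1 : r.eval a - 1 = π * t.eval a := by
      have := congrArg (eval a) ht
      simpa using this
    exact hπ.not_isUnit (isUnit_of_dvd_one ((dvd_sub_right h).mp ⟨t.eval a, h1⟩))
  obtain ⟨g, hg, hgy⟩ := (hLam y).mp hy
  obtain ⟨z, hz, hyz⟩ := hyid
  obtain ⟨g', hg', hg'z⟩ := (hLam z).mp hz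
  have hyl : y * y - y = algebraMap A0[X] FF (C π) * z := by
    rw [hyz, hFF', aeval_C, Algebra.smul_def]
  obtain ⟨u, hu, c, w, v, hc, hv, hvw, hcw⟩ := cusp_core
    (O := ↥(Localization.subalgebra.ofField Kt (PolyLocal.nId π a).primeCompl hle)) (K := K)
    hπ a b (fun i => (hint _).mpr (hb i)) r hr' (fun z hz i => hbr z ((hint z).mp hz) i) d hd hde
    y g hg ((hint _).mpr hgy) z g' hg' ((hint _).mpr hg'z) hyl
  refine ⟨u, fun h => hu (PolyLocal.mem_nId.mpr h), c, (hint c).mp hc, w,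
    (hLam w).mpr ⟨v, hv, (hint _).mp hvw⟩, ?_⟩
  rw [Algebra.smul_def, ← aeval_C (algebraMap Kt FF xK) π]
  exact hcw

end Fermat.Agent.RedLib.ChartCusp
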