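/-
S18 long shot, CHART piece (A) (helper4): an unramified prime `q` of `A0[X]` (not `π`, not a unit
modulo `π`) does not divide the discriminant `d` of the chart basis produced by `FCLine.fc_line`.
Wiring of `Bridge.not_dvd_discr_of_unram` with `R := A0[X]` acting through `X ↦ x`.
-/
import Mathlib
import Fermat.Agent.RedLib.AGDefs
import Fermat.Agent.RedLib.FCLine
import Fermat.Agent.RedLib.Bridge

set_option autoImplicit false

namespace Fermat.Agent.RedLib.ChartDisc

open Polynomial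

/-- a prime of `A0[X]` dividing a nonzero constant is associated to `π`. -/
theorem not_dvd_C {A0 : Type*} [CommRing A0] [IsDomain A0] [IsDiscreteValuationRing A0]
    {π : A0} (hπ : Irreducible π) {q : A0[X]} (hq : Prime q) (hqπ : ¬ Associated q (C π))
    {c : A0} (hc : c ≠ 0) : ¬ q ∣ C c := by
  rintro ⟨h, hh⟩
  have hh0 : h ≠ 0 := by
    rintro rfl
    rw [mul_zero] at hh
    exact hc (C_eq_zero.mp hh)
  have hdeg : q.natDegree = 0 := by
    have h1 := congrArg natDegree hh
    rw [natDegree_C, natDegree_mul hq.ne_zero hh0] at h1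
    omega
  rw [eq_C_of_natDegree_eq_zero hdeg] at hq hqπ
  have hq₀ : Prime (q.coeff 0) := prime_C_iff.mp hq
  exact hqπ ((IsDiscreteValuationRing.associated_of_irreducible A0 hq₀.irreducible hπ).map
    (C : A0 →+* A0[X]))

theorem not_dvd_discr {A0 K Kt FF : Type*} [CommRing A0] [IsDomain A0]
    [IsDiscreteValuationRing A0] [Field K] [CharZero K] [Algebra A0 K] [IsFractionRing A0 K]
    [Field Kt] [Algebra A0 Kt] [Algebra K Kt] [IsScalarTower A0 K Kt]
    [Field FF] [Algebra A0 FF] [Algebra K FF] [Algebra Kt FF] [IsScalarTower A0 Kt FF]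
    [IsScalarTower K Kt FF] [FiniteDimensional Kt FF] [Algebra.IsSeparable Kt FF]
    (π : A0) (hπ : Irreducible π) (xK : Kt) (hxK : Transcendental K xK)
    (hKt : ∀ z : Kt, ∃ f g : K[X], g ≠ 0 ∧ z * aeval xK g = aeval xK f)
    {n : ℕ} (b : Module.Basis (Fin n) Kt FF) (r d : A0[X])
    (hb : ∀ i, b i ∈ AGDefs.chart A0 (algebraMap Kt FF xK)) (hr : C π ∣ r - 1)
    (hbr : ∀ z ∈ AGDefs.chart A0 (algebraMap Kt FF xK), ∀ i, ∃ a : A0[X],
      aeval xK r * b.repr z i = aeval xK a)
    (hd : aeval xK d = Algebra.discr Kt b)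
    (q : A0[X]) (hq : Prime q) (hqπ : ¬ Associated q (C π))
    (hqu : ¬ ∃ h : A0[X], C π ∣ q * h - 1)
    (hunr : AGDefs.IsUnramAt K (algebraMap Kt FF xK) (q.map (algebraMap A0 K))) : ¬ q ∣ d := by
  classical
  let algKt : Algebra A0[X] Kt := (aeval xK : A0[X] →ₐ[A0] Kt).toRingHom.toAlgebra
  let algFF : Algebra A0[X] FF :=
    (aeval (algebraMap Kt FF xK) : A0[X] →ₐ[A0] FF).toRingHom.toAlgebra
  have hKt' : ∀ g : A0[X], algebraMap A0[X] Kt g = aeval xK g := fun _ => rfl
  have hFF' : ∀ g : A0[X], algebraMap A0[X] FF g = aeval (algebraMap Kt FF xK) g := fun _ => rfl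
  have : IsScalarTower A0[X] Kt FF := IsScalarTower.of_algebraMap_eq fun g => by
    rw [hKt', hFF', aeval_algebraMap_apply]
  have : IsFractionRing A0[X] Kt := FCLine.isFractionRing_of_transcendental xK hKt' hxK hKt
  have hint : ∀ z : FF, z ∈ integralClosure A0[X] FF ↔
      z ∈ AGDefs.chart A0 (algebraMap Kt FF xK) :=
    fun z => FCLine.mem_integralClosure_iff_mem_chart _ hFF' z
  have hA0 : CharZero A0 := (algebraMap A0 K).charZero
  have hchar : ∀ m : ℕ, m ≠ 0 → ¬ q ∣ (m : A0[X]) := by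
    intro m hm
    rw [← Polynomial.C_eq_natCast]
    exact not_dvd_C hπ hq hqπ (Nat.cast_ne_zero.mpr hm)
  have hg : ¬ q ∣ r := by
    rintro ⟨h, rfl⟩
    exact hqu ⟨h, hr⟩
  have htow : IsScalarTower A0 K FF := IsScalarTower.of_algebraMap_eq fun c => by
    rw [IsScalarTower.algebraMap_apply A0 Kt FF, IsScalarTower.algebraMap_apply A0 K Kt,
      ← IsScalarTower.algebraMap_apply K Kt FF]
  have hcK : ∀ c : A0, algebraMap K FF (algebraMap A0 K c) = algebraMap A0[X] FF (C c) := by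
    intro c
    rw [hFF', aeval_C, ← IsScalarTower.algebraMap_apply A0 K FF]
  have hqx : aeval (algebraMap Kt FF xK) (q.map (algebraMap A0 K)) = algebraMap A0[X] FF q := by
    rw [hFF', aeval_map_algebraMap]
  have hunr' : ∀ O : ValuationSubring FF, IsDiscreteValuationRing O →
      (∀ g : A0[X], algebraMap A0[X] FF g ∈ O) →
      (∀ g : A0[X], ¬ q ∣ g → (algebraMap A0[X] FF g)⁻¹ ∈ O) →
      algebraMap A0[X] FF q ∈ O.nonunits →
      ∀ z ∈ O.nonunits, ∃ y ∈ O, z = algebraMap A0[X] FF q * y := by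
    intro O hO h1 h2 h3 z hz
    have h4 := hunr O hO ?_ ?_ (by rw [hqx]; exact h3) z hz
    · rwa [hqx] at h4
    · intro k
      obtain ⟨c₁, c₂, hc₂, rfl⟩ := IsFractionRing.div_surjective (A := A0) k
      rw [map_div₀, div_eq_mul_inv, hcK, hcK]
      exact O.mul_mem _ _ (h1 _) (h2 _ (not_dvd_C hπ hq hqπ (nonZeroDivisors.ne_zero hc₂)))
    · have h5 := h1 X
      rwa [hFF', aeval_X] at h5
  exact Bridge.not_dvd_discr_of_unram q hq hchar hunr' b (fun i => (hint _).mpr (hb i)) r hg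
    (fun z hz i => hbr z ((hint z).mp hz) i) d hd

end Fermat.Agent.RedLib.ChartDisc
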