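import Mathlib
import Fermat.Agent.RedLib.AGDefs
import Fermat.Agent.RedLib.ChartAsm
import Fermat.Agent.RedLib.ChartDisc
import Fermat.Agent.RedLib.ChartCusp
import Fermat.Agent.RedLib.AGAsm

/-!
# The abstract geometric theorem (AG)

`chart_surj` : every element of the Gauss lattice `Lam` which is idempotent modulo `π` is congruent
modulo `π Lam` to an element of the integral chart (integral closure of `A0[x]`).

`AG_core` : for a Galois tower `Fu ⊆ FF` over the line with coordinate `tt`, a family of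
orthogonal idempotents of `Lam/π` coming from `Fu` lifts to a `K`-linearly independent family of
`A0`-integral elements of `Fu`.
-/

open Polynomial

namespace Fermat.Agent.RedLib.AG

open Fermat.Agent.RedLib Fermat.Agent.RedLib.AGDefs

/-- **CHART**: every idempotent of `Lam/π` comes from the integral chart `chart A0 x`. -/
theorem chart_surj
    {A0 K Kt FF : Type*} [CommRing A0] [IsDomain A0] [IsDiscreteValuationRing A0]
    [Field K] [CharZero K] [Algebra A0 K] [IsFractionRing A0 K]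
    [Field Kt] [Algebra K Kt] [Algebra A0 Kt] [IsScalarTower A0 K Kt]
    [Field FF] [Algebra K FF] [Algebra A0 FF] [IsScalarTower A0 K FF]
    [Algebra Kt FF] [IsScalarTower K Kt FF] [IsScalarTower A0 Kt FF]
    (π : A0) (hπ : Irreducible π)
    (xK : Kt) (hxK : Transcendental K xK)
    (hKt : ∀ z : Kt, ∃ f g : K[X], g ≠ 0 ∧ z * aeval xK g = aeval xK f)
    (S : Finset A0) (hS : ∀ a ∈ S, ∀ b ∈ S, a ≠ b → IsUnit (a - b))
    (Lam : Subalgebra A0 FF) (hLam : IsGaussLattice A0 π (algebraMap Kt FF xK) Lam)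
    (hgen : IsGaussEtale A0 π xK Lam)
    (hunr : ∀ q : A0[X], Prime q → ¬ Associated q (C π) →
      (¬ ∃ h : A0[X], C π ∣ q * h - 1) → (∀ a ∈ S, ¬ Associated q (X - C a)) →
      IsUnramAt K (algebraMap Kt FF xK) (q.map (algebraMap A0 K)))
    (y : FF) (hy : y ∈ Lam) (hyid : ∃ z ∈ Lam, y * y - y = π • z) :
    ∃ c ∈ chart A0 (algebraMap Kt FF xK), ∃ z ∈ Lam, c - y = π • z := by
  have hgen' := hgen
  obtain ⟨n0, b0, -, -⟩ := hgen'
  haveI : FiniteDimensional Kt FF := Module.Finite.of_basis b0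
  haveI : CharZero Kt := charZero_of_injective_algebraMap (algebraMap K Kt).injective
  haveI : Algebra.IsSeparable Kt FF := inferInstance
  exact ChartAsm.chart_surj_of_local π hπ xK hxK hKt S hS Lam hLam hgen hunr
    (fun b r d hb hr hbr hd q hq hqπ hqu hU =>
      ChartDisc.not_dvd_discr π hπ xK hxK hKt b r d hb hr hbr hd q hq hqπ hqu hU)
    (fun a ha y hy hyid =>
      ChartCusp.cusp_local π hπ xK hxK hKt S hS Lam hLam hgen hunr a ha y hy hyid)
    y hy hyid

/-- **AG** (the abstract geometric theorem). -/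
theorem AG_core
    {A0 K Fu FF : Type*} [CommRing A0] [IsDomain A0] [IsDiscreteValuationRing A0]
    [Field K] [CharZero K] [Algebra A0 K] [IsFractionRing A0 K]
    [Field Fu] [Field FF] [Algebra K Fu] [Algebra K FF] [Algebra Fu FF] [IsScalarTower K Fu FF]
    [Algebra A0 Fu] [Algebra A0 FF] [IsScalarTower A0 K Fu] [IsScalarTower A0 K FF]
    [IsScalarTower A0 Fu FF] [FiniteDimensional Fu FF] [IsGalois Fu FF]
    (π : A0) (hπ : Irreducible π)
    (tt : FF) (htt : Transcendental K tt)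
    (S : Finset A0) (hS : ∀ a ∈ S, ∀ b ∈ S, a ≠ b → IsUnit (a - b))
    (Lam : Subalgebra A0 FF) (hLam : IsGaussLattice A0 π tt Lam)
    (hLamσ : ∀ σ : FF ≃ₐ[Fu] FF, ∀ y ∈ Lam, σ y ∈ Lam)
    (hgen : IsGaussEtale A0 π (IntermediateField.AdjoinSimple.gen K tt) Lam)
    (hunr : ∀ O : ValuationSubring FF, IsDiscreteValuationRing O →
      (∀ a : K, algebraMap K FF a ∈ O) → tt ∈ O →
      (∀ a ∈ S, (tt - algebraMap A0 FF a)⁻¹ ∈ O) →
      ∀ q : K[X], Irreducible q → aeval tt q ∈ O.nonunits →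
      ∀ z ∈ O.nonunits, ∃ y ∈ O, z = aeval tt q * y)
    {p : ℕ} (e : Fin p → Fu)
    (heLam : ∀ i, algebraMap Fu FF (e i) ∈ Lam)
    (hidem : ∀ i, ∃ z ∈ Lam, algebraMap Fu FF (e i * e i - e i) = π • z)
    (horth : ∀ i j, i ≠ j → ∃ z ∈ Lam, algebraMap Fu FF (e i * e j) = π • z)
    (hne : ∀ i, ¬ ∃ z ∈ Lam, algebraMap Fu FF (e i) = π • z) :
    ∃ y : Fin p → Fu, LinearIndependent K y ∧ ∀ i, IsIntegral A0 (y i) := by
  haveI : IsScalarTower A0 ↥(IntermediateField.adjoin K {tt}) FF := AGAsm.isScalarTower_adjoin tt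
  have hCS : AGAsm.ChartSurj A0 K ↥(IntermediateField.adjoin K {tt}) FF :=
    fun π hπ xK hxK hKt S hS Lam hLam hgen hunr y hy hyid =>
      chart_surj π hπ xK hxK hKt S hS Lam hLam hgen hunr y hy hyid
  exact AGAsm.AG_core_of_chartSurj π hπ tt htt hCS S hS Lam hLam hLamσ hgen hunr e heLam hidem
    horth hne

end Fermat.Agent.RedLib.AG
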