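import Mathlib
import Fermat.Agent.RedLib.AGDefs
import Fermat.Agent.RedLib.AGSymm

/-!
# RedLib/AGCusps: the cusps of the chart `x = 1/t` and the `hunr` hypotheses of the two charts

* `invCusps S`: `0` together with the inverses of the unit elements of `S`.
* `isUnit_sub_of_mem_invCusps`: pairwise differences of distinct elements of `invCusps S` are
  units as soon as this holds for `S`.
* `hunr_chart`, `hunr_chart_inv`: the unramifiedness hypothesis of the chart theorem for the
  coordinates `t` (cusps `S`) and `1/t` (cusps `invCusps S`), from the unramifiedness hypothesis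
  of the abstract geometric theorem (wrappers around `AGSymm.isUnramAt_of_hunr`,
  `AGSymm.isUnramAt_inv`).
-/

set_option autoImplicit false

namespace Fermat.Agent.RedLib.AGCusps

open Polynomial Fermat.Agent.RedLib.AGDefs Fermat.Agent.RedLib

section Cusps

variable {A0 : Type*} [CommRing A0]

open Classical in
/-- The cusps of the chart `x = 1/t`: `0` and the inverses of the unit cusps of the chart
`x = t`. -/
noncomputable def invCusps (S : Finset A0) : Finset A0 := insert 0 (S.image Ring.inverse)

theorem mem_invCusps {S : Finset A0} {b : A0} :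
    b ∈ invCusps S ↔ b = 0 ∨ ∃ a ∈ S, Ring.inverse a = b := by
  classical
  rw [invCusps, Finset.mem_insert, Finset.mem_image]

theorem zero_mem_invCusps (S : Finset A0) : (0 : A0) ∈ invCusps S :=
  mem_invCusps.mpr (Or.inl rfl)

theorem mem_invCusps_of_mul_eq_one {S : Finset A0} {a a' : A0} (ha : a ∈ S) (h : a * a' = 1) :
    a' ∈ invCusps S := by
  refine mem_invCusps.mpr (Or.inr ⟨a, ha, ?_⟩)
  have hu : IsUnit a := IsUnit.of_mul_eq_one a' h
  calc Ring.inverse a = Ring.inverse a * (a * a') := by rw [h, mul_one]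
    _ = (Ring.inverse a * a) * a' := (mul_assoc _ _ _).symm
    _ = a' := by rw [Ring.inverse_mul_cancel a hu, one_mul]

theorem isUnit_sub_of_mem_invCusps (S : Finset A0)
    (hS : ∀ a ∈ S, ∀ b ∈ S, a ≠ b → IsUnit (a - b)) :
    ∀ a ∈ invCusps S, ∀ b ∈ invCusps S, a ≠ b → IsUnit (a - b) := by
  have key : ∀ a ∈ S, Ring.inverse a ≠ 0 → IsUnit (Ring.inverse a) := by
    intro a _ h
    by_cases hu : IsUnit a
    · exact hu.ringInverse
    · exact absurd (Ring.inverse_non_unit a hu) h
  have key2 : ∀ a ∈ S, ∀ b ∈ S, Ring.inverse a ≠ Ring.inverse b →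
      IsUnit (Ring.inverse a - Ring.inverse b) := by
    intro a ha b hb hab
    by_cases hua : IsUnit a
    · by_cases hub : IsUnit b
      · have hne : a ≠ b := fun h => hab (by rw [h])
        have h1 : Ring.inverse a - Ring.inverse b
            = Ring.inverse a * Ring.inverse b * -(a - b) := by
          have e1 : Ring.inverse a * a = 1 := Ring.inverse_mul_cancel a hua
          have e2 : Ring.inverse b * b = 1 := Ring.inverse_mul_cancel b hub
          calc Ring.inverse a - Ring.inverse b
              = (Ring.inverse b * b) * Ring.inverse a - (Ring.inverse a * a) * Ring.inverse b := by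
                rw [e1, e2, one_mul, one_mul]
            _ = Ring.inverse a * Ring.inverse b * -(a - b) := by ring
        rw [h1]
        exact (hua.ringInverse.mul hub.ringInverse).mul (hS a ha b hb hne).neg
      · rw [Ring.inverse_non_unit b hub, sub_zero]
        exact hua.ringInverse
    · rw [Ring.inverse_non_unit a hua, zero_sub]
      by_cases hub : IsUnit b
      · exact hub.ringInverse.neg
      · exact absurd (by rw [Ring.inverse_non_unit a hua, Ring.inverse_non_unit b hub]) hab
  intro a ha b hb hab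
  rcases mem_invCusps.mp ha with rfl | ⟨a', ha', rfl⟩
  · rcases mem_invCusps.mp hb with rfl | ⟨b', hb', rfl⟩
    · exact absurd rfl hab
    · rw [zero_sub]
      exact (key b' hb' (fun h => hab h.symm)).neg
  · rcases mem_invCusps.mp hb with rfl | ⟨b', hb', rfl⟩
    · rw [sub_zero]
      exact key a' ha' hab
    · exact key2 a' ha' b' hb' hab

end Cusps

section ChartHyp

variable {K FF : Type*} [Field K] [Field FF] [Algebra K FF]
  {A0 : Type*} [CommRing A0] [IsDomain A0] [IsDiscreteValuationRing A0]
  [Algebra A0 K] [IsFractionRing A0 K] [Algebra A0 FF] [IsScalarTower A0 K FF]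

/-- The hypothesis `hunr` of the chart theorem for `x = t`, cusps `S`. -/
theorem hunr_chart {π : A0} (hπ : Irreducible π) (tt : FF) (S : Finset A0)
    (hunr : ∀ O : ValuationSubring FF, IsDiscreteValuationRing O →
      (∀ a : K, algebraMap K FF a ∈ O) → tt ∈ O → (∀ a ∈ S, (tt - algebraMap A0 FF a)⁻¹ ∈ O) →
      ∀ q : K[X], Irreducible q → aeval tt q ∈ O.nonunits →
        ∀ z ∈ O.nonunits, ∃ y ∈ O, z = aeval tt q * y) :
    ∀ q : A0[X], Prime q → ¬ Associated q (C π) → (¬ ∃ h : A0[X], C π ∣ q * h - 1) →
      (∀ a ∈ S, ¬ Associated q (X - C a)) → IsUnramAt K tt (q.map (algebraMap A0 K)) :=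
  fun q hq hqπ _ hqS => AGSymm.isUnramAt_of_hunr K π hπ tt S hunr q hq hqπ hqS

/-- The hypothesis `hunr` of the chart theorem for `x = 1/t`, cusps `invCusps S`. -/
theorem hunr_chart_inv {π : A0} (hπ : Irreducible π) (tt : FF) (S : Finset A0)
    (hunr : ∀ O : ValuationSubring FF, IsDiscreteValuationRing O →
      (∀ a : K, algebraMap K FF a ∈ O) → tt ∈ O → (∀ a ∈ S, (tt - algebraMap A0 FF a)⁻¹ ∈ O) →
      ∀ q : K[X], Irreducible q → aeval tt q ∈ O.nonunits →
        ∀ z ∈ O.nonunits, ∃ y ∈ O, z = aeval tt q * y) :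
    ∀ q : A0[X], Prime q → ¬ Associated q (C π) → (¬ ∃ h : A0[X], C π ∣ q * h - 1) →
      (∀ a ∈ invCusps S, ¬ Associated q (X - C a)) →
      IsUnramAt K tt⁻¹ (q.map (algebraMap A0 K)) := by
  intro q hq hqπ hqu hqS
  refine AGSymm.isUnramAt_inv K π hπ tt S hunr q hq hqπ hqu ?_ ?_
  · have := hqS 0 (zero_mem_invCusps S)
    rwa [map_zero, sub_zero] at this
  · intro a ha a' haa'
    exact hqS a' (mem_invCusps_of_mul_eq_one ha haa')

end ChartHyp

end Fermat.Agent.RedLib.AGCusps
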