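import Mathlib
import Fermat.Prelude.Def_ModularCurve_X0ModL
import Fermat.Prelude.Def_ModularCurve_ArithmeticGalois

/-!
# S18 long shot, leaf W7 (DESCENT), generic part

For a field extension `L / K` and `ι := coeffMap (algebraMap K L) : K((q)) → L((q))`:

* `exists_C_of_isAlgebraic` : `K` is algebraically closed in `K((q))`;
* `linearIndependent_coeffMap` : `K`-independent Laurent series stay `L`-independent;
* `linearIndependent_C_mul_coeffMap` : `K`-independent constants of `L` are independent over
  `ι (K((q)))`;
* `coeffMap_mem_fullC`, `exists_sum_of_mem_fullC`, `mem_fullC_of_coeffMap_mem` : the modular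
  function field over `L` is the `L`-span of the one over `K` (for `L / K` algebraic), and an
  element with coefficients in `K` descends;
* `modularFunctionFieldBar_eq` : `modularFunctionFieldBar N = modularFunctionFieldFullC ℚ̄ N`.
-/

set_option autoImplicit false

noncomputable section

namespace Fermat.Agent.RedLib.DescBase

open Polynomial ModularCurve

/-! ### `K` is algebraically closed in `K((q))` -/

section AlgClosed

variable {K : Type*} [Field K]

theorem algebraMap_eq_ofPowerSeries_comp :
    algebraMap K (LaurentSeries K) =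
      (HahnSeries.ofPowerSeries ℤ K).comp (algebraMap K (PowerSeries K)) := by
  refine RingHom.ext fun c => ?_
  rw [algebraMap_laurentSeries_eq_single, RingHom.comp_apply]
  have h1 : algebraMap K (PowerSeries K) c = PowerSeries.C c := by simp
  rw [h1, HahnSeries.ofPowerSeries_C]
  rfl

/-- A power series without constant term which is algebraic over `K` vanishes. -/
theorem eq_zero_of_isAlgebraic_of_constantCoeff (g : PowerSeries K)
    (hg : PowerSeries.constantCoeff g = 0)
    (halg : IsAlgebraic K (HahnSeries.ofPowerSeries ℤ K g)) : g = 0 := by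
  by_contra hne
  have hx : HahnSeries.ofPowerSeries ℤ K g ≠ 0 := by
    intro h
    exact hne (HahnSeries.ofPowerSeries_injective (by rw [h, map_zero]))
  have hint : IsIntegral K (HahnSeries.ofPowerSeries ℤ K g) := halg.isIntegral
  have h0 := minpoly.coeff_zero_ne_zero hint hx
  have h1 := minpoly.aeval K (HahnSeries.ofPowerSeries ℤ K g)
  rw [aeval_def, algebraMap_eq_ofPowerSeries_comp, ← hom_eval₂] at h1
  have h2 : eval₂ (algebraMap K (PowerSeries K)) g
      (minpoly K (HahnSeries.ofPowerSeries ℤ K g)) = 0 :=
    HahnSeries.ofPowerSeries_injective (by rw [h1, map_zero])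
  have h3 := congrArg (PowerSeries.constantCoeff (R := K)) h2
  rw [hom_eval₂, map_zero, hg] at h3
  have h4 : (PowerSeries.constantCoeff (R := K)).comp (algebraMap K (PowerSeries K)) =
      RingHom.id K := by
    refine RingHom.ext fun c => ?_
    simp
  rw [h4, eval₂_id, ← coeff_zero_eq_eval_zero] at h3
  exact h0 h3

/-- A Laurent series supported in positive degrees which is algebraic over `K` vanishes. -/
theorem eq_zero_of_isAlgebraic_of_coeff (y : LaurentSeries K)
    (hy : ∀ k : ℤ, k ≤ 0 → y.coeff k = 0) (halg : IsAlgebraic K y) : y = 0 := by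
  set g : PowerSeries K := PowerSeries.mk fun i => y.coeff i with hg
  have hyg : HahnSeries.ofPowerSeries ℤ K g = y := by
    ext k
    rcases lt_or_ge k 0 with hk | hk
    · rw [ofPowerSeries_coeff_of_neg _ hk, hy k hk.le]
    · lift k to ℕ using hk
      rw [HahnSeries.ofPowerSeries_apply_coeff, hg, PowerSeries.coeff_mk]
  have hc : PowerSeries.constantCoeff g = 0 := by
    rw [← PowerSeries.coeff_zero_eq_constantCoeff_apply, hg, PowerSeries.coeff_mk]
    exact hy 0 le_rfl
  have := eq_zero_of_isAlgebraic_of_constantCoeff g hc (by rw [hyg]; exact halg)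
  rw [← hyg, this, map_zero]

/-- **`K` is algebraically closed in `K((q))`.** -/
theorem exists_C_of_isAlgebraic (x : LaurentSeries K) (hx : IsAlgebraic K x) :
    ∃ c : K, x = HahnSeries.C c := by
  rcases eq_or_ne x 0 with rfl | hx0
  · exact ⟨0, by simp⟩
  have hCalg : ∀ c : K, IsAlgebraic K (HahnSeries.C c : LaurentSeries K) := by
    intro c
    have : (HahnSeries.C c : LaurentSeries K) = algebraMap K (LaurentSeries K) c := by
      rw [algebraMap_laurentSeries_eq_single]; rfl
    rw [this]
    exact isAlgebraic_algebraMap c
  rcases lt_or_ge x.order 0 with hneg | hnn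
  · -- negative order: the inverse has positive order, hence vanishes
    exfalso
    have hinv0 : x⁻¹ ≠ 0 := inv_ne_zero hx0
    have hord : (x * x⁻¹).order = x.order + (x⁻¹).order :=
      HahnSeries.order_mul_of_ne_zero (mul_ne_zero (HahnSeries.leadingCoeff_ne_zero.mpr hx0)
        (HahnSeries.leadingCoeff_ne_zero.mpr hinv0))
    rw [mul_inv_cancel₀ hx0, HahnSeries.order_one] at hord
    have hpos : 0 < (x⁻¹).order := by omega
    exact hinv0 (eq_zero_of_isAlgebraic_of_coeff x⁻¹
      (fun k hk => HahnSeries.coeff_eq_zero_of_lt_order (lt_of_le_of_lt hk hpos)) hx.inv)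
  · refine ⟨x.coeff 0, ?_⟩
    have h := eq_zero_of_isAlgebraic_of_coeff (x - HahnSeries.C (x.coeff 0)) ?_
      (hx.sub (hCalg _))
    · exact sub_eq_zero.mp h
    · intro k hk
      rcases hk.lt_or_eq with hk | rfl
      · rw [HahnSeries.coeff_sub, HahnSeries.coeff_eq_zero_of_lt_order (lt_of_lt_of_le hk hnn),
          HahnSeries.C_apply, HahnSeries.coeff_single_of_ne hk.ne, sub_zero]
      · rw [HahnSeries.coeff_sub, HahnSeries.C_apply, HahnSeries.coeff_single_same, sub_self]

end AlgClosed

/-! ### Linear disjointness of `L` and `K((q))` inside `L((q))` -/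

section LinDisj

variable {K L : Type*} [Field K] [Field L] [Algebra K L]

theorem coeffMap_injective : Function.Injective (coeffMap (algebraMap K L)) := by
  intro x y h
  ext k
  have := congrArg (fun z : LaurentSeries L => z.coeff k) h
  simp only [coeffMap_coeff] at this
  exact (algebraMap K L).injective this

theorem coeffMap_C (c : K) :
    coeffMap (algebraMap K L) (HahnSeries.C c) = HahnSeries.C (algebraMap K L c) := by
  show coeffMap (algebraMap K L) (HahnSeries.single 0 c) = HahnSeries.single 0 (algebraMap K L c)
  rw [coeffMap_single]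

theorem coeff_C_mul (c : L) (x : LaurentSeries L) (m : ℤ) :
    (HahnSeries.C c * x).coeff m = c * x.coeff m := by
  show (HahnSeries.single 0 c * x).coeff m = c * x.coeff m
  rw [HahnSeries.coeff_single_zero_mul]

/-- A finite relation `∑ C(cᵢ) · ι(fᵢ) = 0` gives, for every `K`-linear functional `φ` on `L`,
the relation `∑ φ(cᵢ) fᵢ = 0`. -/
theorem sum_dual_eq_zero {I : Type*} (s : Finset I) (c : I → L) (f : I → LaurentSeries K)
    (h : ∑ i ∈ s, HahnSeries.C (c i) * coeffMap (algebraMap K L) (f i) = 0)
    (φ : L →ₗ[K] K) : ∑ i ∈ s, HahnSeries.C (φ (c i)) * f i = 0 := by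
  ext m
  have hm := congrArg (fun z : LaurentSeries L => z.coeff m) h
  simp only [HahnSeries.coeff_sum, coeff_C_mul, coeffMap_coeff, HahnSeries.coeff_zero] at hm
  rw [HahnSeries.coeff_sum, HahnSeries.coeff_zero]
  have h2 : ∀ i ∈ s, (HahnSeries.C (φ (c i)) * f i).coeff m = φ (c i * algebraMap K L ((f i).coeff m)) := by
    intro i _
    rw [coeff_C_mul, mul_comm (c i), ← Algebra.smul_def, map_smul, smul_eq_mul, mul_comm]
  rw [Finset.sum_congr rfl h2, ← map_sum, hm, map_zero]

/-- `K`-linearly independent Laurent series stay linearly independent over `L`. -/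
theorem eq_zero_of_sum_C_mul_coeffMap {I : Type*} (f : I → LaurentSeries K)
    (hf : LinearIndependent K f) (s : Finset I) (c : I → L)
    (h : ∑ i ∈ s, HahnSeries.C (c i) * coeffMap (algebraMap K L) (f i) = 0) :
    ∀ i ∈ s, c i = 0 := by
  intro i hi
  rw [← Module.forall_dual_apply_eq_zero_iff K]
  intro φ
  have h1 := sum_dual_eq_zero s c f h φ
  have h2 : ∑ j ∈ s, φ (c j) • f j = 0 := by
    rw [← h1]
    refine Finset.sum_congr rfl fun j _ => ?_
    rw [HahnSeries.C_mul_eq_smul]
  exact linearIndependent_iff'.mp hf s (fun j => φ (c j)) h2 i hi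

/-- `K`-linearly independent constants of `L` are independent over `ι (K((q)))`. -/
theorem eq_zero_of_sum_C_mul_coeffMap' {I : Type*} (c : I → L)
    (hc : LinearIndependent K c) (s : Finset I) (f : I → LaurentSeries K)
    (h : ∑ i ∈ s, HahnSeries.C (c i) * coeffMap (algebraMap K L) (f i) = 0) :
    ∀ i ∈ s, f i = 0 := by
  intro i hi
  ext m
  have hm := congrArg (fun z : LaurentSeries L => z.coeff m) h
  simp only [HahnSeries.coeff_sum, coeff_C_mul, coeffMap_coeff, HahnSeries.coeff_zero] at hm
  have h2 : ∑ j ∈ s, ((f j).coeff m) • c j = 0 := by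
    rw [← hm]
    refine Finset.sum_congr rfl fun j _ => ?_
    rw [Algebra.smul_def, mul_comm]
  rw [HahnSeries.coeff_zero]
  exact linearIndependent_iff'.mp hc s (fun j => (f j).coeff m) h2 i hi

end LinDisj

/-! ### The modular function fields over `K` and over `L` -/

section FullC

variable {K L : Type*} [Field K] [Field L] [Algebra K L] (N : ℕ)

theorem coeffMap_mem_divisorExpansionsC {x : LaurentSeries K} (hx : x ∈ divisorExpansionsC K N) :
    coeffMap (algebraMap K L) x ∈ divisorExpansionsC L N := by
  obtain ⟨d, hd, hdN, rfl⟩ := hx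
  have := hd
  exact ⟨d, hd, hdN, by rw [coeffMap_qExpand, coeffMap_jqModC]⟩

theorem coeffMap_mem_fullC {x : LaurentSeries K} (hx : x ∈ modularFunctionFieldFullC K N) :
    coeffMap (algebraMap K L) x ∈ modularFunctionFieldFullC L N := by
  have hx' : x ∈ Subfield.closure
      (Set.range (algebraMap K (LaurentSeries K)) ∪ divisorExpansionsC K N) := hx
  clear hx
  induction hx' using Subfield.closure_induction with
  | mem y hy =>
      rcases hy with ⟨a, rfl⟩ | hy
      · rw [algebraMap_laurentSeries_eq_single, coeffMap_single,
          ← algebraMap_laurentSeries_eq_single]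
        exact (modularFunctionFieldFullC L N).algebraMap_mem _
      · exact IntermediateField.subset_adjoin L _ (coeffMap_mem_divisorExpansionsC N hy)
  | one => simp
  | add x y _ _ hx hy => simpa using add_mem hx hy
  | neg x _ hx => simpa using neg_mem hx
  | inv x _ hx => simpa using inv_mem hx
  | mul x y _ _ hx hy => simpa using mul_mem hx hy

/-- Every element of the modular function field over `L` is an `L`-linear combination of
elements of the modular function field over `K` (for `L / K` algebraic). -/
theorem exists_sum_of_mem_fullC [Algebra.IsAlgebraic K L] {x : LaurentSeries L}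
    (hx : x ∈ modularFunctionFieldFullC L N) :
    ∃ (n : ℕ) (c : Fin n → L) (f : Fin n → LaurentSeries K),
      (∀ i, f i ∈ modularFunctionFieldFullC K N) ∧
      x = ∑ i, HahnSeries.C (c i) * coeffMap (algebraMap K L) (f i) := by
  classical
  let alg : Algebra ↥(modularFunctionFieldFullC K N) (LaurentSeries L) :=
    ((coeffMap (algebraMap K L)).comp (modularFunctionFieldFullC K N).val.toRingHom).toAlgebra
  have halg : ∀ z : ↥(modularFunctionFieldFullC K N),
      algebraMap ↥(modularFunctionFieldFullC K N) (LaurentSeries L) z =
        coeffMap (algebraMap K L) (z : LaurentSeries K) := fun _ => rfl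
  have hcomp : (algebraMap ↥(modularFunctionFieldFullC K N) (LaurentSeries L)).comp
      (algebraMap K ↥(modularFunctionFieldFullC K N)) =
        (algebraMap L (LaurentSeries L)).comp (algebraMap K L) := by
    refine RingHom.ext fun a => ?_
    rw [RingHom.comp_apply, RingHom.comp_apply, halg]
    show coeffMap (algebraMap K L) (algebraMap K (LaurentSeries K) a) = _
    rw [algebraMap_laurentSeries_eq_single, coeffMap_single, algebraMap_laurentSeries_eq_single]
  set T : Subalgebra ↥(modularFunctionFieldFullC K N) (LaurentSeries L) :=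
    Algebra.adjoin _ (Set.range (algebraMap L (LaurentSeries L))) with hT
  -- the generators are integral
  have hgen : ∀ y ∈ Set.range (algebraMap L (LaurentSeries L)),
      IsIntegral ↥(modularFunctionFieldFullC K N) y := by
    rintro _ ⟨c, rfl⟩
    obtain ⟨p, hp0, hp⟩ := Algebra.IsAlgebraic.isAlgebraic (R := K) c
    refine IsAlgebraic.isIntegral ⟨p.map (algebraMap K ↥(modularFunctionFieldFullC K N)),
      (Polynomial.map_ne_zero_iff (algebraMap K _).injective).mpr hp0, ?_⟩
    rw [aeval_def, eval₂_map, hcomp, ← hom_eval₂, ← aeval_def, hp, map_zero]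
  have hTint : ∀ y ∈ T, IsIntegral ↥(modularFunctionFieldFullC K N) y := by
    intro y hy
    have hle : T ≤ integralClosure ↥(modularFunctionFieldFullC K N) (LaurentSeries L) :=
      Algebra.adjoin_le hgen
    exact hle hy
  have hinv : ∀ y ∈ T, y⁻¹ ∈ T := by
    intro y hy
    exact T.inv_mem_of_algebraic (x := ⟨y, hy⟩) (hTint y hy).isAlgebraic
  -- the function field over `L` is contained in `T`
  have hxT : x ∈ T := by
    have hx' : x ∈ Subfield.closure
        (Set.range (algebraMap L (LaurentSeries L)) ∪ divisorExpansionsC L N) := hx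
    clear hx
    induction hx' using Subfield.closure_induction with
    | mem y hy =>
        rcases hy with hy | ⟨d, hd, hdN, rfl⟩
        · exact Algebra.subset_adjoin hy
        · have := hd
          have h1 : qExpand L d (jqModC L) =
              algebraMap ↥(modularFunctionFieldFullC K N) (LaurentSeries L)
                ⟨qExpand K d (jqModC K), jqModCd_mem_full K N hdN⟩ := by
            rw [halg, coeffMap_qExpand, coeffMap_jqModC]
          rw [h1]
          exact T.algebraMap_mem _
    | one => exact T.one_mem
    | add x y _ _ hx hy => exact T.add_mem hx hy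
    | neg x _ hx => exact T.neg_mem hx
    | inv x _ hx => exact hinv _ hx
    | mul x y _ _ hx hy => exact T.mul_mem hx hy
  -- elements of `T` are finite sums
  have hspan : x ∈ Submodule.span ↥(modularFunctionFieldFullC K N)
      (Set.range (algebraMap L (LaurentSeries L))) := by
    have h1 : x ∈ Subalgebra.toSubmodule T := hxT
    rw [hT, Algebra.adjoin_eq_span] at h1
    have h2 : (Submonoid.closure (Set.range (algebraMap L (LaurentSeries L))) : Set _) =
        Set.range (algebraMap L (LaurentSeries L)) := by
      have h3 : Set.range (algebraMap L (LaurentSeries L)) =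
          ((algebraMap L (LaurentSeries L)).rangeS.toSubmonoid : Set (LaurentSeries L)) := by
        ext z; exact Iff.rfl
      rw [h3, Submonoid.closure_eq]
    rwa [h2] at h1
  obtain ⟨n, f, g, hfg⟩ := Submodule.mem_span_set'.mp hspan
  choose c hc using fun i => (g i).2
  refine ⟨n, c, fun i => (f i : LaurentSeries K), fun i => (f i).2, ?_⟩
  rw [← hfg]
  refine Finset.sum_congr rfl fun i _ => ?_
  rw [Algebra.smul_def, halg, ← hc i, algebraMap_laurentSeries_eq_single, mul_comm]
  rfl

/-- An element of the modular function field over `L` with coefficients in `K` lies in the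
modular function field over `K`. -/
theorem mem_fullC_of_coeffMap_mem [Algebra.IsAlgebraic K L] {y : LaurentSeries K}
    (hy : coeffMap (algebraMap K L) y ∈ modularFunctionFieldFullC L N) :
    y ∈ modularFunctionFieldFullC K N := by
  obtain ⟨n, c, f, hf, hsum⟩ := exists_sum_of_mem_fullC (K := K) N hy
  obtain ⟨φ, hφ⟩ := LinearMap.exists_leftInverse_of_injective (Algebra.linearMap K L)
    (LinearMap.ker_eq_bot.mpr (algebraMap K L).injective)
  have hφ1 : ∀ a : K, φ (algebraMap K L a) = a := fun a => by
    have := congrArg (fun g : K →ₗ[K] K => g a) hφ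
    simpa using this
  have key : y = ∑ i, HahnSeries.C (φ (c i)) * f i := by
    ext m
    have hm := congrArg (fun z : LaurentSeries L => z.coeff m) hsum
    simp only [HahnSeries.coeff_sum, coeff_C_mul, coeffMap_coeff] at hm
    rw [HahnSeries.coeff_sum, ← hφ1 (y.coeff m), hm, map_sum]
    refine Finset.sum_congr rfl fun i _ => ?_
    rw [coeff_C_mul, mul_comm (c i), ← Algebra.smul_def, map_smul, smul_eq_mul, mul_comm]
  rw [key]
  refine sum_mem fun i _ => mul_mem ?_ (hf i)
  have : (HahnSeries.C (φ (c i)) : LaurentSeries K) = algebraMap K (LaurentSeries K) (φ (c i)) := by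
    rw [algebraMap_laurentSeries_eq_single]; rfl
  rw [this]
  exact (modularFunctionFieldFullC K N).algebraMap_mem _

end FullC

/-! ### `modularFunctionFieldBar N` is the modular function field over `ℚ̄` -/

theorem laurentBaseChange_full_eq (L : Type*) [Field L] [Algebra ℚ L] (N : ℕ) :
    laurentBaseChange L (modularFunctionFieldFull N) = modularFunctionFieldFullC L N := by
  apply le_antisymm
  · rw [laurentBaseChange, IntermediateField.adjoin_le_iff]
    rintro _ ⟨x, hx, rfl⟩
    exact coeffMap_mem_fullC (K := ℚ) (L := L) N
      (show x ∈ modularFunctionFieldFullC ℚ N from hx)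
  · rw [modularFunctionFieldFullC, IntermediateField.adjoin_le_iff]
    rintro _ ⟨d, hd, hdN, rfl⟩
    have := hd
    have h1 : qExpand L d (jqModC L) = coeffEmb L (qExpand ℚ d (jqModC ℚ)) := by
      rw [coeffEmb, coeffMap_qExpand, coeffMap_jqModC]
    rw [h1]
    exact coeffEmb_mem_laurentBaseChange L (jqModCd_mem_full ℚ N hdN)

theorem modularFunctionFieldBar_eq (N : ℕ) :
    modularFunctionFieldBar N = modularFunctionFieldFullC (AlgebraicClosure ℚ) N :=
  laurentBaseChange_full_eq _ N

end Fermat.Agent.RedLib.DescBase
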