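import Mathlib
import Fermat.Prelude.Def_ModularCurve_X0ModL

/-!
# S18 long shot, leaf W7: the concrete tower of fields

For a field `K`, a level `N`, a natural number `p`, an element `u` of the modular function field
`F_K` and two integral polynomials `Pn`, `Pd` (numerator and denominator of the auxiliary cover
`j = Pn(t) / Pd(t)`):

* `FK N K` : the modular function field `K(j(q^d) : d ∣ N)` as a type; `jK N K : FK N K`;
* `Fu p u := AdjoinRoot (X ^ p - C u)` : the Kummer extension `F_K(T_u)`, `T_u ^ p = u`
  (a field under `[Fact (Irreducible (X ^ p - C u))]`);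
* `PhiK Pn Pd = Pn - j * Pd ∈ F_K[X]`, `PhiU` its image in `F_u[X]`;
* `FF p u Pn Pd := AdjoinRoot (PhiU p u Pn Pd).factor` : the extension `F_u(t)`, `t` a root of
  (an irreducible factor of) `Pn - j * Pd`.

All algebra structures are the canonical `AdjoinRoot` ones, so that
`K → FK → Fu → FF` is a tower of fields with all scalar towers available by instance search.
-/

set_option autoImplicit false

noncomputable section

namespace Fermat.Agent.RedLib.Inst

open Polynomial ModularCurve

variable (N : ℕ) (K : Type*) [Field K]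

/-- The modular function field `K(j(q^d) : d ∣ N)` as a type. -/
abbrev FK : Type _ := ↥(modularFunctionFieldFullC K N)

/-- The formal `j`-invariant, as an element of `FK N K`. -/
def jK : FK N K := ⟨jqModC K, jqModC_mem_full K N⟩

@[simp] theorem coe_jK : ((jK N K : FK N K) : LaurentSeries K) = jqModC K := rfl

/-! Shortcut instances (instance search through `AdjoinRoot` and `HahnSeries` is slow). -/

set_option synthInstance.maxHeartbeats 400000 in
instance algebraKFK : Algebra K (FK N K) := inferInstance

instance moduleKFK : Module K (FK N K) := Algebra.toModule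

instance smulKFK : SMul K (FK N K) := Algebra.toSMul

variable {N K}

/-- The Kummer polynomial `X ^ p - u`. -/
abbrev kum (p : ℕ) (u : FK N K) : (FK N K)[X] := X ^ p - C u

/-- The Kummer extension `F_K(T_u)`, `T_u ^ p = u`. -/
abbrev Fu (p : ℕ) (u : FK N K) : Type _ := AdjoinRoot (kum p u)

set_option synthInstance.maxHeartbeats 400000 in
instance algebraFu (p : ℕ) (u : FK N K) : Algebra (FK N K) (Fu p u) := inferInstance

set_option synthInstance.maxHeartbeats 400000 in
instance algebraKFu (p : ℕ) (u : FK N K) : Algebra K (Fu p u) := inferInstance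

instance moduleFu (p : ℕ) (u : FK N K) : Module (FK N K) (Fu p u) := Algebra.toModule

instance smulFu (p : ℕ) (u : FK N K) : SMul (FK N K) (Fu p u) := Algebra.toSMul

instance moduleKFu (p : ℕ) (u : FK N K) : Module K (Fu p u) := Algebra.toModule

instance smulKFu (p : ℕ) (u : FK N K) : SMul K (Fu p u) := Algebra.toSMul

set_option synthInstance.maxHeartbeats 400000 in
instance isScalarTowerFu (p : ℕ) (u : FK N K) : IsScalarTower K (FK N K) (Fu p u) :=
  inferInstance

/-- The root `T_u`. -/
def Tu (p : ℕ) (u : FK N K) : Fu p u := AdjoinRoot.root (kum p u)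

theorem Tu_pow (p : ℕ) (u : FK N K) : Tu p u ^ p = algebraMap (FK N K) (Fu p u) u := by
  have h := AdjoinRoot.eval₂_root (kum p u)
  rw [kum, eval₂_sub, eval₂_pow, eval₂_X, eval₂_C, sub_eq_zero] at h
  exact h

variable (N K) in
/-- The cover polynomial `Φ = Pn - j * Pd` over `F_K`. -/
def PhiK (Pn Pd : ℤ[X]) : (FK N K)[X] :=
  Pn.map (Int.castRingHom (FK N K)) - C (jK N K) * Pd.map (Int.castRingHom (FK N K))

/-- The cover polynomial over `F_u`. -/
def PhiU (p : ℕ) (u : FK N K) (Pn Pd : ℤ[X]) : (Fu p u)[X] :=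
  (PhiK N K Pn Pd).map (algebraMap (FK N K) (Fu p u))

theorem PhiU_eq (p : ℕ) (u : FK N K) (Pn Pd : ℤ[X]) :
    PhiU p u Pn Pd = Pn.map (Int.castRingHom (Fu p u)) -
      C (algebraMap (FK N K) (Fu p u) (jK N K)) * Pd.map (Int.castRingHom (Fu p u)) := by
  rw [PhiU, PhiK, Polynomial.map_sub, Polynomial.map_mul, Polynomial.map_C, Polynomial.map_map,
    Polynomial.map_map]
  congr 2

section Field

variable (p : ℕ) (u : FK N K) [Fact (Irreducible (kum p u))] (Pn Pd : ℤ[X])

instance factIrreducibleFactor : Fact (Irreducible (PhiU p u Pn Pd).factor) :=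
  Polynomial.fact_irreducible_factor _

/-- The top field `F_u(t)`, `t` a root of `Pn - j * Pd`. -/
abbrev FF : Type _ := AdjoinRoot (PhiU p u Pn Pd).factor

instance fieldFu : Field (Fu p u) := inferInstance

instance fieldFF : Field (FF p u Pn Pd) := inferInstance

set_option synthInstance.maxHeartbeats 400000 in
instance algebraFF : Algebra (Fu p u) (FF p u Pn Pd) := inferInstance

set_option synthInstance.maxHeartbeats 400000 in
instance algebraFKFF : Algebra (FK N K) (FF p u Pn Pd) := inferInstance

set_option synthInstance.maxHeartbeats 400000 in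
instance algebraKFF : Algebra K (FF p u Pn Pd) := inferInstance

instance moduleFF : Module (Fu p u) (FF p u Pn Pd) := Algebra.toModule

instance smulFF : SMul (Fu p u) (FF p u Pn Pd) := Algebra.toSMul

instance moduleFKFF : Module (FK N K) (FF p u Pn Pd) := Algebra.toModule

instance smulFKFF : SMul (FK N K) (FF p u Pn Pd) := Algebra.toSMul

instance moduleKFF : Module K (FF p u Pn Pd) := Algebra.toModule

instance smulKFF : SMul K (FF p u Pn Pd) := Algebra.toSMul

set_option synthInstance.maxHeartbeats 400000 in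
instance isScalarTowerFF : IsScalarTower (FK N K) (Fu p u) (FF p u Pn Pd) := inferInstance

set_option synthInstance.maxHeartbeats 400000 in
instance isScalarTowerKFF : IsScalarTower K (FK N K) (FF p u Pn Pd) := inferInstance

set_option synthInstance.maxHeartbeats 400000 in
instance isScalarTowerKFuFF : IsScalarTower K (Fu p u) (FF p u Pn Pd) := inferInstance

/-- The root `t`. -/
def tt : FF p u Pn Pd := AdjoinRoot.root _

theorem kum_ne_zero : kum p u ≠ 0 := (Fact.out : Irreducible (kum p u)).ne_zero

instance finiteDimensional_Fu : FiniteDimensional (FK N K) (Fu p u) :=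
  (AdjoinRoot.powerBasis (kum_ne_zero p u)).finite

instance finiteDimensional_FF : FiniteDimensional (Fu p u) (FF p u Pn Pd) :=
  (AdjoinRoot.powerBasis (Polynomial.irreducible_factor (PhiU p u Pn Pd)).ne_zero).finite

instance finiteDimensional_FF' : FiniteDimensional (FK N K) (FF p u Pn Pd) :=
  FiniteDimensional.trans (FK N K) (Fu p u) (FF p u Pn Pd)

/-- `[F_u : F_K] = p`. -/
theorem finrank_Fu : Module.finrank (FK N K) (Fu p u) = p := by
  rw [(AdjoinRoot.powerBasis (kum_ne_zero p u)).finrank, AdjoinRoot.powerBasis_dim]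
  exact natDegree_X_pow_sub_C

/-- `t` is a root of the chosen irreducible factor. -/
theorem eval₂_tt_factor :
    eval₂ (algebraMap (Fu p u) (FF p u Pn Pd)) (tt p u Pn Pd) (PhiU p u Pn Pd).factor = 0 :=
  AdjoinRoot.eval₂_root _

/-- `t` is a root of `Φ = Pn - j * Pd` (as soon as `Φ` is not constant). -/
theorem eval₂_tt (hdeg : (PhiU p u Pn Pd).natDegree ≠ 0) :
    eval₂ (algebraMap (Fu p u) (FF p u Pn Pd)) (tt p u Pn Pd) (PhiU p u Pn Pd) = 0 := by
  obtain ⟨g, hg⟩ := Polynomial.factor_dvd_of_natDegree_ne_zero hdeg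
  have h1 : eval₂ (algebraMap (Fu p u) (FF p u Pn Pd)) (tt p u Pn Pd)
      ((PhiU p u Pn Pd).factor * g) = 0 := by
    rw [eval₂_mul, eval₂_tt_factor, zero_mul]
  exact (congrArg (eval₂ (algebraMap (Fu p u) (FF p u Pn Pd)) (tt p u Pn Pd)) hg).trans h1

/-- The image of `j` in the top field. -/
def jFF : FF p u Pn Pd := algebraMap (FK N K) (FF p u Pn Pd) (jK N K)

/-- `Pn(t) = j * Pd(t)` in the top field. -/
theorem eval_tt (hdeg : (PhiU p u Pn Pd).natDegree ≠ 0) :
    (Pn.map (Int.castRingHom (FF p u Pn Pd))).eval (tt p u Pn Pd) =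
      jFF p u Pn Pd * (Pd.map (Int.castRingHom (FF p u Pn Pd))).eval (tt p u Pn Pd) := by
  have h := (congrArg (eval₂ (algebraMap (Fu p u) (FF p u Pn Pd)) (tt p u Pn Pd))
    (PhiU_eq p u Pn Pd)).symm.trans (eval₂_tt p u Pn Pd hdeg)
  rw [eval₂_sub, eval₂_mul, eval₂_C, eval₂_map, eval₂_map, sub_eq_zero] at h
  rw [eval_map, eval_map]
  have e : (algebraMap (Fu p u) (FF p u Pn Pd)).comp (Int.castRingHom (Fu p u)) =
      Int.castRingHom (FF p u Pn Pd) := RingHom.ext_int _ _
  rw [e] at h
  rw [h, jFF, IsScalarTower.algebraMap_apply (FK N K) (Fu p u) (FF p u Pn Pd)]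

/-- The top field is generated by `t` over `F_u`. -/
theorem adjoin_tt : Algebra.adjoin (Fu p u) {tt p u Pn Pd} = ⊤ :=
  AdjoinRoot.adjoinRoot_eq_top

/-- `F_u` is generated by `T_u` over `F_K`. -/
theorem adjoin_Tu : Algebra.adjoin (FK N K) {Tu p u} = ⊤ :=
  AdjoinRoot.adjoinRoot_eq_top

end Field

end Fermat.Agent.RedLib.Inst
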