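import Mathlib
import Fermat.Prelude.Def_ModularCurve_X0ModL
import Fermat.Agent.RedLib.DescBase
import Fermat.Agent.RedLib.Inst

/-!
# S18 long shot, leaf W7: the endgame

If the Kummer extension `F_u = F_K(T_u)`, `T_u ^ p = u`, contains `p` elements which are
algebraic over `K` and linearly independent over `K`, then `u` is a `p`-th power in the modular
function field over any algebraically closed extension `L` of `K`.
-/

set_option autoImplicit false

noncomputable section

namespace Fermat.Agent.RedLib.Endgame

open Polynomial ModularCurve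
open Fermat.Agent.RedLib

variable {K L : Type*} [Field K] [Field L] [Algebra K L] (N : ℕ)

/-- The coefficient extension `F_K → F_L`. -/
def baseMap : Inst.FK N K →+* Inst.FK N L where
  toFun x := ⟨coeffMap (algebraMap K L) (x : LaurentSeries K), DescBase.coeffMap_mem_fullC N x.2⟩
  map_one' := Subtype.ext (by simp)
  map_mul' x y := Subtype.ext (by simp)
  map_zero' := Subtype.ext (by simp)
  map_add' x y := Subtype.ext (by simp)

@[simp] theorem coe_baseMap (x : Inst.FK N K) :
    ((baseMap (L := L) N x : Inst.FK N L) : LaurentSeries L) =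
      coeffMap (algebraMap K L) (x : LaurentSeries K) := rfl

theorem baseMap_algebraMap (c : K) :
    baseMap (L := L) N (algebraMap K (Inst.FK N K) c) =
      algebraMap L (Inst.FK N L) (algebraMap K L c) := by
  apply Subtype.ext
  rw [coe_baseMap]
  show coeffMap (algebraMap K L) (algebraMap K (LaurentSeries K) c) =
    algebraMap L (LaurentSeries L) (algebraMap K L c)
  rw [algebraMap_laurentSeries_eq_single, coeffMap_single, ← algebraMap_laurentSeries_eq_single]

/-- An element of a field extension of an algebraically closed field `L` which is algebraic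
over `L` lies in `L`. -/
theorem exists_algebraMap_eq_of_isAlgebraic {L Ω : Type*} [Field L] [Field Ω] [Algebra L Ω]
    [IsAlgClosed L] (x : Ω) (hx : IsAlgebraic L x) : ∃ c : L, algebraMap L Ω c = x := by
  have hint : IsIntegral L x := hx.isIntegral
  have hdeg : (minpoly L x).degree = 1 :=
    IsAlgClosed.degree_eq_one_of_irreducible L (minpoly.irreducible hint)
  exact minpoly.mem_range_of_degree_eq_one L x hdeg

section Main

variable [IsAlgClosed L] (p : ℕ) (u : Inst.FK N K) [Fact (Irreducible (Inst.kum p u))]

/-- **Endgame.** If `F_u` contains `p` elements algebraic over `K` and linearly independent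
over `K`, then `u` becomes a `p`-th power in the modular function field over `L`. -/
theorem exists_pow_eq_of_indep (y : Fin p → Inst.Fu p u) (hy : LinearIndependent K y)
    (halg : ∀ i, IsAlgebraic K (y i)) :
    ∃ w : LaurentSeries L, w ∈ modularFunctionFieldFullC L N ∧
      w ^ p = coeffMap (algebraMap K L) (u : LaurentSeries K) := by
  classical
  -- the big field
  let Ω := AlgebraicClosure (Inst.FK N L)
  let σ₁ : Inst.FK N K →+* Ω := (algebraMap (Inst.FK N L) Ω).comp (baseMap (L := L) N)
  have hirr : Irreducible (Inst.kum p u) := Fact.out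
  have hp : p ≠ 0 := by
    rintro rfl
    have h0 : (Inst.kum 0 u).natDegree = 0 := by
      have := natDegree_X_pow_sub_C (R := Inst.FK N K) (n := 0) (r := u)
      exact this
    have hu : IsUnit (Inst.kum 0 u) := by
      rw [Polynomial.isUnit_iff]
      refine ⟨(Inst.kum 0 u).coeff 0, ?_, (eq_C_of_natDegree_eq_zero h0).symm⟩
      rw [isUnit_iff_ne_zero]
      intro h
      apply hirr.ne_zero
      rw [eq_C_of_natDegree_eq_zero h0, h, C_0]
    exact hirr.not_isUnit hu
  -- a root `θ` of `X ^ p - σ₁ u`
  obtain ⟨θ, hθ⟩ := IsAlgClosed.exists_pow_nat_eq (σ₁ u) (Nat.pos_of_ne_zero hp)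
  have hθ' : eval₂ σ₁ θ (Inst.kum p u) = 0 := by
    rw [Inst.kum, eval₂_sub, eval₂_pow, eval₂_X, eval₂_C, hθ, sub_self]
  let σ : Inst.Fu p u →+* Ω := AdjoinRoot.lift σ₁ θ hθ'
  have hσ_of : ∀ f : Inst.FK N K, σ (algebraMap (Inst.FK N K) (Inst.Fu p u) f) = σ₁ f := by
    intro f
    exact AdjoinRoot.lift_of hθ'
  have hσ_root : σ (Inst.Tu p u) = θ := AdjoinRoot.lift_root hθ'
  have hσ_inj : Function.Injective σ := σ.injective
  -- compatibility of the constants
  have hσ_K : ∀ c : K, σ (algebraMap K (Inst.Fu p u) c) = algebraMap L Ω (algebraMap K L c) := by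
    intro c
    rw [IsScalarTower.algebraMap_apply K (Inst.FK N K) (Inst.Fu p u), hσ_of]
    show algebraMap (Inst.FK N L) Ω (baseMap N (algebraMap K (Inst.FK N K) c)) = _
    rw [baseMap_algebraMap, ← IsScalarTower.algebraMap_apply]
  -- the images of the `y i` are constants
  have hconst : ∀ i, ∃ c : L, algebraMap L Ω c = σ (y i) := by
    intro i
    apply exists_algebraMap_eq_of_isAlgebraic
    obtain ⟨P, hP0, hP⟩ := halg i
    refine ⟨P.map (algebraMap K L), (Polynomial.map_ne_zero_iff (algebraMap K L).injective).mpr hP0,
      ?_⟩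
    rw [aeval_def, eval₂_map]
    have h1 : (algebraMap L Ω).comp (algebraMap K L) = σ.comp (algebraMap K (Inst.Fu p u)) := by
      ext c
      exact (hσ_K c).symm
    rw [h1, ← hom_eval₂, ← aeval_def, hP, map_zero]
  choose c hc using hconst
  -- the constants are `K`-independent
  have hcind : LinearIndependent K c := by
    rw [Fintype.linearIndependent_iff]
    intro a ha
    have h1 : σ (∑ i, a i • y i) = 0 := by
      rw [map_sum]
      have h2 : ∀ i ∈ Finset.univ, σ (a i • y i) = algebraMap L Ω (a i • c i) := by
        intro i _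
        rw [Algebra.smul_def, map_mul, hσ_K, Algebra.smul_def, map_mul, hc]
      rw [Finset.sum_congr rfl h2, ← map_sum, ha, map_zero]
    have h3 : ∑ i, a i • y i = 0 := hσ_inj (by rw [h1, map_zero])
    exact Fintype.linearIndependent_iff.mp hy a h3
  -- image of an `F_K`-combination
  have himg : ∀ f : Fin p → Inst.FK N K, σ (∑ i, f i • y i) =
      algebraMap (Inst.FK N L) Ω
        (∑ i, algebraMap L (Inst.FK N L) (c i) * baseMap (L := L) N (f i)) := by
    intro f
    rw [map_sum, map_sum]
    refine Finset.sum_congr rfl fun i _ => ?_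
    rw [Algebra.smul_def, map_mul, hσ_of, ← hc, map_mul, ← IsScalarTower.algebraMap_apply,
      mul_comm]
    rfl
  -- hence the `y i` are `F_K`-independent
  have hyind : LinearIndependent (Inst.FK N K) y := by
    rw [Fintype.linearIndependent_iff]
    intro f hf
    have h1 : algebraMap (Inst.FK N L) Ω
        (∑ i, algebraMap L (Inst.FK N L) (c i) * baseMap (L := L) N (f i)) = 0 := by
      rw [← himg, hf, map_zero]
    have h2 : (∑ i, algebraMap L (Inst.FK N L) (c i) * baseMap (L := L) N (f i)) = 0 :=
      (algebraMap (Inst.FK N L) Ω).injective (by rw [h1, map_zero])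
    have h3 : ∑ i ∈ Finset.univ, HahnSeries.C (c i) *
        coeffMap (algebraMap K L) ((f i : Inst.FK N K) : LaurentSeries K) = 0 := by
      have h4 := congrArg (fun z : Inst.FK N L => (z : LaurentSeries L)) h2
      simp only [AddSubmonoidClass.coe_finsetSum, MulMemClass.coe_mul, coe_baseMap,
        ZeroMemClass.coe_zero] at h4
      rw [← h4]
      refine Finset.sum_congr rfl fun i _ => ?_
      congr 1
      show HahnSeries.C (c i) = algebraMap L (LaurentSeries L) (c i)
      rw [algebraMap_laurentSeries_eq_single]
      rfl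
    intro i
    have h5 := DescBase.eq_zero_of_sum_C_mul_coeffMap' c hcind Finset.univ
      (fun i => ((f i : Inst.FK N K) : LaurentSeries K)) h3 i (Finset.mem_univ i)
    exact Subtype.ext h5
  -- so they span `F_u`
  have hspan : Submodule.span (Inst.FK N K) (Set.range y) = ⊤ := by
    apply hyind.span_eq_top_of_card_eq_finrank'
    rw [Fintype.card_fin, Inst.finrank_Fu]
  have hT : Inst.Tu p u ∈ Submodule.span (Inst.FK N K) (Set.range y) := by
    rw [hspan]; exact Submodule.mem_top
  obtain ⟨f, hf⟩ := (Submodule.mem_span_range_iff_exists_fun (Inst.FK N K)).mp hT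
  refine ⟨((∑ i, algebraMap L (Inst.FK N L) (c i) * baseMap (L := L) N (f i) : Inst.FK N L) :
    LaurentSeries L), SetLike.coe_mem _, ?_⟩
  have h6 : algebraMap (Inst.FK N L) Ω
      ((∑ i, algebraMap L (Inst.FK N L) (c i) * baseMap (L := L) N (f i)) ^ p) =
      algebraMap (Inst.FK N L) Ω (baseMap (L := L) N u) := by
    rw [map_pow, ← himg, hf, hσ_root, hθ]
    rfl
  have h7 := (algebraMap (Inst.FK N L) Ω).injective h6
  have h8 := congrArg (fun z : Inst.FK N L => (z : LaurentSeries L)) h7
  simpa using h8

end Main

end Fermat.Agent.RedLib.Endgame
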