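import Mathlib
import Fermat.Prelude.Def_ModularCurve_X0ModL
import Fermat.Agent.IgusaLib.Gauss

/-!
# S18 (reduction): the Gauss ring of Laurent series over an abstract discrete valuation datum

`A0` is a subring of a field `K`, `red : A0 →+* k` a ring homomorphism onto a field `k` and
`π : K` an element of `A0`, such that `ker red = π A0` and every nonzero element of `K` is
`π ^ n * u` with `red u ≠ 0` (`IsGaussDatum A0 red π`: "`A0` is a discrete valuation ring with
fraction field `K`, uniformiser `π` and residue map `red`").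

Inside `LaurentSeries K`:

* `Oint red` : the Gauss ring, quotients `a / b` of Laurent series with coefficients in `A0`, the
  denominator `b` being nonzero modulo `π`;
* `rho red : Oint red →+* LaurentSeries k` : the reduction map `a / b ↦ ā / b̄`;
* `rho_eq_zero` : the kernel of `rho` is generated by `π`;
* `exists_pow_mul_of_mem_Oint` : a nonzero element of the Gauss ring is `π ^ n * u`, `rho u ≠ 0`;
* `KO red π` : the subfield `Oint[1 / π]` of `K((q))`;
* `mem_Oint_of_isIntegral_of_le` : the Gauss ring is integrally closed in `KO`.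

This is the generalisation of `IgusaLib/Gauss.lean`, `IgusaLib/Val.lean` from `ℤ_(l) ⊆ ℚ` to an
arbitrary discrete valuation ring.
-/

set_option autoImplicit false
set_option linter.unusedSectionVars false
set_option linter.unusedVariables false

noncomputable section

namespace Fermat.Agent.RedLib.GaussK

open ModularCurve

/-- `A0 ⊆ K` is a discrete valuation ring with fraction field `K`, uniformiser `π` and residue
map `red` (onto the field `k`). -/
structure IsGaussDatum {K : Type*} [Field K] {k : Type*} [Field k] (A0 : Subring K)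
    (red : A0 →+* k) (π : K) : Prop where
  pi_mem : π ∈ A0
  pi_ne_zero : π ≠ 0
  red_surjective : Function.Surjective red
  red_pi : ∀ x : A0, (x : K) = π → red x = 0
  red_eq_zero : ∀ x : A0, red x = 0 → ∃ y : A0, (x : K) = π * (y : K)
  exists_zpow_mul : ∀ x : K, x ≠ 0 → ∃ (n : ℤ) (u : A0), red u ≠ 0 ∧ x = π ^ n * (u : K)

variable {K : Type*} [Field K] {k : Type*} [Field k] {A0 : Subring K} {red : A0 →+* k} {π : K}

/-! ### Elementary consequences of the datum -/

theorem IsGaussDatum.red_mul_pi (h : IsGaussDatum A0 red π) (x y : A0)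
    (hxy : (x : K) = π * (y : K)) : red x = 0 := by
  have e : x = ⟨π, h.pi_mem⟩ * y := Subtype.ext hxy
  rw [e, map_mul, h.red_pi ⟨π, h.pi_mem⟩ rfl, zero_mul]

/-- A nonzero element of `A0` is `π ^ n * u` with `n : ℕ`. -/
theorem IsGaussDatum.exists_pow_mul (h : IsGaussDatum A0 red π) (x : A0) (hx : x ≠ 0) :
    ∃ (n : ℕ) (u : A0), red u ≠ 0 ∧ (x : K) = π ^ n * (u : K) := by
  have hx0 : (x : K) ≠ 0 := fun h0 => hx (Subtype.ext h0)
  obtain ⟨n, u, hu, hxu⟩ := h.exists_zpow_mul (x : K) hx0
  rcases le_or_gt 0 n with hn | hn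
  · lift n to ℕ using hn
    exact ⟨n, u, hu, by rw [hxu, zpow_natCast]⟩
  · exfalso
    obtain ⟨m, rfl⟩ : ∃ m : ℕ, n = -((m : ℤ) + 1) := ⟨(-n - 1).toNat, by omega⟩
    apply hu
    have e : (u : K) = π * ((⟨π, h.pi_mem⟩ ^ m * x : A0) : K) := by
      rw [Subring.coe_mul, Subring.coe_pow, hxu, zpow_neg, ← Nat.cast_succ, zpow_natCast,
        pow_succ]
      field_simp [h.pi_ne_zero]
    exact h.red_mul_pi u _ e

/-- An element `x` of `K` with `π * x ∈ A0` and `red (π * x) = 0` lies in `A0`. -/
theorem IsGaussDatum.mem_of_red_eq_zero (h : IsGaussDatum A0 red π) (x : A0) (hx : red x = 0) :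
    π⁻¹ * (x : K) ∈ A0 := by
  obtain ⟨y, hy⟩ := h.red_eq_zero x hx
  rw [hy, inv_mul_cancel_left₀ h.pi_ne_zero]
  exact y.2

/-! ### Integral Laurent series and their reduction -/

/-- The inclusion of Laurent series over `A0` into Laurent series over `K`. -/
abbrev inclA (A0 : Subring K) : LaurentSeries A0 →+* LaurentSeries K := coeffMap A0.subtype

/-- Reduction of Laurent series over `A0`. -/
abbrev redA (red : A0 →+* k) : LaurentSeries A0 →+* LaurentSeries k := coeffMap red

theorem inclA_injective : Function.Injective (inclA A0) :=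
  Fermat.Agent.IgusaLib.coeffMap_injective _ Subtype.val_injective

/-- A Laurent series over `K` with coefficients in `A0` comes from a series over `A0`. -/
theorem exists_inclA_eq (y : LaurentSeries K) (hy : ∀ n, y.coeff n ∈ A0) :
    ∃ a : LaurentSeries A0, inclA A0 a = y :=
  Fermat.Agent.IgusaLib.exists_coeffMap_eq A0.subtype y (fun n => ⟨y.coeff n, hy n⟩)
    (fun _ => rfl) (fun n hn => Subtype.ext hn)

/-- Every Laurent series over `k` is the reduction of a series over `A0`. -/
theorem exists_redA_eq (h : IsGaussDatum A0 red π) (y : LaurentSeries k) :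
    ∃ a : LaurentSeries A0, redA red a = y := by
  classical
  choose g hg using h.red_surjective
  refine Fermat.Agent.IgusaLib.exists_coeffMap_eq red y
    (fun n => if y.coeff n = 0 then 0 else g (y.coeff n)) (fun n => ?_) (fun n hn => ?_)
  · by_cases h0 : y.coeff n = 0
    · simp only [h0, if_true, map_zero]
    · simp only [h0, if_false, hg]
  · simp only [hn, if_true]

theorem C_mul_coeff (c : K) (x : LaurentSeries K) (n : ℤ) :
    (HahnSeries.C c * x).coeff n = c * x.coeff n := by
  rw [HahnSeries.C_mul_eq_smul, HahnSeries.coeff_smul, smul_eq_mul]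

theorem C_ne_zero {c : K} (hc : c ≠ 0) : (HahnSeries.C c : LaurentSeries K) ≠ 0 := by
  rw [Ne, map_eq_zero_iff _ HahnSeries.C_injective]
  exact hc

/-- A series over `A0` with zero reduction is divisible by `π`. -/
theorem exists_eq_mul_of_redA_eq_zero (h : IsGaussDatum A0 red π) (a : LaurentSeries A0)
    (ha : redA red a = 0) :
    ∃ a' : LaurentSeries A0, inclA A0 a = HahnSeries.C π * inclA A0 a' := by
  have hc : ∀ n, red (a.coeff n) = 0 := by
    intro n
    have := congrArg (fun z => z.coeff n) ha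
    simpa using this
  obtain ⟨a', ha'⟩ := exists_inclA_eq (A0 := A0) (HahnSeries.C π⁻¹ * inclA A0 a) (by
    intro n
    rw [C_mul_coeff, coeffMap_coeff]
    exact h.mem_of_red_eq_zero _ (hc n))
  refine ⟨a', ?_⟩
  rw [ha', ← mul_assoc, ← map_mul, mul_inv_cancel₀ h.pi_ne_zero, map_one, one_mul]

/-- A nonzero series over `A0` is a power of `π` times a series with nonzero reduction. -/
theorem exists_pow_mul_inclA (h : IsGaussDatum A0 red π) (a : LaurentSeries A0) (ha : a ≠ 0) :
    ∃ (n : ℕ) (a' : LaurentSeries A0), redA red a' ≠ 0 ∧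
      inclA A0 a = HahnSeries.C π ^ n * inclA A0 a' := by
  obtain ⟨m, hm⟩ : ∃ m, a.coeff m ≠ 0 := by
    by_contra hcon
    apply ha
    ext m
    by_contra hm
    exact hcon ⟨m, fun h0 => hm (by rw [h0]; rfl)⟩
  obtain ⟨N, u, hu, hNu⟩ := h.exists_pow_mul (a.coeff m) hm
  clear hm ha
  induction N generalizing a u with
  | zero =>
    refine ⟨0, a, fun h0 => hu ?_, by rw [pow_zero, one_mul]⟩
    have h1 : red (a.coeff m) = 0 := by
      have := congrArg (fun z => z.coeff m) h0
      simpa using this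
    have e : a.coeff m = u := Subtype.ext (by rw [hNu, pow_zero, one_mul])
    rw [← e]; exact h1
  | succ N ih =>
    by_cases h0 : redA red a = 0
    · obtain ⟨a', ha'⟩ := exists_eq_mul_of_redA_eq_zero h a h0
      have hc : ((a'.coeff m : A0) : K) = π ^ N * (u : K) := by
        have h1 := congrArg (fun z => z.coeff m) ha'
        simp only [C_mul_coeff, coeffMap_coeff, Subring.subtype_apply] at h1
        rw [hNu] at h1
        have h2 : π * ((a'.coeff m : A0) : K) = π * (π ^ N * (u : K)) := by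
          rw [← h1]; ring
        exact mul_left_cancel₀ h.pi_ne_zero h2
      obtain ⟨n, a'', ha'', hn⟩ := ih a' u hu hc
      exact ⟨n + 1, a'', ha'', by rw [ha', hn, pow_succ]; ring⟩
    · exact ⟨0, a, h0, by rw [pow_zero, one_mul]⟩

/-! ### The Gauss ring `Oint` and its reduction map `rho` -/

/-- The Gauss ring: quotients `a / b` of Laurent series with coefficients in `A0`, the
denominator `b` being nonzero modulo `π`. -/
def Oint (red : A0 →+* k) : Subring (LaurentSeries K) where
  carrier := {x | ∃ a b : LaurentSeries A0, redA red b ≠ 0 ∧ x * inclA A0 b = inclA A0 a}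
  mul_mem' := by
    rintro x y ⟨a, b, hb, h⟩ ⟨a', b', hb', h'⟩
    refine ⟨a * a', b * b', ?_, ?_⟩
    · rw [map_mul]; exact mul_ne_zero hb hb'
    · rw [map_mul, map_mul, ← h, ← h']; ring
  one_mem' := ⟨1, 1, by rw [map_one]; exact one_ne_zero, by rw [map_one, mul_one]⟩
  add_mem' := by
    rintro x y ⟨a, b, hb, h⟩ ⟨a', b', hb', h'⟩
    refine ⟨a * b' + a' * b, b * b', ?_, ?_⟩
    · rw [map_mul]; exact mul_ne_zero hb hb'
    · rw [map_mul, map_add, map_mul, map_mul, ← h, ← h']; ring
  zero_mem' := ⟨0, 1, by rw [map_one]; exact one_ne_zero, by rw [map_zero, zero_mul]⟩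
  neg_mem' := by
    rintro x ⟨a, b, hb, h⟩
    exact ⟨-a, b, hb, by rw [map_neg, ← h, neg_mul]⟩

theorem mem_Oint_iff {x : LaurentSeries K} :
    x ∈ Oint red ↔ ∃ a b : LaurentSeries A0, redA red b ≠ 0 ∧ x * inclA A0 b = inclA A0 a :=
  Iff.rfl

theorem mem_Oint_of_eq {x : LaurentSeries K} {a b : LaurentSeries A0} (hb : redA red b ≠ 0)
    (h : x * inclA A0 b = inclA A0 a) : x ∈ Oint red :=
  ⟨a, b, hb, h⟩

/-- Integral series lie in the Gauss ring. -/
theorem inclA_mem_Oint (a : LaurentSeries A0) : inclA A0 a ∈ Oint red :=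
  ⟨a, 1, by rw [map_one]; exact one_ne_zero, by rw [map_one, mul_one]⟩

/-- The reduction `a / b ↦ ā / b̄` does not depend on the representation. -/
theorem redA_div_eq {x : LaurentSeries K} {a b a' b' : LaurentSeries A0}
    (hb : redA red b ≠ 0) (hb' : redA red b' ≠ 0) (h : x * inclA A0 b = inclA A0 a)
    (h' : x * inclA A0 b' = inclA A0 a') :
    redA red a / redA red b = redA red a' / redA red b' := by
  have e : a * b' = a' * b := inclA_injective (by
    rw [map_mul, map_mul, ← h, ← h']; ring)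
  rw [div_eq_div_iff hb hb', ← map_mul, ← map_mul, e]

/-- The underlying function of `rho`. -/
def rhoFun (red : A0 →+* k) (x : Oint red) : LaurentSeries k :=
  redA red x.2.choose / redA red x.2.choose_spec.choose

theorem rhoFun_eq (x : Oint red) {a b : LaurentSeries A0} (hb : redA red b ≠ 0)
    (h : (x : LaurentSeries K) * inclA A0 b = inclA A0 a) :
    rhoFun red x = redA red a / redA red b :=
  redA_div_eq x.2.choose_spec.choose_spec.1 hb x.2.choose_spec.choose_spec.2 h

/-- **The reduction map** of the Gauss ring: `a / b ↦ ā / b̄`. -/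
def rho (red : A0 →+* k) : Oint red →+* LaurentSeries k where
  toFun := rhoFun red
  map_one' := by
    rw [rhoFun_eq 1 (a := 1) (b := 1) (by rw [map_one]; exact one_ne_zero)
      (by rw [map_one, mul_one]; rfl), map_one, div_one]
  map_mul' := by
    intro x y
    obtain ⟨a, b, hb, h⟩ := x.2
    obtain ⟨a', b', hb', h'⟩ := y.2
    rw [rhoFun_eq x hb h, rhoFun_eq y hb' h',
      rhoFun_eq (x * y) (a := a * a') (b := b * b')
        (by rw [map_mul]; exact mul_ne_zero hb hb')
        (by rw [Subring.coe_mul, map_mul, map_mul, ← h, ← h']; ring),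
      map_mul, map_mul, div_mul_div_comm]
  map_zero' := by
    rw [rhoFun_eq 0 (a := 0) (b := 1) (by rw [map_one]; exact one_ne_zero)
      (by rw [map_zero]; exact zero_mul _), map_zero, zero_div]
  map_add' := by
    intro x y
    obtain ⟨a, b, hb, h⟩ := x.2
    obtain ⟨a', b', hb', h'⟩ := y.2
    rw [rhoFun_eq x hb h, rhoFun_eq y hb' h',
      rhoFun_eq (x + y) (a := a * b' + a' * b) (b := b * b')
        (by rw [map_mul]; exact mul_ne_zero hb hb')
        (by rw [Subring.coe_add, map_mul, map_add, map_mul, map_mul, ← h, ← h']; ring),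
      map_add, map_mul, map_mul, map_mul, div_add_div _ _ hb hb',
      mul_comm (redA red a') (redA red b)]

theorem rho_eq (x : Oint red) {a b : LaurentSeries A0} (hb : redA red b ≠ 0)
    (h : (x : LaurentSeries K) * inclA A0 b = inclA A0 a) :
    rho red x = redA red a / redA red b :=
  rhoFun_eq x hb h

theorem rho_mk {x : LaurentSeries K} {a b : LaurentSeries A0} (hb : redA red b ≠ 0)
    (h : x * inclA A0 b = inclA A0 a) (hx : x ∈ Oint red) :
    rho red ⟨x, hx⟩ = redA red a / redA red b :=
  rhoFun_eq _ hb h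

/-- On integral series `rho` is the coefficientwise reduction. -/
theorem rho_inclA (a : LaurentSeries A0) (h : inclA A0 a ∈ Oint red) :
    rho red ⟨inclA A0 a, h⟩ = redA red a := by
  rw [rho_eq _ (a := a) (b := 1) (by rw [map_one]; exact one_ne_zero)
    (by rw [map_one, mul_one]), map_one, div_one]

/-- Constants of `A0`. -/
theorem C_mem_Oint (a : A0) : (HahnSeries.C (a : K) : LaurentSeries K) ∈ Oint red := by
  have : (HahnSeries.C (a : K) : LaurentSeries K) = inclA A0 (HahnSeries.C a) := by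
    rw [HahnSeries.C_apply, HahnSeries.C_apply]
    exact (coeffMap_single A0.subtype 0 a).symm
  rw [this]
  exact inclA_mem_Oint _

theorem rho_C (a : A0) (h : (HahnSeries.C (a : K) : LaurentSeries K) ∈ Oint red) :
    rho red ⟨HahnSeries.C (a : K), h⟩ = HahnSeries.C (red a) := by
  have e : (HahnSeries.C (a : K) : LaurentSeries K) = inclA A0 (HahnSeries.C a) := by
    rw [HahnSeries.C_apply, HahnSeries.C_apply]
    exact (coeffMap_single A0.subtype 0 a).symm
  have h2 : redA red (HahnSeries.C a) = HahnSeries.C (red a) := by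
    rw [HahnSeries.C_apply, HahnSeries.C_apply]
    exact coeffMap_single red 0 a
  rw [← h2]
  exact (rho_eq _ (a := HahnSeries.C a) (b := 1) (by rw [map_one]; exact one_ne_zero)
    (by rw [map_one, mul_one]; exact e)).trans (by rw [map_one, div_one])

/-- A quotient of two elements of the Gauss ring, the denominator having nonzero reduction, is in
the Gauss ring. -/
theorem mem_Oint_of_mul {x a b : LaurentSeries K} (ha : a ∈ Oint red) (hb : b ∈ Oint red)
    (hρ : rho red ⟨b, hb⟩ ≠ 0) (h : x * b = a) : x ∈ Oint red := by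
  obtain ⟨a₁, a₂, ha₂, ha'⟩ := ha
  obtain ⟨b₁, b₂, hb₂, hb'⟩ := hb
  have hb₁ : redA red b₁ ≠ 0 := by
    intro h0
    apply hρ
    rw [rho_eq ⟨b, b₁, b₂, hb₂, hb'⟩ hb₂ hb', h0, zero_div]
  refine ⟨a₁ * b₂, b₁ * a₂, ?_, ?_⟩
  · rw [map_mul]; exact mul_ne_zero hb₁ ha₂
  · rw [map_mul, map_mul, ← ha', ← hb', ← h]; ring

/-- Elements of the Gauss ring with nonzero reduction are units. -/
theorem inv_mem_Oint (x : Oint red) (hx : rho red x ≠ 0) : (x : LaurentSeries K)⁻¹ ∈ Oint red := by
  have hx0 : (x : LaurentSeries K) ≠ 0 := by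
    intro h0
    apply hx
    have : x = 0 := Subtype.ext h0
    rw [this, map_zero]
  exact mem_Oint_of_mul (Oint red).one_mem x.2 hx (inv_mul_cancel₀ hx0)

/-- The reduction of the inverse. -/
theorem rho_inv (x : Oint red) (hx : rho red x ≠ 0) (h : (x : LaurentSeries K)⁻¹ ∈ Oint red) :
    rho red ⟨(x : LaurentSeries K)⁻¹, h⟩ = (rho red x)⁻¹ := by
  have hx0 : (x : LaurentSeries K) ≠ 0 := by
    intro h0
    apply hx
    have : x = 0 := Subtype.ext h0
    rw [this, map_zero]
  have e : (⟨(x : LaurentSeries K)⁻¹, h⟩ : Oint red) * x = 1 :=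
    Subtype.ext (inv_mul_cancel₀ hx0)
  have e2 := congrArg (rho red) e
  rw [map_mul, map_one] at e2
  exact eq_inv_of_mul_eq_one_left e2

theorem C_pi_mem_Oint (h : IsGaussDatum A0 red π) :
    (HahnSeries.C π : LaurentSeries K) ∈ Oint red :=
  C_mem_Oint (⟨π, h.pi_mem⟩ : A0)

theorem rho_C_pi (h : IsGaussDatum A0 red π) (hm : (HahnSeries.C π : LaurentSeries K) ∈ Oint red) :
    rho red ⟨HahnSeries.C π, hm⟩ = 0 := by
  have := rho_C (red := red) (⟨π, h.pi_mem⟩ : A0) hm
  rw [this, h.red_pi ⟨π, h.pi_mem⟩ rfl, map_zero]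

/-- **The kernel of `rho` is generated by `π`.** -/
theorem rho_eq_zero (h : IsGaussDatum A0 red π) (x : Oint red) (hx : rho red x = 0) :
    (HahnSeries.C π : LaurentSeries K)⁻¹ * (x : LaurentSeries K) ∈ Oint red := by
  obtain ⟨a, b, hb, hab⟩ := x.2
  rw [rho_eq x hb hab, div_eq_zero_iff] at hx
  have ha : redA red a = 0 := hx.resolve_right hb
  obtain ⟨a', ha'⟩ := exists_eq_mul_of_redA_eq_zero h a ha
  refine ⟨a', b, hb, ?_⟩
  rw [mul_assoc, hab, ha', ← mul_assoc, inv_mul_cancel₀ (C_ne_zero h.pi_ne_zero), one_mul]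

theorem rho_eq_zero_iff (h : IsGaussDatum A0 red π) (x : Oint red) :
    rho red x = 0 ↔ (HahnSeries.C π : LaurentSeries K)⁻¹ * (x : LaurentSeries K) ∈ Oint red := by
  refine ⟨rho_eq_zero h x, fun hy => ?_⟩
  have e : x = ⟨HahnSeries.C π, C_pi_mem_Oint h⟩ * ⟨_, hy⟩ :=
    Subtype.ext (by
      rw [Subring.coe_mul, ← mul_assoc, mul_inv_cancel₀ (C_ne_zero h.pi_ne_zero), one_mul])
  rw [e, map_mul, rho_C_pi h, zero_mul]

/-! ### The valuation on the Gauss ring -/

/-- A nonzero element of the Gauss ring is a power of `π` times an element with nonzero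
reduction. -/
theorem exists_pow_mul_of_mem_Oint (h : IsGaussDatum A0 red π) {x : LaurentSeries K}
    (hx : x ∈ Oint red) (hx0 : x ≠ 0) :
    ∃ (n : ℕ) (u : Oint red), rho red u ≠ 0 ∧
      x = (HahnSeries.C π : LaurentSeries K) ^ n * (u : LaurentSeries K) := by
  obtain ⟨a, b, hb, hab⟩ := hx
  have hb0 : inclA A0 b ≠ 0 := by
    intro h0
    apply hb
    have : b = 0 := inclA_injective (by rw [h0, map_zero])
    rw [this, map_zero]
  have ha0 : a ≠ 0 := by
    rintro rfl
    rw [map_zero] at hab
    exact hx0 ((mul_eq_zero.mp hab).resolve_right hb0)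
  obtain ⟨n, a', ha', hn⟩ := exists_pow_mul_inclA h a ha0
  have hu : inclA A0 a' / inclA A0 b ∈ Oint red :=
    mem_Oint_of_eq hb (div_mul_cancel₀ _ hb0)
  refine ⟨n, ⟨_, hu⟩, ?_, ?_⟩
  · rw [rho_mk hb (div_mul_cancel₀ _ hb0) hu]
    exact div_ne_zero ha' hb
  · rw [hn] at hab
    show x = (HahnSeries.C π : LaurentSeries K) ^ n * (inclA A0 a' / inclA A0 b)
    rw [← mul_div_assoc, ← hab, mul_div_cancel_right₀ _ hb0]

/-! ### The field `Oint[1 / π]` -/

/-- The subfield `Oint[1 / π]` of `K((q))`. -/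
def KO (red : A0 →+* k) (π : K) (h : IsGaussDatum A0 red π) : Subfield (LaurentSeries K) where
  carrier := {x | ∃ n : ℕ, (HahnSeries.C π : LaurentSeries K) ^ n * x ∈ Oint red}
  mul_mem' := by
    rintro x y ⟨n, hn⟩ ⟨m, hm⟩
    refine ⟨n + m, ?_⟩
    have : (HahnSeries.C π : LaurentSeries K) ^ (n + m) * (x * y) =
        ((HahnSeries.C π : LaurentSeries K) ^ n * x) *
          ((HahnSeries.C π : LaurentSeries K) ^ m * y) := by ring
    rw [this]
    exact mul_mem hn hm
  one_mem' := ⟨0, by rw [pow_zero, one_mul]; exact one_mem _⟩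
  add_mem' := by
    rintro x y ⟨n, hn⟩ ⟨m, hm⟩
    refine ⟨n + m, ?_⟩
    have : (HahnSeries.C π : LaurentSeries K) ^ (n + m) * (x + y) =
        (HahnSeries.C π : LaurentSeries K) ^ m * ((HahnSeries.C π : LaurentSeries K) ^ n * x) +
          (HahnSeries.C π : LaurentSeries K) ^ n *
            ((HahnSeries.C π : LaurentSeries K) ^ m * y) := by ring
    rw [this]
    exact add_mem (mul_mem (pow_mem (C_pi_mem_Oint h) m) hn)
      (mul_mem (pow_mem (C_pi_mem_Oint h) n) hm)
  zero_mem' := ⟨0, by rw [mul_zero]; exact zero_mem _⟩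
  neg_mem' := by
    rintro x ⟨n, hn⟩
    exact ⟨n, by rw [mul_neg]; exact neg_mem hn⟩
  inv_mem' := by
    rintro x ⟨n, hn⟩
    by_cases hx0 : x = 0
    · exact ⟨0, by rw [hx0, inv_zero, mul_zero]; exact zero_mem _⟩
    have hl0 : (HahnSeries.C π : LaurentSeries K) ≠ 0 := C_ne_zero h.pi_ne_zero
    obtain ⟨m, u, hu, hm⟩ := exists_pow_mul_of_mem_Oint h hn (mul_ne_zero (pow_ne_zero n hl0) hx0)
    refine ⟨m, ?_⟩
    have hu0 : (u : LaurentSeries K) ≠ 0 := by
      intro h0
      apply hu
      have : u = 0 := Subtype.ext h0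
      rw [this, map_zero]
    have : (HahnSeries.C π : LaurentSeries K) ^ m * x⁻¹ =
        (HahnSeries.C π : LaurentSeries K) ^ n * (u : LaurentSeries K)⁻¹ := by
      have hx : x = (HahnSeries.C π : LaurentSeries K) ^ m * (u : LaurentSeries K) /
          (HahnSeries.C π : LaurentSeries K) ^ n := by
        rw [← hm, mul_div_cancel_left₀ _ (pow_ne_zero n hl0)]
      rw [hx]
      field_simp
    rw [this]
    exact mul_mem (pow_mem (C_pi_mem_Oint h) n) (inv_mem_Oint u hu)

theorem mem_KO_iff (h : IsGaussDatum A0 red π) {x : LaurentSeries K} :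
    x ∈ KO red π h ↔ ∃ n : ℕ, (HahnSeries.C π : LaurentSeries K) ^ n * x ∈ Oint red := Iff.rfl

theorem Oint_le_KO (h : IsGaussDatum A0 red π) {x : LaurentSeries K} (hx : x ∈ Oint red) :
    x ∈ KO red π h :=
  ⟨0, by rw [pow_zero, one_mul]; exact hx⟩

/-- Nonzero elements of `Oint[1 / π]` are `π ^ n * u` with `rho u ≠ 0`. -/
theorem exists_eq_zpow_mul_of_mem_KO (h : IsGaussDatum A0 red π) {x : LaurentSeries K}
    (hx : x ∈ KO red π h) (hx0 : x ≠ 0) :
    ∃ (n : ℤ) (u : Oint red), rho red u ≠ 0 ∧
      x = (HahnSeries.C π : LaurentSeries K) ^ n * (u : LaurentSeries K) := by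
  obtain ⟨n, hn⟩ := hx
  have hl0 : (HahnSeries.C π : LaurentSeries K) ≠ 0 := C_ne_zero h.pi_ne_zero
  obtain ⟨m, u, hu, hm⟩ := exists_pow_mul_of_mem_Oint h hn (mul_ne_zero (pow_ne_zero n hl0) hx0)
  refine ⟨(m : ℤ) - n, u, hu, ?_⟩
  rw [zpow_sub₀ hl0, zpow_natCast, zpow_natCast, div_mul_eq_mul_div, ← hm,
    mul_div_cancel_left₀ _ (pow_ne_zero n hl0)]

/-- The constants lie in `Oint[1 / π]`. -/
theorem C_mem_KO (h : IsGaussDatum A0 red π) (c : K) :
    (HahnSeries.C c : LaurentSeries K) ∈ KO red π h := by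
  by_cases hc : c = 0
  · rw [hc, map_zero]; exact zero_mem _
  obtain ⟨n, u, hu, hcu⟩ := h.exists_zpow_mul c hc
  have h1 : (HahnSeries.C c : LaurentSeries K) =
      (HahnSeries.C π : LaurentSeries K) ^ n * HahnSeries.C (u : K) := by
    rw [hcu, map_mul, map_zpow₀]
  rw [h1]
  exact mul_mem (zpow_mem (Oint_le_KO h (C_pi_mem_Oint h)) n) (Oint_le_KO h (C_mem_Oint u))

/-- **The Gauss ring is integrally closed in `Oint[1 / π]`.** -/
theorem mem_Oint_of_isIntegral_of_le (h : IsGaussDatum A0 red π) (R : Subring (LaurentSeries K))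
    (hR : R ≤ Oint red) {x : LaurentSeries K} (hx : x ∈ KO red π h) (hint : IsIntegral ↥R x) :
    x ∈ Oint red := by
  by_cases hx0 : x = 0
  · rw [hx0]; exact zero_mem _
  obtain ⟨n, u, hu, hxu⟩ := exists_eq_zpow_mul_of_mem_KO h hx hx0
  have hl0 : (HahnSeries.C π : LaurentSeries K) ≠ 0 := C_ne_zero h.pi_ne_zero
  rcases le_or_gt 0 n with hn | hn
  · lift n to ℕ using hn
    rw [hxu, zpow_natCast]
    exact mul_mem (pow_mem (C_pi_mem_Oint h) n) u.2
  · exfalso
    apply hu
    obtain ⟨m, rfl⟩ : ∃ m : ℕ, n = -((m : ℤ) + 1) := ⟨(-n - 1).toNat, by omega⟩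
    have hux : (u : LaurentSeries K) = (HahnSeries.C π : LaurentSeries K) ^ (m + 1) * x := by
      rw [hxu, zpow_neg, ← Nat.cast_succ, zpow_natCast, ← mul_assoc,
        mul_inv_cancel₀ (pow_ne_zero _ hl0), one_mul]
    obtain ⟨f, hf, hfx⟩ := hint
    set f' : Polynomial ↥(Oint red) := f.map (Subring.inclusion hR) with hf'
    have hf'm : f'.Monic := hf.map _
    have hf'x : Polynomial.eval₂ (Oint red).subtype x f' = 0 := by
      rw [hf', Polynomial.eval₂_map]
      exact hfx
    set cπ : Oint red := ⟨HahnSeries.C π, C_pi_mem_Oint h⟩ with hcπ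
    set g : Polynomial ↥(Oint red) := Polynomial.scaleRoots f' (cπ ^ (m + 1)) with hg
    have hgu : Polynomial.eval₂ (Oint red).subtype (u : LaurentSeries K) g = 0 := by
      have := Polynomial.scaleRoots_eval₂_eq_zero (Oint red).subtype (s := cπ ^ (m + 1)) hf'x
      rw [hux]
      exact this
    have hgu' : Polynomial.eval u g = 0 := by
      apply Subtype.val_injective
      have := Polynomial.eval₂_at_apply (p := g) (Oint red).subtype u
      rw [Subring.coe_zero]
      exact this.symm.trans hgu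
    have hρ : Polynomial.eval₂ (rho red) (rho red u) g = 0 := by
      rw [Polynomial.eval₂_at_apply, hgu', map_zero]
    rw [Polynomial.eval₂_eq_sum_range, Finset.sum_range_succ, Finset.sum_eq_zero, zero_add] at hρ
    · have hd : g.natDegree = f'.natDegree := Polynomial.natDegree_scaleRoots _ _
      have hc : g.coeff g.natDegree = 1 := by
        rw [hg, Polynomial.coeff_scaleRoots, hd, Nat.sub_self, pow_zero, mul_one]
        exact hf'm
      rw [hc, map_one, one_mul] at hρ
      exact eq_zero_of_pow_eq_zero hρ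
    · intro i hi
      have hi' : i < f'.natDegree := by
        have := Finset.mem_range.mp hi
        rwa [Polynomial.natDegree_scaleRoots] at this
      have : rho red (g.coeff i) = 0 := by
        rw [hg, Polynomial.coeff_scaleRoots, map_mul, map_pow, map_pow, hcπ, rho_C_pi h,
          zero_pow (by omega), zero_pow (by omega), mul_zero]
      rw [this, zero_mul]

end Fermat.Agent.RedLib.GaussK
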