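import Mathlib
import Fermat.Agent.RedLib.GaussK
import Fermat.Agent.RedLib.DescBase
import Fermat.Prelude.Def_FLTPrelim_Ramification

/-!
# S18 long shot, leaf W7: valuation subrings of number fields

A valuation subring `B` of a number field `K` in which a prime number `ℓ` is not a unit is a
discrete valuation ring with finite residue field of characteristic `ℓ`, and gives a Gauss datum
in the sense of `GaussK.IsGaussDatum`.
-/

set_option autoImplicit false
set_option linter.unusedSectionVars false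

noncomputable section

namespace Fermat.Agent.RedLib.NumField

open IsDedekindDomain NumberField

section DVR

variable {K : Type*} [Field K] [NumberField K] (B : ValuationSubring K)

/-- Algebraic integers lie in every valuation subring. -/
theorem integer_mem (x : 𝓞 K) : (x : K) ∈ B := by
  have h1 : IsIntegral ℤ (x : K) := x.2
  have h2 : IsIntegral ↥B (x : K) := h1.tower_top
  obtain ⟨y, hy⟩ := IsIntegrallyClosed.isIntegral_iff.mp h2
  rw [← hy]
  exact y.2

/-- The inclusion `𝓞 K → B`. -/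
def intHom : 𝓞 K →+* ↥B :=
  (algebraMap (𝓞 K) K).codRestrict B.toSubring (integer_mem B)

@[simp] theorem coe_intHom (x : 𝓞 K) : ((intHom B x : ↥B) : K) = (x : K) := rfl

/-- The centre of `B` on the ring of integers. -/
def centre : Ideal (𝓞 K) := (IsLocalRing.maximalIdeal ↥B).comap (intHom B)

instance : (centre B).IsPrime := Ideal.comap_isPrime _ _

theorem mem_centre_iff (a : 𝓞 K) : a ∈ centre B ↔ (a : K) ∈ B.nonunits := by
  rw [centre, Ideal.mem_comap, ValuationSubring.mem_nonunits_iff_exists_mem_maximalIdeal]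
  exact ⟨fun h => ⟨integer_mem B a, h⟩, fun ⟨_, h⟩ => h⟩

variable {B}

theorem centre_ne_bot {ℓ : ℕ} (hℓ : ℓ ≠ 0) (hB : (ℓ : K) ∈ B.nonunits) : centre B ≠ ⊥ := by
  intro h
  have h1 : (ℓ : 𝓞 K) ∈ centre B := by
    rw [mem_centre_iff]
    simpa using hB
  rw [h, Ideal.mem_bot] at h1
  exact hℓ (by exact_mod_cast h1)

/-- The centre as a height one prime. -/
def centreHOS {ℓ : ℕ} (hℓ : ℓ ≠ 0) (hB : (ℓ : K) ∈ B.nonunits) : HeightOneSpectrum (𝓞 K) :=
  ⟨centre B, inferInstance, centre_ne_bot hℓ hB⟩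

theorem inv_mem_of_not_mem_nonunits {s : K} (hs : s ∈ B) (hs' : s ∉ B.nonunits) : s⁻¹ ∈ B := by
  rw [ValuationSubring.mem_nonunits_iff, not_lt] at hs'
  have h1 : B.valuation s ≤ 1 := (B.valuation_le_one_iff s).mpr hs
  have h2 : B.valuation s = 1 := le_antisymm h1 hs'
  rw [← B.valuation_le_one_iff, map_inv₀, h2, inv_one]

theorem mul_mem_nonunits {x n : K} (hx : x ∈ B) (hn : n ∈ B.nonunits) : x * n ∈ B.nonunits := by
  rw [ValuationSubring.mem_nonunits_iff] at hn ⊢
  rw [map_mul]
  have h1 : B.valuation x ≤ 1 := (B.valuation_le_one_iff x).mpr hx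
  calc B.valuation x * B.valuation n ≤ 1 * B.valuation n := mul_le_mul_left h1 _
    _ = B.valuation n := one_mul _
    _ < 1 := hn

/-- `B` is the localisation of the ring of integers at its centre. -/
theorem eq_valuationSubringAtPrime {ℓ : ℕ} (hℓ : ℓ ≠ 0) (hB : (ℓ : K) ∈ B.nonunits) :
    B = HeightOneSpectrum.valuationSubringAtPrime K (centreHOS hℓ hB) := by
  set v := centreHOS hℓ hB with hv
  have hmem : ∀ d : 𝓞 K, d ∈ v.asIdeal.primeCompl → (d : K) ∉ B.nonunits := by
    intro d hd hd'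
    exact hd ((mem_centre_iff B d).mpr hd')
  have hne : ∀ d : 𝓞 K, d ∈ v.asIdeal.primeCompl → (algebraMap (𝓞 K) K d) ≠ 0 := by
    intro d hd h0
    apply hd
    have : d = 0 := by
      apply (FaithfulSMul.algebraMap_injective (𝓞 K) K)
      rw [h0, map_zero]
    rw [this]
    exact Ideal.zero_mem _
  ext x
  constructor
  · intro hx
    obtain ⟨n, d, h | h⟩ := v.exists_primeCompl_mul_eq_or_mul_eq (K := K) x
    · refine ⟨n, d, d.2, ?_⟩
      rw [← h, mul_assoc, mul_inv_cancel₀ (hne d d.2), mul_one]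
    · by_cases hn : n ∈ v.asIdeal
      · exfalso
        have h1 : x * (algebraMap (𝓞 K) K n) ∈ B.nonunits :=
          mul_mem_nonunits hx ((mem_centre_iff B n).mp hn)
        rw [h] at h1
        exact hmem d d.2 h1
      · have hn0 := hne n hn
        have hx0 : x = algebraMap (𝓞 K) K d * (algebraMap (𝓞 K) K n)⁻¹ := by
          rw [← h, mul_assoc, mul_inv_cancel₀ hn0, mul_one]
        exact ⟨d, n, hn, hx0⟩
  · rintro ⟨a, s, hs, rfl⟩
    exact mul_mem (integer_mem B a) (inv_mem_of_not_mem_nonunits (integer_mem B s) (hmem s hs))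

/-- **A valuation subring of a number field in which a prime number is not a unit is a discrete
valuation ring.** -/
theorem isDiscreteValuationRing {ℓ : ℕ} (hℓ : ℓ ≠ 0) (hB : (ℓ : K) ∈ B.nonunits) :
    IsDiscreteValuationRing ↥B := by
  have h := eq_valuationSubringAtPrime hℓ hB
  have : IsDiscreteValuationRing
      ↥(HeightOneSpectrum.valuationSubringAtPrime K (centreHOS hℓ hB)) :=
    IsLocalization.AtPrime.isDiscreteValuationRing_of_dedekind_domain (𝓞 K)
      (centreHOS hℓ hB).ne_bot _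
  rw [h]
  exact this

end DVR

section Residue

variable {K : Type*} [Field K] [NumberField K] {B : ValuationSubring K}

/-- The residue field of `B` is finite. -/
theorem finite_residueField {ℓ : ℕ} (hℓ : ℓ ≠ 0) (hB : (ℓ : K) ∈ B.nonunits) :
    Finite (IsLocalRing.ResidueField ↥B) := by
  have h := eq_valuationSubringAtPrime hℓ hB
  set v := centreHOS hℓ hB with hv
  have hfin : Finite (𝓞 K ⧸ v.asIdeal) := Ideal.finiteQuotientOfFreeOfNeBot _ v.ne_bot
  have : Finite (IsLocalRing.ResidueField ↥(HeightOneSpectrum.valuationSubringAtPrime K v)) :=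
    Finite.of_equiv _ (IsLocalization.AtPrime.equivQuotMaximalIdeal v.asIdeal
      ↥(HeightOneSpectrum.valuationSubringAtPrime K v)).toEquiv
  rw [h]
  exact this

/-- The residue field of `B` has characteristic `ℓ`. -/
theorem charP_residueField {ℓ : ℕ} (hℓ : ℓ.Prime) (hB : (ℓ : K) ∈ B.nonunits) :
    CharP (IsLocalRing.ResidueField ↥B) ℓ := by
  rw [CharP.charP_iff_prime_eq_zero hℓ]
  obtain ⟨h, hm⟩ := ValuationSubring.mem_nonunits_iff_exists_mem_maximalIdeal.mp hB
  have h1 : IsLocalRing.residue ↥B ⟨(ℓ : K), h⟩ = 0 := (IsLocalRing.residue_eq_zero_iff _).mpr hm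
  have h2 : (⟨(ℓ : K), h⟩ : ↥B) = ((ℓ : ℕ) : ↥B) := Subtype.ext (by simp)
  rw [h2, map_natCast] at h1
  exact h1

/-- **The Gauss datum of a valuation subring of a number field.** -/
theorem exists_isGaussDatum {ℓ : ℕ} (hℓ : ℓ ≠ 0) (hB : (ℓ : K) ∈ B.nonunits) :
    ∃ π : K, GaussK.IsGaussDatum B.toSubring
      (show ↥B.toSubring →+* IsLocalRing.ResidueField ↥B from IsLocalRing.residue ↥B) π := by
  have := isDiscreteValuationRing hℓ hB
  obtain ⟨ϖ, hϖ⟩ := IsDiscreteValuationRing.exists_irreducible ↥B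
  refine ⟨(ϖ : K), ϖ.2, ?_, IsLocalRing.residue_surjective, ?_, ?_, ?_⟩
  · exact fun h => hϖ.ne_zero (Subtype.ext h)
  · intro x hx
    have hx' : x = ϖ := Subtype.ext hx
    rw [hx']
    exact (IsLocalRing.residue_eq_zero_iff _).mpr (by
      rw [IsLocalRing.mem_maximalIdeal, mem_nonunits_iff]
      exact hϖ.not_isUnit)
  · intro x hx
    have h1 : x ∈ IsLocalRing.maximalIdeal ↥B := (IsLocalRing.residue_eq_zero_iff _).mp hx
    rw [hϖ.maximalIdeal_eq, Ideal.mem_span_singleton'] at h1
    obtain ⟨y, hy⟩ := h1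
    refine ⟨y, ?_⟩
    have h2 : ((y * ϖ : ↥B) : K) = (x : K) := congrArg (fun z : ↥B => (z : K)) hy
    rw [← h2, mul_comm]
    rfl
  · intro x hx
    obtain ⟨n, u, hu⟩ :=
      IsDiscreteValuationRing.exists_units_eq_smul_zpow_of_irreducible (K := K) hϖ hx
    refine ⟨n, (u : ↥B), ?_, ?_⟩
    · intro h0
      have h1 : (u : ↥B) ∈ IsLocalRing.maximalIdeal ↥B := (IsLocalRing.residue_eq_zero_iff _).mp h0
      exact (IsLocalRing.mem_maximalIdeal _).mp h1 u.isUnit
    · rw [hu, Units.smul_def, Algebra.smul_def, mul_comm]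
      rfl

end Residue

/-! ### The concrete case: `A ∩ K` for a valuation subring `A` of `ℚ̄` over `ℓ` -/

section Concrete

/-- `ℚ̄`. -/
abbrev Lb : Type := AlgebraicClosure ℚ

variable (K : IntermediateField ℚ Lb) (A : ValuationSubring Lb)

/-- `A ∩ K`, a valuation subring of `K`. -/
abbrev A0 : ValuationSubring ↥K := A.comap (algebraMap ↥K Lb)

theorem mem_A0_iff (x : K) : x ∈ A0 K A ↔ (x : Lb) ∈ A := Iff.rfl

theorem mem_nonunits_A0_iff (x : K) : x ∈ (A0 K A).nonunits ↔ (x : Lb) ∈ A.nonunits := by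
  rw [ValuationSubring.mem_nonunits_iff_or, ValuationSubring.mem_nonunits_iff_or,
    ValuationSubring.mem_comap]
  simp

/-- A finite extension of `ℚ` inside `ℚ̄` is a number field. -/
theorem numberField [h : FiniteDimensional ℚ K] : NumberField ↥K :=
  { to_charZero := inferInstance, to_finiteDimensional := h }

variable {A}

theorem natCast_mem_nonunits_A0 {ℓ : ℕ} (hA : A.LiesOverPrime ℓ) :
    ((ℓ : ℕ) : ↥K) ∈ (A0 K A).nonunits := by
  rw [mem_nonunits_A0_iff]
  have h : ((ℓ : ℕ) : Lb) ∈ A.nonunits := hA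
  simpa using h

variable [FiniteDimensional ℚ K]

/-- **`A ∩ K` is a discrete valuation ring.** -/
theorem isDiscreteValuationRing_A0 {ℓ : ℕ} (hℓ : ℓ.Prime) (hA : A.LiesOverPrime ℓ) :
    IsDiscreteValuationRing ↥(A0 K A) :=
  haveI := numberField K
  isDiscreteValuationRing hℓ.ne_zero (natCast_mem_nonunits_A0 K hA)

theorem finite_residueField_A0 {ℓ : ℕ} (hℓ : ℓ.Prime) (hA : A.LiesOverPrime ℓ) :
    Finite (IsLocalRing.ResidueField ↥(A0 K A)) :=
  haveI := numberField K
  finite_residueField hℓ.ne_zero (natCast_mem_nonunits_A0 K hA)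

theorem charP_residueField_A0 {ℓ : ℕ} (hℓ : ℓ.Prime) (hA : A.LiesOverPrime ℓ) :
    CharP (IsLocalRing.ResidueField ↥(A0 K A)) ℓ :=
  haveI := numberField K
  charP_residueField hℓ (natCast_mem_nonunits_A0 K hA)

theorem exists_isGaussDatum_A0 {ℓ : ℕ} (hℓ : ℓ.Prime) (hA : A.LiesOverPrime ℓ) :
    ∃ π : ↥K, GaussK.IsGaussDatum (A0 K A).toSubring
      (show ↥(A0 K A).toSubring →+* IsLocalRing.ResidueField ↥(A0 K A) from
        IsLocalRing.residue ↥(A0 K A)) π :=
  haveI := numberField K
  exists_isGaussDatum hℓ.ne_zero (natCast_mem_nonunits_A0 K hA)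

end Concrete

section Incl

variable (K : IntermediateField ℚ Lb) (A : ValuationSubring Lb)

/-- The inclusion `A ∩ K → A`. -/
def inclA : ↥(A0 K A) →+* ↥A :=
  ((algebraMap ↥K Lb).comp (A0 K A).subtype).codRestrict A.toSubring fun x => x.2

@[simp] theorem coe_inclA (x : ↥(A0 K A)) : ((inclA K A x : ↥A) : Lb) = ((x : ↥K) : Lb) := rfl

theorem inclA_injective : Function.Injective (inclA K A) := by
  intro x y h
  have := congrArg (fun z : ↥A => (z : Lb)) h
  exact Subtype.ext (Subtype.ext this)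

instance : IsLocalHom (inclA K A) := by
  constructor
  intro x hx
  by_contra hnu
  have h1 : x ∈ IsLocalRing.maximalIdeal ↥(A0 K A) := (IsLocalRing.mem_maximalIdeal _).mpr hnu
  have h2 : (x : ↥K) ∈ (A0 K A).nonunits :=
    ValuationSubring.mem_nonunits_iff_exists_mem_maximalIdeal.mpr ⟨x.2, h1⟩
  rw [mem_nonunits_A0_iff] at h2
  obtain ⟨_, h3⟩ := ValuationSubring.mem_nonunits_iff_exists_mem_maximalIdeal.mp h2
  exact (IsLocalRing.mem_maximalIdeal _).mp h3 hx

/-- The map of residue fields `k₀ → k`. -/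
def resMap : IsLocalRing.ResidueField ↥(A0 K A) →+* IsLocalRing.ResidueField ↥A :=
  IsLocalRing.ResidueField.map (inclA K A)

theorem resMap_residue (x : ↥(A0 K A)) :
    resMap K A (IsLocalRing.residue _ x) = IsLocalRing.residue _ (inclA K A x) := rfl

theorem resMap_injective : Function.Injective (resMap K A) := RingHom.injective _

end Incl

end Fermat.Agent.RedLib.NumField
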