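import Mathlib
import Fermat.Agent.RedLib.DescBase
import Fermat.Agent.RedLib.NumField

/-!
# S18, CORE assembly: descent of two integral series to a number field

Two series `y₁, y₂ ∈ A((q))` (`A` a valuation subring of `ℚ̄`) whose images lie in the modular
function field over `ℚ̄` have all their coefficients in one number field `K ⊆ ℚ̄`, which may be
chosen to contain a given finite set; they come from series over `A ∩ K` whose images lie in the
modular function field over `K`.  Equality and non-vanishing of the reductions descend from the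
residue field of `A` to the residue field of `A ∩ K`.
-/

set_option autoImplicit false

noncomputable section

namespace Fermat.Agent.RedLib.NumDesc

open ModularCurve Fermat.Agent.RedLib Fermat.Agent.RedLib.NumField

/-! ### Generic facts on `coeffMap` -/

section Generic

variable {R S : Type*} [CommRing R] [CommRing S]

theorem coeffMap_injective_of_injective (f : R →+* S) (hf : Function.Injective f) :
    Function.Injective (coeffMap f) := by
  intro x y h
  ext n
  apply hf
  have h1 := congrArg (fun z : LaurentSeries S => z.coeff n) h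
  simpa using h1

/-- A Laurent series all of whose coefficients lie in the range of an injective `f` is in the
range of `coeffMap f`. -/
theorem exists_coeffMap_eq_of_injective (f : R →+* S) (hf : Function.Injective f)
    (y : LaurentSeries S) (h : ∀ n, y.coeff n ∈ Set.range f) :
    ∃ a : LaurentSeries R, coeffMap f a = y := by
  classical
  choose g hg using h
  refine ⟨⟨g, y.isPWO_support.mono ?_⟩, ?_⟩
  · intro n hn
    rw [Function.mem_support] at hn
    rw [HahnSeries.mem_support]
    intro h0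
    apply hn
    apply hf
    rw [hg n, h0, map_zero]
  · ext n
    rw [coeffMap_coeff]
    exact hg n

end Generic

/-! ### Compatibilities of the maps `A ∩ K → A`, `A ∩ K → K`, `k₀ → k` -/

section Compat

variable (K : IntermediateField ℚ Lb) (A : ValuationSubring Lb)

theorem coeffMap_subtype_inclA (y' : LaurentSeries ↥(A0 K A)) :
    coeffMap A.subtype (coeffMap (inclA K A) y')
      = coeffMap (algebraMap ↥K Lb) (coeffMap (A0 K A).subtype y') := by
  rw [coeffMap_coeffMap, coeffMap_coeffMap]
  rfl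

theorem coeffMap_residue_inclA (y' : LaurentSeries ↥(A0 K A)) :
    coeffMap (IsLocalRing.residue ↥A) (coeffMap (inclA K A) y')
      = coeffMap (resMap K A) (coeffMap (IsLocalRing.residue ↥(A0 K A)) y') := by
  rw [coeffMap_coeffMap, coeffMap_coeffMap]
  rfl

/-- Equal reductions over `A` give equal reductions over `A ∩ K`. -/
theorem residue_eq_of_eq {y₁' y₂' : LaurentSeries ↥(A0 K A)}
    (h : coeffMap (IsLocalRing.residue ↥A) (coeffMap (inclA K A) y₁')
      = coeffMap (IsLocalRing.residue ↥A) (coeffMap (inclA K A) y₂')) :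
    coeffMap (IsLocalRing.residue ↥(A0 K A)) y₁'
      = coeffMap (IsLocalRing.residue ↥(A0 K A)) y₂' := by
  rw [coeffMap_residue_inclA, coeffMap_residue_inclA] at h
  exact coeffMap_injective_of_injective _ (resMap_injective K A) h

/-- A nonzero reduction over `A` gives a nonzero reduction over `A ∩ K`. -/
theorem residue_ne_zero {y' : LaurentSeries ↥(A0 K A)}
    (h : coeffMap (IsLocalRing.residue ↥A) (coeffMap (inclA K A) y') ≠ 0) :
    coeffMap (IsLocalRing.residue ↥(A0 K A)) y' ≠ 0 := by
  intro h0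
  apply h
  rw [coeffMap_residue_inclA, h0, map_zero]

/-- A primitive root of unity of `ℚ̄` lying in `K` is a primitive root of unity of `K`. -/
theorem isPrimitiveRoot_of_mem {ζ : Lb} {m : ℕ} (hζ : IsPrimitiveRoot ζ m) (hK : ζ ∈ K) :
    IsPrimitiveRoot (⟨ζ, hK⟩ : ↥K) m :=
  IsPrimitiveRoot.of_map_of_injective (f := algebraMap ↥K Lb) hζ (algebraMap ↥K Lb).injective

end Compat

/-! ### The number field -/

/-- **Descent to a number field.** -/
theorem exists_numberField (N : ℕ) (A : ValuationSubring Lb) (S : Finset Lb)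
    (y₁ y₂ : LaurentSeries ↥A)
    (h₁ : coeffMap A.subtype y₁ ∈ modularFunctionFieldBar N)
    (h₂ : coeffMap A.subtype y₂ ∈ modularFunctionFieldBar N) :
    ∃ (K : IntermediateField ℚ Lb) (_ : FiniteDimensional ℚ ↥K), (∀ s ∈ S, s ∈ K) ∧
      ∃ y₁' y₂' : LaurentSeries ↥(A0 K A),
        coeffMap (inclA K A) y₁' = y₁ ∧ coeffMap (inclA K A) y₂' = y₂ ∧
        coeffMap (A0 K A).subtype y₁' ∈ modularFunctionFieldFullC ↥K N ∧
        coeffMap (A0 K A).subtype y₂' ∈ modularFunctionFieldFullC ↥K N := by
  classical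
  have halg : Algebra.IsAlgebraic ℚ Lb := AlgebraicClosure.isAlgebraic ℚ
  rw [DescBase.modularFunctionFieldBar_eq] at h₁ h₂
  obtain ⟨n₁, c₁, f₁, -, e₁⟩ := DescBase.exists_sum_of_mem_fullC (K := ℚ) N h₁
  obtain ⟨n₂, c₂, f₂, -, e₂⟩ := DescBase.exists_sum_of_mem_fullC (K := ℚ) N h₂
  have hT : ((S : Set Lb) ∪ Set.range c₁ ∪ Set.range c₂).Finite :=
    (S.finite_toSet.union (Set.finite_range c₁)).union (Set.finite_range c₂)
  have hK : FiniteDimensional ℚ
      ↥(IntermediateField.adjoin ℚ ((S : Set Lb) ∪ Set.range c₁ ∪ Set.range c₂)) := by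
    have := hT.to_subtype
    exact IntermediateField.finiteDimensional_adjoin
      (fun x _ => Algebra.IsIntegral.isIntegral x)
  refine ⟨IntermediateField.adjoin ℚ ((S : Set Lb) ∪ Set.range c₁ ∪ Set.range c₂), hK,
    fun s hs => IntermediateField.subset_adjoin ℚ _ (Or.inl (Or.inl hs)), ?_⟩
  set K : IntermediateField ℚ Lb :=
    IntermediateField.adjoin ℚ ((S : Set Lb) ∪ Set.range c₁ ∪ Set.range c₂) with hKdef
  have hc₁ : ∀ i, c₁ i ∈ K := fun i =>
    IntermediateField.subset_adjoin ℚ _ (Or.inl (Or.inr ⟨i, rfl⟩))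
  have hc₂ : ∀ i, c₂ i ∈ K := fun i =>
    IntermediateField.subset_adjoin ℚ _ (Or.inr ⟨i, rfl⟩)
  have hcoef : ∀ (y : LaurentSeries ↥A) (n : ℕ) (c : Fin n → Lb) (f : Fin n → LaurentSeries ℚ),
      (∀ i, c i ∈ K) →
      coeffMap A.subtype y = ∑ i, HahnSeries.C (c i) * coeffMap (algebraMap ℚ Lb) (f i) →
      ∀ m, ((y.coeff m : ↥A) : Lb) ∈ K := by
    intro y n c f hc e m
    have h3 := congrArg (fun z : LaurentSeries Lb => z.coeff m) e
    simp only [coeffMap_coeff, HahnSeries.coeff_sum, DescBase.coeff_C_mul] at h3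
    have h4 : ((y.coeff m : ↥A) : Lb) = A.subtype (y.coeff m) := rfl
    rw [h4, h3]
    exact sum_mem fun i _ => mul_mem (hc i) (K.algebraMap_mem _)
  have hlift : ∀ y : LaurentSeries ↥A, (∀ m, ((y.coeff m : ↥A) : Lb) ∈ K) →
      ∃ y' : LaurentSeries ↥(A0 K A), coeffMap (inclA K A) y' = y := by
    intro y hy
    apply exists_coeffMap_eq_of_injective _ (inclA_injective K A)
    intro m
    exact ⟨⟨⟨_, hy m⟩, (y.coeff m).2⟩, Subtype.ext rfl⟩
  obtain ⟨y₁', hy₁'⟩ := hlift y₁ (hcoef y₁ n₁ c₁ f₁ hc₁ e₁)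
  obtain ⟨y₂', hy₂'⟩ := hlift y₂ (hcoef y₂ n₂ c₂ f₂ hc₂ e₂)
  have halgK : Algebra.IsAlgebraic ↥K Lb := Algebra.IsAlgebraic.tower_top (K := ℚ) ↥K
  refine ⟨y₁', y₂', hy₁', hy₂', ?_, ?_⟩
  · apply DescBase.mem_fullC_of_coeffMap_mem (K := ↥K) (L := Lb) N
    rw [← coeffMap_subtype_inclA, hy₁']
    exact h₁
  · apply DescBase.mem_fullC_of_coeffMap_mem (K := ↥K) (L := Lb) N
    rw [← coeffMap_subtype_inclA, hy₂']
    exact h₂

end Fermat.Agent.RedLib.NumDesc
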