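import Mathlib
import Fermat.Agent.GenusLib.PlaceCorePF

/-!
# S18 step 0, abstract part: functions without zeros and poles are constants

`F/K` a function field of one variable over a perfect field `K`.  An element of `F` of order
`0` at every place of `F/K` is algebraic over `K`.

The proof uses a separating transcendental `t` (Mathlib: finitely generated extensions of
perfect fields are separably generated) and the two Dedekind charts `integralClosure K[t] F`,
`integralClosure K[t⁻¹] F`: an element without poles lies in both, so the coefficients of its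
minimal polynomial over `K(t)` lie in `K[t] ∩ K[t⁻¹] = K`.
-/

set_option autoImplicit false
set_option linter.unusedSectionVars false
set_option linter.style.haveILetI false

noncomputable section

namespace Fermat.Agent.RedLib.Step0Const

open AlgebraicCurve Polynomial IsDedekindDomain IntermediateField
open Fermat.Agent.GenusLib.PlaceCore

variable {K F : Type*} [Field K] [Field F] [Algebra K F]

/-- **Chart lemma.**  An element which is regular at every place where `t` is regular is
integral over `K[t]`. -/
theorem isIntegralElem_of_ord_nonneg (t : F) (ht : Transcendental K t)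
    [FiniteDimensional K⟮t⟯ F] [Algebra.IsSeparable K⟮t⟯ F] (c : F)
    (h : ∀ v : Place K F, 0 ≤ v.ord t → 0 ≤ v.ord c) :
    (aeval t : K[X] →ₐ[K] F).toRingHom.IsIntegralElem c := by
  letI algF : Algebra K[X] F := (aeval t).toRingHom.toAlgebra
  letI algE : Algebra K[X] K⟮t⟯ := (aeval (AdjoinSimple.gen K t)).toRingHom.toAlgebra
  have hF : ∀ q : K[X], algebraMap K[X] F q = aeval t q := fun _ => rfl
  have hE : ∀ q : K[X], algebraMap K[X] K⟮t⟯ q = aeval (AdjoinSimple.gen K t) q := fun _ => rfl
  haveI : IsScalarTower K[X] K⟮t⟯ F := IsScalarTower.of_algebraMap_eq (fun q => by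
    rw [hF, hE]
    simp)
  haveI : IsScalarTower K K[X] F := IsScalarTower.of_algebraMap_eq (fun a => by
    rw [hF, Polynomial.algebraMap_eq, aeval_C])
  haveI : IsScalarTower K K[X] K⟮t⟯ := IsScalarTower.of_algebraMap_eq (fun a => by
    rw [hE, Polynomial.algebraMap_eq, aeval_C])
  haveI : IsFractionRing K[X] K⟮t⟯ := by
    let e : RatFunc K ≃ₐ[K[X]] K⟮t⟯ :=
      AlgEquiv.ofRingEquiv (f := (RatFunc.algEquivOfTranscendental t ht).toRingEquiv)
        (fun g => by
          rw [hE]
          exact RatFunc.algEquivOfTranscendental_algebraMap t ht g)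
    exact IsLocalization.isLocalization_of_algEquiv (nonZeroDivisors K[X]) e
  haveI : Module.IsTorsionFree K[X] F := .trans_faithfulSMul K[X] K⟮t⟯ F
  haveI : IsDedekindDomain (integralClosure K[X] F) :=
    integralClosure.isDedekindDomain K[X] K⟮t⟯ F
  haveI : IsFractionRing (integralClosure K[X] F) F :=
    integralClosure.isFractionRing_of_finite_extension K⟮t⟯ F
  haveI : IsScalarTower K (integralClosure K[X] F) F :=
    IsScalarTower.of_algebraMap_eq (fun a => rfl)
  have hX : algebraMap K[X] F X = t := aeval_X t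
  have hval : ∀ w : HeightOneSpectrum (integralClosure K[X] F), w.valuation F c ≤ 1 := by
    intro w
    have h1 : 0 ≤ (Place.ofHeightOneSpectrum (K := K) (F := F) w).ord t := by
      have := ofHOS_ord_algebraMap_nonneg (K := K) (F := F) w
        (algebraMap K[X] (integralClosure K[X] F) X)
      rwa [← IsScalarTower.algebraMap_apply K[X] (integralClosure K[X] F) F, hX] at this
    have h2 := h _ h1
    rw [← place_mem_iff, Place.ofHeightOneSpectrum_toValuationSubring,
      Valuation.mem_valuationSubring_iff] at h2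
    exact h2
  obtain ⟨b, hb⟩ := HeightOneSpectrum.mem_integers_of_valuation_le_one F c hval
  have hint : IsIntegral K[X] c := by
    rw [← hb]
    exact b.2
  exact hint

/-- The coefficients of the minimal polynomial over `K(s)` of an element integral over `K[s]`
are polynomials in `s`. -/
theorem coeff_minpoly_eq_aeval (s : F) (hs : Transcendental K s) (E : IntermediateField K F)
    (hE : K⟮s⟯ = E) (c : F) (hc : (aeval s : K[X] →ₐ[K] F).toRingHom.IsIntegralElem c) (i : ℕ) :
    ∃ a : K[X], algebraMap E F ((minpoly E c).coeff i) = aeval s a := by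
  subst hE
  letI algF : Algebra K[X] F := (aeval s).toRingHom.toAlgebra
  letI algE : Algebra K[X] K⟮s⟯ := (aeval (AdjoinSimple.gen K s)).toRingHom.toAlgebra
  have hF : ∀ q : K[X], algebraMap K[X] F q = aeval s q := fun _ => rfl
  have hE : ∀ q : K[X], algebraMap K[X] K⟮s⟯ q = aeval (AdjoinSimple.gen K s) q := fun _ => rfl
  haveI : IsScalarTower K[X] K⟮s⟯ F := IsScalarTower.of_algebraMap_eq (fun q => by
    rw [hF, hE]
    simp)
  haveI : IsScalarTower K K[X] K⟮s⟯ := IsScalarTower.of_algebraMap_eq (fun a => by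
    rw [hE, Polynomial.algebraMap_eq, aeval_C])
  haveI : IsFractionRing K[X] K⟮s⟯ := by
    let e : RatFunc K ≃ₐ[K[X]] K⟮s⟯ :=
      AlgEquiv.ofRingEquiv (f := (RatFunc.algEquivOfTranscendental s hs).toRingEquiv)
        (fun g => by
          rw [hE]
          exact RatFunc.algEquivOfTranscendental_algebraMap s hs g)
    exact IsLocalization.isLocalization_of_algEquiv (nonZeroDivisors K[X]) e
  have hint : IsIntegral K[X] c := hc
  have hmin := minpoly.isIntegrallyClosed_eq_field_fractions' K⟮s⟯ hint
  refine ⟨(minpoly K[X] c).coeff i, ?_⟩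
  rw [hmin, coeff_map, ← IsScalarTower.algebraMap_apply K[X] K⟮s⟯ F, hF]

/-- `K[t] ∩ K[t⁻¹] = K` for a transcendental `t`. -/
theorem exists_const_of_aeval_eq (t : F) (ht : Transcendental K t) (a b : K[X])
    (h : aeval t a = aeval t⁻¹ b) : ∃ a₀ : K, aeval t a = algebraMap K F a₀ := by
  have ht0 : t ≠ 0 := fun h0 => ht (h0 ▸ isAlgebraic_zero)
  by_cases ha : a = 0
  · exact ⟨0, by rw [ha, map_zero, map_zero]⟩
  have hinj : Function.Injective (aeval t : K[X] →ₐ[K] F) := transcendental_iff_injective.mp ht
  letI : Invertible t⁻¹ := invertibleOfNonzero (inv_ne_zero ht0)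
  have hrefl := eval₂_reflect_mul_pow (algebraMap K F) t⁻¹ b.natDegree b le_rfl
  rw [invOf_eq_inv, inv_inv] at hrefl
  have h1 : aeval t (X ^ b.natDegree * a) = aeval t (b.reflect b.natDegree) := by
    rw [map_mul, map_pow, aeval_X, h, aeval_def, aeval_def, ← hrefl, mul_comm, mul_assoc,
      ← mul_pow, inv_mul_cancel₀ ht0, one_pow, mul_one]
  have h2 := hinj h1
  have h3 : (X ^ b.natDegree * a).natDegree ≤ b.natDegree := by
    rw [h2]
    exact (natDegree_reflect_le).trans (by simp)
  rw [natDegree_X_pow_mul (n := b.natDegree) ha] at h3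
  have h4 : a.natDegree = 0 := by omega
  refine ⟨a.coeff 0, ?_⟩
  conv_lhs => rw [eq_C_of_natDegree_eq_zero h4]
  rw [aeval_C]

/-- An element of order `0` at every place is algebraic over the constants, given a separating
transcendental `t`. -/
theorem isIntegral_of_ord_eq_zero (t : F) (ht : Transcendental K t)
    [FiniteDimensional K⟮t⟯ F] [Algebra.IsSeparable K⟮t⟯ F] (c : F)
    (h : ∀ v : Place K F, v.ord c = 0) : IsIntegral K c := by
  have hinv : K⟮t⁻¹⟯ = K⟮t⟯ := adjoin_inv_eq t
  have ht' : Transcendental K t⁻¹ := transcendental_inv ht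
  haveI : FiniteDimensional K⟮t⁻¹⟯ F := by rw [hinv]; infer_instance
  haveI : Algebra.IsSeparable K⟮t⁻¹⟯ F := by rw [hinv]; infer_instance
  have h1 := isIntegralElem_of_ord_nonneg t ht c (fun v _ => (h v).ge)
  have h2 := isIntegralElem_of_ord_nonneg t⁻¹ ht' c (fun v _ => (h v).ge)
  have hconst : ∀ i, ∃ a₀ : K, (minpoly K⟮t⟯ c).coeff i = algebraMap K K⟮t⟯ a₀ := by
    intro i
    obtain ⟨a, ha⟩ := coeff_minpoly_eq_aeval t ht K⟮t⟯ rfl c h1 i
    obtain ⟨b, hb⟩ := coeff_minpoly_eq_aeval t⁻¹ ht' K⟮t⟯ hinv c h2 i
    obtain ⟨a₀, ha₀⟩ := exists_const_of_aeval_eq t ht a b (ha.symm.trans hb)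
    refine ⟨a₀, ?_⟩
    apply (algebraMap K⟮t⟯ F).injective
    rw [ha, ha₀, ← IsScalarTower.algebraMap_apply]
  have hlift : minpoly K⟮t⟯ c ∈ Polynomial.lifts (algebraMap K K⟮t⟯) := by
    rw [Polynomial.lifts_iff_coeff_lifts]
    intro i
    obtain ⟨a₀, ha₀⟩ := hconst i
    exact ⟨a₀, ha₀.symm⟩
  have hintE : IsIntegral K⟮t⟯ c := IsIntegral.of_finite K⟮t⟯ c
  obtain ⟨ν, hν, -, hνm⟩ :=
    Polynomial.lifts_and_natDegree_eq_and_monic hlift (minpoly.monic hintE)
  refine ⟨ν, hνm, ?_⟩
  have h0 := minpoly.aeval K⟮t⟯ c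
  rw [← hν, aeval_map_algebraMap] at h0
  exact h0

/-- **No zeros, no poles ⟹ constant** (algebraic over the constants), for a function field of
one variable over a perfect field. -/
theorem isIntegral_of_ord_eq_zero_of_perfectField [PerfectField K] (j : F)
    (hj : Transcendental K j) [FiniteDimensional K⟮j⟯ F] (c : F)
    (h : ∀ v : Place K F, v.ord c = 0) : IsIntegral K c := by
  classical
  haveI : Algebra.EssFiniteType K K⟮j⟯ :=
    IntermediateField.essFiniteType_iff.mpr ⟨{j}, by simp⟩
  haveI : Algebra.EssFiniteType K F := Algebra.EssFiniteType.comp K K⟮j⟯ F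
  obtain ⟨s, hs, hsep⟩ := exists_isTranscendenceBasis_and_isSeparable_of_perfectField K F
  have hjB := isTranscendenceBasis_const j hj
  have hcard := hs.lift_cardinalMk_eq hjB
  have hcard' : s.card = 1 := by
    simpa using hcard
  obtain ⟨t, rfl⟩ := Finset.card_eq_one.mp hcard'
  have ht : Transcendental K t := by
    have := hs.1.transcendental ⟨t, Finset.mem_singleton_self t⟩
    exact this
  haveI : FiniteDimensional K⟮t⟯ F := finiteDimensional_of_transcendental j hj t ht
  haveI : Algebra.IsSeparable K⟮t⟯ F := by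
    have e : IntermediateField.adjoin K (((({t} : Finset F)) : Set F)) = K⟮t⟯ := by simp
    rw [← e]
    exact hsep
  exact isIntegral_of_ord_eq_zero t ht c h

end Fermat.Agent.RedLib.Step0Const
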