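import Mathlib
import Fermat.Agent.IgusaLib.DegQ
import Fermat.Agent.IgusaLib.QepBasic
import Fermat.Agent.IgusaLib.Prime
import Fermat.Agent.IgusaLib.Val
import Fermat.Agent.IgusaLib.TowerAlg

/-!
# S18 step 0: the residual function field is finite over `k(j)`

For every field `k` of characteristic `l` and every `d ∣ N`, the series `j(q^d)` satisfies a
nonzero polynomial relation over `k[j]`: the relation over `ℚ` (`IgusaLib.exists_relation_full`)
is scaled to `ℤ_(l)` with a unit coefficient and reduced.  Hence
`modularFunctionFieldFullC k N` is finite over `k(j)`.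
-/

set_option autoImplicit false

noncomputable section

namespace Fermat.Agent.RedLib.Step0Rel

open Polynomial ModularCurve ModularCurve.IgusaScheme Fermat.Agent.IgusaLib

section Relation

variable (N : ℕ) [NeZero N] (l : ℕ) [Fact l.Prime]

/-- A relation between `j(q)` and `j(q^d)` over `ℤ_(l)` with a unit coefficient. -/
theorem exists_relation_Zl {d : ℕ} [NeZero d] (hd : d ∣ N) :
    ∃ (n : ℕ) (P : Fin (n + 1) → (Zl l)[X]), (∃ i c, IsUnit ((P i).coeff c)) ∧
      ∑ i, ev (jqModC (Zl l)) (P i) * qExpand (Zl l) d (jqModC (Zl l)) ^ (i : ℕ) = 0 := by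
  have hz : qExpand ℚ d (jqModC ℚ) ∈ modularFunctionFieldFull N := jqModCd_mem_full ℚ N hd
  obtain ⟨q, hq0, -, hq⟩ := exists_relation_full N ⟨_, hz⟩
  have h1 := congrArg (fun x : ↥(modularFunctionFieldFull N) => (x : LaurentSeries ℚ)) hq
  simp only [eval₂_coe_full, coe_jFull, ZeroMemClass.coe_zero] at h1
  rw [Polynomial.eval₂_eq_sum_range, Finset.sum_range] at h1
  have hP0 : (fun i : Fin (q.natDegree + 1) => q.coeff i) ≠ 0 := by
    intro h
    have h2 := congrFun h ⟨q.natDegree, Nat.lt_succ_self _⟩
    exact hq0 (leadingCoeff_eq_zero.mp h2)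
  obtain ⟨n', P', hP', hunit⟩ := Qep.exists_scale_poly l _ hP0
  refine ⟨q.natDegree, P', hunit, ?_⟩
  apply inclZ_injective l
  rw [map_zero, map_sum]
  have hterm : ∀ i : Fin (q.natDegree + 1),
      inclZ l (ev (jqModC (Zl l)) (P' i) * qExpand (Zl l) d (jqModC (Zl l)) ^ (i : ℕ))
        = HahnSeries.C ((l : ℚ) ^ n') *
          ((aeval jq : ℚ[X] →ₐ[ℚ] LaurentSeries ℚ).toRingHom (q.coeff i)
            * qExpand ℚ d (jqModC ℚ) ^ (i : ℕ)) := by
    intro i
    have e1 : inclZ l (ev (jqModC (Zl l)) (P' i))
        = ev jq ((P' i).map (GaloisRep.ratLocalizedAt l).subtype) := by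
      have h3 := congrArg (fun φ : (Zl l)[X] →+* LaurentSeries ℚ => φ (P' i))
        (PrimeRed.coeffMap_comp_ev (GaloisRep.ratLocalizedAt l).subtype (jqModC (Zl l)))
      simp only [RingHom.comp_apply, coe_mapRingHom] at h3
      rw [jq_eq_inclZ l]
      exact h3
    rw [map_mul, map_pow, e1, hP' i, coeffMap_qExpand, coeffMap_jqModC, map_mul (ev jq),
      PrimeRed.ev_C]
    exact mul_assoc _ _ _
  simp_rw [hterm]
  rw [← Finset.mul_sum, h1, mul_zero]

/-- For every field `k` of characteristic `l`: a nonzero relation between `j(q)` and `j(q^d)`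
over `k`. -/
theorem exists_relation (k : Type*) [Field k] [CharP k l] {d : ℕ} [NeZero d] (hd : d ∣ N) :
    ∃ (n : ℕ) (P : Fin (n + 1) → k[X]), (∃ i, P i ≠ 0) ∧
      ∑ i, aeval (jqModC k) (P i) * qExpand k d (jqModC k) ^ (i : ℕ) = 0 := by
  obtain ⟨n, P, ⟨i, c, hu⟩, hP⟩ := exists_relation_Zl N l hd
  let φ : Zl l →+* k := (ZMod.castHom (dvd_refl l) k).comp (redZl l)
  refine ⟨n, fun i => (P i).map φ, ⟨i, Qep.map_ne_zero_of_isUnit_coeff φ hu⟩, ?_⟩
  have h1 := congrArg (coeffMap φ) hP
  rw [map_zero, map_sum] at h1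
  rw [← h1]
  refine Finset.sum_congr rfl fun i _ => ?_
  rw [map_mul, map_pow, coeffMap_qExpand, coeffMap_jqModC]
  congr 1
  have h3 := congrArg (fun ψ : (Zl l)[X] →+* LaurentSeries k => ψ (P i))
    (PrimeRed.coeffMap_comp_ev φ (jqModC (Zl l)))
  simp only [RingHom.comp_apply, coe_mapRingHom, coeffMap_jqModC] at h3
  exact h3.symm

end Relation

/-! ### Finiteness over `k(j)` -/

section Abstract

open IntermediateField

variable {K F : Type*} [Field K] [Field F] [Algebra K F]

/-- An element satisfying a nonzero polynomial relation over `K[j]` is integral over `K(j)`. -/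
theorem isIntegral_of_relation (j x : F) (hj : Transcendental K j) {n : ℕ}
    (P : Fin (n + 1) → K[X]) (hP : ∃ i, P i ≠ 0)
    (hrel : ∑ i, aeval j (P i) * x ^ (i : ℕ) = 0) : IsIntegral K⟮j⟯ x := by
  classical
  obtain ⟨i₀, hi₀⟩ := hP
  refine IsAlgebraic.isIntegral ⟨∑ i : Fin (n + 1),
    C (aeval (AdjoinSimple.gen K j) (P i)) * X ^ (i : ℕ), ?_, ?_⟩
  · intro h0
    have h1 := congrArg (fun R : (K⟮j⟯)[X] => R.coeff (i₀ : ℕ)) h0
    simp only [finsetSum_coeff, coeff_C_mul, coeff_X_pow, coeff_zero] at h1
    rw [Finset.sum_eq_single i₀] at h1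
    · simp only [if_true, mul_one] at h1
      have h2 := congrArg (algebraMap K⟮j⟯ F) h1
      rw [← Polynomial.aeval_algebraMap_apply, AdjoinSimple.algebraMap_gen, map_zero] at h2
      exact hi₀ ((transcendental_iff.mp hj) _ h2)
    · intro i _ hi
      rw [if_neg (fun h => hi (Fin.ext h.symm)), mul_zero]
    · intro h
      exact absurd (Finset.mem_univ _) h
  · rw [map_sum, ← hrel]
    refine Finset.sum_congr rfl fun i _ => ?_
    rw [map_mul, aeval_C, map_pow, aeval_X, ← Polynomial.aeval_algebraMap_apply,
      AdjoinSimple.algebraMap_gen]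

/-- A field generated over `K` by finitely many elements integral over `K(j)` is finite over
`K(j)`. -/
theorem finiteDimensional_of_adjoin_eq_top (j : F) (S : Set F) (hS : S.Finite)
    (htop : IntermediateField.adjoin K S = ⊤) (hint : ∀ x ∈ S, IsIntegral K⟮j⟯ x) :
    FiniteDimensional K⟮j⟯ F := by
  have := hS.to_subtype
  have hL := IntermediateField.finiteDimensional_adjoin (K := K⟮j⟯) hint
  have htop' : IntermediateField.adjoin K⟮j⟯ S = ⊤ := by
    rw [eq_top_iff]
    intro x _
    have hx : x ∈ IntermediateField.adjoin K S := by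
      rw [htop]
      trivial
    have hle : IntermediateField.adjoin K S ≤
        (IntermediateField.adjoin K⟮j⟯ S).restrictScalars K := by
      rw [IntermediateField.adjoin_le_iff]
      intro y hy
      exact IntermediateField.subset_adjoin K⟮j⟯ _ hy
    exact hle hx
  rw [htop'] at hL
  exact (IntermediateField.topEquiv (F := K⟮j⟯) (E := F)).toLinearEquiv.finiteDimensional

end Abstract

section Finite

open IntermediateField

variable (k : Type*) [Field k] (N : ℕ)

/-- `j` as an element of the residual function field. -/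
def jC : modularFunctionFieldFullC k N := ⟨jqModC k, jqModC_mem_full k N⟩

theorem coe_aeval (x : modularFunctionFieldFullC k N) (p : k[X]) :
    ((aeval x p : modularFunctionFieldFullC k N) : LaurentSeries k)
      = aeval (x : LaurentSeries k) p :=
  (Polynomial.aeval_algebraMap_apply (LaurentSeries k) x p).symm

theorem transcendental_jC : Transcendental k (jC k N) := by
  rintro ⟨p, hp0, hp⟩
  apply Qep.transcendental_jqModC k
  refine ⟨p, hp0, ?_⟩
  have h1 := congrArg (fun x : modularFunctionFieldFullC k N => (x : LaurentSeries k)) hp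
  simp only [coe_aeval, ZeroMemClass.coe_zero] at h1
  exact h1

theorem adjoin_preimage_eq_top :
    IntermediateField.adjoin k
      ((Subtype.val : modularFunctionFieldFullC k N → LaurentSeries k) ⁻¹'
        divisorExpansionsC k N) = ⊤ := by
  apply IntermediateField.lift_injective (modularFunctionFieldFullC k N)
  rw [IntermediateField.lift_adjoin, IntermediateField.lift_top]
  have h1 : (Subtype.val : modularFunctionFieldFullC k N → LaurentSeries k) ''
      ((Subtype.val : modularFunctionFieldFullC k N → LaurentSeries k) ⁻¹'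
        divisorExpansionsC k N) = divisorExpansionsC k N := by
    apply Set.image_preimage_eq_of_subset
    intro x hx
    exact ⟨⟨x, IntermediateField.subset_adjoin k _ hx⟩, rfl⟩
  rw [h1]
  rfl

set_option synthInstance.maxHeartbeats 400000 in
/-- For a field `k` of characteristic `l`, the function field `k(j(q^d) : d ∣ N)` is finite
over `k(j)`. -/
theorem finiteDimensional_full [NeZero N] (l : ℕ) [Fact l.Prime] [CharP k l] :
    FiniteDimensional k⟮jC k N⟯ ↥(modularFunctionFieldFullC k N) := by
  refine finiteDimensional_of_adjoin_eq_top (jC k N) _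
    ((TowerAlg.finite_divisorExpansionsC k N).preimage Subtype.val_injective.injOn)
    (adjoin_preimage_eq_top k N) ?_
  rintro x ⟨d, hd0, hdN, hx⟩
  have := hd0
  obtain ⟨n, P, hP, hrel⟩ := exists_relation N l k hdN
  refine isIntegral_of_relation (jC k N) x (transcendental_jC k N) P hP ?_
  apply Subtype.ext
  rw [ZeroMemClass.coe_zero, ← hrel, AddSubmonoidClass.coe_finsetSum]
  refine Finset.sum_congr rfl fun i _ => ?_
  rw [MulMemClass.coe_mul, SubmonoidClass.coe_pow, coe_aeval, hx]
  rfl

end Finite

end Fermat.Agent.RedLib.Step0Rel
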