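import Mathlib
import Fermat.Prelude.Def_EllipticCurve_FrobeniusTrace

/-!
# S18 step 0: the residue field of a valuation ring of an algebraically closed field

It is algebraically closed, and has characteristic `ℓ` if the valuation ring lies over `ℓ`.
-/

set_option autoImplicit false

noncomputable section

namespace Fermat.Agent.RedLib.Step0Res

open Polynomial

variable {L : Type*} [Field L] (A : ValuationSubring L)

/-- The residue field of a valuation ring of an algebraically closed field is algebraically
closed. -/
theorem isAlgClosed_residueField [IsAlgClosed L] : IsAlgClosed (IsLocalRing.ResidueField A) := by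
  apply IsAlgClosed.of_exists_root
  intro p hp hirr
  have hlift : p ∈ Polynomial.lifts (IsLocalRing.residue A) := by
    rw [Polynomial.lifts_iff_coeff_lifts]
    intro n
    exact IsLocalRing.residue_surjective _
  obtain ⟨P, hP, hdeg, hmonic⟩ := Polynomial.lifts_and_natDegree_eq_and_monic hlift hp
  have hmonic' : (P.map A.subtype).Monic := hmonic.map _
  have hnat : (P.map A.subtype).natDegree ≠ 0 := by
    rw [hmonic.natDegree_map, hdeg]
    exact hirr.natDegree_pos.ne'
  have hdeg' : (P.map A.subtype).degree ≠ 0 := by
    intro h0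
    exact hnat (natDegree_eq_zero_iff_degree_le_zero.mpr h0.le)
  obtain ⟨α, hα⟩ := IsAlgClosed.exists_root (P.map A.subtype) hdeg'
  have hint : IsIntegral A α := ⟨P, hmonic, by
    have h1 : eval α (P.map A.subtype) = 0 := hα
    rw [eval_map] at h1
    exact h1⟩
  obtain ⟨a, ha⟩ := IsIntegrallyClosed.isIntegral_iff.mp hint
  have h2 : eval a P = 0 := by
    apply Subtype.val_injective
    have h3 : A.subtype (eval a P) = eval₂ A.subtype (A.subtype a) P := (eval₂_at_apply _ _).symm
    have h4 : A.subtype a = α := ha
    have h5 : eval α (P.map A.subtype) = 0 := hα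
    rw [eval_map] at h5
    rw [h4, h5] at h3
    exact h3
  refine ⟨IsLocalRing.residue A a, ?_⟩
  rw [← hP, eval_map, eval₂_at_apply, h2, map_zero]

/-- The residue field of a valuation ring lying over `ℓ` has characteristic `ℓ`. -/
theorem charP_residueField (ℓ : ℕ) [hℓ : Fact ℓ.Prime] (hA : A.LiesOverPrime ℓ) :
    CharP (IsLocalRing.ResidueField A) ℓ := by
  rw [CharP.charP_iff_prime_eq_zero hℓ.out]
  obtain ⟨hmem, hmax⟩ := ValuationSubring.mem_nonunits_iff_exists_mem_maximalIdeal.mp hA
  have h1 : IsLocalRing.residue A ⟨(ℓ : L), hmem⟩ = 0 :=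
    (IsLocalRing.residue_eq_zero_iff _).mpr hmax
  have h2 : (⟨(ℓ : L), hmem⟩ : A) = (ℓ : A) := Subtype.ext (by simp)
  rw [h2, map_natCast] at h1
  exact h1

end Fermat.Agent.RedLib.Step0Res
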