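import Mathlib
import Fermat.Prelude.Def_ModularCurve_ReductionModL
import Fermat.Prelude.Def_EllipticCurve_FrobeniusTrace
import Fermat.Agent.GenusLib.PlaceCoreOrd
import Fermat.Agent.RedLib.Step0Const
import Fermat.Agent.RedLib.Step0Rel
import Fermat.Agent.RedLib.Step0Res

/-!
# S18, step 0: reduction of the injectivity of `reductionModL` on prime-to-`ℓ` torsion to CORE

`Core N ℓ A` is the statement about `p`-th roots in the function field `F_L` (no reduction map
`r` in it).  `step0` deduces the frozen statement S18 from it.  The hypothesis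
`ReductionInputsModL` is used only here.
-/

set_option autoImplicit false

noncomputable section

namespace Fermat.Agent.RedLib.Step0

open ModularCurve AlgebraicCurve HahnSeries
open Fermat.Agent.GenusLib.PlaceCore (place_ord_algebraMap)

/-! ### Integral series and their two images -/

section Generic

variable {L : Type*} [Field L] [Algebra ℚ L] (A : ValuationSubring L)
variable {k : Type*} [Field k] (π : A →+* k) (N : ℕ)

/-- `y` is an integral series both of whose images lie in the function fields. -/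
def Good (y : LaurentSeries A) : Prop :=
  coeffMap A.subtype y ∈ laurentBaseChange L (modularFunctionFieldFull N) ∧
    coeffMap π y ∈ modularFunctionFieldFullC k N

/-- `f` and `g` are the characteristic-zero and the residual image of the integral series `y`. -/
def Lifts (y : LaurentSeries A) (f : laurentBaseChange L (modularFunctionFieldFull N))
    (g : modularFunctionFieldFullC k N) : Prop :=
  (f : LaurentSeries L) = coeffMap A.subtype y ∧ (g : LaurentSeries k) = coeffMap π y

variable {A π N}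

theorem Good.lifts {y : LaurentSeries A} (h : Good A π N y) :
    Lifts A π N y ⟨_, h.1⟩ ⟨_, h.2⟩ :=
  ⟨rfl, rfl⟩

theorem Lifts.one : Lifts A π N 1 1 1 :=
  ⟨by rw [map_one]; rfl, by rw [map_one]; rfl⟩

theorem Lifts.mul {y y' : LaurentSeries A}
    {f f' : laurentBaseChange L (modularFunctionFieldFull N)}
    {g g' : modularFunctionFieldFullC k N} (h : Lifts A π N y f g) (h' : Lifts A π N y' f' g') :
    Lifts A π N (y * y') (f * f') (g * g') :=
  ⟨by rw [map_mul, ← h.1, ← h'.1]; rfl, by rw [map_mul, ← h.2, ← h'.2]; rfl⟩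

theorem Lifts.pow {y : LaurentSeries A} {f : laurentBaseChange L (modularFunctionFieldFull N)}
    {g : modularFunctionFieldFullC k N} (h : Lifts A π N y f g) (n : ℕ) :
    Lifts A π N (y ^ n) (f ^ n) (g ^ n) := by
  induction n with
  | zero => simpa using Lifts.one
  | succ n ih => rw [pow_succ, pow_succ, pow_succ]; exact ih.mul h

theorem Lifts.const (a : A) :
    Lifts A π N (HahnSeries.single 0 a)
      (algebraMap L (laurentBaseChange L (modularFunctionFieldFull N)) (a : L))
      (algebraMap k (modularFunctionFieldFullC k N) (π a)) := by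
  constructor
  · rw [coeffMap_single]
    exact algebraMap_laurentSeries_eq_single L (a : L)
  · rw [coeffMap_single]
    exact algebraMap_laurentSeries_eq_single k (π a)

theorem Lifts.ne_zero {y : LaurentSeries A}
    {f : laurentBaseChange L (modularFunctionFieldFull N)}
    {g : modularFunctionFieldFullC k N} (h : Lifts A π N y f g) (hg : g ≠ 0) : f ≠ 0 := by
  rintro rfl
  apply hg
  have h1 : coeffMap A.subtype y = 0 := h.1.symm
  have h2 : y = 0 := by
    ext n
    have h3 := congrArg (fun s : LaurentSeries L => s.coeff n) h1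
    simp only [coeffMap_coeff, HahnSeries.coeff_zero] at h3
    rw [HahnSeries.coeff_zero]
    exact h3.trans (ZeroMemClass.coe_zero A).symm
  apply Subtype.ext
  rw [h.2, h2, map_zero]
  rfl

/-! ### Divisors in the span of the integral principal divisors -/

theorem exists_lifts_of_mem_closure
    {r : Place L (laurentBaseChange L (modularFunctionFieldFull N)) →
      Place k (modularFunctionFieldFullC k N)}
    (hr : IsPlaceReductionAlong A π N r)
    {E : Divisor L (laurentBaseChange L (modularFunctionFieldFull N))}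
    (hE : E ∈ AddSubgroup.closure (integralPrincipalDivisors A π N)) :
    ∃ (y₁ y₂ : LaurentSeries A) (f₁ f₂ : laurentBaseChange L (modularFunctionFieldFull N))
      (g₁ g₂ : modularFunctionFieldFullC k N),
      Lifts A π N y₁ f₁ g₁ ∧ Lifts A π N y₂ f₂ g₂ ∧ g₁ ≠ 0 ∧ g₂ ≠ 0 ∧
      (∀ P, E P = P.ord f₁ - P.ord f₂) ∧
      (∀ Q, Finsupp.mapDomain r E Q = Q.ord g₁ - Q.ord g₂) := by
  induction hE using AddSubgroup.closure_induction with
  | mem E hE =>
    obtain ⟨y, hy, hyk, hne, hEy⟩ := hE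
    refine ⟨y, 1, ⟨_, hy⟩, 1, ⟨_, hyk⟩, 1, ⟨rfl, rfl⟩, Lifts.one, ?_, one_ne_zero, ?_, ?_⟩
    · intro h
      exact hne (congrArg Subtype.val h)
    · intro P
      rw [hEy P, Place.ord_one, sub_zero]
    · intro Q
      rw [hr.2 y hy hyk hne E hEy Q, Place.ord_one, sub_zero]
  | zero =>
    refine ⟨1, 1, 1, 1, 1, 1, Lifts.one, Lifts.one, one_ne_zero, one_ne_zero, fun P => ?_,
      fun Q => ?_⟩
    · rw [Finsupp.zero_apply, Place.ord_one, sub_zero]
    · rw [Finsupp.mapDomain_zero, Finsupp.zero_apply, Place.ord_one, sub_zero]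
  | add E E' _ _ hE hE' =>
    obtain ⟨y₁, y₂, f₁, f₂, g₁, g₂, l₁, l₂, n₁, n₂, hP, hQ⟩ := hE
    obtain ⟨y₁', y₂', f₁', f₂', g₁', g₂', l₁', l₂', n₁', n₂', hP', hQ'⟩ := hE'
    refine ⟨y₁ * y₁', y₂ * y₂', f₁ * f₁', f₂ * f₂', g₁ * g₁', g₂ * g₂', l₁.mul l₁', l₂.mul l₂',
      mul_ne_zero n₁ n₁', mul_ne_zero n₂ n₂', fun P => ?_, fun Q => ?_⟩
    · rw [Finsupp.add_apply, hP, hP', P.ord_mul (l₁.ne_zero n₁) (l₁'.ne_zero n₁'),
        P.ord_mul (l₂.ne_zero n₂) (l₂'.ne_zero n₂')]
      ring
    · rw [Finsupp.mapDomain_add, Finsupp.add_apply, hQ, hQ', Q.ord_mul n₁ n₁', Q.ord_mul n₂ n₂']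
      ring
  | neg E _ hE =>
    obtain ⟨y₁, y₂, f₁, f₂, g₁, g₂, l₁, l₂, n₁, n₂, hP, hQ⟩ := hE
    refine ⟨y₂, y₁, f₂, f₁, g₂, g₁, l₂, l₁, n₂, n₁, fun P => ?_, fun Q => ?_⟩
    · rw [Finsupp.neg_apply, hP]
      ring
    · rw [← Finsupp.mapDomain.addMonoidHom_apply, map_neg, Finsupp.mapDomain.addMonoidHom_apply,
        Finsupp.neg_apply, hQ]
      ring

/-! ### Lifting elements of the residual function field -/

theorem exists_good_of_mem (hπ : Function.Surjective π) {x : LaurentSeries k}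
    (hx : x ∈ modularFunctionFieldFullC k N) :
    ∃ y₁ y₂ : LaurentSeries A, Good A π N y₁ ∧ Good A π N y₂ ∧ coeffMap π y₂ ≠ 0 ∧
      x * coeffMap π y₂ = coeffMap π y₁ := by
  have good_one : Good A π N 1 :=
    ⟨by rw [map_one]; exact one_mem _, by rw [map_one]; exact one_mem _⟩
  have good_zero : Good A π N 0 :=
    ⟨by rw [map_zero]; exact zero_mem _, by rw [map_zero]; exact zero_mem _⟩
  have good_mul : ∀ {y y' : LaurentSeries A}, Good A π N y → Good A π N y' →
      Good A π N (y * y') := fun h h' =>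
    ⟨by rw [map_mul]; exact mul_mem h.1 h'.1, by rw [map_mul]; exact mul_mem h.2 h'.2⟩
  have good_add : ∀ {y y' : LaurentSeries A}, Good A π N y → Good A π N y' →
      Good A π N (y + y') := fun h h' =>
    ⟨by rw [map_add]; exact add_mem h.1 h'.1, by rw [map_add]; exact add_mem h.2 h'.2⟩
  have hone : coeffMap π (1 : LaurentSeries A) ≠ 0 := by
    rw [map_one]
    exact one_ne_zero
  unfold modularFunctionFieldFullC at hx
  induction hx using IntermediateField.adjoin_induction with
  | mem x hx =>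
    obtain ⟨d, hd0, hdN, rfl⟩ := hx
    have := hd0
    refine ⟨qExpand A d (jqModC A), 1, ⟨?_, ?_⟩, good_one, hone, ?_⟩
    · rw [coeffMap_qExpand, coeffMap_jqModC]
      have h1 : qExpand ℚ d (jqModC ℚ) ∈ modularFunctionFieldFull N := jqModCd_mem_full ℚ N hdN
      have h2 := coeffEmb_mem_laurentBaseChange L h1
      rwa [coeffEmb, coeffMap_qExpand, coeffMap_jqModC] at h2
    · rw [coeffMap_qExpand, coeffMap_jqModC]
      exact jqModCd_mem_full k N hdN
    · rw [map_one, mul_one, coeffMap_qExpand, coeffMap_jqModC]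
  | algebraMap c =>
    obtain ⟨a, rfl⟩ := hπ c
    refine ⟨HahnSeries.single 0 a, 1, ⟨?_, ?_⟩, good_one, hone, ?_⟩
    · rw [coeffMap_single, ← algebraMap_laurentSeries_eq_single]
      exact IntermediateField.algebraMap_mem _ _
    · rw [coeffMap_single, ← algebraMap_laurentSeries_eq_single]
      exact IntermediateField.algebraMap_mem _ _
    · rw [map_one, mul_one, coeffMap_single, algebraMap_laurentSeries_eq_single]
  | add x x' _ _ hx hx' =>
    obtain ⟨y₁, y₂, G₁, G₂, n₂, e⟩ := hx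
    obtain ⟨y₁', y₂', G₁', G₂', n₂', e'⟩ := hx'
    refine ⟨y₁ * y₂' + y₁' * y₂, y₂ * y₂', good_add (good_mul G₁ G₂') (good_mul G₁' G₂),
      good_mul G₂ G₂', ?_, ?_⟩
    · rw [map_mul]
      exact mul_ne_zero n₂ n₂'
    · rw [map_mul, map_add, map_mul, map_mul, ← e, ← e']
      ring
  | inv x _ hx =>
    obtain ⟨y₁, y₂, G₁, G₂, n₂, e⟩ := hx
    by_cases h1 : coeffMap π y₁ = 0
    · have hx0 : x = 0 := by
        rw [h1] at e
        exact (mul_eq_zero.mp e).resolve_right n₂
      refine ⟨0, 1, good_zero, good_one, hone, ?_⟩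
      rw [hx0, inv_zero, zero_mul, map_zero]
    · refine ⟨y₂, y₁, G₂, G₁, h1, ?_⟩
      have hx0 : x ≠ 0 := by
        rintro rfl
        rw [zero_mul] at e
        exact h1 e.symm
      rw [← e]
      field_simp
  | mul x x' _ _ hx hx' =>
    obtain ⟨y₁, y₂, G₁, G₂, n₂, e⟩ := hx
    obtain ⟨y₁', y₂', G₁', G₂', n₂', e'⟩ := hx'
    refine ⟨y₁ * y₁', y₂ * y₂', good_mul G₁ G₁', good_mul G₂ G₂', ?_, ?_⟩
    · rw [map_mul]
      exact mul_ne_zero n₂ n₂'
    · rw [map_mul, map_mul, ← e, ← e']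
      ring

/-! ### The main reduction, generic form -/

theorem ord_npow {K F : Type*} [Field K] [Field F] [Algebra K F] (v : Place K F) (f : F)
    (n : ℕ) : v.ord (f ^ n) = n * v.ord f := by
  have h := v.ord_zpow f (n : ℤ)
  rwa [zpow_natCast] at h

theorem ord_div {K F : Type*} [Field K] [Field F] [Algebra K F] (v : Place K F) {f g : F}
    (hf : f ≠ 0) (hg : g ≠ 0) : v.ord (f / g) = v.ord f - v.ord g := by
  rw [div_eq_mul_inv, v.ord_mul hf (inv_ne_zero hg), v.ord_inv]
  ring

/-- If `p • D` is principal, the reduction of `D` is principal, residual functions without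
zeros and poles are constant and CORE holds for `p`, then `D` is principal. -/
theorem isPrincipal_of_core (hπ : Function.Surjective π)
    {r : Place L (laurentBaseChange L (modularFunctionFieldFull N)) →
      Place k (modularFunctionFieldFullC k N)}
    (hr : IsPlaceReductionAlong A π N r) (hgen : PrincipalGeneratedByIntegral A π N)
    (hconst : ∀ c : modularFunctionFieldFullC k N, c ≠ 0 →
      (∀ Q : Place k (modularFunctionFieldFullC k N), Q.ord c = 0) →
      ∃ a : k, c = algebraMap k (modularFunctionFieldFullC k N) a)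
    (p : ℕ) (hp : p ≠ 0)
    (hcore : ∀ (y₁ y₂ : LaurentSeries A)
      (f₁ f₂ : laurentBaseChange L (modularFunctionFieldFull N))
      (g : modularFunctionFieldFullC k N), Lifts A π N y₁ f₁ g → Lifts A π N y₂ f₂ g → g ≠ 0 →
      (∀ P : Place L (laurentBaseChange L (modularFunctionFieldFull N)),
        (p : ℤ) ∣ P.ord (f₁ / f₂)) →
      ∃ w : laurentBaseChange L (modularFunctionFieldFull N), w ^ p = f₁ / f₂)
    (D : Divisor L (laurentBaseChange L (modularFunctionFieldFull N)))
    (hpD : Divisor.IsPrincipal (p • D)) (hrD : Divisor.IsPrincipal (Finsupp.mapDomain r D)) :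
    Divisor.IsPrincipal D := by
  obtain ⟨y₁, y₂, f₁, f₂, g₁, g₂, l₁, l₂, n₁, n₂, hP, hQ⟩ :=
    exists_lifts_of_mem_closure hr (hgen (Divisor.mem_principal.mpr hpD))
  obtain ⟨gb, hgb0, hgb⟩ := hrD
  obtain ⟨u₁, u₂, G₁, G₂, hu₂, hu⟩ := exists_good_of_mem (A := A) (N := N) hπ gb.2
  obtain ⟨a₁, b₁, L₁⟩ : ∃ (a₁ : laurentBaseChange L (modularFunctionFieldFull N))
      (b₁ : modularFunctionFieldFullC k N), Lifts A π N u₁ a₁ b₁ := ⟨_, _, G₁.lifts⟩
  obtain ⟨a₂, b₂, L₂⟩ : ∃ (a₂ : laurentBaseChange L (modularFunctionFieldFull N))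
      (b₂ : modularFunctionFieldFullC k N), Lifts A π N u₂ a₂ b₂ := ⟨_, _, G₂.lifts⟩
  have hb₂ : b₂ ≠ 0 := fun h => hu₂ (by rw [← L₂.2, h]; rfl)
  have hgb' : gb * b₂ = b₁ := Subtype.ext (by
    rw [MulMemClass.coe_mul, L₂.2, L₁.2]
    exact hu)
  have hb₁ : b₁ ≠ 0 := by
    rw [← hgb']
    exact mul_ne_zero hgb0 hb₂
  have ha₁ : a₁ ≠ 0 := L₁.ne_zero hb₁
  have ha₂ : a₂ ≠ 0 := L₂.ne_zero hb₂
  have hf₁ : f₁ ≠ 0 := l₁.ne_zero n₁
  have hf₂ : f₂ ≠ 0 := l₂.ne_zero n₂
  -- the residual constant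
  have hordgb : ∀ Q : Place k (modularFunctionFieldFullC k N),
      Q.ord gb = Q.ord b₁ - Q.ord b₂ := by
    intro Q
    rw [← hgb', Q.ord_mul hgb0 hb₂]
    ring
  have hnumk : g₁ * b₂ ^ p ≠ 0 := mul_ne_zero n₁ (pow_ne_zero _ hb₂)
  have hdenk : g₂ * b₁ ^ p ≠ 0 := mul_ne_zero n₂ (pow_ne_zero _ hb₁)
  have hcord : ∀ Q : Place k (modularFunctionFieldFullC k N),
      Q.ord (g₁ * b₂ ^ p / (g₂ * b₁ ^ p)) = 0 := by
    intro Q
    have h1 := hQ Q
    rw [Finsupp.mapDomain_smul, Finsupp.smul_apply, hgb Q, hordgb Q, nsmul_eq_mul] at h1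
    rw [ord_div Q hnumk hdenk, Q.ord_mul n₁ (pow_ne_zero _ hb₂),
      Q.ord_mul n₂ (pow_ne_zero _ hb₁), ord_npow, ord_npow]
    linarith
  obtain ⟨c₀, hc₀⟩ := hconst _ (div_ne_zero hnumk hdenk) hcord
  have hc₀0 : c₀ ≠ 0 := by
    rintro rfl
    rw [map_zero] at hc₀
    exact div_ne_zero hnumk hdenk hc₀
  obtain ⟨a₀, rfl⟩ := hπ c₀
  have ha₀ : (a₀ : L) ≠ 0 := by
    intro h
    apply hc₀0
    have h0 : a₀ = 0 := Subtype.ext h
    rw [h0, map_zero]
  -- the two integral series with equal reductions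
  have LA : Lifts A π N (y₁ * u₂ ^ p) (f₁ * a₂ ^ p) (g₁ * b₂ ^ p) := l₁.mul (L₂.pow p)
  have LB := (Lifts.const (π := π) (N := N) a₀).mul (l₂.mul (L₁.pow p))
  have hgeq : algebraMap k (modularFunctionFieldFullC k N) (π a₀) * (g₂ * b₁ ^ p)
      = g₁ * b₂ ^ p := by
    rw [← hc₀]
    field_simp
  rw [hgeq] at LB
  have hcF : algebraMap L (laurentBaseChange L (modularFunctionFieldFull N)) (a₀ : L) ≠ 0 :=
    fun h => ha₀ ((map_eq_zero _).mp h)
  have hnum : f₁ * a₂ ^ p ≠ 0 := mul_ne_zero hf₁ (pow_ne_zero _ ha₂)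
  have hden : algebraMap L (laurentBaseChange L (modularFunctionFieldFull N)) (a₀ : L)
      * (f₂ * a₁ ^ p) ≠ 0 := mul_ne_zero hcF (mul_ne_zero hf₂ (pow_ne_zero _ ha₁))
  have hordu : ∀ P : Place L (laurentBaseChange L (modularFunctionFieldFull N)),
      P.ord (f₁ * a₂ ^ p /
        (algebraMap L (laurentBaseChange L (modularFunctionFieldFull N)) (a₀ : L)
          * (f₂ * a₁ ^ p))) = p * (D P + P.ord a₂ - P.ord a₁) := by
    intro P
    have h1 := hP P
    rw [Finsupp.smul_apply, nsmul_eq_mul] at h1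
    rw [ord_div P hnum hden, P.ord_mul hf₁ (pow_ne_zero _ ha₂),
      P.ord_mul hcF (mul_ne_zero hf₂ (pow_ne_zero _ ha₁)), P.ord_mul hf₂ (pow_ne_zero _ ha₁),
      ord_npow, ord_npow, place_ord_algebraMap P _ ha₀]
    linarith
  obtain ⟨w, hw⟩ := hcore _ _ _ _ _ LA LB hnumk (fun P => ⟨_, hordu P⟩)
  have hw0 : w ≠ 0 := by
    rintro rfl
    rw [zero_pow hp] at hw
    exact div_ne_zero hnum hden hw.symm
  refine ⟨w * a₁ / a₂, div_ne_zero (mul_ne_zero hw0 ha₁) ha₂, fun P => ?_⟩
  have h1 := hordu P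
  rw [← hw, ord_npow] at h1
  have hp' : (p : ℤ) ≠ 0 := Nat.cast_ne_zero.mpr hp
  have h2 := mul_left_cancel₀ hp' h1
  rw [ord_div P (mul_ne_zero hw0 ha₁) ha₂, P.ord_mul hw0 ha₁]
  linarith

end Generic

/-! ### The statement CORE and the reduction of S18 to it -/

section Main

set_option synthInstance.maxHeartbeats 400000

/-- **CORE**: for a prime `p ≠ ℓ`, a quotient `u = y₁ / y₂` of two integral series with the
same nonzero reduction, all of whose orders are divisible by `p`, is a `p`-th power in the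
function field. -/
def Core (N : ℕ) [NeZero N] (ℓ : ℕ) (A : ValuationSubring (AlgebraicClosure ℚ)) : Prop :=
  ∀ p : ℕ, p.Prime → p ≠ ℓ →
    ∀ (y₁ y₂ : LaurentSeries A)
      (h₁ : coeffMap A.subtype y₁ ∈ modularFunctionFieldBar N)
      (h₂ : coeffMap A.subtype y₂ ∈ modularFunctionFieldBar N),
      coeffMap (IsLocalRing.residue A) y₁ ∈
          modularFunctionFieldFullC (IsLocalRing.ResidueField A) N →
      coeffMap (IsLocalRing.residue A) y₁ ≠ 0 →
      coeffMap (IsLocalRing.residue A) y₁ = coeffMap (IsLocalRing.residue A) y₂ →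
      (∀ P : Place (AlgebraicClosure ℚ) (modularFunctionFieldBar N),
        (p : ℤ) ∣ P.ord ((⟨_, h₁⟩ : modularFunctionFieldBar N) / ⟨_, h₂⟩)) →
      ∃ w : modularFunctionFieldBar N, w ^ p = ⟨_, h₁⟩ / ⟨_, h₂⟩

/-- The prime-order case of the reduction, with the constancy of residual functions without
zeros and poles as a hypothesis. -/
theorem eq_zero_of_prime_nsmul (N : ℕ) [NeZero N] (ℓ : ℕ)
    (A : ValuationSubring (AlgebraicClosure ℚ)) (hcore : Core N ℓ A)
    (hconst : ∀ c : modularFunctionFieldFullC (IsLocalRing.ResidueField A) N, c ≠ 0 →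
      (∀ Q : Place (IsLocalRing.ResidueField A)
        (modularFunctionFieldFullC (IsLocalRing.ResidueField A) N), Q.ord c = 0) →
      ∃ a : IsLocalRing.ResidueField A,
        c = algebraMap (IsLocalRing.ResidueField A)
          (modularFunctionFieldFullC (IsLocalRing.ResidueField A) N) a)
    (h : ModularCurve.ReductionInputsModL A N) (p : ℕ) (hp : p.Prime) (hpl : p ≠ ℓ)
    (z : ModularCurve.JZero N) (hpz : p • z = 0) (hz : ModularCurve.reductionModL A N z = 0) :
    z = 0 := by
  obtain ⟨D, rfl⟩ := Pic0.mk_surjective z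
  rw [reductionModL_mk h] at hz
  have hrD : Divisor.IsPrincipal (Finsupp.mapDomain (placeReductionModL h)
      (D : Divisor (AlgebraicClosure ℚ) (modularFunctionFieldBar N))) := by
    have h1 := (QuotientAddGroup.eq_zero_iff _).mp hz
    rw [AddSubgroup.mem_addSubgroupOf] at h1
    exact h1
  have hpD : Divisor.IsPrincipal
      (p • (D : Divisor (AlgebraicClosure ℚ) (modularFunctionFieldBar N))) := by
    have h0 : Pic0.mk (p • D) = 0 := by
      rw [← hpz]
      exact QuotientAddGroup.mk_nsmul _ _ _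
    have h1 := (QuotientAddGroup.eq_zero_iff _).mp h0
    rw [AddSubgroup.mem_addSubgroupOf, AddSubgroupClass.coe_nsmul] at h1
    exact h1
  have hD := isPrincipal_of_core (A := A) (π := IsLocalRing.residue A) (N := N)
    IsLocalRing.residue_surjective (isPlaceReductionModL_placeReductionModL h) h.choose_spec.2
    hconst p hp.ne_zero (by
      intro y₁ y₂ f₁ f₂ g l₁ l₂ hg hdiv
      have h₁ : coeffMap A.subtype y₁ ∈ modularFunctionFieldBar N := by
        rw [← l₁.1]
        exact f₁.2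
      have h₂ : coeffMap A.subtype y₂ ∈ modularFunctionFieldBar N := by
        rw [← l₂.1]
        exact f₂.2
      have e₁ : (⟨_, h₁⟩ : modularFunctionFieldBar N) = f₁ := Subtype.ext l₁.1.symm
      have e₂ : (⟨_, h₂⟩ : modularFunctionFieldBar N) = f₂ := Subtype.ext l₂.1.symm
      obtain ⟨w, hw⟩ := hcore p hp hpl y₁ y₂ h₁ h₂
        (by rw [← l₁.2]; exact g.2)
        (by
          rw [← l₁.2]
          intro h0
          exact hg (Subtype.ext h0))
        (l₁.2.symm.trans l₂.2)
        (by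
          rw [e₁, e₂]
          exact hdiv)
      exact ⟨w, by rw [hw, e₁, e₂]⟩)
    (D : Divisor (AlgebraicClosure ℚ) (modularFunctionFieldBar N)) hpD hrD
  exact (QuotientAddGroup.eq_zero_iff _).mpr (AddSubgroup.mem_addSubgroupOf.mpr hD)

/-- Reduction to prime order. -/
theorem eq_zero_of_nsmul_of_prime {G H : Type*} [AddCommGroup G] [AddCommGroup H] (φ : G →+ H)
    (ℓ : ℕ) (hprime : ∀ p : ℕ, p.Prime → p ≠ ℓ → ∀ z : G, p • z = 0 → φ z = 0 → z = 0)
    (m : ℕ) (hm : ¬ ℓ ∣ m) (z : G) (hmz : m • z = 0) (hz : φ z = 0) : z = 0 := by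
  by_contra hz0
  have hm0 : m ≠ 0 := by
    rintro rfl
    exact hm (dvd_zero _)
  have hnm : addOrderOf z ∣ m := addOrderOf_dvd_of_nsmul_eq_zero hmz
  have hn1 : addOrderOf z ≠ 1 := fun h1 => hz0 (AddMonoid.addOrderOf_eq_one_iff.mp h1)
  have hp : (addOrderOf z).minFac.Prime := Nat.minFac_prime hn1
  have hpn : (addOrderOf z).minFac ∣ addOrderOf z := Nat.minFac_dvd _
  have hpl : (addOrderOf z).minFac ≠ ℓ := fun h => hm (h ▸ hpn.trans hnm)
  obtain ⟨n', hn'⟩ := hpn
  have hn'0 : n' ≠ 0 := by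
    rintro rfl
    rw [mul_zero] at hn'
    rw [hn', zero_dvd_iff] at hnm
    exact hm0 hnm
  have h1 : (addOrderOf z).minFac • (n' • z) = 0 := by
    rw [smul_smul, ← hn']
    exact addOrderOf_nsmul_eq_zero z
  have h2 : φ (n' • z) = 0 := by rw [map_nsmul, hz, smul_zero]
  have h3 := hprime _ hp hpl _ h1 h2
  have h4 : addOrderOf z ∣ n' := addOrderOf_dvd_of_nsmul_eq_zero h3
  have h5 : addOrderOf z ≤ n' := Nat.le_of_dvd (Nat.pos_of_ne_zero hn'0) h4
  have h6 : 2 * n' ≤ addOrderOf z := by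
    conv_rhs => rw [hn']
    exact Nat.mul_le_mul_right _ hp.two_le
  omega

/-- S18 from CORE and the constancy of residual functions without zeros and poles. -/
theorem step0_of_const (N : ℕ) [NeZero N] {ℓ : ℕ}
    (A : ValuationSubring (AlgebraicClosure ℚ)) (hcore : Core N ℓ A)
    (hconst : ∀ c : modularFunctionFieldFullC (IsLocalRing.ResidueField A) N, c ≠ 0 →
      (∀ Q : Place (IsLocalRing.ResidueField A)
        (modularFunctionFieldFullC (IsLocalRing.ResidueField A) N), Q.ord c = 0) →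
      ∃ a : IsLocalRing.ResidueField A,
        c = algebraMap (IsLocalRing.ResidueField A)
          (modularFunctionFieldFullC (IsLocalRing.ResidueField A) N) a)
    (h : ModularCurve.ReductionInputsModL A N) (m : ℕ) (hm : ¬ ℓ ∣ m) (z : ModularCurve.JZero N)
    (hmz : m • z = 0) (hz : ModularCurve.reductionModL A N z = 0) : z = 0 :=
  eq_zero_of_nsmul_of_prime (ModularCurve.reductionModL A N) ℓ
    (fun p hp hpl z hpz hz => eq_zero_of_prime_nsmul N ℓ A hcore hconst h p hp hpl z hpz hz)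
    m hm z hmz hz

/-- Residual functions without zeros and poles are constants. -/
theorem exists_const_of_ord_eq_zero (N : ℕ) [NeZero N] {ℓ : ℕ} [Fact ℓ.Prime]
    (A : ValuationSubring (AlgebraicClosure ℚ)) (hA : A.LiesOverPrime ℓ)
    (c : modularFunctionFieldFullC (IsLocalRing.ResidueField A) N)
    (hc : ∀ Q : Place (IsLocalRing.ResidueField A)
      (modularFunctionFieldFullC (IsLocalRing.ResidueField A) N), Q.ord c = 0) :
    ∃ a : IsLocalRing.ResidueField A,
      c = algebraMap (IsLocalRing.ResidueField A)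
        (modularFunctionFieldFullC (IsLocalRing.ResidueField A) N) a := by
  have h1 : IsAlgClosed (IsLocalRing.ResidueField A) := Step0Res.isAlgClosed_residueField A
  have h2 : CharP (IsLocalRing.ResidueField A) ℓ := Step0Res.charP_residueField A ℓ hA
  have h3 := Step0Rel.finiteDimensional_full (IsLocalRing.ResidueField A) N ℓ
  have hint := Step0Const.isIntegral_of_ord_eq_zero_of_perfectField
    (Step0Rel.jC (IsLocalRing.ResidueField A) N)
    (Step0Rel.transcendental_jC (IsLocalRing.ResidueField A) N) c hc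
  exact Fermat.Agent.GenusLib.PlaceCore.exists_algebraMap_eq_of_isAlgebraic hint.isAlgebraic

/-- **Step 0**: the frozen statement S18 follows from CORE. -/
theorem step0 (N : ℕ) [NeZero N] {ℓ : ℕ} [Fact ℓ.Prime] (_hℓN : ¬ ℓ ∣ N)
    (A : ValuationSubring (AlgebraicClosure ℚ)) (hA : A.LiesOverPrime ℓ) (hcore : Core N ℓ A)
    (h : ModularCurve.ReductionInputsModL A N) (m : ℕ) (hm : ¬ ℓ ∣ m) (z : ModularCurve.JZero N)
    (hmz : m • z = 0) (hz : ModularCurve.reductionModL A N z = 0) : z = 0 :=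
  step0_of_const N A hcore (fun c _ hc => exists_const_of_ord_eq_zero N A hA c hc) h m hm z hmz hz

end Main

end Fermat.Agent.RedLib.Step0
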