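import Mathlib
import Fermat.Agent.RedLib.Step0
import Fermat.Agent.RedLib.NumDesc
import Fermat.Agent.RedLib.Endgame

/-!
# S18, CORE assembly (outer layer): from the number-field statement `CoreK` to `Step0.Core`

`CoreK N ℓ A S` is the statement that has to be produced by the geometric theorem (AG) and its
instance: over a number field `K ⊆ ℚ̄` containing the needed roots of unity (and any finite set
`S p` of further constants chosen by the consumer), for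
`u_K = y₁ / y₂ ∈ F_K` (`y_i ∈ (A ∩ K)((q))` with equal nonzero reductions) such that
`X ^ p - u_K` is irreducible and all orders of `u` on `F_L` are divisible by `p`, the Kummer
extension `F_K(T_u)` contains `p` elements algebraic and linearly independent over `K`.

`core_of_coreK` deduces `Step0.Core N ℓ A`: descent to a number field (`NumDesc`), the reducible
case, and the endgame (`Endgame.exists_pow_eq_of_indep`).
-/

set_option autoImplicit false

noncomputable section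

namespace Fermat.Agent.RedLib.CoreAsm

open Polynomial ModularCurve AlgebraicCurve Fermat.Agent.RedLib Fermat.Agent.RedLib.NumField

set_option synthInstance.maxHeartbeats 400000

/-- The number-field level statement consumed by `core_of_coreK`. -/
def CoreK (N : ℕ) [NeZero N] (ℓ : ℕ) (A : ValuationSubring Lb) (S : ℕ → Finset Lb) : Prop :=
  ∀ (K : IntermediateField ℚ Lb) (_ : FiniteDimensional ℚ ↥K) (p : ℕ), p.Prime → p ≠ ℓ →
    (∀ s ∈ S p, s ∈ K) →
    (∃ ζ : ↥K, IsPrimitiveRoot ζ p) → (∃ ζ : ↥K, IsPrimitiveRoot ζ 3) →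
    ∀ (y₁ y₂ : LaurentSeries ↥(A0 K A))
      (h₁ : coeffMap (A0 K A).subtype y₁ ∈ modularFunctionFieldFullC ↥K N)
      (h₂ : coeffMap (A0 K A).subtype y₂ ∈ modularFunctionFieldFullC ↥K N),
      coeffMap (IsLocalRing.residue ↥(A0 K A)) y₁ ≠ 0 →
      coeffMap (IsLocalRing.residue ↥(A0 K A)) y₁
        = coeffMap (IsLocalRing.residue ↥(A0 K A)) y₂ →
      Irreducible (Inst.kum p ((⟨_, h₁⟩ : Inst.FK N ↥K) / ⟨_, h₂⟩)) →
      ∀ uL : ↥(modularFunctionFieldBar N),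
        (uL : LaurentSeries Lb) = coeffMap (algebraMap ↥K Lb)
          ((((⟨_, h₁⟩ : Inst.FK N ↥K) / ⟨_, h₂⟩ : Inst.FK N ↥K)) : LaurentSeries ↥K) →
        (∀ P : Place Lb ↥(modularFunctionFieldBar N), (p : ℤ) ∣ P.ord uL) →
        ∃ y : Fin p → Inst.Fu p ((⟨_, h₁⟩ : Inst.FK N ↥K) / ⟨_, h₂⟩),
          LinearIndependent ↥K y ∧ ∀ i, IsAlgebraic ↥K (y i)

/-- **CORE from the number-field statement.** -/
theorem core_of_coreK (N : ℕ) [NeZero N] (ℓ : ℕ) (A : ValuationSubring Lb)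
    (S : ℕ → Finset Lb) (hK : CoreK N ℓ A S) : Step0.Core N ℓ A := by
  classical
  intro p hp hpl y₁ y₂ h₁ h₂ _ hne heq hdiv
  have : NeZero p := ⟨hp.ne_zero⟩
  obtain ⟨ζp, hζp⟩ := HasEnoughRootsOfUnity.exists_primitiveRoot Lb p
  obtain ⟨ζ3, hζ3⟩ := HasEnoughRootsOfUnity.exists_primitiveRoot Lb 3
  obtain ⟨K, hKfin, hS, y₁', y₂', e₁, e₂, m₁, m₂⟩ :=
    NumDesc.exists_numberField N A ({ζp, ζ3} ∪ S p) y₁ y₂ h₁ h₂
  have hζpK : ζp ∈ K := hS ζp (by simp)
  have hζ3K : ζ3 ∈ K := hS ζ3 (by simp)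
  have hSK : ∀ s ∈ S p, s ∈ K := fun s hs => hS s (Finset.mem_union_right _ hs)
  have hc₁ : coeffMap (algebraMap ↥K Lb) (coeffMap (A0 K A).subtype y₁')
      = coeffMap A.subtype y₁ := by
    rw [← NumDesc.coeffMap_subtype_inclA, e₁]
  have hc₂ : coeffMap (algebraMap ↥K Lb) (coeffMap (A0 K A).subtype y₂')
      = coeffMap A.subtype y₂ := by
    rw [← NumDesc.coeffMap_subtype_inclA, e₂]
  have hcoe : coeffMap (algebraMap ↥K Lb)
      ((((⟨_, m₁⟩ : Inst.FK N ↥K) / ⟨_, m₂⟩ : Inst.FK N ↥K)) : LaurentSeries ↥K)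
      = (((⟨_, h₁⟩ : ↥(modularFunctionFieldBar N)) / ⟨_, h₂⟩ : ↥(modularFunctionFieldBar N))
          : LaurentSeries Lb) := by
    have d1 : ((((⟨_, m₁⟩ : Inst.FK N ↥K) / ⟨_, m₂⟩ : Inst.FK N ↥K)) : LaurentSeries ↥K)
        = coeffMap (A0 K A).subtype y₁' / coeffMap (A0 K A).subtype y₂' := rfl
    have d2 : (((⟨_, h₁⟩ : ↥(modularFunctionFieldBar N)) / ⟨_, h₂⟩
        : ↥(modularFunctionFieldBar N)) : LaurentSeries Lb)
        = coeffMap A.subtype y₁ / coeffMap A.subtype y₂ := rfl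
    rw [d1, d2, map_div₀, hc₁, hc₂]
  by_cases hirr : Irreducible (Inst.kum p ((⟨_, m₁⟩ : Inst.FK N ↥K) / ⟨_, m₂⟩))
  · have hfact : Fact (Irreducible (Inst.kum p ((⟨_, m₁⟩ : Inst.FK N ↥K) / ⟨_, m₂⟩))) := ⟨hirr⟩
    obtain ⟨y, hy, halg⟩ := hK K hKfin p hp hpl hSK
      ⟨⟨ζp, hζpK⟩, NumDesc.isPrimitiveRoot_of_mem K hζp hζpK⟩
      ⟨⟨ζ3, hζ3K⟩, NumDesc.isPrimitiveRoot_of_mem K hζ3 hζ3K⟩ y₁' y₂' m₁ m₂
      (NumDesc.residue_ne_zero K A (by rw [e₁]; exact hne))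
      (NumDesc.residue_eq_of_eq K A (by rw [e₁, e₂]; exact heq)) hirr _ hcoe.symm hdiv
    obtain ⟨w, hw, hwp⟩ := Endgame.exists_pow_eq_of_indep (L := Lb) N p _ y hy halg
    refine ⟨⟨w, by rw [DescBase.modularFunctionFieldBar_eq]; exact hw⟩, Subtype.ext ?_⟩
    rw [SubmonoidClass.coe_pow]
    exact hwp.trans hcoe
  · rw [Inst.kum, X_pow_sub_C_irreducible_iff_of_prime hp] at hirr
    push Not at hirr
    obtain ⟨b, hb⟩ := hirr
    refine ⟨⟨coeffMap (algebraMap ↥K Lb) (b : LaurentSeries ↥K), by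
      rw [DescBase.modularFunctionFieldBar_eq]
      exact DescBase.coeffMap_mem_fullC N b.2⟩, Subtype.ext ?_⟩
    rw [SubmonoidClass.coe_pow, ← hcoe, ← hb, SubmonoidClass.coe_pow, map_pow]

end Fermat.Agent.RedLib.CoreAsm
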