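import Mathlib

/-!
# S18 long shot, leaf W7: valuation subrings of function fields are discrete

* `isDVR_of_dedekind` : a valuation subring `V ≠ ⊤` of the fraction field of a Dedekind domain
  `R` which contains `R` is a discrete valuation ring (the localisation of `R` at the centre);
* `isDVR_of_ne_top` : every valuation subring `V ≠ ⊤` of a function field `F / K` of
  characteristic `0` (finite over `K(t)`) which contains `K` is a discrete valuation ring;
* `exists_comap_eq` : every valuation subring of a field extends to any extension field.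
-/

set_option autoImplicit false

noncomputable section

namespace Fermat.Agent.RedLib.VSDed

open IsDedekindDomain Polynomial IntermediateField

section Basic

variable {F : Type*} [Field F] {V : ValuationSubring F}

theorem inv_mem_of_notMem_nonunits {s : F} (hs : s ∈ V) (hs' : s ∉ V.nonunits) : s⁻¹ ∈ V := by
  rw [ValuationSubring.mem_nonunits_iff, not_lt] at hs'
  have h1 : V.valuation s ≤ 1 := (V.valuation_le_one_iff s).mpr hs
  have h2 : V.valuation s = 1 := le_antisymm h1 hs'
  rw [← V.valuation_le_one_iff, map_inv₀, h2, inv_one]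

theorem mul_mem_nonunits {x n : F} (hx : x ∈ V) (hn : n ∈ V.nonunits) : x * n ∈ V.nonunits := by
  rw [ValuationSubring.mem_nonunits_iff] at hn ⊢
  rw [map_mul]
  have h1 : V.valuation x ≤ 1 := (V.valuation_le_one_iff x).mpr hx
  calc V.valuation x * V.valuation n ≤ 1 * V.valuation n := mul_le_mul_left h1 _
    _ = V.valuation n := one_mul _
    _ < 1 := hn

theorem exists_notMem_of_ne_top (hV : V ≠ ⊤) : ∃ x : F, x ∉ V := by
  by_contra hcon
  rw [not_exists] at hcon
  exact hV (SetLike.ext fun x => ⟨fun _ => ValuationSubring.mem_top x, fun _ => not_not.mp (hcon x)⟩)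

end Basic

section Dedekind

variable {R F : Type*} [CommRing R] [IsDedekindDomain R] [Field F] [Algebra R F]
  [IsFractionRing R F] (V : ValuationSubring F)

/-- A valuation subring `V ≠ ⊤` of the fraction field of a Dedekind domain `R` containing `R` is
the localisation of `R` at a height one prime. -/
theorem exists_eq_valuationSubringAtPrime (hR : ∀ r : R, algebraMap R F r ∈ V) (hV : V ≠ ⊤) :
    ∃ v : HeightOneSpectrum R, V = HeightOneSpectrum.valuationSubringAtPrime F v := by
  let ι : R →+* ↥V := (algebraMap R F).codRestrict V.toSubring hR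
  let P : Ideal R := (IsLocalRing.maximalIdeal ↥V).comap ι
  have hP : P.IsPrime := Ideal.comap_isPrime _ _
  have hmemP : ∀ a : R, a ∈ P ↔ algebraMap R F a ∈ V.nonunits := by
    intro a
    rw [Ideal.mem_comap, ValuationSubring.mem_nonunits_iff_exists_mem_maximalIdeal]
    exact ⟨fun h => ⟨hR a, h⟩, fun ⟨_, h⟩ => h⟩
  have hPbot : P ≠ ⊥ := by
    obtain ⟨x, hx⟩ := exists_notMem_of_ne_top hV
    obtain ⟨a, s, hs, rfl⟩ := IsFractionRing.div_surjective (A := R) x
    have hsP : s ∈ P := by
      rw [hmemP]
      by_contra hcon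
      apply hx
      rw [div_eq_mul_inv]
      exact V.mul_mem _ _ (hR a) (inv_mem_of_notMem_nonunits (hR s) hcon)
    intro hbot
    rw [hbot, Ideal.mem_bot] at hsP
    rw [hsP] at hs
    exact zero_notMem_nonZeroDivisors hs
  refine ⟨⟨P, hP, hPbot⟩, ?_⟩
  set v : HeightOneSpectrum R := ⟨P, hP, hPbot⟩ with hv
  have hmem : ∀ d : R, d ∈ v.asIdeal.primeCompl → algebraMap R F d ∉ V.nonunits := by
    intro d hd hd'
    exact hd ((hmemP d).mpr hd')
  have hne : ∀ d : R, d ∈ v.asIdeal.primeCompl → algebraMap R F d ≠ 0 := by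
    intro d hd h0
    apply hd
    have : d = 0 := by
      apply IsFractionRing.injective R F
      rw [h0, map_zero]
    rw [this]
    exact Ideal.zero_mem _
  ext x
  constructor
  · intro hx
    obtain ⟨n, d, h | h⟩ := v.exists_primeCompl_mul_eq_or_mul_eq (K := F) x
    · refine ⟨n, d, d.2, ?_⟩
      rw [← h, mul_assoc, mul_inv_cancel₀ (hne d d.2), mul_one]
    · by_cases hn : n ∈ v.asIdeal
      · exfalso
        have h1 : x * (algebraMap R F n) ∈ V.nonunits :=
          mul_mem_nonunits hx ((hmemP n).mp hn)
        rw [h] at h1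
        exact hmem d d.2 h1
      · have hn0 := hne n hn
        have hx0 : x = algebraMap R F d * (algebraMap R F n)⁻¹ := by
          rw [← h, mul_assoc, mul_inv_cancel₀ hn0, mul_one]
        exact ⟨d, n, hn, hx0⟩
  · rintro ⟨a, s, hs, rfl⟩
    exact V.mul_mem _ _ (hR a) (inv_mem_of_notMem_nonunits (hR s) (hmem s hs))

/-- A valuation subring `V ≠ ⊤` of the fraction field of a Dedekind domain `R` containing `R` is
a discrete valuation ring. -/
theorem isDVR_of_dedekind (hR : ∀ r : R, algebraMap R F r ∈ V) (hV : V ≠ ⊤) :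
    IsDiscreteValuationRing ↥V := by
  obtain ⟨v, h⟩ := exists_eq_valuationSubringAtPrime V hR hV
  have : IsDiscreteValuationRing ↥(HeightOneSpectrum.valuationSubringAtPrime F v) :=
    IsLocalization.AtPrime.isDiscreteValuationRing_of_dedekind_domain R v.ne_bot _
  rw [h]
  exact this

end Dedekind

section FunctionField

variable {K F : Type*} [Field K] [Field F] [Algebra K F]

theorem aeval_mem (V : ValuationSubring F) (hK : ∀ a : K, algebraMap K F a ∈ V) {t : F}
    (ht : t ∈ V) (q : K[X]) : aeval t q ∈ V := by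
  rw [aeval_eq_sum_range]
  refine sum_mem fun i _ => ?_
  rw [Algebra.smul_def]
  exact V.mul_mem _ _ (hK _) (pow_mem ht i)

theorem transcendental_inv' {t : F} (ht : Transcendental K t) : Transcendental K t⁻¹ := by
  intro h
  exact ht (by simpa using h.inv)

theorem adjoin_inv' (t : F) : K⟮t⁻¹⟯ = K⟮t⟯ := by
  apply le_antisymm
  · rw [adjoin_simple_le_iff]
    exact inv_mem (mem_adjoin_simple_self K t)
  · rw [adjoin_simple_le_iff]
    have h : t⁻¹ ∈ K⟮t⁻¹⟯ := mem_adjoin_simple_self K t⁻¹
    simpa using inv_mem h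

variable [CharZero K]

/-- A valuation subring `V ≠ ⊤` of a function field `F / K` containing `K` and the
transcendental element `t` (`F` finite over `K(t)`) is a discrete valuation ring. -/
theorem isDVR_of_mem (t : F) (ht : Transcendental K t) [FiniteDimensional K⟮t⟯ F]
    (V : ValuationSubring F) (hK : ∀ a : K, algebraMap K F a ∈ V) (htV : t ∈ V) (hV : V ≠ ⊤) :
    IsDiscreteValuationRing ↥V := by
  letI algF : Algebra K[X] F := (aeval t).toRingHom.toAlgebra
  letI algE : Algebra K[X] K⟮t⟯ := (aeval (AdjoinSimple.gen K t)).toRingHom.toAlgebra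
  have hF : ∀ q : K[X], algebraMap K[X] F q = aeval t q := fun _ => rfl
  have hE : ∀ q : K[X], algebraMap K[X] K⟮t⟯ q = aeval (AdjoinSimple.gen K t) q := fun _ => rfl
  haveI : IsScalarTower K[X] K⟮t⟯ F := IsScalarTower.of_algebraMap_eq (fun q => by
    rw [hF, hE]
    simp)
  haveI : IsFractionRing K[X] K⟮t⟯ := by
    let e : RatFunc K ≃ₐ[K[X]] K⟮t⟯ :=
      AlgEquiv.ofRingEquiv (f := (RatFunc.algEquivOfTranscendental t ht).toRingEquiv)
        (fun g => by
          rw [hE]
          exact RatFunc.algEquivOfTranscendental_algebraMap t ht g)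
    exact IsLocalization.isLocalization_of_algEquiv (nonZeroDivisors K[X]) e
  haveI : CharZero F := charZero_of_injective_algebraMap (algebraMap K F).injective
  haveI : CharZero K⟮t⟯ := (algebraMap K⟮t⟯ F).charZero
  haveI : Algebra.IsSeparable K⟮t⟯ F := inferInstance
  haveI : Module.IsTorsionFree K[X] F := .trans_faithfulSMul K[X] K⟮t⟯ F
  haveI : IsDedekindDomain (integralClosure K[X] F) :=
    integralClosure.isDedekindDomain K[X] K⟮t⟯ F
  haveI : IsFractionRing (integralClosure K[X] F) F :=
    integralClosure.isFractionRing_of_finite_extension K⟮t⟯ F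
  apply isDVR_of_dedekind (R := integralClosure K[X] F) V _ hV
  intro b
  have h1 : IsIntegral K[X] (b : F) := b.2
  let φ : K[X] →+* ↥V := (algebraMap K[X] F).codRestrict V.toSubring
    (fun q => by rw [hF]; exact aeval_mem V hK htV q)
  letI : Algebra K[X] ↥V := φ.toAlgebra
  haveI : IsScalarTower K[X] ↥V F := IsScalarTower.of_algebraMap_eq (fun _ => rfl)
  have h2 : IsIntegral ↥V (b : F) := h1.tower_top
  obtain ⟨y, hy⟩ := IsIntegrallyClosed.isIntegral_iff.mp h2
  show (b : F) ∈ V
  rw [← hy]
  exact y.2

/-- **Every valuation subring `V ≠ ⊤` of a function field `F / K` of characteristic `0`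
(`F` finite over `K(t)`, `t` transcendental) which contains `K` is a discrete valuation
ring.** -/
theorem isDVR_of_ne_top (t : F) (ht : Transcendental K t) [FiniteDimensional K⟮t⟯ F]
    (V : ValuationSubring F) (hK : ∀ a : K, algebraMap K F a ∈ V) (hV : V ≠ ⊤) :
    IsDiscreteValuationRing ↥V := by
  rcases V.mem_or_inv_mem t with h | h
  · exact isDVR_of_mem t ht V hK h hV
  · haveI : FiniteDimensional K⟮t⁻¹⟯ F := by rw [adjoin_inv']; infer_instance
    exact isDVR_of_mem t⁻¹ (transcendental_inv' ht) V hK h hV

end FunctionField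

section Extension

variable {F E : Type*} [Field F] [Field E] [Algebra F E]

theorem mem_nonunits_comap_iff' (O : ValuationSubring E) (f : F) :
    f ∈ (O.comap (algebraMap F E)).nonunits ↔ algebraMap F E f ∈ O.nonunits := by
  rw [ValuationSubring.mem_nonunits_iff_or, ValuationSubring.mem_nonunits_iff_or,
    ValuationSubring.mem_comap]
  simp

/-- Every valuation subring of `F` is the restriction of a valuation subring of `E`. -/
theorem exists_comap_eq (O : ValuationSubring F) :
    ∃ O' : ValuationSubring E, O'.comap (algebraMap F E) = O := by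
  obtain ⟨A, hA, hloc⟩ := IsLocalRing.exists_factor_valuationRing
    ((algebraMap F E).comp O.subtype)
  refine ⟨A, ?_⟩
  ext y
  rw [ValuationSubring.mem_comap]
  constructor
  · intro hy
    by_contra hyO
    -- `y⁻¹` is a nonunit of `O`
    have hy0 : y ≠ 0 := fun h0 => hyO (h0 ▸ O.zero_mem)
    have hinv : y⁻¹ ∈ O := (O.mem_or_inv_mem y).resolve_left hyO
    have hunit : IsUnit (((algebraMap F E).comp O.subtype).codRestrict A.toSubring hA ⟨y⁻¹, hinv⟩) := by
      refine IsUnit.of_mul_eq_one ⟨algebraMap F E y, hy⟩ (Subtype.ext ?_)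
      show algebraMap F E y⁻¹ * algebraMap F E y = 1
      rw [← map_mul, inv_mul_cancel₀ hy0, map_one]
    have h2 : IsUnit (⟨y⁻¹, hinv⟩ : O) := hloc.map_nonunit _ hunit
    obtain ⟨z, hz⟩ := h2.exists_right_inv
    have h3 : y⁻¹ * (z : F) = 1 := congrArg Subtype.val hz
    have h4 : (z : F) = y := by
      field_simp at h3
      exact h3
    exact hyO (h4 ▸ z.2)
  · intro hy
    exact hA ⟨y, hy⟩

end Extension

end Fermat.Agent.RedLib.VSDed
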