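import Mathlib
import Fermat.Agent.RedLib.PlaceVS
import Fermat.Agent.RedLib.VSDed

/-!
# S18 long shot, leaf W7: transfer of ramification statements along a constant field extension

`K ⊆ L` fields of characteristic `0`, `L` algebraically closed and algebraic over `K`;
`F` a field over `K`, `E` a field containing (compatibly) `L` and `F`, such that every valuation
subring `≠ ⊤` of `E` containing `L` is a discrete valuation ring with residue field `L`
(`E` a function field in one variable over `L`).

`isUnif_aeval` : let `O` be a valuation subring of `F` containing `K`, `x ∈ O`.  Suppose that for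
every discrete valuation subring `O'` of `E` above `O` and every good constant `a : L`, the
element `x - a`, if it is a nonunit of `O'`, generates the maximal ideal of `O'`.  Then for every
irreducible `q : K[X]` with good roots, `q(x)`, if it is a nonunit of `O`, generates the maximal
ideal of `O`.
-/

set_option autoImplicit false
set_option linter.style.haveILetI false

noncomputable section

namespace Fermat.Agent.RedLib.Transfer

open Polynomial
open Fermat.Agent.RedLib
open Fermat.Agent.RedLib.PlaceVS (IsUnif)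

section Basic

variable {E : Type*} [Field E]

/-- A unit multiple of a generator of the maximal ideal is a generator. -/
theorem isUnif_mul_unit {O : ValuationSubring E} {ϖ w : E} (h : IsUnif O ϖ) (hw : w ∈ O)
    (hw' : w⁻¹ ∈ O) (hw0 : w ≠ 0) : IsUnif O (ϖ * w) := by
  refine ⟨?_, fun z hz => ?_⟩
  · rw [mul_comm]
    exact VSDed.mul_mem_nonunits hw h.1
  · obtain ⟨y, hy, rfl⟩ := h.2 z hz
    refine ⟨w⁻¹ * y, O.mul_mem _ _ hw' hy, ?_⟩
    field_simp

end Basic

section Abstract

variable {K L F E : Type*} [Field K] [Field L] [Field F] [Field E] [Algebra K L] [Algebra K F]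
  [Algebra L E] [Algebra F E]

/-- The constants of `L` lie in every valuation subring of `E` lying over one of `F` which
contains `K`. -/
theorem algebraMap_mem_of_comap [Algebra.IsAlgebraic K L]
    (hcomp : ∀ c : K, algebraMap F E (algebraMap K F c) = algebraMap L E (algebraMap K L c))
    (O : ValuationSubring F) (hK : ∀ a : K, algebraMap K F a ∈ O) (O' : ValuationSubring E)
    (hO' : O'.comap (algebraMap F E) = O) (a : L) : algebraMap L E a ∈ O' := by
  have hKO' : ∀ c : K, algebraMap L E (algebraMap K L c) ∈ O' := by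
    intro c
    rw [← hcomp]
    have h1 : algebraMap K F c ∈ O'.comap (algebraMap F E) := by rw [hO']; exact hK c
    exact h1
  let ψ : K →+* ↥O' := ((algebraMap L E).comp (algebraMap K L)).codRestrict O'.toSubring hKO'
  have hint : IsIntegral K a := (Algebra.IsAlgebraic.isAlgebraic (R := K) a).isIntegral
  obtain ⟨P, hP, hPa⟩ := hint
  have h2 : IsIntegral ↥O' (algebraMap L E a) := by
    refine ⟨P.map ψ, hP.map ψ, ?_⟩
    rw [eval₂_map]
    have h3 : (algebraMap ↥O' E).comp ψ = (algebraMap L E).comp (algebraMap K L) := by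
      ext c
      rfl
    rw [h3, ← hom_eval₂, hPa, map_zero]
  obtain ⟨y, hy⟩ := IsIntegrallyClosed.isIntegral_iff.mp h2
  rw [← hy]
  exact y.2

/-- **Transfer.** -/
theorem isUnif_aeval [CharZero K] [Algebra.IsAlgebraic K L]
    (hcomp : ∀ c : K, algebraMap F E (algebraMap K F c) = algebraMap L E (algebraMap K L c))
    (hDVR : ∀ O' : ValuationSubring E, (∀ a : L, algebraMap L E a ∈ O') → O' ≠ ⊤ →
      IsDiscreteValuationRing ↥O')
    (hRES : ∀ O' : ValuationSubring E, IsDiscreteValuationRing ↥O' →
      (∀ a : L, algebraMap L E a ∈ O') → ∀ z ∈ O', ∃ a : L, z - algebraMap L E a ∈ O'.nonunits)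
    (O : ValuationSubring F) (hO : O ≠ ⊤) (hK : ∀ a : K, algebraMap K F a ∈ O)
    (x : F) (hx : x ∈ O) (good : L → Prop)
    (hR : ∀ O' : ValuationSubring E, IsDiscreteValuationRing ↥O' →
      (∀ a : L, algebraMap L E a ∈ O') → O'.comap (algebraMap F E) = O → ∀ a : L, good a →
      algebraMap F E x - algebraMap L E a ∈ O'.nonunits →
      IsUnif O' (algebraMap F E x - algebraMap L E a))
    (q : K[X]) (hq : Irreducible q) (hgood : ∀ a : L, aeval a q = 0 → good a)
    (hqx : aeval x q ∈ O.nonunits) : IsUnif O (aeval x q) := by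
  classical
  obtain ⟨O', hO'⟩ := VSDed.exists_comap_eq (E := E) O
  have hL : ∀ a : L, algebraMap L E a ∈ O' := algebraMap_mem_of_comap hcomp O hK O' hO'
  have hmemO : ∀ y : F, y ∈ O ↔ algebraMap F E y ∈ O' := by
    intro y
    rw [← hO']
    exact ValuationSubring.mem_comap
  have hnuO : ∀ y : F, y ∈ O.nonunits ↔ algebraMap F E y ∈ O'.nonunits := by
    intro y
    rw [← hO']
    exact VSDed.mem_nonunits_comap_iff' O' y
  have hO'top : O' ≠ ⊤ := by
    obtain ⟨y, hy⟩ := VSDed.exists_notMem_of_ne_top hO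
    intro htop
    apply hy
    rw [hmemO, htop]
    exact ValuationSubring.mem_top _
  haveI hdvr : IsDiscreteValuationRing ↥O' := hDVR O' hL hO'top
  have hx' : algebraMap F E x ∈ O' := (hmemO x).mp hx
  obtain ⟨a, ha⟩ := hRES O' hdvr hL _ hx'
  -- work in the ring `O'`
  let ψ : L →+* ↥O' := (algebraMap L E).codRestrict O'.toSubring hL
  let X' : ↥O' := ⟨algebraMap F E x, hx'⟩
  set qL : L[X] := q.map (algebraMap K L) with hqL
  have hψ_unit : ∀ c : L, c ≠ 0 → IsUnit (ψ c) := fun c hc => (hc.isUnit).map ψ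
  have hmem_max : ∀ z : ↥O', z ∈ IsLocalRing.maximalIdeal ↥O' ↔ (z : E) ∈ O'.nonunits := by
    intro z
    rw [ValuationSubring.mem_nonunits_iff_exists_mem_maximalIdeal]
    exact ⟨fun h => ⟨z.2, h⟩, fun ⟨_, h⟩ => h⟩
  have hXa : X' - ψ a ∈ IsLocalRing.maximalIdeal ↥O' := (hmem_max _).mpr ha
  -- the value `q(x)` in `O'`
  have hval : (((qL.map ψ).eval X' : ↥O') : E) = algebraMap F E (aeval x q) := by
    have h1 : (((qL.map ψ).eval X' : ↥O') : E) = O'.subtype ((qL.map ψ).eval X') := rfl
    rw [h1, eval_map, hom_eval₂, hqL, eval₂_map, aeval_def, hom_eval₂]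
    congr 1
    ext c
    exact (hcomp c).symm
  have hqX : (qL.map ψ).eval X' ∈ IsLocalRing.maximalIdeal ↥O' := by
    rw [hmem_max, hval, ← hnuO]
    exact hqx
  -- `a` is a root of `q`
  have hroot : qL.eval a = 0 := by
    by_contra hne
    have h1 : (qL.map ψ).eval (ψ a) ∈ IsLocalRing.maximalIdeal ↥O' := by
      obtain ⟨c, hc⟩ := sub_dvd_eval_sub X' (ψ a) (qL.map ψ)
      have h2 : (qL.map ψ).eval (ψ a) = (qL.map ψ).eval X' - (X' - ψ a) * c := by
        rw [← hc]; ring
      rw [h2]
      exact Ideal.sub_mem _ hqX (Ideal.mul_mem_right _ _ hXa)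
    rw [eval_map, eval₂_at_apply] at h1
    exact (IsLocalRing.mem_maximalIdeal _).mp h1 (hψ_unit _ hne)
  -- it is a simple root
  have hsep : qL.Separable := hq.separable.map
  obtain ⟨g, hg⟩ := dvd_iff_isRoot.mpr hroot
  have hga : g.eval a ≠ 0 := by
    intro h0
    obtain ⟨g', hg'⟩ := dvd_iff_isRoot.mpr h0
    have h1 : (X - C a) * (X - C a) ∣ qL := ⟨g', by rw [hg, hg']; ring⟩
    exact not_isUnit_X_sub_C a (hsep.squarefree _ h1)
  have hfac : (qL.map ψ).eval X' = (X' - ψ a) * (g.map ψ).eval X' := by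
    rw [hg, Polynomial.map_mul, eval_mul, Polynomial.map_sub, map_X, map_C, eval_sub, eval_X,
      eval_C]
  have hgunit : IsUnit ((g.map ψ).eval X') := by
    by_contra hnu
    have h1 : (g.map ψ).eval X' ∈ IsLocalRing.maximalIdeal ↥O' :=
      (IsLocalRing.mem_maximalIdeal _).mpr hnu
    have h2 : (g.map ψ).eval (ψ a) ∈ IsLocalRing.maximalIdeal ↥O' := by
      obtain ⟨c, hc⟩ := sub_dvd_eval_sub X' (ψ a) (g.map ψ)
      have h3 : (g.map ψ).eval (ψ a) = (g.map ψ).eval X' - (X' - ψ a) * c := by
        rw [← hc]; ring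
      rw [h3]
      exact Ideal.sub_mem _ h1 (Ideal.mul_mem_right _ _ hXa)
    rw [eval_map, eval₂_at_apply] at h2
    exact (IsLocalRing.mem_maximalIdeal _).mp h2 (hψ_unit _ hga)
  -- `x - a` generates the maximal ideal of `O'`
  have hgood_a : good a := by
    apply hgood
    rw [aeval_def, ← eval_map]
    exact hroot
  have hunif : IsUnif O' (algebraMap F E x - algebraMap L E a) := hR O' hdvr hL hO' a hgood_a ha
  -- hence so does `q(x)`
  have hunif' : IsUnif O' (algebraMap F E (aeval x q)) := by
    obtain ⟨b, hb⟩ := hgunit.exists_right_inv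
    have hw1 : (((g.map ψ).eval X' : ↥O') : E) * (b : E) = 1 := by
      have := congrArg (Subtype.val : ↥O' → E) hb
      simpa using this
    have hw0 : (((g.map ψ).eval X' : ↥O') : E) ≠ 0 := left_ne_zero_of_mul_eq_one hw1
    have hinv : (((g.map ψ).eval X' : ↥O') : E)⁻¹ = (b : E) := inv_eq_of_mul_eq_one_right hw1
    have h1 : algebraMap F E (aeval x q) =
        (algebraMap F E x - algebraMap L E a) * (((g.map ψ).eval X' : ↥O') : E) := by
      rw [← hval, hfac]
      rfl
    rw [h1]
    exact isUnif_mul_unit hunif (SetLike.coe_mem _) (by rw [hinv]; exact SetLike.coe_mem _) hw0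
  -- descend to `O`
  refine ⟨hqx, fun z hz => ?_⟩
  by_cases hz0 : z = 0
  · exact ⟨0, O.zero_mem, by rw [hz0, mul_zero]⟩
  obtain ⟨y', hy', hzy⟩ := hunif'.2 _ ((hnuO z).mp hz)
  have hq0 : aeval x q ≠ 0 := by
    intro h0
    rw [h0, map_zero, zero_mul] at hzy
    exact hz0 ((algebraMap F E).injective (by rw [hzy, map_zero]))
  refine ⟨z / aeval x q, ?_, by field_simp⟩
  rw [hmemO, map_div₀, hzy]
  have h2 : algebraMap F E (aeval x q) ≠ 0 := (_root_.map_ne_zero _).mpr hq0
  rw [mul_div_cancel_left₀ _ h2]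
  exact hy'

end Abstract

end Fermat.Agent.RedLib.Transfer
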