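import Mathlib
import Fermat.Agent.RedLib.Inst
import Fermat.Agent.RedLib.DescBase
import Fermat.Agent.RedLib.Transfer
import Fermat.Agent.RedLib.Ram0E
import Fermat.Agent.RedLib.CoverFacts
import Fermat.Agent.RedLib.Step0Rel

/-!
# S18 long shot, leaf W7: the tower over `ℚ̄` and the transfer of `(R1)`

For a field `K ⊆ ℚ̄` and `u ∈ F_K` we build, next to the tower `F_K ⊆ F_u ⊆ FF` of `Inst`, the
tower `F_L ⊆ E_L = F_L(T) ⊆ EE = E_L(t)` over `L = ℚ̄` (`F_L = modularFunctionFieldBar N`)
together with compatible embeddings `F_u → E_L`, `FF → EE`.  The ramification statement `(R1)`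
for `EE` (every `t - t₁`, `t₁ ∈ L`, is a uniformiser where it vanishes, away from the cusps)
is transferred to `FF`: every `q(t)`, `q ∈ K[X]` irreducible, is a uniformiser where it vanishes.
-/

set_option autoImplicit false
set_option linter.style.haveILetI false
set_option linter.unusedSectionVars false

noncomputable section

namespace Fermat.Agent.RedLib.Tower

open Polynomial ModularCurve IntermediateField AlgebraicCurve
open Fermat.Agent.RedLib
open Fermat.Agent.RedLib.PlaceVS (IsUnif)
open Fermat.Agent.RedLib.Inst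
open Fermat.Agent.RedLib.CoverData

/-- `ℚ̄`. -/
abbrev Lb : Type := AlgebraicClosure ℚ

/-- The modular function field over `ℚ̄`. -/
abbrev FL (N : ℕ) : Type := ↥(modularFunctionFieldBar N)

section Defs

variable (N : ℕ) {K : Type*} [Field K] [Algebra K Lb]

/-- The coefficient extension `F_K → F_L`. -/
def iotaK : FK N K →+* FL N where
  toFun x := ⟨coeffMap (algebraMap K Lb) (x : LaurentSeries K), by
    rw [DescBase.modularFunctionFieldBar_eq]
    exact DescBase.coeffMap_mem_fullC N x.2⟩
  map_one' := Subtype.ext (by simp)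
  map_mul' x y := Subtype.ext (by simp)
  map_zero' := Subtype.ext (by simp)
  map_add' x y := Subtype.ext (by simp)

@[simp] theorem coe_iotaK (x : FK N K) :
    ((iotaK N x : FL N) : LaurentSeries Lb) = coeffMap (algebraMap K Lb) (x : LaurentSeries K) :=
  rfl

theorem iotaK_algebraMap (c : K) :
    iotaK N (algebraMap K (FK N K) c) = algebraMap Lb (FL N) (algebraMap K Lb c) := by
  apply Subtype.ext
  rw [coe_iotaK]
  show coeffMap (algebraMap K Lb) (algebraMap K (LaurentSeries K) c) =
    algebraMap Lb (LaurentSeries Lb) (algebraMap K Lb c)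
  rw [algebraMap_laurentSeries_eq_single, coeffMap_single, ← algebraMap_laurentSeries_eq_single]

theorem iotaK_jK [NeZero N] : iotaK N (jK N K) = Fermat.Agent.GenusLib.FF.jF N := by
  apply Subtype.ext
  rw [coe_iotaK, coe_jK, coeffMap_jqModC, Fermat.Agent.GenusLib.FF.coe_jF]
  show jqModC Lb = coeffMap (algebraMap ℚ Lb) (jqModC ℚ)
  rw [coeffMap_jqModC]

variable {N}

/-- The Kummer polynomial over `F_L`. -/
abbrev kumL (p : ℕ) (u : FK N K) : (FL N)[X] := X ^ p - C (iotaK N u)

/-- The Kummer extension `E_L = F_L(T)`, `T ^ p = u`. -/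
abbrev EL (p : ℕ) (u : FK N K) : Type := AdjoinRoot (kumL p u)

set_option synthInstance.maxHeartbeats 400000 in
instance algebraEL (p : ℕ) (u : FK N K) : Algebra (FL N) (EL p u) := inferInstance

set_option synthInstance.maxHeartbeats 400000 in
instance algebraLbEL (p : ℕ) (u : FK N K) : Algebra Lb (EL p u) := inferInstance

instance moduleEL (p : ℕ) (u : FK N K) : Module (FL N) (EL p u) := Algebra.toModule

instance smulEL (p : ℕ) (u : FK N K) : SMul (FL N) (EL p u) := Algebra.toSMul

instance moduleLbEL (p : ℕ) (u : FK N K) : Module Lb (EL p u) := Algebra.toModule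

instance smulLbEL (p : ℕ) (u : FK N K) : SMul Lb (EL p u) := Algebra.toSMul

set_option synthInstance.maxHeartbeats 400000 in
instance isScalarTowerEL (p : ℕ) (u : FK N K) : IsScalarTower Lb (FL N) (EL p u) := inferInstance

/-- The root `T` in `E_L`. -/
def TL (p : ℕ) (u : FK N K) : EL p u := AdjoinRoot.root (kumL p u)

theorem TL_pow (p : ℕ) (u : FK N K) : TL p u ^ p = algebraMap (FL N) (EL p u) (iotaK N u) := by
  have h := AdjoinRoot.eval₂_root (kumL p u)
  rw [kumL, eval₂_sub, eval₂_pow, eval₂_X, eval₂_C, sub_eq_zero] at h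
  exact h

/-- The embedding `F_u → E_L`. -/
def sigma (p : ℕ) (u : FK N K) : Fu p u →+* EL p u :=
  AdjoinRoot.lift ((algebraMap (FL N) (EL p u)).comp (iotaK N)) (TL p u) (by
    rw [kum, eval₂_sub, eval₂_pow, eval₂_X, eval₂_C, TL_pow, RingHom.comp_apply, sub_self])

theorem sigma_algebraMap (p : ℕ) (u : FK N K) (f : FK N K) :
    sigma p u (algebraMap (FK N K) (Fu p u) f) = algebraMap (FL N) (EL p u) (iotaK N f) :=
  AdjoinRoot.lift_of _

theorem sigma_Tu (p : ℕ) (u : FK N K) : sigma p u (Tu p u) = TL p u :=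
  AdjoinRoot.lift_root _

end Defs

section Top

variable {N : ℕ} {K : Type*} [Field K] [Algebra K Lb] (p : ℕ) (u : FK N K)
  [Fact (Irreducible (kum p u))] [Fact (Irreducible (kumL p u))] (Pn Pd : ℤ[X])

instance fieldEL : Field (EL p u) := inferInstance

theorem kumL_ne_zero : kumL p u ≠ 0 := (Fact.out : Irreducible (kumL p u)).ne_zero

instance finiteDimensional_EL : FiniteDimensional (FL N) (EL p u) :=
  (AdjoinRoot.powerBasis (kumL_ne_zero p u)).finite

/-- The image over `E_L` of the chosen irreducible factor of `Φ`. -/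
def PhiL : (EL p u)[X] := ((PhiU p u Pn Pd).factor).map (sigma p u)

instance factIrreducibleFactorL : Fact (Irreducible (PhiL p u Pn Pd).factor) :=
  Polynomial.fact_irreducible_factor _

/-- The top field `EE = E_L(t)`. -/
abbrev EE : Type := AdjoinRoot (PhiL p u Pn Pd).factor

instance fieldEE : Field (EE p u Pn Pd) := inferInstance

set_option synthInstance.maxHeartbeats 400000 in
instance algebraEE : Algebra (EL p u) (EE p u Pn Pd) := inferInstance

set_option synthInstance.maxHeartbeats 400000 in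
instance algebraFLEE : Algebra (FL N) (EE p u Pn Pd) := inferInstance

set_option synthInstance.maxHeartbeats 400000 in
instance algebraLbEE : Algebra Lb (EE p u Pn Pd) := inferInstance

instance moduleEE : Module (EL p u) (EE p u Pn Pd) := Algebra.toModule

instance smulEE : SMul (EL p u) (EE p u Pn Pd) := Algebra.toSMul

instance moduleFLEE : Module (FL N) (EE p u Pn Pd) := Algebra.toModule

instance smulFLEE : SMul (FL N) (EE p u Pn Pd) := Algebra.toSMul

instance moduleLbEE : Module Lb (EE p u Pn Pd) := Algebra.toModule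

instance smulLbEE : SMul Lb (EE p u Pn Pd) := Algebra.toSMul

set_option synthInstance.maxHeartbeats 400000 in
instance isScalarTowerEE : IsScalarTower (FL N) (EL p u) (EE p u Pn Pd) := inferInstance

set_option synthInstance.maxHeartbeats 400000 in
instance isScalarTowerLbEE : IsScalarTower Lb (FL N) (EE p u Pn Pd) := inferInstance

set_option synthInstance.maxHeartbeats 400000 in
instance isScalarTowerLbELEE : IsScalarTower Lb (EL p u) (EE p u Pn Pd) := inferInstance

instance finiteDimensional_EE : FiniteDimensional (EL p u) (EE p u Pn Pd) :=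
  (AdjoinRoot.powerBasis (Polynomial.irreducible_factor (PhiL p u Pn Pd)).ne_zero).finite

instance finiteDimensional_EE' : FiniteDimensional (FL N) (EE p u Pn Pd) :=
  FiniteDimensional.trans (FL N) (EL p u) (EE p u Pn Pd)

/-- The root `t` in `EE`. -/
def tL : EE p u Pn Pd := AdjoinRoot.root _

theorem natDegree_factor_ne_zero : ((PhiU p u Pn Pd).factor).natDegree ≠ 0 := by
  intro h
  have hirr := Polynomial.irreducible_factor (PhiU p u Pn Pd)
  have h1 : IsUnit ((PhiU p u Pn Pd).factor) := by
    rw [Polynomial.isUnit_iff]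
    refine ⟨((PhiU p u Pn Pd).factor).coeff 0, ?_, (eq_C_of_natDegree_eq_zero h).symm⟩
    rw [isUnit_iff_ne_zero]
    intro h0
    apply hirr.ne_zero
    rw [eq_C_of_natDegree_eq_zero h, h0, C_0]
  exact hirr.not_isUnit h1

/-- `t` is a root of the image of the chosen factor of `Φ`. -/
theorem eval₂_tL_factor :
    eval₂ ((algebraMap (EL p u) (EE p u Pn Pd)).comp (sigma p u)) (tL p u Pn Pd)
      ((PhiU p u Pn Pd).factor) = 0 := by
  have hdeg : (PhiL p u Pn Pd).natDegree ≠ 0 := by
    rw [PhiL, natDegree_map]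
    exact natDegree_factor_ne_zero p u Pn Pd
  obtain ⟨g, hg⟩ := Polynomial.factor_dvd_of_natDegree_ne_zero hdeg
  have h1 : eval₂ (algebraMap (EL p u) (EE p u Pn Pd)) (tL p u Pn Pd) (PhiL p u Pn Pd) = 0 := by
    have h2 : eval₂ (algebraMap (EL p u) (EE p u Pn Pd)) (tL p u Pn Pd)
        ((PhiL p u Pn Pd).factor * g) = 0 := by
      have h3 : eval₂ (algebraMap (EL p u) (EE p u Pn Pd)) (tL p u Pn Pd)
          (PhiL p u Pn Pd).factor = 0 := AdjoinRoot.eval₂_root _
      rw [eval₂_mul, h3, zero_mul]
    exact (congrArg (eval₂ (algebraMap (EL p u) (EE p u Pn Pd)) (tL p u Pn Pd)) hg).trans h2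
  rw [PhiL, eval₂_map] at h1
  exact h1

/-- The embedding `FF → EE`. -/
def tau : FF p u Pn Pd →+* EE p u Pn Pd :=
  AdjoinRoot.lift ((algebraMap (EL p u) (EE p u Pn Pd)).comp (sigma p u)) (tL p u Pn Pd)
    (eval₂_tL_factor p u Pn Pd)

theorem tau_algebraMap (x : Fu p u) :
    tau p u Pn Pd (algebraMap (Fu p u) (FF p u Pn Pd) x) =
      algebraMap (EL p u) (EE p u Pn Pd) (sigma p u x) :=
  AdjoinRoot.lift_of _

theorem tau_tt : tau p u Pn Pd (tt p u Pn Pd) = tL p u Pn Pd :=
  AdjoinRoot.lift_root _

theorem tau_algebraMap_K (c : K) :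
    tau p u Pn Pd (algebraMap K (FF p u Pn Pd) c) =
      algebraMap Lb (EE p u Pn Pd) (algebraMap K Lb c) := by
  rw [IsScalarTower.algebraMap_apply K (Fu p u) (FF p u Pn Pd), tau_algebraMap,
    IsScalarTower.algebraMap_apply K (FK N K) (Fu p u), sigma_algebraMap, iotaK_algebraMap,
    ← IsScalarTower.algebraMap_apply, ← IsScalarTower.algebraMap_apply]

theorem tau_jFF [NeZero N] : tau p u Pn Pd (jFF p u Pn Pd) =
    algebraMap (FL N) (EE p u Pn Pd) (Fermat.Agent.GenusLib.FF.jF N) := by
  rw [jFF, IsScalarTower.algebraMap_apply (FK N K) (Fu p u) (FF p u Pn Pd), tau_algebraMap,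
    sigma_algebraMap, iotaK_jK, ← IsScalarTower.algebraMap_apply]

end Top

section Galois

variable {N : ℕ} {K : Type*} [Field K] [CharZero K] (two : Bool)
  (p : ℕ) (u : FK N K) [Fact (Irreducible (kum p u))]

theorem charZero_Fu : CharZero (Fu p u) :=
  charZero_of_injective_algebraMap (algebraMap K (Fu p u)).injective

theorem charZero_FF : CharZero (FF p u (num two ℤ) (den two ℤ)) :=
  charZero_of_injective_algebraMap (algebraMap K (FF p u (num two ℤ) (den two ℤ))).injective

theorem natDegree_PhiU : (PhiU p u (num two ℤ) (den two ℤ)).natDegree = nG two := by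
  haveI := charZero_Fu p u
  rw [PhiU_eq, num_map, den_map]
  exact CoverFacts.natDegree_phi two (CoverFacts.lead_ne_zero_of_charZero two) _

theorem natDegree_PhiU_ne_zero : (PhiU p u (num two ℤ) (den two ℤ)).natDegree ≠ 0 := by
  rw [natDegree_PhiU]
  cases two <;> simp [nG]

/-- The root equation in `FF`. -/
theorem eval_tt_cover :
    (num two (FF p u (num two ℤ) (den two ℤ))).eval (tt p u (num two ℤ) (den two ℤ)) =
      jFF p u (num two ℤ) (den two ℤ) *
        (den two (FF p u (num two ℤ) (den two ℤ))).eval (tt p u (num two ℤ) (den two ℤ)) := by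
  have h := eval_tt p u (num two ℤ) (den two ℤ) (natDegree_PhiU_ne_zero two p u)
  rw [num_map, den_map] at h
  exact h

/-- `t` is transcendental over `K`. -/
theorem transcendental_tt : Transcendental K (tt p u (num two ℤ) (den two ℤ)) := by
  intro halg
  haveI := charZero_FF two p u
  have hroot := eval_tt_cover two p u
  have hden := CoverFacts.den_ne_zero_of_root two (CoverFacts.lead_ne_zero_of_charZero two) hroot
  have hmem : tt p u (num two ℤ) (den two ℤ) ∈
      algebraicClosure K (FF p u (num two ℤ) (den two ℤ)) := mem_algebraicClosure_iff.mpr halg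
  have haev : ∀ P : K[X], aeval (tt p u (num two ℤ) (den two ℤ)) P ∈
      algebraicClosure K (FF p u (num two ℤ) (den two ℤ)) := by
    intro P
    have h := IntermediateField.aeval_coe (algebraicClosure K (FF p u (num two ℤ) (den two ℤ)))
      ⟨_, hmem⟩ P
    rw [show aeval (tt p u (num two ℤ) (den two ℤ)) P = _ from h]
    exact SetLike.coe_mem _
  have h1 : (num two (FF p u (num two ℤ) (den two ℤ))).eval (tt p u (num two ℤ) (den two ℤ)) ∈
      algebraicClosure K (FF p u (num two ℤ) (den two ℤ)) := by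
    rw [← aeval_num two (R := K)]
    exact haev _
  have h2 : (den two (FF p u (num two ℤ) (den two ℤ))).eval (tt p u (num two ℤ) (den two ℤ)) ∈
      algebraicClosure K (FF p u (num two ℤ) (den two ℤ)) := by
    rw [← aeval_den two (R := K)]
    exact haev _
  have hj : jFF p u (num two ℤ) (den two ℤ) ∈
      algebraicClosure K (FF p u (num two ℤ) (den two ℤ)) := by
    have h3 : jFF p u (num two ℤ) (den two ℤ) =
        (num two (FF p u (num two ℤ) (den two ℤ))).eval (tt p u (num two ℤ) (den two ℤ)) /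
        (den two (FF p u (num two ℤ) (den two ℤ))).eval (tt p u (num two ℤ) (den two ℤ)) := by
      rw [hroot, mul_div_cancel_right₀ _ hden]
    rw [h3]
    exact div_mem h1 h2
  have hj' : IsAlgebraic K (jK N K) :=
    (isAlgebraic_algebraMap_iff
      (algebraMap (FK N K) (FF p u (num two ℤ) (den two ℤ))).injective).mp
      (mem_algebraicClosure_iff.mp hj)
  exact Step0Rel.transcendental_jC K N hj'

/-- `Φ` over `FF`. -/
theorem PhiU_map :
    (PhiU p u (num two ℤ) (den two ℤ)).map
        (algebraMap (Fu p u) (FF p u (num two ℤ) (den two ℤ))) =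
      (num two ℤ).map (Int.castRingHom (FF p u (num two ℤ) (den two ℤ))) -
        C (jFF p u (num two ℤ) (den two ℤ)) *
          (den two ℤ).map (Int.castRingHom (FF p u (num two ℤ) (den two ℤ))) := by
  refine (congrArg (Polynomial.map (algebraMap (Fu p u) (FF p u (num two ℤ) (den two ℤ))))
    (PhiU_eq p u (num two ℤ) (den two ℤ))).trans ?_
  rw [Polynomial.map_sub, Polynomial.map_mul, Polynomial.map_C, Polynomial.map_map,
    Polynomial.map_map, jFF, IsScalarTower.algebraMap_apply (FK N K) (Fu p u)]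
  congr 2

/-- `FF / F_u` is Galois (all roots of `Φ` are Möbius transforms of `t`). -/
theorem isGalois (ζ : K) (hζ : ζ ^ 2 + ζ + 1 = 0) :
    IsGalois (Fu p u) (FF p u (num two ℤ) (den two ℤ)) := by
  haveI := charZero_FF two p u
  haveI := charZero_Fu p u
  have hdeg := natDegree_PhiU_ne_zero two p u
  have hζ' : (algebraMap K (FF p u (num two ℤ) (den two ℤ)) ζ) ^ 2 +
      algebraMap K (FF p u (num two ℤ) (den two ℤ)) ζ + 1 = 0 := by
    rw [← map_pow, ← map_add, ← map_one (algebraMap K (FF p u (num two ℤ) (den two ℤ))),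
      ← map_add, hζ, map_zero]
  have hroot : ((num two ℤ).map (Int.castRingHom (FF p u (num two ℤ) (den two ℤ)))).eval
        (tt p u (num two ℤ) (den two ℤ)) - jFF p u (num two ℤ) (den two ℤ) *
      ((den two ℤ).map (Int.castRingHom (FF p u (num two ℤ) (den two ℤ)))).eval
        (tt p u (num two ℤ) (den two ℤ)) = 0 := by
    rw [eval_tt p u (num two ℤ) (den two ℤ) hdeg, sub_self]
  have hsplit := CoverFacts.splits_int two _ hζ' hroot
  rw [← PhiU_map] at hsplit
  have hne : (PhiU p u (num two ℤ) (den two ℤ)).map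
      (algebraMap (Fu p u) (FF p u (num two ℤ) (den two ℤ))) ≠ 0 := by
    rw [Polynomial.map_ne_zero_iff (algebraMap (Fu p u) _).injective]
    intro h0
    rw [h0, natDegree_zero] at hdeg
    exact hdeg rfl
  have hdvd : ((PhiU p u (num two ℤ) (den two ℤ)).factor).map
      (algebraMap (Fu p u) (FF p u (num two ℤ) (den two ℤ))) ∣
      (PhiU p u (num two ℤ) (den two ℤ)).map
        (algebraMap (Fu p u) (FF p u (num two ℤ) (den two ℤ))) :=
    Polynomial.map_dvd _ (Polynomial.factor_dvd_of_natDegree_ne_zero hdeg)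
  have hsplit' := hsplit.of_dvd hne hdvd
  have hirr := Polynomial.irreducible_factor (PhiU p u (num two ℤ) (den two ℤ))
  haveI : ((PhiU p u (num two ℤ) (den two ℤ)).factor).IsSplittingField (Fu p u)
      (FF p u (num two ℤ) (den two ℤ)) := by
    refine ⟨hsplit', ?_⟩
    rw [eq_top_iff, ← adjoin_tt p u (num two ℤ) (den two ℤ)]
    apply Algebra.adjoin_mono
    rw [Set.singleton_subset_iff, Polynomial.mem_rootSet]
    exact ⟨hirr.ne_zero, by rw [aeval_def]; exact eval₂_tt_factor p u _ _⟩
  exact IsGalois.of_separable_splitting_field hirr.separable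

end Galois

section Cover

variable {N : ℕ} [NeZero N] {K : Type*} [Field K] [CharZero K] [Algebra K Lb] (two : Bool)
  (p : ℕ) (u : FK N K) [Fact (Irreducible (kum p u))] [Fact (Irreducible (kumL p u))]

/-- The root equation in `EE`. -/
theorem eval_tL :
    (num two (EE p u (num two ℤ) (den two ℤ))).eval (tL p u (num two ℤ) (den two ℤ)) =
      algebraMap (EL p u) (EE p u (num two ℤ) (den two ℤ))
          (algebraMap (FL N) (EL p u) (Fermat.Agent.GenusLib.FF.jF N)) *
        (den two (EE p u (num two ℤ) (den two ℤ))).eval (tL p u (num two ℤ) (den two ℤ)) := by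
  have h := congrArg (tau p u (num two ℤ) (den two ℤ)) (eval_tt_cover two p u)
  rw [map_mul, tau_jFF] at h
  rw [← tau_tt, ← num_map two (tau p u (num two ℤ) (den two ℤ)),
    ← den_map two (tau p u (num two ℤ) (den two ℤ)), eval_map, eval_map, eval₂_at_apply,
    eval₂_at_apply, h, IsScalarTower.algebraMap_apply (FL N) (EL p u)]

theorem adjoin_TL : (FL N)⟮TL p u⟯ = ⊤ :=
  IntermediateField.adjoin_eq_top_of_algebra _ _ AdjoinRoot.adjoinRoot_eq_top

theorem adjoin_tL (Pn Pd : ℤ[X]) : (EL p u)⟮tL p u Pn Pd⟯ = ⊤ :=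
  IntermediateField.adjoin_eq_top_of_algebra _ _ AdjoinRoot.adjoinRoot_eq_top

end Cover

section Main

variable {N : ℕ} [NeZero N] {K : Type*} [Field K] [CharZero K] [Algebra K Lb]
  [Algebra.IsAlgebraic K Lb] (two : Bool)
  (p : ℕ) (u : FK N K) [Fact (Irreducible (kum p u))] [Fact (Irreducible (kumL p u))]

/-- The statement `(R1)` for the top field `EE` over `ℚ̄`. -/
def R1 : Prop :=
  ∀ (O' : ValuationSubring (EE p u (num two ℤ) (den two ℤ))), IsDiscreteValuationRing ↥O' →
    (∀ a : Lb, algebraMap Lb (EE p u (num two ℤ) (den two ℤ)) a ∈ O') →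
    tL p u (num two ℤ) (den two ℤ) ∈ O' →
    ((cusp two (EE p u (num two ℤ) (den two ℤ))).eval (tL p u (num two ℤ) (den two ℤ)))⁻¹ ∈ O' →
    ∀ t1 : Lb, tL p u (num two ℤ) (den two ℤ) -
        algebraMap Lb (EE p u (num two ℤ) (den two ℤ)) t1 ∈ O'.nonunits →
      IsUnif O' (tL p u (num two ℤ) (den two ℤ) -
        algebraMap Lb (EE p u (num two ℤ) (den two ℤ)) t1)

/-- **(T2)**: transfer of `(R1)` to the tower over `K`. -/
theorem isUnif_aeval_tt (hR1 : R1 two p u)
    (O : ValuationSubring (FF p u (num two ℤ) (den two ℤ))) (hO : IsDiscreteValuationRing ↥O)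
    (hK : ∀ a : K, algebraMap K (FF p u (num two ℤ) (den two ℤ)) a ∈ O)
    (ht : tt p u (num two ℤ) (den two ℤ) ∈ O)
    (hc : ((cusp two (FF p u (num two ℤ) (den two ℤ))).eval
      (tt p u (num two ℤ) (den two ℤ)))⁻¹ ∈ O)
    (q : K[X]) (hq : Irreducible q)
    (hqx : aeval (tt p u (num two ℤ) (den two ℤ)) q ∈ O.nonunits) :
    IsUnif O (aeval (tt p u (num two ℤ) (den two ℤ)) q) := by
  letI : Algebra (FF p u (num two ℤ) (den two ℤ)) (EE p u (num two ℤ) (den two ℤ)) :=
    (tau p u (num two ℤ) (den two ℤ)).toAlgebra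
  have halg : ∀ x, algebraMap (FF p u (num two ℤ) (den two ℤ))
      (EE p u (num two ℤ) (den two ℤ)) x = tau p u (num two ℤ) (den two ℤ) x := fun _ => rfl
  have B : Fermat.Agent.GenusLib.FF.BridgeData N :=
    Fermat.Agent.GenusLib.FF.bridgeData N Fermat.Agent.GenusLib.FF.embQb
  haveI : FiniteDimensional Lb⟮Fermat.Agent.GenusLib.FF.jF N⟯ (FL N) :=
    Fermat.Agent.GenusLib.FF.finiteDimensional_FN B
  haveI : FiniteDimensional
      Lb⟮algebraMap (FL N) (EE p u (num two ℤ) (den two ℤ)) (Fermat.Agent.GenusLib.FF.jF N)⟯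
      (EE p u (num two ℤ) (den two ℤ)) :=
    Ram0E.finiteDimensional_adjoin_algebraMap (K := Lb) (Fermat.Agent.GenusLib.FF.jF N)
  have htr : Transcendental Lb
      (algebraMap (FL N) (EE p u (num two ℤ) (den two ℤ)) (Fermat.Agent.GenusLib.FF.jF N)) :=
    (transcendental_algebraMap_iff (algebraMap (FL N) _).injective).mpr
      (Fermat.Agent.GenusLib.FF.transcendental_jF B)
  haveI := hO
  refine Transfer.isUnif_aeval (K := K) (L := Lb) (F := FF p u (num two ℤ) (den two ℤ))
    (E := EE p u (num two ℤ) (den two ℤ)) ?_ ?_ ?_ O (PlaceVS.ne_top_of_isDVR O) hK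
    (tt p u (num two ℤ) (den two ℤ)) ht (fun _ => True) ?_ q hq (fun _ _ => trivial) hqx
  · intro c
    rw [halg]
    exact tau_algebraMap_K p u _ _ c
  · intro O' hL htop
    exact VSDed.isDVR_of_ne_top _ htr O' hL htop
  · intro O' hdvr hL z hz
    haveI := hdvr
    exact Ram0E.exists_const_sub_mem_nonunits (N := N) O' hL hz
  · intro O' hdvr hL hcomap a _ ha
    rw [halg, tau_tt] at ha
    have hmem : ∀ y, y ∈ O → tau p u (num two ℤ) (den two ℤ) y ∈ O' := by
      intro y hy
      rw [← hcomap] at hy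
      exact hy
    have h1 : tL p u (num two ℤ) (den two ℤ) ∈ O' := by
      rw [← tau_tt]
      exact hmem _ ht
    have h2 : ((cusp two (EE p u (num two ℤ) (den two ℤ))).eval
        (tL p u (num two ℤ) (den two ℤ)))⁻¹ ∈ O' := by
      have h3 := hmem _ hc
      rw [map_inv₀] at h3
      rw [← tau_tt, ← cusp_map two (tau p u (num two ℤ) (den two ℤ)), eval_map, eval₂_at_apply]
      exact h3
    rw [halg, tau_tt]
    exact hR1 O' hdvr hL h1 h2 a ha

end Main

end Fermat.Agent.RedLib.Tower
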