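import Mathlib
import Fermat.Agent.RedLib.Tower
import Fermat.Agent.RedLib.ABHFN

/-!
# S18 long shot, leaf W7: the unramifiedness hypothesis of the abstract geometric theorem

For the concrete tower `F_K ⊆ F_u ⊆ FF` of `Inst` (cover `num two / den two`):

* `r1` : the statement `(R1)` for the tower over `ℚ̄` (from `ABHFN.R1_aux`);
* `hunr_cusp` : every `q(t)`, `q ∈ K[X]` irreducible, generates the maximal ideal of every
  discrete valuation subring `O ⊇ K` of `FF` with `t ∈ O`, `c(t)⁻¹ ∈ O` in which it is a nonunit;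
* `cuspSet`, `isUnit_sub_cuspSet`, `hunr_AG` : the same with the cusp condition in the form
  `∀ a ∈ S, (t - a)⁻¹ ∈ O`, `S = {0, 1}` resp. `{1, ζ, ζ²}` (the shape of `AG_core`).
-/

set_option autoImplicit false
set_option linter.style.haveILetI false
set_option linter.unusedSectionVars false

noncomputable section

namespace Fermat.Agent.RedLib.TowerAG

open Polynomial ModularCurve IntermediateField AlgebraicCurve
open Fermat.Agent.RedLib
open Fermat.Agent.RedLib.PlaceVS (IsUnif)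
open Fermat.Agent.RedLib.Inst
open Fermat.Agent.RedLib.CoverData
open Fermat.Agent.RedLib.Tower

section R1

variable {N : ℕ} [NeZero N] {K : Type*} [Field K] [CharZero K] [Algebra K Lb]
  [Algebra.IsAlgebraic K Lb] (two : Bool)
  (p : ℕ) (u : FK N K) [Fact (Irreducible (kum p u))] [Fact (Irreducible (kumL p u))]

/-- The root equation in `EE`, with `j` coming directly from `F_L`. -/
theorem eval_tL' :
    (num two (EE p u (num two ℤ) (den two ℤ))).eval (tL p u (num two ℤ) (den two ℤ)) =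
      algebraMap (FL N) (EE p u (num two ℤ) (den two ℤ)) (Fermat.Agent.GenusLib.FF.jF N) *
        (den two (EE p u (num two ℤ) (den two ℤ))).eval (tL p u (num two ℤ) (den two ℤ)) := by
  rw [IsScalarTower.algebraMap_apply (FL N) (EL p u) (EE p u (num two ℤ) (den two ℤ))]
  exact eval_tL two p u

/-- **`(R1)` holds for the tower over `ℚ̄`.** -/
theorem r1 (hp : p ≠ 0) (hu : u ≠ 0)
    (hdiv : ∀ Q : Place Lb (FL N), (p : ℤ) ∣ Q.ord (iotaK N u)) : R1 two p u := by
  intro O' hdvr hL htO hc t1 ht1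
  haveI := hdvr
  haveI : Algebra.IsAlgebraic (EL p u) (EE p u (num two ℤ) (den two ℤ)) :=
    Algebra.IsAlgebraic.of_finite _ _
  have hu' : iotaK N u ≠ 0 := (_root_.map_ne_zero (iotaK N)).mpr hu
  exact ABHFN.R1_aux (E := EL p u) two hp hu' hdiv (TL_pow p u) (adjoin_TL p u)
    (eval_tL' two p u) (adjoin_tL p u _ _) O' hL htO hc t1 ht1

/-- **(T2), cusp form.** -/
theorem hunr_cusp (hp : p ≠ 0) (hu : u ≠ 0)
    (hdiv : ∀ Q : Place Lb (FL N), (p : ℤ) ∣ Q.ord (iotaK N u))
    (O : ValuationSubring (FF p u (num two ℤ) (den two ℤ))) (hO : IsDiscreteValuationRing ↥O)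
    (hK : ∀ a : K, algebraMap K (FF p u (num two ℤ) (den two ℤ)) a ∈ O)
    (ht : tt p u (num two ℤ) (den two ℤ) ∈ O)
    (hc : ((cusp two (FF p u (num two ℤ) (den two ℤ))).eval
      (tt p u (num two ℤ) (den two ℤ)))⁻¹ ∈ O)
    (q : K[X]) (hq : Irreducible q)
    (hqx : aeval (tt p u (num two ℤ) (den two ℤ)) q ∈ O.nonunits) :
    ∀ z ∈ O.nonunits, ∃ y ∈ O, z = aeval (tt p u (num two ℤ) (den two ℤ)) q * y :=
  (isUnif_aeval_tt two p u (r1 two p u hp hu hdiv) O hO hK ht hc q hq hqx).2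

end R1

section Cusps

variable {A0 : Type*} [CommRing A0]

open Classical in
/-- The finite cusps of the `t`-line: `{0, 1}` for `λ`, `{1, ζ, ζ²}` for `μ`. -/
def cuspSet (two : Bool) (ζ : A0) : Finset A0 := if two then {1, ζ, ζ ^ 2} else {0, 1}

theorem mem_cuspSet_false (ζ a : A0) : a ∈ cuspSet false ζ ↔ a = 0 ∨ a = 1 := by
  classical
  simp [cuspSet]

theorem mem_cuspSet_true (ζ a : A0) : a ∈ cuspSet true ζ ↔ a = 1 ∨ a = ζ ∨ a = ζ ^ 2 := by
  classical
  simp [cuspSet]

/-- Distinct cusps stay distinct modulo the maximal ideal. -/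
theorem isUnit_sub_cuspSet (two : Bool) (ζ : A0) (hζ : ζ ^ 2 + ζ + 1 = 0)
    (h3 : two = true → IsUnit (3 : A0)) :
    ∀ a ∈ cuspSet two ζ, ∀ b ∈ cuspSet two ζ, a ≠ b → IsUnit (a - b) := by
  cases two
  · intro a ha b hb hab
    rw [mem_cuspSet_false] at ha hb
    rcases ha with rfl | rfl <;> rcases hb with rfl | rfl
    · exact absurd rfl hab
    · rw [zero_sub]; exact isUnit_one.neg
    · rw [sub_zero]; exact isUnit_one
    · exact absurd rfl hab
  · have h3' := h3 rfl
    have hprod : (1 - ζ) * (1 - ζ ^ 2) = 3 := by linear_combination (ζ - 2) * hζ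
    have hu1 : IsUnit (1 - ζ) := isUnit_of_mul_isUnit_left (hprod ▸ h3')
    have hu2 : IsUnit (1 - ζ ^ 2) := isUnit_of_mul_isUnit_right (hprod ▸ h3')
    have hζu : IsUnit ζ := IsUnit.of_mul_eq_one (ζ ^ 2) (by linear_combination (ζ - 1) * hζ)
    have hu3 : IsUnit (ζ - ζ ^ 2) := by
      have : ζ - ζ ^ 2 = ζ * (1 - ζ) := by ring
      rw [this]; exact hζu.mul hu1
    have hu1' : IsUnit (ζ - 1) := by
      have : ζ - 1 = -(1 - ζ) := by ring
      rw [this]; exact hu1.neg
    have hu2' : IsUnit (ζ ^ 2 - 1) := by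
      have : ζ ^ 2 - 1 = -(1 - ζ ^ 2) := by ring
      rw [this]; exact hu2.neg
    have hu3' : IsUnit (ζ ^ 2 - ζ) := by
      have : ζ ^ 2 - ζ = -(ζ - ζ ^ 2) := by ring
      rw [this]; exact hu3.neg
    intro a ha b hb hab
    rw [mem_cuspSet_true] at ha hb
    rcases ha with ha | ha | ha <;> rcases hb with hb | hb | hb
    · exact absurd (ha.trans hb.symm) hab
    · rw [ha, hb]; exact hu1
    · rw [ha, hb]; exact hu2
    · rw [ha, hb]; exact hu1'
    · exact absurd (ha.trans hb.symm) hab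
    · rw [ha, hb]; exact hu3
    · rw [ha, hb]; exact hu2'
    · rw [ha, hb]; exact hu3'
    · exact absurd (ha.trans hb.symm) hab

/-- The cusp polynomial is the product of the `x - a`, `a` a cusp. -/
theorem inv_cusp_mem {B : Type*} [Field B] [Algebra A0 B] (two : Bool) (ζ : A0)
    (hζ : ζ ^ 2 + ζ + 1 = 0) (O : ValuationSubring B) (x : B)
    (h : ∀ a ∈ cuspSet two ζ, (x - algebraMap A0 B a)⁻¹ ∈ O) :
    ((cusp two B).eval x)⁻¹ ∈ O := by
  cases two
  · have h0 := h 0 ((mem_cuspSet_false ζ 0).mpr (Or.inl rfl))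
    have h1 := h 1 ((mem_cuspSet_false ζ 1).mpr (Or.inr rfl))
    rw [map_zero, sub_zero] at h0
    rw [map_one] at h1
    have e : (cusp false B).eval x = x * (x - 1) := by simp [cusp]
    rw [e, mul_inv]
    exact O.mul_mem _ _ h0 h1
  · have h1 := h 1 ((mem_cuspSet_true ζ 1).mpr (Or.inl rfl))
    have h2 := h ζ ((mem_cuspSet_true ζ ζ).mpr (Or.inr (Or.inl rfl)))
    have h3 := h (ζ ^ 2) ((mem_cuspSet_true ζ (ζ ^ 2)).mpr (Or.inr (Or.inr rfl)))
    rw [map_one] at h1
    rw [map_pow] at h3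
    have hζ' : (algebraMap A0 B ζ) ^ 2 + algebraMap A0 B ζ + 1 = 0 := by
      rw [← map_pow, ← map_add, ← map_one (algebraMap A0 B), ← map_add, hζ, map_zero]
    have e : (cusp true B).eval x =
        (x - 1) * (x - algebraMap A0 B ζ) * (x - algebraMap A0 B ζ ^ 2) := by
      simp only [cusp, eval_sub, eval_pow, eval_X, eval_one]
      linear_combination (x ^ 2 - algebraMap A0 B ζ * x + algebraMap A0 B ζ - 1) * hζ'
    rw [e, mul_inv, mul_inv]
    exact O.mul_mem _ _ (O.mul_mem _ _ h1 h2) h3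

end Cusps

section AG

variable {N : ℕ} [NeZero N] {K : Type*} [Field K] [CharZero K] [Algebra K Lb]
  [Algebra.IsAlgebraic K Lb] (two : Bool)
  (p : ℕ) (u : FK N K) [Fact (Irreducible (kum p u))] [Fact (Irreducible (kumL p u))]

/-- **The hypothesis `hunr` of `AG_core`** for the concrete tower, with `S = cuspSet two ζ`. -/
theorem hunr_AG {A0 : Type*} [CommRing A0] [Algebra A0 (FF p u (num two ℤ) (den two ℤ))]
    (ζ : A0) (hζ : ζ ^ 2 + ζ + 1 = 0) (hp : p ≠ 0) (hu : u ≠ 0)
    (hdiv : ∀ Q : Place Lb (FL N), (p : ℤ) ∣ Q.ord (iotaK N u)) :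
    ∀ O : ValuationSubring (FF p u (num two ℤ) (den two ℤ)), IsDiscreteValuationRing O →
      (∀ a : K, algebraMap K (FF p u (num two ℤ) (den two ℤ)) a ∈ O) →
      tt p u (num two ℤ) (den two ℤ) ∈ O →
      (∀ a ∈ cuspSet two ζ, (tt p u (num two ℤ) (den two ℤ) -
        algebraMap A0 (FF p u (num two ℤ) (den two ℤ)) a)⁻¹ ∈ O) →
      ∀ q : K[X], Irreducible q → aeval (tt p u (num two ℤ) (den two ℤ)) q ∈ O.nonunits →
        ∀ z ∈ O.nonunits, ∃ y ∈ O, z = aeval (tt p u (num two ℤ) (den two ℤ)) q * y :=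
  fun O hO hK ht hS q hq hqx =>
    hunr_cusp two p u hp hu hdiv O hO hK ht (inv_cusp_mem two ζ hζ O _ hS) q hq hqx

end AG

end Fermat.Agent.RedLib.TowerAG
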