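import Mathlib
import Fermat.Agent.RedLib.CoreAsm2
import Fermat.Agent.RedLib.NumField
import Fermat.Agent.RedLib.GaussK
import Fermat.Agent.RedLib.TowerAG

/-!
# S18 long shot, leaf W7: from the generic geometric statement to `CoreK2`

`GenCore N l` is the statement produced by the abstract geometric theorem and its instance for
the tower `F_K ⊆ F_u ⊆ FF`, in the vocabulary of a Gauss datum `(A0, red, π)` on a field
`K ⊆ ℚ̄`.  `coreK2_of_genCore` specialises it to a number field `K` and `A0 = A ∩ K`.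
-/

set_option autoImplicit false
set_option linter.style.haveILetI false
set_option linter.unusedSectionVars false

noncomputable section

namespace Fermat.Agent.RedLib.CoreWire

open Polynomial ModularCurve AlgebraicCurve
open Fermat.Agent.RedLib
open Fermat.Agent.RedLib.Tower (Lb)

set_option synthInstance.maxHeartbeats 400000

/-- The generic statement: over a field `K ⊆ ℚ̄` with a Gauss datum `(A0, red, π)` whose residue
field is perfect of characteristic `l`, for `u = y₁ / y₂ ∈ F_K` (`y_i ∈ A0((q))` with equal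
nonzero reductions) such that `X ^ p - u` is irreducible over `F_K` and over `F_L` and all orders
of `u` on `F_L` are divisible by `p`, the Kummer extension `F_K(T_u)` contains `p` elements
algebraic and linearly independent over `K`. -/
def GenCore (N : ℕ) [NeZero N] (l : ℕ) [Fact l.Prime] : Prop :=
  ∀ {K : Type} [Field K] [CharZero K] [Algebra K Lb] [Algebra.IsAlgebraic K Lb]
    {k : Type} [Field k] [CharP k l] [PerfectField k]
    {A0 : Subring K} {red : ↥A0 →+* k} {π : K} (_ : GaussK.IsGaussDatum A0 red π)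
    [IsDiscreteValuationRing ↥A0] [IsFractionRing ↥A0 K]
    (two : Bool) (_ : IsUnit (((CoverData.lead two : ℕ) : ↥A0)))
    (ζ3 : ↥A0) (_ : ζ3 ^ 2 + ζ3 + 1 = 0)
    {p : ℕ} (_ : p.Prime) (_ : p ≠ l) (ζp : ↥A0) (_ : IsPrimitiveRoot ζp p)
    (y₁ y₂ : LaurentSeries ↥A0)
    (h₁ : GaussK.inclA A0 y₁ ∈ modularFunctionFieldFullC K N)
    (h₂ : GaussK.inclA A0 y₂ ∈ modularFunctionFieldFullC K N),
    GaussK.redA red y₁ ≠ 0 → GaussK.redA red y₁ = GaussK.redA red y₂ →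
    ∀ [Fact (Irreducible (Inst.kum p ((⟨_, h₁⟩ : Inst.FK N K) / ⟨_, h₂⟩)))]
      [Fact (Irreducible (Tower.kumL p ((⟨_, h₁⟩ : Inst.FK N K) / ⟨_, h₂⟩)))],
      (∀ Q : Place Lb (Tower.FL N),
        (p : ℤ) ∣ Q.ord (Tower.iotaK N ((⟨_, h₁⟩ : Inst.FK N K) / ⟨_, h₂⟩))) →
      ∃ y : Fin p → Inst.Fu p ((⟨_, h₁⟩ : Inst.FK N K) / ⟨_, h₂⟩),
        LinearIndependent K y ∧ ∀ i, IsAlgebraic K (y i)

section NumberField

open Fermat.Agent.RedLib.NumField (A0)

variable (K : IntermediateField ℚ Lb) (A : ValuationSubring Lb)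

/-- A root of unity lies in every valuation subring. -/
theorem mem_of_pow_eq_one {F : Type*} [Field F] (V : ValuationSubring F) {ζ : F} {n : ℕ}
    (hn : n ≠ 0) (h : ζ ^ n = 1) : ζ ∈ V := by
  rcases V.mem_or_inv_mem ζ with h1 | h1
  · exact h1
  · have hζ0 : ζ ≠ 0 := by
      intro h0
      rw [h0, zero_pow hn] at h
      exact zero_ne_one h
    have h2 : ζ = ζ⁻¹ ^ (n - 1) := by
      have h3 : ζ⁻¹ ^ (n - 1) * ζ ^ n = ζ := by
        obtain ⟨m, rfl⟩ := Nat.exists_eq_succ_of_ne_zero hn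
        rw [Nat.succ_sub_one, pow_succ, ← mul_assoc, ← mul_pow, inv_mul_cancel₀ hζ0, one_pow,
          one_mul]
      calc ζ = ζ⁻¹ ^ (n - 1) * ζ ^ n := h3.symm
        _ = ζ⁻¹ ^ (n - 1) := by rw [h, mul_one]
    rw [h2]
    exact pow_mem h1 _

/-- A natural number prime to the residue characteristic is a unit of `A ∩ K`. -/
theorem isUnit_natCast [FiniteDimensional ℚ K] {ℓ : ℕ} (hℓ : ℓ.Prime) (hA : A.LiesOverPrime ℓ)
    {n : ℕ} (hn : ¬ ℓ ∣ n) : IsUnit ((n : ℕ) : ↥(A0 K A)) := by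
  haveI := NumField.isDiscreteValuationRing_A0 K hℓ hA
  haveI := NumField.charP_residueField_A0 K hℓ hA
  have h1 : IsLocalRing.residue ↥(A0 K A) ((n : ℕ) : ↥(A0 K A)) ≠ 0 := by
    rw [map_natCast]
    intro h0
    exact hn ((CharP.cast_eq_zero_iff (IsLocalRing.ResidueField ↥(A0 K A)) ℓ n).mp h0)
  by_contra hu
  exact h1 ((IsLocalRing.residue_eq_zero_iff _).mpr ((IsLocalRing.mem_maximalIdeal _).mpr hu))

theorem algebraIsAlgebraic : Algebra.IsAlgebraic ↥K Lb :=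
  haveI : Algebra.IsAlgebraic ℚ Lb := AlgebraicClosure.isAlgebraic ℚ
  Algebra.IsAlgebraic.tower_top (K := ℚ) ↥K

/-- **`CoreK2` from the generic statement.** -/
theorem coreK2_of_genCore (N : ℕ) [NeZero N] (ℓ : ℕ) [hℓ : Fact ℓ.Prime]
    (hA : A.LiesOverPrime ℓ) (hgen : GenCore N ℓ) :
    CoreAsm2.CoreK2 N ℓ A (fun _ => ∅) := by
  intro K hKfin p hp hpl _ hζp hζ3 y₁ y₂ h₁ h₂ hne heq hirr uL huL hirrL hdiv
  haveI := hKfin
  obtain ⟨ζp, hζp⟩ := hζp
  obtain ⟨ζ3, hζ3⟩ := hζ3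
  obtain ⟨π, hπ⟩ := NumField.exists_isGaussDatum_A0 K hℓ.out hA
  haveI : Algebra.IsAlgebraic ↥K Lb := algebraIsAlgebraic K
  haveI : CharP (IsLocalRing.ResidueField ↥(A0 K A)) ℓ := NumField.charP_residueField_A0 K hℓ.out hA
  haveI : Finite (IsLocalRing.ResidueField ↥(A0 K A)) := NumField.finite_residueField_A0 K hℓ.out hA
  haveI : IsDiscreteValuationRing ↥(A0 K A).toSubring :=
    NumField.isDiscreteValuationRing_A0 K hℓ.out hA
  haveI : IsFractionRing ↥(A0 K A).toSubring ↥K :=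
    inferInstanceAs (IsFractionRing ↥(A0 K A) ↥K)
  -- the cover
  have htwo : IsUnit (((CoverData.lead (decide (ℓ = 2)) : ℕ) : ↥(A0 K A).toSubring)) := by
    apply isUnit_natCast K A hℓ.out hA
    by_cases h2 : ℓ = 2
    · simp only [h2, decide_true, CoverData.lead]
      norm_num
    · simp only [h2, decide_false, CoverData.lead]
      intro hdvd
      have h3 : ℓ ∣ 2 ^ 8 := by norm_num; exact hdvd
      exact h2 ((Nat.prime_dvd_prime_iff_eq hℓ.out Nat.prime_two).mp (hℓ.out.dvd_of_dvd_pow h3))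
  -- the roots of unity
  have hζ3mem : ζ3 ∈ (A0 K A).toSubring := mem_of_pow_eq_one (A0 K A) (by norm_num) (hζ3.pow_eq_one)
  have hζpmem : ζp ∈ (A0 K A).toSubring := mem_of_pow_eq_one (A0 K A) hp.ne_zero (hζp.pow_eq_one)
  have hζ3eq : (⟨ζ3, hζ3mem⟩ : ↥(A0 K A).toSubring) ^ 2 + ⟨ζ3, hζ3mem⟩ + 1 = 0 := by
    apply Subtype.ext
    show ζ3 ^ 2 + ζ3 + 1 = 0
    have h1 : ζ3 ≠ 1 := hζ3.ne_one (by norm_num)
    have h2 : (ζ3 - 1) * (ζ3 ^ 2 + ζ3 + 1) = 0 := by
      have h3 := hζ3.pow_eq_one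
      linear_combination h3
    exact (mul_eq_zero.mp h2).resolve_left (sub_ne_zero.mpr h1)
  have hζpprim : IsPrimitiveRoot (⟨ζp, hζpmem⟩ : ↥(A0 K A).toSubring) p :=
    IsPrimitiveRoot.of_map_of_injective (f := (A0 K A).toSubring.subtype) hζp
      Subtype.val_injective
  -- the irreducibility facts
  haveI : Fact (Irreducible (Inst.kum p
      ((⟨GaussK.inclA (A0 K A).toSubring y₁, h₁⟩ : Inst.FK N ↥K) /
        ⟨GaussK.inclA (A0 K A).toSubring y₂, h₂⟩))) := ⟨hirr⟩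
  have huL' : uL = Tower.iotaK N
      ((⟨GaussK.inclA (A0 K A).toSubring y₁, h₁⟩ : Inst.FK N ↥K) /
        ⟨GaussK.inclA (A0 K A).toSubring y₂, h₂⟩) := Subtype.ext huL
  haveI : Fact (Irreducible (Tower.kumL p
      ((⟨GaussK.inclA (A0 K A).toSubring y₁, h₁⟩ : Inst.FK N ↥K) /
        ⟨GaussK.inclA (A0 K A).toSubring y₂, h₂⟩))) := by
    refine ⟨?_⟩
    rw [Tower.kumL, ← huL']
    exact hirrL
  have hdiv' : ∀ Q : Place Lb (Tower.FL N),
      (p : ℤ) ∣ Q.ord (Tower.iotaK N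
        ((⟨GaussK.inclA (A0 K A).toSubring y₁, h₁⟩ : Inst.FK N ↥K) /
          ⟨GaussK.inclA (A0 K A).toSubring y₂, h₂⟩)) := by
    intro Q
    rw [← huL']
    exact hdiv Q
  exact hgen hπ (decide (ℓ = 2)) htwo ⟨ζ3, hζ3mem⟩ hζ3eq hp hpl ⟨ζp, hζpmem⟩ hζpprim
    y₁ y₂ h₁ h₂ hne heq hdiv'

end NumberField

end Fermat.Agent.RedLib.CoreWire
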