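import Mathlib
import Fermat.Agent.RedLib.CoverFacts

/-!
# The Gauss norm along the covers `j = num(t) / den(t)`

For the two covers of `CoverData` (`two = false`: the `λ`-line, `two = true`: the Hesse `μ`-line)
we prove the "leading term" statement (hgauss): if `π` is a prime of a domain `A0` not dividing
the leading coefficient `lead two` of `num`, and `num(t) = j * den(t)` in an `A0`-algebra `B`, then
for every `Q ∈ A0[X]` with `π ∤ Q` there is `Q' ∈ A0[X]` with `π ∤ Q'` and
`Q(j) * den(t) ^ deg Q = Q'(t)`.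

`Q'` is the homogenisation `∑ Q_i num^i den^(d - i)`.
-/

open Polynomial

namespace Fermat.Agent.RedLib.CoverGauss

open Fermat.Agent.RedLib.CoverData

/-! ### Homogenisation along `N / D` -/

section Generic

variable {k : Type*} [CommRing k]

/-- Homogenisation of `Q` along `N / D`: `∑_{i ≤ d} Q_i N^i D^(d-i)`. -/
noncomputable def hom (N D : k[X]) (d : ℕ) (Q : k[X]) : k[X] :=
  ∑ i ∈ Finset.range (d + 1), C (Q.coeff i) * N ^ i * D ^ (d - i)

theorem hom_map {k' : Type*} [CommRing k'] (f : k →+* k') (N D : k[X]) (d : ℕ) (Q : k[X]) :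
    (hom N D d Q).map f = hom (N.map f) (D.map f) d (Q.map f) := by
  simp [hom, Polynomial.map_sum, coeff_map]

theorem aeval_hom {B : Type*} [CommRing B] [Algebra k B] (N D : k[X]) (Q : k[X]) (j t : B)
    (h : aeval t N = j * aeval t D) (d : ℕ) (hd : Q.natDegree ≤ d) :
    aeval t (hom N D d Q) = aeval j Q * aeval t D ^ d := by
  rw [hom, map_sum, aeval_eq_sum_range' (lt_of_le_of_lt hd (Nat.lt_succ_self d)), Finset.sum_mul]
  refine Finset.sum_congr rfl fun i hi => ?_
  have hi' : i ≤ d := Nat.lt_succ_iff.mp (Finset.mem_range.mp hi)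
  have hp : aeval t D ^ d = aeval t D ^ i * aeval t D ^ (d - i) := by
    rw [← pow_add, Nat.add_sub_cancel' hi']
  rw [map_mul, map_mul, map_pow, map_pow, aeval_C, h, mul_pow, Algebra.smul_def, hp]
  ring

theorem hom_ne_zero [IsDomain k] (N D : k[X]) (hD : D ≠ 0) (hND : D.natDegree < N.natDegree)
    (d : ℕ) (Q : k[X]) (hQ : Q ≠ 0) (hd : Q.natDegree ≤ d) : hom N D d Q ≠ 0 := by
  have hN : N ≠ 0 := by
    rintro rfl
    simp at hND
  have hc0 : Q.coeff Q.natDegree ≠ 0 := fun h => hQ (leadingCoeff_eq_zero.mp h)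
  have hT0 : C (Q.coeff Q.natDegree) * N ^ Q.natDegree * D ^ (d - Q.natDegree) ≠ 0 :=
    mul_ne_zero (mul_ne_zero (C_ne_zero.mpr hc0) (pow_ne_zero _ hN)) (pow_ne_zero _ hD)
  have hdeg0 : (C (Q.coeff Q.natDegree) * N ^ Q.natDegree * D ^ (d - Q.natDegree)).natDegree
      = Q.natDegree * N.natDegree + (d - Q.natDegree) * D.natDegree := by
    rw [natDegree_mul (mul_ne_zero (C_ne_zero.mpr hc0) (pow_ne_zero _ hN)) (pow_ne_zero _ hD),
      natDegree_mul (C_ne_zero.mpr hc0) (pow_ne_zero _ hN), natDegree_C, natDegree_pow,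
      natDegree_pow, zero_add]
  intro h0
  have hc : (hom N D d Q).coeff (Q.natDegree * N.natDegree + (d - Q.natDegree) * D.natDegree)
      = (C (Q.coeff Q.natDegree) * N ^ Q.natDegree * D ^ (d - Q.natDegree)).leadingCoeff := by
    rw [hom, finsetSum_coeff, Finset.sum_eq_single Q.natDegree]
    · rw [← hdeg0]; rfl
    · intro i hi hne
      have hid : i ≤ d := Nat.lt_succ_iff.mp (Finset.mem_range.mp hi)
      rcases lt_or_gt_of_ne hne with hlt | hgt
      · apply coeff_eq_zero_of_natDegree_lt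
        have h1 : (C (Q.coeff i) * N ^ i * D ^ (d - i)).natDegree
            ≤ i * N.natDegree + (d - i) * D.natDegree := by
          refine natDegree_mul_le.trans (add_le_add (natDegree_mul_le.trans ?_)
            (natDegree_pow_le))
          rw [natDegree_C, zero_add]
          exact natDegree_pow_le
        refine lt_of_le_of_lt h1 ?_
        obtain ⟨m, hm⟩ := Nat.exists_eq_add_of_lt hlt
        obtain ⟨r, hr⟩ := Nat.exists_eq_add_of_le hd
        have e1 : d - i = r + (m + 1) := by omega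
        have e2 : d - Q.natDegree = r := by omega
        rw [e1, e2, hm]
        nlinarith [hND]
      · rw [coeff_eq_zero_of_natDegree_lt hgt]; simp
    · intro h
      exact absurd (Finset.mem_range.mpr (Nat.lt_succ_of_le hd)) h
  rw [h0, coeff_zero] at hc
  exact hT0 (leadingCoeff_eq_zero.mp hc.symm)

end Generic

/-! ### Divisibility by a prime constant -/

section Prime

variable {A0 : Type*} [CommRing A0] {π : A0}

theorem C_dvd_iff_map_eq_zero (Q : A0[X]) :
    C π ∣ Q ↔ Q.map (Ideal.Quotient.mk (Ideal.span {π})) = 0 := by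
  rw [C_dvd_iff_dvd_coeff, Polynomial.ext_iff]
  refine forall_congr' fun i => ?_
  rw [coeff_map, coeff_zero, Ideal.Quotient.eq_zero_iff_mem, Ideal.mem_span_singleton]

theorem not_C_dvd_of_monic (hπ : ¬ IsUnit π) {P : A0[X]} (hP : P.Monic) : ¬ C π ∣ P := by
  intro h
  rw [C_dvd_iff_dvd_coeff] at h
  have := h P.natDegree
  rw [coeff_natDegree, hP.leadingCoeff] at this
  exact hπ (isUnit_of_dvd_one this)

end Prime

/-! ### The covers -/

section Covers

variable (two : Bool)

theorem cusp_monic (R : Type*) [CommRing R] : (cusp two R).Monic := by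
  cases two
  · have h1 : (X - 1 : R[X]).Monic := by simpa using monic_X_sub_C (1 : R)
    exact monic_X.mul h1
  · simpa [cusp] using monic_X_pow_sub_C (1 : R) (by norm_num : (3 : ℕ) ≠ 0)

theorem den_monic (R : Type*) [CommRing R] : (den two R).Monic := by
  rw [den_eq]
  exact (cusp_monic two R).pow _

theorem natDegree_num (R : Type*) [CommRing R] (hlead : ((lead two : ℕ) : R) ≠ 0) :
    (num two R).natDegree = nG two :=
  le_antisymm (natDegree_num_le two R)
    (le_natDegree_of_ne_zero (by rw [coeff_num]; exact hlead))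

variable {A0 : Type*} [CommRing A0] {π : A0}

/-- The homogenisation `Q' = ∑ Q_i num^i den^(d - i)` of `Q` along the cover. -/
noncomputable def gaussPoly (Q : A0[X]) : A0[X] :=
  hom (num two A0) (den two A0) Q.natDegree Q

theorem not_C_dvd_gaussPoly (hπ : Prime π) (hlead : ¬ π ∣ ((lead two : ℕ) : A0)) (Q : A0[X])
    (hQ : ¬ C π ∣ Q) : ¬ C π ∣ gaussPoly two Q := by
  have : (Ideal.span {π}).IsPrime := (Ideal.span_singleton_prime hπ.ne_zero).mpr hπ
  have hl : ((lead two : ℕ) : A0 ⧸ Ideal.span {π}) ≠ 0 := by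
    rw [← map_natCast (Ideal.Quotient.mk (Ideal.span {π})), Ne, Ideal.Quotient.eq_zero_iff_mem,
      Ideal.mem_span_singleton]
    exact hlead
  rw [C_dvd_iff_map_eq_zero] at hQ ⊢
  rw [gaussPoly, hom_map, num_map, den_map]
  refine hom_ne_zero _ _ (den_monic two _).ne_zero ?_ _ _ hQ natDegree_map_le
  rw [natDegree_num two _ hl]
  exact natDegree_den_lt two _

theorem aeval_gaussPoly {B : Type*} [CommRing B] [Algebra A0 B] (j t : B)
    (h : (num two B).eval t = j * (den two B).eval t) (Q : A0[X]) :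
    aeval t (gaussPoly two Q) = aeval j Q * (den two B).eval t ^ Q.natDegree := by
  rw [gaussPoly, aeval_hom _ _ _ j t (by rw [aeval_num, aeval_den]; exact h) _ le_rfl, aeval_den]

/-- **(hgauss)**, `den` form. -/
theorem gauss_den (hπ : Prime π) (hlead : ¬ π ∣ ((lead two : ℕ) : A0)) {B : Type*} [CommRing B]
    [Algebra A0 B] (j t : B) (h : (num two B).eval t = j * (den two B).eval t) (Q : A0[X])
    (hQ : ¬ C π ∣ Q) :
    ∃ Q' : A0[X], ¬ C π ∣ Q' ∧ aeval j Q * (den two B).eval t ^ Q.natDegree = aeval t Q' :=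
  ⟨gaussPoly two Q, not_C_dvd_gaussPoly two hπ hlead Q hQ, (aeval_gaussPoly two j t h Q).symm⟩

/-- **(hgauss)**, `cusp` form (the shape consumed by `GaussChange`, with `c = cusp two A0`). -/
theorem gauss_cusp (hπ : Prime π) (hlead : ¬ π ∣ ((lead two : ℕ) : A0)) {B : Type*} [CommRing B]
    [Algebra A0 B] (j t : B) (h : (num two B).eval t = j * (den two B).eval t) (Q : A0[X])
    (hQ : ¬ C π ∣ Q) :
    ∃ (Q' : A0[X]) (m : ℕ), ¬ C π ∣ Q' ∧ aeval j Q * aeval t (cusp two A0) ^ m = aeval t Q' := by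
  refine ⟨gaussPoly two Q, eD two * Q.natDegree, not_C_dvd_gaussPoly two hπ hlead Q hQ, ?_⟩
  rw [aeval_gaussPoly two j t h Q, aeval_cusp, CoverFacts.eval_den_eq, pow_mul]

/-- The cusp polynomial is primitive at `π`. -/
theorem not_C_dvd_cusp (hπ : Prime π) : ¬ C π ∣ cusp two A0 :=
  not_C_dvd_of_monic hπ.not_isUnit (cusp_monic two A0)

/-- The denominator is primitive at `π`. -/
theorem not_C_dvd_den (hπ : Prime π) : ¬ C π ∣ den two A0 :=
  not_C_dvd_of_monic hπ.not_isUnit (den_monic two A0)

end Covers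

end Fermat.Agent.RedLib.CoverGauss
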