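import Mathlib
import Fermat.Agent.RedLib.CoverGauss

/-!
# The derivative of the cover polynomial `Φ = num - j den` at a root

For a root `t` of `Φ = num - j * den` we have `Φ'(t) * den(t) = W(t)` where
`W = num' den - num den' = cw * g0 ^ 2 * cusp ^ eW * g1` is the Wronskian.  For a prime `π` of
the base ring not dividing `lead`, the polynomials `W`, `g0`, `g1`, `cusp`, `den` are
`π`-primitive.  Hence, as soon as every `g(t)` with `g` `π`-primitive is invertible (with an
inverse in a given class), so is `Φ'(t)`.
-/

open Polynomial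

namespace Fermat.Agent.RedLib.CoverDeriv

open Fermat.Agent.RedLib.CoverData Fermat.Agent.RedLib

variable (two : Bool)

/-- The Wronskian `num' den - num den'` of the cover. -/
noncomputable def wpoly (R : Type*) [CommRing R] : R[X] :=
  derivative (num two R) * den two R - num two R * derivative (den two R)

theorem wpoly_eq (R : Type*) [CommRing R] :
    wpoly two R = (cw two : R[X]) * g0 two R ^ 2 * cusp two R ^ eW two * g1 two R :=
  wronskian two R

theorem wpoly_map {R S : Type*} [CommRing R] [CommRing S] (f : R →+* S) :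
    (wpoly two R).map f = wpoly two S := by
  simp only [wpoly, Polynomial.map_sub, Polynomial.map_mul, ← derivative_map, num_map, den_map]

theorem aeval_wpoly {R B : Type*} [CommRing R] [CommRing B] [Algebra R B] (x : B) :
    aeval x (wpoly two R) = (wpoly two B).eval x := by
  rw [aeval_def, ← eval_map, wpoly_map]

/-- `Φ'(t) * den(t) = W(t)` at a root `t` of `Φ = num - j den`. -/
theorem deriv_mul_den {B : Type*} [CommRing B] (j t : B)
    (h : (num two B).eval t = j * (den two B).eval t) :
    ((derivative (num two B)).eval t - j * (derivative (den two B)).eval t) * (den two B).eval t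
      = (wpoly two B).eval t := by
  simp only [wpoly, eval_sub, eval_mul]
  linear_combination (derivative (den two B)).eval t * h

/-- The derivative of `Φ = num - C j * den`, evaluated. -/
theorem eval_derivative_phi {B : Type*} [CommRing B] (j t : B) :
    (derivative (num two B - C j * den two B)).eval t
      = (derivative (num two B)).eval t - j * (derivative (den two B)).eval t := by
  simp

section Primitive

theorem cw_ne_zero_of_domain {k : Type*} [CommRing k] [IsDomain k]
    (hlead : ((lead two : ℕ) : k) ≠ 0) : ((cw two : ℕ) : k) ≠ 0 := by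
  cases two
  · exact hlead
  · intro h
    apply hlead
    have h3 : (3 : k) ^ 4 = 0 := by
      have : ((cw true : ℕ) : k) = 3 ^ 4 := by simp only [cw]; norm_num
      rw [← this]; exact h
    have h3' : (3 : k) = 0 := pow_eq_zero_iff (by norm_num) |>.mp h3
    have : ((lead true : ℕ) : k) = 3 ^ 3 := by simp only [lead]; norm_num
    rw [this, h3']; norm_num

theorem g0_ne_zero (k : Type*) [CommRing k] [Nontrivial k] : g0 two k ≠ 0 := by
  cases two
  · have : (g0 false k).Monic := by simp only [g0]; monicity!
    exact this.ne_zero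
  · have : (g0 true k).Monic := by simp only [g0]; monicity!
    exact this.ne_zero

theorem g1_ne_zero (k : Type*) [CommRing k] [IsDomain k] : g1 two k ≠ 0 := by
  cases two
  · have h1 : (2 * X - 1 : k[X]) ≠ 0 := by
      intro h
      have := congrArg (fun p => p.coeff 0) h
      simp at this
    have h2 : (X - 2 : k[X]).Monic := by monicity!
    have h3 : (X + 1 : k[X]).Monic := by monicity!
    simp only [g1]
    exact mul_ne_zero (mul_ne_zero h1 h2.ne_zero) h3.ne_zero
  · have : (g1 true k).Monic := by simp only [g1]; monicity!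
    exact this.ne_zero

theorem wpoly_ne_zero {k : Type*} [CommRing k] [IsDomain k]
    (hlead : ((lead two : ℕ) : k) ≠ 0) : wpoly two k ≠ 0 := by
  rw [wpoly_eq]
  refine mul_ne_zero (mul_ne_zero (mul_ne_zero ?_ (pow_ne_zero _ (g0_ne_zero two k)))
    (pow_ne_zero _ (CoverGauss.cusp_monic two k).ne_zero)) (g1_ne_zero two k)
  rw [← C_eq_natCast]
  exact C_ne_zero.mpr (cw_ne_zero_of_domain two hlead)

variable {A0 : Type*} [CommRing A0] {π : A0}

theorem lead_quot_ne_zero (hlead : ¬ π ∣ ((lead two : ℕ) : A0)) :
    ((lead two : ℕ) : A0 ⧸ Ideal.span {π}) ≠ 0 := by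
  rw [← map_natCast (Ideal.Quotient.mk (Ideal.span {π})), Ne, Ideal.Quotient.eq_zero_iff_mem,
    Ideal.mem_span_singleton]
  exact hlead

/-- The Wronskian is `π`-primitive. -/
theorem not_C_dvd_wpoly (hπ : Prime π) (hlead : ¬ π ∣ ((lead two : ℕ) : A0)) :
    ¬ C π ∣ wpoly two A0 := by
  have : (Ideal.span {π}).IsPrime := (Ideal.span_singleton_prime hπ.ne_zero).mpr hπ
  rw [CoverGauss.C_dvd_iff_map_eq_zero, wpoly_map]
  exact wpoly_ne_zero two (lead_quot_ne_zero two hlead)

/-- `g0` is `π`-primitive. -/
theorem not_C_dvd_g0 (hπ : Prime π) : ¬ C π ∣ g0 two A0 := by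
  have : (Ideal.span {π}).IsPrime := (Ideal.span_singleton_prime hπ.ne_zero).mpr hπ
  rw [CoverGauss.C_dvd_iff_map_eq_zero, g0_map]
  exact g0_ne_zero two _

/-- `g1` is `π`-primitive. -/
theorem not_C_dvd_g1 (hπ : Prime π) : ¬ C π ∣ g1 two A0 := by
  have : (Ideal.span {π}).IsPrime := (Ideal.span_singleton_prime hπ.ne_zero).mpr hπ
  rw [CoverGauss.C_dvd_iff_map_eq_zero, g1_map]
  exact g1_ne_zero two _

/-- The numerator is `π`-primitive. -/
theorem not_C_dvd_num (hlead : ¬ π ∣ ((lead two : ℕ) : A0)) :
    ¬ C π ∣ num two A0 := by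
  intro h
  rw [C_dvd_iff_dvd_coeff] at h
  have := h (nG two)
  rw [coeff_num] at this
  exact hlead this

end Primitive

section Inverse

variable {A0 B : Type*} [CommRing A0] [CommRing B] [Algebra A0 B] {π : A0}

/-- An inverse `w` of `W(t)` gives the inverse `den(t) * w` of `Φ'(t)`. -/
theorem deriv_mul_inv (j t : B) (h : (num two B).eval t = j * (den two B).eval t) {w : B}
    (hw : aeval t (wpoly two A0) * w = 1) :
    ((derivative (num two B)).eval t - j * (derivative (den two B)).eval t)
      * ((den two B).eval t * w) = 1 := by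
  rw [← mul_assoc, deriv_mul_den two j t h, ← aeval_wpoly two (R := A0), hw]

/-- **Inverse of `Φ'(t)` from (U1).**  If `g(t)` is invertible with inverse in a class `P` for
every `π`-primitive `g ∈ A0[X]`, then `Φ'(t) * (den(t) * w) = 1` for some `w` in the class. -/
theorem exists_deriv_inv (hπ : Prime π) (hlead : ¬ π ∣ ((lead two : ℕ) : A0)) (j t : B)
    (h : (num two B).eval t = j * (den two B).eval t) (P : B → Prop)
    (hU1 : ∀ g : A0[X], ¬ C π ∣ g → ∃ w : B, P w ∧ aeval t g * w = 1) :
    ∃ w : B, P w ∧ ((derivative (num two B)).eval t - j * (derivative (den two B)).eval t)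
      * ((den two B).eval t * w) = 1 := by
  obtain ⟨w, hPw, hw⟩ := hU1 _ (not_C_dvd_wpoly two hπ hlead)
  exact ⟨w, hPw, deriv_mul_inv two j t h hw⟩

end Inverse

end Fermat.Agent.RedLib.CoverDeriv
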