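import Mathlib
import Fermat.Agent.RedLib.PolyLocal
import Fermat.Agent.RedLib.TameO
import Fermat.Agent.RedLib.Slice

/-!
# S18 (reduction of `J₀(N)`): TAME-O and SLICE at a cusp

`O` the local ring of `A0[X]` at the closed point `(π, X - a)` (abstractly: any localisation of
`A0[X]` at `PolyLocal.nId π a`), `K = Frac A0` an `O`-algebra through evaluation at `a`.

* `algK`, `algebraMap_algK_eq_zero_iff`, `exists_algK_frac` : the hypotheses `hκk`, `hκf` of
  `TameO.tame_exponent` for `s = X - a`, `κ = K`;
* `tame_cusp` : `TameO.tame_exponent` at the cusp;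
* `slice_cusp` : `Slice.slice` at the cusp, for the integral closure of `O` in a finite separable
  extension of `Frac O`, with all the side data discharged (the only inputs are a basis and the
  factorisation `disc = (X - a) ^ m * unit`).
-/

set_option autoImplicit false
set_option linter.unusedSectionVars false
set_option linter.style.haveILetI false

noncomputable section

namespace Fermat.Agent.RedLib.CuspData

open Polynomial TensorProduct Fermat.Agent.RedLib

/-- Comparison of the exponents of a prime element in two factorisations. -/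
theorem pow_eq_of_mul_eq {R : Type*} [CommRing R] [IsDomain R] {s : R} (hs : Prime s)
    {m m' : ℕ} {e e' : R} (he : ¬ s ∣ e) (he' : ¬ s ∣ e') (h : s ^ m * e = s ^ m' * e') :
    m = m' := by
  have key : ∀ {m m' : ℕ} {e e' : R}, ¬ s ∣ e → s ^ m * e = s ^ m' * e' → ¬ m < m' := by
    intro m m' e e' he h hlt
    obtain ⟨k, rfl⟩ := Nat.exists_eq_add_of_lt hlt
    apply he
    have h1 : s ^ m * e = s ^ m * (s ^ (k + 1) * e') := by
      rw [h]
      ring
    have h2 := mul_left_cancel₀ (pow_ne_zero m hs.ne_zero) h1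
    rw [h2, pow_succ]
    exact ⟨s ^ k * e', by ring⟩
  rcases Nat.lt_trichotomy m m' with hlt | heq | hgt
  · exact absurd hlt (key he h)
  · exact heq
  · exact absurd hgt (key he' h.symm)

section Data

variable {A0 : Type*} [CommRing A0] [IsDomain A0] [IsDiscreteValuationRing A0]
  {π : A0} (hπ : Irreducible π) (a : A0)
  (O : Type*) [CommRing O] [Algebra A0[X] O] [hn : (PolyLocal.nId π a).IsPrime]
  [hloc : IsLocalization.AtPrime O (PolyLocal.nId π a)]
  (K : Type*) [Field K] [Algebra A0 K] [IsFractionRing A0 K]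

/-- `K = Frac A0` as an `O`-algebra, through evaluation at the cusp `a`. -/
@[reducible] def algK : Algebra O K :=
  ((algebraMap A0 K).comp (PolyLocal.psi hπ a O)).toAlgebra

/-- `hκk` of TAME-O: the kernel of `O → K` is generated by `X - a`. -/
theorem algebraMap_algK_eq_zero_iff :
    letI := algK hπ a O K
    ∀ o : O, algebraMap O K o = 0 ↔ algebraMap A0[X] O (X - C a) ∣ o := by
  letI := algK hπ a O K
  intro o
  rw [← PolyLocal.psi_eq_zero_iff hπ a O o]
  exact map_eq_zero_iff _ (IsFractionRing.injective A0 K)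

/-- `hκf` of TAME-O: `K` is the fraction field of the image of `O`. -/
theorem exists_algK_frac :
    letI := algK hπ a O K
    ∀ y : K, ∃ o1 o2 : O, algebraMap O K o2 ≠ 0 ∧
      y * algebraMap O K o2 = algebraMap O K o1 := by
  letI := algK hπ a O K
  intro y
  obtain ⟨c1, c2, hc2, rfl⟩ := IsFractionRing.div_surjective (A := A0) y
  have hc20 : algebraMap A0 K c2 ≠ 0 :=
    (map_ne_zero_iff _ (IsFractionRing.injective A0 K)).mpr (nonZeroDivisors.ne_zero hc2)
  obtain ⟨o1, ho1⟩ := PolyLocal.psi_surjective hπ a O c1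
  obtain ⟨o2, ho2⟩ := PolyLocal.psi_surjective hπ a O c2
  have h1 : algebraMap O K o1 = algebraMap A0 K c1 := by
    rw [← ho1]
    rfl
  have h2 : algebraMap O K o2 = algebraMap A0 K c2 := by
    rw [← ho2]
    rfl
  refine ⟨o1, o2, ?_, ?_⟩
  · rw [h2]
    exact hc20
  · rw [h1, h2, div_mul_cancel₀ _ hc20]

/-- `hψπ` of SLICE. -/
theorem irreducible_psi_pi : Irreducible (PolyLocal.psi hπ a O (algebraMap A0[X] O (C π))) := by
  rw [PolyLocal.psi_algebraMap, eval_C]
  exact hπ

/-- `hφk` of SLICE. -/
theorem mk_eq_zero_iff (o : O) :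
    Ideal.Quotient.mk (Ideal.span {algebraMap A0[X] O (C π)}) o = 0 ↔
      algebraMap A0[X] O (C π) ∣ o := by
  rw [Ideal.Quotient.eq_zero_iff_mem, Ideal.mem_span_singleton]

variable {Kt FF : Type*} [Field Kt] [Algebra O Kt] [IsFractionRing O Kt] [Field FF]
  [Algebra Kt FF] [Algebra O FF] [IsScalarTower O Kt FF] [FiniteDimensional Kt FF]
  [Algebra.IsSeparable Kt FF] [CharZero K]

include Kt in
/-- **TAME-O at a cusp**. -/
theorem tame_cusp {n : ℕ} (b : Module.Basis (Fin n) O (integralClosure O FF)) :
    letI := algK hπ a O K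
    ∃ e : O, ¬ algebraMap A0[X] O (X - C a) ∣ e ∧ Algebra.discr O b =
      algebraMap A0[X] O (X - C a) ^
        (n - DiscLA.redDim K (K ⊗[O] (integralClosure O FF))) * e := by
  letI := algK hπ a O K
  haveI := PolyLocal.isDomain_O hπ a O
  haveI := PolyLocal.isNoetherianRing_O hπ a O
  haveI := PolyLocal.isIntegrallyClosed_O hπ a O
  exact TameO.tame_exponent (Kt := Kt) (algebraMap A0[X] O (X - C a)) (PolyLocal.prime_s hπ a O)
    (algebraMap_algK_eq_zero_iff hπ a O K) (exists_algK_frac hπ a O K) b

include hπ hn hloc Kt K in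
/-- **SLICE at a cusp**: if the discriminant of a basis of the integral closure `B` of `O` is a
unit times a power of `X - a`, then every `z ∈ B` with `z * z ≡ f • z` modulo `π`, `π ∤ f`, is
congruent modulo `π` to an element of `f • B`. -/
theorem slice_cusp {n : ℕ} (b : Module.Basis (Fin n) O (integralClosure O FF)) (m : ℕ) (e : O)
    (he : IsUnit e) (hd : Algebra.discr O b = algebraMap A0[X] O (X - C a) ^ m * e)
    (z : integralClosure O FF) (f : O) (hf : ¬ algebraMap A0[X] O (C π) ∣ f)
    (hz : ∃ w : integralClosure O FF, z * z - f • z = algebraMap A0[X] O (C π) • w) :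
    ∃ w w' : integralClosure O FF, z - f • w = algebraMap A0[X] O (C π) • w' := by
  classical
  letI := algK hπ a O K
  haveI := PolyLocal.isDomain_O hπ a O
  haveI := PolyLocal.isDomain_quot hπ a O
  obtain ⟨hdvr, hirr⟩ := PolyLocal.isDVR_quot hπ a O
  haveI := hdvr
  have hs : Prime (algebraMap A0[X] O (X - C a)) := PolyLocal.prime_s hπ a O
  obtain ⟨e', he', hd'⟩ := tame_cusp hπ a O K (Kt := Kt) b
  have hse : ¬ algebraMap A0[X] O (X - C a) ∣ e := fun h =>
    hs.not_isUnit (isUnit_of_dvd_unit h he)
  have hm : m = n - DiscLA.redDim K (K ⊗[O] (integralClosure O FF)) :=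
    pow_eq_of_mul_eq hs hse he' (hd.symm.trans hd')
  have hred : DiscLA.redDim K (K ⊗[O] (integralClosure O FF)) ≤ n := by
    have hfin : Module.Finite K (K ⊗[O] (integralClosure O FF)) :=
      Module.Finite.of_basis (Algebra.TensorProduct.basis K b)
    have h1 := Submodule.finrank_quotient_add_finrank
      ((nilradical (K ⊗[O] (integralClosure O FF))).restrictScalars K)
    rw [Module.finrank_eq_card_basis (Algebra.TensorProduct.basis K b), Fintype.card_fin] at h1
    have h2 : Module.finrank K ((K ⊗[O] (integralClosure O FF)) ⧸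
        (nilradical (K ⊗[O] (integralClosure O FF))).restrictScalars K) =
        DiscLA.redDim K (K ⊗[O] (integralClosure O FF)) := by
      unfold DiscLA.redDim
      exact LinearEquiv.finrank_eq (Submodule.Quotient.restrictScalarsEquiv K
        (nilradical (K ⊗[O] (integralClosure O FF))))
    omega
  have htame : m + DiscLA.redDim K (K ⊗[O] (integralClosure O FF)) ≤ n := by omega
  exact Slice.slice (algebraMap A0[X] O (C π)) (algebraMap A0[X] O (X - C a))
    (Ideal.Quotient.mk (Ideal.span {algebraMap A0[X] O (C π)})) Ideal.Quotient.mk_surjective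
    (mk_eq_zero_iff (π := π) O) hirr (PolyLocal.psi hπ a O) (PolyLocal.psi_surjective hπ a O)
    (PolyLocal.psi_eq_zero_iff hπ a O) (irreducible_psi_pi hπ a O) (κ := K) (fun _ => rfl)
    b m e he hd htame z f hf hz

end Data

end Fermat.Agent.RedLib.CuspData
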