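import Mathlib
import Fermat.Agent.RedLib.AGDefs
import Fermat.Agent.RedLib.FCLine
import Fermat.Agent.RedLib.S2Lemma
import Fermat.Agent.RedLib.CuspData

/-!
# S18 (reduction of `J₀(N)`): the core of the cusp-local step of the chart theorem

`O` the local ring of `A0[X]` at the cusp `(π, X - a)` (abstract localisation), acting on the
field `FF` through `X ↦ x`; `B` the integral closure of `O` in `FF`; `Lam` the Gauss lattice.

* `aeval_mem_chart`, `isIntegral_of_mem_chart` : `A0[x] ⊆ chart ⊆ B`;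
* `exists_mul_mem_chart` : denominators of elements of `B` can be cleared outside `(π, X - a)`;
* `isIntegral_of_mem_lam` : `B ∩ π Lam = π B` (S2 over `O`);
* `cusp_core` : if the discriminant of an `O`-basis of `B` is the image of `d`, a unit times a
  power of `X - a`, and `c0 ∈ chart` is congruent to `d(x) y` modulo `π Lam` for an
  idempotent-mod-`π` element `y` of `Lam`, then `u(x) y ∈ chart + π Lam` for some `u` which is a
  unit at the cusp.
-/

set_option autoImplicit false
set_option linter.unusedSectionVars false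
set_option linter.style.haveILetI false

noncomputable section

namespace Fermat.Agent.RedLib.CuspCore

open Polynomial TensorProduct Fermat.Agent.RedLib

/-- polynomials in `x` lie in the chart -/
theorem aeval_mem_chart {A0 FF : Type*} [CommRing A0] [Field FF] [Algebra A0 FF] (x : FF)
    (g : A0[X]) : aeval x g ∈ AGDefs.chart A0 x := by
  rw [AGDefs.mem_chart]
  exact isIntegral_algebraMap (R := Algebra.adjoin A0 ({x} : Set FF)) (A := FF)
    (x := ⟨aeval x g, aeval_mem_adjoin_singleton A0 x⟩)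

/-- the chart is contained in the Gauss lattice -/
theorem mem_lam_of_mem_chart {A0 FF : Type*} [CommRing A0] [IsDomain A0] [Field FF]
    [Algebra A0 FF] {π : A0} (hπ : Irreducible π) {x : FF} {Lam : Subalgebra A0 FF}
    (hLam : AGDefs.IsGaussLattice A0 π x Lam) {c : FF} (hc : c ∈ AGDefs.chart A0 x) :
    c ∈ Lam := by
  refine (hLam c).mpr ⟨1, fun h => ?_, by rwa [map_one, one_mul]⟩
  exact hπ.not_isUnit (Polynomial.isUnit_C.mp (isUnit_of_dvd_one h))

section Loc

variable {A0 : Type*} [CommRing A0] [IsDomain A0] [IsDiscreteValuationRing A0]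
  {π : A0} (hπ : Irreducible π) (a : A0)
  (O : Type*) [CommRing O] [Algebra A0[X] O] [hn : (PolyLocal.nId π a).IsPrime]
  [hloc : IsLocalization.AtPrime O (PolyLocal.nId π a)]
  {FF : Type*} [Field FF] [Algebra O FF] [Algebra A0 FF]
  (x : FF) (hx : ∀ g : A0[X], algebraMap O FF (algebraMap A0[X] O g) = aeval x g)

include hx in
/-- the chart is contained in the integral closure of `O` -/
theorem isIntegral_of_mem_chart {c : FF} (hc : c ∈ AGDefs.chart A0 x) : IsIntegral O c := by
  letI : Algebra A0[X] FF := (aeval x : A0[X] →ₐ[A0] FF).toRingHom.toAlgebra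
  haveI : IsScalarTower A0[X] O FF := IsScalarTower.of_algebraMap_eq fun g => (hx g).symm
  have h1 : IsIntegral A0[X] c :=
    (FCLine.mem_integralClosure_iff_mem_chart x (fun _ => rfl) c).mpr hc
  exact h1.tower_top

include hx hloc in
/-- denominators of elements integral over `O` can be cleared outside `(π, X - a)` -/
theorem exists_mul_mem_chart {w : FF} (hw : IsIntegral O w) :
    ∃ u : A0[X], ¬ π ∣ u.eval a ∧ aeval x u * w ∈ AGDefs.chart A0 x := by
  letI : Algebra A0[X] FF := (aeval x : A0[X] →ₐ[A0] FF).toRingHom.toAlgebra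
  haveI : IsScalarTower A0[X] O FF := IsScalarTower.of_algebraMap_eq fun g => (hx g).symm
  obtain ⟨⟨u, hu⟩, huw⟩ :=
    IsIntegral.exists_multiple_integral_of_isLocalization (PolyLocal.nId π a).primeCompl w hw
  rw [Submonoid.smul_def] at huw
  refine ⟨u, fun h => hu (PolyLocal.mem_nId.mpr h), ?_⟩
  have h1 : aeval x u * w = (u : A0[X]) • w := by
    rw [Algebra.smul_def]
    rfl
  rw [h1]
  exact (FCLine.mem_integralClosure_iff_mem_chart x (fun _ => rfl) _).mp huw

include hπ hx hn hloc in
/-- **S2 over `O`**: an element `v` of the Gauss lattice with `π v` integral over `O` is integral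
over `O`. -/
theorem isIntegral_of_mem_lam (hinj : Function.Injective (algebraMap O FF))
    {Lam : Subalgebra A0 FF} (hLam : AGDefs.IsGaussLattice A0 π x Lam) {v : FF} (hv : v ∈ Lam)
    (hπv : IsIntegral O (algebraMap A0[X] O (C π) • v)) : IsIntegral O v := by
  haveI := PolyLocal.isDomain_O hπ a O
  haveI := PolyLocal.isIntegrallyClosed_O hπ a O
  obtain ⟨g, hg, hgv⟩ := (hLam v).mp hv
  have h1 : IsIntegral O (algebraMap A0[X] O g • v) := by
    rw [Algebra.smul_def, hx]
    exact isIntegral_of_mem_chart O x hx hgv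
  exact S2Lemma.isIntegral_of_smul_of_injective hinj (PolyLocal.prime_pi hπ a O)
    (PolyLocal.not_dvd_algebraMap hπ a O hg) h1 hπv

end Loc

section Core

variable {A0 : Type*} [CommRing A0] [IsDomain A0] [IsDiscreteValuationRing A0]
  {π : A0} (hπ : Irreducible π) (a : A0)
  (O : Type*) [CommRing O] [Algebra A0[X] O] [hn : (PolyLocal.nId π a).IsPrime]
  [hloc : IsLocalization.AtPrime O (PolyLocal.nId π a)]
  (K : Type*) [Field K] [Algebra A0 K] [IsFractionRing A0 K] [CharZero K]
  {Kt FF : Type*} [Field Kt] [Algebra O Kt] [IsFractionRing O Kt] [Field FF]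
  [Algebra Kt FF] [Algebra O FF] [IsScalarTower O Kt FF] [FiniteDimensional Kt FF]
  [Algebra.IsSeparable Kt FF] [Algebra A0 FF]

include hπ hn hloc K Kt in
/-- **The core of the cusp-local step.** -/
theorem cusp_core (x : FF) (hx : ∀ g : A0[X], algebraMap O FF (algebraMap A0[X] O g) = aeval x g)
    (Lam : Subalgebra A0 FF) (hLam : AGDefs.IsGaussLattice A0 π x Lam)
    {n : ℕ} (bO : Module.Basis (Fin n) O (integralClosure O FF)) (d : A0[X])
    (hdπ : ¬ C π ∣ d) (hdx : aeval x d ≠ 0)
    (hdisc : Algebra.discr O bO = algebraMap A0[X] O d)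
    (m : ℕ) (e : O) (he : IsUnit e)
    (hde : algebraMap A0[X] O d = algebraMap A0[X] O (X - C a) ^ m * e)
    (y : FF) (hy : y ∈ Lam) (hyid : ∃ z ∈ Lam, y * y - y = π • z)
    (c0 : FF) (hc0 : c0 ∈ AGDefs.chart A0 x) (hc0y : ∃ z ∈ Lam, c0 - aeval x d * y = π • z) :
    ∃ u : A0[X], ¬ π ∣ u.eval a ∧ ∃ c ∈ AGDefs.chart A0 x, ∃ z ∈ Lam,
      c - aeval x u * y = π • z := by
  classical
  haveI := PolyLocal.isDomain_O hπ a O
  have hinj : Function.Injective (algebraMap O FF) := by
    rw [IsScalarTower.algebraMap_eq O Kt FF]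
    exact (algebraMap Kt FF).injective.comp (IsFractionRing.injective O Kt)
  obtain ⟨z1, hz1, hyz1⟩ := hyid
  obtain ⟨l0, hl0, hc0l⟩ := hc0y
  have hπFF : algebraMap O FF (algebraMap A0[X] O (C π)) = algebraMap A0 FF π := by
    rw [hx, aeval_C]
  have hdO : algebraMap O FF (algebraMap A0[X] O d) = aeval x d := hx d
  have hchart : ∀ c ∈ AGDefs.chart A0 x, c ∈ Lam := fun c hc => mem_lam_of_mem_chart hπ hLam hc
  have hdxLam : aeval x d ∈ Lam := hchart _ (aeval_mem_chart x d)
  -- the element `v` with `c0 * c0 - d(x) * c0 = π • v`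
  obtain ⟨v, hvdef⟩ : ∃ v : FF, v = aeval x d * aeval x d * z1 +
      l0 * (2 * (aeval x d * y) - aeval x d) + π • (l0 * l0) := ⟨_, rfl⟩
  have hvLam : v ∈ Lam := by
    rw [hvdef]
    refine Lam.add_mem (Lam.add_mem (Lam.mul_mem (Lam.mul_mem hdxLam hdxLam) hz1)
      (Lam.mul_mem hl0 (Lam.sub_mem ?_ hdxLam))) (Lam.smul_mem (Lam.mul_mem hl0 hl0) π)
    have h2 : (2 : FF) * (aeval x d * y) = aeval x d * y + aeval x d * y := by ring
    rw [h2]
    exact Lam.add_mem (Lam.mul_mem hdxLam hy) (Lam.mul_mem hdxLam hy)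
  have hc0eq : c0 = aeval x d * y + π • l0 := by
    rw [← hc0l]
    ring
  have hc0sq : c0 * c0 - aeval x d * c0 = π • v := by
    rw [hvdef, hc0eq]
    simp only [Algebra.smul_def] at hyz1 ⊢
    have hy2 : y * y = y + algebraMap A0 FF π * z1 := by
      rw [← hyz1]
      ring
    linear_combination (aeval x d * aeval x d) * hy2
  have hc0B : IsIntegral O c0 := isIntegral_of_mem_chart O x hx hc0
  have hdB : IsIntegral O (aeval x d) := by
    rw [← hdO]
    exact isIntegral_algebraMap
  have hπvB : IsIntegral O (algebraMap A0[X] O (C π) • v) := by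
    rw [Algebra.smul_def, hπFF, ← Algebra.smul_def, ← hc0sq]
    exact (hc0B.mul hc0B).sub (hdB.mul hc0B)
  have hvB : IsIntegral O v := isIntegral_of_mem_lam hπ a O x hx hinj hLam hvLam hπvB
  -- SLICE at the cusp
  have hz : ∃ w : integralClosure O FF,
      (⟨c0, hc0B⟩ : integralClosure O FF) * ⟨c0, hc0B⟩ - algebraMap A0[X] O d • ⟨c0, hc0B⟩ =
        algebraMap A0[X] O (C π) • w := by
    refine ⟨⟨v, hvB⟩, Subtype.ext ?_⟩
    have h1 : ((algebraMap A0[X] O d • (⟨c0, hc0B⟩ : integralClosure O FF) :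
        integralClosure O FF) : FF) = aeval x d * c0 := by
      rw [← hdO, ← Algebra.smul_def]
      rfl
    have h2 : ((algebraMap A0[X] O (C π) • (⟨v, hvB⟩ : integralClosure O FF) :
        integralClosure O FF) : FF) = π • v := by
      rw [Algebra.smul_def π v, ← hπFF, ← Algebra.smul_def]
      rfl
    rw [h2, ← hc0sq, ← h1]
    rfl
  obtain ⟨w, w', hww'⟩ := CuspData.slice_cusp hπ a O K (Kt := Kt) bO m e he (hdisc.trans hde)
    ⟨c0, hc0B⟩ (algebraMap A0[X] O d) (PolyLocal.not_dvd_algebraMap hπ a O hdπ) hz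
  have hww : c0 - aeval x d * (w : FF) = π • (w' : FF) := by
    have h1 := congrArg (Subtype.val : integralClosure O FF → FF) hww'
    have h2 : ((algebraMap A0[X] O d • w : integralClosure O FF) : FF) = aeval x d * (w : FF) := by
      rw [← hdO, ← Algebra.smul_def]
      rfl
    have h3 : ((algebraMap A0[X] O (C π) • w' : integralClosure O FF) : FF) = π • (w' : FF) := by
      rw [Algebra.smul_def π (w' : FF), ← hπFF, ← Algebra.smul_def]
      rfl
    rw [← h2, ← h3]
    exact h1
  -- clearing denominators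
  obtain ⟨u1, hu1, hu1w⟩ := exists_mul_mem_chart (π := π) a O x hx (w := (w : FF)) w.2
  obtain ⟨u2, hu2, hu2w⟩ := exists_mul_mem_chart (π := π) a O x hx (w := (w' : FF)) w'.2
  have hinvLam : (aeval x d)⁻¹ ∈ Lam := by
    refine (hLam _).mpr ⟨d, hdπ, ?_⟩
    rw [mul_inv_cancel₀ hdx]
    exact (AGDefs.chart A0 x).one_mem
  refine ⟨u1 * u2, ?_, aeval x (u1 * u2) * (w : FF), ?_,
    aeval x u2 * (aeval x u1 * l0) * (aeval x d)⁻¹ -
      aeval x u1 * (aeval x u2 * (w' : FF)) * (aeval x d)⁻¹, ?_, ?_⟩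
  · rw [eval_mul]
    intro h
    rcases hπ.prime.dvd_or_dvd h with h | h
    · exact hu1 h
    · exact hu2 h
  · have h1 : aeval x (u1 * u2) * (w : FF) = aeval x u2 * (aeval x u1 * (w : FF)) := by
      rw [map_mul]
      ring
    rw [h1]
    exact (AGDefs.chart A0 x).mul_mem (aeval_mem_chart x u2) hu1w
  · refine Lam.sub_mem (Lam.mul_mem (Lam.mul_mem (hchart _ (aeval_mem_chart x u2))
      (Lam.mul_mem (hchart _ (aeval_mem_chart x u1)) hl0)) hinvLam)
      (Lam.mul_mem (Lam.mul_mem (hchart _ (aeval_mem_chart x u1)) (hchart _ hu2w)) hinvLam)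
  · have h1 : aeval x d * (w : FF) + π • (w' : FF) = aeval x d * y + π • l0 := by
      rw [← hc0eq, ← hww]
      ring
    simp only [Algebra.smul_def] at h1 ⊢
    rw [map_mul]
    field_simp
    linear_combination (aeval x u1 * aeval x u2) * h1

end Core

end Fermat.Agent.RedLib.CuspCore
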