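import Mathlib
import Fermat.Agent.RedLib.Chart
import Fermat.Agent.GenusLib.FFFinal

/-!
# S18 (reduction of `J₀(N)`): divisors of functions on `X₀(N)` over `AlgebraicClosure ℚ`

Every nonzero element of `modularFunctionFieldBar N` has finitely many zeros and poles, hence a
divisor; places of the function field of `X₀(N)` have degree one.
-/

set_option autoImplicit false
set_option linter.unusedSectionVars false
set_option linter.style.haveILetI false

noncomputable section

namespace Fermat.Agent.RedLib.DivFN

open AlgebraicCurve Polynomial IntermediateField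
open Fermat.Agent.GenusLib Fermat.Agent.GenusLib.FF Fermat.Agent.GenusLib.PlaceCore

variable {N : ℕ} [NeZero N]

/-- Zeros and poles of a nonzero modular function are finite in number. -/
theorem finite_ord_ne_zero {f : FN N} (hf : f ≠ 0) :
    {v : Place Qb (FN N) | v.ord f ≠ 0}.Finite := by
  have B : BridgeData N := bridgeData N embQb
  haveI : FiniteDimensional Qb⟮jF N⟯ (FN N) := finiteDimensional_FN B
  have hj : Transcendental Qb (jF N) := transcendental_jF B
  haveI : CharZero (FN N) := charZero_of_injective_algebraMap (algebraMap Qb (FN N)).injective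
  haveI : CharZero Qb⟮jF N⟯ := (algebraMap Qb⟮jF N⟯ (FN N)).charZero
  haveI : Algebra.IsSeparable Qb⟮jF N⟯ (FN N) := inferInstance
  exact Chart.finite_ord_ne_zero (jF N) hj hf

/-- **Every nonzero modular function has a divisor.** -/
theorem exists_divisor {f : FN N} (hf : f ≠ 0) :
    ∃ D : Divisor Qb (FN N), ∀ v : Place Qb (FN N), D v = v.ord f :=
  ⟨Finsupp.ofSupportFinite (fun v => v.ord f) (finite_ord_ne_zero hf), fun _ => rfl⟩

/-- The same statement in the vocabulary of the frozen statements. -/
theorem exists_divisor' {f : ModularCurve.modularFunctionFieldBar N} (hf : f ≠ 0) :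
    ∃ D : Divisor (AlgebraicClosure ℚ) (ModularCurve.modularFunctionFieldBar N),
      ∀ v : Place (AlgebraicClosure ℚ) (ModularCurve.modularFunctionFieldBar N), D v = v.ord f :=
  exists_divisor hf

end Fermat.Agent.RedLib.DivFN
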