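/-
S18 long shot, leaf (D2) of the provider side (helper7's statement): the idempotents
`e i = p⁻¹ ∑_a ζ^(-i a) T^a` of a ring in which `T ^ p ≡ 1` modulo `π`.
-/
import Mathlib

set_option autoImplicit false

namespace Fermat.Agent.RedLib.IdemFam

open Finset

section Exact

variable {B : Type*} [CommRing B]

/-- If `x ^ p = 1` then `x` fixes the geometric sum `∑_{a<p} x^a`. -/
theorem mul_geom_fix (p : ℕ) (x : B) (hx : x ^ p = 1) :
    x * ∑ a ∈ range p, x ^ a = ∑ a ∈ range p, x ^ a := by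
  have h := geom_sum_mul x p
  rw [hx, sub_self] at h
  linear_combination h

/-- If `x ^ p = 1` then every power of `x` fixes the geometric sum `∑_{a<p} x^a`. -/
theorem pow_mul_geom_fix (p : ℕ) (x : B) (hx : x ^ p = 1) (n : ℕ) :
    x ^ n * ∑ a ∈ range p, x ^ a = ∑ a ∈ range p, x ^ a := by
  induction n with
  | zero => rw [pow_zero, one_mul]
  | succ n ih => rw [pow_succ, mul_assoc, mul_geom_fix p x hx, ih]

/-- Product of two "twisted geometric sums". -/
theorem geom_mul_geom (p : ℕ) (T : B) (hT : T ^ p = 1) (θ θ' η : B) (hθ' : θ' ^ p = 1)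
    (hη : η * θ' = 1) :
    (∑ a ∈ range p, (θ * T) ^ a) * (∑ a ∈ range p, (θ' * T) ^ a) =
      (∑ a ∈ range p, (θ * η) ^ a) * (∑ a ∈ range p, (θ' * T) ^ a) := by
  have hx : (θ' * T) ^ p = 1 := by rw [mul_pow, hθ', hT, one_mul]
  rw [sum_mul, sum_mul]
  refine sum_congr rfl fun a _ => ?_
  have h1 : θ * T = (θ * η) * (θ' * T) := by
    linear_combination (-(θ * T)) * hη
  rw [h1, mul_pow, mul_assoc, pow_mul_geom_fix p _ hx]

end Exact

/-- **(D2) IDEM.** -/
theorem idem_family {R : Type*} [CommRing R] (π T ζ pinv : R) (p : ℕ) (hp : (p : R) * pinv = 1)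
    (hζ : ζ ^ p = 1)
    (hsum : ∀ k : ℕ, 0 < k → k < p → ∑ a ∈ Finset.range p, (ζ ^ k) ^ a = 0)
    (hT : ∃ w : R, T ^ p - 1 = π * w) (e : ℕ → R)
    (he : ∀ i, e i = pinv * ∑ a ∈ Finset.range p, (ζ ^ (p - i)) ^ a * T ^ a) :
    (∀ i < p, ∃ z, e i * e i - e i = π * z) ∧
      (∀ i < p, ∀ j < p, i ≠ j → ∃ z, e i * e j = π * z) := by
  set q := Ideal.Quotient.mk (Ideal.span {π}) with hq
  have hq0 : ∀ x : R, q x = 0 ↔ ∃ z, x = π * z := by
    intro x
    rw [hq, Ideal.Quotient.eq_zero_iff_mem, Ideal.mem_span_singleton]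
    exact Iff.rfl
  have hTq : q T ^ p = 1 := by
    obtain ⟨w, hw⟩ := hT
    have : q (T ^ p - 1) = 0 := (hq0 _).mpr ⟨w, hw⟩
    rw [map_sub, map_pow, map_one, sub_eq_zero] at this
    exact this
  have hζq : q ζ ^ p = 1 := by rw [← map_pow, hζ, map_one]
  have hpq : (p : R ⧸ Ideal.span {π}) * q pinv = 1 := by
    have := congrArg q hp
    rwa [map_mul, map_natCast, map_one] at this
  have heq : ∀ i, q (e i) = q pinv * ∑ a ∈ range p, (q ζ ^ (p - i) * q T) ^ a := by
    intro i
    rw [he i, map_mul, map_sum]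
    congr 1
    refine sum_congr rfl fun a _ => ?_
    rw [map_mul, map_pow, map_pow, map_pow, mul_pow]
  -- the product formula
  have hprod : ∀ i j, j ≤ p → q (e i) * q (e j) =
      q pinv * (∑ a ∈ range p, (q ζ ^ (p - i) * q ζ ^ j) ^ a) * q (e j) := by
    intro i j hj
    have hθ' : (q ζ ^ (p - j)) ^ p = 1 := by rw [← pow_mul, mul_comm, pow_mul, hζq, one_pow]
    have hη : q ζ ^ j * q ζ ^ (p - j) = 1 := by
      rw [← pow_add, Nat.add_sub_cancel' hj, hζq]
    have h := geom_mul_geom p (q T) hTq (q ζ ^ (p - i)) (q ζ ^ (p - j)) (q ζ ^ j) hθ' hη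
    rw [heq i, heq j]
    linear_combination (q pinv * q pinv) * h
  constructor
  · intro i hi
    rw [← hq0, map_sub, map_mul, hprod i i hi.le, ← pow_add, Nat.sub_add_cancel hi.le, hζq]
    simp only [one_pow, sum_const, card_range, nsmul_eq_mul, mul_one]
    rw [mul_comm (q pinv), hpq, one_mul, sub_self]
  · intro i hi j hj hij
    rw [← hq0, map_mul, hprod i j hj.le]
    have hzero : ∑ a ∈ range p, (q ζ ^ (p - i) * q ζ ^ j) ^ a = 0 := by
      have h0 : ∑ a ∈ range p, (ζ ^ (p - i) * ζ ^ j) ^ a = 0 := by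
        rcases lt_or_gt_of_ne hij with h | h
        · -- i < j
          have h1 : ζ ^ (p - i) * ζ ^ j = ζ ^ (j - i) := by
            have : p - i + j = p + (j - i) := by omega
            rw [← pow_add, this, pow_add, hζ, one_mul]
          rw [h1]
          exact hsum (j - i) (by omega) (by omega)
        · -- j < i
          rw [← pow_add]
          exact hsum (p - i + j) (by omega) (by omega)
      have := congrArg q h0
      rw [map_sum, map_zero] at this
      rw [← this]
      refine sum_congr rfl fun a _ => ?_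
      rw [map_pow, map_mul, map_pow, map_pow]
    rw [hzero, mul_zero, zero_mul]

end Fermat.Agent.RedLib.IdemFam
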