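import Mathlib
import Fermat.Agent.RedLib.IdemFam

/-!
# RedLib/EFam: the idempotent family of a Kummer extension, abstract form (provider side (P-iv))

For `T` in a field `Fu` with `T ^ p ≡ 1` modulo `π` in a lattice `Lam` of a bigger field `FF`,
the elements `e i = p⁻¹ ∑_{a<p} ζ^(-i a) T^a` of `Fu` satisfy the hypotheses `heLam`, `hidem`,
`horth`, `hne` of the abstract geometric theorem:

* `eFam_mem`: `e i ∈ Lam`;
* `eFam_idem`: `e i * e i ≡ e i` and `e i * e j ≡ 0` (`i ≠ j`) modulo `π • Lam`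
  (`IdemFam.idem_family` in the ring `↥Lam`);
* `eFam_not_mem`: `e i ∉ π • Lam`, by comparing the coefficients of `T ^ 0` in the power basis,
  as soon as `Lam ∩ Fu` is contained in the span of the powers of `T` over a ring `R0` of the
  base field `FK` in which `π` is not invertible;
* `exists_efam`: all of them together, indexed by `Fin p`.
-/

set_option autoImplicit false

namespace Fermat.Agent.RedLib.EFam

open Finset

section Def

variable {A0 Fu : Type*} [CommRing A0] [CommRing Fu] [Algebra A0 Fu]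

/-- `e i = pinv * ∑_{a<p} (ζ^(p-i))^a * T^a`. -/
def eFam (ζ pinv : A0) (T : Fu) (p i : ℕ) : Fu :=
  algebraMap A0 Fu pinv * ∑ a ∈ range p, algebraMap A0 Fu ((ζ ^ (p - i)) ^ a) * T ^ a

end Def

section Mem

variable {A0 Fu FF : Type*} [CommRing A0] [CommRing Fu] [CommRing FF] [Algebra A0 Fu]
  [Algebra Fu FF] [Algebra A0 FF] [IsScalarTower A0 Fu FF]

theorem algebraMap_eFam (ζ pinv : A0) (T : Fu) (p i : ℕ) :
    algebraMap Fu FF (eFam ζ pinv T p i)
      = algebraMap A0 FF pinv * ∑ a ∈ range p,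
          algebraMap A0 FF ((ζ ^ (p - i)) ^ a) * algebraMap Fu FF T ^ a := by
  rw [eFam, map_mul, map_sum, IsScalarTower.algebraMap_apply A0 Fu FF]
  congr 1
  refine Finset.sum_congr rfl fun a _ => ?_
  rw [map_mul, IsScalarTower.algebraMap_apply A0 Fu FF, map_pow (algebraMap Fu FF) T]

/-- `heLam`. -/
theorem eFam_mem (ζ pinv : A0) (T : Fu) (p i : ℕ) (Lam : Subalgebra A0 FF)
    (hT : algebraMap Fu FF T ∈ Lam) : algebraMap Fu FF (eFam ζ pinv T p i) ∈ Lam := by
  rw [algebraMap_eFam]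
  exact Lam.mul_mem (Lam.algebraMap_mem _)
    (Lam.sum_mem fun a _ => Lam.mul_mem (Lam.algebraMap_mem _) (Lam.pow_mem hT a))

/-- `hidem` and `horth`. -/
theorem eFam_idem (π ζ pinv : A0) (T : Fu) (p : ℕ) (hp : (p : A0) * pinv = 1) (hζ : ζ ^ p = 1)
    (hsum : ∀ k : ℕ, 0 < k → k < p → ∑ a ∈ range p, (ζ ^ k) ^ a = 0)
    (Lam : Subalgebra A0 FF) (hT : algebraMap Fu FF T ∈ Lam)
    (hTp : ∃ w ∈ Lam, algebraMap Fu FF (T ^ p - 1) = π • w) :
    (∀ i < p, ∃ z ∈ Lam, algebraMap Fu FF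
        (eFam ζ pinv T p i * eFam ζ pinv T p i - eFam ζ pinv T p i) = π • z) ∧
      (∀ i < p, ∀ j < p, i ≠ j → ∃ z ∈ Lam, algebraMap Fu FF
        (eFam ζ pinv T p i * eFam ζ pinv T p j) = π • z) := by
  set φ : A0 →+* ↥Lam := algebraMap A0 ↥Lam with hφ
  have hφc : ∀ x : A0, ((φ x : ↥Lam) : FF) = algebraMap A0 FF x := fun x => rfl
  set TL : ↥Lam := ⟨algebraMap Fu FF T, hT⟩ with hTL
  set eL : ℕ → ↥Lam := fun i => ⟨algebraMap Fu FF (eFam ζ pinv T p i), eFam_mem ζ pinv T p i Lam hT⟩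
    with heL
  have h1 : (p : ↥Lam) * φ pinv = 1 := by
    rw [← map_natCast φ, ← map_mul, hp, map_one]
  have h2 : φ ζ ^ p = 1 := by rw [← map_pow, hζ, map_one]
  have h3 : ∀ k : ℕ, 0 < k → k < p → ∑ a ∈ range p, (φ ζ ^ k) ^ a = 0 := by
    intro k hk0 hkp
    have := congrArg φ (hsum k hk0 hkp)
    rw [map_sum, map_zero] at this
    rw [← this]
    refine Finset.sum_congr rfl fun a _ => ?_
    rw [map_pow, map_pow]
  have h4 : ∃ w : ↥Lam, TL ^ p - 1 = φ π * w := by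
    obtain ⟨w, hw, hwe⟩ := hTp
    refine ⟨⟨w, hw⟩, Subtype.ext ?_⟩
    have e1 : ((TL ^ p - 1 : ↥Lam) : FF) = algebraMap Fu FF (T ^ p - 1) := by
      rw [map_sub, map_pow, map_one]
      rfl
    have e2 : ((φ π * ⟨w, hw⟩ : ↥Lam) : FF) = π • w := by
      rw [Algebra.smul_def]
      rfl
    rw [e1, e2, hwe]
  have h5 : ∀ i, eL i = φ pinv * ∑ a ∈ range p, (φ ζ ^ (p - i)) ^ a * TL ^ a := by
    intro i
    apply Subtype.ext
    have e1 : ((φ pinv * ∑ a ∈ range p, (φ ζ ^ (p - i)) ^ a * TL ^ a : ↥Lam) : FF)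
        = algebraMap A0 FF pinv * ∑ a ∈ range p,
          algebraMap A0 FF ((ζ ^ (p - i)) ^ a) * algebraMap Fu FF T ^ a := by
      rw [MulMemClass.coe_mul, hφc, AddSubmonoidClass.coe_finsetSum]
      congr 1
      refine Finset.sum_congr rfl fun a _ => ?_
      rw [MulMemClass.coe_mul, ← map_pow, ← map_pow, hφc, SubmonoidClass.coe_pow]
    rw [e1]
    exact algebraMap_eFam ζ pinv T p i
  obtain ⟨hid, hor⟩ := Fermat.Agent.RedLib.IdemFam.idem_family (φ π) TL (φ ζ) (φ pinv) p h1 h2 h3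
    h4 eL h5
  have hsm : ∀ z : ↥Lam, ((φ π * z : ↥Lam) : FF) = π • (z : FF) := by
    intro z
    rw [Algebra.smul_def]
    rfl
  refine ⟨fun i hi => ?_, fun i hi j hj hij => ?_⟩
  · obtain ⟨z, hz⟩ := hid i hi
    refine ⟨z, z.2, ?_⟩
    rw [← hsm, ← hz, map_sub, map_mul]
    rfl
  · obtain ⟨z, hz⟩ := hor i hi j hj hij
    refine ⟨z, z.2, ?_⟩
    rw [← hsm, ← hz, map_mul]
    rfl

end Mem

section NotMem

/-- `e i` in the power basis, with coefficients in the base field. -/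
theorem eFam_eq_sum {A0 FK Fu : Type*} (K : Type*) [CommRing A0] [Field K] [Algebra A0 K]
    [Field FK] [Algebra K FK] [Field Fu] [Algebra K Fu] [Algebra FK Fu]
    [IsScalarTower K FK Fu] [Algebra A0 Fu] [IsScalarTower A0 K Fu]
    (ζ pinv : A0) (T : Fu) (p i : ℕ) :
    eFam ζ pinv T p i = ∑ a : Fin p,
      (algebraMap K FK (algebraMap A0 K (pinv * (ζ ^ (p - i)) ^ (a : ℕ)))) • T ^ (a : ℕ) := by
  rw [eFam, Finset.mul_sum, Finset.sum_range
    (fun a => algebraMap A0 Fu pinv * (algebraMap A0 Fu ((ζ ^ (p - i)) ^ a) * T ^ a))]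
  refine Finset.sum_congr rfl fun a _ => ?_
  rw [Algebra.smul_def, ← IsScalarTower.algebraMap_apply K FK Fu,
    ← IsScalarTower.algebraMap_apply A0 K Fu, map_mul, mul_assoc]

/-- `hne`: `e i ∉ π • Lam`. -/
theorem eFam_not_mem {A0 R0 FK Fu FF : Type*} (K : Type*) [CommRing A0] [Field K] [Algebra A0 K]
    [CommRing R0] [Field FK] [Algebra K FK] [Algebra R0 FK] [Field Fu] [Algebra K Fu]
    [Algebra FK Fu] [IsScalarTower K FK Fu] [Algebra A0 Fu] [IsScalarTower A0 K Fu]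
    [Algebra R0 Fu] [IsScalarTower R0 FK Fu] [Field FF] [Algebra Fu FF] [Algebra A0 FF]
    [IsScalarTower A0 Fu FF]
    (π ζ pinv : A0) (T : Fu) {p : ℕ} (hp0 : 0 < p) (hpinv : (p : A0) * pinv = 1)
    (Lam : Subalgebra A0 FF)
    (hind : LinearIndependent FK (fun a : Fin p => T ^ (a : ℕ)))
    (hdec : ∀ z : Fu, algebraMap Fu FF z ∈ Lam →
      z ∈ Submodule.span R0 (Set.range fun a : Fin p => T ^ (a : ℕ)))
    (hπ1 : ∀ c : R0, algebraMap A0 Fu π * algebraMap R0 Fu c ≠ 1) (i : ℕ) :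
    ¬ ∃ z ∈ Lam, algebraMap Fu FF (eFam ζ pinv T p i) = π • z := by
  rintro ⟨z, hz, hez⟩
  have hinj : Function.Injective (algebraMap Fu FF) := (algebraMap Fu FF).injective
  -- `e i = π * z'` with `z'` in the span of the powers of `T`
  have key : ∃ z' : Fu, z' ∈ Submodule.span R0 (Set.range fun a : Fin p => T ^ (a : ℕ)) ∧
      eFam ζ pinv T p i = algebraMap A0 Fu π * z' := by
    by_cases hπ0 : algebraMap A0 Fu π = 0
    · refine ⟨0, Submodule.zero_mem _, hinj ?_⟩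
      rw [hez, Algebra.smul_def, IsScalarTower.algebraMap_apply A0 Fu FF, hπ0]
      simp
    · have hzz : z = algebraMap Fu FF ((algebraMap A0 Fu π)⁻¹ * eFam ζ pinv T p i) := by
        rw [map_mul, hez, Algebra.smul_def, IsScalarTower.algebraMap_apply A0 Fu FF, map_inv₀,
          ← mul_assoc, inv_mul_cancel₀ (fun h => hπ0 (hinj (by rw [h, map_zero]))), one_mul]
      refine ⟨(algebraMap A0 Fu π)⁻¹ * eFam ζ pinv T p i, hdec _ (by rw [← hzz]; exact hz), ?_⟩
      rw [← mul_assoc, mul_inv_cancel₀ hπ0, one_mul]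
  obtain ⟨z', hz', he⟩ := key
  obtain ⟨c, hc⟩ := (Submodule.mem_span_range_iff_exists_fun R0).mp hz'
  -- compare coefficients
  have hsum : ∑ a : Fin p,
      (algebraMap K FK (algebraMap A0 K π) * algebraMap R0 FK (c a)
        - algebraMap K FK (algebraMap A0 K (pinv * (ζ ^ (p - i)) ^ (a : ℕ)))) • T ^ (a : ℕ) = 0 := by
    have h1 : ∑ a : Fin p, (algebraMap K FK (algebraMap A0 K π) * algebraMap R0 FK (c a))
        • T ^ (a : ℕ) = algebraMap A0 Fu π * z' := by
      rw [← hc, Finset.mul_sum]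
      refine Finset.sum_congr rfl fun a _ => ?_
      rw [Algebra.smul_def, map_mul, ← IsScalarTower.algebraMap_apply K FK Fu,
        ← IsScalarTower.algebraMap_apply A0 K Fu, ← IsScalarTower.algebraMap_apply R0 FK Fu,
        Algebra.smul_def, mul_assoc]
    simp only [sub_smul, Finset.sum_sub_distrib]
    rw [h1, ← eFam_eq_sum K, he, sub_self]
  have h0 := (Fintype.linearIndependent_iff.mp hind) _ hsum ⟨0, hp0⟩
  simp only [pow_zero, mul_one] at h0
  have h2 : algebraMap K FK (algebraMap A0 K π) * algebraMap R0 FK (c ⟨0, hp0⟩)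
      = algebraMap K FK (algebraMap A0 K pinv) := sub_eq_zero.mp h0
  apply hπ1 ((p : R0) * c ⟨0, hp0⟩)
  rw [IsScalarTower.algebraMap_apply A0 K Fu, IsScalarTower.algebraMap_apply K FK Fu,
    IsScalarTower.algebraMap_apply R0 FK Fu, ← map_mul, map_mul (algebraMap R0 FK), map_natCast,
    mul_left_comm, h2]
  have h3 : (p : FK) = algebraMap K FK (algebraMap A0 K (p : A0)) := by
    rw [map_natCast, map_natCast]
  rw [h3, ← map_mul, ← map_mul, hpinv, map_one, map_one, map_one]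

end NotMem

section Roots

variable {A0 : Type*} [CommRing A0] [IsDomain A0]

/-- Geometric sums of nontrivial powers of a primitive root of unity of prime order vanish. -/
theorem geom_sum_pow_eq_zero {p : ℕ} (hp : p.Prime) {ζ : A0} (hζ : IsPrimitiveRoot ζ p) (k : ℕ)
    (hk0 : 0 < k) (hkp : k < p) : ∑ a ∈ range p, (ζ ^ k) ^ a = 0 := by
  have hcop : Nat.Coprime k p := (Nat.coprime_of_lt_prime hk0.ne' hkp hp).symm
  exact (hζ.pow_of_coprime k hcop).geom_sum_eq_zero hp.one_lt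

end Roots

section Main

/-- **The e-family** (`e`, `heLam`, `hidem`, `horth`, `hne` of the abstract geometric theorem). -/
theorem exists_efam {A0 R0 FK Fu FF : Type*} (K : Type*) [CommRing A0] [IsDomain A0] [Field K]
    [Algebra A0 K] [CommRing R0] [Field FK] [Algebra K FK] [Algebra R0 FK] [Field Fu]
    [Algebra K Fu] [Algebra FK Fu] [IsScalarTower K FK Fu] [Algebra A0 Fu] [IsScalarTower A0 K Fu]
    [Algebra R0 Fu] [IsScalarTower R0 FK Fu] [Field FF] [Algebra Fu FF] [Algebra A0 FF]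
    [IsScalarTower A0 Fu FF]
    (π : A0) {p : ℕ} (hp : p.Prime) (ζ pinv : A0) (hζ : IsPrimitiveRoot ζ p)
    (hpinv : (p : A0) * pinv = 1) (T : Fu) (Lam : Subalgebra A0 FF)
    (hT : algebraMap Fu FF T ∈ Lam) (hTp : ∃ w ∈ Lam, algebraMap Fu FF (T ^ p - 1) = π • w)
    (hind : LinearIndependent FK (fun a : Fin p => T ^ (a : ℕ)))
    (hdec : ∀ z : Fu, algebraMap Fu FF z ∈ Lam →
      z ∈ Submodule.span R0 (Set.range fun a : Fin p => T ^ (a : ℕ)))
    (hπ1 : ∀ c : R0, algebraMap A0 Fu π * algebraMap R0 Fu c ≠ 1) :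
    ∃ e : Fin p → Fu, (∀ i, algebraMap Fu FF (e i) ∈ Lam) ∧
      (∀ i, ∃ z ∈ Lam, algebraMap Fu FF (e i * e i - e i) = π • z) ∧
      (∀ i j, i ≠ j → ∃ z ∈ Lam, algebraMap Fu FF (e i * e j) = π • z) ∧
      (∀ i, ¬ ∃ z ∈ Lam, algebraMap Fu FF (e i) = π • z) := by
  obtain ⟨hid, hor⟩ := eFam_idem π ζ pinv T p hpinv hζ.pow_eq_one
    (fun k hk0 hkp => geom_sum_pow_eq_zero hp hζ k hk0 hkp) Lam hT hTp
  exact ⟨fun i => eFam ζ pinv T p (i : ℕ), fun i => eFam_mem ζ pinv T p i Lam hT,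
    fun i => hid i i.2, fun i j hij => hor i i.2 j j.2 (fun h => hij (Fin.ext h)),
    fun i => eFam_not_mem K π ζ pinv T hp.pos hpinv Lam hind hdec hπ1 i⟩

end Main

end Fermat.Agent.RedLib.EFam
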