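import Mathlib
import Fermat.Agent.RedLib.GaussK
import Fermat.Agent.IgusaLib.QepA
import Fermat.Agent.IgusaLib.DescentCore

/-!
# S18 (reduction): the Gauss lattice of the modular function field over a discrete valuation datum

`IsGaussDatum A0 red π` as in `GaussK.lean` (`A0 ⊆ K` a discrete valuation ring, `red : A0 → k`).
`F_K = modularFunctionFieldFullC K N ⊆ K((q))`, `j = jqModC K`.

* `Oj red` : the Gauss valuation ring `K(j) ∩ Oint` of `K(j)`; `mem_Oj_iff`;
* `LamF red N` : the Gauss lattice `F_K ∩ Oint`;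
* `IsFamily N K k m` : a family `m i` of integral monomials in the `j(q^d)` which spans `F_K` over
  `K(j)` and whose reductions are independent over `k[J]`;
* for such a family: `ind_K`, `exists_coeffs_LamF` (`LamF = ⊕ Oj • b i`), `rho_mem_fullC`,
  `span_k` (the reductions form a `k(J)`-basis of `F_k`), `isIntegral_Oj_iff`;
* without a family: `exists_rho_eq` (the reduction `LamF → F_k` is onto), `ker_rho_LamF`,
  `exists_zpow_mul_unit` (Gauss normalisation).
-/

set_option autoImplicit false
set_option linter.unusedSectionVars false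
set_option linter.unusedVariables false

noncomputable section

namespace Fermat.Agent.RedLib.GaussFF

open ModularCurve Polynomial Fermat.Agent.RedLib.GaussK

variable {K : Type*} [Field K] {k : Type*} [Field k] {A0 : Subring K} {red : A0 →+* k} {π : K}

/-! ### Interface to the Gauss ring -/

/-- constants `A0 → Oint` -/
def cO (red : A0 →+* k) : A0 →+* Oint red :=
  ((HahnSeries.C : K →+* LaurentSeries K).comp A0.subtype).codRestrict (Oint red)
    (fun a => C_mem_Oint a)

theorem rho_comp_cO :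
    (rho red).comp (cO red) = (HahnSeries.C : k →+* LaurentSeries k).comp red := by
  ext a : 1
  exact rho_C a _

/-- evaluation of a polynomial over `A0` at an element of `Oint` -/
def evO (t : Oint red) (P : A0[X]) : Oint red := P.eval₂ (cO red) t

theorem coe_evO (t : Oint red) (P : A0[X]) :
    ((evO t P : Oint red) : LaurentSeries K) = aeval (t : LaurentSeries K) (P.map A0.subtype) := by
  have h := hom_eval₂ P (cO red) (Oint red).subtype t
  rw [aeval_def, eval₂_map, Fermat.Agent.IgusaLib.Qep.algebraMap_eq_C]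
  exact h

theorem rho_evO (t : Oint red) (P : A0[X]) :
    rho red (evO t P) = aeval (rho red t) (P.map red) := by
  have h := hom_eval₂ P (cO red) (rho red) t
  rw [aeval_def, eval₂_map, Fermat.Agent.IgusaLib.Qep.algebraMap_eq_C, ← rho_comp_cO]
  exact h

theorem intSeries_eq_inclA (s : LaurentSeries ℤ) :
    coeffMap (Int.castRingHom K) s = inclA A0 (coeffMap (Int.castRingHom A0) s) := by
  rw [inclA, coeffMap_coeffMap]
  exact coeffMap_congr (RingHom.ext_int _ _) s

/-- Series with integer coefficients lie in the Gauss ring. -/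
theorem intSeries_mem_Oint (s : LaurentSeries ℤ) :
    coeffMap (Int.castRingHom K) s ∈ Oint red := by
  rw [intSeries_eq_inclA (A0 := A0)]
  exact inclA_mem_Oint _

theorem rho_intSeries (s : LaurentSeries ℤ) (hs : coeffMap (Int.castRingHom K) s ∈ Oint red) :
    rho red ⟨coeffMap (Int.castRingHom K) s, hs⟩ = coeffMap (Int.castRingHom k) s := by
  have e : (⟨coeffMap (Int.castRingHom K) s, hs⟩ : Oint red) =
      ⟨inclA A0 (coeffMap (Int.castRingHom A0) s), inclA_mem_Oint _⟩ :=
    Subtype.ext (intSeries_eq_inclA s)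
  rw [e, rho_inclA, redA, coeffMap_coeffMap]
  exact coeffMap_congr (RingHom.ext_int _ _) s

theorem jqModC_eq_intSeries (R : Type*) [CommRing R] :
    jqModC R = coeffMap (Int.castRingHom R) (jqModC ℤ) :=
  (coeffMap_jqModC _).symm

theorem qExpand_jq_eq_intSeries (R : Type*) [CommRing R] (d : ℕ) [NeZero d] :
    qExpand R d (jqModC R) = coeffMap (Int.castRingHom R) (qExpand ℤ d (jqModC ℤ)) := by
  rw [coeffMap_qExpand, coeffMap_jqModC]

theorem jqModC_mem_Oint : jqModC K ∈ Oint red := by
  rw [jqModC_eq_intSeries K]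
  exact intSeries_mem_Oint _

/-- `j` as an element of `Oint` -/
def jO (red : A0 →+* k) : Oint red := ⟨jqModC K, jqModC_mem_Oint⟩

theorem rho_jO : rho red (jO red) = jqModC k := by
  have e : jO red = ⟨coeffMap (Int.castRingHom K) (jqModC ℤ), intSeries_mem_Oint _⟩ :=
    Subtype.ext (jqModC_eq_intSeries K)
  rw [e, rho_intSeries, coeffMap_jqModC]

theorem coe_evO_jO (P : A0[X]) :
    ((evO (jO red) P : Oint red) : LaurentSeries K) = aeval (jqModC K) (P.map A0.subtype) :=
  coe_evO _ _

theorem algebraMap_mem_KO (h : IsGaussDatum A0 red π) (c : K) :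
    algebraMap K (LaurentSeries K) c ∈ KO red π h := by
  rw [Fermat.Agent.IgusaLib.Qep.algebraMap_eq_C]
  exact C_mem_KO h c

/-- The function field of full level `N` lies in `Oint[1 / π]`. -/
theorem full_le_KO (h : IsGaussDatum A0 red π) (N : ℕ) {x : LaurentSeries K}
    (hx : x ∈ modularFunctionFieldFullC K N) : x ∈ KO red π h := by
  have hle : modularFunctionFieldFullC K N ≤
      (KO red π h).toIntermediateField (algebraMap_mem_KO h) := by
    rw [modularFunctionFieldFullC, IntermediateField.adjoin_le_iff]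
    rintro y ⟨d, hd, -, rfl⟩
    have := hd
    rw [qExpand_jq_eq_intSeries]
    exact Oint_le_KO h (intSeries_mem_Oint _)
  exact hle hx

/-! ### Scaling by powers of `π` -/

/-- A finite set of elements of `K`, not all zero, can be scaled by a power of `π` into `A0` with
one of the scaled elements a unit. -/
theorem exists_zpow_mul_mem (h : IsGaussDatum A0 red π) (T : Finset K) (hT : ∃ c ∈ T, c ≠ 0) :
    ∃ n : ℤ, (∀ c ∈ T, π ^ n * c ∈ A0) ∧
      ∃ c ∈ T, ∃ hc : π ^ n * c ∈ A0, red ⟨π ^ n * c, hc⟩ ≠ 0 := by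
  classical
  choose! v u hu using fun (c : K) (hc : c ≠ 0) => h.exists_zpow_mul c hc
  obtain ⟨c₁, hc₁, hc₁0⟩ := hT
  have hne : (T.filter (· ≠ 0)).Nonempty := ⟨c₁, Finset.mem_filter.mpr ⟨hc₁, hc₁0⟩⟩
  obtain ⟨c₀, hc₀, hmin⟩ := Finset.exists_min_image _ v hne
  rw [Finset.mem_filter] at hc₀
  have key : ∀ c ∈ T, π ^ (-v c₀) * c ∈ A0 := by
    intro c hc
    by_cases hc0 : c = 0
    · rw [hc0, mul_zero]; exact zero_mem _
    · have hle := hmin c (Finset.mem_filter.mpr ⟨hc, hc0⟩)
      obtain ⟨d, hd⟩ : ∃ d : ℕ, v c = v c₀ + d := ⟨(v c - v c₀).toNat, by omega⟩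
      have hcu := (hu c hc0).2
      have e : π ^ (-v c₀) * c = π ^ d * (u c : K) := by
        have e2 : π ^ (-v c₀) * (π ^ v c * (u c : K)) = π ^ d * (u c : K) := by
          rw [hd, ← mul_assoc, ← zpow_add₀ h.pi_ne_zero, neg_add_cancel_left, zpow_natCast]
        rw [← hcu] at e2
        exact e2
      rw [e]
      exact mul_mem (pow_mem h.pi_mem d) (u c).2
  refine ⟨-v c₀, key, c₀, hc₀.1, key c₀ hc₀.1, ?_⟩
  have e : (⟨π ^ (-v c₀) * c₀, key c₀ hc₀.1⟩ : A0) = u c₀ := by
    apply Subtype.ext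
    show π ^ (-v c₀) * c₀ = (u c₀ : K)
    have hcu := (hu c₀ hc₀.2).2
    have e2 : π ^ (-v c₀) * (π ^ v c₀ * (u c₀ : K)) = (u c₀ : K) := by
      rw [← mul_assoc, ← zpow_add₀ h.pi_ne_zero, neg_add_cancel, zpow_zero, one_mul]
    rw [← hcu] at e2
    exact e2
  rw [e]
  exact (hu c₀ hc₀.2).1

/-- A nonzero finite family of polynomials over `K` can be scaled by a power of `π` to a family
of polynomials over `A0` one of which is nonzero modulo `π`. -/
theorem exists_scale_poly (h : IsGaussDatum A0 red π) {ι : Type*} [Fintype ι] (P : ι → K[X])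
    (hP : P ≠ 0) :
    ∃ (n : ℤ) (P' : ι → A0[X]),
      (∀ i, (P' i).map A0.subtype = C (π ^ n) * P i) ∧ ∃ i, (P' i).map red ≠ 0 := by
  classical
  set T : Finset K := Finset.univ.biUnion (fun i => (P i).coeffs) with hTdef
  have hT : ∃ c ∈ T, c ≠ 0 := by
    obtain ⟨i, hi⟩ : ∃ i, P i ≠ 0 := by
      by_contra hcon
      exact hP (funext fun i => by_contra fun hi => hcon ⟨i, hi⟩)
    obtain ⟨j, hj⟩ : ∃ j, (P i).coeff j ≠ 0 := by
      by_contra hcon
      exact hi (Polynomial.ext fun j => by
        rw [coeff_zero]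
        exact by_contra fun hj => hcon ⟨j, hj⟩)
    exact ⟨(P i).coeff j, Finset.mem_biUnion.mpr ⟨i, Finset.mem_univ _, coeff_mem_coeffs hj⟩, hj⟩
  obtain ⟨n, hn, c, hcT, hc, hcred⟩ := exists_zpow_mul_mem h T hT
  have hmem : ∀ i j, π ^ n * (P i).coeff j ∈ A0 := by
    intro i j
    by_cases h0 : (P i).coeff j = 0
    · rw [h0, mul_zero]; exact zero_mem _
    · exact hn _ (Finset.mem_biUnion.mpr ⟨i, Finset.mem_univ _, coeff_mem_coeffs h0⟩)
  have hsub : ∀ i, (↑(C (π ^ n) * P i).coeffs : Set K) ⊆ A0 := by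
    intro i x hx
    obtain ⟨j, -, rfl⟩ := mem_coeffs_iff.mp (Finset.mem_coe.mp hx)
    rw [coeff_C_mul]
    exact hmem i j
  refine ⟨n, fun i => (C (π ^ n) * P i).toSubring A0 (hsub i), fun i => map_toSubring _ _ _, ?_⟩
  obtain ⟨i, -, hci⟩ := Finset.mem_biUnion.mp hcT
  obtain ⟨j, -, rfl⟩ := mem_coeffs_iff.mp hci
  refine ⟨i, fun h0 => hcred ?_⟩
  have h1 : (((C (π ^ n) * P i).toSubring A0 (hsub i)).map red).coeff j = 0 := by
    rw [h0, coeff_zero]
  rw [coeff_map] at h1
  have e : ((C (π ^ n) * P i).toSubring A0 (hsub i)).coeff j = ⟨π ^ n * (P i).coeff j, hc⟩ :=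
    Subtype.ext (by rw [coeff_toSubring, coeff_C_mul])
  rw [e] at h1
  exact h1

/-! ### Combinations of a family of integral series -/

section Family

variable {n : ℕ}

/-- the `m i` as elements of `Oint` -/
def mO (red : A0 →+* k) (m : Fin n → LaurentSeries ℤ) (i : Fin n) : Oint red :=
  ⟨coeffMap (Int.castRingHom K) (m i), intSeries_mem_Oint (m i)⟩

theorem rho_mO (m : Fin n → LaurentSeries ℤ) (i : Fin n) :
    rho red (mO red m i) = coeffMap (Int.castRingHom k) (m i) :=
  rho_intSeries _ _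

/-- the combination `∑ P_i(j) m_i` as an element of `Oint` -/
def comb (red : A0 →+* k) (m : Fin n → LaurentSeries ℤ) (P' : Fin n → A0[X]) : Oint red :=
  ∑ i, evO (jO red) (P' i) * mO red m i

theorem rho_comb (m : Fin n → LaurentSeries ℤ) (P' : Fin n → A0[X]) :
    rho red (comb red m P') = ∑ i, aeval (jqModC k) ((P' i).map red)
      * coeffMap (Int.castRingHom k) (m i) := by
  simp only [comb, map_sum, map_mul, rho_evO, rho_jO, rho_mO]

theorem coe_comb (m : Fin n → LaurentSeries ℤ) (P' : Fin n → A0[X]) :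
    ((comb red m P' : Oint red) : LaurentSeries K)
      = ∑ i, aeval (jqModC K) ((P' i).map A0.subtype)
          * coeffMap (Int.castRingHom K) (m i) := by
  rw [comb, AddSubmonoidClass.coe_finsetSum]
  refine Finset.sum_congr rfl fun i _ => ?_
  rw [Subring.coe_mul, coe_evO]
  rfl

variable {m : Fin n → LaurentSeries ℤ}

theorem rho_comb_ne_zero
    (hind : ∀ P : Fin n → k[X],
      ∑ i, aeval (jqModC k) (P i) * coeffMap (Int.castRingHom k) (m i) = 0 → P = 0)
    (P' : Fin n → A0[X]) (hP' : ∃ i, (P' i).map red ≠ 0) :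
    rho red (comb red m P') ≠ 0 := by
  intro h0
  rw [rho_comb] at h0
  have h1 := hind (fun i => (P' i).map red) h0
  obtain ⟨i, hi⟩ := hP'
  exact hi (congrFun h1 i)

/-- Independence modulo `π` over `k[J]` gives independence over `K[j]`. -/
theorem ind_K (h : IsGaussDatum A0 red π)
    (hind : ∀ P : Fin n → k[X],
      ∑ i, aeval (jqModC k) (P i) * coeffMap (Int.castRingHom k) (m i) = 0 → P = 0)
    (P : Fin n → K[X])
    (hP : ∑ i, aeval (jqModC K) (P i) * coeffMap (Int.castRingHom K) (m i) = 0) : P = 0 := by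
  by_contra hP0
  obtain ⟨e, P', hP', hi⟩ := exists_scale_poly h P hP0
  have h1 : ((comb red m P' : Oint red) : LaurentSeries K) = 0 := by
    rw [coe_comb]
    simp only [hP', map_mul, aeval_C, mul_assoc]
    rw [← Finset.mul_sum, hP, mul_zero]
  have h2 : comb red m P' = 0 := Subtype.ext h1
  exact rho_comb_ne_zero hind P' hi (by rw [h2, map_zero])

/-- **Gauss normalisation of a relation**: an element `y` of the Gauss ring which is a
combination of the `m i` with coefficients in `K(j)` is such a combination with coefficients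
`P'_i(j) / Q'(j)`, `P'_i, Q' ∈ A0[X]`, `Q' ≠ 0` modulo `π`. -/
theorem exists_coeffs (h : IsGaussDatum A0 red π)
    (hind : ∀ P : Fin n → k[X],
      ∑ i, aeval (jqModC k) (P i) * coeffMap (Int.castRingHom k) (m i) = 0 → P = 0)
    {y : LaurentSeries K} (hyO : y ∈ Oint red)
    (hspan : ∃ (Q : K[X]) (P : Fin n → K[X]), Q ≠ 0 ∧
      aeval (jqModC K) Q * y = ∑ i, aeval (jqModC K) (P i) * coeffMap (Int.castRingHom K) (m i)) :
    ∃ (Q' : A0[X]) (P' : Fin n → A0[X]), Q'.map red ≠ 0 ∧
      (evO (jO red) Q' : Oint red) * ⟨y, hyO⟩ = comb red m P' := by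
  obtain ⟨Q, P, hQ, hrel⟩ := hspan
  obtain ⟨e, PP', hPP', o, ho⟩ := exists_scale_poly h
    (fun o : Option (Fin n) => o.elim Q P) (fun h0 => hQ (congrFun h0 none))
  set Q' : A0[X] := PP' none with hQ'def
  set P' : Fin n → A0[X] := fun i => PP' (some i) with hP'def
  have hQ' : Q'.map A0.subtype = C (π ^ e) * Q := hPP' none
  have hP'' : ∀ i, (P' i).map A0.subtype = C (π ^ e) * P i := fun i => hPP' (some i)
  set bO : Oint red := evO (jO red) Q' with hbO
  have hb : ((bO : Oint red) : LaurentSeries K)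
      = algebraMap K (LaurentSeries K) (π ^ e) * aeval (jqModC K) Q := by
    rw [hbO, coe_evO, hQ', map_mul, aeval_C]
    rfl
  have ha : ((comb red m P' : Oint red) : LaurentSeries K)
      = algebraMap K (LaurentSeries K) (π ^ e) * (aeval (jqModC K) Q * y) := by
    rw [coe_comb, hrel]
    simp only [hP'', map_mul, aeval_C, mul_assoc]
    rw [Finset.mul_sum]
  have hmul : bO * (⟨y, hyO⟩ : Oint red) = comb red m P' :=
    Subtype.ext (by rw [Subring.coe_mul, hb, ha, mul_assoc])
  refine ⟨Q', P', ?_, hmul⟩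
  intro h0
  have hrho : rho red bO * rho red (⟨y, hyO⟩ : Oint red) = rho red (comb red m P') := by
    rw [← map_mul, hmul]
  have hb0 : rho red bO = 0 := by rw [hbO, rho_evO, h0, map_zero]
  rw [hb0, zero_mul] at hrho
  have h1 : ∀ i, (P' i).map red = 0 := by
    intro i
    by_contra hne
    exact rho_comb_ne_zero hind P' ⟨i, hne⟩ hrho.symm
  cases o with
  | none => exact ho h0
  | some i => exact ho (h1 i)

end Family

/-! ### The Gauss valuation ring of `K(j)` -/

/-- The Gauss valuation ring of `K(j)`: `K(j) ∩ Oint`. -/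
def Oj (red : A0 →+* k) : Subring (LaurentSeries K) :=
  (IntermediateField.adjoin K {jqModC K}).toSubring ⊓ Oint red

theorem mem_Oj_iff' {x : LaurentSeries K} :
    x ∈ Oj red ↔ x ∈ IntermediateField.adjoin K {jqModC K} ∧ x ∈ Oint red := Iff.rfl

theorem Oj_le_Oint : Oj red ≤ Oint red := inf_le_right

theorem aeval_jq_mem_adjoin (G : K[X]) :
    aeval (jqModC K) G ∈ IntermediateField.adjoin K {jqModC K} :=
  IntermediateField.algebra_adjoin_le_adjoin K _ (aeval_mem_adjoin_singleton K (jqModC K))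

theorem rho_evO_jO_ne_zero {Q' : A0[X]} (hQ' : Q'.map red ≠ 0) :
    rho red (evO (jO red) Q') ≠ 0 := by
  rw [rho_evO, rho_jO]
  exact Fermat.Agent.IgusaLib.Qep.aeval_jqModC_ne_zero _ hQ'

/-- `P(j) / Q(j)` with `P, Q ∈ A0[X]`, `Q ≠ 0` modulo `π`, lies in the Gauss ring of `K(j)`. -/
theorem mem_Oj_of_eq {x : LaurentSeries K} {P' Q' : A0[X]} (hQ' : Q'.map red ≠ 0)
    (hx : aeval (jqModC K) (Q'.map A0.subtype) * x = aeval (jqModC K) (P'.map A0.subtype)) :
    x ∈ Oj red := by
  have hb0 : aeval (jqModC K) (Q'.map A0.subtype) ≠ 0 := by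
    intro h0
    have h1 : (evO (jO red) Q' : Oint red) = 0 := Subtype.ext (by rw [coe_evO]; exact h0)
    exact rho_evO_jO_ne_zero hQ' (by rw [h1, map_zero])
  have hxe : x = aeval (jqModC K) (P'.map A0.subtype) / aeval (jqModC K) (Q'.map A0.subtype) := by
    rw [eq_div_iff hb0, mul_comm]; exact hx
  refine ⟨?_, ?_⟩
  · show x ∈ IntermediateField.adjoin K {jqModC K}
    rw [hxe]
    exact div_mem (aeval_jq_mem_adjoin _) (aeval_jq_mem_adjoin _)
  · refine mem_Oint_of_mul (evO (jO red) P').2 (evO (jO red) Q').2 (rho_evO_jO_ne_zero hQ') ?_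
    rw [coe_evO, coe_evO, mul_comm]
    exact hx

/-- Elements of the Gauss ring of `K(j)` are `P(j) / Q(j)`, `P, Q ∈ A0[X]`, `Q ≠ 0` mod `π`. -/
theorem exists_of_mem_Oj (h : IsGaussDatum A0 red π) {x : LaurentSeries K} (hx : x ∈ Oj red) :
    ∃ P' Q' : A0[X], Q'.map red ≠ 0 ∧
      aeval (jqModC K) (Q'.map A0.subtype) * x = aeval (jqModC K) (P'.map A0.subtype) := by
  obtain ⟨hxK, hxO⟩ := hx
  obtain ⟨r, s, hrs⟩ := (IntermediateField.mem_adjoin_simple_iff K x).mp hxK
  by_cases hs : aeval (jqModC K) s = 0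
  · refine ⟨0, 1, ?_, ?_⟩
    · rw [Polynomial.map_one]; exact one_ne_zero
    · rw [hrs, hs, div_zero, mul_zero, Polynomial.map_zero, map_zero]
  · have hs0 : s ≠ 0 := by
      rintro rfl
      exact hs (map_zero _)
    -- the unit family
    have hind : ∀ P : Fin 1 → k[X],
        ∑ i, aeval (jqModC k) (P i) * coeffMap (Int.castRingHom k) ((fun _ => 1 : Fin 1 →
          LaurentSeries ℤ) i) = 0 → P = 0 := by
      intro P hP
      rw [Fin.sum_univ_one, map_one, mul_one] at hP
      funext i
      rw [Subsingleton.elim i 0]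
      by_contra hne
      exact Fermat.Agent.IgusaLib.Qep.aeval_jqModC_ne_zero k hne hP
    obtain ⟨Q', P', hQ', hmul⟩ := exists_coeffs (m := fun _ : Fin 1 => (1 : LaurentSeries ℤ)) h
      hind hxO ⟨s, fun _ => r, hs0, by
        rw [Fin.sum_univ_one, map_one, mul_one, hrs, mul_div_cancel₀ _ hs]⟩
    refine ⟨P' 0, Q', hQ', ?_⟩
    have h2 := congrArg (Subtype.val : Oint red → LaurentSeries K) hmul
    rw [Subring.coe_mul, coe_evO, coe_comb, Fin.sum_univ_one, map_one, mul_one] at h2
    exact h2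

theorem mem_Oj_iff (h : IsGaussDatum A0 red π) {x : LaurentSeries K} :
    x ∈ Oj red ↔ ∃ P' Q' : A0[X], Q'.map red ≠ 0 ∧
      aeval (jqModC K) (Q'.map A0.subtype) * x = aeval (jqModC K) (P'.map A0.subtype) :=
  ⟨exists_of_mem_Oj h, fun ⟨_, _, hQ', hx⟩ => mem_Oj_of_eq hQ' hx⟩

/-- The reduction of an element of the Gauss ring of `K(j)` lies in `k(J)`. -/
theorem rho_mem_adjoin_of_mem_Oj (h : IsGaussDatum A0 red π) (x : Oint red)
    (hx : (x : LaurentSeries K) ∈ Oj red) :
    rho red x ∈ IntermediateField.adjoin k {jqModC k} := by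
  obtain ⟨P', Q', hQ', hrel⟩ := exists_of_mem_Oj h hx
  have hmul : (evO (jO red) Q' : Oint red) * x = evO (jO red) P' :=
    Subtype.ext (by rw [Subring.coe_mul, coe_evO, coe_evO]; exact hrel)
  have h2 := congrArg (rho red) hmul
  rw [map_mul, rho_evO, rho_evO, rho_jO] at h2
  have hne : aeval (jqModC k) (Q'.map red) ≠ 0 :=
    Fermat.Agent.IgusaLib.Qep.aeval_jqModC_ne_zero _ hQ'
  have e : rho red x = aeval (jqModC k) (P'.map red) / aeval (jqModC k) (Q'.map red) := by
    rw [eq_div_iff hne, mul_comm]; exact h2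
  rw [e]
  exact div_mem
    (IntermediateField.algebra_adjoin_le_adjoin k _ (aeval_mem_adjoin_singleton k (jqModC k)))
    (IntermediateField.algebra_adjoin_le_adjoin k _ (aeval_mem_adjoin_singleton k (jqModC k)))

/-- Every element of `k(J)` is the reduction of an element of the Gauss ring of `K(j)`. -/
theorem exists_rho_eq_of_mem_adjoin (h : IsGaussDatum A0 red π) {z : LaurentSeries k}
    (hz : z ∈ IntermediateField.adjoin k {jqModC k}) :
    ∃ x : Oint red, (x : LaurentSeries K) ∈ Oj red ∧ rho red x = z := by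
  obtain ⟨r, s, hrs⟩ := (IntermediateField.mem_adjoin_simple_iff k z).mp hz
  by_cases hs : aeval (jqModC k) s = 0
  · exact ⟨0, (Oj red).zero_mem, by rw [map_zero, hrs, hs, div_zero]⟩
  · obtain ⟨r', hr'⟩ := Polynomial.map_surjective red h.red_surjective r
    obtain ⟨s', hs'⟩ := Polynomial.map_surjective red h.red_surjective s
    have hs'0 : s'.map red ≠ 0 := by
      rw [hs']
      rintro rfl
      exact hs (map_zero _)
    have hne := rho_evO_jO_ne_zero (red := red) hs'0
    have hb0 : ((evO (jO red) s' : Oint red) : LaurentSeries K) ≠ 0 := by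
      intro h0
      have h1 : (evO (jO red) s' : Oint red) = 0 := Subtype.ext h0
      exact hne (by rw [h1, map_zero])
    have hinv := inv_mem_Oint (evO (jO red) s') hne
    set x : Oint red := evO (jO red) r' * ⟨_, hinv⟩ with hxdef
    refine ⟨x, ?_, ?_⟩
    · refine mem_Oj_of_eq hs'0 (P' := r') ?_
      rw [hxdef, Subring.coe_mul, ← coe_evO_jO (red := red), ← coe_evO_jO (red := red)]
      show ((evO (jO red) s' : Oint red) : LaurentSeries K) *
        (((evO (jO red) r' : Oint red) : LaurentSeries K) *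
          ((evO (jO red) s' : Oint red) : LaurentSeries K)⁻¹) = _
      rw [mul_comm, mul_assoc, inv_mul_cancel₀ hb0, mul_one]
    · rw [hxdef, map_mul, rho_inv (evO (jO red) s') hne hinv, rho_evO, rho_evO, rho_jO, hr', hs',
        hrs, div_eq_mul_inv]

/-! ### The Gauss lattice of the function field -/

/-- The Gauss lattice of the function field: `F_K ∩ Oint`. -/
def LamF (red : A0 →+* k) (N : ℕ) : Subring (LaurentSeries K) :=
  (modularFunctionFieldFullC K N).toSubring ⊓ Oint red

theorem mem_LamF_iff {N : ℕ} {x : LaurentSeries K} :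
    x ∈ LamF red N ↔ x ∈ modularFunctionFieldFullC K N ∧ x ∈ Oint red := Iff.rfl

theorem LamF_le_Oint (N : ℕ) : LamF red N ≤ Oint red := inf_le_right

theorem Oj_le_LamF (N : ℕ) : Oj red ≤ LamF red N := by
  intro x hx
  refine ⟨?_, hx.2⟩
  have hle : IntermediateField.adjoin K {jqModC K} ≤ modularFunctionFieldFullC K N := by
    rw [IntermediateField.adjoin_simple_le_iff]
    exact jqModC_mem_full K N
  exact hle hx.1

theorem C_mem_full (N : ℕ) (c : K) :
    (HahnSeries.C c : LaurentSeries K) ∈ modularFunctionFieldFullC K N := by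
  rw [← Fermat.Agent.IgusaLib.Qep.algebraMap_eq_C]
  exact (modularFunctionFieldFullC K N).algebraMap_mem c

/-- The kernel of the reduction on the Gauss lattice is generated by `π`. -/
theorem ker_rho_LamF (h : IsGaussDatum A0 red π) (N : ℕ) (x : Oint red)
    (hx : (x : LaurentSeries K) ∈ modularFunctionFieldFullC K N) (h0 : rho red x = 0) :
    (HahnSeries.C π : LaurentSeries K)⁻¹ * (x : LaurentSeries K) ∈ LamF red N :=
  ⟨(show _ ∈ modularFunctionFieldFullC K N from mul_mem (inv_mem (C_mem_full N π)) hx),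
    rho_eq_zero h x h0⟩

/-- **Gauss normalisation**: a nonzero element of the function field is a power of `π` times a
unit of the Gauss lattice. -/
theorem exists_zpow_mul_unit (h : IsGaussDatum A0 red π) (N : ℕ) {f : LaurentSeries K}
    (hf : f ∈ modularFunctionFieldFullC K N) (hf0 : f ≠ 0) :
    ∃ (e : ℤ) (u : Oint red), (u : LaurentSeries K) ∈ modularFunctionFieldFullC K N ∧
      rho red u ≠ 0 ∧ (u : LaurentSeries K)⁻¹ ∈ LamF red N ∧
      f = (HahnSeries.C π : LaurentSeries K) ^ e * (u : LaurentSeries K) := by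
  obtain ⟨e, u, hu, hfu⟩ := exists_eq_zpow_mul_of_mem_KO h (full_le_KO h N hf) hf0
  have hc0 : (HahnSeries.C π : LaurentSeries K) ≠ 0 := C_ne_zero h.pi_ne_zero
  have huF : (u : LaurentSeries K) ∈ modularFunctionFieldFullC K N := by
    have e1 : (u : LaurentSeries K) = ((HahnSeries.C π : LaurentSeries K) ^ e)⁻¹ * f := by
      rw [hfu, inv_mul_cancel_left₀ (zpow_ne_zero e hc0)]
    rw [e1]
    exact mul_mem (inv_mem (zpow_mem (C_mem_full N π) e)) hf
  exact ⟨e, u, huF, hu,
    ⟨(show _ ∈ modularFunctionFieldFullC K N from inv_mem huF), inv_mem_Oint u hu⟩, hfu⟩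

/-- The reductions of the elements of the Gauss lattice form a subfield containing the function
field in characteristic `ℓ`: **the reduction map is onto `F_k`**. -/
theorem exists_rho_eq (h : IsGaussDatum A0 red π) (N : ℕ) {z : LaurentSeries k}
    (hz : z ∈ modularFunctionFieldFullC k N) :
    ∃ y : Oint red, (y : LaurentSeries K) ∈ modularFunctionFieldFullC K N ∧ rho red y = z := by
  -- the subfield of reductions
  let W : Subfield (LaurentSeries k) :=
    { carrier := {z | ∃ y : Oint red, (y : LaurentSeries K) ∈ modularFunctionFieldFullC K N ∧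
        rho red y = z}
      mul_mem' := by
        rintro _ _ ⟨y, hy, rfl⟩ ⟨y', hy', rfl⟩
        exact ⟨y * y', mul_mem hy hy', map_mul _ _ _⟩
      one_mem' := ⟨1, one_mem _, map_one _⟩
      add_mem' := by
        rintro _ _ ⟨y, hy, rfl⟩ ⟨y', hy', rfl⟩
        exact ⟨y + y', add_mem hy hy', map_add _ _ _⟩
      zero_mem' := ⟨0, zero_mem _, map_zero _⟩
      neg_mem' := by
        rintro _ ⟨y, hy, rfl⟩
        exact ⟨-y, neg_mem hy, map_neg _ _⟩
      inv_mem' := by
        rintro _ ⟨y, hy, rfl⟩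
        by_cases h0 : rho red y = 0
        · exact ⟨0, zero_mem _, by rw [h0, inv_zero, map_zero]⟩
        · exact ⟨⟨_, inv_mem_Oint y h0⟩, inv_mem hy, rho_inv y h0 _⟩ }
  have hconst : ∀ c : k, algebraMap k (LaurentSeries k) c ∈ W := by
    intro c
    obtain ⟨a, rfl⟩ := h.red_surjective c
    refine ⟨⟨HahnSeries.C (a : K), C_mem_Oint a⟩, C_mem_full N _, ?_⟩
    rw [rho_C, Fermat.Agent.IgusaLib.Qep.algebraMap_eq_C]
  have hle : modularFunctionFieldFullC k N ≤ W.toIntermediateField hconst := by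
    rw [modularFunctionFieldFullC, IntermediateField.adjoin_le_iff]
    rintro y ⟨d, hd, hdN, rfl⟩
    have := hd
    refine ⟨⟨coeffMap (Int.castRingHom K) (qExpand ℤ d (jqModC ℤ)), intSeries_mem_Oint _⟩, ?_, ?_⟩
    · show coeffMap (Int.castRingHom K) (qExpand ℤ d (jqModC ℤ)) ∈ modularFunctionFieldFullC K N
      rw [← qExpand_jq_eq_intSeries]
      exact jqModCd_mem_full K N hdN
    · rw [rho_intSeries, ← qExpand_jq_eq_intSeries]
  exact hle hz

/-! ### Families: bases of the Gauss lattice -/

/-- A family of integral monomials in the `j(q^d)`, `d ∣ N`, which spans `F_K` over `K(j)` and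
whose reductions are independent over `k[J]`. -/
structure IsFamily (N : ℕ) (K : Type*) [Field K] (k : Type*) [Field k] {n : ℕ}
    (m : Fin n → LaurentSeries ℤ) : Prop where
  mem : ∀ i, m i ∈ Submonoid.closure (Fermat.Agent.IgusaLib.Descent.divExpZ N)
  ind : ∀ P : Fin n → k[X],
    ∑ i, aeval (jqModC k) (P i) * coeffMap (Int.castRingHom k) (m i) = 0 → P = 0
  span : ∀ x ∈ modularFunctionFieldFullC K N, ∃ (Q : K[X]) (P : Fin n → K[X]), Q ≠ 0 ∧
    aeval (jqModC K) Q * x = ∑ i, aeval (jqModC K) (P i) * coeffMap (Int.castRingHom K) (m i)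

section FamilyLattice

variable {N : ℕ} {n : ℕ} {m : Fin n → LaurentSeries ℤ}

theorem IsFamily.bK_mem_full (hF : IsFamily N K k m) (i : Fin n) :
    coeffMap (Int.castRingHom K) (m i) ∈ modularFunctionFieldFullC K N :=
  Fermat.Agent.IgusaLib.Descent.closure_le_fullC K N
    (Fermat.Agent.IgusaLib.Descent.coeffMap_mem_closure K N (hF.mem i))

theorem IsFamily.bk_mem_full (hF : IsFamily N K k m) (i : Fin n) :
    coeffMap (Int.castRingHom k) (m i) ∈ modularFunctionFieldFullC k N :=
  Fermat.Agent.IgusaLib.Descent.closure_le_fullC k N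
    (Fermat.Agent.IgusaLib.Descent.coeffMap_mem_closure k N (hF.mem i))

theorem IsFamily.bK_mem_LamF (hF : IsFamily N K k m) (i : Fin n) :
    coeffMap (Int.castRingHom K) (m i) ∈ LamF red N :=
  ⟨hF.bK_mem_full i, intSeries_mem_Oint _⟩

/-- The family is independent over `K[j]`. -/
theorem IsFamily.ind_K (hF : IsFamily N K k m) (h : IsGaussDatum A0 red π) (P : Fin n → K[X])
    (hP : ∑ i, aeval (jqModC K) (P i) * coeffMap (Int.castRingHom K) (m i) = 0) : P = 0 :=
  Fermat.Agent.RedLib.GaussFF.ind_K h hF.ind P hP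

/-- **The Gauss lattice is spanned by the family over the Gauss ring of `K(j)`**, polynomial
form. -/
theorem IsFamily.exists_coeffs_LamF (hF : IsFamily N K k m) (h : IsGaussDatum A0 red π)
    {y : LaurentSeries K} (hy : y ∈ LamF red N) :
    ∃ (Q' : A0[X]) (P' : Fin n → A0[X]), Q'.map red ≠ 0 ∧
      (evO (jO red) Q' : Oint red) * ⟨y, hy.2⟩ = comb red m P' :=
  exists_coeffs h hF.ind hy.2 (hF.span y hy.1)

/-- **The Gauss lattice is spanned by the family over the Gauss ring of `K(j)`.** -/
theorem IsFamily.exists_Oj_coeffs (hF : IsFamily N K k m) (h : IsGaussDatum A0 red π)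
    {y : LaurentSeries K} (hy : y ∈ LamF red N) :
    ∃ c : Fin n → LaurentSeries K, (∀ i, c i ∈ Oj red) ∧
      y = ∑ i, c i * coeffMap (Int.castRingHom K) (m i) := by
  obtain ⟨Q', P', hQ', hmul⟩ := hF.exists_coeffs_LamF h hy
  have hbne := rho_evO_jO_ne_zero (red := red) hQ'
  have hb0 : ((evO (jO red) Q' : Oint red) : LaurentSeries K) ≠ 0 := fun h0 =>
    hbne (by rw [show (evO (jO red) Q' : Oint red) = 0 from Subtype.ext h0, map_zero])
  refine ⟨fun i => ((evO (jO red) Q' : Oint red) : LaurentSeries K)⁻¹ *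
    ((evO (jO red) (P' i) : Oint red) : LaurentSeries K), fun i => ?_, ?_⟩
  · refine mem_Oj_of_eq hQ' (P' := P' i) ?_
    show aeval (jqModC K) (Q'.map A0.subtype) *
      (((evO (jO red) Q' : Oint red) : LaurentSeries K)⁻¹ *
        ((evO (jO red) (P' i) : Oint red) : LaurentSeries K)) = _
    rw [← coe_evO_jO (red := red), ← coe_evO_jO (red := red), ← mul_assoc, mul_inv_cancel₀ hb0, one_mul]
  · have h2 := congrArg (Subtype.val : Oint red → LaurentSeries K) hmul
    rw [Subring.coe_mul, comb, AddSubmonoidClass.coe_finsetSum] at h2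
    simp only [mul_assoc]
    rw [← Finset.mul_sum]
    have h3 : ∑ i, ((evO (jO red) (P' i) : Oint red) : LaurentSeries K) *
        coeffMap (Int.castRingHom K) (m i) =
        ((evO (jO red) Q' : Oint red) : LaurentSeries K) * y := by
      rw [h2]
      rfl
    rw [h3, ← mul_assoc, inv_mul_cancel₀ hb0, one_mul]

/-- A combination of the family with coefficients in the Gauss ring of `K(j)` lies in the Gauss
lattice. -/
theorem IsFamily.sum_mem_LamF (hF : IsFamily N K k m) (c : Fin n → LaurentSeries K)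
    (hc : ∀ i, c i ∈ Oj red) :
    ∑ i, c i * coeffMap (Int.castRingHom K) (m i) ∈ LamF red N :=
  sum_mem fun i _ => mul_mem (Oj_le_LamF N (hc i)) (hF.bK_mem_LamF i)

/-- The reduction of an element of the Gauss lattice lies in the function field `F_k`, and is the
corresponding combination of the reduced family. -/
theorem IsFamily.rho_rel (hF : IsFamily N K k m) (h : IsGaussDatum A0 red π)
    (y : Oint red) (hy : (y : LaurentSeries K) ∈ modularFunctionFieldFullC K N) :
    ∃ (Q : k[X]) (P : Fin n → k[X]), Q ≠ 0 ∧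
      aeval (jqModC k) Q * rho red y =
        ∑ i, aeval (jqModC k) (P i) * coeffMap (Int.castRingHom k) (m i) := by
  obtain ⟨Q', P', hQ', hmul⟩ := hF.exists_coeffs_LamF h (y := (y : LaurentSeries K)) ⟨hy, y.2⟩
  refine ⟨Q'.map red, fun i => (P' i).map red, hQ', ?_⟩
  have h2 := congrArg (rho red) hmul
  rw [map_mul, rho_evO, rho_jO, rho_comb] at h2
  exact h2

/-- **The reduced family spans `F_k` over `k(J)`.** -/
theorem IsFamily.span_k (hF : IsFamily N K k m) (h : IsGaussDatum A0 red π)
    {z : LaurentSeries k} (hz : z ∈ modularFunctionFieldFullC k N) :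
    ∃ (Q : k[X]) (P : Fin n → k[X]), Q ≠ 0 ∧
      aeval (jqModC k) Q * z =
        ∑ i, aeval (jqModC k) (P i) * coeffMap (Int.castRingHom k) (m i) := by
  obtain ⟨y, hy, rfl⟩ := exists_rho_eq h N hz
  exact hF.rho_rel h y hy

/-- The reduction of an element of the Gauss lattice lies in `F_k`. -/
theorem IsFamily.rho_mem_fullC (hF : IsFamily N K k m) (h : IsGaussDatum A0 red π)
    (y : Oint red) (hy : (y : LaurentSeries K) ∈ modularFunctionFieldFullC K N) :
    rho red y ∈ modularFunctionFieldFullC k N := by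
  obtain ⟨Q, P, hQ, hrel⟩ := hF.rho_rel h y hy
  have hne : aeval (jqModC k) Q ≠ 0 := Fermat.Agent.IgusaLib.Qep.aeval_jqModC_ne_zero _ hQ
  have hJ : ∀ G : k[X], aeval (jqModC k) G ∈ modularFunctionFieldFullC k N := fun G =>
    (IntermediateField.algebra_adjoin_le_adjoin k _ (aeval_mem_adjoin_singleton k (jqModC k))
      : aeval (jqModC k) G ∈ IntermediateField.adjoin k {jqModC k}) |>
      (IntermediateField.adjoin_simple_le_iff.mpr (jqModC_mem_full k N) ·)
  have e : rho red y = (∑ i, aeval (jqModC k) (P i) * coeffMap (Int.castRingHom k) (m i)) /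
      aeval (jqModC k) Q := by
    rw [eq_div_iff hne, mul_comm]; exact hrel
  rw [e]
  exact div_mem (sum_mem fun i _ => mul_mem (hJ _) (hF.bk_mem_full i)) (hJ _)

/-- **Integral closure**: an element of `F_K` is integral over the Gauss ring of `K(j)` iff it
lies in the Gauss lattice. -/
theorem IsFamily.isIntegral_Oj_iff (hF : IsFamily N K k m) (h : IsGaussDatum A0 red π)
    {x : LaurentSeries K} (hx : x ∈ modularFunctionFieldFullC K N) :
    IsIntegral ↥(Oj red) x ↔ x ∈ LamF red N := by
  constructor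
  · intro hint
    exact ⟨hx, mem_Oint_of_isIntegral_of_le h _ Oj_le_Oint (full_le_KO h N hx) hint⟩
  · intro hxL
    exact Fermat.Agent.IgusaLib.isIntegral_of_span (Oj red)
      (fun i => coeffMap (Int.castRingHom K) (m i)) (LamF red N)
      (fun _ hy => hF.exists_Oj_coeffs h hy) (fun i => hF.bK_mem_LamF i) x hxL

end FamilyLattice

end Fermat.Agent.RedLib.GaussFF
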