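import Mathlib
import Fermat.Agent.RedLib.GaussFF
import Fermat.Agent.IgusaLib.Descent
import Fermat.Agent.IgusaLib.Span
import Fermat.Agent.GenusLib.FormalLD

/-!
# S18 long shot, leaf (A): existence of the Gauss family

For a prime `ℓ ∤ N`, a field `K` of characteristic `0` and a field `k` of characteristic `ℓ` there
are `ψ(N)` integral monomials in the `j(q^d)`, `d ∣ N`, which span `F_K = K(j(q^d) : d ∣ N)` over
`K(j)` and whose reductions are independent over `k[J]`, i.e. an `IsFamily N K k m` in the sense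
of `GaussFF.lean`.
-/

set_option autoImplicit false

noncomputable section

namespace Fermat.Agent.RedLib.GaussFam

open ModularCurve Polynomial IntermediateField Fermat.Agent.RedLib.GaussK
  Fermat.Agent.RedLib.GaussFF

/-- `ψ(N)` integral monomials in the `j(q^d)` whose reductions mod `ℓ` are independent over
`𝔽_ℓ[J]` (the statement `IgusaLib.ind_modl`, keeping the information that they are monomials). -/
theorem exists_monomials_modl (N : ℕ) [NeZero N] (l : ℕ) [Fact l.Prime] (hlN : ¬ l ∣ N) :
    ∃ m : Fin (dedekindPsi N) → LaurentSeries ℤ,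
      (∀ i, m i ∈ Submonoid.closure (Fermat.Agent.IgusaLib.Descent.divExpZ N)) ∧
      ∀ P : Fin (dedekindPsi N) → Polynomial (ZMod l),
        ∑ i, aeval (jqModC (ZMod l)) (P i) * coeffMap (Int.castRingHom (ZMod l)) (m i) = 0 →
          P = 0 := by
  obtain ⟨k, hk, hchar, hdata⟩ := Fermat.Agent.IgusaLib.exists_field_primeData l
  have h : ∀ p : ℕ, p.Prime → p ∣ N → Nonempty (Fermat.Agent.IgusaLib.PrimeData k p) :=
    fun p hp hpN => hdata p hp (by rintro rfl; exact hlN hpN)
  have hdeg := Fermat.Agent.IgusaLib.Tower.psi_le_relfinrank' k N h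
  rw [Fermat.Agent.IgusaLib.Descent.relfinrank_full_eq_finrank_adjoin] at hdeg
  obtain ⟨f, hf, hli⟩ := Fermat.Agent.IgusaLib.Descent.exists_monomials_linearIndependent
    (K := ↥(k⟮jqModC k⟯)) (divisorExpansionsC k N) (dedekindPsi N) hdeg
  choose m hm hmf using fun i =>
    Fermat.Agent.IgusaLib.Descent.exists_lift_of_mem_closure k N (hf i)
  refine ⟨m, hm, fun P hP => ?_⟩
  let φ : ZMod l →+* k := ZMod.castHom (dvd_refl l) k
  have h1 := congrArg (coeffMap φ) hP
  rw [map_sum, map_zero] at h1
  have hmem : ∀ i, aeval (jqModC k) ((P i).map φ) ∈ k⟮jqModC k⟯ := fun i =>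
    IntermediateField.algebra_adjoin_le_adjoin k _ (aeval_mem_adjoin_singleton k (jqModC k))
  have h2 : ∑ i, (⟨aeval (jqModC k) ((P i).map φ), hmem i⟩ : k⟮jqModC k⟯) • f i = 0 := by
    rw [← h1]
    refine Finset.sum_congr rfl fun i _ => ?_
    rw [map_mul, Fermat.Agent.IgusaLib.Descent.coeffMap_aeval, coeffMap_jqModC,
      coeffMap_coeffMap, ← hmf i, IntermediateField.smul_def, smul_eq_mul,
      show φ.comp (Int.castRingHom (ZMod l)) = Int.castRingHom k from RingHom.ext_int _ _]
  have h3 := Fintype.linearIndependent_iff.mp hli _ h2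
  funext i
  have h4 : aeval (jqModC k) ((P i).map φ) = 0 := congrArg Subtype.val (h3 i)
  have h5 := Fermat.Agent.IgusaLib.Descent.aeval_jqModC_eq_zero k h4
  exact Polynomial.map_injective φ φ.injective (by rw [h5]; simp)

/-- Independence mod `ℓ` over `𝔽_ℓ[J]` gives independence over `k[J]` for every field `k` of
characteristic `ℓ`. -/
theorem ind_of_ind_modl {n : ℕ} (l : ℕ) [Fact l.Prime] (k : Type*) [Field k] [CharP k l]
    (m : Fin n → LaurentSeries ℤ)
    (hind : ∀ P : Fin n → Polynomial (ZMod l),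
      ∑ i, aeval (jqModC (ZMod l)) (P i) * coeffMap (Int.castRingHom (ZMod l)) (m i) = 0 →
        P = 0)
    (P : Fin n → k[X])
    (hP : ∑ i, aeval (jqModC k) (P i) * coeffMap (Int.castRingHom k) (m i) = 0) : P = 0 := by
  let φ : ZMod l →+* k := ZMod.castHom (dvd_refl l) k
  have h := Fermat.Agent.GenusLib.FormalLD.linearDisjoint φ (jqModC (ZMod l))
    (fun i => coeffMap (Int.castRingHom (ZMod l)) (m i)) hind P
  apply h
  rw [← hP]
  refine Finset.sum_congr rfl fun i _ => ?_
  rw [coeffMap_jqModC, coeffMap_coeffMap,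
    show φ.comp (Int.castRingHom (ZMod l)) = Int.castRingHom k from RingHom.ext_int _ _]

section Span

variable {K : Type*} [Field K] {n : ℕ} (b : Fin n → LaurentSeries K)

/-- `x` is a combination of the `b i` with coefficients in `K(j)`, denominators cleared. -/
def InSpan (b : Fin n → LaurentSeries K) (x : LaurentSeries K) : Prop :=
  ∃ (Q : K[X]) (P : Fin n → K[X]), Q ≠ 0 ∧
    aeval (jqModC K) Q * x = ∑ i, aeval (jqModC K) (P i) * b i

theorem inSpan_zero : InSpan b 0 :=
  ⟨1, 0, one_ne_zero, by simp⟩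

theorem inSpan_self (i : Fin n) : InSpan b (b i) := by
  classical
  refine ⟨1, fun i' => if i' = i then 1 else 0, one_ne_zero, ?_⟩
  rw [map_one, one_mul, Finset.sum_eq_single i]
  · simp
  · intro i' _ hi'
    simp [hi']
  · intro hi
    exact absurd (Finset.mem_univ i) hi

theorem InSpan.add {x y : LaurentSeries K} (hx : InSpan b x) (hy : InSpan b y) :
    InSpan b (x + y) := by
  obtain ⟨Q1, P1, hQ1, h1⟩ := hx
  obtain ⟨Q2, P2, hQ2, h2⟩ := hy
  refine ⟨Q1 * Q2, fun i => Q2 * P1 i + Q1 * P2 i, mul_ne_zero hQ1 hQ2, ?_⟩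
  have e1 : aeval (jqModC K) (Q1 * Q2) * (x + y)
      = aeval (jqModC K) Q2 * (aeval (jqModC K) Q1 * x)
        + aeval (jqModC K) Q1 * (aeval (jqModC K) Q2 * y) := by
    rw [map_mul]; ring
  rw [e1, h1, h2, Finset.mul_sum, Finset.mul_sum, ← Finset.sum_add_distrib]
  refine Finset.sum_congr rfl fun i _ => ?_
  rw [map_add, map_mul, map_mul]; ring

theorem InSpan.mul_adjoin {x : LaurentSeries K} (hx : InSpan b x) {c : LaurentSeries K}
    (hc : c ∈ K⟮jqModC K⟯) : InSpan b (c * x) := by
  obtain ⟨Q1, P1, hQ1, h1⟩ := hx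
  obtain ⟨r, s, rfl⟩ := (IntermediateField.mem_adjoin_simple_iff K c).mp hc
  by_cases hs : s = 0
  · rw [hs, map_zero, div_zero, zero_mul]
    exact inSpan_zero b
  have hs' : aeval (jqModC K) s ≠ 0 := Fermat.Agent.IgusaLib.Qep.aeval_jqModC_ne_zero K hs
  refine ⟨s * Q1, fun i => r * P1 i, mul_ne_zero hs hQ1, ?_⟩
  have e1 : aeval (jqModC K) (s * Q1) * (aeval (jqModC K) r / aeval (jqModC K) s * x)
      = aeval (jqModC K) r * (aeval (jqModC K) Q1 * x) := by
    rw [map_mul]; field_simp
  rw [e1, h1, Finset.mul_sum]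
  refine Finset.sum_congr rfl fun i _ => ?_
  rw [map_mul]; ring

/-- The `K(j)`-span of the family. -/
def spanW (b : Fin n → LaurentSeries K) : Submodule ↥(K⟮jqModC K⟯) (LaurentSeries K) :=
  Submodule.span ↥(K⟮jqModC K⟯) (Set.range b)

theorem inSpan_of_mem_spanW {x : LaurentSeries K} (hx : x ∈ spanW b) : InSpan b x := by
  induction hx using Submodule.span_induction with
  | mem x hx =>
      obtain ⟨i, rfl⟩ := hx
      exact inSpan_self b i
  | zero => exact inSpan_zero b
  | add x y _ _ hx hy => exact hx.add b hy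
  | smul c x _ hx =>
      rw [IntermediateField.smul_def, smul_eq_mul]
      exact hx.mul_adjoin b c.2

theorem mem_spanW_of_inSpan {x : LaurentSeries K} (hx : InSpan b x) : x ∈ spanW b := by
  obtain ⟨Q, P, hQ, h⟩ := hx
  have hQ' : aeval (jqModC K) Q ≠ 0 := Fermat.Agent.IgusaLib.Qep.aeval_jqModC_ne_zero K hQ
  have hJ : ∀ G : K[X], aeval (jqModC K) G ∈ K⟮jqModC K⟯ := fun G =>
    IntermediateField.algebra_adjoin_le_adjoin K _ (aeval_mem_adjoin_singleton K (jqModC K))
  have e : x = ∑ i, (⟨(aeval (jqModC K) Q)⁻¹ * aeval (jqModC K) (P i),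
      mul_mem (inv_mem (hJ Q)) (hJ (P i))⟩ : K⟮jqModC K⟯) • b i := by
    simp only [IntermediateField.smul_def, smul_eq_mul, mul_assoc]
    rw [← Finset.mul_sum, ← h, ← mul_assoc, inv_mul_cancel₀ hQ', one_mul]
  rw [e]
  exact Submodule.sum_mem _ fun i _ => Submodule.smul_mem _ _ (Submodule.subset_span ⟨i, rfl⟩)

end Span

section SpanK

variable (N : ℕ) [NeZero N] (l : ℕ) [Fact l.Prime] (K : Type*) [Field K] [CharZero K]
  {m : Fin (dedekindPsi N) → LaurentSeries ℤ}

/-- Elements of `F_ℚ` map into the `K(j)`-span of the family. -/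
theorem inSpan_coeffMap_of_mem_full
    (hm : ∀ i, m i ∈ Submonoid.closure (Fermat.Agent.IgusaLib.Descent.divExpZ N))
    (hind : ∀ P : Fin (dedekindPsi N) → Polynomial (ZMod l),
      ∑ i, aeval (jqModC (ZMod l)) (P i) * coeffMap (Int.castRingHom (ZMod l)) (m i) = 0 →
        P = 0)
    {y : LaurentSeries ℚ} (hy : y ∈ modularFunctionFieldFull N) :
    InSpan (fun i => coeffMap (Int.castRingHom K) (m i)) (coeffMap (algebraMap ℚ K) y) := by
  have hmQ : ∀ i, coeffMap (Int.castRingHom ℚ) (m i) ∈ modularFunctionFieldFull N := fun i =>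
    Fermat.Agent.IgusaLib.Descent.closure_le_fullC ℚ N
      (Fermat.Agent.IgusaLib.Descent.coeffMap_mem_closure ℚ N (hm i))
  obtain ⟨Q, P, hQ, hrel⟩ := Fermat.Agent.IgusaLib.span_full N
    (fun i => coeffMap (Int.castRingHom ℚ) (m i)) hmQ
    (Fermat.Agent.IgusaLib.Qep.ind_rat l N hind) y hy
  refine ⟨Q.map (algebraMap ℚ K), fun i => (P i).map (algebraMap ℚ K), ?_, ?_⟩
  · exact (Polynomial.map_ne_zero_iff (algebraMap ℚ K).injective).mpr hQ
  · have h1 := congrArg (coeffMap (algebraMap ℚ K)) hrel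
    rw [map_mul, map_sum, Fermat.Agent.IgusaLib.Descent.coeffMap_aeval] at h1
    have hj : coeffMap (algebraMap ℚ K) jq = jqModC K := by
      rw [← jqModC_rat, coeffMap_jqModC]
    rw [hj] at h1
    rw [h1]
    refine Finset.sum_congr rfl fun i _ => ?_
    rw [map_mul, Fermat.Agent.IgusaLib.Descent.coeffMap_aeval, hj, coeffMap_coeffMap,
      show (algebraMap ℚ K).comp (Int.castRingHom ℚ) = Int.castRingHom K from RingHom.ext_int _ _]

/-- Multiplication by a generator `j(q^d)` preserves the `K(j)`-span of the family. -/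
theorem gen_mul_mem_spanW
    (hm : ∀ i, m i ∈ Submonoid.closure (Fermat.Agent.IgusaLib.Descent.divExpZ N))
    (hind : ∀ P : Fin (dedekindPsi N) → Polynomial (ZMod l),
      ∑ i, aeval (jqModC (ZMod l)) (P i) * coeffMap (Int.castRingHom (ZMod l)) (m i) = 0 →
        P = 0)
    {g : LaurentSeries K} (hg : g ∈ divisorExpansionsC K N) {w : LaurentSeries K}
    (hw : w ∈ spanW (fun i => coeffMap (Int.castRingHom K) (m i))) :
    g * w ∈ spanW (fun i => coeffMap (Int.castRingHom K) (m i)) := by
  obtain ⟨d, hd, hdN, rfl⟩ := hg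
  have hgQ : qExpand K d (jqModC K) = coeffMap (algebraMap ℚ K) (qExpand ℚ d jq) := by
    rw [coeffMap_qExpand, ← jqModC_rat, coeffMap_jqModC]
  induction hw using Submodule.span_induction with
  | mem x hx =>
      obtain ⟨i, rfl⟩ := hx
      apply mem_spanW_of_inSpan
      have e : qExpand K d (jqModC K) * coeffMap (Int.castRingHom K) (m i)
          = coeffMap (algebraMap ℚ K) (qExpand ℚ d jq * coeffMap (Int.castRingHom ℚ) (m i)) := by
        rw [map_mul, ← hgQ, coeffMap_coeffMap,
          show (algebraMap ℚ K).comp (Int.castRingHom ℚ) = Int.castRingHom K from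
            RingHom.ext_int _ _]
      show InSpan _ (qExpand K d (jqModC K) * coeffMap (Int.castRingHom K) (m i))
      rw [e]
      refine inSpan_coeffMap_of_mem_full N l K hm hind (mul_mem ?_ ?_)
      · exact jqd_mem_full N hdN
      · exact Fermat.Agent.IgusaLib.Descent.closure_le_fullC ℚ N
          (Fermat.Agent.IgusaLib.Descent.coeffMap_mem_closure ℚ N (hm i))
  | zero => rw [mul_zero]; exact Submodule.zero_mem _
  | add x y _ _ hx hy => rw [mul_add]; exact Submodule.add_mem _ hx hy
  | smul c x _ hx =>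
      rw [mul_smul_comm]
      exact Submodule.smul_mem _ _ hx

theorem one_mem_spanW
    (hm : ∀ i, m i ∈ Submonoid.closure (Fermat.Agent.IgusaLib.Descent.divExpZ N))
    (hind : ∀ P : Fin (dedekindPsi N) → Polynomial (ZMod l),
      ∑ i, aeval (jqModC (ZMod l)) (P i) * coeffMap (Int.castRingHom (ZMod l)) (m i) = 0 →
        P = 0) :
    (1 : LaurentSeries K) ∈ spanW (fun i => coeffMap (Int.castRingHom K) (m i)) := by
  apply mem_spanW_of_inSpan
  have h := inSpan_coeffMap_of_mem_full N l K hm hind (y := 1) (one_mem _)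
  rwa [map_one] at h

/-- **The family spans `F_K` over `K(j)`.** -/
theorem full_le_spanW
    (hm : ∀ i, m i ∈ Submonoid.closure (Fermat.Agent.IgusaLib.Descent.divExpZ N))
    (hind : ∀ P : Fin (dedekindPsi N) → Polynomial (ZMod l),
      ∑ i, aeval (jqModC (ZMod l)) (P i) * coeffMap (Int.castRingHom (ZMod l)) (m i) = 0 →
        P = 0)
    {x : LaurentSeries K} (hx : x ∈ modularFunctionFieldFullC K N) :
    x ∈ spanW (fun i => coeffMap (Int.castRingHom K) (m i)) := by
  classical
  set W := spanW (fun i => coeffMap (Int.castRingHom K) (m i)) with hW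
  have h1 : (1 : LaurentSeries K) ∈ W := one_mem_spanW N l K hm hind
  -- the generators are integral over `K(j)`
  have hint : ∀ g ∈ divisorExpansionsC K N, IsAlgebraic ↥(K⟮jqModC K⟯) g := by
    intro g hg
    apply IsIntegral.isAlgebraic
    refine isIntegral_of_smul_mem_submodule W ?_ ?_ g ?_
    · intro h0
      rw [h0] at h1
      exact one_ne_zero ((Submodule.mem_bot _).mp h1)
    · exact Submodule.fg_span (Set.finite_range _)
    · intro w hw
      rw [smul_eq_mul]
      exact gen_mul_mem_spanW N l K hm hind hg hw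
  -- monomials in the generators lie in `W`
  have hmon : ∀ y ∈ Submonoid.closure (divisorExpansionsC K N), y ∈ W := by
    intro y hy
    induction hy using Submonoid.closure_induction_left with
    | one => exact h1
    | mul_left g hg y _ hy => exact gen_mul_mem_spanW N l K hm hind hg hy
  have h2 : x ∈ IntermediateField.adjoin ↥(K⟮jqModC K⟯) (divisorExpansionsC K N) := by
    have hle : modularFunctionFieldFullC K N ≤
        (IntermediateField.adjoin ↥(K⟮jqModC K⟯) (divisorExpansionsC K N)).restrictScalars K := by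
      rw [modularFunctionFieldFullC, IntermediateField.adjoin_le_iff]
      intro g hg
      show g ∈ IntermediateField.adjoin ↥(K⟮jqModC K⟯) (divisorExpansionsC K N)
      exact IntermediateField.subset_adjoin (↥(K⟮jqModC K⟯)) (divisorExpansionsC K N) hg
    exact hle hx
  have h3 : x ∈ (IntermediateField.adjoin ↥(K⟮jqModC K⟯) (divisorExpansionsC K N)).toSubalgebra :=
    h2
  rw [IntermediateField.adjoin_toSubalgebra_of_isAlgebraic hint] at h3
  have h4 : x ∈ Subalgebra.toSubmodule
      (Algebra.adjoin ↥(K⟮jqModC K⟯) (divisorExpansionsC K N)) := h3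
  rw [Algebra.adjoin_eq_span] at h4
  exact Submodule.span_le.mpr hmon h4

end SpanK

/-- **Existence of the Gauss family.** -/
theorem exists_isFamily (N : ℕ) [NeZero N] (l : ℕ) [Fact l.Prime] (hlN : ¬ l ∣ N)
    (K : Type*) [Field K] [CharZero K] (k : Type*) [Field k] [CharP k l] :
    ∃ m : Fin (dedekindPsi N) → LaurentSeries ℤ, IsFamily N K k m := by
  obtain ⟨m, hm, hind⟩ := exists_monomials_modl N l hlN
  exact ⟨m, hm, ind_of_ind_modl l k m hind, fun x hx =>
    inSpan_of_mem_spanW _ (full_le_spanW N l K hm hind hx)⟩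

end Fermat.Agent.RedLib.GaussFam
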