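import Mathlib
import Fermat.Agent.RedLib.SelfDual

/-!
# S18 long shot, leaf (A): self-duality from a separable reduction (abstract part)

If a lattice `Lam = ⊕ O b_i` in a finite `KJ`-algebra `E` has a reduction `ρ : Lam → B` over a
local reduction `φ : O → κ` such that the `ρ (b i)` form a `κ`-basis of `B` with non-zero
discriminant (e.g. `B / κ` finite separable), then the discriminant of `b` is a unit of `O`, i.e.
`Lam` is self-dual (`SelfDual.SD`).
-/

set_option autoImplicit false

noncomputable section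

namespace Fermat.Agent.RedLib.GaussSD

open Polynomial Fermat.Agent.RedLib.SelfDual

section Ring

variable {O M κ B ι : Type*} [CommRing O] [CommRing M] [Algebra O M] [Field κ] [CommRing B]
  [Algebra κ B] [Fintype ι] [DecidableEq ι]

/-- Coordinates commute with a reduction. -/
theorem repr_red (bO : Module.Basis ι O M) (φ : O →+* κ) (ρ : M →+* B)
    (hρ : ∀ (a : O) (x : M), ρ (a • x) = φ a • ρ x) (bbar : Module.Basis ι κ B)
    (hbbar : ∀ i, ρ (bO i) = bbar i) (w : M) (m : ι) :
    bbar.repr (ρ w) m = φ (bO.repr w m) := by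
  have h1 : ρ w = ∑ i, φ (bO.repr w i) • bbar i := by
    conv_lhs => rw [← bO.sum_repr w]
    rw [map_sum]
    refine Finset.sum_congr rfl fun i _ => ?_
    rw [hρ, hbbar]
  rw [h1, Module.Basis.repr_sum_self]

/-- Traces commute with a reduction. -/
theorem trace_red (bO : Module.Basis ι O M) (φ : O →+* κ) (ρ : M →+* B)
    (hρ : ∀ (a : O) (x : M), ρ (a • x) = φ a • ρ x) (bbar : Module.Basis ι κ B)
    (hbbar : ∀ i, ρ (bO i) = bbar i) (z : M) :
    Algebra.trace κ B (ρ z) = φ (Algebra.trace O M z) := by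
  rw [Algebra.trace_eq_matrix_trace bbar, Algebra.trace_eq_matrix_trace bO, Matrix.trace,
    Matrix.trace, map_sum]
  refine Finset.sum_congr rfl fun i _ => ?_
  rw [Matrix.diag_apply, Matrix.diag_apply, Algebra.leftMulMatrix_eq_repr_mul,
    Algebra.leftMulMatrix_eq_repr_mul, ← hbbar i, ← map_mul,
    repr_red bO φ ρ hρ bbar hbbar]

/-- Discriminants commute with a reduction. -/
theorem discr_red (bO : Module.Basis ι O M) (φ : O →+* κ) (ρ : M →+* B)
    (hρ : ∀ (a : O) (x : M), ρ (a • x) = φ a • ρ x) (bbar : Module.Basis ι κ B)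
    (hbbar : ∀ i, ρ (bO i) = bbar i) :
    φ (Algebra.discr O bO) = Algebra.discr κ bbar := by
  rw [Algebra.discr_def, Algebra.discr_def, RingHom.map_det]
  congr 1
  ext i j
  rw [RingHom.mapMatrix_apply, Matrix.map_apply, Algebra.traceMatrix_apply,
    Algebra.traceMatrix_apply, Algebra.traceForm_apply, Algebra.traceForm_apply,
    ← trace_red bO φ ρ hρ bbar hbbar, map_mul, hbbar, hbbar]

end Ring

section Field

variable {O KJ E κ B ι : Type*} [CommRing O] [Field KJ] [Algebra O KJ] [CommRing E] [Algebra KJ E]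
  [Algebra O E] [IsScalarTower O KJ E] [Field κ] [CommRing B] [Algebra κ B] [Fintype ι]
  [DecidableEq ι]

/-- **Unit discriminant from a reduction with non-zero discriminant.** -/
theorem exists_unit_discr_of_red (hinj : Function.Injective (algebraMap O KJ))
    (b : Module.Basis ι KJ E) (Lam : Subalgebra O E)
    (hb : Submodule.span O (Set.range b) = Subalgebra.toSubmodule Lam)
    (φ : O →+* κ) (hφ : ∀ a : O, φ a ≠ 0 → IsUnit a)
    (ρ : Lam →+* B) (hρ : ∀ (a : O) (x : Lam), ρ (a • x) = φ a • ρ x)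
    (bbar : Module.Basis ι κ B) (hbbar : ∀ (i : ι) (hi : b i ∈ Lam), ρ ⟨b i, hi⟩ = bbar i)
    (hd : Algebra.discr κ bbar ≠ 0) :
    ∃ u : Oˣ, Algebra.discr KJ b = algebraMap O KJ u := by
  obtain ⟨bO, hbO, -, -, hdisc⟩ := exists_basis_discr_eq hinj b Lam hb
  have hbbar' : ∀ i, ρ (bO i) = bbar i := by
    intro i
    have hi : b i ∈ Lam := by rw [← hbO i]; exact (bO i).2
    rw [← hbbar i hi]
    congr 1
    exact Subtype.ext (hbO i)
  have h1 := discr_red bO φ ρ hρ bbar hbbar'
  have hu : IsUnit (Algebra.discr O bO) := hφ _ (by rw [h1]; exact hd)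
  exact ⟨hu.unit, by rw [hdisc]; rfl⟩

/-- **Self-duality from a reduction with non-zero discriminant.** -/
theorem sd_of_red {n : ℕ} (hinj : Function.Injective (algebraMap O KJ))
    (b : Module.Basis (Fin n) KJ E) (Lam : Subalgebra O E)
    (hb : Submodule.span O (Set.range b) = Subalgebra.toSubmodule Lam)
    (φ : O →+* κ) (hφ : ∀ a : O, φ a ≠ 0 → IsUnit a)
    (ρ : Lam →+* B) (hρ : ∀ (a : O) (x : Lam), ρ (a • x) = φ a • ρ x)
    (bbar : Module.Basis (Fin n) κ B)
    (hbbar : ∀ (i : Fin n) (hi : b i ∈ Lam), ρ ⟨b i, hi⟩ = bbar i)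
    (hd : Algebra.discr κ bbar ≠ 0) : SD O KJ E Lam :=
  ⟨Fin n, inferInstance, inferInstance, b, hb,
    exists_unit_discr_of_red hinj b Lam hb φ hφ ρ hρ bbar hbbar hd⟩

end Field

end Fermat.Agent.RedLib.GaussSD
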