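import Mathlib
import Fermat.Prelude.Def_ModularCurve_X0ModL

/-!
# S18 long shot, leaf (A): separability over `k(J)` inside `k((q))`

Let `k` be a perfect field of characteristic `ℓ` and `J ∈ k((q))` a Laurent series of order `-1`
(e.g. the formal `j`-invariant).  Then every element of `k((q))` which is algebraic over `k(J)` is
separable over `k(J)`.

Proof: `1, J, …, J^(ℓ-1)` are independent over the `ℓ`-th powers of `k((q))` (orders mod `ℓ`), and
every element of `k(J)` is a combination `∑ a_s ^ ℓ J ^ s` with `a_s ∈ k(J)`; hence `ℓ`-th powers of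
`k(J)`-independent elements stay independent, which excludes an inseparable minimal polynomial.
-/

set_option autoImplicit false

noncomputable section

namespace Fermat.Agent.RedLib.GaussSep

open Polynomial IntermediateField

variable {k : Type*} [Field k] (l : ℕ) [Fact l.Prime] [CharP k l]

theorem charP_laurent : CharP (LaurentSeries k) l :=
  charP_of_injective_algebraMap (algebraMap k (LaurentSeries k)).injective l

/-- **(1)** `1, J, …, J^(ℓ-1)` are independent over the `ℓ`-th powers. -/
theorem eq_zero_of_sum_pow_mul {J : LaurentSeries k} (hJ0 : J ≠ 0) (hJ : J.order = -1)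
    (a : Fin l → LaurentSeries k) (h : ∑ s, a s ^ l * J ^ (s : ℕ) = 0) : ∀ s, a s = 0 := by
  classical
  by_contra hne
  obtain ⟨s1, hs1⟩ := not_forall.mp hne
  set t : Fin l → LaurentSeries k := fun s => a s ^ l * J ^ (s : ℕ) with ht
  set S : Finset (Fin l) := Finset.univ.filter fun s => a s ≠ 0 with hS
  have hSne : S.Nonempty := ⟨s1, by simp [hS, hs1]⟩
  have ht0 : ∀ s, a s ≠ 0 → t s ≠ 0 := fun s hs =>
    mul_ne_zero (pow_ne_zero _ hs) (pow_ne_zero _ hJ0)
  have hord : ∀ s, a s ≠ 0 → (t s).order = (l : ℤ) * (a s).order - (s : ℕ) := by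
    intro s hs
    rw [ht]
    simp only
    rw [HahnSeries.order_mul (pow_ne_zero _ hs) (pow_ne_zero _ hJ0), HahnSeries.order_pow,
      HahnSeries.order_pow, hJ]
    simp only [nsmul_eq_mul, mul_neg, mul_one]
    ring
  obtain ⟨s0, hs0S, hmin⟩ := Finset.exists_min_image S (fun s => (t s).order) hSne
  have hs0 : a s0 ≠ 0 := by simpa [hS] using hs0S
  have hcoeff : (∑ s, t s).coeff (t s0).order = (t s0).coeff (t s0).order := by
    rw [show (∑ s, t s).coeff (t s0).order = ∑ s, (t s).coeff (t s0).order from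
      map_sum (HahnSeries.coeff.addMonoidHom (t s0).order) t Finset.univ]
    refine Finset.sum_eq_single s0 (fun s _ hs => ?_) (fun h0 => absurd (Finset.mem_univ s0) h0)
    by_cases has : a s = 0
    · rw [ht]
      simp only
      rw [has, zero_pow (Fact.out : l.Prime).ne_zero, zero_mul, HahnSeries.coeff_zero]
    · apply HahnSeries.coeff_eq_zero_of_lt_order
      have hle : (t s0).order ≤ (t s).order := hmin s (by simp [hS, has])
      refine lt_of_le_of_ne hle fun heq => hs ?_
      rw [hord s has, hord s0 hs0] at heq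
      have h1 : ((s : ℕ) : ℤ) % l = ((s0 : ℕ) : ℤ) % l := by
        have e : ((s : ℕ) : ℤ) = ((s0 : ℕ) : ℤ) + (l : ℤ) * ((a s).order - (a s0).order) := by
          linarith
        rw [e, Int.add_mul_emod_self_left]
      have hs_lt : ((s : ℕ) : ℤ) < l := by exact_mod_cast s.2
      have hs0_lt : ((s0 : ℕ) : ℤ) < l := by exact_mod_cast s0.2
      rw [Int.emod_eq_of_lt (by positivity) hs_lt, Int.emod_eq_of_lt (by positivity) hs0_lt] at h1
      exact Fin.ext (by exact_mod_cast h1)
  have h2 : (t s0).coeff (t s0).order = 0 := by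
    rw [← hcoeff, h, HahnSeries.coeff_zero]
  exact ht0 s0 hs0 (HahnSeries.coeff_order_eq_zero.mp h2)

/-- `e` is a combination of `1, J, …, J^(ℓ-1)` with coefficients `ℓ`-th powers of elements of
`k(J)`. -/
def IsComb (l : ℕ) (J : LaurentSeries k) (e : LaurentSeries k) : Prop :=
  ∃ a : Fin l → LaurentSeries k, (∀ s, a s ∈ k⟮J⟯) ∧ e = ∑ s, a s ^ l * J ^ (s : ℕ)

variable {l}

theorem IsComb.add {J e e' : LaurentSeries k} (h : IsComb l J e) (h' : IsComb l J e') :
    IsComb l J (e + e') := by
  haveI := charP_laurent (k := k) l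
  obtain ⟨a, ha, rfl⟩ := h
  obtain ⟨a', ha', rfl⟩ := h'
  refine ⟨fun s => a s + a' s, fun s => add_mem (ha s) (ha' s), ?_⟩
  rw [← Finset.sum_add_distrib]
  refine Finset.sum_congr rfl fun s _ => ?_
  rw [add_pow_char, add_mul]

theorem IsComb.pow_mul {J e : LaurentSeries k} (h : IsComb l J e) {c : LaurentSeries k}
    (hc : c ∈ k⟮J⟯) : IsComb l J (c ^ l * e) := by
  obtain ⟨a, ha, rfl⟩ := h
  refine ⟨fun s => c * a s, fun s => mul_mem hc (ha s), ?_⟩
  rw [Finset.mul_sum]
  refine Finset.sum_congr rfl fun s _ => ?_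
  rw [mul_pow, mul_assoc]

theorem isComb_monomial [PerfectField k] (J : LaurentSeries k) (c : k) (i : ℕ) :
    IsComb l J (algebraMap k (LaurentSeries k) c * J ^ i) := by
  classical
  have hl : 0 < l := (Fact.out : l.Prime).pos
  haveI : ExpChar k l := ExpChar.prime Fact.out
  set d : k := (frobeniusEquiv k l).symm c with hd
  have hdc : d ^ l = c := frobeniusEquiv_symm_pow_p k l c
  have hJmem : J ∈ k⟮J⟯ := IntermediateField.mem_adjoin_simple_self k J
  refine ⟨fun s => if (s : ℕ) = i % l then algebraMap k (LaurentSeries k) d * J ^ (i / l) else 0,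
    fun s => ?_, ?_⟩
  · show (if (s : ℕ) = i % l then algebraMap k (LaurentSeries k) d * J ^ (i / l) else 0) ∈ k⟮J⟯
    split_ifs
    · exact mul_mem (IntermediateField.algebraMap_mem _ d) (pow_mem hJmem _)
    · exact zero_mem _
  · rw [Finset.sum_eq_single (⟨i % l, Nat.mod_lt i hl⟩ : Fin l)]
    · simp only [if_true]
      rw [mul_pow, ← map_pow, hdc, ← pow_mul, mul_assoc, ← pow_add, mul_comm (i / l) l,
        Nat.div_add_mod]
    · intro s _ hs
      have hs' : (s : ℕ) ≠ i % l := fun h => hs (Fin.ext h)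
      simp only [hs', if_false]
      rw [zero_pow hl.ne', zero_mul]
    · intro h0
      exact absurd (Finset.mem_univ _) h0

theorem isComb_aeval [PerfectField k] (J : LaurentSeries k) (R : k[X]) :
    IsComb l J (aeval J R) := by
  induction R using Polynomial.induction_on' with
  | add p q hp hq => rw [map_add]; exact hp.add hq
  | monomial n c =>
      rw [aeval_monomial]
      exact isComb_monomial J c n

/-- **(2)** every element of `k(J)` is a combination of `1, J, …, J^(ℓ-1)` with coefficients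
`ℓ`-th powers of elements of `k(J)`. -/
theorem isComb_of_mem [PerfectField k] {J e : LaurentSeries k} (he : e ∈ k⟮J⟯) :
    IsComb l J e := by
  have hl : 0 < l := (Fact.out : l.Prime).pos
  obtain ⟨r, s, rfl⟩ := (IntermediateField.mem_adjoin_simple_iff k e).mp he
  have hJ : ∀ G : k[X], aeval J G ∈ k⟮J⟯ := fun G =>
    IntermediateField.algebra_adjoin_le_adjoin k _ (aeval_mem_adjoin_singleton k J)
  by_cases hs : aeval J s = 0
  · rw [hs, div_zero]
    have h := isComb_aeval (l := l) J (0 : k[X])
    rwa [map_zero] at h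
  · have e1 : aeval J r / aeval J s
        = ((aeval J s)⁻¹) ^ l * aeval J (r * s ^ (l - 1)) := by
      rw [map_mul, map_pow, inv_pow]
      have h2 : aeval J s ^ l = aeval J s ^ (l - 1) * aeval J s := by
        rw [← pow_succ, Nat.sub_add_cancel hl]
      rw [h2]
      field_simp
    rw [e1]
    exact (isComb_aeval J _).pow_mul (inv_mem (hJ s))

/-- **(3)** `ℓ`-th powers of `k(J)`-independent elements are `k(J)`-independent. -/
theorem ind_pow [PerfectField k] {J : LaurentSeries k} (hJ0 : J ≠ 0) (hJ : J.order = -1)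
    {ι : Type*} (T : Finset ι) (w : ι → LaurentSeries k)
    (hw : ∀ e : ι → LaurentSeries k, (∀ i, e i ∈ k⟮J⟯) → ∑ i ∈ T, e i * w i = 0 →
      ∀ i ∈ T, e i = 0)
    (e : ι → LaurentSeries k) (he : ∀ i, e i ∈ k⟮J⟯) (h : ∑ i ∈ T, e i * w i ^ l = 0) :
    ∀ i ∈ T, e i = 0 := by
  haveI := charP_laurent (k := k) l
  have hl : 0 < l := (Fact.out : l.Prime).pos
  choose a ha hea using fun i => isComb_of_mem (l := l) (he i)
  have h1 : ∑ s, (∑ i ∈ T, a i s * w i) ^ l * J ^ (s : ℕ) = 0 := by
    rw [← h]
    have h2 : ∀ i, e i * w i ^ l = ∑ s, (a i s * w i) ^ l * J ^ (s : ℕ) := by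
      intro i
      rw [hea i, Finset.sum_mul]
      refine Finset.sum_congr rfl fun s _ => ?_
      rw [mul_pow]; ring
    simp only [h2]
    rw [Finset.sum_comm]
    refine Finset.sum_congr rfl fun s _ => ?_
    rw [sum_pow_char, Finset.sum_mul]
  have h3 := eq_zero_of_sum_pow_mul l hJ0 hJ (fun s => ∑ i ∈ T, a i s * w i) h1
  intro i hi
  rw [hea i]
  refine Finset.sum_eq_zero fun s _ => ?_
  rw [hw (fun i => a i s) (fun i => ha i s) (h3 s) i hi, zero_pow hl.ne', zero_mul]

/-- **Separability.** Every element of `k((q))` integral over `k(J)` is separable over `k(J)`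
(`k` perfect of characteristic `ℓ`, `J` of order `-1`). -/
theorem isSeparable_of_isIntegral (l : ℕ) [Fact l.Prime] [CharP k l] [PerfectField k]
    {J : LaurentSeries k} (hJ0 : J ≠ 0)
    (hJ : J.order = -1) {x : LaurentSeries k} (hx : IsIntegral ↥(k⟮J⟯) x) :
    IsSeparable ↥(k⟮J⟯) x := by
  haveI : CharP ↥(k⟮J⟯) l :=
    charP_of_injective_algebraMap (algebraMap k ↥(k⟮J⟯)).injective l
  have hl2 : 2 ≤ l := (Fact.out : l.Prime).two_le
  rcases Polynomial.separable_or l (minpoly.irreducible hx) with hsep | ⟨-, g, hg, hgf⟩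
  · exact hsep
  exfalso
  have hg0 : g ≠ 0 := hg.ne_zero
  have hroot : aeval (x ^ l) g = 0 := by
    rw [← Polynomial.expand_aeval, hgf, minpoly.aeval]
  have hdeg : (minpoly ↥(k⟮J⟯) x).natDegree = g.natDegree * l := by
    rw [← hgf, Polynomial.natDegree_expand]
  have hpos : 0 < (minpoly ↥(k⟮J⟯) x).natDegree := minpoly.natDegree_pos hx
  have hdlt : g.natDegree < (minpoly ↥(k⟮J⟯) x).natDegree := by
    rw [hdeg] at hpos ⊢
    have hgpos : 0 < g.natDegree := Nat.pos_of_ne_zero fun h0 => by
      rw [h0, zero_mul] at hpos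
      exact lt_irrefl _ hpos
    nlinarith
  -- `1, x, …, x^d` are independent over `k(J)`
  have hw : ∀ e : ℕ → LaurentSeries k, (∀ i, e i ∈ k⟮J⟯) →
      ∑ i ∈ Finset.range (g.natDegree + 1), e i * x ^ i = 0 →
      ∀ i ∈ Finset.range (g.natDegree + 1), e i = 0 := by
    intro e he hsum i hi
    set p : (↥(k⟮J⟯))[X] :=
      ∑ i ∈ Finset.range (g.natDegree + 1), monomial i (⟨e i, he i⟩ : ↥(k⟮J⟯)) with hp
    have hpx : aeval x p = 0 := by
      rw [hp, map_sum, ← hsum]
      refine Finset.sum_congr rfl fun i _ => ?_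
      rw [aeval_monomial]
      rfl
    have hpdeg : p.natDegree < (minpoly ↥(k⟮J⟯) x).natDegree := by
      refine lt_of_le_of_lt ?_ hdlt
      rw [hp]
      refine Polynomial.natDegree_sum_le_of_forall_le _ _ fun i hi => ?_
      exact (Polynomial.natDegree_monomial_le _).trans (Nat.lt_succ_iff.mp (Finset.mem_range.mp hi))
    have hp0 : p = 0 := Polynomial.eq_zero_of_dvd_of_natDegree_lt (minpoly.dvd _ x hpx) hpdeg
    have hci : p.coeff i = (⟨e i, he i⟩ : ↥(k⟮J⟯)) := by
      rw [hp, Polynomial.finsetSum_coeff]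
      simp only [Polynomial.coeff_monomial]
      rw [Finset.sum_ite_eq' (Finset.range (g.natDegree + 1)) i, if_pos hi]
    rw [hp0, Polynomial.coeff_zero] at hci
    exact (congrArg Subtype.val hci).symm
  have h3 := ind_pow (l := l) hJ0 hJ (Finset.range (g.natDegree + 1)) (fun i => x ^ i) hw
    (fun i => ((g.coeff i : ↥(k⟮J⟯)) : LaurentSeries k)) (fun i => (g.coeff i).2) (by
      rw [← hroot, Polynomial.aeval_eq_sum_range]
      refine Finset.sum_congr rfl fun i _ => ?_
      rw [IntermediateField.smul_def, smul_eq_mul, ← pow_mul, ← pow_mul, mul_comm i l])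
  apply hg0
  refine Polynomial.ext fun i => ?_
  rw [Polynomial.coeff_zero]
  by_cases hi : i ∈ Finset.range (g.natDegree + 1)
  · exact Subtype.ext (h3 i hi)
  · exact Polynomial.coeff_eq_zero_of_natDegree_lt (by
      rw [Finset.mem_range] at hi; omega)

/-- The formal `j`-invariant over a field has order `-1`. -/
theorem order_jqModC (k : Type*) [Field k] : (ModularCurve.jqModC k).order = -1 := by
  have hne : ModularCurve.jqModC k ≠ 0 := ModularCurve.jqModC_ne_zero_of_nontrivial k
  apply le_antisymm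
  · exact HahnSeries.order_le_of_coeff_ne_zero (by
      rw [ModularCurve.coeff_jqModC_neg_one]; exact one_ne_zero)
  · by_contra hlt
    rw [not_le] at hlt
    exact hne (HahnSeries.coeff_order_eq_zero.mp (ModularCurve.coeff_jqModC_of_lt k hlt))

/-- **Separability over `k(J)`** for the formal `j`-invariant. -/
theorem isSeparable_jq (l : ℕ) [Fact l.Prime] [CharP k l] [PerfectField k] {x : LaurentSeries k}
    (hx : IsIntegral ↥(k⟮ModularCurve.jqModC k⟯) x) :
    IsSeparable ↥(k⟮ModularCurve.jqModC k⟯) x :=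
  isSeparable_of_isIntegral l (ModularCurve.jqModC_ne_zero_of_nontrivial k) (order_jqModC k) hx

end Fermat.Agent.RedLib.GaussSep
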