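import Mathlib
import Fermat.Agent.RedLib.GaussSD
import Fermat.Agent.RedLib.GaussFam
import Fermat.Agent.RedLib.GaussSep
import Fermat.Agent.RedLib.Inst

/-!
# S18 long shot, leaf (A): the Gauss lattice of `F_K` is self-dual over the Gauss ring of `K(j)`

Concrete types (helper3's `Inst`): `FK N K = ↥(modularFunctionFieldFullC K N)`, `jK N K`,
`K⟮jK N K⟯ ⊆ FK N K`.

* `OjV h N : ValuationSubring ↥(K⟮jK N K⟯)` : the Gauss valuation ring of `K(j)`;
* `LamFK h N : Subalgebra ↥(OjV h N) (FK N K)` : the Gauss lattice;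
* `sd_LamFK` : `SelfDual.SD ↥(OjV h N) ↥(K⟮jK N K⟯) (FK N K) (LamFK h N)`.
-/

set_option autoImplicit false

noncomputable section

namespace Fermat.Agent.RedLib.GaussBase

open ModularCurve Polynomial IntermediateField Fermat.Agent.RedLib.GaussK
  Fermat.Agent.RedLib.GaussFF Fermat.Agent.RedLib.Inst
open scoped IntermediateField.algebraAdjoinAdjoin

/-! ### Generic: independence over `K₀(j)` from independence over `K₀[j]` -/

theorem linearIndependent_adjoin_of_poly {K₀ E : Type*} [Field K₀] [Field E] [Algebra K₀ E]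
    (j : E) {n : ℕ} (M : Fin n → E)
    (hind : ∀ P : Fin n → K₀[X], ∑ i, aeval j (P i) * M i = 0 → P = 0) :
    LinearIndependent K₀⟮j⟯ M := by
  classical
  have hrep : ∀ r : Algebra.adjoin K₀ ({j} : Set E), ∃ P : K₀[X], aeval j P = (r : E) := by
    intro r
    have hr : (r : E) ∈ (aeval j : K₀[X] →ₐ[K₀] E).range := by
      rw [← Algebra.adjoin_singleton_eq_range_aeval]
      exact r.2
    exact hr
  have hR : LinearIndependent (Algebra.adjoin K₀ ({j} : Set E)) M := by
    rw [Fintype.linearIndependent_iff]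
    intro g hg i
    choose P hP using fun i => hrep (g i)
    have h0 : P = 0 := by
      apply hind
      rw [← hg]
      refine Finset.sum_congr rfl fun i _ => ?_
      rw [hP i, Subalgebra.smul_def, smul_eq_mul]
    have h1 := hP i
    rw [h0, Pi.zero_apply, map_zero] at h1
    exact Subtype.ext h1.symm
  exact (LinearIndependent.iff_fractionRing (Algebra.adjoin K₀ ({j} : Set E)) K₀⟮j⟯).mp hR

variable {K : Type*} [Field K] {k : Type*} [Field k] {A0 : Subring K} {red : A0 →+* k} {π : K}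

/-! ### `K(j)` inside `FK N K` versus `K(j)` inside `K((q))` -/

/-- The embedding of `K(j) ⊆ F_K` into `K((q))`. -/
def embJ (N : ℕ) (K : Type*) [Field K] : ↥(K⟮jK N K⟯) →+* LaurentSeries K :=
  (algebraMap (FK N K) (LaurentSeries K)).comp (algebraMap ↥(K⟮jK N K⟯) (FK N K))

theorem embJ_apply (N : ℕ) (y : ↥(K⟮jK N K⟯)) :
    embJ N K y = ((y : FK N K) : LaurentSeries K) := rfl

theorem coe_aeval_jK (N : ℕ) (P : K[X]) :
    ((aeval (jK N K) P : FK N K) : LaurentSeries K) = aeval (jqModC K) P := by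
  have h := (Polynomial.aeval_algebraMap_apply (LaurentSeries K) (jK N K) P).symm
  exact h

theorem embJ_mem_adjoin (N : ℕ) (y : ↥(K⟮jK N K⟯)) : embJ N K y ∈ K⟮jqModC K⟯ := by
  obtain ⟨r, s, hrs⟩ := (IntermediateField.mem_adjoin_simple_iff K (y : FK N K)).mp y.2
  rw [embJ_apply, hrs]
  have hJ : ∀ G : K[X], aeval (jqModC K) G ∈ K⟮jqModC K⟯ := fun G =>
    IntermediateField.algebra_adjoin_le_adjoin K _ (aeval_mem_adjoin_singleton K (jqModC K))
  have e : (((aeval (jK N K) r / aeval (jK N K) s : FK N K)) : LaurentSeries K)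
      = aeval (jqModC K) r / aeval (jqModC K) s := by
    rw [← coe_aeval_jK N r, ← coe_aeval_jK N s]
    rfl
  rw [e]
  exact div_mem (hJ r) (hJ s)

theorem exists_embJ_eq (N : ℕ) {x : LaurentSeries K} (hx : x ∈ K⟮jqModC K⟯) :
    ∃ y : ↥(K⟮jK N K⟯), embJ N K y = x := by
  obtain ⟨r, s, rfl⟩ := (IntermediateField.mem_adjoin_simple_iff K x).mp hx
  have hJ : ∀ G : K[X], aeval (jK N K) G ∈ K⟮jK N K⟯ := fun G =>
    IntermediateField.algebra_adjoin_le_adjoin K _ (aeval_mem_adjoin_singleton K (jK N K))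
  refine ⟨⟨aeval (jK N K) r / aeval (jK N K) s, div_mem (hJ r) (hJ s)⟩, ?_⟩
  rw [embJ_apply, ← coe_aeval_jK N r, ← coe_aeval_jK N s]
  rfl

theorem embJ_injective (N : ℕ) : Function.Injective (embJ N K) := (embJ N K).injective

/-! ### The Gauss valuation ring of `K(j)` and the Gauss lattice, on the concrete types -/

/-- The Gauss valuation ring of `K(j) ⊆ F_K`. -/
def OjV (h : IsGaussDatum A0 red π) (N : ℕ) : ValuationSubring ↥(K⟮jK N K⟯) :=
  { (Oint red).comap (embJ N K) with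
    mem_or_inv_mem' := by
      intro x
      by_cases hx : x = 0
      · left
        rw [hx]
        exact Subring.zero_mem _
      have hx' : embJ N K x ≠ 0 := fun h0 => hx (embJ_injective N (by rw [h0, map_zero]))
      obtain ⟨n, u, hu, -, hui, hxu⟩ := exists_zpow_mul_unit h N
        (f := embJ N K x) (x : FK N K).2 hx'
      rcases le_or_gt 0 n with hn | hn
      · left
        show embJ N K x ∈ Oint red
        rw [hxu]
        obtain ⟨d, rfl⟩ := Int.eq_ofNat_of_zero_le hn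
        rw [zpow_natCast]
        exact mul_mem (pow_mem (C_pi_mem_Oint h) _) u.2
      · right
        show embJ N K x⁻¹ ∈ Oint red
        rw [map_inv₀, hxu, mul_inv, ← zpow_neg]
        obtain ⟨d, hd⟩ := Int.eq_ofNat_of_zero_le (by omega : 0 ≤ -n)
        rw [hd, zpow_natCast]
        exact mul_mem (pow_mem (C_pi_mem_Oint h) _) hui.2 }

theorem mem_OjV_iff (h : IsGaussDatum A0 red π) (N : ℕ) (y : ↥(K⟮jK N K⟯)) :
    y ∈ OjV h N ↔ embJ N K y ∈ Oint red := Iff.rfl

theorem embJ_mem_Oj (h : IsGaussDatum A0 red π) (N : ℕ) (y : ↥(OjV h N)) :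
    embJ N K (y : ↥(K⟮jK N K⟯)) ∈ Oj red :=
  ⟨embJ_mem_adjoin N _, y.2⟩

/-! Shortcut instances (instance search on these concrete types is slow). -/

instance algebraOjV (h : IsGaussDatum A0 red π) (N : ℕ) :
    Algebra ↥(OjV h N) ↥(K⟮jK N K⟯) := ValuationSubring.instAlgebraSubtypeMem _

instance algebraOjVFK (h : IsGaussDatum A0 red π) (N : ℕ) :
    Algebra ↥(OjV h N) (FK N K) :=
  Algebra.ofSubsemiring (OjV h N).toSubring.toSubsemiring

instance moduleOjVFK (h : IsGaussDatum A0 red π) (N : ℕ) :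
    Module ↥(OjV h N) (FK N K) := Algebra.toModule

instance smulOjVFK (h : IsGaussDatum A0 red π) (N : ℕ) :
    SMul ↥(OjV h N) (FK N K) := Algebra.toSMul

instance isScalarTowerOjV (h : IsGaussDatum A0 red π) (N : ℕ) :
    IsScalarTower ↥(OjV h N) ↥(K⟮jK N K⟯) (FK N K) :=
  Submonoid.instIsScalarTowerSubtypeMem (OjV h N).toSubring.toSubmonoid

theorem algebraMap_OjV_FK (h : IsGaussDatum A0 red π) (N : ℕ) (o : ↥(OjV h N)) :
    ((algebraMap ↥(OjV h N) (FK N K) o : FK N K) : LaurentSeries K)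
      = embJ N K (o : ↥(K⟮jK N K⟯)) := rfl

/-- The Gauss lattice of `F_K`, as a subalgebra over the Gauss valuation ring of `K(j)`. -/
def LamFK (h : IsGaussDatum A0 red π) (N : ℕ) : Subalgebra ↥(OjV h N) (FK N K) :=
  { (Oint red).comap (algebraMap (FK N K) (LaurentSeries K)) with
    algebraMap_mem' := fun o => o.2 }

theorem mem_LamFK_iff (h : IsGaussDatum A0 red π) (N : ℕ) (x : FK N K) :
    x ∈ LamFK h N ↔ (x : LaurentSeries K) ∈ Oint red := Iff.rfl

theorem coe_mem_LamF (h : IsGaussDatum A0 red π) (N : ℕ) (x : ↥(LamFK h N)) :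
    (((x : FK N K)) : LaurentSeries K) ∈ LamF red N :=
  ⟨(x : FK N K).2, x.2⟩

section Family

variable {N : ℕ} {n : ℕ} {m : Fin n → LaurentSeries ℤ}

/-- The family, in `FK N K`. -/
def vK (hF : IsFamily N K k m) (i : Fin n) : FK N K :=
  ⟨coeffMap (Int.castRingHom K) (m i), hF.bK_mem_full i⟩

theorem coe_vK (hF : IsFamily N K k m) (i : Fin n) :
    ((vK hF i : FK N K) : LaurentSeries K) = coeffMap (Int.castRingHom K) (m i) := rfl

theorem linearIndependent_vK (hF : IsFamily N K k m) (h : IsGaussDatum A0 red π) :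
    LinearIndependent ↥(K⟮jK N K⟯) (vK hF) := by
  apply linearIndependent_adjoin_of_poly (jK N K)
  intro P hP
  apply hF.ind_K h P
  have h1 := congrArg (fun z : FK N K => (z : LaurentSeries K)) hP
  simp only [AddSubmonoidClass.coe_finsetSum, MulMemClass.coe_mul, coe_aeval_jK, coe_vK,
    ZeroMemClass.coe_zero] at h1
  exact h1

theorem span_vK (hF : IsFamily N K k m) :
    ⊤ ≤ Submodule.span ↥(K⟮jK N K⟯) (Set.range (vK hF)) := by
  intro x _
  obtain ⟨Q, P, hQ, hrel⟩ := hF.span (x : LaurentSeries K) x.2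
  have hJ : ∀ G : K[X], aeval (jK N K) G ∈ K⟮jK N K⟯ := fun G =>
    IntermediateField.algebra_adjoin_le_adjoin K _ (aeval_mem_adjoin_singleton K (jK N K))
  have hQ' : aeval (jK N K) Q ≠ 0 := fun h0 =>
    Fermat.Agent.IgusaLib.Qep.aeval_jqModC_ne_zero K hQ (by rw [← coe_aeval_jK N Q, h0]; rfl)
  have hrel' : aeval (jK N K) Q * x = ∑ i, aeval (jK N K) (P i) * vK hF i := by
    apply Subtype.ext
    simp only [MulMemClass.coe_mul, AddSubmonoidClass.coe_finsetSum, coe_aeval_jK, coe_vK]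
    exact hrel
  have e : x = ∑ i, (⟨(aeval (jK N K) Q)⁻¹ * aeval (jK N K) (P i),
      mul_mem (inv_mem (hJ Q)) (hJ (P i))⟩ : K⟮jK N K⟯) • vK hF i := by
    simp only [IntermediateField.smul_def, smul_eq_mul, mul_assoc]
    rw [← Finset.mul_sum, ← hrel', ← mul_assoc, inv_mul_cancel₀ hQ', one_mul]
  rw [e]
  exact Submodule.sum_mem _ fun i _ => Submodule.smul_mem _ _ (Submodule.subset_span ⟨i, rfl⟩)

/-- The family as a `K(j)`-basis of `F_K`. -/
def bK (hF : IsFamily N K k m) (h : IsGaussDatum A0 red π) :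
    Module.Basis (Fin n) ↥(K⟮jK N K⟯) (FK N K) :=
  Module.Basis.mk (linearIndependent_vK hF h) (span_vK hF)

theorem bK_apply (hF : IsFamily N K k m) (h : IsGaussDatum A0 red π) (i : Fin n) :
    bK hF h i = vK hF i := Module.Basis.mk_apply _ _ i

/-- **The Gauss lattice is the span of the family over the Gauss valuation ring.** -/
theorem span_bK (hF : IsFamily N K k m) (h : IsGaussDatum A0 red π) :
    Submodule.span ↥(OjV h N) (Set.range (bK hF h)) = Subalgebra.toSubmodule (LamFK h N) := by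
  apply le_antisymm
  · rw [Submodule.span_le]
    rintro _ ⟨i, rfl⟩
    rw [bK_apply]
    exact intSeries_mem_Oint (red := red) (m i)
  · intro x hx
    have hxL : (x : LaurentSeries K) ∈ LamF red N := ⟨x.2, hx⟩
    obtain ⟨c, hc, hxc⟩ := hF.exists_Oj_coeffs h hxL
    choose y hy using fun i => exists_embJ_eq N (mem_Oj_iff'.mp (hc i)).1
    have hyO : ∀ i, y i ∈ OjV h N := fun i => by
      rw [mem_OjV_iff, hy i]
      exact (mem_Oj_iff'.mp (hc i)).2
    have e : x = ∑ i, (⟨y i, hyO i⟩ : OjV h N) • bK hF h i := by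
      apply Subtype.ext
      rw [hxc, AddSubmonoidClass.coe_finsetSum]
      refine Finset.sum_congr rfl fun i _ => ?_
      rw [bK_apply, Algebra.smul_def, MulMemClass.coe_mul, algebraMap_OjV_FK, hy i, coe_vK]
    rw [e]
    exact Submodule.sum_mem _ fun i _ => Submodule.smul_mem _ _ (Submodule.subset_span ⟨i, rfl⟩)

/-! ### The reduction side -/

theorem jq_le_full (k : Type*) [Field k] (N : ℕ) :
    k⟮jqModC k⟯ ≤ modularFunctionFieldFullC k N :=
  IntermediateField.adjoin_simple_le_iff.mpr (jqModC_mem_full k N)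

/-- `F_k` as an extension of `k(J)`. -/
def Fk (N : ℕ) (k : Type*) [Field k] : IntermediateField ↥(k⟮jqModC k⟯) (LaurentSeries k) :=
  IntermediateField.extendScalars (jq_le_full k N)

theorem mem_Fk_iff (x : LaurentSeries k) : x ∈ Fk N k ↔ x ∈ modularFunctionFieldFullC k N :=
  Iff.rfl

/-- The reduced family, in `Fk N k`. -/
def vk (hF : IsFamily N K k m) (i : Fin n) : ↥(Fk N k) :=
  ⟨coeffMap (Int.castRingHom k) (m i), hF.bk_mem_full i⟩

theorem linearIndependent_vk (hF : IsFamily N K k m) :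
    LinearIndependent ↥(k⟮jqModC k⟯) (vk hF) := by
  have h1 : LinearIndependent ↥(k⟮jqModC k⟯) (fun i => coeffMap (Int.castRingHom k) (m i)) :=
    linearIndependent_adjoin_of_poly (jqModC k) _ hF.ind
  exact LinearIndependent.of_comp (Fk N k).val.toLinearMap h1

theorem span_vk (hF : IsFamily N K k m) (h : IsGaussDatum A0 red π) :
    ⊤ ≤ Submodule.span ↥(k⟮jqModC k⟯) (Set.range (vk hF)) := by
  intro y _
  have hy : (y : LaurentSeries k) ∈ modularFunctionFieldFullC k N := y.2
  have h1 : (y : LaurentSeries k) ∈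
      Fermat.Agent.RedLib.GaussFam.spanW (fun i => coeffMap (Int.castRingHom k) (m i)) :=
    Fermat.Agent.RedLib.GaussFam.mem_spanW_of_inSpan _ (hF.span_k h hy)
  obtain ⟨c, hc⟩ := (Submodule.mem_span_range_iff_exists_fun _).mp h1
  have e : y = ∑ i, c i • vk hF i := by
    apply Subtype.ext
    rw [← hc, AddSubmonoidClass.coe_finsetSum]
    rfl
  rw [e]
  exact Submodule.sum_mem _ fun i _ => Submodule.smul_mem _ _ (Submodule.subset_span ⟨i, rfl⟩)

/-- The reduced family as a `k(J)`-basis of `F_k`. -/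
def bk (hF : IsFamily N K k m) (h : IsGaussDatum A0 red π) :
    Module.Basis (Fin n) ↥(k⟮jqModC k⟯) ↥(Fk N k) :=
  Module.Basis.mk (linearIndependent_vk hF) (span_vk hF h)

theorem bk_apply (hF : IsFamily N K k m) (h : IsGaussDatum A0 red π) (i : Fin n) :
    bk hF h i = vk hF i := Module.Basis.mk_apply _ _ i

/-- `F_k` is separable over `k(J)` (`k` perfect). -/
theorem isSeparable_Fk (l : ℕ) [Fact l.Prime] [CharP k l] [PerfectField k] (N : ℕ)
    [Module.Finite ↥(k⟮jqModC k⟯) ↥(Fk N k)] :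
    Algebra.IsSeparable ↥(k⟮jqModC k⟯) ↥(Fk N k) := by
  refine ⟨fun y => ?_⟩
  have hy : IsIntegral ↥(k⟮jqModC k⟯) y := IsIntegral.of_finite ↥(k⟮jqModC k⟯) y
  have hy' : IsIntegral ↥(k⟮jqModC k⟯) (y : LaurentSeries k) := hy.map (Fk N k).val
  have hs := Fermat.Agent.RedLib.GaussSep.isSeparable_jq l hy'
  unfold IsSeparable at hs ⊢
  rwa [IntermediateField.minpoly_eq]

/-- The inclusion of the Gauss valuation ring of `K(j)` into the Gauss ring of `K((q))`. -/
def toOintJ (h : IsGaussDatum A0 red π) (N : ℕ) : ↥(OjV h N) →+* ↥(Oint red) :=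
  RingHom.codRestrict ((embJ N K).comp (OjV h N).subtype) (Oint red) (fun o => o.2)

/-- The inclusion of the Gauss lattice into the Gauss ring of `K((q))`. -/
def toOintF (h : IsGaussDatum A0 red π) (N : ℕ) : ↥(LamFK h N) →+* ↥(Oint red) :=
  RingHom.codRestrict
    ((algebraMap (FK N K) (LaurentSeries K)).comp (LamFK h N).val.toRingHom) (Oint red)
    (fun x => x.2)

/-- The reduction of the Gauss valuation ring of `K(j)` onto `k(J)`. -/
def phiJ (h : IsGaussDatum A0 red π) (N : ℕ) : ↥(OjV h N) →+* ↥(k⟮jqModC k⟯) :=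
  RingHom.codRestrict ((rho red).comp (toOintJ h N)) (k⟮jqModC k⟯)
    (fun o => rho_mem_adjoin_of_mem_Oj h _ (embJ_mem_Oj h N o))

/-- The reduction of the Gauss lattice onto `F_k`. -/
def rhoF (hF : IsFamily N K k m) (h : IsGaussDatum A0 red π) : ↥(LamFK h N) →+* ↥(Fk N k) :=
  RingHom.codRestrict ((rho red).comp (toOintF h N)) (Fk N k)
    (fun x => hF.rho_mem_fullC h _ (x : FK N K).2)

theorem isUnit_of_phiJ_ne_zero (h : IsGaussDatum A0 red π) (N : ℕ) (a : ↥(OjV h N))
    (ha : phiJ h N a ≠ 0) : IsUnit a := by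
  have h1 : rho red (toOintJ h N a) ≠ 0 := fun h0 => ha (Subtype.ext h0)
  have h2 : ((toOintJ h N a : Oint red) : LaurentSeries K)⁻¹ ∈ Oint red := inv_mem_Oint _ h1
  have h3 : (a : ↥(K⟮jK N K⟯))⁻¹ ∈ OjV h N := by
    rw [mem_OjV_iff, map_inv₀]
    exact h2
  have ha0 : (a : ↥(K⟮jK N K⟯)) ≠ 0 := fun h0 => h1 (by
    have : toOintJ h N a = 0 := Subtype.ext (by
      show embJ N K (a : ↥(K⟮jK N K⟯)) = 0
      rw [h0, map_zero])
    rw [this, map_zero])
  exact isUnit_iff_exists_inv.mpr ⟨⟨_, h3⟩, Subtype.ext (mul_inv_cancel₀ ha0)⟩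

theorem rhoF_smul (hF : IsFamily N K k m) (h : IsGaussDatum A0 red π) (a : ↥(OjV h N))
    (x : ↥(LamFK h N)) : rhoF hF h (a • x) = phiJ h N a • rhoF hF h x := by
  apply Subtype.ext
  have e : toOintF h N (a • x) = toOintJ h N a * toOintF h N x := Subtype.ext (by
    show (((a • x : ↥(LamFK h N)) : FK N K) : LaurentSeries K)
      = embJ N K (a : ↥(K⟮jK N K⟯)) * ((x : FK N K) : LaurentSeries K)
    rw [Subalgebra.coe_smul, Algebra.smul_def, MulMemClass.coe_mul, algebraMap_OjV_FK])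
  show rho red (toOintF h N (a • x)) = _
  rw [e, map_mul]
  rfl

/-- **The Gauss lattice of `F_K` is self-dual over the Gauss valuation ring of `K(j)`.** -/
theorem sd_LamFK_of_isFamily (hF : IsFamily N K k m) (h : IsGaussDatum A0 red π) (l : ℕ)
    [Fact l.Prime] [CharP k l] [PerfectField k] :
    Fermat.Agent.RedLib.SelfDual.SD ↥(OjV h N) ↥(K⟮jK N K⟯) (FK N K) (LamFK h N) := by
  have : Module.Finite ↥(k⟮jqModC k⟯) ↥(Fk N k) := Module.Finite.of_basis (bk hF h)
  have := isSeparable_Fk (k := k) l N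
  refine Fermat.Agent.RedLib.GaussSD.sd_of_red Subtype.val_injective (bK hF h) (LamFK h N)
    (span_bK hF h) (phiJ h N) (isUnit_of_phiJ_ne_zero h N) (rhoF hF h) (rhoF_smul hF h)
    (bk hF h) ?_ (Algebra.discr_not_zero_of_basis _ _)
  intro i hi
  apply Subtype.ext
  rw [bk_apply]
  have hmem : coeffMap (Int.castRingHom K) (m i) ∈ Oint red := intSeries_mem_Oint (m i)
  have e : toOintF h N ⟨bK hF h i, hi⟩ = ⟨coeffMap (Int.castRingHom K) (m i), hmem⟩ :=
    Subtype.ext (by
      show ((bK hF h i : FK N K) : LaurentSeries K) = _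
      rw [bK_apply, coe_vK])
  show rho red (toOintF h N ⟨bK hF h i, hi⟩) = coeffMap (Int.castRingHom k) (m i)
  rw [e, rho_intSeries]

end Family

/-- **The Gauss lattice of `F_K` is self-dual over the Gauss valuation ring of `K(j)`**
(`K` of characteristic `0`, `k` perfect of characteristic `ℓ ∤ N`). -/
theorem sd_LamFK (N : ℕ) [NeZero N] (l : ℕ) [Fact l.Prime] (hlN : ¬ l ∣ N) [CharZero K]
    [CharP k l] [PerfectField k] (h : IsGaussDatum A0 red π) :
    Fermat.Agent.RedLib.SelfDual.SD ↥(OjV h N) ↥(K⟮jK N K⟯) (FK N K) (LamFK h N) := by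
  obtain ⟨m, hF⟩ := Fermat.Agent.RedLib.GaussFam.exists_isFamily N l hlN K k
  exact sd_LamFK_of_isFamily hF h l

end Fermat.Agent.RedLib.GaussBase
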