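import Mathlib

/-!
# S18 long shot, provider side of AG: generic lemmas

* `isIntegral_of_forall` : transitivity of integrality without a tower of algebras;
* `exists_poly_of_algebraic` : in a field `Q` receiving a discrete valuation ring `A0` with
  `π ↦ 0`: if `t` is a root of a polynomial `g` with `π ∤ g` and `j = num(t) / den(t)`, then `j` is
  a root of a polynomial `P` with `π ∤ P`;
* `mem_adjoin_of_isIntegral_of_mul_eq_one` : an integral inverse of `h'(x)` lies in `A[x]`.
-/

set_option autoImplicit false

noncomputable section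

namespace Fermat.Agent.RedLib.GaussGen

open Polynomial

/-- Transitivity of integrality, without a tower: if the image of `S` in `A` is integral over `R`
then every element integral over `S` is integral over `R`. -/
theorem isIntegral_of_forall {R S A : Type*} [CommRing R] [CommRing S] [CommRing A] [Algebra R A]
    [Algebra S A] (h : ∀ s : S, IsIntegral R (algebraMap S A s)) {z : A} (hz : IsIntegral S z) :
    IsIntegral R z := by
  let φ : S →+* integralClosure R A := RingHom.codRestrict (algebraMap S A) (integralClosure R A) h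
  have hzC : IsIntegral (integralClosure R A) z := by
    obtain ⟨p, hp, hpz⟩ := hz
    refine ⟨p.map φ, hp.map _, ?_⟩
    rw [eval₂_map]
    exact hpz
  exact isIntegral_trans (R := R) (A := integralClosure R A) z hzC

/-- **Algebraicity in a residue field.** -/
theorem exists_poly_of_algebraic {A0 Q : Type*} [CommRing A0] [IsDomain A0]
    [IsPrincipalIdealRing A0] [Field Q] {π : A0} (hπ : Irreducible π) (ψ : A0 →+* Q)
    (hψ : ψ π = 0) (num den g : A0[X]) (t j : Q) (hg : ¬ C π ∣ g) (hgt : g.eval₂ ψ t = 0)
    (hrel : num.eval₂ ψ t = j * den.eval₂ ψ t) (hden : den.eval₂ ψ t ≠ 0) :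
    ∃ P : A0[X], ¬ C π ∣ P ∧ P.eval₂ ψ j = 0 := by
  have hmax : (Ideal.span {π}).IsMaximal := PrincipalIdealRing.isMaximal_of_irreducible hπ
  let _ : Field (A0 ⧸ Ideal.span {π}) := Ideal.Quotient.field _
  let mk : A0 →+* A0 ⧸ Ideal.span {π} := Ideal.Quotient.mk _
  have hmk : Function.Surjective mk := Ideal.Quotient.mk_surjective
  let ψ' : A0 ⧸ Ideal.span {π} →+* Q := Ideal.Quotient.lift _ ψ (by
    intro a ha
    obtain ⟨b, rfl⟩ := Ideal.mem_span_singleton.mp ha
    rw [map_mul, hψ, zero_mul])
  have hψ' : ψ'.comp mk = ψ := by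
    ext a
    rfl
  let _ : Algebra (A0 ⧸ Ideal.span {π}) Q := ψ'.toAlgebra
  have haeval : ∀ (G : A0[X]) (x : Q), aeval x (G.map mk) = G.eval₂ ψ x := by
    intro G x
    rw [aeval_def, eval₂_map]
    show eval₂ (ψ'.comp mk) x G = _
    rw [hψ']
  have hmap_ne : ∀ G : A0[X], ¬ C π ∣ G → G.map mk ≠ 0 := by
    intro G hG h0
    apply hG
    rw [Polynomial.C_dvd_iff_dvd_coeff]
    intro i
    have h1 : mk (G.coeff i) = 0 := by
      rw [← Polynomial.coeff_map, h0, Polynomial.coeff_zero]
    exact Ideal.mem_span_singleton.mp (Ideal.Quotient.eq_zero_iff_mem.mp h1)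
  -- `t` is algebraic over the residue field
  have ht : IsIntegral (A0 ⧸ Ideal.span {π}) t :=
    IsAlgebraic.isIntegral ⟨g.map mk, hmap_ne g hg, by rw [haeval]; exact hgt⟩
  have halg := IntermediateField.isAlgebraic_adjoin_simple ht
  have hmem : ∀ G : A0[X], G.eval₂ ψ t ∈ IntermediateField.adjoin (A0 ⧸ Ideal.span {π}) {t} := by
    intro G
    rw [← haeval]
    exact IntermediateField.algebra_adjoin_le_adjoin _ _ (aeval_mem_adjoin_singleton _ t)
  have hj : j ∈ IntermediateField.adjoin (A0 ⧸ Ideal.span {π}) {t} := by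
    have e : j = num.eval₂ ψ t / den.eval₂ ψ t := by
      rw [hrel, mul_div_cancel_right₀ _ hden]
    rw [e]
    exact div_mem (hmem num) (hmem den)
  have hjalg : IsAlgebraic (A0 ⧸ Ideal.span {π}) j := by
    have h1 : IsAlgebraic (A0 ⧸ Ideal.span {π})
        (⟨j, hj⟩ : IntermediateField.adjoin (A0 ⧸ Ideal.span {π}) {t}) :=
      Algebra.IsAlgebraic.isAlgebraic _
    exact (IntermediateField.isAlgebraic_iff
      (S := IntermediateField.adjoin (A0 ⧸ Ideal.span {π}) {t})).mp h1
  obtain ⟨pbar, hpbar0, hpbar⟩ := hjalg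
  obtain ⟨P, rfl⟩ := Polynomial.map_surjective mk hmk pbar
  refine ⟨P, ?_, ?_⟩
  · rintro ⟨P', rfl⟩
    apply hpbar0
    rw [Polynomial.map_mul, Polynomial.map_C]
    have : mk π = 0 := Ideal.Quotient.eq_zero_iff_mem.mpr (Ideal.mem_span_singleton_self π)
    rw [this, map_zero, zero_mul]
  · rw [← haeval]
    exact hpbar

/-- **An integral inverse of `h'(x)` lies in `A[x]`.** -/
theorem mem_adjoin_of_isIntegral_of_mul_eq_one {A K L : Type*} [CommRing A] [IsDomain A]
    [IsIntegrallyClosed A] [Field K] [Algebra A K] [IsFractionRing A K] [Field L] [Algebra K L]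
    [Algebra A L] [IsScalarTower A K L] (x : L) (h : A[X]) (hm : h.Monic)
    (hirr : Irreducible (h.map (algebraMap A K))) (hroot : aeval x h = 0)
    (hgen : IntermediateField.adjoin K {x} = ⊤) (y : L) (hy : IsIntegral A y)
    (hyd : y * aeval x (derivative h) = 1) : y ∈ Algebra.adjoin A {x} := by
  have hrootK : aeval x (h.map (algebraMap A K)) = 0 := by
    rw [aeval_map_algebraMap]; exact hroot
  have hxA : IsIntegral A x := ⟨h, hm, by rw [← aeval_def]; exact hroot⟩
  have hxK : IsIntegral K x := hxA.tower_top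
  have hmin : minpoly K x = h.map (algebraMap A K) :=
    (minpoly.eq_of_irreducible_of_monic hirr hrootK (hm.map _)).symm
  have htop : Algebra.adjoin K {x} = ⊤ := by
    rw [← IntermediateField.adjoin_simple_toSubalgebra_of_isAlgebraic hxK.isAlgebraic, hgen,
      IntermediateField.top_toSubalgebra]
  have hfin : FiniteDimensional K L := (PowerBasis.ofAdjoinEqTop hxK htop).finite
  have hsepx : IsSeparable K x := by
    unfold IsSeparable
    rw [hmin, separable_iff_derivative_ne_zero hirr]
    intro h0
    rw [derivative_map] at h0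
    have h1 : aeval x (derivative h) = 0 := by
      rw [← aeval_map_algebraMap K, h0, map_zero]
    rw [h1, mul_zero] at hyd
    exact zero_ne_one hyd
  have hsep : Algebra.IsSeparable K L := by
    have h1 : Algebra.IsSeparable K (IntermediateField.adjoin K {x}) :=
      (IntermediateField.isSeparable_adjoin_simple_iff_isSeparable K L).mpr hsepx
    rw [hgen] at h1
    exact AlgEquiv.Algebra.isSeparable (IntermediateField.topEquiv (F := K) (E := L))
  have hdual := traceForm_dualSubmodule_adjoin A K htop hxA
  have hd : aeval x (derivative (minpoly K x)) = aeval x (derivative h) := by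
    rw [hmin, derivative_map, aeval_map_algebraMap]
  rw [hd] at hdual
  have hy2 : y * y ∈ (Algebra.traceForm K L).dualSubmodule
      (Subalgebra.toSubmodule (Algebra.adjoin A {x})) := by
    rw [LinearMap.BilinForm.mem_dualSubmodule]
    intro w hw
    have hwint : IsIntegral A w :=
      IsIntegral.of_mem_of_fg _ hxA.fg_adjoin_singleton w hw
    have h1 : IsIntegral A (Algebra.trace K L (y * y * w)) :=
      Algebra.isIntegral_trace ((hy.mul hy).mul hwint)
    obtain ⟨a, ha⟩ := IsIntegrallyClosed.isIntegral_iff.mp h1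
    rw [Algebra.traceForm_apply, ← ha]
    exact Submodule.mem_one.mpr ⟨a, rfl⟩
  rw [hdual, Submodule.mem_smul_pointwise_iff_exists] at hy2
  obtain ⟨w, hw, hwy⟩ := hy2
  have hd0 : aeval x (derivative h) ≠ 0 := fun h0 => by
    rw [h0, mul_zero] at hyd
    exact zero_ne_one hyd
  have e : w = y := by
    rw [smul_eq_mul] at hwy
    have h2 : w = aeval x (derivative h) * (y * y) := by
      rw [← hwy, ← mul_assoc, mul_inv_cancel₀ hd0, one_mul]
    rw [h2, ← mul_assoc, mul_comm (aeval x (derivative h)) y, hyd, one_mul]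
  rw [← e]
  exact hw

end Fermat.Agent.RedLib.GaussGen
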