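import Mathlib
import Fermat.Agent.RedLib.GaussBase
import Fermat.Agent.RedLib.SelfDual
import Fermat.Agent.RedLib.GaussGen

/-!
# RedLib/GaussTower: the Gauss lattice of the Kummer extension `F_u = F_K(T_u)`

Provider side of AG, step 1 of the tower `K(j) ⊆ F_K ⊆ F_u ⊆ FF`:
for `u ∈ F_K` a unit of the Gauss lattice `LamFK` and `p` invertible in it, the ring
`LamU = LamFK[T_u]` is self-dual over the Gauss valuation ring `OjV` of `K(j)` (`sd_LamU`), hence
the integral closure of `OjV` in `F_u` (`mem_LamU_iff_isIntegral`), and it is the free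
`LamFK`-module on `1, T_u, …, T_u ^ (p - 1)` (`exists_coeff_of_mem_LamU`).
-/

set_option autoImplicit false

noncomputable section

namespace Fermat.Agent.RedLib.GaussTower

open ModularCurve Polynomial IntermediateField Fermat.Agent.RedLib.GaussK
  Fermat.Agent.RedLib.GaussBase Fermat.Agent.RedLib.Inst Fermat.Agent.RedLib.SelfDual

variable {K : Type*} [Field K] {k : Type*} [Field k] {A0 : Subring K} {red : A0 →+* k} {π : K}

/-! ### Constants and units of the Gauss lattice `LamFK` -/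

theorem coe_algebraMap_FK (N : ℕ) (c : K) :
    ((algebraMap K (FK N K) c : FK N K) : LaurentSeries K) = HahnSeries.C c := by
  rw [← Fermat.Agent.IgusaLib.Qep.algebraMap_eq_C]
  rfl

/-- Constants of `A0` lie in the Gauss lattice. -/
theorem algebraMap_mem_LamFK (h : IsGaussDatum A0 red π) (N : ℕ) (a : A0) :
    algebraMap K (FK N K) (a : K) ∈ LamFK h N := by
  rw [mem_LamFK_iff, coe_algebraMap_FK]
  exact C_mem_Oint a

/-- `π` is not a unit of the Gauss lattice. -/
theorem pi_mul_ne_one (h : IsGaussDatum A0 red π) (N : ℕ) (w : FK N K) (hw : w ∈ LamFK h N) :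
    algebraMap K (FK N K) π * w ≠ 1 := by
  intro h1
  have hw' : (w : LaurentSeries K) ∈ Oint red := hw
  have e : (⟨HahnSeries.C π, C_pi_mem_Oint h⟩ : Oint red) * ⟨_, hw'⟩ = 1 := Subtype.ext (by
    have h2 := congrArg (fun x : FK N K => (x : LaurentSeries K)) h1
    have h3 : ((algebraMap K (FK N K) π * w : FK N K) : LaurentSeries K)
        = HahnSeries.C π * (w : LaurentSeries K) := by
      rw [← coe_algebraMap_FK N π]
      rfl
    exact h3.symm.trans h2)
  have e2 := congrArg (rho red) e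
  rw [map_mul, rho_C_pi h, zero_mul, map_one] at e2
  exact zero_ne_one e2

/-- An element of `F_K` whose series is a quotient of two integral series with the same nonzero
reduction is a unit of the Gauss lattice, congruent to `1` modulo `π`. -/
theorem quot_facts (h : IsGaussDatum A0 red π) (N : ℕ) (y₁ y₂ : LaurentSeries A0)
    (h₁ : inclA A0 y₁ ∈ modularFunctionFieldFullC K N)
    (h₂ : inclA A0 y₂ ∈ modularFunctionFieldFullC K N)
    (hne : redA red y₁ ≠ 0) (heq : redA red y₁ = redA red y₂) :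
    ((⟨_, h₁⟩ : FK N K) / ⟨_, h₂⟩) ∈ LamFK h N ∧ ((⟨_, h₁⟩ : FK N K) / ⟨_, h₂⟩)⁻¹ ∈ LamFK h N ∧
      ∃ w ∈ LamFK h N, ((⟨_, h₁⟩ : FK N K) / ⟨_, h₂⟩) - 1 = algebraMap K (FK N K) π * w := by
  have hne₂ : redA red y₂ ≠ 0 := heq ▸ hne
  have hy₁ : inclA A0 y₁ ≠ 0 := fun h0 => hne (by
    have : y₁ = 0 := inclA_injective (by rw [h0, map_zero])
    rw [this, map_zero])
  have hy₂ : inclA A0 y₂ ≠ 0 := fun h0 => hne₂ (by
    have : y₂ = 0 := inclA_injective (by rw [h0, map_zero])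
    rw [this, map_zero])
  have hcoe : ((((⟨_, h₁⟩ : FK N K) / ⟨_, h₂⟩ : FK N K)) : LaurentSeries K)
      = inclA A0 y₁ / inclA A0 y₂ := IntermediateField.coe_div _ _ _
  have hm : inclA A0 y₁ / inclA A0 y₂ ∈ Oint red :=
    mem_Oint_of_eq (a := y₁) (b := y₂) hne₂ (div_mul_cancel₀ _ hy₂)
  have hmi : (inclA A0 y₁ / inclA A0 y₂)⁻¹ ∈ Oint red :=
    mem_Oint_of_eq (a := y₂) (b := y₁) hne (by rw [inv_div, div_mul_cancel₀ _ hy₁])
  refine ⟨?_, ?_, ?_⟩
  · rw [mem_LamFK_iff, hcoe]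
    exact hm
  · rw [mem_LamFK_iff, IntermediateField.coe_inv, hcoe]
    exact hmi
  · have hmul : inclA A0 y₁ / inclA A0 y₂ * inclA A0 y₂ = inclA A0 y₁ := div_mul_cancel₀ _ hy₂
    have hρ : rho red ⟨inclA A0 y₁ / inclA A0 y₂, hm⟩ = 1 := by
      rw [rho_eq (⟨inclA A0 y₁ / inclA A0 y₂, hm⟩ : Oint red) (a := y₁) (b := y₂) hne₂ hmul,
        heq, div_self hne₂]
    have hsub : inclA A0 y₁ / inclA A0 y₂ - 1 ∈ Oint red :=
      Subring.sub_mem _ hm (Subring.one_mem _)
    have h0 : rho red ⟨inclA A0 y₁ / inclA A0 y₂ - 1, hsub⟩ = 0 := by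
      have e : (⟨inclA A0 y₁ / inclA A0 y₂ - 1, hsub⟩ : Oint red)
          = ⟨inclA A0 y₁ / inclA A0 y₂, hm⟩ - 1 := Subtype.ext rfl
      rw [e, map_sub, hρ, map_one, sub_self]
    have hw : (HahnSeries.C π : LaurentSeries K)⁻¹ * (inclA A0 y₁ / inclA A0 y₂ - 1) ∈ Oint red :=
      rho_eq_zero h ⟨inclA A0 y₁ / inclA A0 y₂ - 1, hsub⟩ h0
    have hwF : algebraMap K (FK N K) π⁻¹ * (((⟨_, h₁⟩ : FK N K) / ⟨_, h₂⟩) - 1) ∈ LamFK h N := by
      rw [mem_LamFK_iff, MulMemClass.coe_mul, coe_algebraMap_FK, AddSubgroupClass.coe_sub,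
        hcoe, OneMemClass.coe_one, map_inv₀]
      exact hw
    refine ⟨_, hwF, ?_⟩
    rw [← mul_assoc, ← map_mul, mul_inv_cancel₀ h.pi_ne_zero, map_one, one_mul]

/-! ### The Kummer step -/

section Step1

variable (h : IsGaussDatum A0 red π) (N : ℕ) (p : ℕ) (u : FK N K)

/-! Shortcut instances. -/

set_option synthInstance.maxHeartbeats 400000 in
instance algebraKJFu : Algebra ↥(K⟮jK N K⟯) (Fu p u) := inferInstance

set_option synthInstance.maxHeartbeats 400000 in
instance isScalarTowerKJFu : IsScalarTower ↥(K⟮jK N K⟯) (FK N K) (Fu p u) := inferInstance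

set_option synthInstance.maxHeartbeats 400000 in
instance algebraOjVFu : Algebra ↥(OjV h N) (Fu p u) := inferInstance

set_option synthInstance.maxHeartbeats 400000 in
instance isScalarTowerOjVFu : IsScalarTower ↥(OjV h N) (FK N K) (Fu p u) := inferInstance

instance isScalarTowerOjVKJFu : IsScalarTower ↥(OjV h N) ↥(K⟮jK N K⟯) (Fu p u) :=
  IsScalarTower.of_algebraMap_eq fun x => by
    rw [IsScalarTower.algebraMap_apply ↥(OjV h N) (FK N K) (Fu p u),
      IsScalarTower.algebraMap_apply ↥(OjV h N) ↥(K⟮jK N K⟯) (FK N K),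
      ← IsScalarTower.algebraMap_apply ↥(K⟮jK N K⟯) (FK N K) (Fu p u)]

set_option synthInstance.maxHeartbeats 400000 in
instance algebraLamFu : Algebra ↥(LamFK h N) (Fu p u) := inferInstance

set_option synthInstance.maxHeartbeats 400000 in
instance isScalarTowerOjVLamFu : IsScalarTower ↥(OjV h N) ↥(LamFK h N) (Fu p u) := inferInstance

/-- The Gauss lattice of `F_u`: `LamFK[T_u]`. -/
def LamU : Subalgebra ↥(OjV h N) (Fu p u) :=
  (Algebra.adjoin ↥(LamFK h N) {Tu p u}).restrictScalars ↥(OjV h N)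

theorem mem_LamU_iff (z : Fu p u) :
    z ∈ LamU h N p u ↔ z ∈ Algebra.adjoin ↥(LamFK h N) {Tu p u} := Iff.rfl

theorem Tu_mem_LamU : Tu p u ∈ LamU h N p u :=
  (mem_LamU_iff h N p u _).mpr (Algebra.subset_adjoin (Set.mem_singleton _))

theorem algebraMap_mem_LamU (x : ↥(LamFK h N)) :
    algebraMap (FK N K) (Fu p u) (x : FK N K) ∈ LamU h N p u :=
  (mem_LamU_iff h N p u _).mpr ((Algebra.adjoin ↥(LamFK h N) {Tu p u}).algebraMap_mem x)

set_option synthInstance.maxHeartbeats 400000 in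
instance isScalarTowerLamFu : IsScalarTower ↥(LamFK h N) (FK N K) (Fu p u) := inferInstance

theorem algebraMap_LamFK_Fu (x : ↥(LamFK h N)) :
    algebraMap ↥(LamFK h N) (Fu p u) x = algebraMap (FK N K) (Fu p u) (x : FK N K) := rfl

/-- The integral Kummer polynomial `X ^ p - u`. -/
def kumL (hu : u ∈ LamFK h N) : Polynomial ↥(LamFK h N) := X ^ p - C (⟨u, hu⟩ : ↥(LamFK h N))

theorem kumL_monic (hp : p ≠ 0) (hu : u ∈ LamFK h N) : (kumL h N p u hu).Monic :=
  monic_X_pow_sub_C _ hp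

theorem kumL_map (hu : u ∈ LamFK h N) :
    (kumL h N p u hu).map (algebraMap ↥(LamFK h N) (FK N K)) = kum p u := by
  rw [kumL, Polynomial.map_sub, Polynomial.map_pow, Polynomial.map_X, Polynomial.map_C]
  rfl

theorem aeval_Tu_kumL (hu : u ∈ LamFK h N) : aeval (Tu p u) (kumL h N p u hu) = 0 := by
  rw [kumL, aeval_def, eval₂_sub, eval₂_X_pow, eval₂_C, Tu_pow, algebraMap_LamFK_Fu, sub_self]

theorem natDegree_kumL (hu : u ∈ LamFK h N) : (kumL h N p u hu).natDegree = p :=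
  natDegree_X_pow_sub_C

/-- Elements of `LamU` are `LamFK`-combinations of `1, T_u, …, T_u ^ (p - 1)`. -/
theorem exists_coeff_of_mem_LamU (hp : p ≠ 0) (hu : u ∈ LamFK h N) (z : Fu p u)
    (hz : z ∈ LamU h N p u) :
    ∃ c : Fin p → FK N K, (∀ a, c a ∈ LamFK h N) ∧
      z = ∑ a : Fin p, algebraMap (FK N K) (Fu p u) (c a) * Tu p u ^ (a : ℕ) := by
  have hspan := span_pow_eq_adjoin (A := ↥(LamFK h N)) (Tu p u) (kumL h N p u hu)
    (kumL_monic h N p u hp hu) (aeval_Tu_kumL h N p u hu) p (natDegree_kumL h N p u hu).symm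
  have hz' : z ∈ Submodule.span ↥(LamFK h N) (Set.range fun i : Fin p => Tu p u ^ (i : ℕ)) := by
    rw [hspan]
    exact hz
  obtain ⟨c, hc⟩ := (Submodule.mem_span_range_iff_exists_fun _).mp hz'
  refine ⟨fun a => (c a : FK N K), fun a => (c a).2, ?_⟩
  rw [← hc]
  refine Finset.sum_congr rfl fun a _ => ?_
  rw [Algebra.smul_def, algebraMap_LamFK_Fu]

/-- Conversely such combinations lie in `LamU`. -/
theorem sum_mem_LamU (c : Fin p → FK N K) (hc : ∀ a, c a ∈ LamFK h N) :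
    ∑ a : Fin p, algebraMap (FK N K) (Fu p u) (c a) * Tu p u ^ (a : ℕ) ∈ LamU h N p u :=
  Subalgebra.sum_mem _ fun a _ => Subalgebra.mul_mem _ (algebraMap_mem_LamU h N p u ⟨c a, hc a⟩)
    (Subalgebra.pow_mem _ (Tu_mem_LamU h N p u) _)

/-- The powers `1, T_u, …, T_u ^ (p - 1)` are linearly independent over `F_K`. -/
theorem eq_zero_of_sum_eq_zero (hp : p ≠ 0) (c : Fin p → FK N K)
    (hc : ∑ a : Fin p, algebraMap (FK N K) (Fu p u) (c a) * Tu p u ^ (a : ℕ) = 0) :
    ∀ a, c a = 0 := by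
  set g : (FK N K)[X] := ∑ a : Fin p, C (c a) * X ^ (a : ℕ) with hg
  have h1 : AdjoinRoot.mk (kum p u) g = 0 := by
    rw [hg, map_sum, ← hc]
    refine Finset.sum_congr rfl fun a _ => ?_
    rw [map_mul, map_pow, AdjoinRoot.mk_C, AdjoinRoot.mk_X]
    rfl
  rw [AdjoinRoot.mk_eq_zero] at h1
  have hdeg : g.degree < (kum p u).degree := by
    rw [kum, degree_X_pow_sub_C (Nat.pos_of_ne_zero hp)]
    exact degree_sum_fin_lt c
  have hg0 : g = 0 := eq_zero_of_dvd_of_degree_lt h1 hdeg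
  intro b
  have h2 := congrArg (fun q : (FK N K)[X] => q.coeff (b : ℕ)) hg0
  simp only [hg, finsetSum_coeff, coeff_C_mul_X_pow, coeff_zero] at h2
  rw [Finset.sum_eq_single b] at h2
  · simpa using h2
  · intro a _ hab
    rw [if_neg]
    intro hba
    exact hab (Fin.ext hba.symm)
  · intro hb
    exact absurd (Finset.mem_univ b) hb

end Step1

section Step1Field

variable (h : IsGaussDatum A0 red π) (N : ℕ) (p : ℕ) (u : FK N K) [Fact (Irreducible (kum p u))]

/-- **`LamFK[T_u]` is self-dual over the Gauss valuation ring of `K(j)`.** -/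
theorem sd_LamU (hp : (p : K) ≠ 0) (hu0 : u ≠ 0)
    (hsd : SD ↥(OjV h N) ↥(K⟮jK N K⟯) (FK N K) (LamFK h N))
    (hu : u ∈ LamFK h N) (hui : u⁻¹ ∈ LamFK h N)
    (hpi : algebraMap K (FK N K) ((p : K))⁻¹ ∈ LamFK h N) :
    SD ↥(OjV h N) ↥(K⟮jK N K⟯) (Fu p u) (LamU h N p u) := by
  have hp' : p ≠ 0 := fun h0 => hp (by rw [h0, Nat.cast_zero])
  refine SD.adjoin_root Subtype.val_injective hsd (Tu p u) (kumL h N p u hu)
    (kumL_monic h N p u hp' hu) ?_ (aeval_Tu_kumL h N p u hu) ?_ ?_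
  · rw [kumL_map]
    exact Fact.out
  · exact IntermediateField.adjoin_eq_top_of_algebra _ _ (adjoin_Tu p u)
  · refine ⟨algebraMap ↥(LamFK h N) (Fu p u) (⟨_, hpi⟩ * ⟨_, hui⟩) * Tu p u,
      Subalgebra.mul_mem _ (Subalgebra.algebraMap_mem _ _) (Algebra.subset_adjoin rfl), ?_⟩
    have hd : aeval (Tu p u) (derivative (kumL h N p u hu))
        = algebraMap (FK N K) (Fu p u) (algebraMap K (FK N K) (p : K)) * Tu p u ^ (p - 1) := by
      rw [kumL, derivative_sub, derivative_X_pow, derivative_C, sub_zero, map_mul, map_pow,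
        aeval_X, aeval_C, map_natCast, map_natCast, map_natCast]
    rw [hd, algebraMap_LamFK_Fu]
    have e1 : Tu p u * Tu p u ^ (p - 1) = algebraMap (FK N K) (Fu p u) u := by
      rw [← pow_succ', Nat.sub_add_cancel (Nat.one_le_iff_ne_zero.mpr hp'), Tu_pow]
    have e2 : ((⟨_, hpi⟩ * ⟨_, hui⟩ : ↥(LamFK h N)) : FK N K) * algebraMap K (FK N K) (p : K) * u
        = 1 := by
      rw [MulMemClass.coe_mul]
      show algebraMap K (FK N K) ((p : K))⁻¹ * u⁻¹ * algebraMap K (FK N K) (p : K) * u = 1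
      have e3 : algebraMap K (FK N K) ((p : K))⁻¹ * algebraMap K (FK N K) (p : K) = 1 := by
        rw [← map_mul, inv_mul_cancel₀ hp, map_one]
      calc algebraMap K (FK N K) ((p : K))⁻¹ * u⁻¹ * algebraMap K (FK N K) (p : K) * u
          = (algebraMap K (FK N K) ((p : K))⁻¹ * algebraMap K (FK N K) (p : K)) * (u⁻¹ * u) := by
            ring
        _ = 1 := by rw [e3, inv_mul_cancel₀ hu0, mul_one]
    calc algebraMap (FK N K) (Fu p u) ((⟨_, hpi⟩ * ⟨_, hui⟩ : ↥(LamFK h N)) : FK N K) * Tu p u *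
          (algebraMap (FK N K) (Fu p u) (algebraMap K (FK N K) (p : K)) * Tu p u ^ (p - 1))
        = algebraMap (FK N K) (Fu p u) (((⟨_, hpi⟩ * ⟨_, hui⟩ : ↥(LamFK h N)) : FK N K) *
            algebraMap K (FK N K) (p : K)) * (Tu p u * Tu p u ^ (p - 1)) := by
          rw [map_mul]; ring
      _ = 1 := by rw [e1, ← map_mul, e2, map_one]

/-- `LamU` is the integral closure of the Gauss valuation ring of `K(j)` in `F_u`. -/
theorem mem_LamU_iff_isIntegral (hsdU : SD ↥(OjV h N) ↥(K⟮jK N K⟯) (Fu p u) (LamU h N p u))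
    (z : Fu p u) : z ∈ LamU h N p u ↔ IsIntegral ↥(OjV h N) z :=
  hsdU.mem_iff_isIntegral z

end Step1Field

/-! ### The top field: the integral closure of the Gauss valuation ring -/

section Top

variable (h : IsGaussDatum A0 red π) (N : ℕ) (p : ℕ) (u : FK N K) [Fact (Irreducible (kum p u))]
  (Pn Pd : ℤ[X])

/-! Shortcut instances. -/

set_option synthInstance.maxHeartbeats 400000 in
instance algebraKJFF : Algebra ↥(K⟮jK N K⟯) (FF p u Pn Pd) := inferInstance

set_option synthInstance.maxHeartbeats 400000 in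
instance isScalarTowerKJFF : IsScalarTower ↥(K⟮jK N K⟯) (FK N K) (FF p u Pn Pd) := inferInstance

set_option synthInstance.maxHeartbeats 400000 in
instance isScalarTowerKJFuFF : IsScalarTower ↥(K⟮jK N K⟯) (Fu p u) (FF p u Pn Pd) :=
  inferInstance

set_option synthInstance.maxHeartbeats 400000 in
instance algebraOjVFF : Algebra ↥(OjV h N) (FF p u Pn Pd) := inferInstance

set_option synthInstance.maxHeartbeats 400000 in
instance isScalarTowerOjVFF : IsScalarTower ↥(OjV h N) (FK N K) (FF p u Pn Pd) := inferInstance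

set_option synthInstance.maxHeartbeats 400000 in
instance isScalarTowerOjVFuFF : IsScalarTower ↥(OjV h N) (Fu p u) (FF p u Pn Pd) :=
  inferInstance

instance isScalarTowerOjVKJFF : IsScalarTower ↥(OjV h N) ↥(K⟮jK N K⟯) (FF p u Pn Pd) :=
  IsScalarTower.of_algebraMap_eq fun x => by
    rw [IsScalarTower.algebraMap_apply ↥(OjV h N) (FK N K) (FF p u Pn Pd),
      IsScalarTower.algebraMap_apply ↥(OjV h N) ↥(K⟮jK N K⟯) (FK N K),
      ← IsScalarTower.algebraMap_apply ↥(K⟮jK N K⟯) (FK N K) (FF p u Pn Pd)]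

set_option synthInstance.maxHeartbeats 400000 in
instance algebraA0FK : Algebra ↥A0 (FK N K) := inferInstance

set_option synthInstance.maxHeartbeats 400000 in
instance algebraA0Fu : Algebra ↥A0 (Fu p u) := inferInstance

set_option synthInstance.maxHeartbeats 400000 in
instance algebraA0FF : Algebra ↥A0 (FF p u Pn Pd) := inferInstance

set_option synthInstance.maxHeartbeats 400000 in
instance isScalarTowerA0KFK : IsScalarTower ↥A0 K (FK N K) := inferInstance

set_option synthInstance.maxHeartbeats 400000 in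
instance isScalarTowerA0KFu : IsScalarTower ↥A0 K (Fu p u) := inferInstance

set_option synthInstance.maxHeartbeats 400000 in
instance isScalarTowerA0KFF : IsScalarTower ↥A0 K (FF p u Pn Pd) := inferInstance

set_option synthInstance.maxHeartbeats 400000 in
instance isScalarTowerA0FuFF : IsScalarTower ↥A0 (Fu p u) (FF p u Pn Pd) := inferInstance

set_option synthInstance.maxHeartbeats 400000 in
instance isScalarTowerA0FKFF : IsScalarTower ↥A0 (FK N K) (FF p u Pn Pd) := inferInstance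

/-- Constants of `A0`, in the Gauss valuation ring of `K(j)`. -/
def cOj : ↥A0 →+* ↥(OjV h N) :=
  RingHom.codRestrict ((algebraMap K ↥(K⟮jK N K⟯)).comp A0.subtype) (OjV h N).toSubring
    (fun a => by
      show embJ N K (algebraMap K ↥(K⟮jK N K⟯) (a : K)) ∈ Oint red
      have e : embJ N K (algebraMap K ↥(K⟮jK N K⟯) (a : K)) = HahnSeries.C (a : K) := by
        rw [← coe_algebraMap_FK N]
        rfl
      rw [e]
      exact C_mem_Oint a)

theorem coe_cOj (a : ↥A0) :
    ((cOj h N a : ↥(OjV h N)) : ↥(K⟮jK N K⟯)) = algebraMap K ↥(K⟮jK N K⟯) (a : K) := rfl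

theorem algebraMap_cOj_FF (a : ↥A0) :
    algebraMap ↥(OjV h N) (FF p u Pn Pd) (cOj h N a) = algebraMap ↥A0 (FF p u Pn Pd) a := by
  have e : algebraMap ↥(OjV h N) ↥(K⟮jK N K⟯) (cOj h N a)
      = algebraMap K ↥(K⟮jK N K⟯) (a : K) := rfl
  rw [IsScalarTower.algebraMap_apply ↥(OjV h N) ↥(K⟮jK N K⟯) (FF p u Pn Pd), e,
    IsScalarTower.algebraMap_apply ↥A0 K (FF p u Pn Pd),
    IsScalarTower.algebraMap_apply K (FK N K) (FF p u Pn Pd),
    IsScalarTower.algebraMap_apply ↥(K⟮jK N K⟯) (FK N K) (FF p u Pn Pd)]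
  rfl

/-- The Gauss lattice of the top field: the integral closure of the Gauss valuation ring of
`K(j)`, as an `A0`-algebra. -/
def LamTop : Subalgebra ↥A0 (FF p u Pn Pd) :=
  { (integralClosure ↥(OjV h N) (FF p u Pn Pd)).toSubsemiring with
    algebraMap_mem' := fun a => by
      show IsIntegral ↥(OjV h N) (algebraMap ↥A0 (FF p u Pn Pd) a)
      rw [← algebraMap_cOj_FF h N p u Pn Pd a]
      exact isIntegral_algebraMap }

theorem mem_LamTop_iff (z : FF p u Pn Pd) :
    z ∈ LamTop h N p u Pn Pd ↔ IsIntegral ↥(OjV h N) z := Iff.rfl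

/-- `LamTop ∩ F_u = LamU`. -/
theorem algebraMap_mem_LamTop_iff
    (hsdU : SD ↥(OjV h N) ↥(K⟮jK N K⟯) (Fu p u) (LamU h N p u)) (w : Fu p u) :
    algebraMap (Fu p u) (FF p u Pn Pd) w ∈ LamTop h N p u Pn Pd ↔ w ∈ LamU h N p u := by
  rw [mem_LamTop_iff h N p u Pn Pd, mem_LamU_iff_isIntegral h N p u hsdU,
    isIntegral_algebraMap_iff (RingHom.injective (algebraMap (Fu p u) (FF p u Pn Pd)))]

/-- `π • z` in the top field. -/
theorem pi_smul_FF (z : FF p u Pn Pd) :
    (⟨π, h.pi_mem⟩ : ↥A0) • z = algebraMap K (FF p u Pn Pd) π * z := by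
  rw [Algebra.smul_def, IsScalarTower.algebraMap_apply ↥A0 K (FF p u Pn Pd)]
  rfl

/-- **The `hne` core**: an element `∑ c_a T_u ^ a` of `F_u` with some coefficient `c_a` not in
`π • LamFK` is not in `π • LamTop`. -/
theorem not_pi_smul_mem_LamTop
    (hsdU : SD ↥(OjV h N) ↥(K⟮jK N K⟯) (Fu p u) (LamU h N p u)) (hp : p ≠ 0)
    (hu : u ∈ LamFK h N) (c : Fin p → FK N K) (a₀ : Fin p)
    (hc : ∀ d ∈ LamFK h N, c a₀ ≠ algebraMap K (FK N K) π * d) :
    ¬ ∃ z ∈ LamTop h N p u Pn Pd, algebraMap (Fu p u) (FF p u Pn Pd)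
        (∑ a : Fin p, algebraMap (FK N K) (Fu p u) (c a) * Tu p u ^ (a : ℕ))
          = (⟨π, h.pi_mem⟩ : ↥A0) • z := by
  rintro ⟨z, hz, hzz⟩
  set S : Fu p u := ∑ a : Fin p, algebraMap (FK N K) (Fu p u) (c a) * Tu p u ^ (a : ℕ) with hS
  rw [pi_smul_FF h N p u Pn Pd] at hzz
  have hz2 : z = algebraMap (Fu p u) (FF p u Pn Pd) (algebraMap K (Fu p u) π⁻¹ * S) := by
    rw [map_mul, hzz, ← IsScalarTower.algebraMap_apply K (Fu p u) (FF p u Pn Pd), ← mul_assoc,
      ← map_mul, inv_mul_cancel₀ h.pi_ne_zero, map_one, one_mul]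
  rw [hz2, algebraMap_mem_LamTop_iff h N p u Pn Pd hsdU] at hz
  obtain ⟨d, hd, hdS⟩ := exists_coeff_of_mem_LamU h N p u hp hu _ hz
  have hS2 : S = algebraMap K (Fu p u) π * (algebraMap K (Fu p u) π⁻¹ * S) := by
    rw [← mul_assoc, ← map_mul, mul_inv_cancel₀ h.pi_ne_zero, map_one, one_mul]
  rw [hdS, Finset.mul_sum] at hS2
  have h0 : ∑ a : Fin p, algebraMap (FK N K) (Fu p u)
      (c a - algebraMap K (FK N K) π * d a) * Tu p u ^ (a : ℕ) = 0 := by
    have e : ∀ a : Fin p, algebraMap (FK N K) (Fu p u)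
        (c a - algebraMap K (FK N K) π * d a) * Tu p u ^ (a : ℕ)
        = algebraMap (FK N K) (Fu p u) (c a) * Tu p u ^ (a : ℕ)
          - algebraMap K (Fu p u) π * (algebraMap (FK N K) (Fu p u) (d a) * Tu p u ^ (a : ℕ)) := by
      intro a
      rw [map_sub, map_mul, ← IsScalarTower.algebraMap_apply K (FK N K) (Fu p u)]
      ring
    rw [Finset.sum_congr rfl fun a _ => e a, Finset.sum_sub_distrib, ← hS, ← hS2, sub_self]
  have h1 := eq_zero_of_sum_eq_zero N p u hp _ h0 a₀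
  exact hc (d a₀) (hd a₀) (sub_eq_zero.mp h1)

/-- The `hne` core for a coefficient which is a unit of the Gauss lattice. -/
theorem not_pi_smul_mem_LamTop_of_unit
    (hsdU : SD ↥(OjV h N) ↥(K⟮jK N K⟯) (Fu p u) (LamU h N p u)) (hp : p ≠ 0)
    (hu : u ∈ LamFK h N) (c : Fin p → FK N K) (a₀ : Fin p)
    (hc : ∃ v ∈ LamFK h N, c a₀ * v = 1) :
    ¬ ∃ z ∈ LamTop h N p u Pn Pd, algebraMap (Fu p u) (FF p u Pn Pd)
        (∑ a : Fin p, algebraMap (FK N K) (Fu p u) (c a) * Tu p u ^ (a : ℕ))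
          = (⟨π, h.pi_mem⟩ : ↥A0) • z := by
  refine not_pi_smul_mem_LamTop h N p u Pn Pd hsdU hp hu c a₀ fun d hd hcd => ?_
  obtain ⟨v, hv, hcv⟩ := hc
  rw [hcd, mul_assoc] at hcv
  exact pi_mul_ne_one h N _ ((LamFK h N).mul_mem hd hv) hcv

end Top

end Fermat.Agent.RedLib.GaussTower
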