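import Mathlib
import Fermat.Agent.RedLib.GaussTower
import Fermat.Agent.RedLib.EFam
import Fermat.Agent.RedLib.A0Facts

/-!
# RedLib/EFamTower: the e-family of the concrete tower `F_K ⊆ F_u ⊆ FF`

The hypotheses `e`, `heLam`, `hidem`, `horth`, `hne` of the abstract geometric theorem for the
Gauss lattice `GaussTower.LamTop` of the top field, from `EFam.exists_efam`.
-/

set_option autoImplicit false

noncomputable section

namespace Fermat.Agent.RedLib.EFamTower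

open ModularCurve Polynomial IntermediateField Fermat.Agent.RedLib.GaussK
  Fermat.Agent.RedLib.GaussBase Fermat.Agent.RedLib.Inst Fermat.Agent.RedLib.SelfDual
  Fermat.Agent.RedLib.GaussTower

variable {K : Type*} [Field K] {k : Type*} [Field k] {A0 : Subring K} {red : A0 →+* k} {π : K}

set_option synthInstance.maxHeartbeats 400000

variable (h : IsGaussDatum A0 red π) (N : ℕ) (p : ℕ) (u : FK N K) [Fact (Irreducible (kum p u))]
  (Pn Pd : ℤ[X])

/-- `T_u` lies in the Gauss lattice of the top field. -/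
theorem Tu_mem_LamTop (hsdU : SD ↥(OjV h N) ↥(K⟮jK N K⟯) (Fu p u) (LamU h N p u)) :
    algebraMap (Fu p u) (FF p u Pn Pd) (Tu p u) ∈ LamTop h N p u Pn Pd :=
  (algebraMap_mem_LamTop_iff h N p u Pn Pd hsdU _).mpr (Tu_mem_LamU h N p u)

/-- `T_u ^ p - 1 = u - 1 ∈ π • LamTop`. -/
theorem Tu_pow_sub_one (hsdU : SD ↥(OjV h N) ↥(K⟮jK N K⟯) (Fu p u) (LamU h N p u))
    (hu1 : ∃ w ∈ LamFK h N, u - 1 = algebraMap K (FK N K) π * w) :
    ∃ w ∈ LamTop h N p u Pn Pd,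
      algebraMap (Fu p u) (FF p u Pn Pd) (Tu p u ^ p - 1) = (⟨π, h.pi_mem⟩ : ↥A0) • w := by
  obtain ⟨w, hw, hwu⟩ := hu1
  refine ⟨algebraMap (Fu p u) (FF p u Pn Pd) (algebraMap (FK N K) (Fu p u) w),
    (algebraMap_mem_LamTop_iff h N p u Pn Pd hsdU _).mpr (algebraMap_mem_LamU h N p u ⟨w, hw⟩), ?_⟩
  rw [pi_smul_FF h N p u Pn Pd, Tu_pow]
  have e1 : algebraMap (FK N K) (Fu p u) u - 1 = algebraMap (FK N K) (Fu p u) (u - 1) := by
    rw [map_sub, map_one]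
  rw [e1, hwu, map_mul, map_mul, ← IsScalarTower.algebraMap_apply K (FK N K) (Fu p u),
    ← IsScalarTower.algebraMap_apply K (Fu p u) (FF p u Pn Pd)]

/-- `LamTop ∩ F_u` is spanned over `LamFK` by the powers of `T_u`. -/
theorem mem_span_of_mem_LamTop (hsdU : SD ↥(OjV h N) ↥(K⟮jK N K⟯) (Fu p u) (LamU h N p u))
    (hp : p ≠ 0) (hu : u ∈ LamFK h N) (z : Fu p u)
    (hz : algebraMap (Fu p u) (FF p u Pn Pd) z ∈ LamTop h N p u Pn Pd) :
    z ∈ Submodule.span ↥(LamFK h N) (Set.range fun a : Fin p => Tu p u ^ (a : ℕ)) := by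
  have hzU : z ∈ LamU h N p u := (algebraMap_mem_LamTop_iff h N p u Pn Pd hsdU z).mp hz
  have hspan := span_pow_eq_adjoin (A := ↥(LamFK h N)) (Tu p u) (kumL h N p u hu)
    (kumL_monic h N p u hp hu) (aeval_Tu_kumL h N p u hu) p (natDegree_kumL h N p u hu).symm
  rw [hspan]
  exact hzU

/-- `π` is not invertible in `LamFK`, seen in `F_u`. -/
theorem pi_mul_algebraMap_ne_one (c : ↥(LamFK h N)) :
    algebraMap ↥A0 (Fu p u) (⟨π, h.pi_mem⟩ : ↥A0) * algebraMap ↥(LamFK h N) (Fu p u) c ≠ 1 := by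
  intro h1
  have e1 : algebraMap ↥A0 (Fu p u) (⟨π, h.pi_mem⟩ : ↥A0)
      = algebraMap (FK N K) (Fu p u) (algebraMap K (FK N K) π) := by
    rw [IsScalarTower.algebraMap_apply ↥A0 K (Fu p u),
      IsScalarTower.algebraMap_apply K (FK N K) (Fu p u)]
    rfl
  rw [e1, algebraMap_LamFK_Fu, ← map_mul] at h1
  have h2 : algebraMap K (FK N K) π * (c : FK N K) = 1 :=
    (algebraMap (FK N K) (Fu p u)).injective (by rw [h1, map_one])
  exact pi_mul_ne_one h N _ c.2 h2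

/-- **The e-family of the concrete tower**: `e`, `heLam`, `hidem`, `horth`, `hne` of the abstract
geometric theorem for `Lam := LamTop` and `π := ⟨π, h.pi_mem⟩`. -/
theorem exists_efam_tower (hsdU : SD ↥(OjV h N) ↥(K⟮jK N K⟯) (Fu p u) (LamU h N p u))
    (hp : p.Prime) (ζ pinv : ↥A0) (hζ : IsPrimitiveRoot ζ p) (hpinv : (p : ↥A0) * pinv = 1)
    (hu : u ∈ LamFK h N) (hu1 : ∃ w ∈ LamFK h N, u - 1 = algebraMap K (FK N K) π * w) :
    ∃ e : Fin p → Fu p u,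
      (∀ i, algebraMap (Fu p u) (FF p u Pn Pd) (e i) ∈ LamTop h N p u Pn Pd) ∧
      (∀ i, ∃ z ∈ LamTop h N p u Pn Pd,
        algebraMap (Fu p u) (FF p u Pn Pd) (e i * e i - e i) = (⟨π, h.pi_mem⟩ : ↥A0) • z) ∧
      (∀ i j, i ≠ j → ∃ z ∈ LamTop h N p u Pn Pd,
        algebraMap (Fu p u) (FF p u Pn Pd) (e i * e j) = (⟨π, h.pi_mem⟩ : ↥A0) • z) ∧
      (∀ i, ¬ ∃ z ∈ LamTop h N p u Pn Pd,
        algebraMap (Fu p u) (FF p u Pn Pd) (e i) = (⟨π, h.pi_mem⟩ : ↥A0) • z) :=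
  Fermat.Agent.RedLib.EFam.exists_efam (R0 := ↥(LamFK h N)) (FK := FK N K) K
    (⟨π, h.pi_mem⟩ : ↥A0) hp ζ pinv hζ hpinv (Tu p u) (LamTop h N p u Pn Pd)
    (Tu_mem_LamTop h N p u Pn Pd hsdU) (Tu_pow_sub_one h N p u Pn Pd hsdU hu1)
    (Fermat.Agent.RedLib.A0Facts.linearIndependent_root_pow u Fact.out)
    (mem_span_of_mem_LamTop h N p u Pn Pd hsdU hp.ne_zero hu)
    (pi_mul_algebraMap_ne_one h N p u)

end Fermat.Agent.RedLib.EFamTower
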