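import Mathlib
import Fermat.Agent.RedLib.AGDefs
import Fermat.Agent.RedLib.AGSymm

/-!
# RedLib/GaussChange: the Gauss lattice for `j` is the Gauss lattice for `t`

If `Lam` is the integral closure of the Gauss ring `A0[j]_(π)`, `j = num(t)/den(t)`, `t` is
integral over `A0[j]`, the Gauss ring of `j` is contained in the Gauss ring of `t` (`hgauss`) and
every `g(t)`, `π ∤ g`, is a unit of `Lam` (`hU1`), then `Lam` is the integral closure of the Gauss
ring `A0[t]_(π)`.
-/

set_option autoImplicit false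

namespace Fermat.Agent.RedLib.GaussChange

open Polynomial Fermat.Agent.RedLib.AGDefs

section Scale

variable {A0 FF : Type*} [CommRing A0] [Field FF] [Algebra A0 FF]

/-- Clearing denominators: if every element of `Sj` becomes an element of `St` after
multiplication by a power of `δ ∈ St`, then every element integral over `Sj` becomes integral over
`St` after multiplication by a power of `δ`. -/
theorem exists_pow_mul_isIntegral_of_denoms (St Sj : Subalgebra A0 FF) (δ : FF) (hδ : δ ∈ St)
    (h : ∀ c ∈ Sj, ∃ m : ℕ, δ ^ m * c ∈ St) {w : FF} (hw : IsIntegral Sj w) :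
    ∃ m : ℕ, IsIntegral St (δ ^ m * w) := by
  classical
  obtain ⟨p, hp, hpw⟩ := hw
  -- a uniform exponent for all coefficients
  have hex : ∃ D : ℕ, ∀ i, δ ^ D * ((p.coeff i : Sj) : FF) ∈ St := by
    choose m hm using fun i : ℕ => h (p.coeff i) (p.coeff i).2
    refine ⟨(Finset.range (p.natDegree + 1)).sup m, fun i => ?_⟩
    by_cases hi : i ≤ p.natDegree
    · have hle : m i ≤ (Finset.range (p.natDegree + 1)).sup m :=
        Finset.le_sup (Finset.mem_range.mpr (Nat.lt_succ_of_le hi))
      obtain ⟨k, hk⟩ := Nat.exists_eq_add_of_le hle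
      rw [hk, pow_add, mul_comm (δ ^ m i), mul_assoc]
      exact St.mul_mem (St.pow_mem hδ k) (hm i)
    · rw [coeff_eq_zero_of_natDegree_lt (not_le.mp hi)]
      simp
  obtain ⟨D, hD⟩ := hex
  refine ⟨D, ?_⟩
  set n := p.natDegree with hn
  have hmem : ∀ i : Fin n, δ ^ (D * (n - i)) * ((p.coeff i : Sj) : FF) ∈ St := by
    intro i
    obtain ⟨k, hk⟩ : ∃ k, n - (i : ℕ) = k + 1 :=
      ⟨n - (i : ℕ) - 1, by have := i.2; omega⟩
    rw [hk, Nat.mul_succ, pow_add, mul_assoc]
    exact St.mul_mem (St.pow_mem hδ _) (hD i)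
  let f : Fin n → St := fun i => ⟨δ ^ (D * (n - i)) * ((p.coeff i : Sj) : FF), hmem i⟩
  refine ⟨X ^ n + ∑ i : Fin n, C (f i) * X ^ (i : ℕ), monic_X_pow_add (degree_sum_fin_lt f), ?_⟩
  have hpw' : ∑ i ∈ Finset.range n, ((p.coeff i : Sj) : FF) * w ^ i + w ^ n = 0 := by
    have h1 := hpw
    rw [eval₂_eq_sum_range, Finset.sum_range_succ, ← hn] at h1
    have h2 : p.coeff n = 1 := hp
    rw [h2] at h1
    simpa using h1
  have hterm : ∀ i : Fin n, (δ ^ (D * (n - i)) * ((p.coeff i : Sj) : FF)) * (δ ^ D * w) ^ (i : ℕ)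
      = δ ^ (D * n) * (((p.coeff i : Sj) : FF) * w ^ (i : ℕ)) := by
    intro i
    have hin : D * (n - (i : ℕ)) + D * (i : ℕ) = D * n := by
      rw [← Nat.mul_add, Nat.sub_add_cancel i.2.le]
    rw [mul_pow, ← pow_mul, ← hin, pow_add]
    ring
  rw [eval₂_add, eval₂_pow, eval₂_X, eval₂_finsetSum]
  have hsum : ∑ i : Fin n, eval₂ (algebraMap St FF) (δ ^ D * w) (C (f i) * X ^ (i : ℕ))
      = δ ^ (D * n) * ∑ i ∈ Finset.range n, ((p.coeff i : Sj) : FF) * w ^ i := by
    rw [Finset.mul_sum, ← Fin.sum_univ_eq_sum_range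
      (fun i => δ ^ (D * n) * (((p.coeff i : Sj) : FF) * w ^ i)) n]
    refine Finset.sum_congr rfl fun i _ => ?_
    rw [eval₂_mul, eval₂_C, eval₂_pow, eval₂_X]
    exact hterm i
  rw [hsum, mul_pow, ← pow_mul, ← mul_add, add_comm, hpw', mul_zero]

end Scale

section Main

variable {A0 FF : Type*} [CommRing A0] [Field FF] [Algebra A0 FF]

/-- Homogenisation: `P(j) * den(t) ^ deg P` is a polynomial in `t` when `num(t) = j * den(t)`. -/
theorem exists_aeval_eq_of_cover (j t : FF) (num den : A0[X])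
    (hcover : aeval t num = j * aeval t den) (P : A0[X]) :
    ∃ P' : A0[X], aeval j P * aeval t den ^ P.natDegree = aeval t P' := by
  refine ⟨∑ k ∈ Finset.range (P.natDegree + 1),
    C (P.coeff k) * num ^ k * den ^ (P.natDegree - k), ?_⟩
  rw [aeval_eq_sum_range, Finset.sum_mul, map_sum]
  refine Finset.sum_congr rfl fun k hk => ?_
  have hk' : k ≤ P.natDegree := Nat.lt_succ_iff.mp (Finset.mem_range.mp hk)
  rw [map_mul, map_mul, map_pow, map_pow, aeval_C, hcover, mul_pow, Algebra.smul_def]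
  have : aeval t den ^ P.natDegree = aeval t den ^ k * aeval t den ^ (P.natDegree - k) := by
    rw [← pow_add, Nat.add_sub_cancel' hk']
  rw [this]
  ring

/-- **Change of coordinate for the Gauss lattice** (`j ⟶ t`). -/
theorem isGaussLattice_of_cover {π : A0} (hπ : Prime π) (j t : FF) (Lam : Subalgebra A0 FF)
    (hLamj : IsGaussLattice A0 π j Lam)
    (ht : IsIntegral (Algebra.adjoin A0 ({j} : Set FF)) t)
    (num den : A0[X]) (hden : ¬ C π ∣ den) (hcover : aeval t num = j * aeval t den)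
    (hgauss : ∀ Q : A0[X], ¬ C π ∣ Q →
      ∃ Q' : A0[X], ¬ C π ∣ Q' ∧ aeval j Q * aeval t den ^ Q.natDegree = aeval t Q')
    (hU1 : ∀ g : A0[X], ¬ C π ∣ g → ∃ l ∈ Lam, aeval t g * l = 1) :
    IsGaussLattice A0 π t Lam := by
  have hCπ : Prime (C π : A0[X]) := prime_C_iff.mpr hπ
  have hδ : aeval t den ∈ Algebra.adjoin A0 ({t} : Set FF) := by
    rw [Algebra.adjoin_singleton_eq_range_aeval]
    exact ⟨den, rfl⟩
  intro y
  constructor
  · -- `y ∈ Lam ⟹ g(t) y` integral over `A0[t]`
    intro hy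
    obtain ⟨Q, hQ, hw⟩ := (hLamj y).mp hy
    have hw' : IsIntegral (Algebra.adjoin A0 ({j} : Set FF)) (aeval j Q * y) := hw
    obtain ⟨m, hm⟩ := exists_pow_mul_isIntegral_of_denoms (Algebra.adjoin A0 ({t} : Set FF))
      (Algebra.adjoin A0 ({j} : Set FF)) (aeval t den) hδ (by
        intro c hc
        rw [Algebra.adjoin_singleton_eq_range_aeval] at hc
        obtain ⟨P, rfl⟩ := hc
        obtain ⟨P', hP'⟩ := exists_aeval_eq_of_cover j t num den hcover P
        refine ⟨P.natDegree, ?_⟩
        rw [mul_comm]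
        show (aeval j) P * aeval t den ^ P.natDegree ∈ _
        rw [hP', Algebra.adjoin_singleton_eq_range_aeval]
        exact ⟨P', rfl⟩) hw'
    obtain ⟨Q', hQ', hQQ'⟩ := hgauss Q hQ
    refine ⟨den ^ m * Q', ?_, ?_⟩
    · intro hdvd
      rcases hCπ.dvd_or_dvd hdvd with h | h
      · exact hden (hCπ.dvd_of_dvd_pow h)
      · exact hQ' h
    · show IsIntegral (Algebra.adjoin A0 ({t} : Set FF)) _
      have he : aeval t (den ^ m * Q') * y
          = aeval t den ^ Q.natDegree * (aeval t den ^ m * (aeval j Q * y)) := by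
        rw [map_mul, map_pow, ← hQQ']
        ring
      rw [he]
      have hd : IsIntegral (Algebra.adjoin A0 ({t} : Set FF)) (aeval t den ^ Q.natDegree) := by
        have hmem : aeval t den ^ Q.natDegree ∈ Algebra.adjoin A0 ({t} : Set FF) :=
          Subalgebra.pow_mem _ hδ _
        have he0 : aeval t den ^ Q.natDegree
            = algebraMap (Algebra.adjoin A0 ({t} : Set FF)) FF ⟨_, hmem⟩ := rfl
        rw [he0]
        exact isIntegral_algebraMap
      exact hd.mul hm
  · -- `g(t) y` integral over `A0[t] ⟹ y ∈ Lam`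
    rintro ⟨g, hg, hgy⟩
    have hgy' : IsIntegral (Algebra.adjoin A0 ({t} : Set FF)) (aeval t g * y) := hgy
    -- `A0[t] ≤ chart A0 j`
    have hle : Algebra.adjoin A0 ({t} : Set FF) ≤ chart A0 j :=
      Algebra.adjoin_le (by
        intro z hz
        rw [Set.mem_singleton_iff] at hz
        subst hz
        exact ht)
    have h1 : IsIntegral (chart A0 j) (aeval t g * y) :=
      AGSymm.isIntegral_of_subalgebra_le hle hgy'
    have h2 : IsIntegral (integralClosure (Algebra.adjoin A0 ({j} : Set FF)) FF)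
        (aeval t g * y) := h1
    have h3 : IsIntegral (Algebra.adjoin A0 ({j} : Set FF)) (aeval t g * y) :=
      isIntegral_trans _ h2
    have h4 : aeval t g * y ∈ Lam := by
      rw [hLamj]
      refine ⟨1, ?_, ?_⟩
      · intro hdvd
        exact hCπ.not_isUnit (isUnit_of_dvd_one hdvd)
      · rw [map_one, one_mul]
        exact h3
    obtain ⟨l, hl, hgl⟩ := hU1 g hg
    have hy : y = l * (aeval t g * y) := by
      rw [← mul_assoc, mul_comm l, hgl, one_mul]
    rw [hy]
    exact Lam.mul_mem hl h4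

end Main

end Fermat.Agent.RedLib.GaussChange
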