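/-
S18 long shot (helper8): the abstract Gauss discrete valuation ring of a line.

For a noetherian domain `A0` with a prime element `π` and an element `x` of a field `Kt`,
transcendental over `A0`, `gaussRing hπ x = {v(x)/u(x) : π ∤ u}` is a discrete valuation ring with
uniformiser `π`; its fraction field is `Kt` as soon as `Kt` is generated by `x`.
-/
import Mathlib
import Fermat.Agent.RedLib.AGDefs

set_option autoImplicit false

namespace Fermat.Agent.RedLib.GaussLine

open Polynomial

section Def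

variable {A0 Kt : Type*} [CommRing A0] [Field Kt] [Algebra A0 Kt]

theorem not_C_dvd_one {π : A0} (hπ : Prime π) : ¬ (C π : A0[X]) ∣ 1 :=
  (Polynomial.prime_C_iff.mpr hπ).not_dvd_one

/-- The Gauss ring `{z : ∃ u v, π ∤ u, u(x) z = v(x)}` of the line with coordinate `x`. -/
def gaussRing {π : A0} (hπ : Prime π) (x : Kt) : Subring Kt where
  carrier := {z | ∃ u v : A0[X], ¬ C π ∣ u ∧ aeval x u * z = aeval x v}
  mul_mem' := by
    rintro a b ⟨u, v, hu, h⟩ ⟨u', v', hu', h'⟩
    refine ⟨u * u', v * v', fun hd => ?_, ?_⟩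
    · rcases (Polynomial.prime_C_iff.mpr hπ).dvd_or_dvd hd with h1 | h1
      exacts [hu h1, hu' h1]
    · rw [map_mul, map_mul, ← h, ← h']
      ring
  one_mem' := ⟨1, 1, not_C_dvd_one hπ, by simp⟩
  add_mem' := by
    rintro a b ⟨u, v, hu, h⟩ ⟨u', v', hu', h'⟩
    refine ⟨u * u', v * u' + v' * u, fun hd => ?_, ?_⟩
    · rcases (Polynomial.prime_C_iff.mpr hπ).dvd_or_dvd hd with h1 | h1
      exacts [hu h1, hu' h1]
    · rw [map_mul, map_add, map_mul, map_mul, ← h, ← h']
      ring
  zero_mem' := ⟨1, 0, not_C_dvd_one hπ, by simp⟩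
  neg_mem' := by
    rintro a ⟨u, v, hu, h⟩
    exact ⟨u, -v, hu, by rw [map_neg, ← h]; ring⟩

theorem mem_gaussRing {π : A0} (hπ : Prime π) (x : Kt) (z : Kt) :
    z ∈ gaussRing hπ x ↔ ∃ u v : A0[X], ¬ C π ∣ u ∧ aeval x u * z = aeval x v := Iff.rfl

theorem aeval_mem {π : A0} (hπ : Prime π) (x : Kt) (f : A0[X]) : aeval x f ∈ gaussRing hπ x :=
  ⟨1, f, not_C_dvd_one hπ, by simp⟩

theorem algebraMap_mem {π : A0} (hπ : Prime π) (x : Kt) (a : A0) :
    algebraMap A0 Kt a ∈ gaussRing hπ x := by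
  have := aeval_mem hπ x (C a)
  rwa [aeval_C] at this

theorem inv_aeval_mem {π : A0} (hπ : Prime π) (x : Kt) {u : A0[X]} (hu : ¬ C π ∣ u) :
    (aeval x u)⁻¹ ∈ gaussRing hπ x := by
  by_cases h : aeval x u = 0
  · rw [h, inv_zero]
    exact Subring.zero_mem _
  · exact ⟨u, 1, hu, by rw [mul_inv_cancel₀ h, map_one]⟩

end Def

section DVR

variable {A0 Kt : Type*} [CommRing A0] [IsDomain A0] [IsNoetherianRing A0] [Field Kt]
  [Algebra A0 Kt]

/-- The Gauss ring of a transcendental element is a discrete valuation ring. -/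
theorem isDiscreteValuationRing {π : A0} (hπ : Prime π) {x : Kt} (hx : Transcendental A0 x) :
    IsDiscreteValuationRing (gaussRing hπ x) := by
  have hinj : Function.Injective (aeval x : A0[X] →ₐ[A0] Kt) := transcendental_iff_injective.mp hx
  have hne : ∀ f : A0[X], f ≠ 0 → aeval x f ≠ 0 := fun f hf h =>
    hf (hinj (h.trans (map_zero _).symm))
  have hCπ : ¬ IsUnit (C π : A0[X]) := (Polynomial.prime_C_iff.mpr hπ).not_isUnit
  set ϖ : gaussRing hπ x := ⟨algebraMap A0 Kt π, algebraMap_mem hπ x π⟩ with hϖ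
  have hϖK : (ϖ : Kt) = aeval x (C π) := by rw [aeval_C]
  have hϖ0 : ϖ ≠ 0 := by
    intro h
    have h1 : aeval x (C π) = 0 := by rw [← hϖK, h]; rfl
    exact hne _ (by simpa using hπ.ne_zero) h1
  have hϖunit : ¬ IsUnit ϖ := by
    intro h
    obtain ⟨b, hb⟩ := isUnit_iff_exists_inv.mp h
    obtain ⟨u, v, hu, huv⟩ := b.2
    have hb' : (ϖ : Kt) * (b : Kt) = 1 := congrArg Subtype.val hb
    have h1 : aeval x u = aeval x (C π * v) := by
      rw [map_mul, ← hϖK, ← huv]
      linear_combination (-(aeval x u)) * hb'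
    exact hu ⟨v, hinj h1⟩
  have hfact : ∀ z : gaussRing hπ x, z ≠ 0 → ∃ n : ℕ, Associated (ϖ ^ n) z := by
    intro z hz
    obtain ⟨u, v, hu, huv⟩ := z.2
    have hu0 : aeval x u ≠ 0 := hne u (by rintro rfl; exact hu (dvd_zero _))
    have hv0 : v ≠ 0 := by
      rintro rfl
      rw [map_zero] at huv
      rcases mul_eq_zero.mp huv with h | h
      · exact hu0 h
      · exact hz (Subtype.ext h)
    obtain ⟨n, v0, hv0', rfl⟩ := WfDvdMonoid.max_power_factor' hv0 hCπ
    have hv00 : aeval x v0 ≠ 0 := hne v0 (by rintro rfl; exact hv0' (dvd_zero _))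
    have hw1 : aeval x v0 * (aeval x u)⁻¹ ∈ gaussRing hπ x :=
      Subring.mul_mem _ (aeval_mem hπ x v0) (inv_aeval_mem hπ x hu)
    have hw2 : aeval x u * (aeval x v0)⁻¹ ∈ gaussRing hπ x :=
      Subring.mul_mem _ (aeval_mem hπ x u) (inv_aeval_mem hπ x hv0')
    refine ⟨n, ⟨⟨_, hw1⟩, ⟨_, hw2⟩, Subtype.ext ?_, Subtype.ext ?_⟩, Subtype.ext ?_⟩
    · show aeval x v0 * (aeval x u)⁻¹ * (aeval x u * (aeval x v0)⁻¹) = 1
      field_simp
    · show aeval x u * (aeval x v0)⁻¹ * (aeval x v0 * (aeval x u)⁻¹) = 1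
      field_simp
    · show (ϖ : Kt) ^ n * (aeval x v0 * (aeval x u)⁻¹) = (z : Kt)
      rw [map_mul, map_pow, ← hϖK] at huv
      field_simp
      linear_combination (-1 : Kt) * huv
  have hirr : Irreducible ϖ := by
    refine ⟨hϖunit, fun a b hab => ?_⟩
    have ha0 : a ≠ 0 := by rintro rfl; exact hϖ0 (by rw [hab, zero_mul])
    have hb0 : b ≠ 0 := by rintro rfl; exact hϖ0 (by rw [hab, mul_zero])
    obtain ⟨m, wa, hwa⟩ := hfact a ha0
    obtain ⟨n, wb, hwb⟩ := hfact b hb0
    rcases Nat.eq_zero_or_pos m with rfl | hm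
    · left
      rw [← hwa, pow_zero, one_mul]
      exact wa.isUnit
    rcases Nat.eq_zero_or_pos n with rfl | hn
    · right
      rw [← hwb, pow_zero, one_mul]
      exact wb.isUnit
    exfalso
    obtain ⟨m', rfl⟩ : ∃ m', m = m' + 1 := ⟨m - 1, by omega⟩
    obtain ⟨n', rfl⟩ : ∃ n', n = n' + 1 := ⟨n - 1, by omega⟩
    have h1 : ϖ * 1 = ϖ * (ϖ * (ϖ ^ (m' + n') * (wa * wb))) := by
      rw [mul_one]
      conv_lhs => rw [hab, ← hwa, ← hwb]
      rw [pow_succ, pow_succ, pow_add]
      ring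
    have h2 := mul_left_cancel₀ hϖ0 h1
    exact hϖunit (IsUnit.of_mul_eq_one _ h2.symm)
  exact IsDiscreteValuationRing.ofHasUnitMulPowIrreducibleFactorization
    ⟨ϖ, hirr, fun hz => hfact _ hz⟩

end DVR

section Frac

variable {A0 Kt : Type*} [CommRing A0] [IsDomain A0] [Field Kt] [Algebra A0 Kt]

omit [IsDomain A0] in
/-- `Kt` is the fraction field of the Gauss ring when it is generated by `x`. -/
theorem isFractionRing {π : A0} (hπ : Prime π) {x : Kt}
    (hKt : ∀ z : Kt, ∃ f g : A0[X], aeval x g ≠ 0 ∧ z * aeval x g = aeval x f) :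
    IsFractionRing (gaussRing hπ x) Kt := by
  refine IsFractionRing.of_field (gaussRing hπ x) Kt fun z => ?_
  obtain ⟨f, g, hg, h⟩ := hKt z
  refine ⟨⟨aeval x f, aeval_mem hπ x f⟩, ⟨aeval x g, aeval_mem hπ x g⟩, ?_⟩
  show z = aeval x f / aeval x g
  rw [eq_div_iff hg, h]

omit [IsDomain A0] in
/-- The numerator and the denominator of a unit of the Gauss ring are both prime to `π`. -/
theorem exists_of_mul_eq_one {π : A0} (hπ : Prime π) {x : Kt} (hx : Transcendental A0 x)
    {d d' : Kt} (hd : d ∈ gaussRing hπ x) (hd' : d' ∈ gaussRing hπ x) (h : d * d' = 1) :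
    ∃ u v : A0[X], ¬ C π ∣ u ∧ ¬ C π ∣ v ∧ aeval x u * d = aeval x v := by
  have hinj : Function.Injective (aeval x : A0[X] →ₐ[A0] Kt) := transcendental_iff_injective.mp hx
  obtain ⟨u, v, hu, huv⟩ := hd
  obtain ⟨u', v', hu', huv'⟩ := hd'
  refine ⟨u, v, hu, fun hv => ?_, huv⟩
  have h1 : aeval x (u * u') = aeval x (v * v') := by
    rw [map_mul, map_mul, ← huv, ← huv']
    linear_combination (-(aeval x u * aeval x u')) * h
  have h2 : u * u' = v * v' := hinj h1
  have h3 : C π ∣ u * u' := h2 ▸ Dvd.dvd.mul_right hv v'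
  rcases (Polynomial.prime_C_iff.mpr hπ).dvd_or_dvd h3 with h4 | h4
  exacts [hu h4, hu' h4]

omit [IsDomain A0] in
/-- Adapter: a basis inside `Lam` whose discriminant is a unit of the Gauss ring gives
`IsGaussEtale`. -/
theorem isGaussEtale_of_basis {π : A0} (hπ : Prime π) {x : Kt} (hx : Transcendental A0 x)
    {FF : Type*} [Field FF] [Algebra A0 FF] [Algebra Kt FF] (Lam : Subalgebra A0 FF) {n : ℕ}
    (b : Module.Basis (Fin n) Kt FF) (hb : ∀ i, b i ∈ Lam) (u v : Kt) (hu : u ∈ gaussRing hπ x)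
    (hv : v ∈ gaussRing hπ x) (huv : u * v = 1) (hd : Algebra.discr Kt b = u) :
    AGDefs.IsGaussEtale A0 π x Lam := by
  obtain ⟨p, q, hp, hq, hpq⟩ := exists_of_mul_eq_one hπ hx hu hv huv
  exact ⟨n, b, hb, p, q, hp, hq, by rw [hd]; exact hpq⟩

end Frac

section Tower

variable {A0 K Kt : Type*} [CommRing A0] [IsDomain A0] [Field K] [Algebra A0 K]
  [IsFractionRing A0 K] [Field Kt] [Algebra A0 Kt] [Algebra K Kt] [IsScalarTower A0 K Kt]

/-- Clearing denominators in the generation hypothesis. -/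
theorem hKt_base {x : Kt} (hx : Transcendental K x)
    (hKt : ∀ z : Kt, ∃ f g : K[X], g ≠ 0 ∧ z * aeval x g = aeval x f) :
    ∀ z : Kt, ∃ f g : A0[X], aeval x g ≠ 0 ∧ z * aeval x g = aeval x f := by
  classical
  have hinj : Function.Injective (aeval x : K[X] →ₐ[K] Kt) := transcendental_iff_injective.mp hx
  intro z
  obtain ⟨f, g, hg, h⟩ := hKt z
  obtain ⟨bf, hbfM, hbf⟩ := IsLocalization.integerNormalization_spec (nonZeroDivisors A0) f
  obtain ⟨bg, hbgM, hbg⟩ := IsLocalization.integerNormalization_spec (nonZeroDivisors A0) g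
  set f' : A0[X] := C bg * IsLocalization.integerNormalization (nonZeroDivisors A0) f
  set g' : A0[X] := C bf * IsLocalization.integerNormalization (nonZeroDivisors A0) g
  have hsm : ∀ (b : A0) (P : K[X]), b • P = C (algebraMap A0 K b) * P := fun b P => by
    rw [Algebra.smul_def, Polynomial.algebraMap_apply]
  have hf' : aeval x f' = algebraMap A0 Kt bg * (algebraMap A0 Kt bf * aeval x f) := by
    have h1 : f'.map (algebraMap A0 K) = C (algebraMap A0 K bg) * (C (algebraMap A0 K bf) * f) := by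
      rw [Polynomial.map_mul, map_C, hbf, hsm]
    rw [← aeval_map_algebraMap K, h1, map_mul, map_mul, aeval_C, aeval_C,
      ← IsScalarTower.algebraMap_apply, ← IsScalarTower.algebraMap_apply]
  have hg' : aeval x g' = algebraMap A0 Kt bf * (algebraMap A0 Kt bg * aeval x g) := by
    have h1 : g'.map (algebraMap A0 K) = C (algebraMap A0 K bf) * (C (algebraMap A0 K bg) * g) := by
      rw [Polynomial.map_mul, map_C, hbg, hsm]
    rw [← aeval_map_algebraMap K, h1, map_mul, map_mul, aeval_C, aeval_C,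
      ← IsScalarTower.algebraMap_apply, ← IsScalarTower.algebraMap_apply]
  have hA : Function.Injective (algebraMap A0 Kt) := by
    rw [IsScalarTower.algebraMap_eq A0 K Kt]
    exact (algebraMap K Kt).injective.comp (IsFractionRing.injective A0 K)
  have hbf0 : algebraMap A0 Kt bf ≠ 0 := fun h0 =>
    nonZeroDivisors.ne_zero hbfM (hA (h0.trans (map_zero _).symm))
  have hbg0 : algebraMap A0 Kt bg ≠ 0 := fun h0 =>
    nonZeroDivisors.ne_zero hbgM (hA (h0.trans (map_zero _).symm))
  have hg0 : aeval x g ≠ 0 := fun h0 => hg (hinj (h0.trans (map_zero _).symm))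
  refine ⟨f', g', ?_, ?_⟩
  · rw [hg']
    exact mul_ne_zero hbf0 (mul_ne_zero hbg0 hg0)
  · rw [hf', hg']
    linear_combination (algebraMap A0 Kt bf * algebraMap A0 Kt bg) * h

end Tower

section Adjoin

variable {A0 K FF : Type*} [CommRing A0] [IsDomain A0] [Field K] [Algebra A0 K]
  [IsFractionRing A0 K] [Field FF] [Algebra A0 FF] [Algebra K FF] [IsScalarTower A0 K FF]

omit [IsDomain A0] [IsFractionRing A0 K] in
/-- The generator of `K⟮tt⟯` is transcendental over `K` when `tt` is. -/
theorem transcendental_gen {tt : FF} (htt : Transcendental K tt) :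
    Transcendental K (IntermediateField.AdjoinSimple.gen K tt) := by
  intro h
  apply htt
  obtain ⟨P, hP0, hP⟩ := h
  refine ⟨P, hP0, ?_⟩
  have := congrArg (algebraMap (IntermediateField.adjoin K {tt}) FF) hP
  rwa [← aeval_algebraMap_apply, map_zero, IntermediateField.AdjoinSimple.algebraMap_gen] at this

omit [IsDomain A0] [IsFractionRing A0 K] in
/-- The generation hypothesis for `K⟮tt⟯`. -/
theorem hKt_adjoin {tt : FF} (htt : Transcendental K tt) :
    ∀ z : IntermediateField.adjoin K {tt}, ∃ f g : K[X], g ≠ 0 ∧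
      z * aeval (IntermediateField.AdjoinSimple.gen K tt) g =
        aeval (IntermediateField.AdjoinSimple.gen K tt) f := by
  intro z
  obtain ⟨r, s, hrs⟩ := (IntermediateField.mem_adjoin_simple_iff K (z : FF)).mp z.2
  by_cases hs : s = 0
  · refine ⟨0, 1, one_ne_zero, ?_⟩
    rw [map_one, mul_one, map_zero]
    apply Subtype.ext
    rw [hrs, hs, map_zero, div_zero]
    rfl
  · refine ⟨r, s, hs, ?_⟩
    have hs0 : aeval tt s ≠ 0 := fun h0 => htt ⟨s, hs, h0⟩
    apply (algebraMap (IntermediateField.adjoin K {tt}) FF).injective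
    rw [map_mul, ← aeval_algebraMap_apply, ← aeval_algebraMap_apply,
      IntermediateField.AdjoinSimple.algebraMap_gen]
    show (z : FF) * aeval tt s = aeval tt r
    rw [hrs, div_mul_cancel₀ _ hs0]

end Adjoin

section Final

variable {A0 K FF : Type*} [CommRing A0] [IsDomain A0] [IsNoetherianRing A0] [Field K]
  [Algebra A0 K] [IsFractionRing A0 K] [Field FF] [Algebra A0 FF] [Algebra K FF]
  [IsScalarTower A0 K FF]

omit [IsDomain A0] [IsNoetherianRing A0] in
/-- The generator of `K⟮tt⟯` is transcendental over `A0` when `tt` is transcendental over `K`. -/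
theorem transcendental_gen_base {tt : FF} (htt : Transcendental K tt) :
    Transcendental A0 (IntermediateField.AdjoinSimple.gen K tt) :=
  (transcendental_gen htt).restrictScalars (IsFractionRing.injective A0 K)

/-- The Gauss ring of `K⟮tt⟯` is a discrete valuation ring. -/
theorem isDiscreteValuationRing_adjoin {π : A0} (hπ : Prime π) {tt : FF}
    (htt : Transcendental K tt) :
    IsDiscreteValuationRing (gaussRing hπ (IntermediateField.AdjoinSimple.gen K tt)) :=
  isDiscreteValuationRing hπ (transcendental_gen_base htt)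

omit [IsNoetherianRing A0] in
/-- `K⟮tt⟯` is the fraction field of its Gauss ring. -/
theorem isFractionRing_adjoin {π : A0} (hπ : Prime π) {tt : FF} (htt : Transcendental K tt) :
    IsFractionRing (gaussRing hπ (IntermediateField.AdjoinSimple.gen K tt))
      (IntermediateField.adjoin K {tt}) :=
  isFractionRing hπ (hKt_base (transcendental_gen htt) (hKt_adjoin htt))

end Final

end Fermat.Agent.RedLib.GaussLine
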