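/-
S18 long shot (helper8): the Gauss discrete valuation ring of a rational function field, in the
existential shape requested by the provider side (helper7).  Thin wrapper around `GaussLine`.
-/
import Fermat.Agent.RedLib.GaussLine

set_option autoImplicit false

namespace Fermat.Agent.RedLib.GaussDVR

open Polynomial

/-- The Gauss ring `O' = {v(x)/u(x) : π ∤ u}` of `Kt = K(x)`: a principal ideal domain with
fraction field `Kt`, whose units have numerator and denominator prime to `π`. -/
theorem exists_gaussRing {A0 K Kt : Type*} [CommRing A0] [IsDomain A0]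
    [IsDiscreteValuationRing A0] [Field K] [Algebra A0 K] [IsFractionRing A0 K] [Field Kt]
    [Algebra A0 Kt] [Algebra K Kt] [IsScalarTower A0 K Kt]
    (π : A0) (hπ : Irreducible π) (xK : Kt) (hxK : Transcendental K xK)
    (hKt : ∀ z : Kt, ∃ f g : K[X], g ≠ 0 ∧ z * aeval xK g = aeval xK f) :
    ∃ O' : Subring Kt, IsPrincipalIdealRing ↥O' ∧ IsFractionRing ↥O' Kt ∧
      (∀ z : Kt, z ∈ O' ↔ ∃ u v : A0[X], ¬ C π ∣ u ∧ z * aeval xK u = aeval xK v) ∧
      (∀ z ∈ O', ∀ z' ∈ O', z * z' = 1 →
        ∃ u v : A0[X], ¬ C π ∣ u ∧ ¬ C π ∣ v ∧ aeval xK u * z = aeval xK v) := by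
  have hπp : Prime π := hπ.prime
  have hxA : Transcendental A0 xK := hxK.restrictScalars (IsFractionRing.injective A0 K)
  have hdvr : IsDiscreteValuationRing (GaussLine.gaussRing hπp xK) :=
    GaussLine.isDiscreteValuationRing hπp hxA
  refine ⟨GaussLine.gaussRing hπp xK, inferInstance,
    GaussLine.isFractionRing hπp (GaussLine.hKt_base hxK hKt), fun z => ?_, fun z hz z' hz' h => ?_⟩
  · rw [GaussLine.mem_gaussRing]
    constructor
    · rintro ⟨u, v, hu, h⟩
      exact ⟨u, v, hu, by rw [mul_comm]; exact h⟩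
    · rintro ⟨u, v, hu, h⟩
      exact ⟨u, v, hu, by rw [mul_comm]; exact h⟩
  · exact GaussLine.exists_of_mul_eq_one hπp hxA hz hz' h

end Fermat.Agent.RedLib.GaussDVR
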