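/-
S18 long shot, provider side (D1) (helper4): SD-DESCENT.
`Lam` a self-dual lattice of `E/K` over `O`; `K ⊆ K' ⊆ E` an intermediate field and `O' ⊆ K'` a
principal ideal subring with fraction field `K'`, containing `O` and integral over `O`.  Then an
`O'`-basis of `Lam` is a `K'`-basis of `E` whose discriminant is a unit of `O'`.
-/
import Mathlib
import Fermat.Agent.RedLib.SelfDual

set_option autoImplicit false

namespace Fermat.Agent.RedLib.SDDescent

open Fermat.Agent.RedLib.SelfDual

theorem sd_descent {O K E K' : Type*} [CommRing O] [IsDomain O] [IsIntegrallyClosed O] [Field K]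
    [Algebra O K] [IsFractionRing O K] [Field E] [Algebra K E] [Algebra O E] [IsScalarTower O K E]
    [Field K'] [Algebra K K'] [Algebra K' E] [IsScalarTower K K' E]
    {Lam : Subalgebra O E} (h : SD O K E Lam)
    (O' : Subring K') [IsPrincipalIdealRing ↥O'] [IsFractionRing ↥O' K']
    (hOO' : ∀ o : O, algebraMap K K' (algebraMap O K o) ∈ O')
    (hO' : ∀ x ∈ O', IsIntegral O (algebraMap K' E x)) :
    ∃ (n : ℕ) (b : Module.Basis (Fin n) K' E), (∀ i, b i ∈ Lam) ∧
      ∃ u ∈ O', ∃ v ∈ O', u * v = 1 ∧ Algebra.discr K' b = u := by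
  classical
  have hfinKE : Module.Finite K E := h.finite
  have hmem : ∀ x : E, x ∈ Lam ↔ IsIntegral O x := h.mem_iff_isIntegral
  -- the action of `O` on `E` factors through `O'`
  have hsmul : ∀ (o : O) (x : E),
      o • x = (⟨algebraMap K K' (algebraMap O K o), hOO' o⟩ : ↥O') • x := by
    intro o x
    rw [Algebra.smul_def, IsScalarTower.algebraMap_apply O K E,
      IsScalarTower.algebraMap_apply K K' E, ← Algebra.smul_def]
    rfl
  -- the `O'`-subalgebra with the same carrier
  let Lam' : Subalgebra ↥O' E :=
    { carrier := Lam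
      mul_mem' := fun ha hb => Lam.mul_mem ha hb
      add_mem' := fun ha hb => Lam.add_mem ha hb
      algebraMap_mem' := fun x => (hmem _).mpr (hO' x x.2) }
  have hLam' : ∀ x : E, x ∈ Lam' ↔ x ∈ Lam := fun _ => Iff.rfl
  -- finiteness over `O'`
  have hfg : (Subalgebra.toSubmodule Lam').FG := by
    obtain ⟨S, hS⟩ := h.fg
    refine ⟨S, le_antisymm ?_ ?_⟩
    · refine Submodule.span_le.mpr fun s hs => ?_
      have : s ∈ Submodule.span O (S : Set E) := Submodule.subset_span hs
      rw [hS] at this
      exact this
    · intro x hx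
      have hx' : x ∈ Submodule.span O (S : Set E) := by
        rw [hS]
        exact hx
      refine Submodule.span_induction (p := fun y _ => y ∈ Submodule.span ↥O' (S : Set E))
        (fun y hy => Submodule.subset_span hy) (Submodule.zero_mem _)
        (fun y z _ _ hy hz => Submodule.add_mem _ hy hz) (fun o y _ hy => ?_) hx'
      rw [hsmul]
      exact Submodule.smul_mem _ _ hy
  have hfin : Module.Finite ↥O' ↥(Subalgebra.toSubmodule Lam') := Module.Finite.iff_fg.mpr hfg
  have htf : Module.IsTorsionFree ↥O' ↥(Subalgebra.toSubmodule Lam') := by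
    refine Module.IsTorsionFree.of_smul_eq_zero fun x m hxm => ?_
    have h1 : algebraMap K' E (x : K') * (m : E) = 0 := by
      have := congrArg Subtype.val hxm
      rw [← Algebra.smul_def]
      exact this
    rcases mul_eq_zero.mp h1 with h2 | h2
    · left
      exact Subtype.ext ((map_eq_zero (algebraMap K' E)).mp h2)
    · right
      exact Subtype.ext h2
  obtain ⟨n, b'⟩ := Module.basisOfFiniteTypeTorsionFree' (R := ↥O')
    (M := ↥(Subalgebra.toSubmodule Lam'))
  -- the span of the basis is `Lam`
  have hrange : Submodule.span ↥O' (Set.range fun i => ((b' i : ↥(Subalgebra.toSubmodule Lam')) : E))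
      = Subalgebra.toSubmodule Lam' := by
    have h1 := congrArg (Submodule.map (Subalgebra.toSubmodule Lam').subtype) b'.span_eq
    rw [Submodule.map_span, Submodule.map_subtype_top, ← Set.range_comp] at h1
    exact h1
  have hliO : LinearIndependent ↥O' (fun i => ((b' i : ↥(Subalgebra.toSubmodule Lam')) : E)) :=
    b'.linearIndependent.map' (Subalgebra.toSubmodule Lam').subtype (Submodule.ker_subtype _)
  have hli : LinearIndependent K' (fun i => ((b' i : ↥(Subalgebra.toSubmodule Lam')) : E)) :=
    (LinearIndependent.iff_fractionRing ↥O' K').mp hliO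
  have hsp : ⊤ ≤ Submodule.span K'
      (Set.range fun i => ((b' i : ↥(Subalgebra.toSubmodule Lam')) : E)) := by
    intro x _
    have halg : IsAlgebraic O x := by
      have : Algebra.IsAlgebraic O E :=
        IsFractionRing.comap_isAlgebraic_iff.mpr (inferInstance : Algebra.IsAlgebraic K E)
      exact Algebra.IsAlgebraic.isAlgebraic x
    obtain ⟨o, ho0, ho⟩ := halg.exists_integral_multiple
    have h1 : o • x ∈ Submodule.span ↥O'
        (Set.range fun i => ((b' i : ↥(Subalgebra.toSubmodule Lam')) : E)) := by
      rw [hrange]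
      exact (hmem _).mpr ho
    have h2 : o • x ∈ Submodule.span K'
        (Set.range fun i => ((b' i : ↥(Subalgebra.toSubmodule Lam')) : E)) :=
      Submodule.span_le_restrictScalars ↥O' K' _ h1
    have hk : algebraMap K K' (algebraMap O K o) ≠ 0 := by
      rw [Ne, map_eq_zero, map_eq_zero_iff _ (IsFractionRing.injective O K)]
      exact ho0
    have h3 : x = (algebraMap K K' (algebraMap O K o))⁻¹ • (o • x) := by
      rw [hsmul o x]
      change x = (algebraMap K K' (algebraMap O K o))⁻¹ • (algebraMap K K' (algebraMap O K o) • x)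
      rw [smul_smul, inv_mul_cancel₀ hk, one_smul]
    rw [h3]
    exact Submodule.smul_mem _ _ h2
  have hbcoe : ∀ i, (Module.Basis.mk hli hsp) i = ((b' i : ↥(Subalgebra.toSubmodule Lam')) : E) :=
    fun i => by rw [Module.Basis.coe_mk]
  have hb : Submodule.span ↥O' (Set.range (Module.Basis.mk hli hsp)) =
      Subalgebra.toSubmodule Lam' := by
    rw [Module.Basis.coe_mk]
    exact hrange
  -- finiteness for the transitivity of traces
  have hfinKK' : Module.Finite K K' :=
    FiniteDimensional.of_injective (IsScalarTower.toAlgHom K K' E).toLinearMap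
      (algebraMap K' E).injective
  have hfinK'E : Module.Finite K' E := Module.Finite.of_restrictScalars_finite K K' E
  have htr0 : ∀ x : E, (∀ i, Algebra.trace K' E (x * (Module.Basis.mk hli hsp) i) = 0) →
      ∀ y : E, Algebra.trace K' E (x * y) = 0 := by
    intro x hx y
    rw [← (Module.Basis.mk hli hsp).sum_repr y, Finset.mul_sum, map_sum]
    refine Finset.sum_eq_zero fun i _ => ?_
    rw [mul_smul_comm, map_smul, hx i, smul_zero]
  obtain ⟨ι₀, _, _, b₀, -, u₀, hu₀⟩ := h.exists_basis
  have hd₀ : Algebra.discr K b₀ ≠ 0 := by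
    rw [hu₀, Ne, map_eq_zero_iff _ (IsFractionRing.injective O K)]
    exact u₀.ne_zero
  have hnd : Algebra.discr K' (Module.Basis.mk hli hsp) ≠ 0 := by
    refine discr_ne_zero_of_trace _ fun x hx => ?_
    refine eq_zero_of_trace_mul_eq_zero b₀ hd₀ x fun j => ?_
    rw [← Algebra.trace_trace (S := K'), htr0 x hx, map_zero]
  have hdual : ∀ x : E, (∀ i, Algebra.trace K' E (x * (Module.Basis.mk hli hsp) i) ∈
      (algebraMap ↥O' K').range) → x ∈ Lam' := by
    intro x hx
    rw [hLam']
    refine h.dual_le x fun y hy => ?_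
    -- the relative trace lies in `O'`
    have h1 : Algebra.trace K' E (x * y) ∈ O' := by
      have hy' : y ∈ Submodule.span ↥O' (Set.range (Module.Basis.mk hli hsp)) := by
        rw [hb]
        exact hy
      obtain ⟨c, rfl⟩ := (Submodule.mem_span_range_iff_exists_fun ↥O').mp hy'
      rw [Finset.mul_sum, map_sum]
      refine Subring.sum_mem _ fun i _ => ?_
      have h2 : x * (c i • (Module.Basis.mk hli hsp) i) =
          (c i : K') • (x * (Module.Basis.mk hli hsp) i) := by
        rw [mul_smul_comm]
        rfl
      rw [h2, map_smul, smul_eq_mul]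
      obtain ⟨t, ht⟩ := hx i
      rw [← ht]
      exact Subring.mul_mem _ (c i).2 t.2
    let _ : Algebra O K' := ((algebraMap K K').comp (algebraMap O K)).toAlgebra
    have : IsScalarTower O K K' := IsScalarTower.of_algebraMap_eq fun _ => rfl
    have : IsScalarTower O K' E := IsScalarTower.of_algebraMap_eq fun o => by
      rw [IsScalarTower.algebraMap_apply O K E, IsScalarTower.algebraMap_apply K K' E]
      rfl
    have h3 : IsIntegral O (Algebra.trace K' E (x * y)) :=
      (isIntegral_algebraMap_iff (algebraMap K' E).injective).mp (hO' _ h1)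
    have h4 : IsIntegral O (Algebra.trace K K' (Algebra.trace K' E (x * y))) :=
      Algebra.isIntegral_trace h3
    rw [Algebra.trace_trace] at h4
    obtain ⟨a, ha⟩ := IsIntegrallyClosed.isIntegral_iff.mp h4
    exact ⟨a, ha⟩
  obtain ⟨u, hu⟩ := exists_unit_discr_of_dual (O := ↥O') (K := K') (E := E)
    Subtype.val_injective (Module.Basis.mk hli hsp) Lam' hb hnd hdual
  refine ⟨n, Module.Basis.mk hli hsp, fun i => ?_, ((u : ↥O') : K'), (u : ↥O').2,
    (((u⁻¹ : (↥O')ˣ) : ↥O') : K'), ((u⁻¹ : (↥O')ˣ) : ↥O').2, ?_, hu⟩
  · rw [hbcoe]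
    exact (b' i).2
  · exact congrArg Subtype.val u.mul_inv

end Fermat.Agent.RedLib.SDDescent
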