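/-
S18 long shot (helper8), provider side (P-iii): from a self-dual lattice over the Gauss ring of the
`j`-line to `AGDefs.IsGaussEtale` on the `t`-line.  Abstract composition of `SDDescent.sd_descent`
with the Gauss discrete valuation ring `GaussLine.gaussRing` of `Kt = K(x)`; also the (trivial)
stability of a self-dual lattice under automorphisms.
-/
import Fermat.Agent.RedLib.GaussLine
import Fermat.Agent.RedLib.SDDescent

set_option autoImplicit false

namespace Fermat.Agent.RedLib.GaussEtale

open Polynomial Fermat.Agent.RedLib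

/-- (P-iii) `hgen`.  `Lam` a self-dual lattice of `FF/KJ` over `O` (the Gauss ring of the
`j`-line); `Kt = K(x)` an intermediate field of `FF/KJ`.  If `O` lands in the Gauss ring of `Kt`
(`hOO'`), polynomials in `x` over `A0` are integral over `O` (`hint`) and those not divisible by
`π` have an inverse integral over `O` (`hU1`), then `Lam` is Gauss-étale over `Kt`. -/
theorem isGaussEtale_of_sd {A0 K Kt FF O KJ : Type*} [CommRing A0] [IsDomain A0]
    [IsDiscreteValuationRing A0] [Field K] [Algebra A0 K] [IsFractionRing A0 K]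
    [Field Kt] [Algebra A0 Kt] [Algebra K Kt] [IsScalarTower A0 K Kt]
    [Field FF] [Algebra A0 FF] [Algebra Kt FF] [IsScalarTower A0 Kt FF]
    [CommRing O] [IsDomain O] [IsIntegrallyClosed O] [Field KJ] [Algebra O KJ] [IsFractionRing O KJ]
    [Algebra KJ FF] [Algebra O FF] [IsScalarTower O KJ FF] [Algebra KJ Kt] [IsScalarTower KJ Kt FF]
    {Lam : Subalgebra O FF} (h : SelfDual.SD O KJ FF Lam)
    (π : A0) (hπ : Irreducible π) (xK : Kt) (hxK : Transcendental K xK)
    (hKt : ∀ z : Kt, ∃ f g : K[X], g ≠ 0 ∧ z * aeval xK g = aeval xK f)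
    (hOO' : ∀ o : O, ∃ u v : A0[X], ¬ C π ∣ u ∧
      algebraMap KJ Kt (algebraMap O KJ o) * aeval xK u = aeval xK v)
    (hint : ∀ v : A0[X], IsIntegral O (aeval (algebraMap Kt FF xK) v))
    (hU1 : ∀ u : A0[X], ¬ C π ∣ u →
      ∃ w : FF, IsIntegral O w ∧ aeval (algebraMap Kt FF xK) u * w = 1)
    (Lam0 : Subalgebra A0 FF) (hLam0 : ∀ y : FF, y ∈ Lam0 ↔ y ∈ Lam) :
    AGDefs.IsGaussEtale A0 π xK Lam0 := by
  have hπp : Prime π := hπ.prime
  have hxA : Transcendental A0 xK := hxK.restrictScalars (IsFractionRing.injective A0 K)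
  have hdvr : IsDiscreteValuationRing (GaussLine.gaussRing hπp xK) :=
    GaussLine.isDiscreteValuationRing hπp hxA
  have hfr : IsFractionRing (GaussLine.gaussRing hπp xK) Kt :=
    GaussLine.isFractionRing hπp (GaussLine.hKt_base hxK hKt)
  have h1 : ∀ o : O, algebraMap KJ Kt (algebraMap O KJ o) ∈ GaussLine.gaussRing hπp xK := by
    intro o
    obtain ⟨u, v, hu, huv⟩ := hOO' o
    rw [GaussLine.mem_gaussRing]
    exact ⟨u, v, hu, by rw [mul_comm]; exact huv⟩
  have h2 : ∀ x ∈ GaussLine.gaussRing hπp xK, IsIntegral O (algebraMap Kt FF x) := by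
    intro x hx
    rw [GaussLine.mem_gaussRing] at hx
    obtain ⟨u, v, hu, huv⟩ := hx
    obtain ⟨w, hw, huw⟩ := hU1 u hu
    have h3 : algebraMap Kt FF x = aeval (algebraMap Kt FF xK) v * w := by
      have h4 : aeval (algebraMap Kt FF xK) u * algebraMap Kt FF x
          = aeval (algebraMap Kt FF xK) v := by
        rw [aeval_algebraMap_apply, aeval_algebraMap_apply, ← map_mul, huv]
      calc algebraMap Kt FF x
          = (aeval (algebraMap Kt FF xK) u * w) * algebraMap Kt FF x := by rw [huw, one_mul]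
        _ = (aeval (algebraMap Kt FF xK) u * algebraMap Kt FF x) * w := by ring
        _ = aeval (algebraMap Kt FF xK) v * w := by rw [h4]
    rw [h3]
    exact (hint v).mul hw
  obtain ⟨n, b, hb, u, hu, v, hv, huv, hd⟩ :=
    SDDescent.sd_descent h (GaussLine.gaussRing hπp xK) h1 h2
  exact GaussLine.isGaussEtale_of_basis hπp hxA Lam0 b (fun i => (hLam0 _).mpr (hb i)) u v hu hv
    huv hd

/-- (P-ii) `hLamσ`.  A self-dual lattice is stable under every ring automorphism of `E` fixing
the image of `O` (e.g. an automorphism over an intermediate field `F ⊇ K`). -/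
theorem sd_map_mem {O K E : Type*} [CommRing O] [IsDomain O] [IsIntegrallyClosed O] [Field K]
    [Algebra O K] [IsFractionRing O K] [Field E] [Algebra K E] [Algebra O E] [IsScalarTower O K E]
    {Lam : Subalgebra O E} (h : SelfDual.SD O K E Lam) (σ : E →+* E)
    (hσ : ∀ o : O, σ (algebraMap O E o) = algebraMap O E o) {y : E} (hy : y ∈ Lam) :
    σ y ∈ Lam := by
  rw [h.mem_iff_isIntegral] at hy ⊢
  obtain ⟨P, hP, hPy⟩ := hy
  refine ⟨P, hP, ?_⟩
  have h1 := congrArg σ hPy
  rw [map_zero, Polynomial.hom_eval₂] at h1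
  have h2 : σ.comp (algebraMap O E) = algebraMap O E := RingHom.ext hσ
  rwa [h2] at h1

/-- (P-ii) in the shape of `AG_core`: stability under the automorphisms of `E` over an
intermediate field `F` through which the action of `O` factors. -/
theorem sd_algEquiv_mem {O K E F : Type*} [CommRing O] [IsDomain O] [IsIntegrallyClosed O]
    [Field K] [Algebra O K] [IsFractionRing O K] [Field E] [Algebra K E] [Algebra O E]
    [IsScalarTower O K E] [Field F] [Algebra F E] [Algebra O F] [IsScalarTower O F E]
    {Lam : Subalgebra O E} (h : SelfDual.SD O K E Lam) (σ : E ≃ₐ[F] E) {y : E} (hy : y ∈ Lam) :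
    σ y ∈ Lam := by
  refine sd_map_mem h (σ : E →+* E) (fun o => ?_) hy
  rw [IsScalarTower.algebraMap_apply O F E]
  exact σ.commutes _

end Fermat.Agent.RedLib.GaussEtale
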