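import Mathlib
import Fermat.Agent.RedLib.GaussBase

/-!
# S18 (reduction of `J₀(N)`): the Gauss valuation ring of `K(j)` is `A0[j]` localised at `π`

For a Gauss datum `(A0, red, π)` and the concrete Gauss valuation ring `OjV h N` of
`K(j) = K⟮jK N K⟯ ⊆ F_K`:

* `prime_pi`, `associated_pi`, `red_eq_zero_iff_dvd`, `map_red_eq_zero_iff` : the kernel of the
  reduction map is generated by any irreducible element of `A0`;
* `aeval_mem_OjV` / `exists_eq_aeval` (hpoly) : polynomials in `j` over `A0` lie in `OjV`;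
* `inv_aeval_mem_OjV` / `exists_mul_aeval_eq_one` (hunit) : `Q(j)` is a unit of `OjV` for `π ∤ Q`;
* `exists_mul_aeval_eq` / `exists_frac` (hfrac) : every element of `OjV` is `P(j) / Q(j)` with
  `π ∤ Q`.
-/

set_option autoImplicit false
set_option linter.unusedSectionVars false
set_option linter.style.haveILetI false

noncomputable section

namespace Fermat.Agent.RedLib.GaussFrac

open ModularCurve Polynomial IntermediateField Fermat.Agent.RedLib.GaussK
  Fermat.Agent.RedLib.GaussBase Fermat.Agent.RedLib.Inst Fermat.Agent.RedLib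

variable {K : Type*} [Field K] {k : Type*} [Field k] {A0 : Subring K} {red : A0 →+* k} {π : K}

/-! ### The uniformiser of a Gauss datum -/

/-- `π` as an element of `A0`. -/
def piA (h : IsGaussDatum A0 red π) : A0 := ⟨π, h.pi_mem⟩

theorem coe_piA (h : IsGaussDatum A0 red π) : ((piA h : A0) : K) = π := rfl

theorem red_piA (h : IsGaussDatum A0 red π) : red (piA h) = 0 := h.red_pi _ rfl

theorem red_eq_zero_iff_piA_dvd (h : IsGaussDatum A0 red π) (x : A0) :
    red x = 0 ↔ piA h ∣ x := by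
  constructor
  · intro hx
    obtain ⟨y, hy⟩ := h.red_eq_zero x hx
    exact ⟨y, Subtype.ext hy⟩
  · rintro ⟨y, rfl⟩
    rw [map_mul, red_piA, zero_mul]

theorem piA_ne_zero (h : IsGaussDatum A0 red π) : piA h ≠ 0 := fun h0 =>
  h.pi_ne_zero (congrArg Subtype.val h0)

theorem prime_piA (h : IsGaussDatum A0 red π) : Prime (piA h) := by
  refine ⟨piA_ne_zero h, ?_, ?_⟩
  · intro hu
    obtain ⟨v, hv⟩ := hu.exists_right_inv
    have h1 := congrArg red hv
    rw [map_mul, red_piA, zero_mul, map_one] at h1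
    exact zero_ne_one h1
  · intro a b hab
    rw [← red_eq_zero_iff_piA_dvd] at hab ⊢
    rw [← red_eq_zero_iff_piA_dvd]
    rw [map_mul] at hab
    exact mul_eq_zero.mp hab

/-- Elements of `A0` with nonzero reduction are units. -/
theorem isUnit_of_red_ne_zero (h : IsGaussDatum A0 red π) (u : A0) (hu : red u ≠ 0) :
    IsUnit u := by
  have hu0 : (u : K) ≠ 0 := by
    intro h0
    apply hu
    have : u = 0 := Subtype.ext h0
    rw [this, map_zero]
  obtain ⟨n, v, hv, hnv⟩ := h.exists_zpow_mul (u : K)⁻¹ (inv_ne_zero hu0)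
  have h1 : π ^ n * ((v : K) * (u : K)) = 1 := by
    rw [← mul_assoc, ← hnv, inv_mul_cancel₀ hu0]
  have hvu : red (v * u) ≠ 0 := by
    rw [map_mul]
    exact mul_ne_zero hv hu
  rcases lt_trichotomy n 0 with hn | hn | hn
  · exfalso
    obtain ⟨m, rfl⟩ : ∃ m : ℕ, n = -((m : ℤ) + 1) := ⟨(-n - 1).toNat, by omega⟩
    apply hvu
    have e : ((v * u : A0) : K) = π * ((piA h ^ m : A0) : K) := by
      have h2 : (v : K) * (u : K) = π ^ (m + 1) := by
        rw [zpow_neg, ← Nat.cast_succ, zpow_natCast] at h1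
        field_simp [h.pi_ne_zero] at h1
        exact h1
      rw [Subring.coe_mul, h2, Subring.coe_pow, coe_piA, pow_succ, mul_comm]
    exact h.red_mul_pi _ _ e
  · rw [hn, zpow_zero, one_mul] at h1
    exact IsUnit.of_mul_eq_one_right v (Subtype.ext h1)
  · exfalso
    obtain ⟨m, rfl⟩ : ∃ m : ℕ, n = (m : ℤ) + 1 := ⟨(n - 1).toNat, by omega⟩
    have e : ((1 : A0) : K) = π * ((piA h ^ m * (v * u) : A0) : K) := by
      rw [Subring.coe_one, ← h1, ← Nat.cast_succ, zpow_natCast, pow_succ, Subring.coe_mul,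
        Subring.coe_pow, coe_piA, Subring.coe_mul]
      ring
    have h2 := h.red_mul_pi _ _ e
    rw [map_one] at h2
    exact one_ne_zero h2

/-- Every irreducible element of `A0` is associated to `π`. -/
theorem associated_piA (h : IsGaussDatum A0 red π) {π0 : A0} (hπ0 : Irreducible π0) :
    Associated π0 (piA h) := by
  have h1 : red π0 = 0 := by
    by_contra hne
    exact hπ0.not_isUnit (isUnit_of_red_ne_zero h π0 hne)
  obtain ⟨y, hy⟩ := (red_eq_zero_iff_piA_dvd h π0).mp h1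
  rcases hπ0.isUnit_or_isUnit hy with hu | hu
  · exact absurd hu (prime_piA h).not_isUnit
  · obtain ⟨u, rfl⟩ := hu
    exact ⟨u⁻¹, by rw [hy, mul_assoc, Units.mul_inv, mul_one]⟩

theorem red_eq_zero_iff_dvd (h : IsGaussDatum A0 red π) {π0 : A0} (hπ0 : Irreducible π0)
    (x : A0) : red x = 0 ↔ π0 ∣ x := by
  rw [red_eq_zero_iff_piA_dvd h]
  exact ((associated_piA h hπ0).dvd_iff_dvd_left).symm

theorem map_red_eq_zero_iff (h : IsGaussDatum A0 red π) {π0 : A0} (hπ0 : Irreducible π0)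
    (Q : A0[X]) : Q.map red = 0 ↔ C π0 ∣ Q := by
  rw [Polynomial.C_dvd_iff_dvd_coeff]
  constructor
  · intro hQ n
    have h1 := congrArg (fun p => p.coeff n) hQ
    simp only [coeff_map, coeff_zero] at h1
    exact (red_eq_zero_iff_dvd h hπ0 _).mp h1
  · intro hQ
    ext n
    simp only [coeff_map, coeff_zero]
    exact (red_eq_zero_iff_dvd h hπ0 _).mpr (hQ n)

/-! ### Polynomials in `j` -/

/-- the generator `j` of `K(j)` -/
abbrev jJ (N : ℕ) (K : Type*) [Field K] : ↥(K⟮jK N K⟯) := AdjoinSimple.gen K (jK N K)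

theorem embJ_aeval (N : ℕ) (G : K[X]) :
    embJ N K (aeval (jJ N K) G) = aeval (jqModC K) G := by
  rw [embJ_apply, ← coe_aeval_jK N G]
  congr 1
  have h1 := Polynomial.aeval_algebraMap_apply (FK N K) (jJ N K) G
  rw [AdjoinSimple.algebraMap_gen] at h1
  exact h1.symm

/-- polynomials in `j` over `A0` lie in the Gauss valuation ring -/
theorem aeval_mem_OjV (h : IsGaussDatum A0 red π) (N : ℕ) (P : A0[X]) :
    aeval (jJ N K) (P.map A0.subtype) ∈ OjV h N := by
  rw [mem_OjV_iff, embJ_aeval, ← GaussFF.coe_evO_jO (red := red)]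
  exact (GaussFF.evO (GaussFF.jO red) P).2

theorem aeval_ne_zero (N : ℕ) {Q : A0[X]} (hQ : Q.map red ≠ 0) :
    aeval (jJ N K) (Q.map A0.subtype) ≠ 0 := by
  intro h0
  have h1 : (GaussFF.evO (GaussFF.jO red) Q : Oint red) = 0 := by
    apply Subtype.ext
    rw [GaussFF.coe_evO_jO, ← embJ_aeval N, h0, map_zero]
    rfl
  exact GaussFF.rho_evO_jO_ne_zero hQ (by rw [h1, map_zero])

/-- `Q(j)` is a unit of the Gauss valuation ring if `Q ≠ 0` modulo `π` -/
theorem inv_aeval_mem_OjV (h : IsGaussDatum A0 red π) (N : ℕ) {Q : A0[X]}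
    (hQ : Q.map red ≠ 0) : (aeval (jJ N K) (Q.map A0.subtype))⁻¹ ∈ OjV h N := by
  rw [mem_OjV_iff, map_inv₀, embJ_aeval, ← GaussFF.coe_evO_jO (red := red)]
  exact inv_mem_Oint _ (GaussFF.rho_evO_jO_ne_zero hQ)

/-- every element of the Gauss valuation ring is `P(j) / Q(j)` with `Q ≠ 0` modulo `π` -/
theorem exists_mul_aeval_eq (h : IsGaussDatum A0 red π) (N : ℕ) (o : ↥(OjV h N)) :
    ∃ P Q : A0[X], Q.map red ≠ 0 ∧
      (o : ↥(K⟮jK N K⟯)) * aeval (jJ N K) (Q.map A0.subtype) =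
        aeval (jJ N K) (P.map A0.subtype) := by
  obtain ⟨P, Q, hQ, hPQ⟩ := GaussFF.exists_of_mem_Oj h (embJ_mem_Oj h N o)
  refine ⟨P, Q, hQ, embJ_injective N ?_⟩
  rw [map_mul, embJ_aeval, embJ_aeval, mul_comm]
  exact hPQ

/-! ### The same statements over `A0` (for the abstract provider lemmas) -/

set_option synthInstance.maxHeartbeats 400000 in
instance algebraA0KJ (N : ℕ) : Algebra ↥A0 ↥(K⟮jK N K⟯) := inferInstance

instance isScalarTowerA0KKJ (N : ℕ) : IsScalarTower ↥A0 K ↥(K⟮jK N K⟯) :=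
  IsScalarTower.of_algebraMap_eq fun _ => rfl

theorem aeval_map_subtype (N : ℕ) (P : A0[X]) :
    aeval (jJ N K) (P.map A0.subtype) = aeval (jJ N K) P :=
  Polynomial.aeval_map_algebraMap K (jJ N K) P

/-- (hpoly) -/
theorem exists_eq_aeval (h : IsGaussDatum A0 red π) (N : ℕ) (P : A0[X]) :
    ∃ o : ↥(OjV h N), algebraMap ↥(OjV h N) ↥(K⟮jK N K⟯) o = aeval (jJ N K) P :=
  ⟨⟨_, aeval_mem_OjV h N P⟩, aeval_map_subtype N P⟩

/-- (hunit) -/
theorem exists_mul_aeval_eq_one (h : IsGaussDatum A0 red π) (N : ℕ) {π0 : A0}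
    (hπ0 : Irreducible π0) (Q : A0[X]) (hQ : ¬ C π0 ∣ Q) :
    ∃ o : ↥(OjV h N), algebraMap ↥(OjV h N) ↥(K⟮jK N K⟯) o * aeval (jJ N K) Q = 1 := by
  have hQ' : Q.map red ≠ 0 := fun h0 => hQ ((map_red_eq_zero_iff h hπ0 Q).mp h0)
  refine ⟨⟨_, inv_aeval_mem_OjV h N hQ'⟩, ?_⟩
  rw [← aeval_map_subtype N Q]
  exact inv_mul_cancel₀ (aeval_ne_zero N hQ')

/-- (hfrac) -/
theorem exists_frac (h : IsGaussDatum A0 red π) (N : ℕ) {π0 : A0} (hπ0 : Irreducible π0)
    (o : ↥(OjV h N)) :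
    ∃ P Q : A0[X], ¬ C π0 ∣ Q ∧
      algebraMap ↥(OjV h N) ↥(K⟮jK N K⟯) o * aeval (jJ N K) Q = aeval (jJ N K) P := by
  obtain ⟨P, Q, hQ, hPQ⟩ := exists_mul_aeval_eq h N o
  refine ⟨P, Q, fun hdvd => hQ ((map_red_eq_zero_iff h hπ0 Q).mpr hdvd), ?_⟩
  rw [← aeval_map_subtype N Q, ← aeval_map_subtype N P]
  exact hPQ

end Fermat.Agent.RedLib.GaussFrac
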