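/-
S18 long shot (helper8), provider side: the Gauss ring of the `j`-line lands in the Gauss ring of
the `t`-line (hypothesis `hOO'` of `GaussEtale.isGaussEtale_of_sd`), from the cover relation
`num(t) = j den(t)` and the Gauss property `(hgauss)` of the cover.
-/
import Mathlib

set_option autoImplicit false

namespace Fermat.Agent.RedLib.GaussIncl

open Polynomial

/-- Homogenisation along a cover: `P(j) * den(t) ^ deg P` is a polynomial in `t`. -/
theorem exists_aeval_eq {A0 B : Type*} [CommRing A0] [CommRing B] [Algebra A0 B] (j t : B)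
    (num den : A0[X]) (hcover : aeval t num = j * aeval t den) (P : A0[X]) :
    ∃ P' : A0[X], aeval j P * aeval t den ^ P.natDegree = aeval t P' := by
  refine ⟨∑ k ∈ Finset.range (P.natDegree + 1),
    C (P.coeff k) * num ^ k * den ^ (P.natDegree - k), ?_⟩
  rw [aeval_eq_sum_range, Finset.sum_mul, map_sum]
  refine Finset.sum_congr rfl fun k hk => ?_
  have hk' : k ≤ P.natDegree := Nat.lt_succ_iff.mp (Finset.mem_range.mp hk)
  rw [map_mul, map_mul, map_pow, map_pow, aeval_C, hcover, mul_pow, Algebra.smul_def]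
  have : aeval t den ^ P.natDegree = aeval t den ^ k * aeval t den ^ (P.natDegree - k) := by
    rw [← pow_add, Nat.add_sub_cancel' hk']
  rw [this]
  ring

/-- **`O_j ⊆ O_t`.**  If every element of `O` is a fraction `P(j)/Q(j)` with `π ∤ Q`, then its
image in `Kt` is a fraction `v(t)/u(t)` with `π ∤ u`. -/
theorem gauss_incl {A0 O KJ Kt : Type*} [CommRing A0] [CommRing O] [Field KJ] [Algebra O KJ]
    [Algebra A0 KJ] [Field Kt] [Algebra A0 Kt] [Algebra KJ Kt] [IsScalarTower A0 KJ Kt]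
    {π : A0} (hπ : Prime π) (jJ : KJ) (xK : Kt) (num den : A0[X]) (hden : ¬ C π ∣ den)
    (hcover : aeval xK num = algebraMap KJ Kt jJ * aeval xK den)
    (hgauss : ∀ Q : A0[X], ¬ C π ∣ Q → ∃ Q' : A0[X], ¬ C π ∣ Q' ∧
      aeval (algebraMap KJ Kt jJ) Q * aeval xK den ^ Q.natDegree = aeval xK Q')
    (hfrac : ∀ o : O, ∃ P Q : A0[X], ¬ C π ∣ Q ∧ algebraMap O KJ o * aeval jJ Q = aeval jJ P)
    (o : O) :
    ∃ u v : A0[X], ¬ C π ∣ u ∧ algebraMap KJ Kt (algebraMap O KJ o) * aeval xK u = aeval xK v := by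
  have hCπ : Prime (C π : A0[X]) := prime_C_iff.mpr hπ
  obtain ⟨P, Q, hQ, hPQ⟩ := hfrac o
  obtain ⟨Q', hQ', hQQ'⟩ := hgauss Q hQ
  obtain ⟨P', hPP'⟩ := exists_aeval_eq (algebraMap KJ Kt jJ) xK num den hcover P
  have h1 : algebraMap KJ Kt (algebraMap O KJ o) * aeval (algebraMap KJ Kt jJ) Q
      = aeval (algebraMap KJ Kt jJ) P := by
    rw [aeval_algebraMap_apply, aeval_algebraMap_apply, ← map_mul, hPQ]
  refine ⟨Q' * den ^ P.natDegree, P' * den ^ Q.natDegree, ?_, ?_⟩
  · intro hdvd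
    rcases hCπ.dvd_or_dvd hdvd with h | h
    · exact hQ' h
    · exact hden (hCπ.dvd_of_dvd_pow h)
  · rw [map_mul, map_mul, map_pow, map_pow, ← hQQ', ← hPP', ← h1]
    ring

end Fermat.Agent.RedLib.GaussIncl
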