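import Mathlib
import Fermat.Agent.RedLib.Inst

/-!
# S18 long shot, leaf W7: the tower `F_K ⊆ F_u ⊆ FF` as algebras over a subring `A0 ⊆ K`

Shortcut instances (instance search through `AdjoinRoot` is slow and the scalar tower searches
time out): for a subring `A0` of `K`, the fields `FK N K`, `Fu p u`, `FF p u Pn Pd` are
`A0`-algebras (the canonical structures found by instance search) and all scalar towers hold.
-/

set_option autoImplicit false

noncomputable section

namespace Fermat.Agent.RedLib.InstA0

open Polynomial ModularCurve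
open Fermat.Agent.RedLib.Inst

variable {N : ℕ} {K : Type*} [Field K] (A0 : Subring K)

set_option synthInstance.maxHeartbeats 400000 in
instance algebraFK : Algebra ↥A0 (FK N K) := inferInstance

instance moduleFK : Module ↥A0 (FK N K) := Algebra.toModule

instance smulFK : SMul ↥A0 (FK N K) := Algebra.toSMul

instance isScalarTowerKFK : IsScalarTower ↥A0 K (FK N K) :=
  IsScalarTower.of_algebraMap_eq (fun _ => rfl)

theorem algebraMap_FK (a : ↥A0) :
    algebraMap ↥A0 (FK N K) a = algebraMap K (FK N K) (a : K) := rfl

section Fu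

variable (p : ℕ) (u : FK N K)

set_option synthInstance.maxHeartbeats 400000 in
instance algebraFu : Algebra ↥A0 (Fu p u) := inferInstance

instance moduleFu : Module ↥A0 (Fu p u) := Algebra.toModule

instance smulFu : SMul ↥A0 (Fu p u) := Algebra.toSMul

instance isScalarTowerFKFu : IsScalarTower ↥A0 (FK N K) (Fu p u) :=
  IsScalarTower.of_algebraMap_eq (fun _ => rfl)

instance isScalarTowerKFu : IsScalarTower ↥A0 K (Fu p u) :=
  IsScalarTower.of_algebraMap_eq (fun _ => rfl)

theorem algebraMap_Fu (a : ↥A0) :
    algebraMap ↥A0 (Fu p u) a = algebraMap K (Fu p u) (a : K) := rfl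

end Fu

section FF

variable (p : ℕ) (u : FK N K) [Fact (Irreducible (kum p u))] (Pn Pd : ℤ[X])

set_option synthInstance.maxHeartbeats 400000 in
instance algebraFF : Algebra ↥A0 (FF p u Pn Pd) := inferInstance

instance moduleFF : Module ↥A0 (FF p u Pn Pd) := Algebra.toModule

instance smulFF : SMul ↥A0 (FF p u Pn Pd) := Algebra.toSMul

instance isScalarTowerFuFF : IsScalarTower ↥A0 (Fu p u) (FF p u Pn Pd) :=
  IsScalarTower.of_algebraMap_eq (fun _ => rfl)

instance isScalarTowerFKFF : IsScalarTower ↥A0 (FK N K) (FF p u Pn Pd) :=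
  IsScalarTower.of_algebraMap_eq (fun _ => rfl)

instance isScalarTowerKFF : IsScalarTower ↥A0 K (FF p u Pn Pd) :=
  IsScalarTower.of_algebraMap_eq (fun _ => rfl)

theorem algebraMap_FF (a : ↥A0) :
    algebraMap ↥A0 (FF p u Pn Pd) a = algebraMap K (FF p u Pn Pd) (a : K) := rfl

end FF

end Fermat.Agent.RedLib.InstA0
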