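/-
S18 long shot (helper8), provider side (P-iii): `hgen` (`AGDefs.IsGaussEtale`) for the top field.
Abstract part: in the instance context of `AG_core`, a self-dual lattice over the Gauss ring of the
`j`-line is Gauss-etale over `K⟮tt⟯` (the algebra `K(j) → K⟮tt⟯` is built from the cover relation).
Concrete part: the tower `Inst.FF p u (num two ℤ) (den two ℤ)` over `GaussBase.OjV`.
-/
import Fermat.Agent.RedLib.GaussEtale
import Fermat.Agent.RedLib.GaussIncl
import Fermat.Agent.RedLib.AGAsm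
import Fermat.Agent.RedLib.GaussTower
import Fermat.Agent.RedLib.CoverGauss
import Fermat.Agent.RedLib.Tower
import Fermat.Agent.RedLib.InstA0

set_option autoImplicit false

namespace Fermat.Agent.RedLib.GaussHgen

open Polynomial IntermediateField Fermat.Agent.RedLib

section Abstract

variable {A0 K FF O KJ : Type*} [CommRing A0] [IsDomain A0] [IsDiscreteValuationRing A0] [Field K]
  [Algebra A0 K] [IsFractionRing A0 K] [Field FF] [Algebra K FF] [Algebra A0 FF]
  [IsScalarTower A0 K FF]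
  [CommRing O] [IsDomain O] [IsIntegrallyClosed O] [Field KJ] [Algebra O KJ] [IsFractionRing O KJ]
  [Algebra KJ FF] [Algebra O FF] [IsScalarTower O KJ FF]
  [Algebra K KJ] [IsScalarTower K KJ FF]

omit [CommRing A0] [IsDomain A0] [IsDiscreteValuationRing A0] [Algebra A0 K] [IsFractionRing A0 K]
  [Algebra A0 FF] [IsScalarTower A0 K FF] [CommRing O] [IsDomain O] [IsIntegrallyClosed O]
  [Algebra O KJ] [IsFractionRing O KJ] [Algebra O FF] [IsScalarTower O KJ FF] in
/-- A polynomial expression over `K` in an element of `K⟮tt⟯` lies in `K⟮tt⟯`. -/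
theorem aeval_mem_adjoin (tt : FF) {x : FF} (hx : x ∈ K⟮tt⟯) (f : K[X]) : aeval x f ∈ K⟮tt⟯ := by
  have h1 : aeval x f = algebraMap ↥K⟮tt⟯ FF (aeval (⟨x, hx⟩ : ↥K⟮tt⟯) f) := by
    rw [← aeval_algebraMap_apply]
    rfl
  rw [h1]
  exact (aeval (⟨x, hx⟩ : ↥K⟮tt⟯) f).2

omit [CommRing A0] [IsDomain A0] [IsDiscreteValuationRing A0] [Algebra A0 K] [IsFractionRing A0 K]
  [Algebra A0 FF] [IsScalarTower A0 K FF] [CommRing O] [IsDomain O] [IsIntegrallyClosed O]
  [Algebra O KJ] [IsFractionRing O KJ] [Algebra O FF] [IsScalarTower O KJ FF] in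
/-- If `KJ = K(jJ)` and the image of `jJ` lies in `K⟮tt⟯`, then the image of `KJ` lies in
`K⟮tt⟯`. -/
theorem algebraMap_mem_adjoin (tt : FF) (jJ : KJ)
    (hKJ : ∀ y : KJ, ∃ f g : K[X], aeval jJ g ≠ 0 ∧ y * aeval jJ g = aeval jJ f)
    (hj : algebraMap KJ FF jJ ∈ K⟮tt⟯) (y : KJ) : algebraMap KJ FF y ∈ K⟮tt⟯ := by
  obtain ⟨f, g, hg, h⟩ := hKJ y
  have h1 : algebraMap KJ FF y * aeval (algebraMap KJ FF jJ) g
      = aeval (algebraMap KJ FF jJ) f := by
    rw [aeval_algebraMap_apply, aeval_algebraMap_apply, ← map_mul, h]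
  have hg' : aeval (algebraMap KJ FF jJ) g ≠ 0 := by
    rw [aeval_algebraMap_apply]
    exact fun h0 => hg ((algebraMap KJ FF).injective (h0.trans (map_zero _).symm))
  have h2 : algebraMap KJ FF y
      = aeval (algebraMap KJ FF jJ) f / aeval (algebraMap KJ FF jJ) g := by
    rw [eq_div_iff hg', h1]
  rw [h2]
  exact div_mem (aeval_mem_adjoin tt hj f) (aeval_mem_adjoin tt hj g)

omit [IsDomain A0] [IsDiscreteValuationRing A0] [IsFractionRing A0 K] [CommRing O] [IsDomain O]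
  [IsIntegrallyClosed O] [Algebra O KJ] [IsFractionRing O KJ] [Algebra O FF]
  [IsScalarTower O KJ FF] [Algebra K KJ] [IsScalarTower K KJ FF] in
/-- The cover relation puts the image of `jJ` in `K⟮tt⟯`. -/
theorem j_mem_adjoin (tt : FF) (jJ : KJ) (num den : A0[X]) (hden : aeval tt den ≠ 0)
    (hcover : aeval tt num = algebraMap KJ FF jJ * aeval tt den) :
    algebraMap KJ FF jJ ∈ K⟮tt⟯ := by
  have h1 : algebraMap KJ FF jJ = aeval tt num / aeval tt den := by
    rw [eq_div_iff hden, hcover]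
  have h2 : ∀ P : A0[X], aeval tt P ∈ K⟮tt⟯ := fun P => by
    rw [← aeval_map_algebraMap K]
    exact aeval_mem_adjoin tt (mem_adjoin_simple_self K tt) _
  rw [h1]
  exact div_mem (h2 num) (h2 den)

/-- **(P-iii) `hgen` in the instance context of `AG_core`.**  `LamSD` a self-dual lattice of
`FF/KJ` over `O`, `KJ = K(jJ)`, `tt` transcendental over `K` with `num(tt) = j den(tt)`: then
the lattice is Gauss-étale over `K⟮tt⟯`. -/
theorem isGaussEtale_adjoin [Algebra A0 KJ] [IsScalarTower A0 K KJ]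
    {LamSD : Subalgebra O FF} (hsd : SelfDual.SD O KJ FF LamSD) (π : A0) (hπ : Irreducible π)
    (tt : FF) (htt : Transcendental K tt) (jJ : KJ)
    (hKJ : ∀ y : KJ, ∃ f g : K[X], aeval jJ g ≠ 0 ∧ y * aeval jJ g = aeval jJ f)
    (num den : A0[X]) (hden : ¬ C π ∣ den)
    (hcover : aeval tt num = algebraMap KJ FF jJ * aeval tt den)
    (hgauss : ∀ Q : A0[X], ¬ C π ∣ Q → ∃ Q' : A0[X], ¬ C π ∣ Q' ∧
      aeval (algebraMap KJ FF jJ) Q * aeval tt den ^ Q.natDegree = aeval tt Q')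
    (hfrac : ∀ o : O, ∃ P Q : A0[X], ¬ C π ∣ Q ∧ algebraMap O KJ o * aeval jJ Q = aeval jJ P)
    (hint : ∀ v : A0[X], IsIntegral O (aeval tt v))
    (hU1 : ∀ u : A0[X], ¬ C π ∣ u → ∃ w : FF, IsIntegral O w ∧ aeval tt u * w = 1)
    (Lam0 : Subalgebra A0 FF) (hLam0 : ∀ y : FF, y ∈ Lam0 ↔ y ∈ LamSD) :
    AGDefs.IsGaussEtale A0 π (IntermediateField.AdjoinSimple.gen K tt) Lam0 := by
  have hinjA : Function.Injective (algebraMap A0 K) := IsFractionRing.injective A0 K
  have hden0 : den ≠ 0 := fun h0 => hden (by rw [h0]; exact dvd_zero _)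
  have hdent : aeval tt den ≠ 0 := by
    rw [← aeval_map_algebraMap K]
    intro h0
    exact htt ⟨den.map (algebraMap A0 K),
      (Polynomial.map_ne_zero_iff hinjA).mpr hden0, h0⟩
  have hj : algebraMap KJ FF jJ ∈ K⟮tt⟯ := j_mem_adjoin tt jJ num den hdent hcover
  have hmem : ∀ y : KJ, algebraMap KJ FF y ∈ K⟮tt⟯ := algebraMap_mem_adjoin tt jJ hKJ hj
  let algKJ : Algebra KJ ↥K⟮tt⟯ := ((algebraMap KJ FF).codRestrict K⟮tt⟯ hmem).toAlgebra
  have : IsScalarTower KJ ↥K⟮tt⟯ FF := IsScalarTower.of_algebraMap_eq (fun _ => rfl)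
  have : IsScalarTower A0 ↥K⟮tt⟯ FF := AGAsm.isScalarTower_adjoin tt
  have hAKJ : ∀ a : A0, algebraMap KJ FF (algebraMap A0 KJ a) = algebraMap A0 FF a := fun a => by
    rw [IsScalarTower.algebraMap_apply A0 K KJ, ← IsScalarTower.algebraMap_apply K KJ FF,
      ← IsScalarTower.algebraMap_apply A0 K FF]
  have : IsScalarTower A0 KJ ↥K⟮tt⟯ := IsScalarTower.of_algebraMap_eq (fun a => by
    apply (algebraMap ↥K⟮tt⟯ FF).injective
    rw [← IsScalarTower.algebraMap_apply A0 ↥K⟮tt⟯ FF,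
      ← IsScalarTower.algebraMap_apply KJ ↥K⟮tt⟯ FF, hAKJ])
  have hgenx : algebraMap ↥K⟮tt⟯ FF (AdjoinSimple.gen K tt) = tt := AdjoinSimple.algebraMap_gen K tt
  have hco : ∀ P : A0[X], algebraMap ↥K⟮tt⟯ FF (aeval (AdjoinSimple.gen K tt) P) = aeval tt P :=
    fun P => by rw [← aeval_algebraMap_apply, hgenx]
  have hjj : algebraMap ↥K⟮tt⟯ FF (algebraMap KJ ↥K⟮tt⟯ jJ) = algebraMap KJ FF jJ := rfl
  have hcover' : aeval (AdjoinSimple.gen K tt) num
      = algebraMap KJ ↥K⟮tt⟯ jJ * aeval (AdjoinSimple.gen K tt) den := by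
    apply (algebraMap ↥K⟮tt⟯ FF).injective
    rw [map_mul, hco, hco, hjj, hcover]
  have hgauss' : ∀ Q : A0[X], ¬ C π ∣ Q → ∃ Q' : A0[X], ¬ C π ∣ Q' ∧
      aeval (algebraMap KJ ↥K⟮tt⟯ jJ) Q * aeval (AdjoinSimple.gen K tt) den ^ Q.natDegree
        = aeval (AdjoinSimple.gen K tt) Q' := by
    intro Q hQ
    obtain ⟨Q', hQ', h⟩ := hgauss Q hQ
    refine ⟨Q', hQ', ?_⟩
    apply (algebraMap ↥K⟮tt⟯ FF).injective
    rw [map_mul, map_pow, hco, hco, ← aeval_algebraMap_apply, hjj, h]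
  refine GaussEtale.isGaussEtale_of_sd hsd π hπ (AdjoinSimple.gen K tt)
    (GaussLine.transcendental_gen htt) (GaussLine.hKt_adjoin htt)
    (fun o => GaussIncl.gauss_incl hπ.prime jJ (AdjoinSimple.gen K tt) num den hden hcover'
      hgauss' hfrac o) ?_ ?_ Lam0 hLam0
  · intro v
    rw [hgenx]
    exact hint v
  · intro u hu
    rw [hgenx]
    exact hU1 u hu

end Abstract

/-- Elements of a simple extension are rational functions of the generator. -/
theorem exists_rat_adjoin {K E : Type*} [Field K] [Field E] [Algebra K E] (x : E)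
    (z : ↥K⟮x⟯) :
    ∃ f g : K[X], aeval (AdjoinSimple.gen K x) g ≠ 0 ∧
      z * aeval (AdjoinSimple.gen K x) g = aeval (AdjoinSimple.gen K x) f := by
  have hco : ∀ P : K[X], algebraMap ↥K⟮x⟯ E (aeval (AdjoinSimple.gen K x) P) = aeval x P :=
    fun P => by rw [← aeval_algebraMap_apply, AdjoinSimple.algebraMap_gen]
  obtain ⟨r, s, hrs⟩ := (IntermediateField.mem_adjoin_simple_iff K (z : E)).mp z.2
  by_cases hs : aeval x s = 0
  · refine ⟨0, 1, ?_, ?_⟩
    · rw [map_one]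
      exact one_ne_zero
    · rw [map_one, mul_one, map_zero]
      apply Subtype.ext
      rw [hrs, hs, div_zero]
      rfl
  · refine ⟨r, s, ?_, ?_⟩
    · intro h0
      apply hs
      rw [← hco, h0, map_zero]
    · apply (algebraMap ↥K⟮x⟯ E).injective
      rw [map_mul, hco, hco]
      show (z : E) * aeval x s = aeval x r
      rw [hrs, div_mul_cancel₀ _ hs]

section Concrete

open ModularCurve Fermat.Agent.RedLib.GaussK Fermat.Agent.RedLib.GaussBase
  Fermat.Agent.RedLib.Inst Fermat.Agent.RedLib.CoverData Fermat.Agent.RedLib.GaussTower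

variable {K : Type*} [Field K] [CharZero K] {k : Type*} [Field k] {A0 : Subring K}
  {red : A0 →+* k} {π : K}
  (h : IsGaussDatum A0 red π) (N : ℕ) (two : Bool) (p : ℕ) (u : FK N K)
  [Fact (Irreducible (kum p u))]

omit [CharZero K] in
/-- The image of the generator of `K(j)` in the top field is `j`. -/
theorem algebraMap_gen_jK :
    algebraMap ↥(K⟮jK N K⟯) (FF p u (num two ℤ) (den two ℤ)) (AdjoinSimple.gen K (jK N K))
      = jFF p u (num two ℤ) (den two ℤ) := by
  rw [IsScalarTower.algebraMap_apply ↥(K⟮jK N K⟯) (FK N K) (FF p u (num two ℤ) (den two ℤ)),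
    AdjoinSimple.algebraMap_gen]
  rfl

omit [CharZero K] in
/-- Polynomial expressions in `t` over `A0` are integral over the Gauss valuation ring of
`K(j)`. -/
theorem isIntegral_aeval_tt
    (htint : IsIntegral ↥(OjV h N) (tt p u (num two ℤ) (den two ℤ))) (v : (↥A0)[X]) :
    IsIntegral ↥(OjV h N) (aeval (tt p u (num two ℤ) (den two ℤ)) v) := by
  rw [aeval_eq_sum_range]
  refine IsIntegral.sum _ fun i _ => ?_
  rw [Algebra.smul_def]
  refine IsIntegral.mul ?_ (htint.pow i)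
  rw [← algebraMap_cOj_FF h N p u (num two ℤ) (den two ℤ)]
  exact isIntegral_algebraMap

/-- **(P-iii) `hgen` for the concrete tower**, from the self-dual lattice at the top, the
fractions of the Gauss valuation ring of `K(j)` and (U1). -/
theorem hgen_top [IsDiscreteValuationRing ↥A0] [IsFractionRing ↥A0 K]
    {LamSD : Subalgebra ↥(OjV h N) (FF p u (num two ℤ) (den two ℤ))}
    (hsd : SelfDual.SD ↥(OjV h N) ↥(K⟮jK N K⟯) (FF p u (num two ℤ) (den two ℤ)) LamSD)
    (π0 : ↥A0) (hπ0 : Irreducible π0) (hlead : ¬ π0 ∣ ((lead two : ℕ) : ↥A0))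
    (hfrac : ∀ o : ↥(OjV h N), ∃ P Q : (↥A0)[X], ¬ C π0 ∣ Q ∧
      algebraMap ↥(OjV h N) ↥(K⟮jK N K⟯) o * aeval (AdjoinSimple.gen K (jK N K)) Q
        = aeval (AdjoinSimple.gen K (jK N K)) P)
    (htint : IsIntegral ↥(OjV h N) (tt p u (num two ℤ) (den two ℤ)))
    (hU1 : ∀ g : (↥A0)[X], ¬ C π0 ∣ g → ∃ w : FF p u (num two ℤ) (den two ℤ),
      IsIntegral ↥(OjV h N) w ∧ aeval (tt p u (num two ℤ) (den two ℤ)) g * w = 1)
    (Lam0 : Subalgebra ↥A0 (FF p u (num two ℤ) (den two ℤ)))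
    (hLam0 : ∀ y : FF p u (num two ℤ) (den two ℤ), y ∈ Lam0 ↔ y ∈ LamSD) :
    AGDefs.IsGaussEtale ↥A0 π0
      (IntermediateField.AdjoinSimple.gen K (tt p u (num two ℤ) (den two ℤ))) Lam0 := by
  have hroot := Tower.eval_tt_cover two p u
  have hcover : aeval (tt p u (num two ℤ) (den two ℤ)) (num two ↥A0)
      = algebraMap ↥(K⟮jK N K⟯) (FF p u (num two ℤ) (den two ℤ)) (AdjoinSimple.gen K (jK N K))
        * aeval (tt p u (num two ℤ) (den two ℤ)) (den two ↥A0) := by
    rw [aeval_num, aeval_den, algebraMap_gen_jK]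
    exact hroot
  refine isGaussEtale_adjoin hsd π0 hπ0 (tt p u (num two ℤ) (den two ℤ))
    (Tower.transcendental_tt two p u) (AdjoinSimple.gen K (jK N K))
    (exists_rat_adjoin (jK N K)) (num two ↥A0) (den two ↥A0)
    (CoverGauss.not_C_dvd_den two hπ0.prime) hcover ?_ hfrac
    (isIntegral_aeval_tt h N two p u htint) hU1 Lam0 hLam0
  intro Q hQ
  obtain ⟨Q', hQ', hQQ'⟩ := CoverGauss.gauss_den two hπ0.prime hlead
    (jFF p u (num two ℤ) (den two ℤ)) (tt p u (num two ℤ) (den two ℤ)) hroot Q hQ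
  refine ⟨Q', hQ', ?_⟩
  rw [algebraMap_gen_jK, aeval_den]
  exact hQQ'

end Concrete

end Fermat.Agent.RedLib.GaussHgen
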