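/-
S18 long shot, leaf (D3) of the provider side (helper7's statement): clearing denominators in an
integrality relation.
-/
import Mathlib

set_option autoImplicit false

namespace Fermat.Agent.RedLib.ScaleInt

open Polynomial

/-- **(D3) SCALE.**  If every element of `B` is moved into `R` by some element of the
multiplicative set `M ⊆ R`, then every element integral over `B` becomes integral over `R` after
multiplication by an element of `M`. -/
theorem exists_mul_isIntegral {F : Type*} [Field F] (R B : Subring F) (M : Submonoid F)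
    (hMR : ∀ s ∈ M, s ∈ R) (hB : ∀ b ∈ B, ∃ s ∈ M, s * b ∈ R) {z : F} (hz : IsIntegral B z) :
    ∃ s ∈ M, IsIntegral R (s * z) := by
  classical
  obtain ⟨P, hPm, hP⟩ := hz
  have hex : ∀ i : ℕ, ∃ s ∈ M, s * ((P.coeff i : B) : F) ∈ R := fun i => hB _ (P.coeff i).2
  choose s hsM hsR using hex
  set n := P.natDegree with hn
  set σ : F := ∏ i ∈ Finset.range n, s i with hσ
  have hσM : σ ∈ M := Submonoid.prod_mem _ fun i _ => hsM i
  have hσR : σ ∈ R := hMR σ hσM
  have hσc : ∀ i, i < n → σ * ((P.coeff i : B) : F) ∈ R := by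
    intro i hi
    have h1 : σ = (∏ k ∈ (Finset.range n).erase i, s k) * s i :=
      (Finset.prod_erase_mul _ _ (Finset.mem_range.mpr hi)).symm
    rw [h1, mul_assoc]
    exact R.mul_mem (hMR _ (Submonoid.prod_mem _ fun k _ => hsM k)) (hsR i)
  set PF : F[X] := P.map (algebraMap B F) with hPF
  have hPFm : PF.Monic := hPm.map _
  have hdeg : PF.natDegree = n := hPm.natDegree_map _
  set Q : F[X] := PF.scaleRoots σ with hQ
  have hQm : Q.Monic := (monic_scaleRoots_iff σ).mpr hPFm
  have hlift : Q ∈ Polynomial.lifts (algebraMap R F) := by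
    rw [Polynomial.lifts_iff_coeff_lifts]
    intro i
    have key : Q.coeff i ∈ R := by
      rw [hQ, coeff_scaleRoots, hdeg, hPF, coeff_map]
      rcases lt_trichotomy i n with hi | hi | hi
      · have h2 : n - i = (n - i - 1) + 1 := by omega
        have h3 : algebraMap B F (P.coeff i) * σ ^ (n - i) =
            σ ^ (n - i - 1) * (σ * ((P.coeff i : B) : F)) := by
          rw [h2, pow_succ]
          simp only [Nat.add_sub_cancel]
          have : algebraMap B F (P.coeff i) = ((P.coeff i : B) : F) := rfl
          rw [this]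
          ring
        rw [h3]
        exact R.mul_mem (R.pow_mem hσR _) (hσc i hi)
      · rw [hi, hn, hPm.coeff_natDegree, Nat.sub_self, pow_zero, mul_one, map_one]
        exact R.one_mem
      · rw [coeff_eq_zero_of_natDegree_lt (by rw [← hn]; exact hi), map_zero, zero_mul]
        exact R.zero_mem
    exact ⟨⟨_, key⟩, rfl⟩
  obtain ⟨q, hq, -, hqm⟩ := Polynomial.lifts_and_natDegree_eq_and_monic hlift hQm
  refine ⟨σ, hσM, q, hqm, ?_⟩
  have hPF0 : eval₂ (RingHom.id F) z PF = 0 := by
    rw [hPF, eval₂_map, RingHom.id_comp]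
    exact hP
  have h4 : eval₂ (RingHom.id F) ((RingHom.id F) σ * z) (PF.scaleRoots σ) = 0 :=
    scaleRoots_eval₂_eq_zero (RingHom.id F) hPF0
  rw [← eval_map, hq, hQ]
  rw [eval₂_id] at h4
  exact h4

end Fermat.Agent.RedLib.ScaleInt
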