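/-
S18 long shot, provider side: the abstract `hLamj`.  The integral closure of the Gauss ring
`O = {P(j)/Q(j) : π ∤ Q}` of the `j`-line is the Gauss lattice `IsGaussLattice A0 π j` of
`AGDefs` (elements which become integral over `A0[j]` after multiplication by some `g(j)`,
`π ∤ g`).
-/
import Mathlib
import Fermat.Agent.RedLib.AGDefs
import Fermat.Agent.RedLib.ScaleInt
import Fermat.Agent.RedLib.GaussGen

set_option autoImplicit false

namespace Fermat.Agent.RedLib.GaussLamJ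

open Polynomial Fermat.Agent.RedLib

/-- **Abstract `hLamj`, stated in the top field.**  `O` is a ring mapping to `FF` whose image is
the Gauss ring of `j`: every element is a fraction `P(j)/Q(j)` with `π ∤ Q` (`hfrac`), it
contains `A0[j]` (`hpoly`) and every `Q(j)` with `π ∤ Q` is a unit of it (`hunit`).  Then `y` is
integral over `O` iff `g(j) * y` is integral over `A0[j]` for some `g` with `π ∤ g`. -/
theorem isIntegral_iff_of_top {A0 O FF : Type*} [CommRing A0] [CommRing O] [Field FF]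
    [Algebra A0 FF] [Algebra O FF] {π : A0} (hπ : Prime π) (j : FF)
    (hfrac : ∀ o : O, ∃ P Q : A0[X], ¬ C π ∣ Q ∧ algebraMap O FF o * aeval j Q = aeval j P)
    (hpoly : ∀ P : A0[X], ∃ o : O, algebraMap O FF o = aeval j P)
    (hunit : ∀ Q : A0[X], ¬ C π ∣ Q → ∃ o : O, algebraMap O FF o * aeval j Q = 1) (y : FF) :
    IsIntegral O y ↔ ∃ g : A0[X], ¬ C π ∣ g ∧ aeval j g * y ∈ AGDefs.chart A0 j := by
  have hCπ : Prime (C π : A0[X]) := prime_C_iff.mpr hπ
  constructor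
  · intro hy
    let R : Subring FF := (Algebra.adjoin A0 ({j} : Set FF)).toSubring
    let B : Subring FF := (algebraMap O FF).range
    let M : Submonoid FF :=
      { carrier := {s | ∃ g : A0[X], ¬ C π ∣ g ∧ s = aeval j g}
        mul_mem' := by
          rintro _ _ ⟨g1, hg1, rfl⟩ ⟨g2, hg2, rfl⟩
          exact ⟨g1 * g2, fun h => (hCπ.dvd_or_dvd h).elim hg1 hg2, (map_mul _ _ _).symm⟩
        one_mem' := ⟨1, fun h => hCπ.not_isUnit (isUnit_of_dvd_one h), (map_one _).symm⟩ }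
    have hMR : ∀ s ∈ M, s ∈ R := by
      rintro _ ⟨g, -, rfl⟩
      show aeval j g ∈ Algebra.adjoin A0 ({j} : Set FF)
      rw [Algebra.adjoin_singleton_eq_range_aeval]
      exact ⟨g, rfl⟩
    have hB : ∀ b ∈ B, ∃ s ∈ M, s * b ∈ R := by
      rintro _ ⟨o, rfl⟩
      obtain ⟨P, Q, hQ, hPQ⟩ := hfrac o
      refine ⟨aeval j Q, ⟨Q, hQ, rfl⟩, ?_⟩
      rw [mul_comm, hPQ]
      show aeval j P ∈ Algebra.adjoin A0 ({j} : Set FF)
      rw [Algebra.adjoin_singleton_eq_range_aeval]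
      exact ⟨P, rfl⟩
    have hyB : IsIntegral B y := by
      obtain ⟨p, hpm, hp⟩ := hy
      refine ⟨p.map (algebraMap O FF).rangeRestrict, hpm.map _, ?_⟩
      rw [eval₂_map]
      exact hp
    obtain ⟨s, ⟨g, hg, rfl⟩, hs⟩ := ScaleInt.exists_mul_isIntegral R B M hMR hB hyB
    refine ⟨g, hg, ?_⟩
    rw [AGDefs.mem_chart]
    obtain ⟨q, hqm, hq⟩ := hs
    exact ⟨q, hqm, hq⟩
  · rintro ⟨g, hg, hgy⟩
    rw [AGDefs.mem_chart] at hgy
    have h1 : IsIntegral O (aeval j g * y) := by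
      refine GaussGen.isIntegral_of_forall (S := Algebra.adjoin A0 ({j} : Set FF)) ?_ hgy
      rintro ⟨s, hs⟩
      rw [Algebra.adjoin_singleton_eq_range_aeval] at hs
      obtain ⟨P, rfl⟩ := hs
      obtain ⟨o, ho⟩ := hpoly P
      show IsIntegral O (aeval j P)
      rw [← ho]
      exact isIntegral_algebraMap
    obtain ⟨o, ho⟩ := hunit g hg
    have h2 : y = algebraMap O FF o * (aeval j g * y) := by
      rw [← mul_assoc, ho, one_mul]
    rw [h2]
    exact isIntegral_algebraMap.mul h1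

/-- **Abstract `hLamj`** (hypotheses stated in the field `KJ = K(j)` of the `j`-line). -/
theorem isIntegral_iff {A0 O KJ FF : Type*} [CommRing A0] [CommRing O] [Field KJ] [Algebra O KJ]
    [Algebra A0 KJ] [Field FF] [Algebra KJ FF] [Algebra O FF] [IsScalarTower O KJ FF]
    [Algebra A0 FF] [IsScalarTower A0 KJ FF] {π : A0} (hπ : Prime π) (jJ : KJ)
    (hfrac : ∀ o : O, ∃ P Q : A0[X], ¬ C π ∣ Q ∧ algebraMap O KJ o * aeval jJ Q = aeval jJ P)
    (hpoly : ∀ P : A0[X], ∃ o : O, algebraMap O KJ o = aeval jJ P)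
    (hunit : ∀ Q : A0[X], ¬ C π ∣ Q → ∃ o : O, algebraMap O KJ o * aeval jJ Q = 1) (y : FF) :
    IsIntegral O y ↔ ∃ g : A0[X], ¬ C π ∣ g ∧
      aeval (algebraMap KJ FF jJ) g * y ∈ AGDefs.chart A0 (algebraMap KJ FF jJ) := by
  have hco : ∀ P : A0[X], aeval (algebraMap KJ FF jJ) P = algebraMap KJ FF (aeval jJ P) :=
    fun P => aeval_algebraMap_apply FF jJ P
  refine isIntegral_iff_of_top hπ (algebraMap KJ FF jJ) ?_ ?_ ?_ y
  · intro o
    obtain ⟨P, Q, hQ, hPQ⟩ := hfrac o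
    refine ⟨P, Q, hQ, ?_⟩
    rw [hco, hco, IsScalarTower.algebraMap_apply O KJ FF, ← map_mul, hPQ]
  · intro P
    obtain ⟨o, ho⟩ := hpoly P
    exact ⟨o, by rw [hco, IsScalarTower.algebraMap_apply O KJ FF, ho]⟩
  · intro Q hQ
    obtain ⟨o, ho⟩ := hunit Q hQ
    exact ⟨o, by rw [hco, IsScalarTower.algebraMap_apply O KJ FF, ← map_mul, ho, map_one]⟩

/-- **`hLamj`**: a subalgebra `Lam0` whose elements are exactly the elements integral over the
Gauss ring `O` of the `j`-line is the Gauss lattice of `j`. -/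
theorem isGaussLattice_j {A0 O KJ FF : Type*} [CommRing A0] [CommRing O] [Field KJ]
    [Algebra O KJ] [Algebra A0 KJ] [Field FF] [Algebra KJ FF] [Algebra O FF]
    [IsScalarTower O KJ FF] [Algebra A0 FF] [IsScalarTower A0 KJ FF] {π : A0} (hπ : Prime π)
    (jJ : KJ)
    (hfrac : ∀ o : O, ∃ P Q : A0[X], ¬ C π ∣ Q ∧ algebraMap O KJ o * aeval jJ Q = aeval jJ P)
    (hpoly : ∀ P : A0[X], ∃ o : O, algebraMap O KJ o = aeval jJ P)
    (hunit : ∀ Q : A0[X], ¬ C π ∣ Q → ∃ o : O, algebraMap O KJ o * aeval jJ Q = 1)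
    (Lam0 : Subalgebra A0 FF) (hLam0 : ∀ y : FF, y ∈ Lam0 ↔ IsIntegral O y) :
    AGDefs.IsGaussLattice A0 π (algebraMap KJ FF jJ) Lam0 := fun y =>
  (hLam0 y).trans (isIntegral_iff hπ jJ hfrac hpoly hunit y)

/-- `hLamj` with the hypotheses stated in the top field. -/
theorem isGaussLattice_j_of_top {A0 O FF : Type*} [CommRing A0] [CommRing O] [Field FF]
    [Algebra A0 FF] [Algebra O FF] {π : A0} (hπ : Prime π) (j : FF)
    (hfrac : ∀ o : O, ∃ P Q : A0[X], ¬ C π ∣ Q ∧ algebraMap O FF o * aeval j Q = aeval j P)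
    (hpoly : ∀ P : A0[X], ∃ o : O, algebraMap O FF o = aeval j P)
    (hunit : ∀ Q : A0[X], ¬ C π ∣ Q → ∃ o : O, algebraMap O FF o * aeval j Q = 1)
    (Lam0 : Subalgebra A0 FF) (hLam0 : ∀ y : FF, y ∈ Lam0 ↔ IsIntegral O y) :
    AGDefs.IsGaussLattice A0 π j Lam0 := fun y =>
  (hLam0 y).trans (isIntegral_iff_of_top hπ j hfrac hpoly hunit y)

end Fermat.Agent.RedLib.GaussLamJ
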