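import Mathlib
import Fermat.Agent.RedLib.GaussTower
import Fermat.Agent.RedLib.GaussChange
import Fermat.Agent.RedLib.GaussLamJ
import Fermat.Agent.RedLib.CoverGauss
import Fermat.Agent.RedLib.Tower

/-!
# RedLib/GaussHlam: the Gauss lattice of the top field in the coordinate `t`

Provider side of the abstract geometric theorem, hypothesis `hLam` for the concrete tower
`K(j) ⊆ F_K ⊆ F_u ⊆ FF = F_u(t)`, `num(t) = j * den(t)`:

* `isIntegral_tt_adjoin` : `t` is integral over `A0[j]` (the leading coefficient of `num` is a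
  unit of `A0`);
* `isGaussLattice_top` : the integral closure `LamTop` of the Gauss valuation ring of `K(j)` in
  `FF` is the Gauss lattice of the coordinate `t` (`AGDefs.IsGaussLattice A0 π0 t LamTop`), given
  the description of the Gauss valuation ring by fractions `P(j)/Q(j)` and the statement (U1)
  that primitive polynomials in `t` are units of the integral closure.
-/

set_option autoImplicit false

noncomputable section

namespace Fermat.Agent.RedLib.GaussHlam

open ModularCurve Polynomial IntermediateField Fermat.Agent.RedLib.GaussK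
  Fermat.Agent.RedLib.GaussBase Fermat.Agent.RedLib.Inst Fermat.Agent.RedLib.SelfDual
  Fermat.Agent.RedLib.GaussTower Fermat.Agent.RedLib.CoverData

variable {K : Type*} [Field K] {k : Type*} [Field k] {A0 : Subring K} {red : A0 →+* k} {π : K}

section Integral

variable {R B : Type*} [CommRing R] [CommRing B] [Algebra R B]

/-- A root `t` of `num - j * den` is integral over `R[j]` as soon as the leading coefficient of
`num` is a unit of `R`. -/
theorem isIntegral_adjoin_of_cover (two : Bool) (hlead : IsUnit ((lead two : ℕ) : R)) (j t : B)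
    (hcov : (num two B).eval t = j * (den two B).eval t) :
    IsIntegral (Algebra.adjoin R ({j} : Set B)) t := by
  obtain ⟨v, hv⟩ := hlead.exists_right_inv
  set S := Algebra.adjoin R ({j} : Set B) with hS
  let jS : S := ⟨j, Algebra.subset_adjoin (Set.mem_singleton j)⟩
  let q : S[X] := C (algebraMap R S v) * (num two S - C jS * den two S)
  have hdeg : q.natDegree ≤ nG two := by
    refine (natDegree_C_mul_le _ _).trans ((natDegree_sub_le _ _).trans (max_le ?_ ?_))
    · exact natDegree_num_le two S
    · exact (natDegree_C_mul_le _ _).trans (natDegree_den_lt two S).le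
  have hcoeff : q.coeff (nG two) = 1 := by
    have h1 : (C jS * den two S).coeff (nG two) = 0 := by
      rw [coeff_C_mul, coeff_eq_zero_of_natDegree_lt (natDegree_den_lt two S), mul_zero]
    rw [coeff_C_mul, coeff_sub, h1, sub_zero, coeff_num, ← map_natCast (algebraMap R S),
      ← map_mul, mul_comm, hv, map_one]
  refine ⟨q, monic_of_natDegree_le_of_coeff_eq_one _ hdeg hcoeff, ?_⟩
  have e1 : eval₂ (algebraMap S B) t (num two S) = (num two B).eval t := by
    rw [← eval_map, num_map]
  have e2 : eval₂ (algebraMap S B) t (den two S) = (den two B).eval t := by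
    rw [← eval_map, den_map]
  have e3 : algebraMap S B jS = j := rfl
  rw [eval₂_mul, eval₂_C, eval₂_sub, eval₂_mul, eval₂_C, e1, e2, e3, hcov, sub_self, mul_zero]

end Integral

section Top

variable (h : IsGaussDatum A0 red π) (N : ℕ) (two : Bool) (p : ℕ) (u : FK N K)
  [Fact (Irreducible (kum p u))] [CharZero K]

/-- `t` is integral over `A0[j]`. -/
theorem isIntegral_tt_adjoin (hlead : IsUnit ((lead two : ℕ) : ↥A0)) :
    IsIntegral (Algebra.adjoin ↥A0 ({jFF p u (num two ℤ) (den two ℤ)} :
      Set (FF p u (num two ℤ) (den two ℤ)))) (tt p u (num two ℤ) (den two ℤ)) :=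
  isIntegral_adjoin_of_cover two hlead _ _ (Tower.eval_tt_cover two p u)

/-- **`hLam` for the concrete tower**: the integral closure of the Gauss valuation ring of `K(j)`
in the top field is the Gauss lattice of the coordinate `t`. -/
theorem isGaussLattice_top (π0 : ↥A0) (hπ0 : Prime π0)
    (hlead : IsUnit ((lead two : ℕ) : ↥A0))
    (hfrac : ∀ o : ↥(OjV h N), ∃ P Q : (↥A0)[X], ¬ C π0 ∣ Q ∧
      algebraMap ↥(OjV h N) (FF p u (num two ℤ) (den two ℤ)) o *
        aeval (jFF p u (num two ℤ) (den two ℤ)) Q = aeval (jFF p u (num two ℤ) (den two ℤ)) P)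
    (hpoly : ∀ P : (↥A0)[X], ∃ o : ↥(OjV h N),
      algebraMap ↥(OjV h N) (FF p u (num two ℤ) (den two ℤ)) o =
        aeval (jFF p u (num two ℤ) (den two ℤ)) P)
    (hunit : ∀ Q : (↥A0)[X], ¬ C π0 ∣ Q → ∃ o : ↥(OjV h N),
      algebraMap ↥(OjV h N) (FF p u (num two ℤ) (den two ℤ)) o *
        aeval (jFF p u (num two ℤ) (den two ℤ)) Q = 1)
    (hU1 : ∀ g : (↥A0)[X], ¬ C π0 ∣ g → ∃ w : FF p u (num two ℤ) (den two ℤ),
      IsIntegral ↥(OjV h N) w ∧ aeval (tt p u (num two ℤ) (den two ℤ)) g * w = 1) :
    AGDefs.IsGaussLattice ↥A0 π0 (tt p u (num two ℤ) (den two ℤ))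
      (LamTop h N p u (num two ℤ) (den two ℤ)) := by
  have hlead' : ¬ π0 ∣ ((lead two : ℕ) : ↥A0) := fun hd =>
    hπ0.not_isUnit (isUnit_of_dvd_unit hd hlead)
  have hcov := Tower.eval_tt_cover two p u
  refine GaussChange.isGaussLattice_of_cover hπ0 (jFF p u (num two ℤ) (den two ℤ))
    (tt p u (num two ℤ) (den two ℤ)) (LamTop h N p u (num two ℤ) (den two ℤ)) ?_
    (isIntegral_tt_adjoin N two p u hlead) (num two ↥A0) (den two ↥A0)
    (CoverGauss.not_C_dvd_den two hπ0) ?_ ?_ ?_
  · exact GaussLamJ.isGaussLattice_j_of_top hπ0 (jFF p u (num two ℤ) (den two ℤ)) hfrac hpoly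
      hunit (LamTop h N p u (num two ℤ) (den two ℤ))
      (fun y => mem_LamTop_iff h N p u (num two ℤ) (den two ℤ) y)
  · rw [aeval_num, aeval_den]
    exact hcov
  · intro Q hQ
    obtain ⟨Q', hQ', hQQ'⟩ := CoverGauss.gauss_den two hπ0 hlead'
      (jFF p u (num two ℤ) (den two ℤ)) (tt p u (num two ℤ) (den two ℤ)) hcov Q hQ
    exact ⟨Q', hQ', by rw [aeval_den]; exact hQQ'⟩
  · intro g hg
    obtain ⟨w, hw, hgw⟩ := hU1 g hg
    exact ⟨w, (mem_LamTop_iff h N p u (num two ℤ) (den two ℤ) w).mpr hw, hgw⟩

end Top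

end Fermat.Agent.RedLib.GaussHlam
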