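import Mathlib
import Fermat.Agent.RedLib.SelfDual
import Fermat.Agent.RedLib.AGDefs
import Fermat.Agent.RedLib.CoverFacts
import Fermat.Agent.RedLib.GaussGen

/-!
# S18 long shot, provider side of AG (abstract part)

Abstract setting: a discrete valuation ring `A0` with uniformiser `π`, a "Gauss ring" `OJ`
(a domain receiving `A0` through `ι`, with an element `jo` such that `P(jo)` is a unit for every
`P ∈ A0[X]` not divisible by `π`, every element is a quotient `P(jo) / Q(jo)` and `π` is not a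
unit), a field `FF` over `OJ` and a root `tt` of the cover polynomial `num - jo * den`.

* `Datum.exists_inv` (U1) : `g(tt)` is a unit of the integral closure of `OJ` in `FF` for every
  `g ∈ A0[X]` not divisible by `π`.
-/

set_option autoImplicit false

noncomputable section

namespace Fermat.Agent.RedLib.GaussProv

open Polynomial Fermat.Agent.RedLib.AGDefs Fermat.Agent.RedLib.CoverData
  Fermat.Agent.RedLib.CoverFacts

variable {A0 OJ FF : Type*} [CommRing A0] [IsDomain A0] [IsDiscreteValuationRing A0]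
  [CommRing OJ] [IsDomain OJ] [Field FF] [Algebra OJ FF] [Algebra A0 FF]

/-- The abstract Gauss datum together with the cover. -/
structure Datum (π : A0) (ι : A0 →+* OJ) (jo : OJ) (two : Bool) (tt : FF) : Prop where
  compat : ∀ a, algebraMap OJ FF (ι a) = algebraMap A0 FF a
  unit : ∀ Q : A0[X], ¬ C π ∣ Q → IsUnit (Q.eval₂ ι jo)
  frac : ∀ o : OJ, ∃ P Q : A0[X], ¬ C π ∣ Q ∧ o * Q.eval₂ ι jo = P.eval₂ ι jo
  nonunit : ¬ IsUnit (ι π)
  closed : ∀ (o : OJ) (w : FF), IsIntegral OJ w → algebraMap OJ FF o * w = 1 → IsUnit o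
  lead : IsUnit ((lead two : ℕ) : A0)
  root : (num two FF).eval tt = algebraMap OJ FF jo * (den two FF).eval tt
  zeta : ∃ ζ : A0, ζ ^ 2 + ζ + 1 = 0

namespace Datum

variable {π : A0} {ι : A0 →+* OJ} {jo : OJ} {two : Bool} {tt : FF}

theorem algebraMap_comp (D : Datum π ι jo two tt) :
    (algebraMap OJ FF).comp ι = algebraMap A0 FF := RingHom.ext D.compat

/-- Evaluation at an element of `OJ`, mapped to `FF`. -/
theorem algebraMap_eval₂ (D : Datum π ι jo two tt) (G : A0[X]) (x : OJ) :
    algebraMap OJ FF (G.eval₂ ι x) = aeval (algebraMap OJ FF x) G := by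
  rw [hom_eval₂, D.algebraMap_comp, aeval_def]

theorem lead_OJ (D : Datum π ι jo two tt) : IsUnit ((CoverData.lead two : ℕ) : OJ) := by
  have h := D.lead.map ι
  rwa [map_natCast] at h

theorem isIntegral_tt (D : Datum π ι jo two tt) : IsIntegral OJ tt :=
  isIntegral_t two D.lead_OJ jo tt D.root

theorem isIntegral_algebraMap_A0 (D : Datum π ι jo two tt) (a : A0) :
    IsIntegral OJ (algebraMap A0 FF a) := by
  rw [← D.compat]
  exact isIntegral_algebraMap

/-- Polynomial expressions in `tt` over `A0` are integral over `OJ`. -/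
theorem isIntegral_aeval (D : Datum π ι jo two tt) (G : A0[X]) : IsIntegral OJ (aeval tt G) := by
  rw [aeval_eq_sum_range]
  refine IsIntegral.sum _ fun i _ => ?_
  rw [Algebra.smul_def]
  exact (D.isIntegral_algebraMap_A0 _).mul (D.isIntegral_tt.pow _)

theorem isIntegral_inv_cusp_tt (D : Datum π ι jo two tt) :
    IsIntegral OJ ((cusp two FF).eval tt)⁻¹ := by
  obtain ⟨ζ, hζ⟩ := D.zeta
  refine isIntegral_inv_cusp two D.lead_OJ (ι ζ) ?_ jo tt D.root
  rw [← map_pow, ← map_add, ← map_one ι, ← map_add, hζ, map_zero]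

theorem isIntegral_inv_den (D : Datum π ι jo two tt) :
    IsIntegral OJ ((den two FF).eval tt)⁻¹ := by
  rw [eval_den_eq, ← inv_pow]
  exact D.isIntegral_inv_cusp_tt.pow _

theorem den_ne_zero (D : Datum π ι jo two tt) : (den two FF).eval tt ≠ 0 :=
  den_ne_zero_of_root two (lead_ne_zero_of_isUnit two D.lead_OJ) D.root

/-- Every non-unit of `OJ` is a multiple of `π`. -/
theorem dvd_of_not_isUnit (D : Datum π ι jo two tt) {o : OJ} (ho : ¬ IsUnit o) : ι π ∣ o := by
  obtain ⟨P, Q, hQ, hPQ⟩ := D.frac o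
  have hQu := D.unit Q hQ
  by_cases hP : C π ∣ P
  · obtain ⟨P', rfl⟩ := hP
    obtain ⟨q, hq⟩ := hQu.exists_right_inv
    refine ⟨P'.eval₂ ι jo * q, ?_⟩
    have e : o = o * Q.eval₂ ι jo * q := by rw [mul_assoc, hq, mul_one]
    rw [e, hPQ, eval₂_mul, eval₂_C]
    ring
  · exfalso
    apply ho
    have hu : IsUnit (o * Q.eval₂ ι jo) := by rw [hPQ]; exact D.unit P hP
    exact isUnit_of_mul_isUnit_left hu

/-- `π` is not a unit of the integral closure of `OJ`. -/
theorem not_pi_mul (D : Datum π ι jo two tt) (v : FF) (hv : IsIntegral OJ v)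
    (h : algebraMap A0 FF π * v = 1) : False := by
  rw [← D.compat] at h
  exact D.nonunit (D.closed _ v hv h)

/-- **(U1)** `g(tt)` is a unit of the integral closure of `OJ` in `FF` for every `g ∈ A0[X]` not
divisible by `π`. -/
theorem exists_inv (D : Datum π ι jo two tt) (hπ : Irreducible π) (g : A0[X])
    (hg : ¬ C π ∣ g) : ∃ w : FF, IsIntegral OJ w ∧ aeval tt g * w = 1 := by
  classical
  set L := integralClosure OJ FF with hL
  set x : L := ⟨aeval tt g, D.isIntegral_aeval g⟩ with hx
  suffices hu : IsUnit x by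
    obtain ⟨x', hx'⟩ := hu.exists_right_inv
    exact ⟨(x' : FF), x'.2, congrArg Subtype.val hx'⟩
  by_contra hnu
  obtain ⟨M, hM, hxM⟩ := exists_max_ideal_of_mem_nonunits (mem_nonunits_iff.mpr hnu)
  -- `π ∈ M`
  have hm : (M.comap (algebraMap OJ L)).IsMaximal :=
    Ideal.isMaximal_comap_of_isIntegral_of_isMaximal (R := OJ) M
  have hle : M.comap (algebraMap OJ L) ≤ Ideal.span {ι π} := by
    intro o ho
    rw [Ideal.mem_span_singleton]
    apply D.dvd_of_not_isUnit
    intro hou
    exact hm.ne_top (Ideal.eq_top_of_isUnit_mem _ ho hou)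
  have hne : Ideal.span {ι π} ≠ (⊤ : Ideal OJ) := by
    rw [Ne, Ideal.span_singleton_eq_top]
    exact D.nonunit
  have heq := hm.eq_of_le hne hle
  have hπM : algebraMap OJ L (ι π) ∈ M := by
    have : ι π ∈ M.comap (algebraMap OJ L) := by
      rw [heq]
      exact Ideal.mem_span_singleton_self _
    exact this
  -- the residue field
  letI : Field (L ⧸ M) := Ideal.Quotient.field M
  let f : A0 →+* L := (algebraMap OJ L).comp ι
  let ψ : A0 →+* L ⧸ M := (Ideal.Quotient.mk M).comp f
  have hψ : ψ π = 0 := Ideal.Quotient.eq_zero_iff_mem.mpr hπM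
  have hfval : (L.val : L →+* FF).comp f = algebraMap A0 FF := by
    ext a
    exact D.compat a
  have hcoe : ∀ (G : A0[X]) (y : L), ((G.eval₂ f y : L) : FF) = aeval (y : FF) G := by
    intro G y
    have h1 := hom_eval₂ G f (L.val : L →+* FF) y
    rw [hfval] at h1
    exact h1
  have hmk : ∀ (G : A0[X]) (y : L), G.eval₂ ψ (Ideal.Quotient.mk M y)
      = Ideal.Quotient.mk M (G.eval₂ f y) := fun G y => (hom_eval₂ G f (Ideal.Quotient.mk M) y).symm
  set tL : L := ⟨tt, D.isIntegral_tt⟩ with htL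
  set jL : L := algebraMap OJ L jo with hjL
  have hgt : g.eval₂ ψ (Ideal.Quotient.mk M tL) = 0 := by
    rw [hmk]
    have : g.eval₂ f tL = x := Subtype.ext (by rw [hcoe])
    rw [this]
    exact Ideal.Quotient.eq_zero_iff_mem.mpr hxM
  have hrelL : (num two A0).eval₂ f tL = jL * (den two A0).eval₂ f tL := by
    apply Subtype.ext
    rw [MulMemClass.coe_mul, hcoe, hcoe, aeval_num, aeval_den]
    exact D.root
  have hrel : (num two A0).eval₂ ψ (Ideal.Quotient.mk M tL)
      = Ideal.Quotient.mk M jL * (den two A0).eval₂ ψ (Ideal.Quotient.mk M tL) := by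
    rw [hmk, hmk, hrelL, map_mul]
  have hdenu : IsUnit ((den two A0).eval₂ f tL) := by
    refine isUnit_iff_exists_inv.mpr ⟨⟨_, D.isIntegral_inv_den⟩, Subtype.ext ?_⟩
    rw [MulMemClass.coe_mul, hcoe, aeval_den]
    exact mul_inv_cancel₀ D.den_ne_zero
  have hden : (den two A0).eval₂ ψ (Ideal.Quotient.mk M tL) ≠ 0 := by
    rw [hmk]
    exact (hdenu.map (Ideal.Quotient.mk M)).ne_zero
  obtain ⟨P, hP, hPj⟩ := Fermat.Agent.RedLib.GaussGen.exists_poly_of_algebraic hπ ψ hψ
    (num two A0) (den two A0) g _ _ hg hgt hrel hden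
  have hPu : IsUnit (P.eval₂ f jL) := by
    have h1 : P.eval₂ f jL = algebraMap OJ L (P.eval₂ ι jo) :=
      (hom_eval₂ P ι (algebraMap OJ L) jo).symm
    rw [h1]
    exact (D.unit P hP).map _
  have hPM : P.eval₂ f jL ∈ M := by
    rw [hmk] at hPj
    exact Ideal.Quotient.eq_zero_iff_mem.mp hPj
  exact hM.ne_top (Ideal.eq_top_of_isUnit_mem _ hPM hPu)

end Datum

end Fermat.Agent.RedLib.GaussProv
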