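/-
S18 long shot (helper8), provider side: one step of a tower of self-dual lattices along a root of a
monic polynomial which need NOT be the minimal polynomial (the tower field is the quotient by a
factor of the cover polynomial), with an inverse of the derivative that is only known to be
integral.
-/
import Fermat.Agent.RedLib.SelfDual
import Fermat.Agent.RedLib.GaussGen

set_option autoImplicit false

namespace Fermat.Agent.RedLib.SDStep

open Polynomial Fermat.Agent.RedLib

section Monogenic

variable {A K L : Type*} [CommRing A] [IsDomain A] [IsIntegrallyClosed A] [Field K] [Algebra A K]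
  [IsFractionRing A K] [Field L] [Algebra K L] [Algebra A L] [IsScalarTower A K L]

/-- The derivative of the minimal polynomial has an integral inverse at `x` as soon as the
derivative of some monic polynomial vanishing at `x` has one. -/
theorem exists_minpoly_deriv_inv (hinjL : Function.Injective (algebraMap A L)) (x : L) (Φ : A[X])
    (hm : Φ.Monic) (hroot : aeval x Φ = 0)
    (hder : ∃ w : L, IsIntegral A w ∧ w * aeval x (derivative Φ) = 1) :
    ∃ y : L, IsIntegral A y ∧ y * aeval x (derivative (minpoly A x)) = 1 := by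
  have hx : IsIntegral A x := ⟨Φ, hm, by rw [← aeval_def]; exact hroot⟩
  have htf : Module.IsTorsionFree A L := Module.isTorsionFree_iff_algebraMap_injective.mpr hinjL
  obtain ⟨g, hg⟩ := minpoly.isIntegrallyClosed_dvd hx hroot
  obtain ⟨w, hw, hwd⟩ := hder
  have hgx : IsIntegral A (aeval x g) := by
    have h1 : aeval x g ∈ Algebra.adjoin A {x} := aeval_mem_adjoin_singleton _ _
    exact Algebra.adjoin_le (S := integralClosure A L) (Set.singleton_subset_iff.mpr hx) h1
  refine ⟨w * aeval x g, hw.mul hgx, ?_⟩
  have h2 : aeval x (derivative Φ) = aeval x (derivative (minpoly A x)) * aeval x g := by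
    rw [hg, derivative_mul, map_add, map_mul, map_mul, minpoly.aeval, zero_mul, add_zero]
  rw [h2] at hwd
  rw [← hwd]
  ring

/-- Monogenic self-dual lattices along a root of a monic polynomial `Φ` (not necessarily
irreducible) whose derivative at the root has an integral inverse. -/
theorem sd_of_root (x : L) (Φ : A[X]) (hm : Φ.Monic) (hroot : aeval x Φ = 0)
    (hgen : IntermediateField.adjoin K {x} = ⊤)
    (hder : ∃ w : L, IsIntegral A w ∧ w * aeval x (derivative Φ) = 1) :
    SelfDual.SD A K L (Algebra.adjoin A {x}) := by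
  have hx : IsIntegral A x := ⟨Φ, hm, by rw [← aeval_def]; exact hroot⟩
  have hinjL : Function.Injective (algebraMap A L) := by
    rw [IsScalarTower.algebraMap_eq A K L]
    exact (algebraMap K L).injective.comp (IsFractionRing.injective A K)
  obtain ⟨y, hy, hyd⟩ := exists_minpoly_deriv_inv hinjL x Φ hm hroot hder
  have hirr : Irreducible ((minpoly A x).map (algebraMap A K)) := by
    rw [← minpoly.isIntegrallyClosed_eq_field_fractions' K hx]
    exact minpoly.irreducible hx.tower_top
  have hmem : y ∈ Algebra.adjoin A {x} :=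
    GaussGen.mem_adjoin_of_isIntegral_of_mul_eq_one x (minpoly A x) (minpoly.monic hx) hirr
      (minpoly.aeval A x) hgen y hy hyd
  exact SelfDual.SD.of_adjoin x hx hgen ⟨y, hmem, hyd⟩

end Monogenic

section Tower

variable {O K E₁ E₂ : Type*} [CommRing O] [IsIntegrallyClosed O] [Field K] [Algebra O K]
  [IsFractionRing O K] [Field E₁] [Algebra K E₁]
  [Algebra O E₁] [IsScalarTower O K E₁] [Field E₂] [Algebra E₁ E₂] [Algebra K E₂] [Algebra O E₂]
  [IsScalarTower K E₁ E₂] [IsScalarTower O K E₂] [IsScalarTower O E₁ E₂]

/-- **Tower step.**  `Lam₁` self-dual for `E₁/K` over `O`, `E₂ = E₁(x)`, `x` a root of a monic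
`Φ ∈ Lam₁[X]` such that `Φ'(x)` has an inverse integral over `Lam₁`: then `Lam₁[x]` is self-dual
for `E₂/K` over `O`. -/
theorem sd_adjoin_root {Lam₁ : Subalgebra O E₁} (h₁ : SelfDual.SD O K E₁ Lam₁) (x : E₂)
    (Φ : Polynomial Lam₁) (hm : Φ.Monic) (hroot : aeval x Φ = 0)
    (hgen : IntermediateField.adjoin E₁ {x} = ⊤)
    (hder : ∃ w : E₂, IsIntegral Lam₁ w ∧ w * aeval x (derivative Φ) = 1) :
    SelfDual.SD O K E₂ ((Algebra.adjoin Lam₁ {x}).restrictScalars O) := by
  have hinj : Function.Injective (algebraMap O K) := IsFractionRing.injective O K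
  have : IsDomain O := hinj.isDomain
  have hic : IsIntegrallyClosed Lam₁ := h₁.isIntegrallyClosed
  have hfr : IsFractionRing Lam₁ E₁ := h₁.isFractionRing
  exact h₁.trans hinj (sd_of_root x Φ hm hroot hgen hder)

omit [IsIntegrallyClosed O] in
/-- Integrality over `Lam₁` is integrality over `O` (for the `hder` hypothesis of
`sd_adjoin_root`, when the inverse is known to be integral over `O`). -/
theorem isIntegral_lam_of_isIntegral {Lam₁ : Subalgebra O E₁} {w : E₂} (hw : IsIntegral O w) :
    IsIntegral Lam₁ w := by
  obtain ⟨P, hP, hPw⟩ := hw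
  refine ⟨P.map (algebraMap O Lam₁), hP.map _, ?_⟩
  rw [eval₂_map]
  have h1 : (algebraMap Lam₁ E₂).comp (algebraMap O Lam₁) = algebraMap O E₂ := by
    ext o
    rw [RingHom.comp_apply, IsScalarTower.algebraMap_apply Lam₁ E₁ E₂,
      IsScalarTower.algebraMap_apply O E₁ E₂]
    rfl
  rw [h1]
  exact hPw

end Tower

end Fermat.Agent.RedLib.SDStep
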