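import Mathlib
import Fermat.Agent.RedLib.GaussTower
import Fermat.Agent.RedLib.SDStep
import Fermat.Agent.RedLib.CoverDeriv
import Fermat.Agent.RedLib.Tower

/-!
# RedLib/GaussTop: the Gauss lattice of the top field `FF = F_u(t)`

Provider side of AG, step 2 of the tower `K(j) ⊆ F_K ⊆ F_u ⊆ FF`: the integral closure of the
Gauss valuation ring `OjV` of `K(j)` in the top field `FF` (`t` a root of the cover polynomial
`num - j den`) is self-dual, as soon as every `g(t)`, `g ∈ A0[X]` primitive at `π`, has an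
integral inverse (hypothesis `(U1)`).
-/

set_option autoImplicit false

noncomputable section

namespace Fermat.Agent.RedLib.GaussTop

open ModularCurve Polynomial IntermediateField Fermat.Agent.RedLib.GaussK
  Fermat.Agent.RedLib.GaussBase Fermat.Agent.RedLib.Inst Fermat.Agent.RedLib.SelfDual
  Fermat.Agent.RedLib.GaussTower Fermat.Agent.RedLib.CoverData

/-! ### The monic normalisation of the cover polynomial -/

section PhiMonic

variable (two : Bool) {S : Type*} [CommRing S]

/-- `v * (num - j * den)`; monic when `v * lead = 1`. -/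
def phiMonic (v j : S) : S[X] := C v * (num two S - C j * den two S)

theorem phiMonic_monic (v j : S) (hv : v * ((lead two : ℕ) : S) = 1) :
    (phiMonic two v j).Monic := by
  apply monic_of_natDegree_le_of_coeff_eq_one (nG two)
  · refine (natDegree_C_mul_le _ _).trans ((natDegree_sub_le _ _).trans
      (max_le (natDegree_num_le two S) ?_))
    exact (natDegree_C_mul_le _ _).trans (natDegree_den_lt two S).le
  · rw [phiMonic, coeff_C_mul, coeff_sub, coeff_C_mul, coeff_num,
      coeff_eq_zero_of_natDegree_lt (natDegree_den_lt two S), mul_zero, sub_zero]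
    exact hv

variable {B : Type*} [CommRing B] [Algebra S B]

theorem aeval_phiMonic (v j : S) (t : B)
    (ht : (num two B).eval t = algebraMap S B j * (den two B).eval t) :
    aeval t (phiMonic two v j) = 0 := by
  rw [phiMonic, map_mul, map_sub, map_mul, aeval_C, aeval_C, aeval_num, aeval_den, ht,
    sub_self, mul_zero]

theorem aeval_derivative_phiMonic (v j : S) (t : B) :
    aeval t (derivative (phiMonic two v j))
      = algebraMap S B v * ((derivative (num two B)).eval t
          - algebraMap S B j * (derivative (den two B)).eval t) := by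
  rw [phiMonic, derivative_C_mul, derivative_sub, derivative_C_mul, map_mul, map_sub, map_mul,
    aeval_C, aeval_C, aeval_def, aeval_def, ← eval_map, ← eval_map, ← derivative_map,
    ← derivative_map, num_map, den_map]

end PhiMonic

variable {K : Type*} [Field K] {k : Type*} [Field k] {A0 : Subring K} {red : A0 →+* k} {π : K}

section Oj

variable (h : IsGaussDatum A0 red π) (N : ℕ)

/-- `j` as an element of the Gauss valuation ring of `K(j)`. -/
def jOj : ↥(OjV h N) :=
  ⟨AdjoinSimple.gen K (jK N K), by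
    rw [mem_OjV_iff]
    exact GaussFF.jqModC_mem_Oint⟩

theorem algebraMap_jOj_FK : algebraMap ↥(OjV h N) (FK N K) (jOj h N) = jK N K := rfl

theorem natCast_cOj (n : ℕ) : cOj h N (n : ↥A0) = (n : ↥(OjV h N)) := map_natCast _ n

end Oj

section Top

variable [CharZero K] (h : IsGaussDatum A0 red π) (N : ℕ) (two : Bool) (p : ℕ) (u : FK N K)
  [Fact (Irreducible (kum p u))]

local notation "FFt" => FF p u (num two ℤ) (den two ℤ)
local notation "ttt" => tt p u (num two ℤ) (den two ℤ)

omit [CharZero K] in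
theorem algebraMap_jOj_FF :
    algebraMap ↥(OjV h N) FFt (jOj h N) = jFF p u (num two ℤ) (den two ℤ) := by
  rw [IsScalarTower.algebraMap_apply ↥(OjV h N) (FK N K) FFt, algebraMap_jOj_FK]
  rfl

/-- The root equation over the Gauss valuation ring. -/
theorem eval_tt_Oj :
    (num two FFt).eval ttt = algebraMap ↥(OjV h N) FFt (jOj h N) * (den two FFt).eval ttt := by
  rw [algebraMap_jOj_FF]
  exact Tower.eval_tt_cover two p u

omit [CharZero K] in
theorem isUnit_lead_Oj (hlead : IsUnit ((lead two : ℕ) : ↥A0)) :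
    IsUnit ((lead two : ℕ) : ↥(OjV h N)) := by
  have := hlead.map (cOj h N)
  rwa [natCast_cOj] at this

/-- `t` is integral over the Gauss valuation ring of `K(j)`. -/
theorem isIntegral_tt (hlead : IsUnit ((lead two : ℕ) : ↥A0)) : IsIntegral ↥(OjV h N) ttt :=
  CoverFacts.isIntegral_t two (isUnit_lead_Oj h N two hlead) (jOj h N) ttt
    (eval_tt_Oj h N two p u)

/-- Polynomial expressions in `t` are integral over the Gauss valuation ring of `K(j)`. -/
theorem isIntegral_aeval_tt (hlead : IsUnit ((lead two : ℕ) : ↥A0)) (P : (↥(OjV h N))[X]) :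
    IsIntegral ↥(OjV h N) (aeval ttt P) := by
  have h1 : aeval ttt P ∈ Algebra.adjoin ↥(OjV h N) {ttt} := aeval_mem_adjoin_singleton _ _
  exact Algebra.adjoin_le (S := integralClosure ↥(OjV h N) FFt)
    (Set.singleton_subset_iff.mpr (isIntegral_tt h N two p u hlead)) h1

/-- **The `t`-step**: `LamU[t]` is self-dual over the Gauss valuation ring of `K(j)`, given
`(U1)`. -/
theorem sd_adjoin (hsdU : SD ↥(OjV h N) ↥(K⟮jK N K⟯) (Fu p u) (LamU h N p u))
    (π0 : ↥A0) (hπ0 : Prime π0) (hlead : IsUnit ((lead two : ℕ) : ↥A0))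
    (hU1 : ∀ g : (↥A0)[X], ¬ C π0 ∣ g →
      ∃ w : FFt, IsIntegral ↥(OjV h N) w ∧ aeval ttt g * w = 1) :
    SD ↥(OjV h N) ↥(K⟮jK N K⟯) FFt
      ((Algebra.adjoin ↥(LamU h N p u) {ttt}).restrictScalars ↥(OjV h N)) := by
  obtain ⟨v, hv⟩ := (isUnit_lead_Oj h N two hlead).exists_left_inv
  have hleadπ : ¬ π0 ∣ ((lead two : ℕ) : ↥A0) := fun hd =>
    hπ0.not_isUnit (isUnit_of_dvd_unit hd hlead)
  obtain ⟨w0, hw0, hw0e⟩ := CoverDeriv.exists_deriv_inv two hπ0 hleadπ
    (jFF p u (num two ℤ) (den two ℤ)) ttt (Tower.eval_tt_cover two p u)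
    (fun w => IsIntegral ↥(OjV h N) w) hU1
  refine SDStep.sd_adjoin_root hsdU ttt
    ((phiMonic two v (jOj h N)).map (algebraMap ↥(OjV h N) ↥(LamU h N p u)))
    ((phiMonic_monic two v _ hv).map _) ?_ ?_ ?_
  · rw [aeval_map_algebraMap]
    exact aeval_phiMonic two v (jOj h N) ttt (eval_tt_Oj h N two p u)
  · exact IntermediateField.adjoin_eq_top_of_algebra _ _ (adjoin_tt p u _ _)
  · refine ⟨algebraMap ↥(OjV h N) FFt ((lead two : ℕ) : ↥(OjV h N))
      * ((den two FFt).eval ttt * w0), ?_, ?_⟩
    · apply SDStep.isIntegral_lam_of_isIntegral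
      refine isIntegral_algebraMap.mul (IsIntegral.mul ?_ hw0)
      rw [← aeval_den two (R := ↥(OjV h N))]
      exact isIntegral_aeval_tt h N two p u hlead _
    · rw [derivative_map, aeval_map_algebraMap, aeval_derivative_phiMonic, algebraMap_jOj_FF]
      have e : algebraMap ↥(OjV h N) FFt v * algebraMap ↥(OjV h N) FFt ((lead two : ℕ) : ↥(OjV h N))
          = 1 := by
        rw [← map_mul, hv, map_one]
      linear_combination
        ((derivative (num two FFt)).eval ttt
          - jFF p u (num two ℤ) (den two ℤ) * (derivative (den two FFt)).eval ttt)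
          * ((den two FFt).eval ttt * w0) * e + hw0e

/-- **The integral closure of the Gauss valuation ring of `K(j)` in the top field is
self-dual**, given `(U1)`. -/
theorem sd_top (hsdU : SD ↥(OjV h N) ↥(K⟮jK N K⟯) (Fu p u) (LamU h N p u))
    (π0 : ↥A0) (hπ0 : Prime π0) (hlead : IsUnit ((lead two : ℕ) : ↥A0))
    (hU1 : ∀ g : (↥A0)[X], ¬ C π0 ∣ g →
      ∃ w : FFt, IsIntegral ↥(OjV h N) w ∧ aeval ttt g * w = 1) :
    SD ↥(OjV h N) ↥(K⟮jK N K⟯) FFt (integralClosure ↥(OjV h N) FFt) := by
  have h1 := sd_adjoin h N two p u hsdU π0 hπ0 hlead hU1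
  rw [← h1.eq_integralClosure]
  exact h1

omit [CharZero K] in
/-- `LamTop` is the integral closure (as a set). -/
theorem mem_LamTop_iff_mem (z : FFt) :
    z ∈ LamTop h N p u (num two ℤ) (den two ℤ) ↔ z ∈ integralClosure ↥(OjV h N) FFt := Iff.rfl

theorem tt_mem_LamTop (hlead : IsUnit ((lead two : ℕ) : ↥A0)) :
    ttt ∈ LamTop h N p u (num two ℤ) (den two ℤ) :=
  isIntegral_tt h N two p u hlead

/-- Polynomial expressions over `A0` in `t` are integral over the Gauss valuation ring of
`K(j)` (the `hint` input of `GaussEtale.isGaussEtale_of_sd`). -/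
theorem isIntegral_aeval_tt_A0 (hlead : IsUnit ((lead two : ℕ) : ↥A0)) (P : (↥A0)[X]) :
    IsIntegral ↥(OjV h N) (aeval ttt P) := by
  have h1 : aeval ttt P ∈ Algebra.adjoin ↥A0 {ttt} := aeval_mem_adjoin_singleton _ _
  exact Algebra.adjoin_le (S := LamTop h N p u (num two ℤ) (den two ℤ))
    (Set.singleton_subset_iff.mpr (tt_mem_LamTop h N two p u hlead)) h1

omit [CharZero K] in
/-- `LamTop` is stable under the automorphisms of `FF` over `F_u` (AG's `hLamσ`). -/
theorem map_mem_LamTop (σ : FFt ≃ₐ[Fu p u] FFt) (y : FFt)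
    (hy : y ∈ LamTop h N p u (num two ℤ) (den two ℤ)) :
    σ y ∈ LamTop h N p u (num two ℤ) (den two ℤ) := by
  have hy' : IsIntegral ↥(OjV h N) y := hy
  show IsIntegral ↥(OjV h N) (σ y)
  exact hy'.map ((σ : FFt →ₐ[Fu p u] FFt).restrictScalars ↥(OjV h N))

end Top

end Fermat.Agent.RedLib.GaussTop
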