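import Mathlib
import Fermat.Agent.RedLib.CoreWire
import Fermat.Agent.RedLib.GaussTower
import Fermat.Agent.RedLib.AG
import Fermat.Agent.RedLib.EFam
import Fermat.Agent.RedLib.A0Facts

/-!
# S18 long shot, leaf W7 (W-a): the generic geometric statement `GenCore` from `AG_core`

`genCore_of_provTop` : `CoreWire.GenCore N l` from the abstract geometric theorem `AG.AG_core`
applied to the tower `F_K ⊆ F_u ⊆ FF` with the lattice `GaussTower.LamTop`, given the two
provider facts `hLam` (Gauss lattice on the `t`-line) and `hgen` (etale over the Gauss ring of the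
`t`-line) for `LamTop` (`ProvTop`).
-/

set_option autoImplicit false
set_option linter.style.haveILetI false
set_option linter.unusedSectionVars false

noncomputable section

namespace Fermat.Agent.RedLib.GenCoreProof

open Polynomial ModularCurve AlgebraicCurve IntermediateField
open Fermat.Agent.RedLib
open Fermat.Agent.RedLib.Tower (Lb)
open Fermat.Agent.RedLib.GaussK Fermat.Agent.RedLib.GaussBase
open Fermat.Agent.RedLib.Inst (FK Fu FF tt Tu kum jK)
open Fermat.Agent.RedLib.CoverData (num den lead)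
open Fermat.Agent.RedLib.SelfDual (SD)

set_option synthInstance.maxHeartbeats 400000

section Datum

variable {K : Type*} [Field K] {k : Type*} [Field k] {A0 : Subring K} {red : ↥A0 →+* k} {π : K}

/-- The uniformiser of a Gauss datum, as an element of `A0`. -/
def pi0 (h : IsGaussDatum A0 red π) : ↥A0 := ⟨π, h.pi_mem⟩

theorem coe_pi0 (h : IsGaussDatum A0 red π) : ((pi0 h : ↥A0) : K) = π := rfl

theorem ker_red (h : IsGaussDatum A0 red π) : RingHom.ker red = Ideal.span {pi0 h} := by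
  ext x
  rw [RingHom.mem_ker, Ideal.mem_span_singleton]
  constructor
  · intro hx
    obtain ⟨y, hy⟩ := h.red_eq_zero x hx
    exact ⟨y, Subtype.ext hy⟩
  · rintro ⟨y, rfl⟩
    rw [map_mul, h.red_pi (pi0 h) rfl, zero_mul]

theorem ker_red_eq_maximalIdeal (h : IsGaussDatum A0 red π) [IsLocalRing ↥A0] :
    RingHom.ker red = IsLocalRing.maximalIdeal ↥A0 := by
  have : (RingHom.ker red).IsMaximal := RingHom.ker_isMaximal_of_surjective red h.red_surjective
  exact IsLocalRing.eq_maximalIdeal this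

theorem isUnit_of_red_ne_zero (h : IsGaussDatum A0 red π) [IsLocalRing ↥A0] {x : ↥A0}
    (hx : red x ≠ 0) : IsUnit x := by
  by_contra hnu
  have h1 : x ∈ IsLocalRing.maximalIdeal ↥A0 := (IsLocalRing.mem_maximalIdeal x).mpr hnu
  rw [← ker_red_eq_maximalIdeal h, RingHom.mem_ker] at h1
  exact hx h1

theorem irreducible_pi0 (h : IsGaussDatum A0 red π)
    [IsDiscreteValuationRing ↥A0] : Irreducible (pi0 h) := by
  rw [IsDiscreteValuationRing.irreducible_iff_uniformizer, ← ker_red_eq_maximalIdeal h, ker_red h]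

end Datum

section EFamTop

variable {K : Type*} [Field K] {k : Type*} [Field k] {A0 : Subring K} {red : ↥A0 →+* k} {π : K}

/-- The e-family of the Kummer extension for the lattice `LamTop`. -/
theorem exists_efam_top (h : IsGaussDatum A0 red π) (N : ℕ) {p : ℕ} (hp : p.Prime) (u : FK N K)
    [Fact (Irreducible (kum p u))] (Pn Pd : ℤ[X])
    (hsdU : SD ↥(OjV h N) ↥(K⟮jK N K⟯) (Fu p u) (GaussTower.LamU h N p u))
    (hu : u ∈ LamFK h N)
    (hu1 : ∃ w ∈ LamFK h N, u - 1 = algebraMap K (FK N K) π * w)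
    (ζ pinv : ↥A0) (hζ : IsPrimitiveRoot ζ p) (hpinv : (p : ↥A0) * pinv = 1) :
    ∃ e : Fin p → Fu p u,
      (∀ i, algebraMap (Fu p u) (FF p u Pn Pd) (e i) ∈ GaussTower.LamTop h N p u Pn Pd) ∧
      (∀ i, ∃ z ∈ GaussTower.LamTop h N p u Pn Pd,
        algebraMap (Fu p u) (FF p u Pn Pd) (e i * e i - e i) = pi0 h • z) ∧
      (∀ i j, i ≠ j → ∃ z ∈ GaussTower.LamTop h N p u Pn Pd,
        algebraMap (Fu p u) (FF p u Pn Pd) (e i * e j) = pi0 h • z) ∧
      (∀ i, ¬ ∃ z ∈ GaussTower.LamTop h N p u Pn Pd,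
        algebraMap (Fu p u) (FF p u Pn Pd) (e i) = pi0 h • z) := by
  refine EFam.exists_efam (R0 := ↥(LamFK h N)) (FK := FK N K) K (pi0 h) hp ζ pinv hζ hpinv
    (Tu p u) (GaussTower.LamTop h N p u Pn Pd) ?hT ?hTp ?hind ?hdec ?hπ1
  case hT =>
    exact (GaussTower.algebraMap_mem_LamTop_iff h N p u Pn Pd hsdU _).mpr
      (GaussTower.Tu_mem_LamU h N p u)
  case hTp =>
    obtain ⟨w, hw, hw1⟩ := hu1
    refine ⟨algebraMap (Fu p u) (FF p u Pn Pd) (algebraMap (FK N K) (Fu p u) w),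
      (GaussTower.algebraMap_mem_LamTop_iff h N p u Pn Pd hsdU _).mpr
        (GaussTower.algebraMap_mem_LamU h N p u ⟨w, hw⟩), ?_⟩
    show _ = (⟨π, h.pi_mem⟩ : ↥A0) • _
    rw [GaussTower.pi_smul_FF h N p u Pn Pd, Inst.Tu_pow,
      ← map_one (algebraMap (FK N K) (Fu p u)), ← map_sub, hw1, map_mul, map_mul,
      ← IsScalarTower.algebraMap_apply K (FK N K) (Fu p u),
      ← IsScalarTower.algebraMap_apply K (Fu p u) (FF p u Pn Pd)]
  case hind => exact A0Facts.linearIndependent_root_pow u Fact.out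
  case hdec =>
    intro z hz
    rw [GaussTower.algebraMap_mem_LamTop_iff h N p u Pn Pd hsdU] at hz
    obtain ⟨c, hc, hzc⟩ := GaussTower.exists_coeff_of_mem_LamU h N p u hp.ne_zero hu z hz
    rw [hzc]
    refine Submodule.sum_mem _ fun a _ => ?_
    have e1 : algebraMap (FK N K) (Fu p u) (c a) * Tu p u ^ (a : ℕ)
        = (⟨c a, hc a⟩ : ↥(LamFK h N)) • Tu p u ^ (a : ℕ) := by
      rw [Algebra.smul_def]
      rfl
    rw [e1]
    exact Submodule.smul_mem _ _ (Submodule.subset_span ⟨a, rfl⟩)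
  case hπ1 =>
    intro c hc
    have e1 : algebraMap ↥A0 (Fu p u) (pi0 h) * algebraMap ↥(LamFK h N) (Fu p u) c
        = algebraMap (FK N K) (Fu p u) (algebraMap K (FK N K) π * (c : FK N K)) := by
      rw [map_mul]
      rfl
    rw [e1, ← map_one (algebraMap (FK N K) (Fu p u))] at hc
    exact GaussTower.pi_mul_ne_one h N _ c.2 ((algebraMap (FK N K) (Fu p u)).injective hc)

end EFamTop

section Main

/-- The two provider facts for the lattice `LamTop` on the `t`-line. -/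
def ProvTop (N : ℕ) [NeZero N] (l : ℕ) [Fact l.Prime] : Prop :=
  ∀ {K : Type} [Field K] [CharZero K] {k : Type} [Field k] [CharP k l] [PerfectField k]
    {A0 : Subring K} {red : ↥A0 →+* k} {π : K} (h : IsGaussDatum A0 red π)
    [IsDiscreteValuationRing ↥A0] [IsFractionRing ↥A0 K]
    (two : Bool) (_ : IsUnit (((lead two : ℕ) : ↥A0))) (ζ3 : ↥A0) (_ : ζ3 ^ 2 + ζ3 + 1 = 0)
    {p : ℕ} (_ : p.Prime) (u : FK N K) [Fact (Irreducible (kum p u))]
    (_ : SD ↥(OjV h N) ↥(K⟮jK N K⟯) (Fu p u) (GaussTower.LamU h N p u)),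
    AGDefs.IsGaussLattice ↥A0 (pi0 h) (tt p u (num two ℤ) (den two ℤ))
        (GaussTower.LamTop h N p u (num two ℤ) (den two ℤ)) ∧
      AGDefs.IsGaussEtale ↥A0 (pi0 h)
        (IntermediateField.AdjoinSimple.gen K (tt p u (num two ℤ) (den two ℤ)))
        (GaussTower.LamTop h N p u (num two ℤ) (den two ℤ))

/-- **`GenCore` from the abstract geometric theorem and the provider facts.** -/
theorem genCore_of_provTop (N : ℕ) [NeZero N] (l : ℕ) [Fact l.Prime] (hlN : ¬ l ∣ N)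
    (hprov : ProvTop N l) : CoreWire.GenCore N l := by
  intro K _ _ _ _ k _ _ _ A0 red π h _ _ two htwo ζ3 hζ3 p hp hpl ζp hζp y₁ y₂ h₁ h₂ hne heq _ _
    hdiv
  obtain ⟨hu, hui, hu1⟩ := GaussTower.quot_facts h N y₁ y₂ h₁ h₂ hne heq
  generalize ((⟨_, h₁⟩ : FK N K) / ⟨_, h₂⟩) = u at *
  -- `u ≠ 0`
  have hu0 : u ≠ 0 := by
    intro h0
    obtain ⟨w, hw, hw1⟩ := hu1
    rw [h0, zero_sub] at hw1
    refine GaussTower.pi_mul_ne_one h N (-w) ((LamFK h N).neg_mem hw) ?_
    rw [mul_neg, ← hw1, neg_neg]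
  -- `p` is a unit of `A0`
  have hpk : ((p : ℕ) : k) ≠ 0 := by
    intro h0
    have h1 : l ∣ p := (CharP.cast_eq_zero_iff k l p).mp h0
    exact hpl (((Nat.prime_dvd_prime_iff_eq Fact.out hp).mp h1).symm)
  have hpu : IsUnit ((p : ℕ) : ↥A0) := isUnit_of_red_ne_zero h (by rw [map_natCast]; exact hpk)
  obtain ⟨pinv, hpinv⟩ := hpu.exists_right_inv
  have hpK : ((p : ℕ) : K) ≠ 0 := Nat.cast_ne_zero.mpr hp.ne_zero
  have hpi : algebraMap K (FK N K) ((p : K))⁻¹ ∈ LamFK h N := by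
    have e1 : ((p : ℕ) : K) * (pinv : K) = 1 := by
      have := congrArg (Subtype.val : ↥A0 → K) hpinv
      simpa using this
    have e2 : ((p : K))⁻¹ = (pinv : K) := inv_eq_of_mul_eq_one_right e1
    rw [e2]
    exact GaussTower.algebraMap_mem_LamFK h N pinv
  have hsd := GaussBase.sd_LamFK N l hlN h
  have hsdU := GaussTower.sd_LamU h N p u hpK hu0 hsd hu hui hpi
  obtain ⟨e, heLam, hidem, horth, hne'⟩ := exists_efam_top h N hp u (num two ℤ) (den two ℤ) hsdU
    hu hu1 ζp pinv hζp hpinv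
  obtain ⟨hLam, hgen⟩ := hprov h two htwo ζ3 hζ3 hp u hsdU
  have hζ3K : ((ζ3 : ↥A0) : K) ^ 2 + (ζ3 : K) + 1 = 0 := by
    have := congrArg (Subtype.val : ↥A0 → K) hζ3
    simpa using this
  haveI := Tower.isGalois two p u (ζ3 : K) hζ3K
  have h3 : two = true → IsUnit (3 : ↥A0) := by
    intro h2
    subst h2
    have h27 : IsUnit ((27 : ℕ) : ↥A0) := htwo
    refine isUnit_of_dvd_unit ⟨9, ?_⟩ h27
    push_cast
    norm_num
  have hLamσ : ∀ σ : FF p u (num two ℤ) (den two ℤ) ≃ₐ[Fu p u] FF p u (num two ℤ) (den two ℤ),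
      ∀ y ∈ GaussTower.LamTop h N p u (num two ℤ) (den two ℤ),
        σ y ∈ GaussTower.LamTop h N p u (num two ℤ) (den two ℤ) := by
    intro σ y hy
    rw [GaussTower.mem_LamTop_iff] at hy ⊢
    exact hy.map ((σ : FF p u (num two ℤ) (den two ℤ) →ₐ[Fu p u]
      FF p u (num two ℤ) (den two ℤ)).restrictScalars ↥(OjV h N))
  obtain ⟨y, hli, hint⟩ := AG.AG_core (pi0 h) (irreducible_pi0 h)
    (tt p u (num two ℤ) (den two ℤ)) (Tower.transcendental_tt two p u)
    (TowerAG.cuspSet two ζ3) (TowerAG.isUnit_sub_cuspSet two ζ3 hζ3 h3)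
    (GaussTower.LamTop h N p u (num two ℤ) (den two ℤ)) hLam hLamσ hgen
    (TowerAG.hunr_AG two p u ζ3 hζ3 hp.ne_zero hu0 hdiv) e heLam hidem horth hne'
  exact ⟨y, hli, fun i =>
    A0Facts.isAlgebraic_of_isIntegral (IsFractionRing.injective ↥A0 K) (hint i)⟩

end Main

end Fermat.Agent.RedLib.GenCoreProof
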