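/-
S18 long shot, provider side, piece (T5): the concrete `hLam` of `AG.AG_core` for the coordinate
`tt` of the top field `FF = F_u(t)`: the integral closure `LamTop` of the Gauss valuation ring
`OjV` of `K(j)` in `FF` is the Gauss lattice `AGDefs.IsGaussLattice ↥A0 π0 tt`.

The only input kept as a hypothesis is `U1` (every `g(tt)`, `π0 ∤ g`, has an inverse integral over
`OjV`).
-/
import Mathlib
import Fermat.Agent.RedLib.GaussTower
import Fermat.Agent.RedLib.InstA0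
import Fermat.Agent.RedLib.GaussFrac
import Fermat.Agent.RedLib.GaussLamJ
import Fermat.Agent.RedLib.GaussChange
import Fermat.Agent.RedLib.CoverGauss
import Fermat.Agent.RedLib.CoverFacts
import Fermat.Agent.RedLib.Tower

set_option autoImplicit false
set_option linter.unusedVariables false
set_option linter.unusedSectionVars false

noncomputable section

namespace Fermat.Agent.RedLib.ProvLam

open ModularCurve Polynomial IntermediateField Fermat.Agent.RedLib.GaussK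
  Fermat.Agent.RedLib.GaussBase Fermat.Agent.RedLib.Inst Fermat.Agent.RedLib.SelfDual
  Fermat.Agent.RedLib.GaussTower Fermat.Agent.RedLib.CoverData Fermat.Agent.RedLib.AGDefs
  Fermat.Agent.RedLib

variable {K : Type*} [Field K] [CharZero K] {k : Type*} [Field k] {A0 : Subring K}
  {red : ↥A0 →+* k} {π : K} (h : IsGaussDatum A0 red π) (N : ℕ) (two : Bool) (p : ℕ)
  (u : FK N K) [Fact (Irreducible (kum p u))]

/-- **The concrete `hLam`**, for any prime `π0` of `A0`, the three structure facts of `OjV`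
(fractions, polynomials, units) being stated in the top field. -/
theorem isGaussLattice_tt_of_top
    (π0 : ↥A0) (hπ0 : Prime π0) (hlead : IsUnit ((lead two : ℕ) : ↥A0))
    (hfrac : ∀ o : ↥(OjV h N), ∃ P Q : (↥A0)[X], ¬ C π0 ∣ Q ∧
      algebraMap ↥(OjV h N) (FF p u (num two ℤ) (den two ℤ)) o *
        aeval (jFF p u (num two ℤ) (den two ℤ)) Q = aeval (jFF p u (num two ℤ) (den two ℤ)) P)
    (hpoly : ∀ P : (↥A0)[X], ∃ o : ↥(OjV h N),
      algebraMap ↥(OjV h N) (FF p u (num two ℤ) (den two ℤ)) o =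
        aeval (jFF p u (num two ℤ) (den two ℤ)) P)
    (hunit : ∀ Q : (↥A0)[X], ¬ C π0 ∣ Q → ∃ o : ↥(OjV h N),
      algebraMap ↥(OjV h N) (FF p u (num two ℤ) (den two ℤ)) o *
        aeval (jFF p u (num two ℤ) (den two ℤ)) Q = 1)
    (hU1 : ∀ g : (↥A0)[X], ¬ C π0 ∣ g → ∃ w : FF p u (num two ℤ) (den two ℤ),
      IsIntegral ↥(OjV h N) w ∧ aeval (tt p u (num two ℤ) (den two ℤ)) g * w = 1) :
    IsGaussLattice ↥A0 π0 (tt p u (num two ℤ) (den two ℤ))
      (LamTop h N p u (num two ℤ) (den two ℤ)) := by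
  have hleadπ : ¬ π0 ∣ ((lead two : ℕ) : ↥A0) := fun hd =>
    hπ0.not_isUnit (isUnit_of_dvd_unit hd hlead)
  have hcov := Tower.eval_tt_cover two p u
  have hLamj : IsGaussLattice ↥A0 π0 (jFF p u (num two ℤ) (den two ℤ))
      (LamTop h N p u (num two ℤ) (den two ℤ)) :=
    GaussLamJ.isGaussLattice_j_of_top hπ0 _ hfrac hpoly hunit _
      (fun y => mem_LamTop_iff h N p u (num two ℤ) (den two ℤ) y)
  have hjmem : jFF p u (num two ℤ) (den two ℤ) ∈ Algebra.adjoin ↥A0
      ({jFF p u (num two ℤ) (den two ℤ)} : Set (FF p u (num two ℤ) (den two ℤ))) :=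
    Algebra.subset_adjoin (Set.mem_singleton _)
  have ht : IsIntegral (Algebra.adjoin ↥A0
      ({jFF p u (num two ℤ) (den two ℤ)} : Set (FF p u (num two ℤ) (den two ℤ))))
      (tt p u (num two ℤ) (den two ℤ)) := by
    refine CoverFacts.isIntegral_t two ?_ ⟨_, hjmem⟩ _ hcov
    have := hlead.map (algebraMap ↥A0 (Algebra.adjoin ↥A0
      ({jFF p u (num two ℤ) (den two ℤ)} : Set (FF p u (num two ℤ) (den two ℤ)))))
    rwa [map_natCast] at this
  refine GaussChange.isGaussLattice_of_cover hπ0 _ _ _ hLamj ht (num two ↥A0) (den two ↥A0)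
    (CoverGauss.not_C_dvd_den two hπ0) ?_ ?_ ?_
  · rw [aeval_num, aeval_den]
    exact hcov
  · intro Q hQ
    obtain ⟨Q', hQ', hQQ'⟩ := CoverGauss.gauss_den two hπ0 hleadπ _ _ hcov Q hQ
    exact ⟨Q', hQ', by rw [aeval_den]; exact hQQ'⟩
  · intro g hg
    obtain ⟨w, hw, hgw⟩ := hU1 g hg
    exact ⟨w, (mem_LamTop_iff h N p u (num two ℤ) (den two ℤ) w).mpr hw, hgw⟩

/-- Polynomials in `j` over `A0`, from `K(j)` to the top field. -/
theorem algebraMap_aeval_jJ (Pn Pd : ℤ[X]) (P : (↥A0)[X]) :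
    algebraMap ↥(K⟮jK N K⟯) (FF p u Pn Pd) (aeval (GaussFrac.jJ N K) P) =
      aeval (jFF p u Pn Pd) P := by
  rw [← GaussFrac.aeval_map_subtype N P,
    IsScalarTower.algebraMap_apply ↥(K⟮jK N K⟯) (FK N K) (FF p u Pn Pd)]
  have h1 := Polynomial.aeval_algebraMap_apply (FK N K) (GaussFrac.jJ N K) (P.map A0.subtype)
  rw [AdjoinSimple.algebraMap_gen] at h1
  rw [← h1, ← Polynomial.aeval_algebraMap_apply (FF p u Pn Pd) (jK N K) (P.map A0.subtype)]
  exact Polynomial.aeval_map_algebraMap K (jFF p u Pn Pd) P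

/-- **(T5)** `hLam` of `AG.AG_core` for the concrete tower. -/
theorem hLam [IsDiscreteValuationRing ↥A0] (hπ : Irreducible (⟨π, h.pi_mem⟩ : ↥A0))
    (htwo : IsUnit ((lead two : ℕ) : ↥A0))
    (hU1 : ∀ g : (↥A0)[X], ¬ C (⟨π, h.pi_mem⟩ : ↥A0) ∣ g →
      ∃ w : FF p u (num two ℤ) (den two ℤ), IsIntegral ↥(OjV h N) w ∧
        aeval (tt p u (num two ℤ) (den two ℤ)) g * w = 1) :
    IsGaussLattice ↥A0 (⟨π, h.pi_mem⟩ : ↥A0) (tt p u (num two ℤ) (den two ℤ))
      (LamTop h N p u (num two ℤ) (den two ℤ)) := by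
  have hco : ∀ o : ↥(OjV h N), algebraMap ↥(OjV h N) (FF p u (num two ℤ) (den two ℤ)) o =
      algebraMap ↥(K⟮jK N K⟯) (FF p u (num two ℤ) (den two ℤ))
        (algebraMap ↥(OjV h N) ↥(K⟮jK N K⟯) o) := fun o =>
    IsScalarTower.algebraMap_apply ↥(OjV h N) ↥(K⟮jK N K⟯) (FF p u (num two ℤ) (den two ℤ)) o
  refine isGaussLattice_tt_of_top h N two p u _ (GaussFrac.prime_piA h) htwo ?_ ?_ ?_ hU1
  · intro o
    obtain ⟨P, Q, hQ, hPQ⟩ := GaussFrac.exists_frac h N hπ o
    refine ⟨P, Q, hQ, ?_⟩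
    rw [hco, ← algebraMap_aeval_jJ N p u, ← algebraMap_aeval_jJ N p u, ← map_mul, hPQ]
  · intro P
    obtain ⟨o, ho⟩ := GaussFrac.exists_eq_aeval h N P
    exact ⟨o, by rw [hco, ho, algebraMap_aeval_jJ N p u]⟩
  · intro Q hQ
    obtain ⟨o, ho⟩ := GaussFrac.exists_mul_aeval_eq_one h N hπ Q hQ
    exact ⟨o, by rw [hco, ← algebraMap_aeval_jJ N p u, ← map_mul, ho, map_one]⟩

end Fermat.Agent.RedLib.ProvLam
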