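import Mathlib
import Fermat.Agent.RedLib.GaussTower
import Fermat.Agent.RedLib.InstA0
import Fermat.Agent.RedLib.Tower
import Fermat.Agent.RedLib.GaussProv
import Fermat.Agent.RedLib.GaussFrac

/-!
# RedLib/ProvU1: the concrete `U1`

For the concrete tower `K(j) ⊆ F_K ⊆ F_u ⊆ FF = F_u(t)`: for every `g ∈ A0[X]` not divisible by
the uniformiser, `g(t)` has an inverse which is integral over the Gauss valuation ring `OjV` of
`K(j)` (`u1`).  Proof: the concrete instance `datum` of the abstract `GaussProv.Datum`.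
-/

set_option autoImplicit false

noncomputable section

namespace Fermat.Agent.RedLib.ProvU1

open ModularCurve Polynomial IntermediateField Fermat.Agent.RedLib.GaussK
  Fermat.Agent.RedLib.GaussBase Fermat.Agent.RedLib.Inst Fermat.Agent.RedLib.SelfDual
  Fermat.Agent.RedLib.GaussTower Fermat.Agent.RedLib.CoverData Fermat.Agent.RedLib.AGDefs
  Fermat.Agent.RedLib.GaussFrac

variable {K : Type*} [Field K] {k : Type*} [Field k] {A0 : Subring K}
  {red : ↥A0 →+* k} {π : K} (h : IsGaussDatum A0 red π) (N : ℕ)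

/-- `π` is a uniformiser of `A0`. -/
theorem irreducible_pi0 : Irreducible (⟨π, h.pi_mem⟩ : ↥A0) :=
  (prime_piA h).irreducible

include h in
/-- Elements of `A0` with nonzero reduction are units. -/
theorem inv_mem_of_red_ne_zero (x : ↥A0) (hx : red x ≠ 0) : ((x : K))⁻¹ ∈ A0 := by
  obtain ⟨v, hv⟩ := (isUnit_of_red_ne_zero h x hx).exists_right_inv
  have h1 : (x : K) * (v : K) = 1 := congrArg Subtype.val hv
  rw [inv_eq_of_mul_eq_one_right h1]
  exact v.2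

/-- `j` as an element of the Gauss valuation ring. -/
def jo : ↥(OjV h N) := ⟨jJ N K, by
  have h1 := aeval_mem_OjV h N (X : (↥A0)[X])
  rwa [Polynomial.map_X, aeval_X] at h1⟩

theorem coe_jo : ((jo h N : ↥(OjV h N)) : ↥(K⟮jK N K⟯)) = jJ N K := rfl

theorem algebraMap_comp_cOj :
    (algebraMap ↥(OjV h N) ↥(K⟮jK N K⟯)).comp (cOj h N) = algebraMap ↥A0 ↥(K⟮jK N K⟯) :=
  RingHom.ext fun _ => rfl

/-- Evaluation at `jo`, in `K(j)`. -/
theorem coe_eval₂_jo (Q : (↥A0)[X]) :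
    algebraMap ↥(OjV h N) ↥(K⟮jK N K⟯) (Q.eval₂ (cOj h N) (jo h N)) = aeval (jJ N K) Q := by
  rw [hom_eval₂, algebraMap_comp_cOj, aeval_def]
  rfl

theorem isUnit_eval₂_jo {π0 : ↥A0} (hπ0 : Irreducible π0) (Q : (↥A0)[X]) (hQ : ¬ C π0 ∣ Q) :
    IsUnit (Q.eval₂ (cOj h N) (jo h N)) := by
  obtain ⟨o, ho⟩ := exists_mul_aeval_eq_one h N hπ0 Q hQ
  refine isUnit_iff_exists_inv'.mpr ⟨o, ?_⟩
  apply Subtype.val_injective
  rw [← coe_eval₂_jo h N] at ho
  exact ho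

theorem exists_frac_jo {π0 : ↥A0} (hπ0 : Irreducible π0) (o : ↥(OjV h N)) :
    ∃ P Q : (↥A0)[X], ¬ C π0 ∣ Q ∧
      o * Q.eval₂ (cOj h N) (jo h N) = P.eval₂ (cOj h N) (jo h N) := by
  obtain ⟨P, Q, hQ, hPQ⟩ := exists_frac h N hπ0 o
  refine ⟨P, Q, hQ, ?_⟩
  apply Subtype.val_injective
  rw [← coe_eval₂_jo h N, ← coe_eval₂_jo h N] at hPQ
  exact hPQ

theorem not_isUnit_cOj_pi : ¬ IsUnit (cOj h N (⟨π, h.pi_mem⟩ : ↥A0)) := by
  intro hu
  obtain ⟨v, hv⟩ := hu.exists_right_inv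
  have h1 : embJ N K (algebraMap K ↥(K⟮jK N K⟯) π) * embJ N K (v : ↥(K⟮jK N K⟯)) = 1 := by
    rw [← map_mul]
    have h2 := congrArg (fun x : ↥(OjV h N) => embJ N K (x : ↥(K⟮jK N K⟯))) hv
    exact h2.trans (map_one _)
  have e : embJ N K (algebraMap K ↥(K⟮jK N K⟯) π) = HahnSeries.C π := by
    rw [← coe_algebraMap_FK N]
    rfl
  rw [e] at h1
  have hv' : embJ N K (v : ↥(K⟮jK N K⟯)) ∈ Oint red := v.2
  have e2 : (⟨HahnSeries.C π, C_pi_mem_Oint h⟩ : Oint red) * ⟨_, hv'⟩ = 1 := Subtype.ext h1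
  have e3 := congrArg (rho red) e2
  rw [map_mul, rho_C_pi h, zero_mul, map_one] at e3
  exact zero_ne_one e3

section Top

variable (two : Bool) (p : ℕ) (u : FK N K) [Fact (Irreducible (kum p u))]

theorem algebraMap_jo_FF :
    algebraMap ↥(OjV h N) (FF p u (num two ℤ) (den two ℤ)) (jo h N)
      = jFF p u (num two ℤ) (den two ℤ) := by
  rw [IsScalarTower.algebraMap_apply ↥(OjV h N) (FK N K) (FF p u (num two ℤ) (den two ℤ))]
  rfl

theorem isUnit_of_mul_eq_one (o : ↥(OjV h N)) (w : FF p u (num two ℤ) (den two ℤ))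
    (hw : IsIntegral ↥(OjV h N) w)
    (how : algebraMap ↥(OjV h N) (FF p u (num two ℤ) (den two ℤ)) o * w = 1) : IsUnit o := by
  have ho0 : (o : ↥(K⟮jK N K⟯)) ≠ 0 := by
    intro h0
    have : o = 0 := Subtype.ext h0
    rw [this, map_zero, zero_mul] at how
    exact zero_ne_one how
  have hw2 : w = algebraMap ↥(K⟮jK N K⟯) (FF p u (num two ℤ) (den two ℤ))
      ((o : ↥(K⟮jK N K⟯))⁻¹) := by
    rw [map_inv₀]
    rw [IsScalarTower.algebraMap_apply ↥(OjV h N) ↥(K⟮jK N K⟯)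
      (FF p u (num two ℤ) (den two ℤ))] at how
    exact eq_inv_of_mul_eq_one_right how
  rw [hw2, isIntegral_algebraMap_iff
    (RingHom.injective (algebraMap ↥(K⟮jK N K⟯) (FF p u (num two ℤ) (den two ℤ))))] at hw
  obtain ⟨y, hy⟩ := IsIntegrallyClosed.isIntegral_iff.mp hw
  refine isUnit_iff_exists_inv.mpr ⟨y, ?_⟩
  apply Subtype.val_injective
  show (o : ↥(K⟮jK N K⟯)) * (y : ↥(K⟮jK N K⟯)) = 1
  have hy' : (y : ↥(K⟮jK N K⟯)) = (o : ↥(K⟮jK N K⟯))⁻¹ := hy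
  rw [hy', mul_inv_cancel₀ ho0]

/-- The concrete instance of the abstract provider datum. -/
theorem datum [CharZero K] [IsDiscreteValuationRing ↥A0] (htwo : IsUnit ((lead two : ℕ) : ↥A0)) (ζ3 : ↥A0)
    (hζ3 : ζ3 ^ 2 + ζ3 + 1 = 0) :
    Fermat.Agent.RedLib.GaussProv.Datum (⟨π, h.pi_mem⟩ : ↥A0) (cOj h N) (jo h N) two
      (tt p u (num two ℤ) (den two ℤ)) where
  compat := algebraMap_cOj_FF h N p u (num two ℤ) (den two ℤ)
  unit := isUnit_eval₂_jo h N (irreducible_pi0 h)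
  frac := exists_frac_jo h N (irreducible_pi0 h)
  nonunit := not_isUnit_cOj_pi h N
  closed := isUnit_of_mul_eq_one h N two p u
  lead := htwo
  root := by
    rw [algebraMap_jo_FF]
    exact Fermat.Agent.RedLib.Tower.eval_tt_cover two p u
  zeta := ⟨ζ3, hζ3⟩

/-- **U1**: `g(t)` is a unit of the integral closure of the Gauss valuation ring, `π ∤ g`. -/
theorem u1 [CharZero K] [IsDiscreteValuationRing ↥A0] (htwo : IsUnit ((lead two : ℕ) : ↥A0)) (ζ3 : ↥A0)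
    (hζ3 : ζ3 ^ 2 + ζ3 + 1 = 0) (g : (↥A0)[X]) (hg : ¬ C (⟨π, h.pi_mem⟩ : ↥A0) ∣ g) :
    ∃ w : FF p u (num two ℤ) (den two ℤ), IsIntegral ↥(OjV h N) w ∧
      aeval (tt p u (num two ℤ) (den two ℤ)) g * w = 1 :=
  (datum h N two p u htwo ζ3 hζ3).exists_inv (irreducible_pi0 h) g hg

end Top

end Fermat.Agent.RedLib.ProvU1
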