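import Mathlib
import Fermat.Agent.RedLib.GenCoreProof
import Fermat.Agent.RedLib.GaussTop
import Fermat.Agent.RedLib.GaussFrac
import Fermat.Agent.RedLib.ProvU1
import Fermat.Agent.RedLib.ProvLam
import Fermat.Agent.RedLib.GaussHgen

/-!
# S18 long shot, leaf W7: the generic geometric statement `CoreWire.GenCore`

`genCore` : `CoreWire.GenCore N l` for `l ∤ N`, from `GenCoreProof.genCore_of_provTop` and the
provider facts: (U1) `ProvU1.u1`, the self-dual lattice at the top `GaussTop.sd_top`,
`hLam` = `ProvLam.hLam` and `hgen` = `GaussHgen.hgen_top`.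
-/

set_option autoImplicit false

namespace Fermat.Agent.RedLib.GenCoreFinal

open Fermat.Agent.RedLib
open Fermat.Agent.RedLib.CoverData (num den lead)

set_option synthInstance.maxHeartbeats 400000

/-- The two provider facts for the lattice `GaussTower.LamTop`. -/
theorem provTop (N : ℕ) [NeZero N] (l : ℕ) [Fact l.Prime] : GenCoreProof.ProvTop N l := by
  intro K _ _ k _ _ _ A0 red π h _ _ two htwo ζ3 hζ3 p _ u _ hsdU
  have hπ : Irreducible (GenCoreProof.pi0 h) := GenCoreProof.irreducible_pi0 h
  have hU1 := ProvU1.u1 h N two p u htwo ζ3 hζ3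
  have hsd := GaussTop.sd_top h N two p u hsdU (GenCoreProof.pi0 h) hπ.prime htwo hU1
  refine ⟨ProvLam.hLam h N two p u hπ htwo hU1, ?_⟩
  exact GaussHgen.hgen_top h N two p u hsd (GenCoreProof.pi0 h) hπ
    (fun hd => hπ.not_isUnit (isUnit_of_dvd_unit hd htwo)) (GaussFrac.exists_frac h N hπ)
    (GaussTop.isIntegral_tt h N two p u htwo) hU1
    (GaussTower.LamTop h N p u (num two ℤ) (den two ℤ)) (fun _ => Iff.rfl)

/-- **The generic geometric statement.** -/
theorem genCore (N : ℕ) [NeZero N] (l : ℕ) [Fact l.Prime] (hlN : ¬ l ∣ N) :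
    CoreWire.GenCore N l :=
  GenCoreProof.genCore_of_provTop N l hlN (provTop N l)

end Fermat.Agent.RedLib.GenCoreFinal
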