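import Mathlib

/-!
# Global sections of the two-chart cover of the projective line are finite

`A0` an integrally closed noetherian domain with fraction field `K` of characteristic zero,
`FF` a field over `K`, `jj : FF` transcendental over `K` with `FF` finite over `K(jj)`.
Then an element of `FF` integral over `A0[jj]` and over `A0[jj⁻¹]` is integral over `A0`,
and the integral closure of `A0` in `FF` is a finite `A0`-module.
-/

set_option autoImplicit false

namespace Fermat.Agent.RedLib.GlobalSec

open Polynomial

section charts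

variable {A0 FF : Type*} [CommRing A0] [Field FF] [Algebra A0 FF]

/-- An element integral over both `A0[jj]` and `A0[jj⁻¹]` is integral over `A0`. -/
theorem isIntegral_of_two_charts (jj x : FF)
    (h1 : IsIntegral (Algebra.adjoin A0 {jj}) x)
    (h2 : IsIntegral (Algebra.adjoin A0 {jj⁻¹}) x) : IsIntegral A0 x := by
  classical
  set s : Set FF := ((⊥ : Subalgebra A0 FF) : Set FF) with hs
  have hcl : Subring.closure s = (⊥ : Subalgebra A0 FF).toSubring :=
    Subring.closure_eq (⊥ : Subalgebra A0 FF).toSubring
  have key : x ∈ (⨅ V : {V : ValuationSubring FF // s ⊆ V.toSubring}, V.1.toSubring) := by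
    rw [Subring.mem_iInf]
    rintro ⟨V, hV⟩
    -- `V` as a subalgebra
    let Vs : Subalgebra A0 FF :=
      { V.toSubring.toSubsemiring with
        algebraMap_mem' := fun r => hV (by
          rw [hs]; exact (⊥ : Subalgebra A0 FF).algebraMap_mem r) }
    have hint : ∀ (y : FF), y ∈ V → IsIntegral (Algebra.adjoin A0 {y}) x → x ∈ V := by
      intro y hy hx
      have hle : Algebra.adjoin A0 {y} ≤ Vs :=
        Algebra.adjoin_le (by
          intro z hz
          rw [Set.mem_singleton_iff] at hz
          subst hz
          exact hy)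
      obtain ⟨p, hp, hpx⟩ := hx
      let f : (Algebra.adjoin A0 {y}) →+* V :=
        { toFun := fun z => ⟨z.1, hle z.2⟩
          map_one' := rfl
          map_mul' := fun _ _ => rfl
          map_zero' := rfl
          map_add' := fun _ _ => rfl }
      have hxV : IsIntegral V x := by
        refine ⟨p.map f, hp.map f, ?_⟩
        rw [Polynomial.eval₂_map]
        exact hpx
      obtain ⟨z, hz⟩ := (IsIntegrallyClosed.isIntegral_iff (R := V) (K := FF)).mp hxV
      rw [← hz]
      exact z.2
    rcases V.mem_or_inv_mem jj with hj | hj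
    · exact hint jj hj h1
    · exact hint jj⁻¹ hj h2
  rw [iInf_valuationSubring_superset, hcl] at key
  have hx : IsIntegral (⊥ : Subalgebra A0 FF) x := key
  have : Algebra.IsIntegral A0 (⊥ : Subalgebra A0 FF) := by
    constructor
    rintro ⟨z, hz⟩
    obtain ⟨r, rfl⟩ := Algebra.mem_bot.mp hz
    have : (⟨algebraMap A0 FF r, hz⟩ : (⊥ : Subalgebra A0 FF)) =
        algebraMap A0 (⊥ : Subalgebra A0 FF) r := rfl
    rw [this]
    exact isIntegral_algebraMap
  exact isIntegral_trans x hx

end charts

section finite

open IntermediateField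

variable {K FF : Type*} [Field K] [Field FF] [Algebra K FF]

/-- `jj` transcendental over `K`: a polynomial relation with algebraic (linearly independent)
coefficients is trivial. -/
theorem eq_zero_of_sum_aeval_mul {ι : Type*} (jj : FF) (hjj : Transcendental K jj)
    (y : ι → FF) (hy : LinearIndependent K y) (halg : ∀ i, IsAlgebraic K (y i))
    (s : Finset ι) (P : ι → K[X]) (h : ∑ i ∈ s, aeval jj (P i) * y i = 0) :
    ∀ i ∈ s, P i = 0 := by
  classical
  let K' := algebraicClosure K FF
  have htr : Transcendental K' jj := by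
    intro halg'
    exact hjj (IsAlgebraic.restrictScalars K halg')
  let y' : ι → K' := fun i => ⟨y i, mem_algebraicClosure_iff.mpr (halg i)⟩
  have hy' : LinearIndependent K y' := by
    have h1 : LinearIndependent K ((K'.val.toLinearMap) ∘ y') := hy
    exact LinearIndependent.of_comp _ h1
  let G : K'[X] := ∑ i ∈ s, (P i).map (algebraMap K K') * C (y' i)
  have hG : aeval jj G = 0 := by
    simp only [G, map_sum, map_mul, aeval_C, aeval_map_algebraMap]
    exact h
  have hG0 : G = 0 := by
    by_contra hne
    exact htr ⟨G, hne, hG⟩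
  intro i hi
  ext k
  have hk : G.coeff k = 0 := by rw [hG0]; simp
  have hk' : ∑ i ∈ s, (P i).coeff k • y' i = 0 := by
    rw [← hk]
    simp only [G, finsetSum_coeff, coeff_mul_C, coeff_map, Algebra.smul_def]
  have := (linearIndependent_iff'.mp hy') s (fun i => (P i).coeff k) hk' i hi
  simpa using this

/-- Algebraic `K`-linearly independent elements stay linearly independent over `K(jj)`. -/
theorem linearIndependent_adjoin {ι : Type*} (jj : FF) (hjj : Transcendental K jj)
    (y : ι → FF) (hy : LinearIndependent K y) (halg : ∀ i, IsAlgebraic K (y i)) :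
    LinearIndependent (IntermediateField.adjoin K {jj}) y := by
  classical
  rw [linearIndependent_iff']
  intro s g hg
  have hrs : ∀ i, ∃ r q : K[X], q ≠ 0 ∧ ((g i : FF)) * aeval jj q = aeval jj r := by
    intro i
    obtain ⟨r, q, hrq⟩ := (IntermediateField.mem_adjoin_simple_iff K ((g i : FF))).mp (g i).2
    by_cases hq : q = 0
    · refine ⟨0, 1, one_ne_zero, ?_⟩
      rw [hrq, hq]; simp
    · refine ⟨r, q, hq, ?_⟩
      have hq' : aeval jj q ≠ 0 := fun h0 => hjj ⟨q, hq, h0⟩
      rw [hrq, div_mul_cancel₀ _ hq']
  choose r q hq hgq using hrs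
  let P : ι → K[X] := fun i => r i * ∏ k ∈ s.erase i, q k
  have hsum : ∑ i ∈ s, aeval jj (P i) * y i = 0 := by
    have h0 : (aeval jj (∏ k ∈ s, q k)) * ∑ i ∈ s, (g i : FF) * y i = 0 := by
      have : ∑ i ∈ s, (g i : FF) * y i = 0 := by
        have := hg
        simpa [IntermediateField.smul_def] using this
      rw [this, mul_zero]
    rw [Finset.mul_sum] at h0
    rw [← h0]
    refine Finset.sum_congr rfl fun i hi => ?_
    have hprod : ∏ k ∈ s, q k = q i * ∏ k ∈ s.erase i, q k :=
      (Finset.mul_prod_erase s q hi).symm
    simp only [P, map_mul]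
    rw [hprod, map_mul, ← hgq i]
    ring
  have hP := eq_zero_of_sum_aeval_mul jj hjj y hy halg s P hsum
  intro i hi
  have hPi := hP i hi
  have hprod : ∏ k ∈ s.erase i, q k ≠ 0 := Finset.prod_ne_zero_iff.mpr fun k _ => hq k
  have hri : r i = 0 := by
    rcases mul_eq_zero.mp hPi with h | h
    · exact h
    · exact absurd h hprod
  have hq' : aeval jj (q i) ≠ 0 := fun h0 => hjj ⟨q i, hq i, h0⟩
  have h1 : (g i : FF) * aeval jj (q i) = 0 := by rw [hgq i, hri, map_zero]
  have h2 : (g i : FF) = 0 := by
    rcases mul_eq_zero.mp h1 with h | h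
    · exact h
    · exact absurd h hq'
  exact Subtype.ext h2

/-- The algebraic closure of `K` in `FF` is finite over `K`. -/
theorem finiteDimensional_algebraicClosure (jj : FF) (hjj : Transcendental K jj)
    [FiniteDimensional (IntermediateField.adjoin K {jj}) FF] :
    FiniteDimensional K (algebraicClosure K FF) := by
  classical
  refine Module.rank_lt_aleph0_iff.mp ?_
  refine lt_of_le_of_lt (rank_le (n := Module.finrank (IntermediateField.adjoin K {jj}) FF) ?_)
    (Cardinal.natCast_lt_aleph0)
  intro s hs
  have h1 : LinearIndependent K (fun i : s => (((i : algebraicClosure K FF)) : FF)) := by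
    have := hs.map' (algebraicClosure K FF).val.toLinearMap
      (LinearMap.ker_eq_bot.mpr Subtype.val_injective)
    exact this
  have h2 := linearIndependent_adjoin jj hjj _ h1
    (fun i => mem_algebraicClosure_iff.mp (i : algebraicClosure K FF).2)
  have := h2.fintype_card_le_finrank
  simpa using this

end finite

section fg

variable {A0 K FF : Type*} [CommRing A0] [Field K] [Algebra A0 K]
  [Field FF] [Algebra A0 FF] [Algebra K FF] [IsScalarTower A0 K FF]

/-- Elements of `C1 ⊓ C2` are integral over `A0`. -/
theorem isIntegral_of_mem_inf_charts (jj : FF) (C1 C2 : Subalgebra A0 FF)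
    (h1 : ∀ x ∈ C1, IsIntegral (Algebra.adjoin A0 {jj}) x)
    (h2 : ∀ x ∈ C2, IsIntegral (Algebra.adjoin A0 {jj⁻¹}) x) {x : FF} (hx : x ∈ C1 ⊓ C2) :
    IsIntegral A0 x :=
  isIntegral_of_two_charts jj x (h1 x hx.1) (h2 x hx.2)

variable [IsDomain A0] [IsIntegrallyClosed A0] [IsNoetherianRing A0] [CharZero K]
  [IsFractionRing A0 K]

/-- The integral closure of `A0` in `FF` is a finite `A0`-module. -/
theorem fg_integralClosure (jj : FF) (hjj : Transcendental K jj)
    [FiniteDimensional (IntermediateField.adjoin K {jj}) FF] :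
    (Subalgebra.toSubmodule (integralClosure A0 FF)).FG := by
  classical
  let K' := algebraicClosure K FF
  have : FiniteDimensional K K' := finiteDimensional_algebraicClosure jj hjj
  have : Module.Finite A0 (integralClosure A0 K') :=
    IsIntegralClosure.finite A0 K K' (integralClosure A0 K')
  have hfg : (Subalgebra.toSubmodule (integralClosure A0 K')).FG :=
    (Submodule.fg_top _).mp (Module.finite_def.mp this) |> fun h => by
      simpa using h
  let ψ : K' →ₐ[A0] FF := K'.val.restrictScalars A0
  have hψ : Function.Injective ψ := Subtype.val_injective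
  let φ : K' →ₗ[A0] FF := ψ.toLinearMap
  have hmap : Subalgebra.toSubmodule (integralClosure A0 FF) =
      (Subalgebra.toSubmodule (integralClosure A0 K')).map φ := by
    ext x
    constructor
    · intro hx
      have hx' : IsIntegral A0 x := hx
      have halg : IsAlgebraic K x := (hx'.tower_top (A := K)).isAlgebraic
      refine ⟨⟨x, mem_algebraicClosure_iff.mpr halg⟩, ?_, rfl⟩
      show IsIntegral A0 (⟨x, mem_algebraicClosure_iff.mpr halg⟩ : K')
      exact (isIntegral_algHom_iff ψ hψ).mp hx'
    · rintro ⟨z, hz, rfl⟩
      have hz' : IsIntegral A0 z := hz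
      exact (isIntegral_algHom_iff ψ hψ).mpr hz'
  rw [hmap]
  exact hfg.map φ

/-- The global sections `C1 ⊓ C2` of the two integral charts form a finite `A0`-module. -/
theorem fg_inf_charts (jj : FF) (hjj : Transcendental K jj)
    [FiniteDimensional (IntermediateField.adjoin K {jj}) FF] (C1 C2 : Subalgebra A0 FF)
    (h1 : ∀ x ∈ C1, IsIntegral (Algebra.adjoin A0 {jj}) x)
    (h2 : ∀ x ∈ C2, IsIntegral (Algebra.adjoin A0 {jj⁻¹}) x) :
    (Subalgebra.toSubmodule (C1 ⊓ C2)).FG := by
  refine Submodule.FG.of_le (fg_integralClosure (A0 := A0) (K := K) jj hjj) ?_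
  intro x hx
  have hx' : x ∈ C1 ⊓ C2 := hx
  exact isIntegral_of_two_charts jj x (h1 x hx'.1) (h2 x hx'.2)

end fg

end Fermat.Agent.RedLib.GlobalSec
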