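/-
S18 long shot (helper8), provider side (T6): `hgen` of `AG_core` for the concrete tower, in the
exact shape of the provider stub.  Thin wrapper around `GaussHgen.hgen_top`, `GaussFrac.exists_frac`
and `GaussTop.isIntegral_tt`.
-/
import Fermat.Agent.RedLib.GaussHgen
import Fermat.Agent.RedLib.GaussFrac
import Fermat.Agent.RedLib.GaussTop

set_option autoImplicit false

namespace Fermat.Agent.RedLib.ProvEtale

open ModularCurve Polynomial IntermediateField Fermat.Agent.RedLib.GaussK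
  Fermat.Agent.RedLib.GaussBase Fermat.Agent.RedLib.Inst Fermat.Agent.RedLib.SelfDual
  Fermat.Agent.RedLib.GaussTower Fermat.Agent.RedLib.CoverData Fermat.Agent.RedLib.AGDefs

variable {K : Type*} [Field K] [CharZero K] {k : Type*} [Field k] {A0 : Subring K}
  {red : ↥A0 →+* k} {π : K} (h : IsGaussDatum A0 red π) (N : ℕ) (two : Bool) (p : ℕ)
  (u : FK N K) [Fact (Irreducible (kum p u))]

/-- (T6) `hgen` of AG_core. -/
theorem hgen [IsDiscreteValuationRing ↥A0] [IsFractionRing ↥A0 K]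
    (hπ : Irreducible (⟨π, h.pi_mem⟩ : ↥A0)) (htwo : IsUnit ((lead two : ℕ) : ↥A0))
    (LamSD : Subalgebra ↥(OjV h N) (FF p u (num two ℤ) (den two ℤ)))
    (hsd : SD ↥(OjV h N) ↥(K⟮jK N K⟯) (FF p u (num two ℤ) (den two ℤ)) LamSD)
    (hU1 : ∀ g : (↥A0)[X], ¬ C (⟨π, h.pi_mem⟩ : ↥A0) ∣ g →
      ∃ w : FF p u (num two ℤ) (den two ℤ), IsIntegral ↥(OjV h N) w ∧
        aeval (tt p u (num two ℤ) (den two ℤ)) g * w = 1) :
    IsGaussEtale ↥A0 (⟨π, h.pi_mem⟩ : ↥A0)
      (IntermediateField.AdjoinSimple.gen K (tt p u (num two ℤ) (den two ℤ)))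
      (LamTop h N p u (num two ℤ) (den two ℤ)) := by
  have hlead : ¬ (⟨π, h.pi_mem⟩ : ↥A0) ∣ ((lead two : ℕ) : ↥A0) := fun hdvd =>
    hπ.not_isUnit (isUnit_of_dvd_unit hdvd htwo)
  refine GaussHgen.hgen_top h N two p u hsd (⟨π, h.pi_mem⟩ : ↥A0) hπ hlead
    (fun o => GaussFrac.exists_frac h N hπ o) (GaussTop.isIntegral_tt h N two p u htwo) hU1
    (LamTop h N p u (num two ℤ) (den two ℤ)) (fun y => ?_)
  rw [mem_LamTop_iff, hsd.mem_iff_isIntegral]

end Fermat.Agent.RedLib.ProvEtale
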