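import Mathlib
import Fermat.Agent.RedLib.GaussTower
import Fermat.Agent.RedLib.InstA0
import Fermat.Agent.RedLib.Tower
import Fermat.Agent.RedLib.AGDefs
import Fermat.Agent.RedLib.CoverData
import Fermat.Agent.RedLib.GaussFrac
import Fermat.Agent.RedLib.GaussTop

/-!
# RedLib/ProvSD: provider piece (T3) — a self-dual lattice at the top of the tower

The `t`-step of the provider tower `K(j) ⊆ F_K ⊆ F_u ⊆ FF` in the exact shape consumed by the
final assembly: given `(U1)`, there is a lattice of `FF` which is self-dual over the Gauss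
valuation ring of `K(j)` (namely the integral closure, `GaussTop.sd_top`).
-/

set_option autoImplicit false

noncomputable section

namespace Fermat.Agent.RedLib.ProvSD

open ModularCurve Polynomial IntermediateField Fermat.Agent.RedLib.GaussK
  Fermat.Agent.RedLib.GaussBase Fermat.Agent.RedLib.Inst Fermat.Agent.RedLib.SelfDual
  Fermat.Agent.RedLib.GaussTower Fermat.Agent.RedLib.CoverData Fermat.Agent.RedLib.AGDefs

variable {K : Type*} [Field K] [CharZero K] {k : Type*} [Field k] {A0 : Subring K}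
  {red : ↥A0 →+* k} {π : K} (h : IsGaussDatum A0 red π) (N : ℕ) (two : Bool) (p : ℕ)
  (u : FK N K) [Fact (Irreducible (kum p u))]

/-- (T3), explicit form: the integral closure of the Gauss valuation ring of `K(j)` in the top
field is self-dual. -/
theorem sd_integralClosure (htwo : IsUnit ((lead two : ℕ) : ↥A0))
    (hsdU : SD ↥(OjV h N) ↥(K⟮jK N K⟯) (Fu p u) (LamU h N p u))
    (hU1 : ∀ g : (↥A0)[X], ¬ C (⟨π, h.pi_mem⟩ : ↥A0) ∣ g →
      ∃ w : FF p u (num two ℤ) (den two ℤ), IsIntegral ↥(OjV h N) w ∧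
        aeval (tt p u (num two ℤ) (den two ℤ)) g * w = 1) :
    SD ↥(OjV h N) ↥(K⟮jK N K⟯) (FF p u (num two ℤ) (den two ℤ))
      (integralClosure ↥(OjV h N) (FF p u (num two ℤ) (den two ℤ))) :=
  GaussTop.sd_top h N two p u hsdU ⟨π, h.pi_mem⟩ (GaussFrac.prime_piA h) htwo hU1

set_option linter.unusedVariables false in
/-- (T3) the t-step: a self-dual lattice at the top. -/
theorem sd_top (hπ : Irreducible (⟨π, h.pi_mem⟩ : ↥A0)) (htwo : IsUnit ((lead two : ℕ) : ↥A0))
    (hsdU : SD ↥(OjV h N) ↥(K⟮jK N K⟯) (Fu p u) (LamU h N p u))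
    (hU1 : ∀ g : (↥A0)[X], ¬ C (⟨π, h.pi_mem⟩ : ↥A0) ∣ g →
      ∃ w : FF p u (num two ℤ) (den two ℤ), IsIntegral ↥(OjV h N) w ∧
        aeval (tt p u (num two ℤ) (den two ℤ)) g * w = 1) :
    ∃ LamSD : Subalgebra ↥(OjV h N) (FF p u (num two ℤ) (den two ℤ)),
      SD ↥(OjV h N) ↥(K⟮jK N K⟯) (FF p u (num two ℤ) (den two ℤ)) LamSD :=
  ⟨_, sd_integralClosure h N two p u htwo hsdU hU1⟩

end Fermat.Agent.RedLib.ProvSD
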